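/-
PROJECT JAC (S25) — lead — **Hilbert scheme of points of an affine scheme via commuting matrices**,
the pure algebra: for a `k`-algebra `A`, `g : ℕ` and `v : Fin g → A`, the functor
`B ↦ {(φ : A →ₐ[k] Mat_g(B), e : B^g) | φ(v j) e = e_j}` (= ideals `I ⊂ A ⊗ B` such that
`(A ⊗ B)/I` is free over `B` with basis the classes of `v j ⊗ 1`) is represented by an explicit
`k`-algebra `HilbRing k A g v`.
-/
import Mathlib

set_option autoImplicit false

universe u

namespace Fermat.Agent.JAC

namespace HilbAlg

open MvPolynomial

noncomputable section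

variable (k : Type u) (A : Type u) [CommRing k] [CommRing A] [Algebra k A] (g : ℕ)
  (v : Fin g → A)

/-- a `B`-point: an algebra homomorphism to matrices together with a (cyclic) vector such that
the `v j` give the standard basis. -/
structure Pt (B : Type u) [CommRing B] [Algebra k B] where
  φ : A →ₐ[k] Matrix (Fin g) (Fin g) B
  e : Fin g → B
  hv : ∀ j i, ∑ l, φ (v j) i l * e l = if i = j then 1 else 0

variable {k A g v}

@[ext]
theorem Pt.ext {B : Type u} [CommRing B] [Algebra k B] {p q : Pt k A g v B} (h1 : p.φ = q.φ)
    (h2 : p.e = q.e) : p = q := by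
  cases p; cases q; congr

/-- functoriality of points. -/
def Pt.map {B B' : Type u} [CommRing B] [Algebra k B] [CommRing B'] [Algebra k B']
    (f : B →ₐ[k] B') (p : Pt k A g v B) : Pt k A g v B' where
  φ := (AlgHom.mapMatrix f).comp p.φ
  e := fun i => f (p.e i)
  hv := fun j i => by
    have h := congrArg f (p.hv j i)
    rw [map_sum] at h
    simp only [map_mul] at h
    simp only [AlgHom.comp_apply, AlgHom.mapMatrix_apply, Matrix.map_apply]
    rw [h]
    split_ifs <;> simp

theorem Pt.map_φ_apply {B B' : Type u} [CommRing B] [Algebra k B] [CommRing B'] [Algebra k B']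
    (f : B →ₐ[k] B') (p : Pt k A g v B) (a : A) (i j : Fin g) :
    (p.map f).φ a i j = f (p.φ a i j) := rfl

variable (k A g v)

/-- the variables: matrix entries `x a i j` for every `a : A`, and vector entries `ε i`. -/
abbrev Var : Type u := (A × Fin g × Fin g) ⊕ Fin g

/-- the matrix-entry variables. -/
def xv (a : A) (i j : Fin g) : MvPolynomial (Var A g) k := X (Sum.inl (a, i, j))

/-- the vector-entry variables. -/
def ev (i : Fin g) : MvPolynomial (Var A g) k := X (Sum.inr i)

/-- the relations. -/
inductive Rel : MvPolynomial (Var A g) k → Prop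
  | add (a a' : A) (i j : Fin g) : Rel (xv k A g (a + a') i j - (xv k A g a i j + xv k A g a' i j))
  | smul (c : k) (a : A) (i j : Fin g) : Rel (xv k A g (c • a) i j - C c * xv k A g a i j)
  | mul (a a' : A) (i j : Fin g) :
      Rel (xv k A g (a * a') i j - ∑ l, xv k A g a i l * xv k A g a' l j)
  | one (i j : Fin g) : Rel (xv k A g 1 i j - if i = j then 1 else 0)
  | vec (j i : Fin g) :
      Rel ((∑ l, xv k A g (v j) i l * ev k A g l) - if i = j then 1 else 0)

/-- the representing ring. -/
abbrev HilbRing : Type u := MvPolynomial (Var A g) k ⧸ Ideal.span {p | Rel k A g v p}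

variable {k A g v}

/-- the evaluation of the variables at a point. -/
def Pt.evalFun {B : Type u} [CommRing B] [Algebra k B] (p : Pt k A g v B) : Var A g → B
  | Sum.inl (a, i, j) => p.φ a i j
  | Sum.inr i => p.e i

theorem Pt.aeval_xv {B : Type u} [CommRing B] [Algebra k B] (p : Pt k A g v B) (a : A)
    (i j : Fin g) : aeval p.evalFun (xv k A g a i j) = p.φ a i j := by
  simp [xv, Pt.evalFun]

theorem Pt.aeval_ev {B : Type u} [CommRing B] [Algebra k B] (p : Pt k A g v B) (i : Fin g) :
    aeval p.evalFun (ev k A g i) = p.e i := by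
  simp [ev, Pt.evalFun]

theorem Pt.aeval_rel {B : Type u} [CommRing B] [Algebra k B] (p : Pt k A g v B)
    (q : MvPolynomial (Var A g) k) (hq : Rel k A g v q) : aeval p.evalFun q = 0 := by
  cases hq with
  | add a a' i j =>
    simp only [map_sub, map_add, Pt.aeval_xv, Matrix.add_apply, sub_self]
  | smul c a i j =>
    simp only [map_sub, map_mul, Pt.aeval_xv, aeval_C]
    rw [map_smul, Matrix.smul_apply, Algebra.smul_def, sub_self]
  | mul a a' i j =>
    simp only [map_sub, map_sum, map_mul, Pt.aeval_xv, Matrix.mul_apply, sub_self]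
  | one i j =>
    simp only [map_sub, Pt.aeval_xv, map_one, Matrix.one_apply]
    split_ifs <;> simp
  | vec j i =>
    simp only [map_sub, map_sum, map_mul, Pt.aeval_xv, Pt.aeval_ev, p.hv j i]
    split_ifs <;> simp

/-- the algebra homomorphism attached to a point. -/
def Pt.toAlgHom {B : Type u} [CommRing B] [Algebra k B] (p : Pt k A g v B) :
    HilbRing k A g v →ₐ[k] B :=
  Ideal.Quotient.liftₐ _ (aeval p.evalFun) (by
    intro q hq
    refine Submodule.span_induction (p := fun q _ => aeval p.evalFun q = 0) ?_ ?_ ?_ ?_ hq
    · intro q hq; exact p.aeval_rel q hq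
    · exact map_zero _
    · intro x y _ _ hx hy; rw [map_add, hx, hy, add_zero]
    · intro a x _ hx; rw [smul_eq_mul, map_mul, hx, mul_zero])

variable (k v)

/-- the class of a polynomial in the representing ring. -/
def cls : MvPolynomial (Var A g) k →ₐ[k] HilbRing k A g v :=
  Ideal.Quotient.mkₐ k _

variable {k v}

theorem cls_rel (q : MvPolynomial (Var A g) k) (hq : Rel k A g v q) :
    cls k v q = 0 :=
  Ideal.Quotient.eq_zero_iff_mem.mpr (Ideal.subset_span hq)

theorem cls_surjective : Function.Surjective (cls k v) := Ideal.Quotient.mkₐ_surjective k _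

theorem Pt.toAlgHom_cls {B : Type u} [CommRing B] [Algebra k B] (p : Pt k A g v B)
    (q : MvPolynomial (Var A g) k) : p.toAlgHom (cls k v q) = aeval p.evalFun q := rfl

variable (k v)

/-- the universal matrix entries. -/
def ux (a : A) (i j : Fin g) : HilbRing k A g v := cls k v (xv k A g a i j)

/-- the universal vector. -/
def ue (i : Fin g) : HilbRing k A g v := cls k v (ev k A g i)

/-- the universal matrix attached to `a`. -/
def uMat (a : A) : Matrix (Fin g) (Fin g) (HilbRing k A g v) := Matrix.of (ux k v a)

theorem uMat_apply (a : A) (i j : Fin g) : uMat k v a i j = ux k v a i j := rfl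

theorem ux_add (a a' : A) (i j : Fin g) : ux k v (a + a') i j = ux k v a i j + ux k v a' i j := by
  have h := cls_rel (k := k) (v := v) _ (Rel.add a a' i j)
  rw [map_sub, sub_eq_zero, map_add] at h
  exact h

theorem ux_smul (c : k) (a : A) (i j : Fin g) : ux k v (c • a) i j = c • ux k v a i j := by
  have h := cls_rel (k := k) (v := v) _ (Rel.smul c a i j)
  rw [map_sub, sub_eq_zero, map_mul] at h
  rw [ux, h, ← MvPolynomial.algebraMap_eq, AlgHom.commutes, ← Algebra.smul_def]
  rfl

theorem ux_mul (a a' : A) (i j : Fin g) :
    ux k v (a * a') i j = ∑ l, ux k v a i l * ux k v a' l j := by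
  have h := cls_rel (k := k) (v := v) _ (Rel.mul a a' i j)
  rw [map_sub, sub_eq_zero, map_sum] at h
  simp only [map_mul] at h
  exact h

theorem ux_one (i j : Fin g) : ux k v (1 : A) i j = if i = j then 1 else 0 := by
  have h := cls_rel (k := k) (v := v) _ (Rel.one i j)
  rw [map_sub, sub_eq_zero] at h
  rw [ux, h]
  split_ifs <;> simp

theorem ux_vec (j i : Fin g) : ∑ l, ux k v (v j) i l * ue k v l = if i = j then 1 else 0 := by
  have h := cls_rel (k := k) (v := v) _ (Rel.vec j i)
  rw [map_sub, sub_eq_zero, map_sum] at h
  simp only [map_mul] at h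
  rw [show (∑ l, ux k v (v j) i l * ue k v l) =
    ∑ l, cls k v (xv k A g (v j) i l) * cls k v (ev k A g l) from rfl, h]
  split_ifs <;> simp

/-- the universal point. -/
def univPt : Pt k A g v (HilbRing k A g v) where
  φ :=
    { toFun := uMat k v
      map_one' := by
        ext i j
        rw [uMat_apply, ux_one, Matrix.one_apply]
      map_mul' := fun a a' => by
        ext i j
        rw [uMat_apply, ux_mul, Matrix.mul_apply]
        rfl
      map_zero' := by
        ext i j
        have h := ux_smul k v (0 : k) (0 : A) i j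
        rw [zero_smul, zero_smul] at h
        rw [uMat_apply, h]
        rfl
      map_add' := fun a a' => by
        ext i j
        rw [uMat_apply, ux_add]
        rfl
      commutes' := fun c => by
        ext i j
        rw [uMat_apply, Algebra.algebraMap_eq_smul_one, ux_smul, ux_one,
          Matrix.algebraMap_matrix_apply]
        split_ifs
        · exact (Algebra.algebraMap_eq_smul_one c).symm
        · rw [smul_zero] }
  e := ue k v
  hv := fun j i => ux_vec k v j i

variable {k v}

/-- the point attached to an algebra homomorphism out of the representing ring. -/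
def ofAlgHom {B : Type u} [CommRing B] [Algebra k B] (f : HilbRing k A g v →ₐ[k] B) :
    Pt k A g v B :=
  (univPt k v).map f

theorem Pt.toAlgHom_ux {B : Type u} [CommRing B] [Algebra k B] (p : Pt k A g v B) (a : A)
    (i j : Fin g) : p.toAlgHom (ux k v a i j) = p.φ a i j := by
  rw [ux, Pt.toAlgHom_cls, Pt.aeval_xv]

theorem Pt.toAlgHom_ue {B : Type u} [CommRing B] [Algebra k B] (p : Pt k A g v B)
    (i : Fin g) : p.toAlgHom (ue k v i) = p.e i := by
  rw [ue, Pt.toAlgHom_cls, Pt.aeval_ev]

/-- **the representing ring represents the functor of points.** -/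
def ptEquiv (B : Type u) [CommRing B] [Algebra k B] :
    Pt k A g v B ≃ (HilbRing k A g v →ₐ[k] B) where
  toFun := Pt.toAlgHom
  invFun := ofAlgHom
  left_inv := fun p => by
    refine Pt.ext ?_ ?_
    · ext a i j
      exact p.toAlgHom_ux a i j
    · funext i
      exact p.toAlgHom_ue i
  right_inv := fun f => by
    -- two algebra homs agreeing on the generators
    have hgen : ∀ q : MvPolynomial (Var A g) k,
        (ofAlgHom f).toAlgHom (cls k v q) = f (cls k v q) := by
      intro q
      rw [Pt.toAlgHom_cls]
      have : (aeval (ofAlgHom f).evalFun : MvPolynomial (Var A g) k →ₐ[k] B) =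
          f.comp (cls k v) := by
        apply MvPolynomial.algHom_ext
        intro x
        rcases x with ⟨a, i, j⟩ | i
        · simp only [aeval_X, AlgHom.comp_apply]
          rfl
        · simp only [aeval_X, AlgHom.comp_apply]
          rfl
      rw [this]
      rfl
    apply AlgHom.ext
    intro y
    obtain ⟨q, rfl⟩ := cls_surjective (k := k) (v := v) y
    exact hgen q

/-- naturality of `ptEquiv`. -/
theorem ptEquiv_map {B B' : Type u} [CommRing B] [Algebra k B] [CommRing B'] [Algebra k B']
    (f : B →ₐ[k] B') (p : Pt k A g v B) :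
    ptEquiv B' (p.map f) = f.comp (ptEquiv B p) := by
  apply AlgHom.ext
  intro y
  obtain ⟨q, rfl⟩ := cls_surjective (k := k) (v := v) y
  show (p.map f).toAlgHom (cls k v q) = f (p.toAlgHom (cls k v q))
  rw [Pt.toAlgHom_cls, Pt.toAlgHom_cls]
  have : (aeval (p.map f).evalFun : MvPolynomial (Var A g) k →ₐ[k] B') =
      f.comp (aeval p.evalFun) := by
    apply MvPolynomial.algHom_ext
    intro x
    rcases x with ⟨a, i, j⟩ | i
    · simp only [aeval_X, AlgHom.comp_apply]
      rfl
    · simp only [aeval_X, AlgHom.comp_apply]
      rfl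
  rw [this]
  rfl

end

end HilbAlg

end Fermat.Agent.JAC
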