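/-
PROJECT JAC (S25) — lead — **J4b: points of the commuting-matrices functor = based ideals.**
For a point `p = (φ, e) : Pt k A g v B` the `B`-algebra map `Φ : B ⊗[k] A → Mat_g(B)`,
`b ⊗ a ↦ b • φ a`, and `ρ x := Φ x *ᵥ e`; `p.ideal := ker ρ` is an ideal of `B ⊗[k] A` whose
quotient is `B`-free with basis the classes of `1 ⊗ v j` (`Pt.basis`).  Conversely an ideal `I` with
such a basis (`IsBased v I`) gives a point (`ofIdeal`), and the two constructions are mutually
inverse (`basedEquiv`), compatibly with base change (`Pt.map_ideal`).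
-/
import Mathlib
import Fermat.Agent.JAC.HILB_lead_Matrix

set_option autoImplicit false

universe u

namespace Fermat.Agent.JAC

namespace HilbAlg

open TensorProduct

noncomputable section

variable {k : Type u} {A : Type u} [CommRing k] [CommRing A] [Algebra k A] {g : ℕ}
  {v : Fin g → A} {B : Type u} [CommRing B] [Algebra k B]

theorem Pt.commute_ofId (p : Pt k A g v B) (b : B) (a : A) :
    Commute (Algebra.ofId B (Matrix (Fin g) (Fin g) B) b) (p.φ a) :=
  Algebra.commute_algebraMap_left b (p.φ a)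

/-- the `B`-algebra homomorphism `B ⊗ A → Mat_g(B)` attached to a point. -/
def Pt.Φ (p : Pt k A g v B) : B ⊗[k] A →ₐ[B] Matrix (Fin g) (Fin g) B :=
  Algebra.TensorProduct.lift (Algebra.ofId B (Matrix (Fin g) (Fin g) B)) p.φ p.commute_ofId

theorem Pt.Φ_tmul (p : Pt k A g v B) (b : B) (a : A) : p.Φ (b ⊗ₜ a) = b • p.φ a := by
  rw [Pt.Φ, Algebra.TensorProduct.lift_tmul, Algebra.ofId_apply, Algebra.smul_def]

theorem Pt.Φ_one_tmul (p : Pt k A g v B) (a : A) : p.Φ (1 ⊗ₜ a) = p.φ a := by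
  rw [Pt.Φ_tmul, one_smul]

/-- evaluation on the cyclic vector. -/
def Pt.ρ (p : Pt k A g v B) : B ⊗[k] A →ₗ[B] (Fin g → B) where
  toFun x := (p.Φ x).mulVec p.e
  map_add' x y := by rw [map_add, Matrix.add_mulVec]
  map_smul' b x := by
    rw [map_smul, Matrix.smul_mulVec, RingHom.id_apply]

theorem Pt.ρ_apply (p : Pt k A g v B) (x : B ⊗[k] A) : p.ρ x = (p.Φ x).mulVec p.e := rfl

theorem Pt.ρ_mul (p : Pt k A g v B) (x y : B ⊗[k] A) : p.ρ (x * y) = (p.Φ x).mulVec (p.ρ y) := by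
  rw [Pt.ρ_apply, Pt.ρ_apply, map_mul, Matrix.mulVec_mulVec]

theorem Pt.ρ_one_tmul_v (p : Pt k A g v B) (j : Fin g) : p.ρ (1 ⊗ₜ v j) = Pi.single j 1 := by
  funext i
  rw [Pt.ρ_apply, Pt.Φ_one_tmul, Matrix.mulVec, dotProduct, p.hv j i, Pi.single_apply]

theorem Pt.ρ_one (p : Pt k A g v B) : p.ρ 1 = p.e := by
  rw [Pt.ρ_apply, map_one, Matrix.one_mulVec]

/-- the ideal attached to a point. -/
def Pt.ideal (p : Pt k A g v B) : Ideal (B ⊗[k] A) where
  carrier := {x | p.ρ x = 0}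
  zero_mem' := map_zero _
  add_mem' := fun {x y} hx hy => by
    show p.ρ (x + y) = 0
    rw [map_add, show p.ρ x = 0 from hx, show p.ρ y = 0 from hy, add_zero]
  smul_mem' := fun c x hx => by
    show p.ρ (c • x) = 0
    rw [smul_eq_mul, Pt.ρ_mul, show p.ρ x = 0 from hx, Matrix.mulVec_zero]

theorem Pt.mem_ideal (p : Pt k A g v B) (x : B ⊗[k] A) : x ∈ p.ideal ↔ p.ρ x = 0 := Iff.rfl

/-- a section of `ρ`. -/
def Pt.σ (w : Fin g → B) : B ⊗[k] A := ∑ j, w j ⊗ₜ[k] v j

theorem Pt.ρ_σ (p : Pt k A g v B) (w : Fin g → B) : p.ρ (Pt.σ (k := k) (v := v) w) = w := by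
  rw [Pt.σ, map_sum]
  have : ∀ j, p.ρ (w j ⊗ₜ[k] v j) = w j • Pi.single j 1 := by
    intro j
    have h : (w j ⊗ₜ[k] v j : B ⊗[k] A) = w j • ((1 : B) ⊗ₜ[k] v j) := by
      rw [TensorProduct.smul_tmul', smul_eq_mul, mul_one]
    rw [h, map_smul, Pt.ρ_one_tmul_v]
  simp only [this]
  funext i
  simp [Finset.sum_apply, Pi.single_apply]

theorem Pt.sub_σ_mem (p : Pt k A g v B) (x : B ⊗[k] A) :
    x - Pt.σ (k := k) (v := v) (p.ρ x) ∈ p.ideal := by
  rw [Pt.mem_ideal, map_sub, Pt.ρ_σ, sub_self]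

/-- `ρ` on the quotient. -/
def Pt.ρbar (p : Pt k A g v B) : ((B ⊗[k] A) ⧸ p.ideal) →ₗ[B] (Fin g → B) :=
  (Submodule.liftQ (p.ideal.restrictScalars B) p.ρ (fun _ hx => hx)).comp
    (Submodule.Quotient.restrictScalarsEquiv B p.ideal).symm.toLinearMap

theorem Pt.ρbar_mk (p : Pt k A g v B) (x : B ⊗[k] A) :
    p.ρbar (Ideal.Quotient.mk p.ideal x) = p.ρ x := rfl

theorem Pt.ρbar_injective (p : Pt k A g v B) : Function.Injective p.ρbar := by
  rw [← LinearMap.ker_eq_bot, LinearMap.ker_eq_bot']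
  intro y hy
  obtain ⟨x, rfl⟩ := Ideal.Quotient.mk_surjective y
  rw [Pt.ρbar_mk] at hy
  exact Ideal.Quotient.eq_zero_iff_mem.mpr hy

theorem Pt.ρbar_surjective (p : Pt k A g v B) : Function.Surjective p.ρbar := fun w =>
  ⟨Ideal.Quotient.mk p.ideal (Pt.σ (k := k) (v := v) w), by rw [Pt.ρbar_mk, Pt.ρ_σ]⟩

/-- the quotient by the ideal of a point is free of rank `g`. -/
def Pt.quotEquiv (p : Pt k A g v B) : ((B ⊗[k] A) ⧸ p.ideal) ≃ₗ[B] (Fin g → B) :=
  LinearEquiv.ofBijective p.ρbar ⟨p.ρbar_injective, p.ρbar_surjective⟩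

theorem Pt.quotEquiv_mk (p : Pt k A g v B) (x : B ⊗[k] A) :
    p.quotEquiv (Ideal.Quotient.mk p.ideal x) = p.ρ x := rfl

/-- the basis of the quotient given by the classes of `1 ⊗ v j`. -/
def Pt.basis (p : Pt k A g v B) : Module.Basis (Fin g) B ((B ⊗[k] A) ⧸ p.ideal) :=
  Module.Basis.ofEquivFun p.quotEquiv

theorem Pt.basis_apply (p : Pt k A g v B) (j : Fin g) :
    p.basis j = Ideal.Quotient.mk p.ideal (1 ⊗ₜ v j) := by
  apply p.quotEquiv.injective
  rw [Pt.quotEquiv_mk, Pt.ρ_one_tmul_v, Pt.basis, Module.Basis.coe_ofEquivFun,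
    LinearEquiv.apply_symm_apply]

theorem Pt.basis_repr_mk (p : Pt k A g v B) (x : B ⊗[k] A) (i : Fin g) :
    p.basis.repr (Ideal.Quotient.mk p.ideal x) i = p.ρ x i := by
  rw [Pt.basis, Module.Basis.ofEquivFun_repr_apply, Pt.quotEquiv_mk]

variable (v) in
/-- an ideal of `B ⊗ A` whose quotient is `B`-free on the classes of the `1 ⊗ v j`. -/
def IsBased (I : Ideal (B ⊗[k] A)) : Prop :=
  ∃ b : Module.Basis (Fin g) B ((B ⊗[k] A) ⧸ I), ∀ j, b j = Ideal.Quotient.mk I (1 ⊗ₜ v j)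

theorem Pt.isBased (p : Pt k A g v B) : IsBased v p.ideal := ⟨p.basis, p.basis_apply⟩

/-- the basis of a based ideal. -/
def IsBased.basis {I : Ideal (B ⊗[k] A)} (h : IsBased v I) :
    Module.Basis (Fin g) B ((B ⊗[k] A) ⧸ I) := h.choose

theorem IsBased.basis_apply {I : Ideal (B ⊗[k] A)} (h : IsBased v I) (j : Fin g) :
    h.basis j = Ideal.Quotient.mk I (1 ⊗ₜ v j) := h.choose_spec j

theorem IsBased.basis_eq {I : Ideal (B ⊗[k] A)} (h : IsBased v I)
    (b : Module.Basis (Fin g) B ((B ⊗[k] A) ⧸ I)) (hb : ∀ j, b j = Ideal.Quotient.mk I (1 ⊗ₜ v j)) :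
    h.basis = b :=
  Module.Basis.eq_of_apply_eq (fun j => by rw [h.basis_apply, hb])

/-- the point attached to a based ideal. -/
def ofIdeal (I : Ideal (B ⊗[k] A)) (h : IsBased v I) : Pt k A g v B where
  φ := ((Algebra.leftMulMatrix h.basis).restrictScalars k).comp
    ((Ideal.Quotient.mkₐ k I).comp Algebra.TensorProduct.includeRight)
  e := h.basis.equivFun 1
  hv := fun j i => by
    have h1 := Algebra.leftMulMatrix_mulVec_repr h.basis (Ideal.Quotient.mk I (1 ⊗ₜ v j)) 1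
    rw [mul_one, ← h.basis_apply j, Module.Basis.repr_self] at h1
    have h2 := congrFun h1 i
    rw [Finsupp.single_apply] at h2
    rw [show (∑ l, (((Algebra.leftMulMatrix h.basis).restrictScalars k).comp
        ((Ideal.Quotient.mkₐ k I).comp Algebra.TensorProduct.includeRight)) (v j) i l *
        h.basis.equivFun 1 l) =
      ((Algebra.leftMulMatrix h.basis) (h.basis j)).mulVec (h.basis.repr 1) i from by
        rw [h.basis_apply j]; rfl, h2]
    simp only [eq_comm]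

theorem ofIdeal_φ_apply (I : Ideal (B ⊗[k] A)) (h : IsBased v I) (a : A) :
    (ofIdeal I h).φ a = Algebra.leftMulMatrix h.basis (Ideal.Quotient.mk I (1 ⊗ₜ a)) := rfl

theorem ofIdeal_Φ (I : Ideal (B ⊗[k] A)) (h : IsBased v I) (x : B ⊗[k] A) :
    (ofIdeal I h).Φ x = Algebra.leftMulMatrix h.basis (Ideal.Quotient.mk I x) := by
  induction x with
  | zero => rw [map_zero, map_zero, map_zero]
  | add x y hx hy => rw [map_add, map_add, map_add, hx, hy]
  | tmul b a =>
    rw [Pt.Φ_tmul, ofIdeal_φ_apply, ← map_smul]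
    congr 1
    have : (b ⊗ₜ[k] a : B ⊗[k] A) = b • ((1 : B) ⊗ₜ[k] a) := by
      rw [TensorProduct.smul_tmul', smul_eq_mul, mul_one]
    rw [this]
    rfl

theorem ofIdeal_ρ (I : Ideal (B ⊗[k] A)) (h : IsBased v I) (x : B ⊗[k] A) (i : Fin g) :
    (ofIdeal I h).ρ x i = h.basis.repr (Ideal.Quotient.mk I x) i := by
  have h1 := Algebra.leftMulMatrix_mulVec_repr h.basis (Ideal.Quotient.mk I x) 1
  rw [mul_one] at h1
  rw [Pt.ρ_apply, ofIdeal_Φ, ← h1]
  rfl

theorem ofIdeal_ideal (I : Ideal (B ⊗[k] A)) (h : IsBased v I) : (ofIdeal I h).ideal = I := by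
  ext x
  rw [Pt.mem_ideal, ← Ideal.Quotient.eq_zero_iff_mem, ← h.basis.repr.map_eq_zero_iff]
  constructor
  · intro hx
    ext i
    rw [← ofIdeal_ρ, hx]
    rfl
  · intro hx
    funext i
    rw [ofIdeal_ρ, hx]
    rfl

theorem Pt.ofIdeal_ideal (p : Pt k A g v B) : ofIdeal p.ideal p.isBased = p := by
  have hb : p.isBased.basis = p.basis := p.isBased.basis_eq p.basis p.basis_apply
  refine Pt.ext ?_ ?_
  · ext a i j
    rw [ofIdeal_φ_apply, Algebra.leftMulMatrix_eq_repr_mul, hb, p.basis_apply, ← map_mul,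
      p.basis_repr_mk, Pt.ρ_mul, Pt.ρ_one_tmul_v, Pt.Φ_one_tmul]
    simp [Matrix.mulVec, dotProduct, Pi.single_apply]
  · funext i
    show p.isBased.basis.equivFun 1 i = p.e i
    rw [hb, Module.Basis.equivFun_apply, ← map_one (Ideal.Quotient.mk p.ideal), p.basis_repr_mk,
      Pt.ρ_one]

variable (k A g v B) in
/-- **points = based ideals.** -/
def basedEquiv : Pt k A g v B ≃ {I : Ideal (B ⊗[k] A) // IsBased v I} where
  toFun p := ⟨p.ideal, p.isBased⟩
  invFun I := ofIdeal I.1 I.2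
  left_inv p := p.ofIdeal_ideal
  right_inv I := Subtype.ext (ofIdeal_ideal I.1 I.2)

/-! ### base change -/

section BaseChange

variable {B' : Type u} [CommRing B'] [Algebra k B'] (f : B →ₐ[k] B')

/-- the base change map `B ⊗ A → B' ⊗ A`. -/
abbrev bcMap : B ⊗[k] A →ₐ[k] B' ⊗[k] A := Algebra.TensorProduct.map f (AlgHom.id k A)

theorem Pt.σ_add (w w' : Fin g → B) :
    Pt.σ (k := k) (v := v) (w + w') = Pt.σ (k := k) (v := v) w + Pt.σ (k := k) (v := v) w' := by
  simp only [Pt.σ, Pi.add_apply, TensorProduct.add_tmul, Finset.sum_add_distrib]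

theorem Pt.σ_zero : Pt.σ (k := k) (v := v) (0 : Fin g → B) = 0 := by
  simp only [Pt.σ, Pi.zero_apply, TensorProduct.zero_tmul, Finset.sum_const_zero]

theorem Pt.σ_smul (b : B) (w : Fin g → B) :
    Pt.σ (k := k) (v := v) (b • w) = (b ⊗ₜ[k] (1 : A)) * Pt.σ (k := k) (v := v) w := by
  simp only [Pt.σ, Pi.smul_apply, smul_eq_mul, Finset.mul_sum, Algebra.TensorProduct.tmul_mul_tmul,
    one_mul]

theorem bcMap_σ (w : Fin g → B) :
    bcMap (A := A) f (Pt.σ (k := k) (v := v) w) = Pt.σ (k := k) (v := v) (fun i => f (w i)) := by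
  simp only [Pt.σ, map_sum, Algebra.TensorProduct.map_tmul, AlgHom.id_apply]

theorem Pt.map_Φ_bcMap (p : Pt k A g v B) (x : B ⊗[k] A) :
    (p.map f).Φ (bcMap f x) = (p.Φ x).map f := by
  induction x with
  | zero => simp
  | add x y hx hy => rw [map_add, map_add, hx, hy, map_add, Matrix.map_add _ (map_add f)]
  | tmul b a =>
    rw [Algebra.TensorProduct.map_tmul, Pt.Φ_tmul, Pt.Φ_tmul, AlgHom.id_apply]
    ext i j
    simp only [Matrix.smul_apply, Matrix.map_apply, smul_eq_mul, map_mul, Pt.map_φ_apply]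

theorem Pt.map_ρ_bcMap (p : Pt k A g v B) (x : B ⊗[k] A) (i : Fin g) :
    (p.map f).ρ (bcMap f x) i = f (p.ρ x i) := by
  rw [Pt.ρ_apply, Pt.ρ_apply, Pt.map_Φ_bcMap]
  simp only [Matrix.mulVec, dotProduct, map_sum, map_mul, Matrix.map_apply]
  rfl

theorem Pt.map_ideal_le (p : Pt k A g v B) :
    Ideal.map (bcMap (A := A) f) p.ideal ≤ (p.map f).ideal := by
  rw [Ideal.map_le_iff_le_comap]
  intro x hx
  rw [Ideal.mem_comap, Pt.mem_ideal]
  funext i
  rw [Pt.map_ρ_bcMap, (p.mem_ideal x).mp hx]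
  exact map_zero f

theorem Pt.sub_σ_mem_map (p : Pt k A g v B) (y : B' ⊗[k] A) :
    y - Pt.σ (k := k) (v := v) ((p.map f).ρ y) ∈ Ideal.map (bcMap (A := A) f) p.ideal := by
  induction y with
  | zero => rw [map_zero, Pt.σ_zero, sub_zero]; exact zero_mem _
  | add x y hx hy =>
    rw [map_add, Pt.σ_add, add_sub_add_comm]
    exact add_mem hx hy
  | tmul b' a =>
    -- `1 ⊗ a = σ (ρ (1 ⊗ a)) + z`, `z ∈ I`
    have hz := p.sub_σ_mem ((1 : B) ⊗ₜ[k] a)
    set w := p.ρ ((1 : B) ⊗ₜ[k] a) with hw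
    have hFz : bcMap (A := A) f ((1 : B) ⊗ₜ[k] a - Pt.σ (k := k) (v := v) w) ∈
        Ideal.map (bcMap (A := A) f) p.ideal := Ideal.mem_map_of_mem _ hz
    rw [map_sub, bcMap_σ, Algebra.TensorProduct.map_tmul, map_one, AlgHom.id_apply] at hFz
    have h1 : (b' ⊗ₜ[k] a : B' ⊗[k] A) = (b' ⊗ₜ[k] (1 : A)) * ((1 : B') ⊗ₜ[k] a) := by
      rw [Algebra.TensorProduct.tmul_mul_tmul, mul_one, one_mul]
    have h2 : (p.map f).ρ (b' ⊗ₜ[k] a) = b' • (fun i => f (w i)) := by
      have h3 : (b' ⊗ₜ[k] a : B' ⊗[k] A) = b' • ((1 : B') ⊗ₜ[k] a) := by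
        rw [TensorProduct.smul_tmul', smul_eq_mul, mul_one]
      rw [h3, map_smul]
      congr 1
      funext i
      have := p.map_ρ_bcMap f ((1 : B) ⊗ₜ[k] a) i
      rw [Algebra.TensorProduct.map_tmul, map_one, AlgHom.id_apply] at this
      exact this
    rw [h2, Pt.σ_smul, h1, ← mul_sub]
    exact Ideal.mul_mem_left _ _ hFz

/-- **base change**: the ideal of the image point is the extension of the ideal. -/
theorem Pt.map_ideal (p : Pt k A g v B) :
    (p.map f).ideal = Ideal.map (bcMap (A := A) f) p.ideal := by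
  refine le_antisymm ?_ (p.map_ideal_le f)
  intro y hy
  have h := p.sub_σ_mem_map f y
  rw [(Pt.mem_ideal _ y).mp hy, Pt.σ_zero, sub_zero] at h
  exact h

end BaseChange

/-- the universal ideal. -/
def univIdeal (k : Type u) {A : Type u} [CommRing k] [CommRing A] [Algebra k A] {g : ℕ}
    (v : Fin g → A) : Ideal (HilbRing k A g v ⊗[k] A) := (univPt k v).ideal

/-- **every based ideal is the pull-back of the universal one along a unique homomorphism.** -/
theorem existsUnique_map_univIdeal (I : Ideal (B ⊗[k] A)) (h : IsBased v I) :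
    ∃! χ : HilbRing k A g v →ₐ[k] B, Ideal.map (bcMap (A := A) χ) (univIdeal k v) = I := by
  refine ⟨ptEquiv B (ofIdeal I h), ?_, ?_⟩
  · show Ideal.map (bcMap (A := A) (ptEquiv B (ofIdeal I h))) (univPt k v).ideal = I
    rw [← Pt.map_ideal]
    have : (univPt k v).map (ptEquiv B (ofIdeal I h)) = ofIdeal I h :=
      (ptEquiv B).left_inv (ofIdeal I h)
    rw [this, ofIdeal_ideal]
  · intro χ hχ
    have h1 : ((univPt k v).map χ).ideal = I := by rw [Pt.map_ideal]; exact hχ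
    have h2 : (univPt k v).map χ = ofIdeal I h := by
      have h3 := ((univPt k v).map χ).ofIdeal_ideal
      rw [← h3]
      congr 1
    have h4 : ptEquiv B ((univPt k v).map χ) = χ := (ptEquiv B).right_inv χ
    rw [← h4, h2]

end

end HilbAlg

end Fermat.Agent.JAC
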