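/-
PROJECT JAC (S25) — J4c (helper7): **the Cartier lemma.**

`B → R` a flat ring map with `R` noetherian, `I ⊂ R` an ideal such that `R ⧸ I` is finite and flat
over `B`, and such that for every maximal ideal `𝔓 ⊇ I` of `R` (lying over `𝔭 ⊂ B`) the fibre local
ring `R_𝔓 ⧸ 𝔭 R_𝔓` is a principal ideal domain which is not a field (e.g. a DVR).  Then `I` is an
invertible ideal: there are finitely many `h_α` generating the unit ideal and `f_α ∈ I` with
`I R_{h_α} = (f_α)` and `f_α` a nonzerodivisor of `R_{h_α}`.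

Application: `R = B ⊗[k] A`, `A` a `k`-algebra all of whose local rings at maximal ideals are DVRs
(the coordinate ring of an affine smooth curve), `B` a noetherian `k`-algebra all of whose residue
fields at maximal ideals are `k`: the universal family over the Hilbert scheme of points of a smooth
curve is a relative effective Cartier divisor.

* `flat_of_flat_quotient` : two-out-of-three for flatness (submodule).
* `mem_map_mul_of_flat_quotient` : purity `N ∩ 𝔭S = 𝔭S·N`.
* `exists_generator_of_flat_quotient_local` : the local statement.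
* `exists_local_generator`, `exists_notMem_spread` : local step at a maximal ideal, spreading out.
* `exists_cover_generators` : the Cartier lemma, abstract form.
* `map_away_eq_span_of_gen`, `algebraMap_away_mem_nonZeroDivisors` : `Localization.Away` forms.
* `exists_cover_generators_tensor`, `exists_cover_generators_tensor_of_isAlgClosed` : `R = B ⊗[k] A`.
-/
import Mathlib

set_option autoImplicit false
set_option linter.style.haveILetI false

namespace Fermat.Agent.JAC

open Module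

section FlatSub

variable {B : Type*} [CommRing B] {S : Type*} [AddCommGroup S] [Module B S]

/-- **two out of three for flatness**: a submodule of a flat module with flat quotient is flat. -/
theorem flat_of_flat_quotient (N : Submodule B S) [Module.Flat B S] [Module.Flat B (S ⧸ N)] :
    Module.Flat B N := by
  apply Module.Flat.of_forall_exists_factorization
  intro l f x hx
  -- factor `ι ∘ x` through a finite free module, `S` being flat
  have h1 : (N.subtype ∘ₗ x) f = 0 := by simp [hx]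
  obtain ⟨k, a, y, hya, haf⟩ := Module.Flat.exists_factorization_of_apply_eq_zero_of_free h1
  -- `π ∘ y ∘ a = 0`, factor `π ∘ y` using that `S ⧸ N` is flat
  have h2 : (N.mkQ ∘ₗ y) ∘ₗ a = 0 := by
    apply LinearMap.ext
    intro v
    have e0 : (N.subtype ∘ₗ x) v = (y ∘ₗ a) v := by rw [hya]
    show N.mkQ (y (a v)) = 0
    have e1 : y (a v) = (x v : S) := e0.symm
    rw [e1, Submodule.mkQ_apply, Submodule.Quotient.mk_eq_zero]
    exact (x v).2
  obtain ⟨k', a', y', hy', ha'⟩ := Module.Flat.exists_factorization_of_comp_eq_zero_of_free h2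
  -- lift `y'` to `S`
  obtain ⟨yt, hyt⟩ := Module.projective_lifting_property N.mkQ y' N.mkQ_surjective
  -- `z := y - yt ∘ a'` lands in `N`
  have hz : ∀ v, (y - yt ∘ₗ a') v ∈ N := by
    intro v
    rw [← Submodule.Quotient.mk_eq_zero, ← Submodule.mkQ_apply, LinearMap.sub_apply, map_sub,
      sub_eq_zero]
    have e1 : N.mkQ (y v) = (N.mkQ ∘ₗ y) v := rfl
    have e2 : N.mkQ ((yt ∘ₗ a') v) = (N.mkQ ∘ₗ yt) (a' v) := rfl
    rw [e1, e2, hy', hyt]
    rfl
  refine ⟨k, a, LinearMap.codRestrict N (y - yt ∘ₗ a') hz, ?_, haf⟩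
  apply LinearMap.ext
  intro v
  apply Subtype.ext
  have e3 : (N.subtype ∘ₗ x) v = (y ∘ₗ a) v := by rw [hya]
  show (x v : S) = (y - yt ∘ₗ a') (a v)
  rw [LinearMap.sub_apply]
  have e4 : (yt ∘ₗ a') (a v) = yt ((a' ∘ₗ a) v) := rfl
  rw [e4, ha']
  simp only [LinearMap.zero_apply, map_zero, sub_zero]
  exact e3

end FlatSub

section LocalCartier

variable {B S D : Type*} [CommRing B] [CommRing S] [Algebra B S]

/-- purity: if `S ⧸ N` is flat over `B` then `N ∩ 𝔭S = 𝔭S · N`. -/
theorem mem_map_mul_of_flat_quotient (𝔭 : Ideal B) (N : Ideal S) [Module.Flat B (S ⧸ N)]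
    {x : S} (hxN : x ∈ N) (hx𝔭 : x ∈ 𝔭.map (algebraMap B S)) :
    x ∈ 𝔭.map (algebraMap B S) * N := by
  have h := LinearMap.ker_inf_smul_top_eq_smul_of_flat 𝔭 (Ideal.Quotient.mkₐ B N).toLinearMap
    (Ideal.Quotient.mkₐ_surjective B N)
  have hker : LinearMap.ker (Ideal.Quotient.mkₐ B N).toLinearMap = N.restrictScalars B := by
    ext y
    simp [Ideal.Quotient.eq_zero_iff_mem]
  rw [hker, Ideal.smul_top_eq_map, ← Ideal.smul_restrictScalars] at h
  have hx : x ∈ N.restrictScalars B ⊓ (𝔭.map (algebraMap B S)).restrictScalars B := ⟨hxN, hx𝔭⟩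
  rw [h] at hx
  exact hx

/-- **Cartier lemma, local form.**  `S` a noetherian local ring, flat over `B`; `N` an ideal of `S`
with `S ⧸ N` flat over `B`; `𝔭` an ideal of `B` with `𝔭S` in the maximal ideal; `S ⧸ 𝔭S ≅ D` a
principal ideal domain in which `N` has non-zero image.  Then `N` is generated by a
nonzerodivisor. -/
theorem exists_generator_of_flat_quotient_local [IsLocalRing S] [IsNoetherianRing S]
    [Module.Flat B S] (𝔭 : Ideal B)
    (h𝔭 : 𝔭.map (algebraMap B S) ≤ IsLocalRing.maximalIdeal S)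
    (N : Ideal S) [Module.Flat B (S ⧸ N)]
    [CommRing D] [IsDomain D] [IsPrincipalIdealRing D] (π : S →+* D)
    (hπ : Function.Surjective π) (hker : RingHom.ker π = 𝔭.map (algebraMap B S))
    (hN : N.map π ≠ ⊥) :
    ∃ f ∈ N, N = Ideal.span {f} ∧ f ∈ nonZeroDivisors S := by
  have hjac : 𝔭.map (algebraMap B S) ≤ Ideal.jacobson ⊥ := by
    rw [IsLocalRing.jacobson_eq_maximalIdeal ⊥ bot_ne_top]
    exact h𝔭
  -- a generator `d` of the image of `N` in `D`, lifted to `f ∈ N`
  obtain ⟨d, hd⟩ := (IsPrincipalIdealRing.principal (N.map π)).principal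
  have hd' : N.map π = Ideal.span {d} := hd
  have hd0 : d ≠ 0 := by
    rintro rfl
    apply hN
    rw [hd']
    simp
  have hdmem : d ∈ N.map π := by
    rw [hd']
    exact Ideal.subset_span rfl
  obtain ⟨f, hfN, hfd⟩ := (Ideal.mem_map_iff_of_surjective π hπ).mp hdmem
  -- `N ≤ (f) + 𝔭S · N`
  have hle : N ≤ Ideal.span {f} ⊔ 𝔭.map (algebraMap B S) • N := by
    intro x hx
    have hxd : π x ∈ Ideal.span {d} := by
      rw [← hd']
      exact Ideal.mem_map_of_mem π hx
    obtain ⟨c, hc⟩ := Ideal.mem_span_singleton'.mp hxd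
    obtain ⟨c', rfl⟩ := hπ c
    have hdiff : x - c' * f ∈ 𝔭.map (algebraMap B S) * N := by
      apply mem_map_mul_of_flat_quotient 𝔭 N (N.sub_mem hx (N.mul_mem_left c' hfN))
      rw [← hker, RingHom.mem_ker, map_sub, map_mul, hfd, hc, sub_self]
    have hx' : x = c' * f + (x - c' * f) := by ring
    rw [hx']
    exact Submodule.add_mem_sup (Ideal.mem_span_singleton'.mpr ⟨c', rfl⟩) hdiff
  have hNf : N = Ideal.span {f} := by
    apply le_antisymm
    · exact Submodule.le_of_le_smul_of_le_jacobson_bot (IsNoetherian.noetherian N) hjac hle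
    · rw [Ideal.span_singleton_le_iff_mem]
      exact hfN
  refine ⟨f, hfN, hNf, ?_⟩
  -- `f` is a nonzerodivisor
  rw [mem_nonZeroDivisors_iff_right]
  -- the annihilator ideal `K` of `f`
  set K : Ideal S := LinearMap.ker (LinearMap.mulRight S f) with hK
  have hKmem : ∀ a, a ∈ K ↔ a * f = 0 := fun a => by
    rw [hK, LinearMap.mem_ker, LinearMap.mulRight_apply]
  suffices hK0 : K = ⊥ by
    intro a ha
    have : a ∈ K := (hKmem a).mpr ha
    rw [hK0] at this
    exact this
  -- the `B`-linear surjection `S → N`, `a ↦ a f`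
  let N' : Submodule B S := N.restrictScalars B
  have : Module.Flat B (S ⧸ N') :=
    Module.Flat.of_linearEquiv (Submodule.Quotient.restrictScalarsEquiv B N)
  have hN'flat : Module.Flat B N' := flat_of_flat_quotient N'
  let μ : S →ₗ[B] N' :=
    LinearMap.codRestrict N' ((LinearMap.mulRight S f).restrictScalars B) (fun a => by
      show a * f ∈ N
      exact N.mul_mem_left a hfN)
  have hμsurj : Function.Surjective μ := by
    rintro ⟨y, hy⟩
    have hy' : y ∈ Ideal.span {f} := by rw [← hNf]; exact hy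
    obtain ⟨a, ha⟩ := Ideal.mem_span_singleton'.mp hy'
    exact ⟨a, Subtype.ext ha⟩
  have hμker : LinearMap.ker μ = K.restrictScalars B := by
    ext a
    rw [LinearMap.mem_ker, Submodule.restrictScalars_mem, hKmem]
    constructor
    · intro h
      exact congrArg Subtype.val h
    · intro h
      exact Subtype.ext h
  have hA := LinearMap.ker_inf_smul_top_eq_smul_of_flat 𝔭 μ hμsurj
  rw [hμker, Ideal.smul_top_eq_map, ← Ideal.smul_restrictScalars] at hA
  apply Submodule.eq_bot_of_le_smul_of_le_jacobson_bot (𝔭.map (algebraMap B S)) K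
    (IsNoetherian.noetherian K) ?_ hjac
  intro a ha
  have ha0 : a * f = 0 := (hKmem a).mp ha
  have hπa : π a = 0 := by
    have h1 : π a * d = 0 := by rw [← hfd, ← map_mul, ha0, map_zero]
    exact (mul_eq_zero.mp h1).resolve_right hd0
  have ha𝔭 : a ∈ 𝔭.map (algebraMap B S) := by
    rw [← hker, RingHom.mem_ker]
    exact hπa
  have hmem : a ∈ K.restrictScalars B ⊓ (𝔭.map (algebraMap B S)).restrictScalars B :=
    ⟨ha, ha𝔭⟩
  rw [hA] at hmem
  exact hmem

end LocalCartier

section LocQuot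

variable {B R : Type*} [CommRing B] [CommRing R] [Algebra B R]
  (I : Ideal R) [Module.Flat B (R ⧸ I)] (𝔓 : Ideal R) [𝔓.IsMaximal]

theorem flat_localization_quotient :
    Module.Flat B (Localization.AtPrime 𝔓 ⧸ I.map (algebraMap R (Localization.AtPrime 𝔓))) := by
  have : Module.Flat (R ⧸ I) (Localization.AtPrime 𝔓 ⧸ I.map (algebraMap R (Localization.AtPrime 𝔓))) :=
    IsLocalization.flat _ (Algebra.algebraMapSubmonoid (R ⧸ I) 𝔓.primeCompl)
  have : IsScalarTower B (R ⧸ I)
      (Localization.AtPrime 𝔓 ⧸ I.map (algebraMap R (Localization.AtPrime 𝔓))) :=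
    IsScalarTower.of_algebraMap_eq fun b => by
      have h1 : algebraMap B (Localization.AtPrime 𝔓 ⧸ I.map (algebraMap R (Localization.AtPrime 𝔓))) b
          = Ideal.Quotient.mk _ (algebraMap B (Localization.AtPrime 𝔓) b) := rfl
      have h2 : algebraMap B (R ⧸ I) b = Ideal.Quotient.mk I (algebraMap B R b) := rfl
      rw [h1, h2, Ideal.Quotient.algebraMap_quotient_map_quotient,
        ← IsScalarTower.algebraMap_apply B R (Localization.AtPrime 𝔓)]
  exact Module.Flat.trans B (R ⧸ I) _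

end LocQuot

section Artin

variable {B R : Type*} [CommRing B] [CommRing R] [Algebra B R]

/-- a ring which is finite over `B` and killed by a maximal ideal of `B` is artinian. -/
theorem isArtinianRing_quotient_of_finite (𝔭 : Ideal B) [𝔭.IsMaximal] (J : Ideal R)
    [Module.Finite B (R ⧸ J)] (h : 𝔭 ≤ J.comap (algebraMap B R)) : IsArtinianRing (R ⧸ J) := by
  letI : Field (B ⧸ 𝔭) := Ideal.Quotient.field 𝔭
  letI : Algebra (B ⧸ 𝔭) (R ⧸ J) := Ideal.Quotient.algebraQuotientOfLEComap h
  have : IsScalarTower B (B ⧸ 𝔭) (R ⧸ J) := IsScalarTower.of_algebraMap_eq fun b => rfl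
  have : Module.Finite (B ⧸ 𝔭) (R ⧸ J) := Module.Finite.of_restrictScalars_finite B _ _
  exact IsArtinianRing.of_finite (B ⧸ 𝔭) (R ⧸ J)

/-- a maximal ideal containing `I` lies over a maximal ideal, if `R ⧸ I` is finite over `B`. -/
theorem isMaximal_comap_of_finite_quotient (I : Ideal R) [Module.Finite B (R ⧸ I)]
    (𝔓 : Ideal R) [h𝔓 : 𝔓.IsMaximal] (hI : I ≤ 𝔓) : (𝔓.comap (algebraMap B R)).IsMaximal := by
  have hsurj : Function.Surjective (Ideal.Quotient.mk I) := Ideal.Quotient.mk_surjective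
  have hmax : (𝔓.map (Ideal.Quotient.mk I)).IsMaximal := by
    refine (Ideal.map_eq_top_or_isMaximal_of_surjective _ hsurj h𝔓).resolve_left ?_
    intro htop
    have h1 : (𝔓.map (Ideal.Quotient.mk I)).comap (Ideal.Quotient.mk I) = ⊤ := by
      rw [htop, Ideal.comap_top]
    rw [Ideal.comap_map_of_surjective _ hsurj, ← RingHom.ker_eq_comap_bot, Ideal.mk_ker,
      sup_eq_left.mpr hI] at h1
    exact h𝔓.ne_top h1
  have hint : Algebra.IsIntegral B (R ⧸ I) := Algebra.IsIntegral.of_finite B (R ⧸ I)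
  have h2 := Ideal.isMaximal_comap_of_isIntegral_of_isMaximal (R := B)
    (𝔓.map (Ideal.Quotient.mk I))
  have h3 : (𝔓.map (Ideal.Quotient.mk I)).comap (algebraMap B (R ⧸ I)) =
      𝔓.comap (algebraMap B R) := by
    have : algebraMap B (R ⧸ I) = (Ideal.Quotient.mk I).comp (algebraMap B R) := rfl
    rw [this, ← Ideal.comap_comap, Ideal.comap_map_of_surjective _ hsurj,
      ← RingHom.ker_eq_comap_bot, Ideal.mk_ker, sup_eq_left.mpr hI]
  rw [← h3]
  exact h2

end Artin

section LocalStep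

variable {B R : Type*} [CommRing B] [CommRing R] [Algebra B R] [IsNoetherianRing R]
  [Module.Flat B R] (I : Ideal R) [Module.Finite B (R ⧸ I)] [Module.Flat B (R ⧸ I)]

/-- the local step of the Cartier lemma at a maximal ideal `𝔓 ⊇ I`. -/
theorem exists_local_generator (𝔓 : Ideal R) [h𝔓 : 𝔓.IsMaximal] (hI : I ≤ 𝔓)
    (hdom : IsDomain (Localization.AtPrime 𝔓 ⧸
      (𝔓.comap (algebraMap B R)).map (algebraMap B (Localization.AtPrime 𝔓))))
    (hpir : IsPrincipalIdealRing (Localization.AtPrime 𝔓 ⧸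
      (𝔓.comap (algebraMap B R)).map (algebraMap B (Localization.AtPrime 𝔓))))
    (hnf : ¬ IsField (Localization.AtPrime 𝔓 ⧸
      (𝔓.comap (algebraMap B R)).map (algebraMap B (Localization.AtPrime 𝔓)))) :
    ∃ f ∈ I, I.map (algebraMap R (Localization.AtPrime 𝔓)) =
        Ideal.span {algebraMap R (Localization.AtPrime 𝔓) f} ∧
      algebraMap R (Localization.AtPrime 𝔓) f ∈ nonZeroDivisors (Localization.AtPrime 𝔓) := by
  set S := Localization.AtPrime 𝔓 with hS
  set 𝔭 := 𝔓.comap (algebraMap B R) with h𝔭def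
  have h𝔭max : 𝔭.IsMaximal := isMaximal_comap_of_finite_quotient I 𝔓 hI
  set N := I.map (algebraMap R S) with hNdef
  have hflatS : Module.Flat B S := by
    have : Module.Flat R S := IsLocalization.flat _ 𝔓.primeCompl
    exact Module.Flat.trans B R _
  have hflatQ : Module.Flat B (S ⧸ N) := flat_localization_quotient I 𝔓
  -- `𝔭S ≤ 𝔪_S`
  have h𝔭S : 𝔭.map (algebraMap B S) ≤ IsLocalRing.maximalIdeal S := by
    rw [IsScalarTower.algebraMap_eq B R S, ← Ideal.map_map,
      ← IsLocalization.AtPrime.map_eq_maximalIdeal 𝔓 S]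
    exact Ideal.map_mono Ideal.map_comap_le
  -- the image of `N` in `S ⧸ 𝔭S` is non-zero
  have hNne : N.map (Ideal.Quotient.mk (𝔭.map (algebraMap B S))) ≠ ⊥ := by
    intro h0
    apply hnf
    rw [Ideal.map_eq_bot_iff_le_ker, Ideal.mk_ker] at h0
    -- `J = I + 𝔭R`, with `R ⧸ J` artinian
    set J : Ideal R := I ⊔ 𝔭.map (algebraMap B R) with hJ
    have hJmap : J.map (algebraMap R S) = 𝔭.map (algebraMap B S) := by
      rw [hJ, Ideal.map_sup, Ideal.map_map, ← IsScalarTower.algebraMap_eq B R S]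
      exact sup_eq_right.mpr h0
    have hfin : Module.Finite B (R ⧸ J) :=
      Module.Finite.of_surjective (Ideal.Quotient.factorₐ B (le_sup_left : I ≤ J)).toLinearMap
        (Ideal.Quotient.factor_surjective (le_sup_left : I ≤ J))
    have hart : IsArtinianRing (R ⧸ J) :=
      isArtinianRing_quotient_of_finite 𝔭 J (Ideal.le_comap_of_map_le le_sup_right)
    have hart2 : IsArtinianRing (S ⧸ J.map (algebraMap R S)) :=
      IsArtinianRing.localization_artinian
        (Algebra.algebraMapSubmonoid (R ⧸ J) 𝔓.primeCompl) _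
    have hart3 : IsArtinianRing (S ⧸ 𝔭.map (algebraMap B S)) :=
      (Ideal.quotEquivOfEq hJmap).isArtinianRing
    exact IsArtinianRing.isField_of_isDomain _
  obtain ⟨f', hf'N, hNf', hf'nzd⟩ := exists_generator_of_flat_quotient_local 𝔭 h𝔭S N
    (Ideal.Quotient.mk (𝔭.map (algebraMap B S))) Ideal.Quotient.mk_surjective Ideal.mk_ker hNne
  -- descend the generator to `I`
  obtain ⟨⟨a, s⟩, has⟩ := (IsLocalization.mem_map_algebraMap_iff 𝔓.primeCompl S).mp hf'N
  have hsu : IsUnit (algebraMap R S s) := IsLocalization.map_units S s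
  refine ⟨a, a.2, ?_, ?_⟩
  · have has' : f' * algebraMap R S s = algebraMap R S a := has
    show N = Ideal.span {algebraMap R S (a : R)}
    rw [hNf', ← has']
    exact (Ideal.span_singleton_mul_right_unit hsu f').symm
  · have has' : f' * algebraMap R S s = algebraMap R S a := has
    show algebraMap R S (a : R) ∈ nonZeroDivisors S
    rw [← has']
    exact mul_mem hf'nzd hsu.mem_nonZeroDivisors

end LocalStep

section Spread

variable {R : Type*} [CommRing R]

/-- a finitely generated ideal which is pointwise pushed into `T` by elements outside the prime `𝔓`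
is pushed into `T` by a single element outside `𝔓`. -/
theorem exists_notMem_forall_mul_mem (𝔓 : Ideal R) [h𝔓 : 𝔓.IsPrime] (M T : Ideal R) (hM : M.FG)
    (h : ∀ x ∈ M, ∃ c, c ∉ 𝔓 ∧ c * x ∈ T) : ∃ c, c ∉ 𝔓 ∧ ∀ x ∈ M, c * x ∈ T := by
  classical
  obtain ⟨s, rfl⟩ := hM
  have h' : ∀ g : s, ∃ c, c ∉ 𝔓 ∧ c * (g : R) ∈ T := fun g => h g (Ideal.subset_span g.2)
  choose c hc hcT using h'
  refine ⟨∏ g : s, c g, ?_, ?_⟩
  · intro hmem
    obtain ⟨g, -, hg⟩ := (h𝔓.prod_mem_iff).mp hmem
    exact hc g hg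
  · have hle : Ideal.span (s : Set R) ≤
        Submodule.comap (LinearMap.mulLeft R (∏ g : s, c g)) T := by
      rw [Ideal.span_le]
      intro g hg
      show (∏ g : s, c g) * g ∈ T
      obtain ⟨d, hd⟩ := Finset.dvd_prod_of_mem c (Finset.mem_univ (⟨g, hg⟩ : s))
      rw [hd, mul_comm (c ⟨g, hg⟩) d, mul_assoc]
      exact T.mul_mem_left d (hcT ⟨g, hg⟩)
    intro x hx
    exact hle hx

variable [IsNoetherianRing R]

/-- spreading out a local generator: if `I R_𝔓 = (f)` with `f` a nonzerodivisor of `R_𝔓`, the same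
holds on a basic open neighbourhood `D(c)` of `𝔓`. -/
theorem exists_notMem_spread (𝔓 : Ideal R) [h𝔓 : 𝔓.IsPrime] (I : Ideal R) (f : R)
    (hgen : I.map (algebraMap R (Localization.AtPrime 𝔓)) =
      Ideal.span {algebraMap R (Localization.AtPrime 𝔓) f})
    (hnzd : algebraMap R (Localization.AtPrime 𝔓) f ∈ nonZeroDivisors (Localization.AtPrime 𝔓)) :
    ∃ c, c ∉ 𝔓 ∧ (∀ x ∈ I, ∃ b, c * x = b * f) ∧ ∀ y, y * f = 0 → c * y = 0 := by
  set S := Localization.AtPrime 𝔓
  -- generation
  have h1 : ∀ x ∈ I, ∃ c, c ∉ 𝔓 ∧ c * x ∈ Ideal.span {f} := by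
    intro x hx
    have hx' : algebraMap R S x ∈ Ideal.span {algebraMap R S f} := by
      rw [← hgen]
      exact Ideal.mem_map_of_mem _ hx
    obtain ⟨q, hq⟩ := Ideal.mem_span_singleton'.mp hx'
    obtain ⟨⟨r, s⟩, hrs⟩ := IsLocalization.surj 𝔓.primeCompl q
    have hrs' : q * algebraMap R S s = algebraMap R S r := hrs
    have e1 : algebraMap R S (s * x) = algebraMap R S (r * f) := by
      rw [map_mul, map_mul, ← hq, ← hrs']
      ring
    obtain ⟨t, ht⟩ := (IsLocalization.eq_iff_exists 𝔓.primeCompl S).mp e1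
    refine ⟨t * s, ?_, ?_⟩
    · intro hmem
      rcases h𝔓.mem_or_mem hmem with h | h
      · exact t.2 h
      · exact s.2 h
    · rw [mul_assoc, ht]
      exact Ideal.mem_span_singleton'.mpr ⟨t * r, by ring⟩
  obtain ⟨c₁, hc₁, hc₁I⟩ := exists_notMem_forall_mul_mem 𝔓 I (Ideal.span {f})
    (IsNoetherian.noetherian I) h1
  -- annihilator
  set K : Ideal R := LinearMap.ker (LinearMap.mulRight R f) with hK
  have hKmem : ∀ y, y ∈ K ↔ y * f = 0 := fun y => by
    rw [hK, LinearMap.mem_ker, LinearMap.mulRight_apply]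
  have h2 : ∀ y ∈ K, ∃ c, c ∉ 𝔓 ∧ c * y ∈ (⊥ : Ideal R) := by
    intro y hy
    have hy0 : algebraMap R S y * algebraMap R S f = 0 := by
      rw [← map_mul, (hKmem y).mp hy, map_zero]
    have hy1 : algebraMap R S y = 0 := (mem_nonZeroDivisors_iff_right.mp hnzd) _ hy0
    obtain ⟨t, ht⟩ := (IsLocalization.map_eq_zero_iff 𝔓.primeCompl S y).mp hy1
    exact ⟨t, t.2, by rw [Ideal.mem_bot]; exact ht⟩
  obtain ⟨c₂, hc₂, hc₂K⟩ := exists_notMem_forall_mul_mem 𝔓 K ⊥ (IsNoetherian.noetherian K) h2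
  refine ⟨c₂ * c₁, ?_, ?_, ?_⟩
  · intro hmem
    rcases h𝔓.mem_or_mem hmem with h | h
    · exact hc₂ h
    · exact hc₁ h
  · intro x hx
    obtain ⟨b, hb⟩ := Ideal.mem_span_singleton'.mp (hc₁I x hx)
    exact ⟨c₂ * b, by rw [mul_assoc, ← hb]; ring⟩
  · intro y hy
    have := hc₂K y ((hKmem y).mpr hy)
    rw [Ideal.mem_bot] at this
    rw [mul_comm c₂ c₁, mul_assoc, this, mul_zero]

end Spread

section Global

variable {B R : Type*} [CommRing B] [CommRing R] [Algebra B R] [IsNoetherianRing R]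
  [Module.Flat B R] (I : Ideal R) [Module.Finite B (R ⧸ I)] [Module.Flat B (R ⧸ I)]

/-- **Cartier lemma, abstract form.** -/
theorem exists_cover_generators
    (hfib : ∀ (𝔓 : Ideal R) [𝔓.IsMaximal], I ≤ 𝔓 →
      IsDomain (Localization.AtPrime 𝔓 ⧸
        (𝔓.comap (algebraMap B R)).map (algebraMap B (Localization.AtPrime 𝔓))) ∧
      IsPrincipalIdealRing (Localization.AtPrime 𝔓 ⧸
        (𝔓.comap (algebraMap B R)).map (algebraMap B (Localization.AtPrime 𝔓))) ∧
      ¬ IsField (Localization.AtPrime 𝔓 ⧸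
        (𝔓.comap (algebraMap B R)).map (algebraMap B (Localization.AtPrime 𝔓)))) :
    ∃ (n : ℕ) (h f : Fin n → R), Ideal.span (Set.range h) = ⊤ ∧ (∀ α, f α ∈ I) ∧
      (∀ α, ∀ x ∈ I, ∃ b, h α * x = b * f α) ∧ (∀ α, ∀ y, y * f α = 0 → h α * y = 0) := by
  classical
  set H : Set R := {c | ∃ f ∈ I, (∀ x ∈ I, ∃ b, c * x = b * f) ∧ ∀ y, y * f = 0 → c * y = 0}
    with hH
  have htop : Ideal.span H = ⊤ := by
    by_contra hne
    obtain ⟨𝔓, h𝔓, hle⟩ := Ideal.exists_le_maximal _ hne
    have hHP : ∀ c ∈ H, c ∈ 𝔓 := fun c hc => hle (Ideal.subset_span hc)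
    by_cases hI : I ≤ 𝔓
    · obtain ⟨hdom, hpir, hnf⟩ := hfib 𝔓 hI
      obtain ⟨f, hfI, hgen, hnzd⟩ := exists_local_generator I 𝔓 hI hdom hpir hnf
      obtain ⟨c, hc, hc1, hc2⟩ := exists_notMem_spread 𝔓 I f hgen hnzd
      exact hc (hHP c ⟨f, hfI, hc1, hc2⟩)
    · obtain ⟨f, hfI, hf𝔓⟩ := Set.not_subset.mp hI
      refine hf𝔓 (hHP f ⟨f, hfI, fun x _ => ⟨x, mul_comm f x⟩, fun y hy => ?_⟩)
      rw [mul_comm]
      exact hy
  obtain ⟨s, hsH, hs⟩ := (Ideal.span_eq_top_iff_finite H).mp htop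
  have hchoose : ∀ c : s, ∃ f ∈ I, (∀ x ∈ I, ∃ b, (c : R) * x = b * f) ∧
      ∀ y, y * f = 0 → (c : R) * y = 0 := fun c => hsH c.2
  choose f hfI hf1 hf2 using hchoose
  refine ⟨s.card, fun α => (s.equivFin.symm α : R), fun α => f (s.equivFin.symm α), ?_,
    fun α => hfI _, fun α => hf1 _, fun α => hf2 _⟩
  have hrange : Set.range (fun α : Fin s.card => ((s.equivFin.symm α : s) : R)) = (s : Set R) := by
    ext x
    constructor
    · rintro ⟨α, rfl⟩
      exact (s.equivFin.symm α).2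
    · intro hx
      exact ⟨s.equivFin ⟨x, hx⟩, by simp⟩
  rw [hrange]
  exact hs

end Global

section Away

variable {R : Type*} [CommRing R]

/-- the `Localization.Away` form of the conclusion of the Cartier lemma: generation. -/
theorem map_away_eq_span_of_gen {T : Type*} [CommRing T] [Algebra R T] (c : R)
    [IsLocalization.Away c T] (I : Ideal R) (f : R) (hf : f ∈ I)
    (hgen : ∀ x ∈ I, ∃ b, c * x = b * f) :
    I.map (algebraMap R T) = Ideal.span {algebraMap R T f} := by
  apply le_antisymm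
  · rw [Ideal.map_le_iff_le_comap]
    intro x hx
    obtain ⟨b, hb⟩ := hgen x hx
    have hu : IsUnit (algebraMap R T c) := IsLocalization.Away.algebraMap_isUnit c
    have h1 : algebraMap R T c * algebraMap R T x = algebraMap R T b * algebraMap R T f := by
      rw [← map_mul, ← map_mul, hb]
    rw [Ideal.mem_comap, Ideal.mem_span_singleton']
    refine ⟨↑hu.unit⁻¹ * algebraMap R T b, ?_⟩
    rw [mul_assoc, ← h1, ← mul_assoc, IsUnit.val_inv_mul, one_mul]
  · rw [Ideal.span_singleton_le_iff_mem]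
    exact Ideal.mem_map_of_mem _ hf

/-- the `Localization.Away` form of the conclusion of the Cartier lemma: nonzerodivisor. -/
theorem algebraMap_away_mem_nonZeroDivisors {T : Type*} [CommRing T] [Algebra R T] (c : R)
    [IsLocalization.Away c T] (f : R) (hnzd : ∀ y, y * f = 0 → c * y = 0) :
    algebraMap R T f ∈ nonZeroDivisors T := by
  rw [mem_nonZeroDivisors_iff_right]
  intro z hz
  obtain ⟨y, ⟨_, n, rfl⟩, rfl⟩ := IsLocalization.exists_mk'_eq (Submonoid.powers c) z
  rw [IsLocalization.mk'_eq_zero_iff]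
  have h1 : algebraMap R T (y * f) = 0 := by
    have h2 := congrArg (fun t => t * algebraMap R T (c ^ n)) hz
    simp only [zero_mul] at h2
    rw [mul_right_comm, IsLocalization.mk'_spec, ← map_mul] at h2
    exact h2
  obtain ⟨⟨_, m, rfl⟩, hm⟩ := (IsLocalization.map_eq_zero_iff (Submonoid.powers c) T _).mp h1
  have h3 : (c ^ m * y) * f = 0 := by rw [mul_assoc]; exact hm
  have h4 := hnzd _ h3
  refine ⟨⟨c ^ (m + 1), m + 1, rfl⟩, ?_⟩
  show c ^ (m + 1) * y = 0
  rw [pow_succ', mul_assoc]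
  exact h4

end Away

open TensorProduct

noncomputable section

section LocalHom

universe u

variable {R A : Type u} [CommRing R] [CommRing A]

theorem localRingHom_surjective_of_surjective (f : R →+* A) (hf : Function.Surjective f)
    (J : Ideal A) [J.IsPrime] (I : Ideal R) [I.IsPrime] (hIJ : I = J.comap f) :
    Function.Surjective (Localization.localRingHom I J f hIJ) := by
  subst hIJ
  exact RingHom.surjective_localRingHom_of_surjective f hf J

theorem ker_localRingHom_of_surjective (f : R →+* A) (hf : Function.Surjective f)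
    (J : Ideal A) [J.IsPrime] (I : Ideal R) [I.IsPrime] (hIJ : I = J.comap f) :
    RingHom.ker (Localization.localRingHom I J f hIJ) =
      (RingHom.ker f).map (algebraMap R (Localization.AtPrime I)) := by
  subst hIJ
  have hT : Submonoid.map f (J.comap f).primeCompl = J.primeCompl :=
    Submonoid.map_comap_eq_of_surjective hf J.primeCompl
  exact IsLocalization.ker_map (S := Localization.AtPrime (J.comap f))
    (Localization.AtPrime J) f hT

end LocalHom

section Tensor

universe u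

variable {k A B : Type u} [Field k] [CommRing A] [Algebra k A] [CommRing B] [Algebra k B]

/-- the `k`-point of `B` attached to a maximal ideal with residue field `k`. -/
def residueChar (𝔭 : Ideal B) (h𝔭 : Function.Bijective (algebraMap k (B ⧸ 𝔭))) : B →ₐ[k] k :=
  ((AlgEquiv.ofBijective (Algebra.ofId k (B ⧸ 𝔭)) h𝔭).symm : (B ⧸ 𝔭) →ₐ[k] k).comp
    (Ideal.Quotient.mkₐ k 𝔭)

theorem sub_residueChar_mem (𝔭 : Ideal B) (h𝔭 : Function.Bijective (algebraMap k (B ⧸ 𝔭)))
    (b : B) : b - algebraMap k B (residueChar 𝔭 h𝔭 b) ∈ 𝔭 := by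
  rw [← Ideal.Quotient.eq_zero_iff_mem, map_sub, sub_eq_zero]
  have h1 : Ideal.Quotient.mk 𝔭 (algebraMap k B (residueChar 𝔭 h𝔭 b)) =
      algebraMap k (B ⧸ 𝔭) (residueChar 𝔭 h𝔭 b) := rfl
  rw [h1]
  have h2 : algebraMap k (B ⧸ 𝔭) (residueChar 𝔭 h𝔭 b) =
      (AlgEquiv.ofBijective (Algebra.ofId k (B ⧸ 𝔭)) h𝔭)
        ((AlgEquiv.ofBijective (Algebra.ofId k (B ⧸ 𝔭)) h𝔭).symm (Ideal.Quotient.mk 𝔭 b)) := rfl
  rw [h2, AlgEquiv.apply_symm_apply]

theorem residueChar_eq_zero (𝔭 : Ideal B) (h𝔭 : Function.Bijective (algebraMap k (B ⧸ 𝔭)))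
    {b : B} (hb : b ∈ 𝔭) : residueChar 𝔭 h𝔭 b = 0 := by
  have h1 : residueChar 𝔭 h𝔭 b =
      (AlgEquiv.ofBijective (Algebra.ofId k (B ⧸ 𝔭)) h𝔭).symm (Ideal.Quotient.mk 𝔭 b) := rfl
  rw [h1, Ideal.Quotient.eq_zero_iff_mem.mpr hb, map_zero]

/-- evaluation `B ⊗[k] A → A` at a `k`-point of `B`. -/
def evalTensor (χ : B →ₐ[k] k) : B ⊗[k] A →ₐ[k] A :=
  Algebra.TensorProduct.productMap ((Algebra.ofId k A).comp χ) (AlgHom.id k A)

theorem evalTensor_tmul (χ : B →ₐ[k] k) (b : B) (a : A) :
    evalTensor χ (b ⊗ₜ[k] a) = algebraMap k A (χ b) * a := by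
  unfold evalTensor
  rw [Algebra.TensorProduct.productMap_apply_tmul]
  rfl

theorem evalTensor_surjective (χ : B →ₐ[k] k) : Function.Surjective (evalTensor (A := A) χ) := by
  intro a
  refine ⟨1 ⊗ₜ[k] a, ?_⟩
  rw [evalTensor_tmul, map_one, map_one, one_mul]

theorem ker_evalTensor (𝔭 : Ideal B) (h𝔭 : Function.Bijective (algebraMap k (B ⧸ 𝔭))) :
    RingHom.ker (evalTensor (A := A) (residueChar 𝔭 h𝔭)).toRingHom =
      𝔭.map (algebraMap B (B ⊗[k] A)) := by
  apply le_antisymm
  · -- every `r` is congruent to `1 ⊗ ev r`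
    have key : ∀ r : B ⊗[k] A, r - 1 ⊗ₜ[k] (evalTensor (residueChar 𝔭 h𝔭) r) ∈
        𝔭.map (algebraMap B (B ⊗[k] A)) := by
      intro r
      induction r using TensorProduct.induction_on with
      | zero => simp
      | tmul b a =>
        rw [evalTensor_tmul]
        have h1 : (1 : B) ⊗ₜ[k] (algebraMap k A (residueChar 𝔭 h𝔭 b) * a) =
            (algebraMap k B (residueChar 𝔭 h𝔭 b)) ⊗ₜ[k] a := by
          rw [Algebra.algebraMap_eq_smul_one, Algebra.algebraMap_eq_smul_one, smul_mul_assoc,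
            one_mul, TensorProduct.tmul_smul, TensorProduct.smul_tmul']
        rw [h1, ← TensorProduct.sub_tmul]
        have h2 : (b - algebraMap k B (residueChar 𝔭 h𝔭 b)) ⊗ₜ[k] a =
            algebraMap B (B ⊗[k] A) (b - algebraMap k B (residueChar 𝔭 h𝔭 b)) * (1 ⊗ₜ[k] a) := by
          rw [Algebra.TensorProduct.algebraMap_apply, Algebra.TensorProduct.tmul_mul_tmul]
          simp
        rw [h2]
        exact Ideal.mul_mem_right _ _ (Ideal.mem_map_of_mem _ (sub_residueChar_mem 𝔭 h𝔭 b))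
      | add x y hx hy =>
        have : x + y - 1 ⊗ₜ[k] (evalTensor (residueChar 𝔭 h𝔭) (x + y)) =
            (x - 1 ⊗ₜ[k] (evalTensor (residueChar 𝔭 h𝔭) x)) +
              (y - 1 ⊗ₜ[k] (evalTensor (residueChar 𝔭 h𝔭) y)) := by
          rw [map_add, TensorProduct.tmul_add]
          ring
        rw [this]
        exact Ideal.add_mem _ hx hy
    intro r hr
    have h0 : evalTensor (residueChar 𝔭 h𝔭) r = 0 := hr
    have := key r
    rw [h0, TensorProduct.tmul_zero, sub_zero] at this
    exact this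
  · rw [Ideal.map_le_iff_le_comap]
    intro b hb
    rw [Ideal.mem_comap, RingHom.mem_ker]
    show evalTensor (residueChar 𝔭 h𝔭) (algebraMap B (B ⊗[k] A) b) = 0
    rw [Algebra.TensorProduct.algebraMap_apply, evalTensor_tmul]
    have h1 : (algebraMap B B) b = b := rfl
    rw [h1, residueChar_eq_zero 𝔭 h𝔭 hb]
    simp

/-- **Cartier lemma for `B ⊗[k] A`.**  `A` a `k`-algebra whose local rings at maximal ideals are
principal ideal domains which are not fields (DVRs: the coordinate ring of a smooth affine curve),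
`B` a `k`-algebra whose residue fields at maximal ideals are `k` (e.g. of finite type over an
algebraically closed `k`), `B ⊗[k] A` noetherian, `I` an ideal of `B ⊗[k] A` with finite flat
quotient over `B`.  Then `I` is an invertible ideal. -/
theorem exists_cover_generators_tensor [IsNoetherianRing (B ⊗[k] A)]
    (hA : ∀ (𝔫 : Ideal A) [𝔫.IsMaximal], IsDomain (Localization.AtPrime 𝔫) ∧
      IsPrincipalIdealRing (Localization.AtPrime 𝔫) ∧ ¬ IsField (Localization.AtPrime 𝔫))
    (hB : ∀ (𝔭 : Ideal B) [𝔭.IsMaximal], Function.Bijective (algebraMap k (B ⧸ 𝔭)))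
    (I : Ideal (B ⊗[k] A)) [Module.Finite B ((B ⊗[k] A) ⧸ I)] [Module.Flat B ((B ⊗[k] A) ⧸ I)] :
    ∃ (n : ℕ) (h f : Fin n → B ⊗[k] A), Ideal.span (Set.range h) = ⊤ ∧ (∀ α, f α ∈ I) ∧
      (∀ α, ∀ x ∈ I, ∃ b, h α * x = b * f α) ∧ (∀ α, ∀ y, y * f α = 0 → h α * y = 0) := by
  apply exists_cover_generators (B := B) I
  intro 𝔓 h𝔓 hI
  set S := Localization.AtPrime 𝔓
  set 𝔭 := 𝔓.comap (algebraMap B (B ⊗[k] A)) with h𝔭def
  have h𝔭max : 𝔭.IsMaximal := isMaximal_comap_of_finite_quotient I 𝔓 hI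
  have h𝔭 := hB 𝔭
  set ev : B ⊗[k] A →+* A := (evalTensor (A := A) (residueChar 𝔭 h𝔭)).toRingHom with hev
  have hsurj : Function.Surjective ev := evalTensor_surjective _
  have hker : RingHom.ker ev = 𝔭.map (algebraMap B (B ⊗[k] A)) := ker_evalTensor 𝔭 h𝔭
  have hkerle : RingHom.ker ev ≤ 𝔓 := by
    rw [hker]
    exact Ideal.map_comap_le
  have hcomap : (𝔓.map ev).comap ev = 𝔓 := by
    rw [Ideal.comap_map_of_surjective _ hsurj, ← RingHom.ker_eq_comap_bot,
      sup_eq_left.mpr hkerle]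
  have h𝔫max : (𝔓.map ev).IsMaximal := by
    refine (Ideal.map_eq_top_or_isMaximal_of_surjective _ hsurj h𝔓).resolve_left ?_
    intro htop
    rw [htop, Ideal.comap_top] at hcomap
    exact h𝔓.ne_top hcomap.symm
  obtain ⟨hdom, hpir, hnf⟩ := hA (𝔓.map ev)
  -- the isomorphism `S ⧸ 𝔭S ≃ A_𝔫`
  have hπsurj := localRingHom_surjective_of_surjective ev hsurj (𝔓.map ev) 𝔓 hcomap.symm
  have hπker : RingHom.ker (Localization.localRingHom 𝔓 (𝔓.map ev) ev hcomap.symm) =
      𝔭.map (algebraMap B S) := by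
    rw [ker_localRingHom_of_surjective ev hsurj (𝔓.map ev) 𝔓 hcomap.symm, hker, Ideal.map_map,
      ← IsScalarTower.algebraMap_eq B (B ⊗[k] A) S]
  let e : (S ⧸ 𝔭.map (algebraMap B S)) ≃+* Localization.AtPrime (𝔓.map ev) :=
    (Ideal.quotEquivOfEq hπker.symm).trans (RingHom.quotientKerEquivOfSurjective hπsurj)
  refine ⟨e.toMulEquiv.isDomain _, ?_, ?_⟩
  · exact IsPrincipalIdealRing.of_surjective e.symm.toRingHom e.symm.surjective
  · intro hf
    exact hnf (e.symm.toMulEquiv.isField hf)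

/-- residue fields at maximal ideals of an algebra of finite type over an algebraically closed
field. -/
theorem bijective_algebraMap_quotient_of_isAlgClosed [IsAlgClosed k] [Algebra.FiniteType k B]
    (𝔭 : Ideal B) [h𝔭 : 𝔭.IsMaximal] : Function.Bijective (algebraMap k (B ⧸ 𝔭)) := by
  letI : Field (B ⧸ 𝔭) := Ideal.Quotient.field 𝔭
  have : Algebra.FiniteType k (B ⧸ 𝔭) :=
    Algebra.FiniteType.of_surjective (Ideal.Quotient.mkₐ k 𝔭) (Ideal.Quotient.mkₐ_surjective k 𝔭)
  have : Module.Finite k (B ⧸ 𝔭) := finite_of_finite_type_of_isJacobsonRing k (B ⧸ 𝔭)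
  have : Algebra.IsIntegral k (B ⧸ 𝔭) := Algebra.IsIntegral.of_finite k (B ⧸ 𝔭)
  exact IsAlgClosed.algebraMap_bijective_of_isIntegral

/-- **Cartier lemma**, the form used for the Hilbert scheme of points of a smooth affine curve over
an algebraically closed field: `A` a domain of finite type over `k` all of whose local rings at
maximal ideals are discrete valuation rings, `B` any `k`-algebra of finite type. -/
theorem exists_cover_generators_tensor_of_isAlgClosed [IsAlgClosed k] [IsDomain A]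
    [Algebra.FiniteType k A] [Algebra.FiniteType k B]
    (hA : ∀ (𝔫 : Ideal A) [𝔫.IsMaximal], IsDiscreteValuationRing (Localization.AtPrime 𝔫))
    (I : Ideal (B ⊗[k] A)) [Module.Finite B ((B ⊗[k] A) ⧸ I)] [Module.Flat B ((B ⊗[k] A) ⧸ I)] :
    ∃ (n : ℕ) (h f : Fin n → B ⊗[k] A), Ideal.span (Set.range h) = ⊤ ∧ (∀ α, f α ∈ I) ∧
      (∀ α, ∀ x ∈ I, ∃ b, h α * x = b * f α) ∧ (∀ α, ∀ y, y * f α = 0 → h α * y = 0) := by
  have hB1 : IsNoetherianRing B := Algebra.FiniteType.isNoetherianRing k B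
  have hR : IsNoetherianRing (B ⊗[k] A) := Algebra.FiniteType.isNoetherianRing B (B ⊗[k] A)
  refine exists_cover_generators_tensor (fun 𝔫 _ => ?_)
    (fun 𝔭 _ => bijective_algebraMap_quotient_of_isAlgClosed 𝔭) I
  have := hA 𝔫
  exact ⟨inferInstance, inferInstance, IsDiscreteValuationRing.not_isField _⟩

end Tensor

end

end Fermat.Agent.JAC
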