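/-
PROJECT JAC (S25) — (CART-BC) (helper7): **Cartier data and their base change.**

`IsCartierData I h f` : the (power form of the) output of the Cartier lemma
(`HILB_helper7_Cartier.exists_cover_generators`): the `h α` generate the unit ideal, `f α ∈ I`,
`I R_{h α} = (f α)` and `f α` is a nonzerodivisor of `R_{h α}`, written without localisations.

* `rTensor_injective_of_exact_of_flat` : purity — for `0 → N → M → P → 0` exact with `P` flat,
  `N ⊗ X → M ⊗ X` is injective for every `X`.
* `exists_pow_smul_eq_zero_of_smul_eq_zero` : persistence of the nonzerodivisor property, module form.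
* `IsCartierData.map_away_eq_span`, `IsCartierData.algebraMap_away_mem_nonZeroDivisors` :
  the `Localization.Away` forms.
* `IsCartierData.baseChange` : for `R = B ⊗[k] A`, `R ⧸ I` flat over `B`, and any `φ : B →ₐ[k] B'`,
  the images of `h`, `f` in `B' ⊗[k] A` are Cartier data for the extended ideal.
-/
import Mathlib
import Fermat.Agent.JAC.HILB_helper7_Cartier

set_option autoImplicit false

namespace Fermat.Agent.JAC

open TensorProduct

section Purity

variable {B : Type*} [CommRing B]

/-- auxiliary form of purity, with a given flat presentation of `X`. -/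
theorem rTensor_injective_of_exact_of_flat_aux {N M P : Type*} [AddCommGroup N] [Module B N]
    [AddCommGroup M] [Module B M] [AddCommGroup P] [Module B P] [Module.Flat B P]
    (i : N →ₗ[B] M) (p : M →ₗ[B] P) (hi : Function.Injective i) (hip : Function.Exact i p)
    (hp : Function.Surjective p)
    {K F X : Type*} [AddCommGroup K] [Module B K] [AddCommGroup F] [Module B F]
    [AddCommGroup X] [Module B X] [Module.Flat B F] (ιK : K →ₗ[B] F) (π : F →ₗ[B] X)
    (hι : Function.Injective ιK) (hex : Function.Exact ιK π) (hπ : Function.Surjective π) :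
    Function.Injective (i.rTensor X) := by
  rw [injective_iff_map_eq_zero]
  intro z hz
  -- step 1: lift `z` to `N ⊗ F`
  obtain ⟨z₁, rfl⟩ := LinearMap.lTensor_surjective N hπ z
  -- step 2: its image in `M ⊗ F` comes from `M ⊗ K`
  have h2 : (π.lTensor M) ((i.rTensor F) z₁) = 0 := by
    rw [← LinearMap.comp_apply, LinearMap.lTensor_comp_rTensor, ← LinearMap.rTensor_comp_lTensor,
      LinearMap.comp_apply]
    exact hz
  obtain ⟨m₂, hm₂⟩ := (lTensor_exact M hex hπ _).mp h2
  -- step 3: the image of `m₂` in `P ⊗ K` vanishes, `P` being flat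
  have h3 : (ιK.lTensor P) ((p.rTensor K) m₂) = 0 := by
    rw [← LinearMap.comp_apply, LinearMap.lTensor_comp_rTensor, ← LinearMap.rTensor_comp_lTensor,
      LinearMap.comp_apply, hm₂, ← LinearMap.comp_apply, ← LinearMap.rTensor_comp]
    have : p ∘ₗ i = 0 := by
      ext x
      exact hip.apply_apply_eq_zero x
    rw [this, LinearMap.rTensor_zero, LinearMap.zero_apply]
  have h3' : (p.rTensor K) m₂ = 0 := by
    have hinj : Function.Injective (ιK.lTensor P) :=
      Module.Flat.lTensor_preserves_injective_linearMap ιK hι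
    exact hinj (by rw [h3, map_zero])
  -- step 4: so `m₂` comes from `N ⊗ K`
  obtain ⟨n₂, hn₂⟩ := (rTensor_exact K hip hp _).mp h3'
  -- step 5: `n₂` maps to `z₁`, `F` being flat
  have h5 : (ιK.lTensor N) n₂ = z₁ := by
    have hinj : Function.Injective (i.rTensor F) :=
      Module.Flat.rTensor_preserves_injective_linearMap i hi
    apply hinj
    rw [← LinearMap.comp_apply, LinearMap.rTensor_comp_lTensor, ← LinearMap.lTensor_comp_rTensor,
      LinearMap.comp_apply, hn₂, hm₂]
  -- step 6
  rw [← h5, ← LinearMap.comp_apply, ← LinearMap.lTensor_comp]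
  have : π ∘ₗ ιK = 0 := by
    ext x
    exact hex.apply_apply_eq_zero x
  rw [this, LinearMap.lTensor_zero, LinearMap.zero_apply]

/-- **purity**: for a short exact sequence `0 → N → M → P → 0` with `P` flat, `N ⊗ X → M ⊗ X` is
injective for every module `X`. -/
theorem rTensor_injective_of_exact_of_flat {N M P : Type*} [AddCommGroup N] [Module B N]
    [AddCommGroup M] [Module B M] [AddCommGroup P] [Module B P] [Module.Flat B P]
    (i : N →ₗ[B] M) (p : M →ₗ[B] P) (hi : Function.Injective i) (hip : Function.Exact i p)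
    (hp : Function.Surjective p) (X : Type*) [AddCommGroup X] [Module B X] :
    Function.Injective (i.rTensor X) := by
  let π : (X →₀ B) →ₗ[B] X := Finsupp.linearCombination B (id : X → X)
  have hπ : Function.Surjective π := Finsupp.linearCombination_id_surjective B X
  have hex : Function.Exact (LinearMap.ker π).subtype π := LinearMap.exact_subtype_ker_map π
  exact rTensor_injective_of_exact_of_flat_aux i p hi hip hp (K := LinearMap.ker π)
    (F := X →₀ B) (X := X) (LinearMap.ker π).subtype π (Submodule.subtype_injective _) hex hπ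

/-- purity, submodule form. -/
theorem rTensor_subtype_injective_of_flat_quotient {M : Type*} [AddCommGroup M] [Module B M]
    (N : Submodule B M) [Module.Flat B (M ⧸ N)] (X : Type*) [AddCommGroup X] [Module B X] :
    Function.Injective (N.subtype.rTensor X) :=
  rTensor_injective_of_exact_of_flat N.subtype N.mkQ N.subtype_injective
    (LinearMap.exact_subtype_mkQ N) N.mkQ_surjective X

end Purity

section LocQuotGen

variable {B R : Type*} [CommRing B] [CommRing R] [Algebra B R]

/-- `S⁻¹R ⧸ I·S⁻¹R` is flat over `B` if `R ⧸ I` is. -/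
theorem flat_quotient_map_of_isLocalization (I : Ideal R) [Module.Flat B (R ⧸ I)]
    (Mon : Submonoid R) (S : Type*) [CommRing S] [Algebra R S] [IsLocalization Mon S]
    [Algebra B S] [IsScalarTower B R S] :
    Module.Flat B (S ⧸ I.map (algebraMap R S)) := by
  have : Module.Flat (R ⧸ I) (S ⧸ I.map (algebraMap R S)) :=
    IsLocalization.flat _ (Algebra.algebraMapSubmonoid (R ⧸ I) Mon)
  have : IsScalarTower B (R ⧸ I) (S ⧸ I.map (algebraMap R S)) :=
    IsScalarTower.of_algebraMap_eq fun b => by
      have h1 : algebraMap B (S ⧸ I.map (algebraMap R S)) b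
          = Ideal.Quotient.mk _ (algebraMap B S b) := rfl
      have h2 : algebraMap B (R ⧸ I) b = Ideal.Quotient.mk I (algebraMap B R b) := rfl
      rw [h1, h2, Ideal.Quotient.algebraMap_quotient_map_quotient,
        ← IsScalarTower.algebraMap_apply B R S]
  exact Module.Flat.trans B (R ⧸ I) _

end LocQuotGen

section AwayPow

variable {R : Type*} [CommRing R]

/-- `Localization.Away` form, generation, from the power form of the hypothesis. -/
theorem map_away_eq_span_of_gen_pow {T : Type*} [CommRing T] [Algebra R T] (c : R)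
    [IsLocalization.Away c T] (I : Ideal R) (f : R) (hf : f ∈ I)
    (hgen : ∀ x ∈ I, ∃ (m : ℕ) (b : R), c ^ m * x = b * f) :
    I.map (algebraMap R T) = Ideal.span {algebraMap R T f} := by
  apply le_antisymm
  · rw [Ideal.map_le_iff_le_comap]
    intro x hx
    obtain ⟨m, b, hb⟩ := hgen x hx
    have hu : IsUnit (algebraMap R T (c ^ m)) := by
      rw [map_pow]
      exact (IsLocalization.Away.algebraMap_isUnit c).pow m
    have h1 : algebraMap R T (c ^ m) * algebraMap R T x = algebraMap R T b * algebraMap R T f := by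
      rw [← map_mul, ← map_mul, hb]
    rw [Ideal.mem_comap, Ideal.mem_span_singleton']
    refine ⟨↑hu.unit⁻¹ * algebraMap R T b, ?_⟩
    rw [mul_assoc, ← h1, ← mul_assoc, IsUnit.val_inv_mul, one_mul]
  · rw [Ideal.span_singleton_le_iff_mem]
    exact Ideal.mem_map_of_mem _ hf

/-- `Localization.Away` form, nonzerodivisor, from the power form of the hypothesis. -/
theorem algebraMap_away_mem_nonZeroDivisors_of_pow {T : Type*} [CommRing T] [Algebra R T] (c : R)
    [IsLocalization.Away c T] (f : R) (hnzd : ∀ y, y * f = 0 → ∃ m : ℕ, c ^ m * y = 0) :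
    algebraMap R T f ∈ nonZeroDivisors T := by
  rw [mem_nonZeroDivisors_iff_right]
  intro z hz
  obtain ⟨y, ⟨_, n, rfl⟩, rfl⟩ := IsLocalization.exists_mk'_eq (Submonoid.powers c) z
  rw [IsLocalization.mk'_eq_zero_iff]
  have h1 : algebraMap R T (y * f) = 0 := by
    have h2 := congrArg (fun t => t * algebraMap R T (c ^ n)) hz
    simp only [zero_mul] at h2
    rw [mul_right_comm, IsLocalization.mk'_spec, ← map_mul] at h2
    exact h2
  obtain ⟨⟨_, m, rfl⟩, hm⟩ := (IsLocalization.map_eq_zero_iff (Submonoid.powers c) T _).mp h1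
  have h3 : (c ^ m * y) * f = 0 := by rw [mul_assoc]; exact hm
  obtain ⟨m', h4⟩ := hnzd _ h3
  refine ⟨⟨c ^ (m' + m), m' + m, rfl⟩, ?_⟩
  show c ^ (m' + m) * y = 0
  rw [pow_add, mul_assoc]
  exact h4

end AwayPow

section Core

variable {B R : Type*} [CommRing B] [CommRing R] [Algebra B R]

/-- **persistence of the nonzerodivisor property under base change** (module form): if `R ⧸ I` is
`B`-flat, `I` is generated by `f` up to `h`-power torsion and the annihilator of `f` is `h`-power
torsion, then for every `B`-module `X` the kernel of `f` on `R ⊗[B] X` is `h`-power torsion. -/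
theorem exists_pow_smul_eq_zero_of_smul_eq_zero (I : Ideal R) [Module.Flat B (R ⧸ I)] (h f : R)
    (hf : f ∈ I) (hgen : ∀ x ∈ I, ∃ (m : ℕ) (b : R), h ^ m * x = b * f)
    (hnzd : ∀ y, y * f = 0 → ∃ m : ℕ, h ^ m * y = 0)
    (X : Type*) [AddCommGroup X] [Module B X] (z : R ⊗[B] X) (hz : f • z = 0) :
    ∃ m : ℕ, h ^ m • z = 0 := by
  let S := Localization.Away h
  let g : R →ₗ[R] S := Algebra.linearMap R S
  let G : R ⊗[B] X →ₗ[R] S ⊗[B] X := AlgebraTensorModule.rTensor B X g
  have hG : IsLocalizedModule (Submonoid.powers h) G := inferInstance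
  have hfS : algebraMap R S f ∈ nonZeroDivisors S :=
    algebraMap_away_mem_nonZeroDivisors_of_pow h f hnzd
  have hmap : I.map (algebraMap R S) = Ideal.span {algebraMap R S f} :=
    map_away_eq_span_of_gen_pow h I f hf hgen
  let μ : S →ₗ[B] S := LinearMap.mulLeft B (algebraMap R S f)
  have hμ : Function.Injective μ := by
    intro a b hab
    exact (mul_cancel_left_mem_nonZeroDivisors hfS).mp hab
  let p : S →ₗ[B] S ⧸ I.map (algebraMap R S) := (Ideal.Quotient.mkₐ B _).toLinearMap
  have hp : Function.Surjective p := Ideal.Quotient.mkₐ_surjective B _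
  have hex : Function.Exact μ p := by
    intro s
    show Ideal.Quotient.mk _ s = 0 ↔ s ∈ Set.range μ
    rw [Ideal.Quotient.eq_zero_iff_mem, hmap, Ideal.mem_span_singleton']
    constructor
    · rintro ⟨a, rfl⟩
      exact ⟨a, mul_comm _ _⟩
    · rintro ⟨a, rfl⟩
      exact ⟨a, mul_comm _ _⟩
  have hflat : Module.Flat B (S ⧸ I.map (algebraMap R S)) :=
    flat_quotient_map_of_isLocalization I (Submonoid.powers h) S
  have hinj := rTensor_injective_of_exact_of_flat μ p hμ hex hp X
  have hsm : ∀ w : S ⊗[B] X, f • w = μ.rTensor X w := by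
    intro w
    induction w using TensorProduct.induction_on with
    | zero => simp
    | tmul s x =>
      rw [TensorProduct.smul_tmul', LinearMap.rTensor_tmul]
      congr 1
      show f • s = algebraMap R S f * s
      rw [Algebra.smul_def]
    | add a b ha hb => rw [smul_add, ha, hb, map_add]
  have hGz : G z = 0 := by
    apply hinj
    rw [map_zero, ← hsm, ← map_smul, hz, map_zero]
  obtain ⟨⟨_, m, rfl⟩, hm⟩ := (IsLocalizedModule.eq_zero_iff (Submonoid.powers h) G).mp hGz
  exact ⟨m, hm⟩

end Core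

/-- **Cartier data** for an ideal `I` of `R` (power form): the `h α` generate the unit ideal,
`f α ∈ I` generates `I` on `D(h α)` and is a nonzerodivisor on `D(h α)`. -/
structure IsCartierData {R : Type*} [CommRing R] (I : Ideal R) {n : ℕ} (h f : Fin n → R) :
    Prop where
  span_eq_top : Ideal.span (Set.range h) = ⊤
  mem : ∀ α, f α ∈ I
  gen : ∀ α, ∀ x ∈ I, ∃ (m : ℕ) (b : R), h α ^ m * x = b * f α
  nzd : ∀ α, ∀ y, y * f α = 0 → ∃ m : ℕ, h α ^ m * y = 0

namespace IsCartierData

variable {R : Type*} [CommRing R] {I : Ideal R} {n : ℕ} {h f : Fin n → R}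

/-- the output of `exists_cover_generators` (exponent one) is Cartier data. -/
theorem of_strong (h1 : Ideal.span (Set.range h) = ⊤) (h2 : ∀ α, f α ∈ I)
    (h3 : ∀ α, ∀ x ∈ I, ∃ b, h α * x = b * f α) (h4 : ∀ α, ∀ y, y * f α = 0 → h α * y = 0) :
    IsCartierData I h f where
  span_eq_top := h1
  mem := h2
  gen α x hx := by
    obtain ⟨b, hb⟩ := h3 α x hx
    exact ⟨1, b, by rw [pow_one, hb]⟩
  nzd α y hy := ⟨1, by rw [pow_one]; exact h4 α y hy⟩

/-- `I · R_{h α} = (f α)`. -/
theorem map_away_eq_span (hc : IsCartierData I h f) (α : Fin n) {T : Type*} [CommRing T]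
    [Algebra R T] [IsLocalization.Away (h α) T] :
    I.map (algebraMap R T) = Ideal.span {algebraMap R T (f α)} :=
  map_away_eq_span_of_gen_pow (h α) I (f α) (hc.mem α) (hc.gen α)

/-- `f α` is a nonzerodivisor of `R_{h α}`. -/
theorem algebraMap_away_mem_nonZeroDivisors (hc : IsCartierData I h f) (α : Fin n) {T : Type*}
    [CommRing T] [Algebra R T] [IsLocalization.Away (h α) T] :
    algebraMap R T (f α) ∈ nonZeroDivisors T :=
  algebraMap_away_mem_nonZeroDivisors_of_pow (h α) (f α) (hc.nzd α)

/-- on `D(h α) ∩ D(h β)` the two local equations divide each other. -/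
theorem exists_pow_mul_eq (hc : IsCartierData I h f) (α β : Fin n) :
    ∃ (m : ℕ) (b : R), h β ^ m * f α = b * f β :=
  hc.gen β (f α) (hc.mem α)

/-- away from `V(I)` the local equation is a unit: a prime containing `f α` but not `h α`
contains `I`. -/
theorem le_of_mem_of_notMem (hc : IsCartierData I h f) (α : Fin n) (𝔮 : Ideal R) [𝔮.IsPrime]
    (hf : f α ∈ 𝔮) (hh : h α ∉ 𝔮) : I ≤ 𝔮 := by
  intro x hx
  obtain ⟨m, b, hb⟩ := hc.gen α x hx
  have h1 : h α ^ m * x ∈ 𝔮 := by
    rw [hb]
    exact 𝔮.mul_mem_left b hf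
  rcases (Ideal.IsPrime.mem_or_mem inferInstance h1) with h2 | h2
  · exact absurd (Ideal.IsPrime.mem_of_pow_mem inferInstance m h2) hh
  · exact h2

/-- the first three properties persist along any ring homomorphism. -/
theorem gen_map {R' : Type*} [CommRing R'] (Φ : R →+* R') (hc : IsCartierData I h f) (α : Fin n) :
    ∀ x ∈ I.map Φ, ∃ (m : ℕ) (b : R'), Φ (h α) ^ m * x = b * Φ (f α) := by
  intro x hx
  refine Submodule.span_induction (p := fun x _ => ∃ (m : ℕ) (b : R'), Φ (h α) ^ m * x = b * Φ (f α))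
    ?_ ?_ ?_ ?_ hx
  · rintro _ ⟨x, hx, rfl⟩
    obtain ⟨m, b, hb⟩ := hc.gen α x hx
    exact ⟨m, Φ b, by rw [← map_pow, ← map_mul, hb, map_mul]⟩
  · exact ⟨0, 0, by simp⟩
  · rintro x y _ _ ⟨m₁, b₁, h₁⟩ ⟨m₂, b₂, h₂⟩
    refine ⟨m₁ + m₂, Φ (h α) ^ m₂ * b₁ + Φ (h α) ^ m₁ * b₂, ?_⟩
    rw [mul_add, add_mul, mul_assoc, mul_assoc, ← h₁, ← h₂, pow_add]
    ring
  · rintro a x _ ⟨m, b, hb⟩
    refine ⟨m, a * b, ?_⟩
    rw [smul_eq_mul, mul_left_comm, hb, mul_assoc]

theorem span_map {R' : Type*} [CommRing R'] (Φ : R →+* R') (hc : IsCartierData I h f) :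
    Ideal.span (Set.range fun α => Φ (h α)) = ⊤ := by
  have h1 : (Ideal.span (Set.range h)).map Φ = ⊤ := by rw [hc.span_eq_top, Ideal.map_top]
  rw [Ideal.map_span] at h1
  rw [← h1]
  congr 1
  ext x
  constructor
  · rintro ⟨α, rfl⟩
    exact ⟨h α, ⟨α, rfl⟩, rfl⟩
  · rintro ⟨_, ⟨α, rfl⟩, rfl⟩
    exact ⟨α, rfl⟩

end IsCartierData

noncomputable section

section TensorEquiv

variable {k A B B' : Type*} [CommRing k] [CommRing A] [Algebra k A] [CommRing B] [Algebra k B]
  [CommRing B'] [Algebra k B'] [Algebra B B'] [IsScalarTower k B B']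

/-- `(B ⊗[k] A) ⊗[B] B' ≃ B' ⊗[k] A`. -/
def tensorBCEquiv : (B ⊗[k] A) ⊗[B] B' ≃ₗ[B] B' ⊗[k] A :=
  (TensorProduct.comm B (B ⊗[k] A) B').trans (AlgebraTensorModule.cancelBaseChange k B B B' A)

theorem tensorBCEquiv_tmul (b : B) (a : A) (b' : B') :
    tensorBCEquiv (k := k) ((b ⊗ₜ[k] a) ⊗ₜ[B] b') = (b • b') ⊗ₜ[k] a := rfl

theorem tensorBCEquiv_smul (r : B ⊗[k] A) (z : (B ⊗[k] A) ⊗[B] B') :
    tensorBCEquiv (k := k) (r • z) =
      Algebra.TensorProduct.map (IsScalarTower.toAlgHom k B B') (AlgHom.id k A) r *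
        tensorBCEquiv (k := k) z := by
  induction z using TensorProduct.induction_on with
  | zero => simp
  | add z₁ z₂ h₁ h₂ => rw [smul_add, map_add, map_add, h₁, h₂, mul_add]
  | tmul r₁ b' =>
    rw [TensorProduct.smul_tmul', smul_eq_mul]
    induction r using TensorProduct.induction_on with
    | zero => simp
    | add x y hx hy => rw [add_mul, TensorProduct.add_tmul, map_add, map_add, hx, hy, add_mul]
    | tmul b a =>
      induction r₁ using TensorProduct.induction_on with
      | zero => simp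
      | add x y hx hy =>
        rw [mul_add, TensorProduct.add_tmul, map_add, hx, hy, TensorProduct.add_tmul, map_add,
          mul_add]
      | tmul b₁ a₁ =>
        rw [Algebra.TensorProduct.tmul_mul_tmul, tensorBCEquiv_tmul, tensorBCEquiv_tmul,
          Algebra.TensorProduct.map_tmul, Algebra.TensorProduct.tmul_mul_tmul]
        congr 1
        simp [Algebra.smul_def, mul_assoc]

/-- persistence of the nonzerodivisor property, `B ⊗[k] A` form, for `φ = algebraMap B B'`. -/
theorem exists_pow_mul_eq_zero_of_mul_eq_zero_tensor (I : Ideal (B ⊗[k] A))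
    [Module.Flat B ((B ⊗[k] A) ⧸ I)] (h f : B ⊗[k] A) (hf : f ∈ I)
    (hgen : ∀ x ∈ I, ∃ (m : ℕ) (b : B ⊗[k] A), h ^ m * x = b * f)
    (hnzd : ∀ y, y * f = 0 → ∃ m : ℕ, h ^ m * y = 0) (y' : B' ⊗[k] A)
    (hy' : y' * Algebra.TensorProduct.map (IsScalarTower.toAlgHom k B B') (AlgHom.id k A) f = 0) :
    ∃ m : ℕ,
      Algebra.TensorProduct.map (IsScalarTower.toAlgHom k B B') (AlgHom.id k A) h ^ m * y' = 0 := by
  obtain ⟨z, rfl⟩ := (tensorBCEquiv (k := k) (A := A) (B := B) (B' := B')).surjective y'
  have hz : f • z = 0 := by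
    apply (tensorBCEquiv (k := k) (A := A) (B := B) (B' := B')).injective
    rw [tensorBCEquiv_smul, map_zero, mul_comm]
    exact hy'
  obtain ⟨m, hm⟩ := exists_pow_smul_eq_zero_of_smul_eq_zero I h f hf hgen hnzd B' z hz
  refine ⟨m, ?_⟩
  rw [← map_pow, ← tensorBCEquiv_smul, hm, map_zero]

end TensorEquiv

section BaseChange

variable {k A B B' : Type*} [CommRing k] [CommRing A] [Algebra k A] [CommRing B] [Algebra k B]
  [CommRing B'] [Algebra k B']

/-- **(CART-BC)** Cartier data for `I ⊂ B ⊗[k] A` with `(B ⊗[k] A) ⧸ I` flat over `B` base-change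
along any `φ : B →ₐ[k] B'`. -/
theorem IsCartierData.baseChange (φ : B →ₐ[k] B') {I : Ideal (B ⊗[k] A)}
    [Module.Flat B ((B ⊗[k] A) ⧸ I)] {n : ℕ} {h f : Fin n → B ⊗[k] A}
    (hc : IsCartierData I h f) :
    IsCartierData (I.map (Algebra.TensorProduct.map φ (AlgHom.id k A)))
      (fun α => Algebra.TensorProduct.map φ (AlgHom.id k A) (h α))
      (fun α => Algebra.TensorProduct.map φ (AlgHom.id k A) (f α)) := by
  let _ : Algebra B B' := φ.toRingHom.toAlgebra
  have : IsScalarTower k B B' := IsScalarTower.of_algebraMap_eq fun x => (φ.commutes x).symm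
  have hφ : IsScalarTower.toAlgHom k B B' = φ := by
    ext x
    rfl
  refine ⟨hc.span_map (Algebra.TensorProduct.map φ (AlgHom.id k A)).toRingHom,
    fun α => Ideal.mem_map_of_mem _ (hc.mem α),
    fun α => hc.gen_map (Algebra.TensorProduct.map φ (AlgHom.id k A)).toRingHom α, ?_⟩
  intro α y' hy'
  have := exists_pow_mul_eq_zero_of_mul_eq_zero_tensor (B' := B') I (h α) (f α) (hc.mem α)
    (hc.gen α) (hc.nzd α) y'
  rw [hφ] at this
  exact this hy'

end BaseChange

end

end Fermat.Agent.JAC
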