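/-
PROJECT JAC (S25) — lead — **the zero locus of an ideal of an affine open, finite over the base, is
closed in the ambient scheme** (`f : Y ⟶ T` separated, `T` affine).
-/
import Mathlib
import Fermat.Agent.AV.LBS_helper1_SecOn

set_option autoImplicit false

open AlgebraicGeometry CategoryTheory Opposite TopologicalSpace

universe u

namespace Fermat.Agent.JAC

open Fermat.Agent.AV

noncomputable section

variable {Y : Scheme.{u}}

/-- the zero locus, inside the open `W`, of an ideal of `Γ(Y, W)`, as a subset of `Y`. -/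
def zeroSet (W : Y.Opens) (I : Ideal Γ(Y, W)) : Set Y :=
  {y | y ∈ W ∧ ∀ r ∈ I, y ∉ Y.basicOpen r}

/-- the closed immersion `Spec (Γ(Y,W)/I) ⟶ Y`. -/
def zeroEmb {W : Y.Opens} (hW : IsAffineOpen W) (I : Ideal Γ(Y, W)) :
    Spec (CommRingCat.of (Γ(Y, W) ⧸ I)) ⟶ Y :=
  Spec.map (CommRingCat.ofHom (Ideal.Quotient.mk I)) ≫ hW.fromSpec

theorem range_zeroEmb {W : Y.Opens} (hW : IsAffineOpen W) (I : Ideal Γ(Y, W)) :
    Set.range (zeroEmb hW I) = zeroSet W I := by
  ext y
  constructor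
  · rintro ⟨p, rfl⟩
    refine ⟨?_, ?_⟩
    · have : (zeroEmb hW I) p ∈ Set.range hW.fromSpec := ⟨_, rfl⟩
      rw [hW.range_fromSpec] at this
      exact this
    · intro r hr hmem
      have h1 : (Spec.map (CommRingCat.ofHom (Ideal.Quotient.mk I))) p ∈
          hW.fromSpec ⁻¹ᵁ Y.basicOpen r := hmem
      rw [hW.fromSpec_preimage_basicOpen] at h1
      apply h1
      show r ∈ ((Spec.map (CommRingCat.ofHom (Ideal.Quotient.mk I))) p).asIdeal
      show (Ideal.Quotient.mk I) r ∈ p.asIdeal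
      rw [Ideal.Quotient.eq_zero_iff_mem.mpr hr]
      exact zero_mem _
  · rintro ⟨hyW, hy⟩
    have : y ∈ Set.range hW.fromSpec := by rw [hW.range_fromSpec]; exact hyW
    obtain ⟨q, rfl⟩ := this
    have hq : I ≤ q.asIdeal := by
      intro r hr
      by_contra hn
      apply hy r hr
      have : q ∈ hW.fromSpec ⁻¹ᵁ Y.basicOpen r := by
        rw [hW.fromSpec_preimage_basicOpen]
        exact hn
      exact this
    have hq2 : q ∈ Set.range (PrimeSpectrum.comap (Ideal.Quotient.mk I)) := by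
      rw [range_comap_of_surjective _ _ Ideal.Quotient.mk_surjective]
      rw [Ideal.mk_ker]
      exact hq
    obtain ⟨p, hp⟩ := hq2
    exact ⟨p, congrArg hW.fromSpec hp⟩

/-- **closedness.** -/
theorem isClosed_zeroSet {T : Scheme.{u}} [IsAffine T] (f : Y ⟶ T) [IsSeparated f]
    {W : Y.Opens} (hW : IsAffineOpen W) (I : Ideal Γ(Y, W))
    (hfin : ((Ideal.Quotient.mk I).comp (f.appLE ⊤ W le_top).hom).Finite) :
    IsClosed (zeroSet W I) := by
  rw [← range_zeroEmb hW I]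
  have h1 : zeroEmb hW I ≫ f =
      Spec.map (f.appLE ⊤ W le_top ≫ CommRingCat.ofHom (Ideal.Quotient.mk I)) ≫
        T.isoSpec.inv := by
    rw [zeroEmb, Category.assoc, ← (isAffineOpen_top T).SpecMap_appLE_fromSpec f hW le_top,
      IsAffineOpen.fromSpec_top, Spec.map_comp, Category.assoc]
  have h2 : IsFinite (Spec.map (f.appLE ⊤ W le_top ≫ CommRingCat.ofHom (Ideal.Quotient.mk I))) := by
    rw [IsFinite.SpecMap_iff]
    exact hfin
  have h3 : IsProper (zeroEmb hW I ≫ f) := by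
    rw [h1]
    infer_instance
  have h4 : IsProper (zeroEmb hW I) := IsProper.of_comp (zeroEmb hW I) f
  exact (zeroEmb hW I).isClosedMap.isClosed_range

/-- the open complement of the zero locus. -/
def offOpen {T : Scheme.{u}} [IsAffine T] (f : Y ⟶ T) [IsSeparated f]
    {W : Y.Opens} (hW : IsAffineOpen W) (I : Ideal Γ(Y, W))
    (hfin : ((Ideal.Quotient.mk I).comp (f.appLE ⊤ W le_top).hom).Finite) : Y.Opens :=
  ⟨(zeroSet W I)ᶜ, (isClosed_zeroSet f hW I hfin).isOpen_compl⟩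

theorem mem_offOpen {T : Scheme.{u}} [IsAffine T] (f : Y ⟶ T) [IsSeparated f]
    {W : Y.Opens} (hW : IsAffineOpen W) (I : Ideal Γ(Y, W))
    (hfin : ((Ideal.Quotient.mk I).comp (f.appLE ⊤ W le_top).hom).Finite) (y : Y) :
    y ∈ offOpen f hW I hfin ↔ (y ∈ W → ∃ r ∈ I, y ∈ Y.basicOpen r) := by
  show y ∈ (zeroSet W I)ᶜ ↔ _
  constructor
  · intro h hy
    by_contra hn
    apply h
    refine ⟨hy, fun r hr hyr => hn ⟨r, hr, hyr⟩⟩
  · rintro h ⟨hy, hy2⟩
    obtain ⟨r, hr, hyr⟩ := h hy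
    exact hy2 r hr hyr

theorem sup_offOpen {T : Scheme.{u}} [IsAffine T] (f : Y ⟶ T) [IsSeparated f]
    {W : Y.Opens} (hW : IsAffineOpen W) (I : Ideal Γ(Y, W))
    (hfin : ((Ideal.Quotient.mk I).comp (f.appLE ⊤ W le_top).hom).Finite) :
    W ⊔ offOpen f hW I hfin = ⊤ := by
  rw [eq_top_iff]
  intro y _
  by_cases hy : y ∈ W
  · exact Or.inl hy
  · exact Or.inr ((mem_offOpen f hW I hfin y).mpr (fun h => absurd h hy))

/-- a local generator of the ideal is a unit off the zero locus. -/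
theorem isUnit_res_offOpen {T : Scheme.{u}} [IsAffine T] (f : Y ⟶ T) [IsSeparated f]
    {W : Y.Opens} (hW : IsAffineOpen W) (I : Ideal Γ(Y, W))
    (hfin : ((Ideal.Quotient.mk I).comp (f.appLE ⊤ W le_top).hom).Finite)
    {V : Y.Opens} (hV : V ≤ W) (e : Γ(Y, V))
    (hgen : ∀ r ∈ I, ∃ a : Γ(Y, V), res V hV r = a * e) :
    IsUnit (res (V ⊓ offOpen f hW I hfin) inf_le_left e) := by
  rw [isUnit_iff_le_basicOpen, basicOpen_res']
  intro y hy
  refine ⟨hy, ?_⟩
  obtain ⟨r, hr, hyr⟩ := (mem_offOpen f hW I hfin y).mp hy.2 (hV hy.1)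
  obtain ⟨a, ha⟩ := hgen r hr
  have h1 : y ∈ Y.basicOpen (res V hV r) := by
    rw [basicOpen_res']
    exact ⟨hy.1, hyr⟩
  rw [ha, Scheme.basicOpen_mul] at h1
  exact h1.2

end

end Fermat.Agent.JAC
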