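/-
PROJECT JAC (S25) — helper5 — **line bundles from local equations on arbitrary schemes** (effective
Cartier divisors): an open cover `U i` with functions `f i ∈ Γ(X, U i)` which are non-zero-divisors
on every smaller open, and functions `g i j` on the overlaps with `f i = g i j * f j`.

* `LocalEqData X`, `LocalEqData.toLB`, `LocalEqData.toSection` (the regular section with
  components `f i`);
* `nzd_of_isAffineOpen`: on an affine open it suffices that `f` is a non-zero-divisor of the ring
  of sections;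
* `LocalEqData.pullback φ` (when the pulled-back equations stay non-zero-divisors), and
  `(D.pullback φ h).toLB = D.toLB.pullback φ` by `rfl`.
-/
import Mathlib
import Fermat.Agent.AV.LB_helper5_Core

set_option autoImplicit false
set_option linter.style.haveILetI false
set_option linter.unusedSectionVars false

open AlgebraicGeometry CategoryTheory Opposite TopologicalSpace

universe u

namespace Fermat.Agent.JAC

open Fermat.Agent.AV

noncomputable section

variable {X : Scheme.{u}}

/-- `f` stays a non-zero-divisor on every open `V ≤ U`. -/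
def IsNZDOn (U : X.Opens) (f : Γ(X, U)) : Prop :=
  ∀ (V : X.Opens) (h : V ≤ U) (b : Γ(X, V)), res V h f * b = 0 → b = 0

theorem IsNZDOn.restrict {U W : X.Opens} {f : Γ(X, U)} (hf : IsNZDOn U f) (h : W ≤ U) :
    IsNZDOn W (res W h f) := by
  intro V hV b hb
  rw [res_res] at hb
  exact hf V (hV.trans h) b hb

/-- on an affine open, a non-zero-divisor of the ring of sections is a non-zero-divisor on every
smaller open. -/
theorem isNZDOn_of_isAffineOpen {U : X.Opens} (hU : IsAffineOpen U) (f : Γ(X, U))
    (hf : ∀ b : Γ(X, U), f * b = 0 → b = 0) : IsNZDOn U f := by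
  intro V hVU b hb
  -- cover `V` by basic opens of `U`
  have hcover : ∀ x : V, ∃ h : Γ(X, U), x.1 ∈ X.basicOpen h ∧ X.basicOpen h ≤ V := by
    intro x
    obtain ⟨h, hh1, hh2⟩ := hU.exists_basicOpen_le (V := V) ⟨x.1, x.2⟩ (hVU x.2)
    exact ⟨h, hh2, hh1⟩
  choose h hxh hhV using hcover
  apply eq_of_res_eq (fun x : V => X.basicOpen (h x)) hhV
    (fun y hy => Opens.mem_iSup.2 ⟨⟨y, hy⟩, hxh ⟨y, hy⟩⟩) b 0
  intro x
  rw [map_zero]
  -- on the basic open `D(h x)` the ring of sections is a localisation of `Γ(X, U)`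
  haveI := hU.isLocalization_basicOpen (h x)
  set D := X.basicOpen (h x) with hD
  have hDU : D ≤ U := X.basicOpen_le (h x)
  have hb' : res D hDU f * res D (hhV x) b = 0 := by
    have := congrArg (res D (hhV x)) hb
    rwa [map_mul, map_zero, res_res] at this
  -- write `b|_D = a / h^n`
  obtain ⟨⟨a, ⟨_, n, rfl⟩⟩, ha⟩ := IsLocalization.surj (Submonoid.powers (h x)) (res D (hhV x) b)
  have hunit : IsUnit (res D hDU (h x ^ n)) := by
    have := IsLocalization.map_units (M := Submonoid.powers (h x)) Γ(X, D)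
      (⟨h x ^ n, n, rfl⟩ : Submonoid.powers (h x))
    exact this
  -- `f a` vanishes on `D`, hence `h^m f a = 0` on `U`
  have hfa : res D hDU (f * a) = 0 := by
    have ha' : res D (hhV x) b * res D hDU (h x ^ n) = res D hDU a := ha
    rw [map_mul, ← ha', ← mul_assoc, hb', zero_mul]
  obtain ⟨⟨_, m, rfl⟩, hm⟩ := (IsLocalization.map_eq_zero_iff (Submonoid.powers (h x))
    Γ(X, D) (f * a)).1 hfa
  have hm' : f * (h x ^ m * a) = 0 := by
    have : h x ^ m * (f * a) = 0 := hm
    rw [← this]; ring
  have h0 : h x ^ m * a = 0 := hf _ hm'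
  -- so `a = 0` on `D`
  have ha0 : res D hDU a = 0 := by
    have h1 := congrArg (res D hDU) h0
    rw [map_mul, map_zero] at h1
    have hunit' : IsUnit (res D hDU (h x ^ m)) := by
      have := IsLocalization.map_units (M := Submonoid.powers (h x)) Γ(X, D)
        (⟨h x ^ m, m, rfl⟩ : Submonoid.powers (h x))
      exact this
    exact (hunit'.mul_right_eq_zero).1 h1
  have ha' : res D (hhV x) b * res D hDU (h x ^ n) = res D hDU a := ha
  rw [ha0] at ha'
  exact (hunit.mul_left_eq_zero).1 ha'

/-- local equations of an effective Cartier divisor. -/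
structure LocalEqData (X : Scheme.{u}) where
  /-- index set of the cover -/
  ι : Type u
  /-- the cover -/
  U : ι → X.Opens
  iSup_U : ⨆ i, U i = ⊤
  /-- the local equations -/
  f : ∀ i, Γ(X, U i)
  nzd : ∀ i, IsNZDOn (U i) (f i)
  /-- the transition functions -/
  g : ∀ i j, Γ(X, U i ⊓ U j)
  hg : ∀ i j, res (U i ⊓ U j) inf_le_left (f i) = g i j * res (U i ⊓ U j) inf_le_right (f j)

namespace LocalEqData

variable (D : LocalEqData X)

/-- the line bundle `O(Z)` of the effective Cartier divisor `Z = V(f i)`. -/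
def toLB : LB X where
  ι := D.ι
  U := D.U
  iSup_U := D.iSup_U
  g := D.g
  g_self i := by
    apply sub_eq_zero.1
    apply (D.nzd i).restrict (inf_le_left : D.U i ⊓ D.U i ≤ D.U i) (D.U i ⊓ D.U i) le_rfl
    rw [res_self, mul_sub, mul_one, sub_eq_zero, mul_comm]
    exact (D.hg i i).symm
  cocycle i j k := by
    apply sub_eq_zero.1
    apply (D.nzd k).restrict (inf_le_right : D.U i ⊓ D.U j ⊓ D.U k ≤ D.U k)
      (D.U i ⊓ D.U j ⊓ D.U k) le_rfl
    rw [res_self, mul_sub, sub_eq_zero]
    have h1 := congrArg (res (D.U i ⊓ D.U j ⊓ D.U k) inf_le_left) (D.hg i j)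
    have h2 := congrArg (res (D.U i ⊓ D.U j ⊓ D.U k)
      (le_inf (inf_le_left.trans inf_le_right) inf_le_right)) (D.hg j k)
    have h3 := congrArg (res (D.U i ⊓ D.U j ⊓ D.U k)
      (le_inf (inf_le_left.trans inf_le_left) inf_le_right)) (D.hg i k)
    simp only [map_mul, res_res] at h1 h2 h3
    calc res (D.U i ⊓ D.U j ⊓ D.U k) inf_le_right (D.f k) *
          (res _ inf_le_left (D.g i j) * res _
            (le_inf (inf_le_left.trans inf_le_right) inf_le_right) (D.g j k))
        = res _ inf_le_left (D.g i j) * (res _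
            (le_inf (inf_le_left.trans inf_le_right) inf_le_right) (D.g j k) *
            res (D.U i ⊓ D.U j ⊓ D.U k) inf_le_right (D.f k)) := by ring
      _ = res (D.U i ⊓ D.U j ⊓ D.U k) (inf_le_left.trans inf_le_left) (D.f i) := by
          rw [← h2, ← h1]
      _ = res (D.U i ⊓ D.U j ⊓ D.U k) inf_le_right (D.f k) *
          res _ (le_inf (inf_le_left.trans inf_le_left) inf_le_right) (D.g i k) := by
          rw [h3]; ring

@[simp] theorem toLB_ι : D.toLB.ι = D.ι := rfl
@[simp] theorem toLB_U (i : D.ι) : D.toLB.U i = D.U i := rfl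
@[simp] theorem toLB_g (i j : D.ι) : D.toLB.g i j = D.g i j := rfl

/-- the canonical regular section of `O(Z)`, with components the local equations. -/
def toSection : D.toLB.H0 := ⟨D.f, D.hg⟩

@[simp] theorem toSection_apply (i : D.ι) : D.toSection.1 i = D.f i := rfl

/-- pullback of local equations along a morphism, provided they stay non-zero-divisors. -/
def pullback {Y : Scheme.{u}} (φ : Y ⟶ X)
    (h : ∀ i, IsNZDOn (φ ⁻¹ᵁ D.U i) ((φ.app (D.U i)).hom (D.f i))) : LocalEqData Y where
  ι := D.ι
  U i := φ ⁻¹ᵁ D.U i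
  iSup_U := (D.toLB.pullback φ).iSup_U
  f i := (φ.app (D.U i)).hom (D.f i)
  nzd := h
  g i j := (φ.app (D.U i ⊓ D.U j)).hom (D.g i j)
  hg i j := by
    have h1 := congrArg (φ.app (D.U i ⊓ D.U j)).hom (D.hg i j)
    rw [map_mul, app_res, app_res] at h1
    exact h1

theorem pullback_toLB {Y : Scheme.{u}} (φ : Y ⟶ X)
    (h : ∀ i, IsNZDOn (φ ⁻¹ᵁ D.U i) ((φ.app (D.U i)).hom (D.f i))) :
    (D.pullback φ h).toLB = D.toLB.pullback φ := rfl

theorem pullback_toSection {Y : Scheme.{u}} (φ : Y ⟶ X)
    (h : ∀ i, IsNZDOn (φ ⁻¹ᵁ D.U i) ((φ.app (D.U i)).hom (D.f i))) :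
    (D.pullback φ h).toSection = D.toLB.pullbackSection φ D.toSection := rfl

/-- local equations which divide each other on the overlaps (the transition functions are
chosen). -/
def ofDvd (ι : Type u) (U : ι → X.Opens) (iSup_U : ⨆ i, U i = ⊤) (f : ∀ i, Γ(X, U i))
    (nzd : ∀ i, IsNZDOn (U i) (f i))
    (hdvd : ∀ i j, ∃ c : Γ(X, U i ⊓ U j),
      res (U i ⊓ U j) inf_le_left (f i) = c * res (U i ⊓ U j) inf_le_right (f j)) :
    LocalEqData X where
  ι := ι
  U := U
  iSup_U := iSup_U
  f := f
  nzd := nzd
  g i j := Classical.choose (hdvd i j)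
  hg i j := Classical.choose_spec (hdvd i j)

/-- the non-vanishing locus of the canonical section on a chart: a point of `U i` lies in it iff
`f i` is invertible there. -/
theorem basicOpen_toSection (i : D.ι) : X.basicOpen (D.toSection.1 i) = X.basicOpen (D.f i) := rfl

end LocalEqData

end

end Fermat.Agent.JAC
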