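/-
PROJECT JAC (S25) — lead — **line bundles from regular local equations on arbitrary schemes.**

(on top of helper5's `DIV_helper5_LocalEq`: `IsNZDOn`, `LocalEqData`, `toLB`, `toSection`)
* `IsNZDOn.eq_of_mul_eq`, `isNZDOn_one`, `isNZDOn_of_isUnit`, `isNZDOn_of_cover`, `exists_mul_of_cover`;
* `LB.IsRegSection`, `LB.isoData_of_regSections` : two line bundles with regular sections which are
  locally unit multiples of each other are isomorphic (`IsoData` with `f k * s = t`);
* `LB.zeroIdeal s V` : the ideal of the zero scheme of `s` on `V`.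
-/
import Mathlib
import Fermat.Agent.AV.LB_helper5_Pic
import Fermat.Agent.AV.LBS_helper1_SecOn
import Fermat.Agent.JAC.DIV_helper5_LocalEq

set_option autoImplicit false

open AlgebraicGeometry CategoryTheory Opposite TopologicalSpace

universe u

namespace Fermat.Agent.JAC

open Fermat.Agent.AV

noncomputable section

variable {X : Scheme.{u}}

theorem IsNZDOn.eq_of_mul_eq {V V' : X.Opens} {f : Γ(X, V)} (hf : IsNZDOn V f) (h : V' ≤ V)
    {a b : Γ(X, V')} (hab : a * Fermat.Agent.AV.res V' h f = b * Fermat.Agent.AV.res V' h f) :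
    a = b := by
  have : Fermat.Agent.AV.res V' h f * (a - b) = 0 := by
    rw [mul_sub, mul_comm, hab, mul_comm, sub_self]
  exact sub_eq_zero.mp (hf V' h _ this)

theorem isNZDOn_one {V : X.Opens} : IsNZDOn V (1 : Γ(X, V)) := by
  intro V' h a ha
  rw [map_one, one_mul] at ha
  exact ha

theorem isNZDOn_of_isUnit {V : X.Opens} {f : Γ(X, V)} (hf : IsUnit f) : IsNZDOn V f := by
  intro V' h a ha
  have hu : IsUnit (res V' h f) := hf.map _
  exact (hu.mul_right_eq_zero).mp ha

/-- regularity is local. -/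
theorem isNZDOn_of_cover {ι : Type*} {V : X.Opens} (U : ι → X.Opens) (hU : ∀ i, U i ≤ V)
    (hcover : V ≤ ⨆ i, U i) (f : Γ(X, V)) (h : ∀ i, IsNZDOn (U i) (res (U i) (hU i) f)) :
    IsNZDOn V f := by
  intro V' hV' a ha
  refine eq_of_res_eq (fun i => V' ⊓ U i) (fun i => inf_le_left) ?_ _ _ ?_
  · intro x hx
    obtain ⟨i, hi⟩ := Opens.mem_iSup.mp (hcover (hV' hx))
    exact Opens.mem_iSup.mpr ⟨i, ⟨hx, hi⟩⟩
  · intro i
    rw [map_zero]
    refine h i (V' ⊓ U i) inf_le_right _ ?_
    have h1 := congrArg (res (V' ⊓ U i) inf_le_left) ha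
    rw [map_mul, res_res, map_zero] at h1
    rw [res_res]
    exact h1

/-- multiples of a regular function glue. -/
theorem exists_mul_of_cover {ι : Type u} {V : X.Opens} (U : ι → X.Opens) (hU : ∀ i, U i ≤ V)
    (hcover : V ≤ ⨆ i, U i) (s t : Γ(X, V)) (hs : IsNZDOn V s)
    (h : ∀ i, ∃ c : Γ(X, U i), res (U i) (hU i) t = c * res (U i) (hU i) s) :
    ∃ c : Γ(X, V), t = c * s := by
  choose c hc using h
  obtain ⟨c₀, hc₀, -⟩ := Fermat.Agent.AV.exists_glue U hU hcover c (by
    intro i j
    refine hs.eq_of_mul_eq (inf_le_left.trans (hU i)) ?_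
    have h1 := congrArg (res (U i ⊓ U j) inf_le_left) (hc i)
    have h2 := congrArg (res (U i ⊓ U j) inf_le_right) (hc j)
    rw [map_mul, res_res, res_res] at h1 h2
    rw [← h1, ← h2])
  refine ⟨c₀, eq_of_res_eq U hU hcover _ _ (fun i => ?_)⟩
  rw [map_mul, hc₀ i, hc i]

end

end Fermat.Agent.JAC

namespace Fermat.Agent.AV.LB

open Fermat.Agent.JAC

noncomputable section

variable {X : Scheme.{u}}

/-- a regular section: every local component is a non-zero-divisor on every smaller open. -/
def IsRegSection (M : LB X) (s : M.H0) : Prop := ∀ i, IsNZDOn (M.U i) (s.1 i)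

theorem isRegSection_toSection (D : LocalEqData X) : D.toLB.IsRegSection D.toSection := D.nzd

/-- **two line bundles with regular sections which are locally unit multiples of each other are
isomorphic**, by an isomorphism carrying the first section to the second. -/
theorem exists_isoData_of_regSections (M N : LB X) (s : M.H0) (t : N.H0) (hs : M.IsRegSection s)
    (h : ∀ i j, ∃ c c' : Γ(X, M.U i ⊓ N.U j), c * c' = 1 ∧
      res (M.U i ⊓ N.U j) inf_le_right (t.1 j) = c * res (M.U i ⊓ N.U j) inf_le_left (s.1 i)) :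
    ∃ D : IsoData M N, ∀ k,
      res (D.W k) (D.hβ k) (t.1 (D.β k)) = D.f k * res (D.W k) (D.hα k) (s.1 (D.α k)) := by
  choose c c' hcc' hc using h
  refine ⟨{ κ := M.ι × N.ι
            W := fun p => M.U p.1 ⊓ N.U p.2
            iSup_W := by
              show ⨆ p : M.ι × N.ι, M.U p.1 ⊓ N.U p.2 = ⊤
              rw [← iSup_inf_iSup, M.iSup_U, N.iSup_U, top_inf_eq]
            α := Prod.fst
            β := Prod.snd
            hα := fun _ => inf_le_left
            hβ := fun _ => inf_le_right
            f := fun p => c p.1 p.2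
            fi := fun p => c' p.1 p.2
            f_mul_fi := fun p => hcc' p.1 p.2
            compat := ?_ }, fun p => hc p.1 p.2⟩
  rintro ⟨i, j⟩ ⟨i', j'⟩
  set V := (M.U i ⊓ N.U j) ⊓ (M.U i' ⊓ N.U j')
  have hi : V ≤ M.U i := inf_le_left.trans inf_le_left
  have hj : V ≤ N.U j := inf_le_left.trans inf_le_right
  have hi' : V ≤ M.U i' := inf_le_right.trans inf_le_left
  have hj' : V ≤ N.U j' := inf_le_right.trans inf_le_right
  -- multiply by the regular `s i'`
  refine (hs i').eq_of_mul_eq hi' ?_
  have e1 : res V (le_inf hi hi') (M.g i i') * res V hi' (s.1 i') = res V hi (s.1 i) := by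
    have := congrArg (res V (le_inf hi hi')) (s.2 i i')
    rw [map_mul, res_res, res_res] at this
    exact this.symm
  have e2 : res V (le_inf hj hj') (N.g j j') * res V hj' (t.1 j') = res V hj (t.1 j) := by
    have := congrArg (res V (le_inf hj hj')) (t.2 j j')
    rw [map_mul, res_res, res_res] at this
    exact this.symm
  have e3 : res V hj (t.1 j) = res V inf_le_left (c i j) * res V hi (s.1 i) := by
    have := congrArg (res V inf_le_left) (hc i j)
    rw [map_mul, res_res, res_res] at this
    exact this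
  have e4 : res V hj' (t.1 j') = res V inf_le_right (c i' j') * res V hi' (s.1 i') := by
    have := congrArg (res V inf_le_right) (hc i' j')
    rw [map_mul, res_res, res_res] at this
    exact this
  show (res V inf_le_left (c i j) * res V _ (M.g i i')) * res V hi' (s.1 i') =
    (res V _ (N.g j j') * res V inf_le_right (c i' j')) * res V hi' (s.1 i')
  calc (res V inf_le_left (c i j) * res V _ (M.g i i')) * res V hi' (s.1 i')
      = res V inf_le_left (c i j) * (res V (le_inf hi hi') (M.g i i') * res V hi' (s.1 i')) := by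
        rw [mul_assoc]
    _ = res V hj (t.1 j) := by rw [e1, e3]
    _ = res V (le_inf hj hj') (N.g j j') * (res V inf_le_right (c i' j') * res V hi' (s.1 i')) := by
        rw [← e4, e2]
    _ = _ := by rw [mul_assoc]

/-- the ideal of the zero scheme of a section on an open `V`. -/
def zeroIdeal (M : LB X) (s : M.H0) (V : X.Opens) : Ideal Γ(X, V) where
  carrier := {r | ∀ i, ∃ a : Γ(X, M.U i ⊓ V),
    res (M.U i ⊓ V) inf_le_right r = a * res (M.U i ⊓ V) inf_le_left (s.1 i)}
  zero_mem' := fun i => ⟨0, by rw [map_zero, zero_mul]⟩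
  add_mem' := fun {r r'} hr hr' i => by
    obtain ⟨a, ha⟩ := hr i
    obtain ⟨a', ha'⟩ := hr' i
    exact ⟨a + a', by rw [map_add, ha, ha', add_mul]⟩
  smul_mem' := fun c r hr i => by
    obtain ⟨a, ha⟩ := hr i
    exact ⟨res (M.U i ⊓ V) inf_le_right c * a, by rw [smul_eq_mul, map_mul, ha, mul_assoc]⟩

theorem mem_zeroIdeal (M : LB X) (s : M.H0) (V : X.Opens) (r : Γ(X, V)) :
    r ∈ M.zeroIdeal s V ↔ ∀ i, ∃ a : Γ(X, M.U i ⊓ V),
      res (M.U i ⊓ V) inf_le_right r = a * res (M.U i ⊓ V) inf_le_left (s.1 i) := Iff.rfl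

theorem mem_zeroIdeal' (M : LB X) (s : M.H0) {V : X.Opens} {r : Γ(X, V)}
    (hr : r ∈ M.zeroIdeal s V) (i : M.ι) (O : X.Opens) (hi : O ≤ M.U i) (hV : O ≤ V) :
    ∃ a : Γ(X, O), res O hV r = a * res O hi (s.1 i) := by
  obtain ⟨a, ha⟩ := hr i
  refine ⟨res O (le_inf hi hV) a, ?_⟩
  have h := congrArg (res O (le_inf hi hV)) ha
  rw [map_mul, res_res, res_res] at h
  exact h

end

end Fermat.Agent.AV.LB
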