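/-
PROJECT JAC (S25) — lead — **existence of `(O(Z), s_Z)`** from Cartier data: `Y ⟶ T` separated,
`T` affine, `W ⊆ Y` an affine open, `I ⊆ Γ(Y, W)` an ideal with `Γ(Y,W)/I` finite over `Γ(T,⊤)` and
locally generated by non-zero-divisors (`CartierData`).  Then there is a line bundle `L` on `Y` with
a regular section `σ`, invertible off `W`, whose zero ideal on `W` is `I`.
-/
import Mathlib
import Fermat.Agent.JAC.HILB_lead_LocalEq
import Fermat.Agent.JAC.HILB_lead_Closed
import Fermat.Agent.AV.LBS_helper1_QC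
import Fermat.Agent.JAC.HILB_helper7_CartierBC

set_option autoImplicit false

open AlgebraicGeometry CategoryTheory Opposite TopologicalSpace

universe u

namespace Fermat.Agent.JAC

open Fermat.Agent.AV

noncomputable section


variable {Y : Scheme.{u}}

/-- on an affine open `W`, if the annihilator of `f` is killed by powers of `h`, then `f` is regular
on `D(h)`. -/
theorem isNZDOn_res_basicOpen {W : Y.Opens} (hW : IsAffineOpen W) (h f : Γ(Y, W))
    (hreg : ∀ a, a * f = 0 → ∃ m : ℕ, h ^ m * a = 0) :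
    IsNZDOn (Y.basicOpen h) (res (Y.basicOpen h) (Y.basicOpen_le h) f) := by
  intro V' hV' a ha
  rw [res_res, mul_comm] at ha
  -- cover `V'` by basic opens of `W`
  have hpt : ∀ x : V', ∃ b : Γ(Y, W), Y.basicOpen b ≤ V' ∧ x.1 ∈ Y.basicOpen b := fun x =>
    hW.exists_basicOpen_le x ((Y.basicOpen_le h) (hV' x.2))
  choose b hb hxb using hpt
  refine eq_of_res_eq (fun x : V' => Y.basicOpen (b x)) hb ?_ _ _ (fun x => ?_)
  · intro y hy
    exact Opens.mem_iSup.mpr ⟨⟨y, hy⟩, hxb ⟨y, hy⟩⟩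
  · rw [map_zero]
    set D := Y.basicOpen (b x) with hD
    have hDW : D ≤ W := Y.basicOpen_le _
    -- `a|_D = a' / b^k`
    obtain ⟨k, a', ha'⟩ := exists_eq_pow_mul_of_isAffineOpen Y W hW (b x) (res D (hb x) a)
    have ha'' : res D hDW a' = res D hDW (b x) ^ k * res D (hb x) a := ha'
    -- `a' f` vanishes on `D`
    have h1 : res D hDW (a' * f) = 0 := by
      rw [map_mul, ha'', mul_assoc]
      have h2 := congrArg (res D (hb x)) ha
      rw [map_mul, res_res, map_zero] at h2
      rw [h2, mul_zero]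
    obtain ⟨m, hm⟩ := exists_pow_mul_eq_zero_of_res_basicOpen_eq_zero_of_isAffineOpen Y hW
      (a' * f) (b x) h1
    obtain ⟨m', hm'⟩ := hreg (b x ^ m * a') (by rw [mul_assoc, hm])
    -- restrict to `D`, where `h` and `b x` are units
    have hbu : IsUnit (res D hDW (b x)) := by
      rw [isUnit_iff_le_basicOpen, basicOpen_res']
      exact le_inf le_rfl le_rfl
    have hhu : IsUnit (res D hDW h) := by
      rw [isUnit_iff_le_basicOpen, basicOpen_res']
      exact le_inf le_rfl ((hb x).trans hV')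
    have h3 := congrArg (res D hDW) hm'
    rw [map_mul, map_mul, map_pow, map_pow, map_zero, ha'', ← mul_assoc, ← mul_assoc] at h3
    have hu : IsUnit (res D hDW h ^ m' * res D hDW (b x) ^ m * res D hDW (b x) ^ k) :=
      ((hhu.pow m').mul (hbu.pow m)).mul (hbu.pow k)
    exact (hu.mul_right_eq_zero).mp h3

namespace IsCartierData

variable {W : Y.Opens} {I : Ideal Γ(Y, W)} {n : ℕ} {h f : Fin n → Γ(Y, W)}

/-- local generation on `D(h α)`. -/
theorem gen_local (CD : IsCartierData I h f) (α : Fin n) (r : Γ(Y, W)) (hr : r ∈ I) :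
    ∃ a : Γ(Y, Y.basicOpen (h α)),
      res (Y.basicOpen (h α)) (Y.basicOpen_le _) r =
        a * res (Y.basicOpen (h α)) (Y.basicOpen_le _) (f α) := by
  obtain ⟨m, a, hma⟩ := CD.gen α r hr
  have hu : IsUnit (res (Y.basicOpen (h α)) (Y.basicOpen_le _) (h α)) := by
    rw [isUnit_iff_le_basicOpen, basicOpen_res']
    exact le_inf le_rfl le_rfl
  obtain ⟨u, hu'⟩ := (hu.pow m).exists_left_inv
  refine ⟨u * res (Y.basicOpen (h α)) (Y.basicOpen_le _) a, ?_⟩
  have h1 := congrArg (res (Y.basicOpen (h α)) (Y.basicOpen_le _)) hma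
  rw [map_mul, map_mul, map_pow] at h1
  calc res (Y.basicOpen (h α)) _ r
      = (u * res (Y.basicOpen (h α)) _ (h α) ^ m) * res (Y.basicOpen (h α)) _ r := by
        rw [hu', one_mul]
    _ = u * (res (Y.basicOpen (h α)) _ (h α) ^ m * res (Y.basicOpen (h α)) _ r) := by ring
    _ = _ := by rw [h1]; ring

theorem iSup_basicOpen (CD : IsCartierData I h f) (hW : IsAffineOpen W) :
    ⨆ α, Y.basicOpen (h α) = W := by
  apply le_antisymm
  · exact iSup_le fun α => Y.basicOpen_le _
  · have h' := (hW.self_le_iSup_basicOpen_iff (s := Set.range h)).mpr CD.span_eq_top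
    refine h'.trans (iSup_le ?_)
    rintro ⟨_, α, rfl⟩
    exact le_iSup_of_le α le_rfl

theorem isNZDOn (CD : IsCartierData I h f) (hW : IsAffineOpen W) (α : Fin n) :
    IsNZDOn (Y.basicOpen (h α)) (res (Y.basicOpen (h α)) (Y.basicOpen_le _) (f α)) :=
  isNZDOn_res_basicOpen hW (h α) (f α) (CD.nzd α)

/-- membership in `I` can be tested on the cover `D(h α)`. -/
theorem mem_of_forall (CD : IsCartierData I h f) (hW : IsAffineOpen W) (r : Γ(Y, W))
    (hr : ∀ α : Fin n, ∃ a : Γ(Y, Y.basicOpen (h α)),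
      res (Y.basicOpen (h α)) (Y.basicOpen_le _) r =
        a * res (Y.basicOpen (h α)) (Y.basicOpen_le _) (f α)) : r ∈ I := by
  -- local-global principle
  refine Submodule.mem_of_span_eq_top_of_smul_pow_mem I (Set.range h) CD.span_eq_top r ?_
  rintro ⟨_, α, rfl⟩
  obtain ⟨a, ha2⟩ := hr α
  obtain ⟨k, a', ha'⟩ := exists_eq_pow_mul_of_isAffineOpen Y W hW (h α) a
  have ha'' : res (Y.basicOpen (h α)) (Y.basicOpen_le _) a' =
      res (Y.basicOpen (h α)) (Y.basicOpen_le _) (h α) ^ k * a := ha'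
  have h1 : res (Y.basicOpen (h α)) (Y.basicOpen_le _) (h α ^ k * r - a' * f α) = 0 := by
    rw [map_sub, map_mul, map_mul, map_pow, ha2, ha'']
    ring
  obtain ⟨m, hm⟩ := exists_pow_mul_eq_zero_of_res_basicOpen_eq_zero_of_isAffineOpen Y hW
    (h α ^ k * r - a' * f α) (h α) h1
  refine ⟨m + k, ?_⟩
  have h2 : h α ^ (m + k) • r = h α ^ m * (a' * f α) := by
    rw [smul_eq_mul, pow_add, mul_assoc]
    have := sub_eq_zero.mp (by rw [← hm]; ring :
      h α ^ m * (h α ^ k * r) - h α ^ m * (a' * f α) = 0)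
    exact this
  show (h α ^ (m + k) : Γ(Y, W)) • r ∈ I
  rw [h2]
  exact I.mul_mem_left _ (I.mul_mem_left _ (CD.mem α))

end IsCartierData

section Construction

variable {T : Scheme.{u}} [IsAffine T] (p : Y ⟶ T) [IsSeparated p]
  {W : Y.Opens} (hW : IsAffineOpen W) (I : Ideal Γ(Y, W))
  (hfin : ((Ideal.Quotient.mk I).comp (p.appLE ⊤ W le_top).hom).Finite)
  {n : ℕ} (h f : Fin n → Γ(Y, W))

/-- the charts. -/
def cartierU : PUnit.{u + 1} ⊕ ULift.{u} (Fin n) → Y.Opens
  | Sum.inl _ => offOpen p hW I hfin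
  | Sum.inr α => Y.basicOpen (h α.down)

/-- the local equations. -/
def cartierF : ∀ i, Γ(Y, cartierU p hW I hfin h i)
  | Sum.inl _ => 1
  | Sum.inr α => res (Y.basicOpen (h α.down)) (Y.basicOpen_le _) (f α.down)

variable {h f}

/-- the local equation `f α` is a unit off the zero locus. -/
theorem isUnit_cartierF_offOpen (CD : IsCartierData I h f) (α : Fin n) :
    IsUnit (res (Y.basicOpen (h α) ⊓ offOpen p hW I hfin) inf_le_left
      (res (Y.basicOpen (h α)) (Y.basicOpen_le _) (f α))) :=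
  isUnit_res_offOpen p hW I hfin (Y.basicOpen_le _) _ (fun r hr => CD.gen_local α r hr)

theorem cartier_ex_inl_inr (CD : IsCartierData I h f) (β : Fin n) :
    ∃ g : Γ(Y, offOpen p hW I hfin ⊓ Y.basicOpen (h β)),
      res (offOpen p hW I hfin ⊓ Y.basicOpen (h β)) inf_le_left
          (1 : Γ(Y, offOpen p hW I hfin)) =
        g * res (offOpen p hW I hfin ⊓ Y.basicOpen (h β)) inf_le_right
          (res (Y.basicOpen (h β)) (Y.basicOpen_le _) (f β)) := by
  have hu := isUnit_cartierF_offOpen p hW I hfin CD β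
  have hu2 : IsUnit (res (offOpen p hW I hfin ⊓ Y.basicOpen (h β)) inf_le_right
      (res (Y.basicOpen (h β)) (Y.basicOpen_le _) (f β))) := by
    have := hu.map (res (offOpen p hW I hfin ⊓ Y.basicOpen (h β))
      (le_inf inf_le_right inf_le_left))
    rw [res_res] at this
    exact this
  obtain ⟨g, hg⟩ := hu2.exists_left_inv
  refine ⟨g, ?_⟩
  rw [map_one]
  exact hg.symm

theorem cartier_ex_inr_inl (α : Fin n) :
    ∃ g : Γ(Y, Y.basicOpen (h α) ⊓ offOpen p hW I hfin),
      res (Y.basicOpen (h α) ⊓ offOpen p hW I hfin) inf_le_left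
          (res (Y.basicOpen (h α)) (Y.basicOpen_le _) (f α)) =
        g * res (Y.basicOpen (h α) ⊓ offOpen p hW I hfin) inf_le_right
          (1 : Γ(Y, offOpen p hW I hfin)) :=
  ⟨_, by rw [map_one, mul_one]⟩

omit [IsAffine T] [IsSeparated p] in
theorem cartier_ex_inr_inr (CD : IsCartierData I h f) (α β : Fin n) :
    ∃ g : Γ(Y, Y.basicOpen (h α) ⊓ Y.basicOpen (h β)),
      res (Y.basicOpen (h α) ⊓ Y.basicOpen (h β)) inf_le_left
          (res (Y.basicOpen (h α)) (Y.basicOpen_le _) (f α)) =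
        g * res (Y.basicOpen (h α) ⊓ Y.basicOpen (h β)) inf_le_right
          (res (Y.basicOpen (h β)) (Y.basicOpen_le _) (f β)) := by
  obtain ⟨a, ha⟩ := CD.gen_local β (f α) (CD.mem α)
  refine ⟨res (Y.basicOpen (h α) ⊓ Y.basicOpen (h β)) inf_le_right a, ?_⟩
  have h1 := congrArg (res (Y.basicOpen (h α) ⊓ Y.basicOpen (h β)) inf_le_right) ha
  rw [map_mul, res_res] at h1
  rw [res_res]
  exact h1

/-- the local equation data of `O(Z)`. -/
def cartierLocalEqData (CD : IsCartierData I h f) : LocalEqData Y :=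
  LocalEqData.ofDvd (PUnit.{u + 1} ⊕ ULift.{u} (Fin n)) (cartierU p hW I hfin h)
    (by
      rw [eq_top_iff]
      intro y _
      have hy : y ∈ W ⊔ offOpen p hW I hfin := by rw [sup_offOpen]; trivial
      rcases hy with hy | hy
      · rw [← CD.iSup_basicOpen hW] at hy
        obtain ⟨α, hα⟩ := Opens.mem_iSup.mp hy
        exact Opens.mem_iSup.mpr ⟨Sum.inr ⟨α⟩, hα⟩
      · exact Opens.mem_iSup.mpr ⟨Sum.inl PUnit.unit, hy⟩)
    (cartierF p hW I hfin h f)
    (by
      rintro (_ | ⟨⟨α⟩⟩)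
      · exact isNZDOn_one
      · exact CD.isNZDOn hW α)
    (by
      rintro (_ | ⟨⟨α⟩⟩) (_ | ⟨⟨β⟩⟩)
      · exact ⟨1, by rw [one_mul]⟩
      · exact cartier_ex_inl_inr p hW I hfin CD β
      · exact cartier_ex_inr_inl p hW I hfin α
      · exact cartier_ex_inr_inr I CD α β)

include p hW hfin in
/-- **existence of `(O(Z), s_Z)`.** -/
theorem exists_LB_of_isCartierData (CD : IsCartierData I h f) :
    ∃ (L : LB Y) (σ : L.H0), L.IsRegSection σ ∧ L.zeroIdeal σ W = I ∧
      ∃ W' : Y.Opens, W ⊔ W' = ⊤ ∧ ∀ i, IsUnit (res (L.U i ⊓ W') inf_le_left (σ.1 i)) := by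
  refine ⟨(cartierLocalEqData p hW I hfin CD).toLB, (cartierLocalEqData p hW I hfin CD).toSection,
    LB.isRegSection_toSection _, ?_, offOpen p hW I hfin, sup_offOpen p hW I hfin, ?_⟩
  · ext r
    constructor
    · intro hr
      refine CD.mem_of_forall hW r (fun α => ?_)
      obtain ⟨a, ha'⟩ : ∃ a : Γ(Y, Y.basicOpen (h α) ⊓ W),
          res (Y.basicOpen (h α) ⊓ W) inf_le_right r =
            a * res (Y.basicOpen (h α) ⊓ W) inf_le_left
              (res (Y.basicOpen (h α)) (Y.basicOpen_le _) (f α)) := hr (Sum.inr ⟨α⟩)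
      have hle : Y.basicOpen (h α) ≤ Y.basicOpen (h α) ⊓ W := le_inf le_rfl (Y.basicOpen_le _)
      refine ⟨res (Y.basicOpen (h α)) hle a, ?_⟩
      have := congrArg (res (Y.basicOpen (h α)) hle) ha'
      rw [map_mul, res_res, res_res, res_res] at this
      exact this
    · intro hr
      rintro (_ | ⟨⟨α⟩⟩)
      · exact ⟨res _ inf_le_right r, by
          show _ = _ * res _ _ (1 : Γ(Y, offOpen p hW I hfin))
          rw [map_one, mul_one]⟩
      · obtain ⟨a, ha⟩ := CD.gen_local α r hr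
        refine ⟨res (Y.basicOpen (h α) ⊓ W) inf_le_left a, ?_⟩
        show res (Y.basicOpen (h α) ⊓ W) inf_le_right r =
          res (Y.basicOpen (h α) ⊓ W) inf_le_left a * res (Y.basicOpen (h α) ⊓ W) inf_le_left
            (res (Y.basicOpen (h α)) (Y.basicOpen_le _) (f α))
        have h1 := congrArg (res (Y.basicOpen (h α) ⊓ W) inf_le_left) ha
        rw [map_mul, res_res] at h1
        exact h1
  · rintro (_ | ⟨⟨α⟩⟩)
    · show IsUnit (res _ _ (1 : Γ(Y, offOpen p hW I hfin)))
      rw [map_one]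
      exact isUnit_one
    · exact isUnit_cartierF_offOpen p hW I hfin CD α

end Construction

end

end Fermat.Agent.JAC
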