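/-
PROJECT JAC (S25) — lead — **uniqueness of `(O(Z), s_Z)`**: two line bundles with regular sections,
both units off an affine open `W`, having the same zero ideal on `W`, are isomorphic by an
isomorphism carrying one section to the other.
-/
import Mathlib
import Fermat.Agent.JAC.HILB_lead_LocalEq
import Fermat.Agent.AV.LBS_helper1_QC

set_option autoImplicit false

open AlgebraicGeometry CategoryTheory Opposite TopologicalSpace

universe u

namespace Fermat.Agent.AV.LB

open Fermat.Agent.JAC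

noncomputable section

variable {X : Scheme.{u}}

/-- the restriction of a global section to `W`. -/
def secOnOfH0 (M : LB X) (s : M.H0) (W : X.Opens) : M.SecOn W :=
  (SecOn.ofH0 s).restrict le_top

theorem secOnOfH0_s (M : LB X) (s : M.H0) (W : X.Opens) (i : M.ι) :
    (M.secOnOfH0 s W).s i = res (M.U i ⊓ W) inf_le_left (s.1 i) := by
  show res _ _ (res _ _ (s.1 i)) = _
  rw [res_res]

/-- pairing with a section of the inverse gives an element of the zero ideal. -/
theorem pairing_mem_zeroIdeal (M : LB X) (s : M.H0) (W : X.Opens) (τ : M.inv.SecOn W) :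
    SecOn.pairing τ (M.secOnOfH0 s W) ∈ M.zeroIdeal s W := by
  intro i
  refine ⟨τ.invComp i, ?_⟩
  rw [SecOn.res_pairing, secOnOfH0_s]

/-- on `M.U i ⊓ N.U j ⊓ W` (with `W` affine), `t j` is a multiple of `s i` if the zero ideal of `t`
is contained in that of `s`. -/
theorem exists_mul_of_zeroIdeal_le (M N : LB X) (s : M.H0) (t : N.H0) {W : X.Opens}
    (hW : IsAffineOpen W) (hle : N.zeroIdeal t W ≤ M.zeroIdeal s W) (i : M.ι) (j : N.ι) :
    ∃ c : Γ(X, M.U i ⊓ N.U j ⊓ W),
      res (M.U i ⊓ N.U j ⊓ W) (inf_le_left.trans inf_le_right) (t.1 j) =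
        c * res (M.U i ⊓ N.U j ⊓ W) (inf_le_left.trans inf_le_left) (s.1 i) := by
  classical
  obtain ⟨β, hβ, n, τ, hsum⟩ := N.exists_partition_of_unity hW
  set V := M.U i ⊓ N.U j ⊓ W with hV
  have hVi : V ≤ M.U i := inf_le_left.trans inf_le_left
  have hVj : V ≤ N.U j := inf_le_left.trans inf_le_right
  have hVW : V ≤ W := inf_le_right
  -- `r b := ⟨τ b, t⟩ ∈ zeroIdeal`
  have hr : ∀ b, ∃ a : Γ(X, V), res V hVW (SecOn.pairing (τ b) (N.secOnOfH0 t W)) =
      a * res V hVi (s.1 i) := fun b =>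
    M.mem_zeroIdeal' s (hle (N.pairing_mem_zeroIdeal t W (τ b))) i V hVi hVW
  choose a ha using hr
  refine ⟨∑ b, a b * res V (le_inf hVj hVW) ((n b).s j), ?_⟩
  have h1 : res V hVj (t.1 j) = res V hVW (∑ b, SecOn.pairing (τ b) (n b)) * res V hVj (t.1 j) := by
    rw [hsum, map_one, one_mul]
  rw [h1, map_sum, Finset.sum_mul, Finset.sum_mul]
  refine Finset.sum_congr rfl (fun b _ => ?_)
  rw [SecOn.res_pairing' (τ b) (n b) j V hVj hVW]
  have h2 := SecOn.res_pairing' (τ b) (N.secOnOfH0 t W) j V hVj hVW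
  rw [ha b] at h2
  have h3 : res V (le_inf hVj hVW) ((N.secOnOfH0 t W).s j) = res V hVj (t.1 j) := by
    rw [secOnOfH0_s, res_res]
  rw [h3] at h2
  calc res V _ ((τ b).invComp j) * res V _ ((n b).s j) * res V hVj (t.1 j)
      = (res V _ ((τ b).invComp j) * res V hVj (t.1 j)) * res V _ ((n b).s j) := by ring
    _ = (a b * res V hVi (s.1 i)) * res V _ ((n b).s j) := by rw [← h2]
    _ = _ := by ring

/-- **uniqueness.** -/
theorem exists_isoData_of_zeroIdeal_eq (M N : LB X) (s : M.H0) (t : N.H0)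
    (hs : M.IsRegSection s) (ht : N.IsRegSection t) {W W' : X.Opens} (hW : IsAffineOpen W)
    (hWW' : W ⊔ W' = ⊤)
    (hsu : ∀ i, IsUnit (res (M.U i ⊓ W') inf_le_left (s.1 i)))
    (htu : ∀ j, IsUnit (res (N.U j ⊓ W') inf_le_left (t.1 j)))
    (hI : M.zeroIdeal s W = N.zeroIdeal t W) :
    ∃ D : IsoData M N, ∀ k,
      res (D.W k) (D.hβ k) (t.1 (D.β k)) = D.f k * res (D.W k) (D.hα k) (s.1 (D.α k)) := by
  -- local multiples, both ways
  have key : ∀ (M N : LB X) (s : M.H0) (t : N.H0), M.IsRegSection s →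
      (∀ i, IsUnit (res (M.U i ⊓ W') inf_le_left (s.1 i))) →
      N.zeroIdeal t W ≤ M.zeroIdeal s W → ∀ i j, ∃ c : Γ(X, M.U i ⊓ N.U j),
        res (M.U i ⊓ N.U j) inf_le_right (t.1 j) = c * res (M.U i ⊓ N.U j) inf_le_left (s.1 i) := by
    intro M N s t hs hsu hle i j
    refine exists_mul_of_cover (fun b : ULift.{u} Bool => if b.down then M.U i ⊓ N.U j ⊓ W else
      M.U i ⊓ N.U j ⊓ W') (fun b => by split_ifs <;> exact inf_le_left) ?_ _ _
      ((hs i).restrict inf_le_left) ?_
    · intro x hx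
      have : x ∈ W ⊔ W' := by rw [hWW']; trivial
      rcases this with h | h
      · exact Opens.mem_iSup.mpr ⟨⟨true⟩, ⟨hx, h⟩⟩
      · exact Opens.mem_iSup.mpr ⟨⟨false⟩, ⟨hx, h⟩⟩
    · rintro ⟨b⟩
      cases b
      · -- on `W'`: `s i` is a unit
        have hu : IsUnit (res (M.U i ⊓ N.U j ⊓ W') (inf_le_left.trans inf_le_left) (s.1 i)) := by
          have := (hsu i).map (res (M.U i ⊓ N.U j ⊓ W')
            (le_inf (inf_le_left.trans inf_le_left) inf_le_right))
          rw [res_res] at this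
          exact this
        obtain ⟨u, hu'⟩ := hu.exists_left_inv
        refine ⟨res (M.U i ⊓ N.U j ⊓ W') (inf_le_left.trans inf_le_right) (t.1 j) * u, ?_⟩
        simp only [res_res]
        rw [mul_assoc, hu', mul_one]
      · obtain ⟨c, hc⟩ := exists_mul_of_zeroIdeal_le M N s t hW hle i j
        refine ⟨c, ?_⟩
        simp only [res_res]
        exact hc
  have h1 := key M N s t hs hsu hI.ge
  have h2 := key N M t s ht htu hI.le
  refine exists_isoData_of_regSections M N s t hs (fun i j => ?_)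
  obtain ⟨c, hc⟩ := h1 i j
  obtain ⟨c', hc'⟩ := h2 j i
  have hc'' : res (M.U i ⊓ N.U j) inf_le_left (s.1 i) =
      res (M.U i ⊓ N.U j) (le_inf inf_le_right inf_le_left) c' *
        res (M.U i ⊓ N.U j) inf_le_right (t.1 j) := by
    have := congrArg (res (M.U i ⊓ N.U j) (le_inf inf_le_right inf_le_left)) hc'
    rw [map_mul, res_res, res_res] at this
    exact this
  refine ⟨c, res (M.U i ⊓ N.U j) (le_inf inf_le_right inf_le_left) c', ?_, hc⟩
  -- `c * c' = 1` by regularity of `t j`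
  refine (ht j).eq_of_mul_eq (V' := M.U i ⊓ N.U j) inf_le_right ?_
  rw [one_mul, mul_assoc, ← hc'', ← hc]

end

end Fermat.Agent.AV.LB
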