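/-
PROJECT JAC (S25) — lead — **zero ideal of a regular section versus Cartier data**, and pull-back.

`L.IsCompat σ h f` : on every `L.U i ⊓ D(h α)` the component `σ i` and the local equation `f α` are
unit multiples of each other.
* `zeroIdeal_eq_of_isCompat` : then `zeroIdeal σ W = I` (`IsCartierData I h f`, `W` affine);
* `isCompat_of_zeroIdeal_eq` : conversely;
* `isCompat_pullback`, `isRegSection_pullback` : pull-back along `ψ : Y' ⟶ Y` when the pulled back
  `h, f` are still Cartier data.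
-/
import Mathlib
import Fermat.Agent.JAC.HILB_lead_Exist
import Fermat.Agent.JAC.HILB_lead_Unique

set_option autoImplicit false

open AlgebraicGeometry CategoryTheory Opposite TopologicalSpace

universe u

namespace Fermat.Agent.AV.LB

open Fermat.Agent.JAC

noncomputable section

variable {Y : Scheme.{u}}

/-- `σ i` and `f α` are unit multiples of each other on `L.U i ⊓ D(h α)`. -/
def IsCompat (L : LB Y) (σ : L.H0) {W : Y.Opens} {n : ℕ} (h f : Fin n → Γ(Y, W)) : Prop :=
  ∀ i α, ∃ u u' : Γ(Y, L.U i ⊓ Y.basicOpen (h α)), u * u' = 1 ∧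
    res (L.U i ⊓ Y.basicOpen (h α)) inf_le_left (σ.1 i) =
      u * res (L.U i ⊓ Y.basicOpen (h α)) (inf_le_right.trans (Y.basicOpen_le _)) (f α)

variable {W : Y.Opens} {I : Ideal Γ(Y, W)} {n : ℕ} {h f : Fin n → Γ(Y, W)}

theorem zeroIdeal_eq_of_isCompat (L : LB Y) (σ : L.H0) (hσ : L.IsRegSection σ)
    (hW : IsAffineOpen W) (CD : IsCartierData I h f) (hc : L.IsCompat σ h f) :
    L.zeroIdeal σ W = I := by
  ext r
  constructor
  · intro hr
    refine CD.mem_of_forall hW r (fun α => ?_)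
    -- glue over the cover `L.U i ⊓ D(h α)` of `D(h α)`
    have key : ∀ i : L.ι, ∃ c : Γ(Y, L.U i ⊓ Y.basicOpen (h α)),
        res (L.U i ⊓ Y.basicOpen (h α)) inf_le_right
            (res (Y.basicOpen (h α)) (Y.basicOpen_le _) r) =
          c * res (L.U i ⊓ Y.basicOpen (h α)) inf_le_right
            (res (Y.basicOpen (h α)) (Y.basicOpen_le _) (f α)) := by
      intro i
      obtain ⟨u, u', huu', hu⟩ := hc i α
      obtain ⟨a, ha⟩ := L.mem_zeroIdeal' σ hr i (L.U i ⊓ Y.basicOpen (h α)) inf_le_left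
        (inf_le_right.trans (Y.basicOpen_le _))
      refine ⟨a * u, ?_⟩
      rw [res_res, res_res, ha, hu, mul_assoc]
    exact exists_mul_of_cover (V := Y.basicOpen (h α))
      (fun i : L.ι => L.U i ⊓ Y.basicOpen (h α)) (fun i => inf_le_right)
      (by
        intro x hx
        have : x ∈ (⊤ : Y.Opens) := True.intro
        rw [← L.iSup_U] at this
        obtain ⟨i, hi⟩ := Opens.mem_iSup.mp this
        exact Opens.mem_iSup.mpr ⟨i, ⟨hi, hx⟩⟩)
      (res (Y.basicOpen (h α)) (Y.basicOpen_le _) (f α))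
      (res (Y.basicOpen (h α)) (Y.basicOpen_le _) r) (CD.isNZDOn hW α) key
  · intro hr i
    -- glue over the cover `L.U i ⊓ D(h α)` of `L.U i ⊓ W`
    have key : ∀ α : ULift.{u} (Fin n), ∃ c : Γ(Y, L.U i ⊓ Y.basicOpen (h α.down)),
        res (L.U i ⊓ Y.basicOpen (h α.down)) (inf_le_inf_left _ (Y.basicOpen_le _))
            (res (L.U i ⊓ W) inf_le_right r) =
          c * res (L.U i ⊓ Y.basicOpen (h α.down)) (inf_le_inf_left _ (Y.basicOpen_le _))
            (res (L.U i ⊓ W) inf_le_left (σ.1 i)) := by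
      intro α
      obtain ⟨u, u', huu', hu⟩ := hc i α.down
      obtain ⟨a, ha⟩ := CD.gen_local α.down r hr
      refine ⟨res (L.U i ⊓ Y.basicOpen (h α.down)) inf_le_right a * u', ?_⟩
      have h1 := congrArg (res (L.U i ⊓ Y.basicOpen (h α.down)) inf_le_right) ha
      rw [map_mul, res_res, res_res] at h1
      rw [res_res, res_res, h1, hu]
      calc res _ inf_le_right a * res _ _ (f α.down)
          = res _ inf_le_right a * ((u' * u) * res _ _ (f α.down)) := by
            rw [mul_comm u' u, huu', one_mul]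
        _ = _ := by ring
    exact exists_mul_of_cover (V := L.U i ⊓ W)
      (fun α : ULift.{u} (Fin n) => L.U i ⊓ Y.basicOpen (h α.down))
      (fun α => inf_le_inf_left _ (Y.basicOpen_le _))
      (by
        intro x hx
        have : x ∈ W := hx.2
        rw [← CD.iSup_basicOpen hW] at this
        obtain ⟨α, hα⟩ := Opens.mem_iSup.mp this
        exact Opens.mem_iSup.mpr ⟨⟨α⟩, ⟨hx.1, hα⟩⟩)
      (res (L.U i ⊓ W) inf_le_left (σ.1 i)) (res (L.U i ⊓ W) inf_le_right r)
      ((hσ i).restrict inf_le_left) key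

theorem isCompat_of_zeroIdeal_eq (L : LB Y) (σ : L.H0) (hσ : L.IsRegSection σ)
    (hW : IsAffineOpen W) (CD : IsCartierData I h f) (hI : L.zeroIdeal σ W = I) :
    L.IsCompat σ h f := by
  classical
  intro i α
  set V := L.U i ⊓ Y.basicOpen (h α) with hV
  have hVi : V ≤ L.U i := inf_le_left
  have hVW : V ≤ W := inf_le_right.trans (Y.basicOpen_le _)
  -- `f α = a * σ i`
  have hf : f α ∈ L.zeroIdeal σ W := by rw [hI]; exact CD.mem α
  obtain ⟨a, ha⟩ := L.mem_zeroIdeal' σ hf i V hVi hVW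
  -- `σ i = c * f α` by a partition of unity
  obtain ⟨β, hβ, m, τ, hsum⟩ := L.exists_partition_of_unity hW
  have hr : ∀ b, ∃ a' : Γ(Y, V), res V hVW (SecOn.pairing (τ b) (L.secOnOfH0 σ W)) =
      a' * res V hVW (f α) := fun b => by
    have hmem : SecOn.pairing (τ b) (L.secOnOfH0 σ W) ∈ I := by
      rw [← hI]; exact L.pairing_mem_zeroIdeal σ W (τ b)
    obtain ⟨a', ha'⟩ := CD.gen_local α _ hmem
    refine ⟨res V inf_le_right a', ?_⟩
    have := congrArg (res V inf_le_right) ha'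
    rw [map_mul, res_res, res_res] at this
    exact this
  choose a' ha' using hr
  have hc : res V hVi (σ.1 i) =
      (∑ b, a' b * res V (le_inf hVi hVW) ((m b).s i)) * res V hVW (f α) := by
    have h1 : res V hVi (σ.1 i) =
        res V hVW (∑ b, SecOn.pairing (τ b) (m b)) * res V hVi (σ.1 i) := by
      rw [hsum, map_one, one_mul]
    rw [h1, map_sum, Finset.sum_mul, Finset.sum_mul]
    refine Finset.sum_congr rfl (fun b _ => ?_)
    rw [SecOn.res_pairing' (τ b) (m b) i V hVi hVW]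
    have h2 := SecOn.res_pairing' (τ b) (L.secOnOfH0 σ W) i V hVi hVW
    rw [ha' b] at h2
    have h3 : res V (le_inf hVi hVW) ((L.secOnOfH0 σ W).s i) = res V hVi (σ.1 i) := by
      rw [secOnOfH0_s, res_res]
    rw [h3] at h2
    calc res V _ ((τ b).invComp i) * res V _ ((m b).s i) * res V hVi (σ.1 i)
        = (res V _ ((τ b).invComp i) * res V hVi (σ.1 i)) * res V _ ((m b).s i) := by ring
      _ = (a' b * res V hVW (f α)) * res V _ ((m b).s i) := by rw [← h2]
      _ = _ := by ring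
  refine ⟨∑ b, a' b * res V (le_inf hVi hVW) ((m b).s i), a, ?_, hc⟩
  -- `c * a = 1` by regularity of `σ i`
  refine (hσ i).eq_of_mul_eq (V' := V) hVi ?_
  rw [one_mul, mul_assoc, ← ha, ← hc]

/-- pull-back of the compatibility. -/
theorem isCompat_pullback {Y' : Scheme.{u}} (ψ : Y' ⟶ Y) (L : LB Y) (σ : L.H0)
    (hc : L.IsCompat σ h f) :
    (L.pullback ψ).IsCompat (L.pullbackSection ψ σ)
      (fun α => (ψ.app W).hom (h α)) (fun α => (ψ.app W).hom (f α)) := by
  intro i α
  obtain ⟨u, u', huu', hu⟩ := hc i α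
  have hle : (L.pullback ψ).U i ⊓ Y'.basicOpen ((ψ.app W).hom (h α)) ≤
      ψ ⁻¹ᵁ (L.U i ⊓ Y.basicOpen (h α)) := by
    rw [← Scheme.preimage_basicOpen]
    exact le_rfl
  refine ⟨res _ hle ((ψ.app _).hom u), res _ hle ((ψ.app _).hom u'), ?_, ?_⟩
  · rw [← map_mul, ← map_mul, huu', map_one, map_one]
  · have h1 := congrArg (fun z => res _ hle ((ψ.app _).hom z)) hu
    simp only [map_mul, app_res, res_res] at h1
    exact h1

/-- pull-back of regularity. -/
theorem isRegSection_pullback {Y' : Scheme.{u}} (ψ : Y' ⟶ Y) (L : LB Y) (σ : L.H0)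
    (hc : L.IsCompat σ h f) {W' : Y.Opens} (hWW' : W ⊔ W' = ⊤)
    (hu : ∀ i, IsUnit (res (L.U i ⊓ W') inf_le_left (σ.1 i)))
    (hW₁ : IsAffineOpen (ψ ⁻¹ᵁ W)) {I₁ : Ideal Γ(Y', ψ ⁻¹ᵁ W)}
    (CD₁ : IsCartierData I₁ (fun α => (ψ.app W).hom (h α)) (fun α => (ψ.app W).hom (f α))) :
    (L.pullback ψ).IsRegSection (L.pullbackSection ψ σ) := by
  intro i
  have hc₁ := isCompat_pullback ψ L σ hc
  -- cover `ψ⁻¹ (L.U i)` by the `D(h₁ α)` and `ψ⁻¹ W'`
  refine isNZDOn_of_cover (V := (L.pullback ψ).U i)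
    (fun b : Option (Fin n) => match b with
      | none => (L.pullback ψ).U i ⊓ ψ ⁻¹ᵁ W'
      | some α => (L.pullback ψ).U i ⊓ Y'.basicOpen ((ψ.app W).hom (h α)))
    (fun b => by cases b <;> exact inf_le_left) ?_ _ ?_
  · intro x hx
    have hx' : ψ.base x ∈ W ⊔ W' := by rw [hWW']; trivial
    rcases hx' with hxW | hxW'
    · have : x ∈ ψ ⁻¹ᵁ W := hxW
      rw [← CD₁.iSup_basicOpen hW₁] at this
      obtain ⟨α, hα⟩ := Opens.mem_iSup.mp this
      exact Opens.mem_iSup.mpr ⟨some α, ⟨hx, hα⟩⟩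
    · exact Opens.mem_iSup.mpr ⟨none, ⟨hx, hxW'⟩⟩
  · rintro (_ | α)
    · -- a unit
      apply isNZDOn_of_isUnit
      have h1 := (hu i).map (ψ.app (L.U i ⊓ W')).hom
      rw [app_res] at h1
      have hle : (L.pullback ψ).U i ⊓ ψ ⁻¹ᵁ W' ≤ ψ ⁻¹ᵁ (L.U i ⊓ W') := le_of_eq rfl
      have h2 := h1.map (res ((L.pullback ψ).U i ⊓ ψ ⁻¹ᵁ W') hle)
      rw [res_res] at h2
      exact h2
    · obtain ⟨u, u', huu', hu'⟩ := hc₁ i α
      show IsNZDOn _ (res _ _ ((L.pullbackSection ψ σ).1 i))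
      rw [hu']
      intro V hV b hb
      have hnz := (CD₁.isNZDOn hW₁ α).restrict
        (inf_le_right : (L.pullback ψ).U i ⊓ Y'.basicOpen ((ψ.app W).hom (h α)) ≤ _)
      rw [res_res] at hnz
      rw [map_mul, mul_assoc] at hb
      have hunit : IsUnit (res V hV u) := (IsUnit.of_mul_eq_one _ huu').map _
      exact hnz V hV b ((hunit.mul_right_eq_zero).mp hb)

end

end Fermat.Agent.AV.LB
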