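/-
PROJECT JAC (S25) — lead — **(H) the Hilbert chart on `Y = C ×_K T`, `T` affine.**
`U ⊆ C` affine open, `A := Γ(C, U)`, `B := Γ(T, ⊤)`, `κ := CP.kunneth : B ⊗[K] A ≃+* Γ(Y, p₁⁻¹U)`.
For an ideal `I ⊆ B ⊗[K] A` with Cartier data and finite quotient over `B`:
* `exists_LB_of_ideal` : a line bundle `L` on `Y` with a regular section `σ`, a unit off `p₁⁻¹U`,
  with zero ideal `κ(I)` on `p₁⁻¹U`;
* uniqueness is `LB.exists_isoData_of_zeroIdeal_eq` (`HILB_lead_Unique`);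
* `zeroIdeal_pullback` : base change along `T' ⟶ T` (flat quotient): the pulled-back pair is again
  regular, a unit off `p₁'⁻¹U`, with zero ideal `κ'(I · (B' ⊗ A))`.
-/
import Mathlib
import Fermat.Agent.JAC.HILB_lead_ZeroIdeal
import Fermat.Agent.JAC.HILB_lead_Ideal
import Fermat.Agent.AV.CP_helper8_Kunneth

set_option autoImplicit false

open AlgebraicGeometry CategoryTheory Opposite TopologicalSpace TensorProduct

universe u

namespace Fermat.Agent.JAC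

open Fermat.Agent.AV Fermat.Agent.AV.CP

noncomputable section

theorem mem_map_ringEquiv_iff {R R' : Type u} [CommRing R] [CommRing R'] (e : R ≃+* R')
    (I : Ideal R) (x : R') : x ∈ I.map (e : R →+* R') ↔ e.symm x ∈ I := by
  rw [Ideal.map_comap_of_equiv, Ideal.mem_comap]

/-- Cartier data are transported by ring isomorphisms. -/
theorem IsCartierData.map_ringEquiv {R R' : Type u} [CommRing R] [CommRing R'] (e : R ≃+* R')
    {I : Ideal R} {n : ℕ} {h f : Fin n → R} (hc : IsCartierData I h f) :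
    IsCartierData (I.map (e : R →+* R')) (fun α => e (h α)) (fun α => e (f α)) where
  span_eq_top := by
    have h1 : Ideal.map (e : R →+* R') (Ideal.span (Set.range h)) = ⊤ := by
      rw [hc.span_eq_top, Ideal.map_top]
    rw [Ideal.map_span, ← Set.range_comp] at h1
    exact h1
  mem := fun α => Ideal.mem_map_of_mem _ (hc.mem α)
  gen := fun α x hx => by
    have hx' : e.symm x ∈ I := (mem_map_ringEquiv_iff e I x).mp hx
    obtain ⟨m, b, hmb⟩ := hc.gen α (e.symm x) hx'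
    refine ⟨m, e b, ?_⟩
    have := congrArg e hmb
    simpa using this
  nzd := fun α y hy => by
    obtain ⟨m, hm⟩ := hc.nzd α (e.symm y) (by
      apply e.injective
      simpa using hy)
    refine ⟨m, ?_⟩
    have := congrArg e hm
    simpa using this

variable {K : Type u} [Field K] {C T Y : Scheme.{u}} [KScheme K C] [KScheme K T] [IsAffine T]
  {p₁ : Y ⟶ C} {p₂ : Y ⟶ T}
  (H : IsPullback p₁ p₂ (KScheme.str (K := K)) (KScheme.str (K := K)))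
  {U : C.Opens} (hU : IsAffineOpen U)

include H hU in
theorem isAffineOpen_preimage_fst : IsAffineOpen (p₁ ⁻¹ᵁ U) := by
  have hp₁ : IsAffineHom p₁ :=
    MorphismProperty.of_isPullback (P := @IsAffineHom) H.flip inferInstance
  exact hU.preimage p₁

omit [IsAffine T] in
include H in
theorem isSeparated_snd [IsSeparated (KScheme.str (K := K) (X := C))] : IsSeparated p₂ :=
  MorphismProperty.of_isPullback (P := @IsSeparated) H inferInstance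

/-- the ideal of `Γ(Y, p₁⁻¹U)` corresponding to an ideal of `Γ(T,⊤) ⊗ Γ(C,U)`. -/
def kunIdeal (I : Ideal (Γ(T, ⊤) ⊗[K] Γ(C, U))) : Ideal Γ(Y, p₁ ⁻¹ᵁ U) :=
  I.map ((kunneth H hU : Γ(T, ⊤) ⊗[K] Γ(C, U) ≃+* Γ(Y, p₁ ⁻¹ᵁ U)) : _ →+* _)

theorem mem_kunIdeal_iff (I : Ideal (Γ(T, ⊤) ⊗[K] Γ(C, U))) (r : Γ(Y, p₁ ⁻¹ᵁ U)) :
    r ∈ kunIdeal H hU I ↔ (kunneth H hU).symm r ∈ I := by
  exact mem_map_ringEquiv_iff (kunneth H hU) I r

/-- finiteness of the quotient over the base. -/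
theorem finite_quotient_kunIdeal (I : Ideal (Γ(T, ⊤) ⊗[K] Γ(C, U)))
    [Module.Finite Γ(T, ⊤) ((Γ(T, ⊤) ⊗[K] Γ(C, U)) ⧸ I)] :
    ((Ideal.Quotient.mk (kunIdeal H hU I)).comp
      (p₂.appLE ⊤ (p₁ ⁻¹ᵁ U) le_top).hom).Finite := by
  -- the quotient isomorphism induced by Künneth
  let e : ((Γ(T, ⊤) ⊗[K] Γ(C, U)) ⧸ I) ≃+* (Γ(Y, p₁ ⁻¹ᵁ U) ⧸ kunIdeal H hU I) :=
    Ideal.quotientEquiv I (kunIdeal H hU I) (kunneth H hU) rfl
  have h1 : (algebraMap Γ(T, ⊤) ((Γ(T, ⊤) ⊗[K] Γ(C, U)) ⧸ I)).Finite :=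
    RingHom.finite_algebraMap.mpr inferInstance
  have h2 : (e : ((Γ(T, ⊤) ⊗[K] Γ(C, U)) ⧸ I) →+* (Γ(Y, p₁ ⁻¹ᵁ U) ⧸ kunIdeal H hU I)).Finite :=
    RingHom.Finite.of_surjective
      (e : ((Γ(T, ⊤) ⊗[K] Γ(C, U)) ⧸ I) →+* (Γ(Y, p₁ ⁻¹ᵁ U) ⧸ kunIdeal H hU I)) e.surjective
  have h3 := h2.comp h1
  convert h3 using 1
  ext b
  show (Ideal.Quotient.mk (kunIdeal H hU I)) ((p₂.appLE ⊤ (p₁ ⁻¹ᵁ U) le_top).hom b) =
    e (Ideal.Quotient.mk I (b ⊗ₜ[K] 1))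
  have h4 : e (Ideal.Quotient.mk I (b ⊗ₜ[K] 1)) =
      Ideal.Quotient.mk (kunIdeal H hU I) (kunneth H hU (b ⊗ₜ[K] 1)) := rfl
  rw [h4, kunneth_tmul_one]
  rfl

/-- **existence of `(O(Z), s_Z)` for an ideal of `Γ(T,⊤) ⊗ Γ(C,U)` with Cartier data.** -/
theorem exists_LB_of_ideal [IsSeparated (KScheme.str (K := K) (X := C))]
    (I : Ideal (Γ(T, ⊤) ⊗[K] Γ(C, U))) [Module.Finite Γ(T, ⊤) ((Γ(T, ⊤) ⊗[K] Γ(C, U)) ⧸ I)]
    {n : ℕ} {h f : Fin n → Γ(T, ⊤) ⊗[K] Γ(C, U)} (hc : IsCartierData I h f) :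
    ∃ (L : LB Y) (σ : L.H0), L.IsRegSection σ ∧
      L.zeroIdeal σ (p₁ ⁻¹ᵁ U) = kunIdeal H hU I ∧
      ∃ W' : Y.Opens, p₁ ⁻¹ᵁ U ⊔ W' = ⊤ ∧ ∀ i, IsUnit (res (L.U i ⊓ W') inf_le_left (σ.1 i)) := by
  have := isSeparated_snd H
  exact exists_LB_of_isCartierData p₂ (isAffineOpen_preimage_fst H hU) (kunIdeal H hU I)
    (finite_quotient_kunIdeal H hU I) (hc.map_ringEquiv (kunneth H hU))

section BaseChange

variable {T' Y' : Scheme.{u}} [KScheme K T'] [IsAffine T']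
  (φ : T' ⟶ T) (hφ : φ ≫ KScheme.str (K := K) = KScheme.str) (p₂' : Y' ⟶ T') (ψ : Y' ⟶ Y)
  (H' : IsPullback (ψ ≫ p₁) p₂' (KScheme.str (K := K)) (KScheme.str (K := K)))
  (hψ : ψ ≫ p₂ = p₂' ≫ φ)

include hψ in
/-- **base change of the zero ideal.** -/
theorem zeroIdeal_pullback (I : Ideal (Γ(T, ⊤) ⊗[K] Γ(C, U)))
    [Module.Flat Γ(T, ⊤) ((Γ(T, ⊤) ⊗[K] Γ(C, U)) ⧸ I)]
    {n : ℕ} {h f : Fin n → Γ(T, ⊤) ⊗[K] Γ(C, U)} (hc : IsCartierData I h f)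
    (L : LB Y) (σ : L.H0) (hσ : L.IsRegSection σ)
    (hI : L.zeroIdeal σ (p₁ ⁻¹ᵁ U) = kunIdeal H hU I)
    {W' : Y.Opens} (hWW' : p₁ ⁻¹ᵁ U ⊔ W' = ⊤)
    (hu : ∀ i, IsUnit (res (L.U i ⊓ W') inf_le_left (σ.1 i))) :
    (L.pullback ψ).IsRegSection (L.pullbackSection ψ σ) ∧
    (L.pullback ψ).zeroIdeal (L.pullbackSection ψ σ) ((ψ ≫ p₁) ⁻¹ᵁ U) =
      kunIdeal H' hU (I.map (HilbAlg.bcMap (A := Γ(C, U)) (appTopAlgHom φ hφ))) ∧
    (ψ ≫ p₁) ⁻¹ᵁ U ⊔ ψ ⁻¹ᵁ W' = ⊤ ∧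
    ∀ i, IsUnit (res ((L.pullback ψ).U i ⊓ ψ ⁻¹ᵁ W') inf_le_left
      ((L.pullbackSection ψ σ).1 i)) := by
  have hW := isAffineOpen_preimage_fst H hU
  have hW₁ : IsAffineOpen (ψ ⁻¹ᵁ (p₁ ⁻¹ᵁ U)) := isAffineOpen_preimage_fst H' hU
  -- Cartier data upstairs and downstairs
  have hcY := hc.map_ringEquiv (kunneth H hU)
  have hc' := hc.baseChange (appTopAlgHom φ hφ)
  have hcY' := hc'.map_ringEquiv (kunneth H' hU)
  have hcompat := L.isCompat_of_zeroIdeal_eq σ hσ hW hcY hI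
  -- the pulled-back Cartier data are the Cartier data of the base-changed ideal
  have hhh : (fun α => (ψ.app (p₁ ⁻¹ᵁ U)).hom (kunneth H hU (h α))) =
      fun α => kunneth H' hU (Algebra.TensorProduct.map (appTopAlgHom φ hφ) (AlgHom.id K _) (h α)) :=
    funext fun α => app_kunneth H φ hφ p₂' ψ H' hψ hU (h α)
  have hff : (fun α => (ψ.app (p₁ ⁻¹ᵁ U)).hom (kunneth H hU (f α))) =
      fun α => kunneth H' hU (Algebra.TensorProduct.map (appTopAlgHom φ hφ) (AlgHom.id K _) (f α)) :=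
    funext fun α => app_kunneth H φ hφ p₂' ψ H' hψ hU (f α)
  have hcY'' : IsCartierData
      (kunIdeal H' hU (I.map (HilbAlg.bcMap (A := Γ(C, U)) (appTopAlgHom φ hφ))))
      (fun α => (ψ.app (p₁ ⁻¹ᵁ U)).hom (kunneth H hU (h α)))
      (fun α => (ψ.app (p₁ ⁻¹ᵁ U)).hom (kunneth H hU (f α))) := by
    rw [hhh, hff]
    exact hcY'
  have hreg := LB.isRegSection_pullback ψ L σ hcompat hWW' hu hW₁ hcY''
  refine ⟨hreg, ?_, ?_, ?_⟩
  · exact LB.zeroIdeal_eq_of_isCompat (L.pullback ψ) (L.pullbackSection ψ σ) hreg hW₁ hcY''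
      (LB.isCompat_pullback ψ L σ hcompat)
  · rw [eq_top_iff]
    intro y _
    have hy : ψ.base y ∈ p₁ ⁻¹ᵁ U ⊔ W' := by rw [hWW']; exact True.intro
    rcases hy with hy | hy
    · exact Or.inl hy
    · exact Or.inr hy
  · intro i
    have h1 := (hu i).map (ψ.app (L.U i ⊓ W')).hom
    rw [app_res] at h1
    have hle : (L.pullback ψ).U i ⊓ ψ ⁻¹ᵁ W' ≤ ψ ⁻¹ᵁ (L.U i ⊓ W') := le_of_eq rfl
    have h2 := h1.map (res ((L.pullback ψ).U i ⊓ ψ ⁻¹ᵁ W') hle)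
    rw [res_res] at h2
    exact h2

end BaseChange

end

end Fermat.Agent.JAC
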