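/-
PROJECT JAC (S25) — lead — **(H) summary for consumers** ((P), (PROPER)).
Setting: `K` algebraically closed, `C` a separated `K`-scheme, `U ⊆ C` an affine open whose
coordinate ring `A := Γ(C, U)` is a domain of finite type with DVR localisations at maximal ideals
(smooth affine curve), `T` an affine `K`-scheme, `Y = C ×_K T`, `B := Γ(T, ⊤)`,
`κ := CP.kunneth : B ⊗[K] A ≃+* Γ(Y, p₁⁻¹U)`, `v : Fin g → A`.

* `exists_LB_of_isBased` : every based ideal `I` (`HilbAlg.IsBased v I`, i.e. a `B`-point of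
  `Spec (HilbRing K A g v)`) is the zero ideal of a regular section `σ` of a line bundle `L` on `Y`,
  `σ` invertible off `p₁⁻¹U`;
* `exists_isoData_of_kunIdeal` : such a pair `(L, σ)` is unique up to a unique isomorphism;
* `zeroIdeal_pullback_of_isBased` : compatibility with base change `T' ⟶ T`;
* the classifying homomorphism is `HilbAlg.existsUnique_map_univIdeal`.
-/
import Mathlib
import Fermat.Agent.JAC.HILB_lead_Chart
import Fermat.Agent.JAC.HILB_helper7_CartierUniv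

set_option autoImplicit false

open AlgebraicGeometry CategoryTheory Opposite TopologicalSpace TensorProduct

universe u

namespace Fermat.Agent.JAC

open Fermat.Agent.AV Fermat.Agent.AV.CP HilbAlg

noncomputable section

variable {K : Type u} [Field K] [IsAlgClosed K] {C T Y : Scheme.{u}} [KScheme K C] [KScheme K T]
  [IsAffine T] {p₁ : Y ⟶ C} {p₂ : Y ⟶ T}
  (H : IsPullback p₁ p₂ (KScheme.str (K := K)) (KScheme.str (K := K)))
  {U : C.Opens} (hU : IsAffineOpen U) [IsDomain Γ(C, U)] [Algebra.FiniteType K Γ(C, U)]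
  (hA : ∀ (𝔫 : Ideal Γ(C, U)) [𝔫.IsMaximal], IsDiscreteValuationRing (Localization.AtPrime 𝔫))
  {g : ℕ} {v : Fin g → Γ(C, U)}

include hA in
/-- **existence.** -/
theorem exists_LB_of_isBased [IsSeparated (KScheme.str (K := K) (X := C))]
    {I : Ideal (Γ(T, ⊤) ⊗[K] Γ(C, U))} (hI : IsBased v I) :
    ∃ (L : LB Y) (σ : L.H0), L.IsRegSection σ ∧
      L.zeroIdeal σ (p₁ ⁻¹ᵁ U) = kunIdeal H hU I ∧
      ∃ W' : Y.Opens, p₁ ⁻¹ᵁ U ⊔ W' = ⊤ ∧ ∀ i, IsUnit (res (L.U i ⊓ W') inf_le_left (σ.1 i)) := by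
  obtain ⟨n, h, f, hc⟩ := exists_isCartierData_of_isBased hA hI
  have := IsBased_finite_quotient hI
  exact exists_LB_of_ideal H hU I hc

omit [IsAlgClosed K] [IsDomain Γ(C, U)] [Algebra.FiniteType K Γ(C, U)] in
include H hU in
/-- **uniqueness.** -/
theorem exists_isoData_of_kunIdeal (L L' : LB Y) (σ : L.H0) (σ' : L'.H0)
    (hσ : L.IsRegSection σ) (hσ' : L'.IsRegSection σ') {W' : Y.Opens} (hWW' : p₁ ⁻¹ᵁ U ⊔ W' = ⊤)
    (hu : ∀ i, IsUnit (res (L.U i ⊓ W') inf_le_left (σ.1 i)))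
    (hu' : ∀ i, IsUnit (res (L'.U i ⊓ W') inf_le_left (σ'.1 i)))
    (hI : L.zeroIdeal σ (p₁ ⁻¹ᵁ U) = L'.zeroIdeal σ' (p₁ ⁻¹ᵁ U)) :
    ∃ D : LB.IsoData L L', ∀ k,
      res (D.W k) (D.hβ k) (σ'.1 (D.β k)) = D.f k * res (D.W k) (D.hα k) (σ.1 (D.α k)) :=
  LB.exists_isoData_of_zeroIdeal_eq L L' σ σ' hσ hσ' (isAffineOpen_preimage_fst H hU) hWW' hu hu' hI

section BaseChange

variable {T' Y' : Scheme.{u}} [KScheme K T'] [IsAffine T']
  (φ : T' ⟶ T) (hφ : φ ≫ KScheme.str (K := K) = KScheme.str) (p₂' : Y' ⟶ T') (ψ : Y' ⟶ Y)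
  (H' : IsPullback (ψ ≫ p₁) p₂' (KScheme.str (K := K)) (KScheme.str (K := K)))
  (hψ : ψ ≫ p₂ = p₂' ≫ φ)

include hA hψ in
/-- **base change.** -/
theorem zeroIdeal_pullback_of_isBased {I : Ideal (Γ(T, ⊤) ⊗[K] Γ(C, U))} (hI : IsBased v I)
    (L : LB Y) (σ : L.H0) (hσ : L.IsRegSection σ)
    (hZ : L.zeroIdeal σ (p₁ ⁻¹ᵁ U) = kunIdeal H hU I)
    {W' : Y.Opens} (hWW' : p₁ ⁻¹ᵁ U ⊔ W' = ⊤)
    (hu : ∀ i, IsUnit (res (L.U i ⊓ W') inf_le_left (σ.1 i))) :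
    (L.pullback ψ).IsRegSection (L.pullbackSection ψ σ) ∧
    (L.pullback ψ).zeroIdeal (L.pullbackSection ψ σ) ((ψ ≫ p₁) ⁻¹ᵁ U) =
      kunIdeal H' hU (I.map (bcMap (A := Γ(C, U)) (appTopAlgHom φ hφ))) ∧
    (ψ ≫ p₁) ⁻¹ᵁ U ⊔ ψ ⁻¹ᵁ W' = ⊤ ∧
    ∀ i, IsUnit (res ((L.pullback ψ).U i ⊓ ψ ⁻¹ᵁ W') inf_le_left
      ((L.pullbackSection ψ σ).1 i)) := by
  obtain ⟨n, h, f, hc⟩ := exists_isCartierData_of_isBased hA hI
  have := IsBased_flat_quotient hI
  exact zeroIdeal_pullback H hU φ hφ p₂' ψ H' hψ I hc L σ hσ hZ hWW' hu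

omit [IsAlgClosed K] [IsAffine T] [IsDomain Γ(C, U)] [Algebra.FiniteType K Γ(C, U)] [IsAffine T'] in
/-- the base change of a based ideal is based (it is the ideal of the image point). -/
theorem isBased_map_bcMap {I : Ideal (Γ(T, ⊤) ⊗[K] Γ(C, U))} (hI : IsBased v I) :
    IsBased v (I.map (bcMap (A := Γ(C, U)) (appTopAlgHom φ hφ))) := by
  have h1 := (ofIdeal I hI).map_ideal (appTopAlgHom φ hφ)
  rw [ofIdeal_ideal] at h1
  rw [← h1]
  exact ((ofIdeal I hI).map (appTopAlgHom φ hφ)).isBased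

end BaseChange

end

end Fermat.Agent.JAC
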