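/-
PROJECT JAC (S25) — lead — **(AJ) graph bundles: `O(Γ_τ)` on `C ×_K T` for `τ : T ⟶ C`, `T` affine.**

Algebra (`HilbAlg`): for `f : A →ₐ[k] B` the graph ideal `graphIdeal f = ker (b ⊗ a ↦ b * f a)` of
`B ⊗[k] A` is based with basis `1` (`isBased_graphIdeal`), commutes with base change
(`graphIdeal_map`) and with shrinking of `A` (`graphIdeal_comap`).

Geometry: `IsGraphPair H hU τ hτ hτU L σ` : `σ` is a regular section of `L` on `Y = C ×_K T`, a unit
off `p₁⁻¹U`, whose zero ideal on `p₁⁻¹U` is the graph ideal of `τ` (`τ` factors through the affine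
open `U`).  Existence (`exists_isGraphPair`), uniqueness (`IsGraphPair.isoData`, `IsGraphPair.iso`),
base change (`IsGraphPair.pullback`), independence of `U` (`IsGraphPair.mono`, `IsGraphPair.iso'`).
-/
import Mathlib
import Fermat.Agent.JAC.HILB_lead_Main

set_option autoImplicit false

open AlgebraicGeometry CategoryTheory Opposite TopologicalSpace TensorProduct

universe u

namespace Fermat.Agent.JAC

namespace HilbAlg

noncomputable section

variable {k : Type u} {A : Type u} [CommRing k] [CommRing A] [Algebra k A]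
  {B : Type u} [CommRing B] [Algebra k B]

/-- `b ⊗ a ↦ b * f a`. -/
def graphMul (f : A →ₐ[k] B) : B ⊗[k] A →ₐ[B] B :=
  Algebra.TensorProduct.lift (Algebra.ofId B B) f (fun _ _ => Commute.all _ _)

theorem graphMul_tmul (f : A →ₐ[k] B) (b : B) (a : A) : graphMul f (b ⊗ₜ a) = b * f a := by
  rw [graphMul, Algebra.TensorProduct.lift_tmul, Algebra.ofId_apply, Algebra.algebraMap_self,
    RingHom.id_apply]

/-- the point of the Hilbert chart (`g = 1`, `v = 1`) given by a homomorphism. -/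
def graphPt (f : A →ₐ[k] B) : Pt k A 1 (fun _ => (1 : A)) B where
  φ := ((Algebra.ofId B (Matrix (Fin 1) (Fin 1) B)).restrictScalars k).comp f
  e := fun _ => 1
  hv := fun j i => by
    have hij : i = j := Subsingleton.elim i j
    have hj : j = 0 := Subsingleton.elim j 0
    simp [hij, hj, Algebra.ofId_apply]

theorem graphPt_φ_apply (f : A →ₐ[k] B) (a : A) (i j : Fin 1) :
    (graphPt f).φ a i j = f a := by
  have hij : i = j := Subsingleton.elim i j
  simp [graphPt, hij, Algebra.ofId_apply, Matrix.algebraMap_matrix_apply]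

theorem graphPt_ρ (f : A →ₐ[k] B) (x : B ⊗[k] A) (i : Fin 1) :
    (graphPt f).ρ x i = graphMul f x := by
  induction x with
  | zero => simp
  | add x y hx hy => rw [map_add, map_add, Pi.add_apply, hx, hy]
  | tmul b a =>
    rw [Pt.ρ_apply, Pt.Φ_tmul, graphMul_tmul]
    have h0 : (graphPt f).φ a i 0 = f a := graphPt_φ_apply f a i 0
    simp only [Matrix.mulVec, dotProduct, Matrix.smul_apply, smul_eq_mul, Finset.univ_unique,
      Fin.default_eq_zero, Finset.sum_singleton, h0]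
    show b * f a * 1 = b * f a
    rw [mul_one]

/-- the ideal of the graph of `f`. -/
def graphIdeal (f : A →ₐ[k] B) : Ideal (B ⊗[k] A) := (graphPt f).ideal

theorem mem_graphIdeal (f : A →ₐ[k] B) (x : B ⊗[k] A) : x ∈ graphIdeal f ↔ graphMul f x = 0 := by
  rw [graphIdeal, Pt.mem_ideal]
  constructor
  · intro h
    rw [← graphPt_ρ f x 0, h]
    rfl
  · intro h
    funext i
    rw [graphPt_ρ, h]
    rfl

theorem isBased_graphIdeal (f : A →ₐ[k] B) :
    IsBased (fun _ : Fin 1 => (1 : A)) (graphIdeal f) := (graphPt f).isBased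

theorem graphPt_map {B' : Type u} [CommRing B'] [Algebra k B'] (f : A →ₐ[k] B) (φ : B →ₐ[k] B') :
    (graphPt f).map φ = graphPt (φ.comp f) := by
  apply Pt.ext
  · apply AlgHom.ext
    intro a
    ext i j
    rw [Pt.map_φ_apply, graphPt_φ_apply, graphPt_φ_apply]
    rfl
  · funext i
    show φ 1 = 1
    exact map_one φ

theorem graphIdeal_map {B' : Type u} [CommRing B'] [Algebra k B'] (f : A →ₐ[k] B)
    (φ : B →ₐ[k] B') :
    (graphIdeal f).map (bcMap (A := A) φ) = graphIdeal (φ.comp f) := by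
  rw [graphIdeal, graphIdeal, ← graphPt_map, Pt.map_ideal]

theorem graphMul_map {A' : Type u} [CommRing A'] [Algebra k A'] (f : A →ₐ[k] B) (r : A' →ₐ[k] A)
    (x : B ⊗[k] A') :
    graphMul f (Algebra.TensorProduct.map (AlgHom.id k B) r x) = graphMul (f.comp r) x := by
  induction x with
  | zero => simp
  | add x y hx hy => rw [map_add, map_add, map_add, hx, hy]
  | tmul b a =>
    rw [Algebra.TensorProduct.map_tmul, graphMul_tmul, graphMul_tmul]
    rfl

theorem graphIdeal_comap {A' : Type u} [CommRing A'] [Algebra k A'] (f : A →ₐ[k] B)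
    (r : A' →ₐ[k] A) :
    (graphIdeal f).comap (Algebra.TensorProduct.map (AlgHom.id k B) r) = graphIdeal (f.comp r) := by
  ext x
  rw [Ideal.mem_comap, mem_graphIdeal, mem_graphIdeal, graphMul_map]

end

end HilbAlg

end Fermat.Agent.JAC

namespace Fermat.Agent.AV.LB

open Fermat.Agent.JAC

noncomputable section

variable {X : Scheme.{u}}

/-- **the zero ideal on a larger open is the preimage of the zero ideal on a smaller open off which
the section is a unit.** -/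
theorem mem_zeroIdeal_iff_res (M : LB X) (s : M.H0) (hs : M.IsRegSection s) {V₀ V W' : X.Opens}
    (hV : V₀ ≤ V) (hW : V ≤ V₀ ⊔ W')
    (hu : ∀ i, IsUnit (res (M.U i ⊓ W') inf_le_left (s.1 i))) (r : Γ(X, V)) :
    r ∈ M.zeroIdeal s V ↔ res V₀ hV r ∈ M.zeroIdeal s V₀ := by
  constructor
  · intro hr i
    obtain ⟨a, ha⟩ := M.mem_zeroIdeal' s hr i (M.U i ⊓ V₀) inf_le_left (inf_le_right.trans hV)
    refine ⟨a, ?_⟩
    rw [res_res]
    exact ha
  · intro hr i
    set O : X.Opens := M.U i ⊓ V with hO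
    have hsO : IsNZDOn O (res O inf_le_left (s.1 i)) := (hs i).restrict inf_le_left
    -- the two-element cover of `O`
    let Uc : ULift.{u} Bool → X.Opens := fun b => if b.down then M.U i ⊓ V₀ else O ⊓ W'
    have hUc : ∀ b, Uc b ≤ O := by
      rintro ⟨b⟩
      cases b
      · exact inf_le_left
      · exact inf_le_inf_left _ hV
    have hcov : O ≤ ⨆ b, Uc b := by
      intro x hx
      have hx' : x ∈ V₀ ⊔ W' := hW hx.2
      rcases hx' with hx' | hx'
      · exact Opens.mem_iSup.mpr ⟨⟨true⟩, ⟨hx.1, hx'⟩⟩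
      · exact Opens.mem_iSup.mpr ⟨⟨false⟩, ⟨hx, hx'⟩⟩
    obtain ⟨c, hc⟩ := exists_mul_of_cover Uc hUc hcov (res O inf_le_left (s.1 i))
      (res O inf_le_right r) hsO (by
        rintro ⟨b⟩
        cases b
        · -- on `O ⊓ W'` the section is a unit
          have h1 : IsUnit (res (O ⊓ W') (inf_le_left.trans inf_le_left) (s.1 i)) := by
            have := (hu i).map (res (O ⊓ W') (inf_le_inf_right _ inf_le_left))
            rwa [res_res] at this
          obtain ⟨w, hw⟩ := h1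
          refine ⟨res (O ⊓ W') (inf_le_left.trans inf_le_right) r * (↑(w⁻¹) : Γ(X, O ⊓ W')), ?_⟩
          show res (O ⊓ W') _ (res O inf_le_right r) = _ * res (O ⊓ W') _ (res O inf_le_left (s.1 i))
          rw [res_res, res_res, ← hw, mul_assoc, Units.inv_mul, mul_one]
        · obtain ⟨a, ha⟩ := hr i
          refine ⟨a, ?_⟩
          show res (M.U i ⊓ V₀) _ (res O inf_le_right r) =
            _ * res (M.U i ⊓ V₀) _ (res O inf_le_left (s.1 i))
          rw [res_res, res_res]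
          rw [res_res] at ha
          exact ha)
    exact ⟨c, hc⟩

end

end Fermat.Agent.AV.LB

namespace Fermat.Agent.JAC

open Fermat.Agent.AV Fermat.Agent.AV.CP HilbAlg

noncomputable section

section GraphAlgHom

variable {K : Type u} [Field K] {C T : Scheme.{u}} [KScheme K C] [KScheme K T]

/-- the comorphism `Γ(C, U) → Γ(T, ⊤)` of a morphism `τ : T ⟶ C` which factors through `U`. -/
def graphAlgHom (τ : T ⟶ C) (hτ : τ ≫ KScheme.str (K := K) = KScheme.str) {U : C.Opens}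
    (hτU : τ ⁻¹ᵁ U = ⊤) : Γ(C, U) →ₐ[K] Γ(T, ⊤) :=
  (resAlgHom ⊤ (le_of_eq hτU.symm)).comp (appAlgHom τ hτ U)

theorem graphAlgHom_apply (τ : T ⟶ C) (hτ : τ ≫ KScheme.str (K := K) = KScheme.str) {U : C.Opens}
    (hτU : τ ⁻¹ᵁ U = ⊤) (a : Γ(C, U)) :
    graphAlgHom τ hτ hτU a = res ⊤ (le_of_eq hτU.symm) ((τ.app U).hom a) := rfl

theorem graphAlgHom_res (τ : T ⟶ C) (hτ : τ ≫ KScheme.str (K := K) = KScheme.str)
    {U U' : C.Opens} (h : U' ≤ U) (hτU' : τ ⁻¹ᵁ U' = ⊤) (hτU : τ ⁻¹ᵁ U = ⊤) :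
    (graphAlgHom τ hτ hτU').comp (resAlgHom U' h) = graphAlgHom τ hτ hτU := by
  apply AlgHom.ext
  intro a
  rw [AlgHom.comp_apply, graphAlgHom_apply, graphAlgHom_apply, resAlgHom_apply, app_res, res_res]

theorem graphAlgHom_comp {T' : Scheme.{u}} [KScheme K T'] (φ : T' ⟶ T)
    (hφ : φ ≫ KScheme.str (K := K) = KScheme.str)
    (τ : T ⟶ C) (hτ : τ ≫ KScheme.str (K := K) = KScheme.str) {U : C.Opens}
    (hτU : τ ⁻¹ᵁ U = ⊤) (hφτ : (φ ≫ τ) ≫ KScheme.str (K := K) = KScheme.str)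
    (hφτU : (φ ≫ τ) ⁻¹ᵁ U = ⊤) :
    (appTopAlgHom φ hφ).comp (graphAlgHom τ hτ hτU) = graphAlgHom (φ ≫ τ) hφτ hφτU := by
  apply AlgHom.ext
  intro a
  rw [AlgHom.comp_apply, graphAlgHom_apply, graphAlgHom_apply, appTopAlgHom_apply]
  show (φ.app ⊤).hom (res ⊤ _ ((τ.app U).hom a)) = _
  rw [app_res]
  show res _ _ ((φ.app (τ ⁻¹ᵁ U)).hom ((τ.app U).hom a)) = res _ _ (((φ ≫ τ).app U).hom a)
  rw [Scheme.Hom.comp_app]
  rfl

end GraphAlgHom

variable {K : Type u} [Field K] {C T Y : Scheme.{u}} [KScheme K C] [KScheme K T]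
  [IsAffine T] {p₁ : Y ⟶ C} {p₂ : Y ⟶ T}
  (H : IsPullback p₁ p₂ (KScheme.str (K := K)) (KScheme.str (K := K)))
  {U : C.Opens} (hU : IsAffineOpen U)
  (τ : T ⟶ C) (hτ : τ ≫ KScheme.str (K := K) = KScheme.str) (hτU : τ ⁻¹ᵁ U = ⊤)

/-- `(L, σ)` is "`O(Γ_τ)` with its canonical section", described inside the affine open `p₁⁻¹U`. -/
structure IsGraphPair (L : LB Y) (σ : L.H0) : Prop where
  reg : L.IsRegSection σ
  zero : L.zeroIdeal σ (p₁ ⁻¹ᵁ U) = kunIdeal H hU (graphIdeal (graphAlgHom τ hτ hτU))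
  unit : ∃ W' : Y.Opens, p₁ ⁻¹ᵁ U ⊔ W' = ⊤ ∧
    ∀ i, IsUnit (res (L.U i ⊓ W') inf_le_left (σ.1 i))

variable {H hU τ hτ hτU}

/-- **uniqueness.** -/
theorem IsGraphPair.isoData {L L' : LB Y} {σ : L.H0} {σ' : L'.H0}
    (h : IsGraphPair H hU τ hτ hτU L σ) (h' : IsGraphPair H hU τ hτ hτU L' σ') :
    ∃ D : LB.IsoData L L', ∀ k,
      res (D.W k) (D.hβ k) (σ'.1 (D.β k)) = D.f k * res (D.W k) (D.hα k) (σ.1 (D.α k)) := by
  obtain ⟨W₁, hW₁, hu₁⟩ := h.unit
  obtain ⟨W₂, hW₂, hu₂⟩ := h'.unit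
  have hWW : p₁ ⁻¹ᵁ U ⊔ (W₁ ⊓ W₂) = ⊤ := by
    rw [eq_top_iff]
    intro y _
    have h1 : y ∈ p₁ ⁻¹ᵁ U ⊔ W₁ := by rw [hW₁]; exact True.intro
    have h2 : y ∈ p₁ ⁻¹ᵁ U ⊔ W₂ := by rw [hW₂]; exact True.intro
    rcases h1 with h1 | h1
    · exact Or.inl h1
    · rcases h2 with h2 | h2
      · exact Or.inl h2
      · exact Or.inr ⟨h1, h2⟩
  refine LB.exists_isoData_of_zeroIdeal_eq L L' σ σ' h.reg h'.reg
    (isAffineOpen_preimage_fst H hU) hWW (fun i => ?_) (fun i => ?_) (h.zero.trans h'.zero.symm)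
  · have := (hu₁ i).map (res (L.U i ⊓ (W₁ ⊓ W₂)) (inf_le_inf_left _ inf_le_left))
    rwa [res_res] at this
  · have := (hu₂ i).map (res (L'.U i ⊓ (W₁ ⊓ W₂)) (inf_le_inf_left _ inf_le_right))
    rwa [res_res] at this

theorem IsGraphPair.iso {L L' : LB Y} {σ : L.H0} {σ' : L'.H0}
    (h : IsGraphPair H hU τ hτ hτU L σ) (h' : IsGraphPair H hU τ hτ hτU L' σ') : LB.Iso L L' := by
  obtain ⟨D, -⟩ := h.isoData h'
  exact ⟨D⟩

/-- **independence of the affine open**: a graph pair w.r.t. `U'` is a graph pair w.r.t. any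
larger affine open `U`. -/
theorem IsGraphPair.mono {U' : C.Opens} {hU' : IsAffineOpen U'} (hUU' : U' ≤ U)
    {hτU' : τ ⁻¹ᵁ U' = ⊤} {L : LB Y} {σ : L.H0}
    (h : IsGraphPair H hU' τ hτ hτU' L σ) : IsGraphPair H hU τ hτ hτU L σ := by
  obtain ⟨W', hW', hu⟩ := h.unit
  refine ⟨h.reg, ?_, W', ?_, hu⟩
  · ext r
    have hle : p₁ ⁻¹ᵁ U' ≤ p₁ ⁻¹ᵁ U := p₁.preimage_mono hUU'
    rw [L.mem_zeroIdeal_iff_res σ h.reg hle (by rw [hW']; exact le_top) hu, h.zero,
      mem_kunIdeal_iff, mem_kunIdeal_iff]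
    obtain ⟨x, rfl⟩ := (kunneth H hU).surjective r
    rw [res_kunneth H hU hU' hUU', RingEquiv.symm_apply_apply, RingEquiv.symm_apply_apply,
      ← graphAlgHom_res τ hτ hUU' hτU' hτU, ← graphIdeal_comap, Ideal.mem_comap]
  · rw [eq_top_iff, ← hW']
    exact sup_le_sup_right (p₁.preimage_mono hUU') _

section Exist

variable [IsAlgClosed K] [IsDomain Γ(C, U)] [Algebra.FiniteType K Γ(C, U)]
  (hA : ∀ (𝔫 : Ideal Γ(C, U)) [𝔫.IsMaximal], IsDiscreteValuationRing (Localization.AtPrime 𝔫))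

include hA in
variable (H hU τ hτ hτU) in
/-- **existence.** -/
theorem exists_isGraphPair [IsSeparated (KScheme.str (K := K) (X := C))] :
    ∃ (L : LB Y) (σ : L.H0), IsGraphPair H hU τ hτ hτU L σ := by
  obtain ⟨L, σ, h1, h2, h3⟩ := exists_LB_of_isBased H hU hA
    (isBased_graphIdeal (graphAlgHom τ hτ hτU))
  exact ⟨L, σ, h1, h2, h3⟩

variable {T' Y' : Scheme.{u}} [KScheme K T'] [IsAffine T']
  (φ : T' ⟶ T) (hφ : φ ≫ KScheme.str (K := K) = KScheme.str) (p₂' : Y' ⟶ T') (ψ : Y' ⟶ Y)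
  (H' : IsPullback (ψ ≫ p₁) p₂' (KScheme.str (K := K)) (KScheme.str (K := K)))
  (hψ : ψ ≫ p₂ = p₂' ≫ φ)

include hA hψ hφ in
/-- **base change.** -/
theorem IsGraphPair.pullback {L : LB Y} {σ : L.H0} (h : IsGraphPair H hU τ hτ hτU L σ)
    (hφτ : (φ ≫ τ) ≫ KScheme.str (K := K) = KScheme.str) (hφτU : (φ ≫ τ) ⁻¹ᵁ U = ⊤) :
    IsGraphPair H' hU (φ ≫ τ) hφτ hφτU (L.pullback ψ) (L.pullbackSection ψ σ) := by
  obtain ⟨W', hW', hu⟩ := h.unit
  obtain ⟨h1, h2, h3, h4⟩ := zeroIdeal_pullback_of_isBased H hU hA φ hφ p₂' ψ H' hψ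
    (isBased_graphIdeal (graphAlgHom τ hτ hτU)) L σ h.reg h.zero hW' hu
  refine ⟨h1, ?_, ψ ⁻¹ᵁ W', h3, h4⟩
  rw [h2, graphIdeal_map, graphAlgHom_comp φ hφ τ hτ hτU hφτ hφτU]

end Exist

section Compare

variable [IsAlgClosed K] {V : C.Opens} {hV : IsAffineOpen V} {hτV : τ ⁻¹ᵁ V = ⊤}

/-- **comparison**: graph pairs of the same `τ` w.r.t. two affine opens `U`, `V` containing the
image are isomorphic (through a graph pair w.r.t. `U ⊓ V`). -/
theorem IsGraphPair.iso' [IsSeparated (KScheme.str (K := K) (X := C))]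
    (hUV : IsAffineOpen (U ⊓ V)) [IsDomain Γ(C, U ⊓ V)] [Algebra.FiniteType K Γ(C, U ⊓ V)]
    (hA : ∀ (𝔫 : Ideal Γ(C, U ⊓ V)) [𝔫.IsMaximal],
      IsDiscreteValuationRing (Localization.AtPrime 𝔫))
    {L L' : LB Y} {σ : L.H0} {σ' : L'.H0}
    (h : IsGraphPair H hU τ hτ hτU L σ) (h' : IsGraphPair H hV τ hτ hτV L' σ') : LB.Iso L L' := by
  have hτUV : τ ⁻¹ᵁ (U ⊓ V) = ⊤ := by
    rw [Scheme.Hom.preimage_inf, hτU, hτV, inf_top_eq]
  obtain ⟨L₀, σ₀, h₀⟩ := exists_isGraphPair H hUV τ hτ hτUV hA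
  have h₁ : IsGraphPair H hU τ hτ hτU L₀ σ₀ := h₀.mono inf_le_left
  have h₂ : IsGraphPair H hV τ hτ hτV L₀ σ₀ := h₀.mono inf_le_right
  exact (h.iso h₁).trans (h₂.iso h')

end Compare

end

end Fermat.Agent.JAC
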