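/-
PROJECT JAC (S25) — J1, helper2: dimension-one facts for a smooth integral curve `C` over a field `K`.

* ring level: `krullDimLE_one_of_integral` (integral extension of a one-dimensional ring, domain
  case), `krullDimLE_one_mvPolynomial_fin_one`, `not_isField_of_integral_mvPolynomial`,
  `exists_sub_algebraMap_mem_of_isMaximal` (residue fields of finite type algebras over an
  algebraically closed field);
* scheme level, `c : C ⟶ Spec K` smooth of relative dimension `1`, `C` integral:
  `krullDimLE_one_sections` (`Γ(C, U)` one-dimensional for `U` affine), `coheight_le_one`,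
  `coheight_eq_one_iff` (`↔ z ≠ generic point`), `isClosed_singleton_iff`,
  `finite_of_isClosed_of_ne_univ`, `exists_ne_genericPoint`.
-/
import Mathlib
import Fermat.Agent.AV.AV0_helper4_Dim
import Fermat.Agent.AV.AV0_helper4_Hartogs
import Fermat.Agent.AV.AV4_helper5_FinDim
import Fermat.Agent.AV.AV4_helper2_Geometric

set_option autoImplicit false
set_option linter.style.haveILetI false
set_option linter.unusedSectionVars false

open AlgebraicGeometry CategoryTheory Opposite TopologicalSpace Order

universe u

namespace Fermat.Agent.JAC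

open Fermat.Agent.AV

section Ring

/-- an integral extension domain of a ring of dimension `≤ 1` has dimension `≤ 1`. -/
theorem krullDimLE_one_of_integral {A B : Type*} [CommRing A] [CommRing B] [IsDomain B]
    [Algebra A B] [Algebra.IsIntegral A B] [IsDomain A] [Ring.KrullDimLE 1 A]
    (hinj : Function.Injective (algebraMap A B)) : Ring.KrullDimLE 1 B := by
  rw [Ring.krullDimLE_one_iff_of_noZeroDivisors]
  intro P hP0 hP
  haveI := hP
  have h1 : P.comap (algebraMap A B) ≠ ⊥ := by
    intro h
    apply hP0
    haveI : Nontrivial A := inferInstance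
    haveI : FaithfulSMul A B := (faithfulSMul_iff_algebraMap_injective A B).mpr hinj
    exact Ideal.eq_bot_of_comap_eq_bot h
  have h2 : (P.comap (algebraMap A B)).IsMaximal :=
    Ideal.IsPrime.isMaximal_of_ne_bot (Ideal.comap_isPrime _ _) h1
  exact Ideal.isMaximal_of_isIntegral_of_isMaximal_comap P h2

theorem krullDimLE_one_mvPolynomial_fin_one (K : Type*) [Field K] :
    Ring.KrullDimLE 1 (MvPolynomial (Fin 1) K) := by
  rw [Ring.krullDimLE_iff, MvPolynomial.ringKrullDim_of_isNoetherianRing]
  simp

/-- residue fields of finite type algebras over an algebraically closed field. -/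
theorem exists_sub_algebraMap_mem_of_isMaximal {K A : Type*} [Field K] [IsAlgClosed K]
    [CommRing A] [Algebra K A] [Algebra.FiniteType K A] (m : Ideal A) [hm : m.IsMaximal] (a : A) :
    ∃ c : K, a - algebraMap K A c ∈ m := by
  letI : Field (A ⧸ m) := Ideal.Quotient.field m
  haveI : Algebra.FiniteType K (A ⧸ m) :=
    Algebra.FiniteType.of_surjective (Ideal.Quotient.mkₐ K m) (Ideal.Quotient.mkₐ_surjective K m)
  haveI : Module.Finite K (A ⧸ m) := finite_of_finite_type_of_isJacobsonRing K (A ⧸ m)
  haveI : Algebra.IsIntegral K (A ⧸ m) := Algebra.IsIntegral.of_finite K (A ⧸ m)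
  obtain ⟨c, hc⟩ := (IsAlgClosed.algebraMap_bijective_of_isIntegral (k := K) (K := A ⧸ m)).2
    (Ideal.Quotient.mk m a)
  refine ⟨c, ?_⟩
  rw [← Ideal.Quotient.eq, ← hc]
  rfl

end Ring

noncomputable section

variable {K : Type u} [Field K] {C : Scheme.{u}} (c : C ⟶ Spec (.of K))

/-- the natural `K`-algebra structure on the function field (to be installed with `letI`). -/
@[reducible] def ffAlgebra [IsIntegral C] : Algebra K C.functionField :=
  (functionFieldStrMap c).hom.toAlgebra

/-- the natural `K`-algebra structure on sections (to be installed with `letI`). -/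
@[reducible] def secAlgebra (U : C.Opens) : Algebra K Γ(C, U) :=
  (sectionsStrMap c U).toAlgebra

theorem isScalarTower_sections [IsIntegral C] (U : C.Opens) [Nonempty U]
    [Algebra K C.functionField]
    (halg : ∀ a : K, algebraMap K C.functionField a = (functionFieldStrMap c).hom a) :
    letI := secAlgebra c U
    IsScalarTower K Γ(C, U) C.functionField := by
  letI := secAlgebra c U
  refine IsScalarTower.of_algebraMap_eq (fun a => ?_)
  rw [halg, ← germOf_sectionsStrMap c U a, LB.germOf_eq]
  rfl

variable [SmoothOfRelativeDimension 1 c] [IsIntegral C]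

/-- a Noether normalisation of an affine open of a curve has exactly one variable. -/
theorem exists_nn_one {U : C.Opens} (hU : IsAffineOpen U) [Nonempty U] :
    letI := secAlgebra c U
    ∃ ν : MvPolynomial (Fin 1) K →ₐ[K] Γ(C, U), Function.Injective ν ∧ ν.IsIntegral := by
  letI := secAlgebra c U
  letI := ffAlgebra c
  haveI : Smooth c := SmoothOfRelativeDimension.smooth 1 c
  haveI : LocallyOfFiniteType c := inferInstance
  haveI : IsScalarTower K Γ(C, U) C.functionField :=
    isScalarTower_sections c U (fun _ => rfl)
  haveI : Algebra.FiniteType K Γ(C, U) :=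
    RingHom.finiteType_algebraMap.mp (finiteType_sectionsStrMap c hU)
  obtain ⟨s, ν, hν, hνint⟩ := exists_integral_inj_algHom_of_fg K Γ(C, U)
  haveI := finiteDimensional_nnCoord C U ν hU hνint
  have hs : s = 1 := eq_of_algebraicIndependent_functionField c (fun _ _ => rfl)
    (nnCoord C U ν) (algebraicIndependent_nnCoord C U ν hν)
  subst hs
  exact ⟨ν, hν, hνint⟩

include c in
/-- sections over an affine open of a curve form a one-dimensional ring. -/
theorem krullDimLE_one_sections {U : C.Opens} (hU : IsAffineOpen U) [Nonempty U] :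
    Ring.KrullDimLE 1 Γ(C, U) := by
  letI := secAlgebra c U
  obtain ⟨ν, hν, hνint⟩ := exists_nn_one c hU
  letI : Algebra (MvPolynomial (Fin 1) K) Γ(C, U) := ν.toRingHom.toAlgebra
  haveI : Algebra.IsIntegral (MvPolynomial (Fin 1) K) Γ(C, U) := ⟨hνint⟩
  haveI := krullDimLE_one_mvPolynomial_fin_one K
  exact krullDimLE_one_of_integral (A := MvPolynomial (Fin 1) K) hν

include c in
/-- sections over an affine open of a curve do not form a field. -/
theorem not_isField_sections {U : C.Opens} (hU : IsAffineOpen U) [Nonempty U] :
    ¬ IsField Γ(C, U) := by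
  letI := secAlgebra c U
  obtain ⟨ν, hν, hνint⟩ := exists_nn_one c hU
  letI : Algebra (MvPolynomial (Fin 1) K) Γ(C, U) := ν.toRingHom.toAlgebra
  haveI : Algebra.IsIntegral (MvPolynomial (Fin 1) K) Γ(C, U) := ⟨hνint⟩
  intro hf
  have h1 : IsField (MvPolynomial (Fin 1) K) := isField_of_isIntegral_of_isField hν hf
  have h3 := ringKrullDim_eq_zero_of_isField h1
  rw [MvPolynomial.ringKrullDim_of_isNoetherianRing] at h3
  simp at h3

include c in
/-- **every point of a curve has codimension at most one.** -/
theorem coheight_le_one (z : C) : coheight z ≤ 1 := by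
  obtain ⟨_, ⟨U, hU, rfl⟩, hzU, -⟩ :=
    C.isBasis_affineOpens.exists_subset_of_mem_open (Set.mem_univ z) isOpen_univ
  haveI : Nonempty U := ⟨⟨z, hzU⟩⟩
  have h1 := height_primeIdealOf_eq_coheight hU ⟨z, hzU⟩
  have h2 : ((hU.primeIdealOf ⟨z, hzU⟩).asIdeal.height : WithBot ℕ∞) ≤ ringKrullDim Γ(C, U) :=
    Ideal.height_le_ringKrullDim_of_isPrime
  have h3 : ringKrullDim Γ(C, U) ≤ 1 := by
    have := krullDimLE_one_sections c hU
    rwa [Ring.krullDimLE_iff] at this
  rw [h1] at h2
  have h4 : ((coheight z : ℕ∞) : WithBot ℕ∞) ≤ ((1 : ℕ∞) : WithBot ℕ∞) := by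
    refine h2.trans (h3.trans ?_)
    exact le_rfl
  exact_mod_cast h4

omit [SmoothOfRelativeDimension 1 c] in
/-- a scheme of finite type over a field, quasi-compact, is noetherian. -/
theorem isNoetherian_of_locallyOfFiniteType [LocallyOfFiniteType c] [CompactSpace C] :
    IsNoetherian C :=
  { __ := LocallyOfFiniteType.isLocallyNoetherian c }

omit [SmoothOfRelativeDimension 1 c] in
/-- a proper scheme over a field is noetherian. -/
theorem isNoetherian_of_isProper [IsProper c] : IsNoetherian C := by
  haveI : CompactSpace C := by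
    have := (quasiCompact_iff_compactSpace (f := c)).mp inferInstance
    exact this
  exact isNoetherian_of_locallyOfFiniteType c

omit [SmoothOfRelativeDimension 1 c] in
/-- the generic point is the only point of codimension zero. -/
theorem coheight_eq_zero_iff (z : C) : coheight z = 0 ↔ z = genericPoint C := by
  rw [coheight_eq_zero]
  constructor
  · intro h
    have h1 : z ≤ genericPoint C := (genericPoint_spec C).specializes trivial
    have h2 : genericPoint C ≤ z := h h1
    have h3 : genericPoint C ⤳ z := h1
    have h4 : z ⤳ genericPoint C := h2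
    exact (h4.antisymm h3).eq
  · rintro rfl w hw
    exact (genericPoint_spec C).specializes trivial

include c in
/-- **on a curve, the points of codimension one are the points other than the generic point.** -/
theorem coheight_eq_one_iff (z : C) : coheight z = 1 ↔ z ≠ genericPoint C := by
  rw [Ne, ← coheight_eq_zero_iff]
  have h1 := coheight_le_one c z
  constructor
  · intro h h0
    rw [h] at h0
    exact one_ne_zero h0
  · intro h
    refine le_antisymm h1 ?_
    exact Order.one_le_iff_pos.mpr (pos_iff_ne_zero.mpr h)

include c in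
/-- a curve is not a point. -/
theorem exists_ne_genericPoint : ∃ z : C, z ≠ genericPoint C := by
  by_contra hcon
  push_neg at hcon
  obtain ⟨_, ⟨U, hU, rfl⟩, hzU, -⟩ :=
    C.isBasis_affineOpens.exists_subset_of_mem_open (Set.mem_univ (genericPoint C)) isOpen_univ
  haveI : Nonempty U := ⟨⟨genericPoint C, hzU⟩⟩
  apply not_isField_sections c hU
  -- `Γ(C, U)` is a domain in which every prime is `⊥`
  haveI : IsDomain Γ(C, U) := inferInstance
  by_contra hnf
  obtain ⟨p, hp0, hp⟩ := Ring.not_isField_iff_exists_prime.mp hnf
  have hinj : Function.Injective hU.fromSpec := hU.fromSpec.isOpenEmbedding.injective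
  have h1 : hU.fromSpec (⟨p, hp⟩ : PrimeSpectrum Γ(C, U)) =
      hU.fromSpec (⟨⊥, Ideal.isPrime_bot⟩ : PrimeSpectrum Γ(C, U)) := by
    rw [hcon (hU.fromSpec _), hcon (hU.fromSpec (⟨⊥, Ideal.isPrime_bot⟩ : PrimeSpectrum Γ(C, U)))]
  have h2 := hinj h1
  exact hp0 (congrArg PrimeSpectrum.asIdeal h2)

include c in
/-- **on a curve, the closed points are the points other than the generic point.** -/
theorem isClosed_singleton_iff (z : C) : IsClosed ({z} : Set C) ↔ z ≠ genericPoint C := by
  constructor
  · rintro hcl rfl
    obtain ⟨w, hw⟩ := exists_ne_genericPoint c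
    have h1 : genericPoint C ⤳ w := (genericPoint_spec C).specializes trivial
    rw [specializes_iff_mem_closure, hcl.closure_eq] at h1
    exact hw h1
  · intro hz
    rw [← closure_eq_iff_isClosed]
    refine Set.Subset.antisymm ?_ subset_closure
    intro w hw
    rw [← specializes_iff_mem_closure] at hw
    by_contra hne
    have hlt : w < z := by
      rw [lt_iff_le_not_ge]
      refine ⟨hw, fun h => hne ?_⟩
      have h1 : w ⤳ z := h
      exact (h1.antisymm hw).eq
    have h1 := coheight_add_one_le hlt
    have h2 := coheight_le_one c w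
    have h3 : coheight z = 1 := (coheight_eq_one_iff c z).mpr hz
    rw [h3] at h1
    have : (1 : ℕ∞) + 1 ≤ 1 := h1.trans h2
    exact absurd this (by decide)

include c in
theorem isClosed_singleton_iff_coheight (z : C) : IsClosed ({z} : Set C) ↔ coheight z = 1 := by
  rw [isClosed_singleton_iff c, coheight_eq_one_iff c]

include c in
/-- **a proper closed subset of a curve is finite.** -/
theorem finite_of_isClosed_of_ne_univ [IsNoetherian C] (Z : Set C) (hZ : IsClosed Z)
    (hne : Z ≠ Set.univ) : Z.Finite := by
  have hη : genericPoint C ∉ Z := by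
    intro h
    apply hne
    rw [Set.eq_univ_iff_forall]
    intro w
    have h1 : genericPoint C ⤳ w := (genericPoint_spec C).specializes trivial
    rw [specializes_iff_mem_closure] at h1
    exact (closure_minimal (Set.singleton_subset_iff.mpr h) hZ) h1
  refine (finite_coheight_one_of_isClosed C Z hZ hη).subset ?_
  intro z hz
  refine ⟨hz, (coheight_eq_one_iff c z).mpr ?_⟩
  rintro rfl
  exact hη hz

omit [SmoothOfRelativeDimension 1 c] [IsIntegral C] in
/-- membership in a basic open in terms of the prime ideal of the point. -/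
theorem mem_basicOpen_iff_notMem_primeIdealOf {U : C.Opens} (hU : IsAffineOpen U) (z : C)
    (hz : z ∈ U) (a : Γ(C, U)) :
    z ∈ C.basicOpen a ↔ a ∉ (hU.primeIdealOf ⟨z, hz⟩).asIdeal := by
  rw [Scheme.mem_basicOpen C a z hz]
  letI := C.presheaf.algebra_section_stalk ⟨z, hz⟩
  have hloc := hU.isLocalization_stalk ⟨z, hz⟩
  exact (IsLocalization.AtPrime.isUnit_to_map_iff (C.presheaf.stalk z)
    (hU.primeIdealOf ⟨z, hz⟩).asIdeal a)

omit [SmoothOfRelativeDimension 1 c] [IsIntegral C] in
/-- **the residue field at a closed point is `K`**: every function regular near a closed point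
takes a value in `K` there. -/
theorem exists_sub_notMem_basicOpen [IsAlgClosed K] [LocallyOfFiniteType c] {U : C.Opens}
    (hU : IsAffineOpen U) (z : C) (hz : z ∈ U) (hcl : IsClosed ({z} : Set C)) (a : Γ(C, U)) :
    ∃ k : K, z ∉ C.basicOpen (a - sectionsStrMap c U k) := by
  letI := secAlgebra c U
  haveI : Algebra.FiniteType K Γ(C, U) :=
    RingHom.finiteType_algebraMap.mp (finiteType_sectionsStrMap c hU)
  haveI := hU.primeIdealOf_isMaximal_of_isClosed ⟨z, hz⟩ hcl
  obtain ⟨k, hk⟩ := exists_sub_algebraMap_mem_of_isMaximal
    (hU.primeIdealOf ⟨z, hz⟩).asIdeal a (K := K)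
  refine ⟨k, ?_⟩
  rw [mem_basicOpen_iff_notMem_primeIdealOf hU z hz, not_not]
  exact hk

end

end Fermat.Agent.JAC
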