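/-
PROJECT JAC (S25) — (GEOM), helper7 — lead's brick (B) **(hA-geom): the coordinate ring of an affine
open of a smooth proper curve.**

`c : C ⟶ Spec k` smooth of relative dimension one, `C` integral, `U ⊆ C` a nonempty affine open,
`Γ(C, U)` a `k`-algebra through helper8's `CP.kAlgebraΓ` for the `KScheme` structure `⟨c⟩`
(`algebraMap_kAlgebraΓ_eq_sectionsStrMap` : it is helper5's `sectionsStrMap c U`, by `rfl`):
* `finiteType_sections_of_locallyOfFiniteType` : `Algebra.FiniteType k Γ(C, U)`;
* **`isDiscreteValuationRing_localization_sections`** : `Localization.AtPrime 𝔫` is a DVR for every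
  maximal ideal `𝔫` of `Γ(C, U)` (helper4's stalk DVR at codimension-one points, helper2's
  dimension theory `coheight_eq_one_iff`, `not_isField_sections`, `isLocalization_stalk'`);
* **`affineCurve_hypotheses`** (`[IsProper c]`): domain ∧ finite type ∧ DVR ∧ `IsSeparated` — all the
  hypotheses of lead's `exists_LB_of_isBased` / `zeroIdeal_pullback_of_isBased` (`HILB_lead_Main`)
  and of helper5's `P_helper5_Classify`;
* `finiteType_sections_kScheme`, `isDiscreteValuationRing_localization_sections_kScheme` : the same
  for a `[KScheme K C]` instance (lead's (H) setting), ready to be passed as `hA`.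
No algebraic closedness is needed.
-/
import Mathlib
import Fermat.Agent.JAC.CURVE_helper2_Dim1
import Fermat.Agent.AV.CP_helper8_Kunneth

set_option autoImplicit false
set_option linter.style.haveILetI false

open AlgebraicGeometry CategoryTheory Opposite TopologicalSpace Order

universe u

namespace Fermat.Agent.JAC

open Fermat.Agent.AV Fermat.Agent.AV.CP

noncomputable section

variable {k : Type u} [Field k] {C : Scheme.{u}} (c : C ⟶ Spec (CommRingCat.of k))

/-- for the `KScheme` structure `⟨c⟩`, the structure map of `CP.kAlgebraΓ` is helper5's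
`sectionsStrMap c U`. -/
theorem algebraMap_kAlgebraΓ_eq_sectionsStrMap (U : C.Opens) :
    letI : KScheme k C := ⟨c⟩
    algebraMap k Γ(C, U) = sectionsStrMap c U := rfl

/-- sections over an affine open of a scheme locally of finite type over `k` form a `k`-algebra of
finite type (for `CP.kAlgebraΓ`). -/
theorem finiteType_sections_of_locallyOfFiniteType [LocallyOfFiniteType c] {U : C.Opens}
    (hU : IsAffineOpen U) :
    letI : KScheme k C := ⟨c⟩
    Algebra.FiniteType k Γ(C, U) := by
  letI : KScheme k C := ⟨c⟩
  exact RingHom.finiteType_algebraMap.mp (finiteType_sectionsStrMap c hU)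

variable [SmoothOfRelativeDimension 1 c] [IsIntegral C]

include c in
/-- **the local rings of the coordinate ring of an affine open of a smooth curve at its maximal
ideals are discrete valuation rings.** -/
theorem isDiscreteValuationRing_localization_sections {U : C.Opens} (hU : IsAffineOpen U)
    [Nonempty U] (𝔫 : Ideal Γ(C, U)) [h𝔫 : 𝔫.IsMaximal] :
    IsDiscreteValuationRing (Localization.AtPrime 𝔫) := by
  haveI : Smooth c := SmoothOfRelativeDimension.smooth 1 c
  set y : PrimeSpectrum Γ(C, U) := ⟨𝔫, h𝔫.isPrime⟩ with hy_def
  have hy : hU.fromSpec y ∈ U := by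
    rw [← SetLike.mem_coe, ← hU.range_fromSpec]
    exact ⟨y, rfl⟩
  -- the point is not the generic point
  have hz : hU.fromSpec y ≠ genericPoint C := by
    intro h
    have hgen : genericPoint C ∈ U := h ▸ hy
    have h1 := hU.fromSpec_primeIdealOf ⟨genericPoint C, hgen⟩
    have h2 : hU.primeIdealOf ⟨genericPoint C, hgen⟩ = genericPoint (Spec Γ(C, U)) :=
      hU.primeIdealOf_genericPoint
    rw [h2, genericPoint_eq_bot_of_affine] at h1
    have h3 : y = (⊥ : PrimeSpectrum Γ(C, U)) :=
      hU.fromSpec.isOpenEmbedding.injective (h.trans h1.symm)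
    have h4 : 𝔫 = ⊥ := congrArg PrimeSpectrum.asIdeal h3
    apply not_isField_sections c hU
    rw [Ring.isField_iff_maximal_bot, ← h4]
    exact h𝔫
  have hco : coheight (hU.fromSpec y) = 1 := (coheight_eq_one_iff c _).mpr hz
  haveI := isDiscreteValuationRing_stalk_of_coheight_eq_one c (hU.fromSpec y) hco
  letI := TopCat.Presheaf.algebra_section_stalk C.presheaf ⟨hU.fromSpec y, hy⟩
  haveI : IsLocalization.AtPrime (C.presheaf.stalk (hU.fromSpec y)) 𝔫 :=
    hU.isLocalization_stalk' y hy
  exact IsDiscreteValuationRing.RingEquivClass.isDiscreteValuationRing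
    (IsLocalization.algEquiv 𝔫.primeCompl (C.presheaf.stalk (hU.fromSpec y))
      (Localization.AtPrime 𝔫))

/-- **summary (lead's (B), `hA`-geom)**: for a proper smooth curve `c : C ⟶ Spec k`, `C` integral,
and a nonempty affine open `U`, the coordinate ring `Γ(C, U)` (a `k`-algebra through `CP.kAlgebraΓ`
for the `KScheme` structure `⟨c⟩`) is a domain of finite type over `k` whose localisations at
maximal ideals are discrete valuation rings, and `c` is separated: all the hypotheses of lead's
`exists_LB_of_isBased` / `zeroIdeal_pullback_of_isBased` and of helper5's `P_helper5_Classify`. -/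
theorem affineCurve_hypotheses [IsProper c] {U : C.Opens} (hU : IsAffineOpen U) [Nonempty U] :
    letI : KScheme k C := ⟨c⟩
    IsDomain Γ(C, U) ∧ Algebra.FiniteType k Γ(C, U) ∧
      (∀ (𝔫 : Ideal Γ(C, U)) [𝔫.IsMaximal], IsDiscreteValuationRing (Localization.AtPrime 𝔫)) ∧
      IsSeparated (KScheme.str (K := k) (X := C)) := by
  letI : KScheme k C := ⟨c⟩
  haveI : Smooth c := SmoothOfRelativeDimension.smooth 1 c
  haveI : LocallyOfFiniteType c := inferInstance
  refine ⟨inferInstance, finiteType_sections_of_locallyOfFiniteType c hU,
    fun 𝔫 _ => isDiscreteValuationRing_localization_sections c hU 𝔫, ?_⟩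
  show IsSeparated c
  infer_instance

end

section KSchemeForm

/-! ### The same statements for a `KScheme` instance (lead's (H) setting) -/

/-- `Γ(C, U)` is of finite type over `K` (instance form of lead's (H)). -/
theorem finiteType_sections_kScheme {K : Type u} [Field K] {C : Scheme.{u}} [KScheme K C]
    [LocallyOfFiniteType (KScheme.str (K := K) (X := C))] {U : C.Opens} (hU : IsAffineOpen U) :
    Algebra.FiniteType K Γ(C, U) :=
  finiteType_sections_of_locallyOfFiniteType (KScheme.str (K := K) (X := C)) hU

/-- `hA` of lead's (H): DVR localisations at maximal ideals. -/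
theorem isDiscreteValuationRing_localization_sections_kScheme (K : Type u) [Field K]
    {C : Scheme.{u}} [KScheme K C] [SmoothOfRelativeDimension 1 (KScheme.str (K := K) (X := C))]
    [IsIntegral C] {U : C.Opens} (hU : IsAffineOpen U) [Nonempty U]
    (𝔫 : Ideal Γ(C, U)) [𝔫.IsMaximal] : IsDiscreteValuationRing (Localization.AtPrime 𝔫) :=
  isDiscreteValuationRing_localization_sections (KScheme.str (K := K) (X := C)) hU 𝔫

end KSchemeForm

end Fermat.Agent.JAC
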