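/-
PROJECT JAC (S25) — TOP layer (D), helper9.

Translation of the Prelude's `Scheme.Modules`-level statement of S25
(`RepresentsRelSubPic c ε (algEquivZeroCut c ε) D`) into the cocycle model `LB`
(helper5, `Fermat.Agent.AV`), given the J0 bridge (helper1) as a hypothesis structure `ModBridge`.
-/
import Mathlib
import Fermat.Prelude.Def_AlgebraicGeometry_RelPicardAlgEquivZeroCut
import Fermat.Agent.AV.LB_helper5_Pic

set_option autoImplicit false

universe u

open CategoryTheory CategoryTheory.Limits AlgebraicGeometry AlgebraicGeometry.RelPicard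
  NeronModelInfra GoodReductionJacobian

namespace Fermat.Agent.JAC

open Fermat.Agent.AV

/-- The J0 bridge between invertible `Scheme.Modules` and the cocycle model `LB`,
as a hypothesis structure (to be instantiated by helper1's `BR_helper1_*`). -/
structure ModBridge : Type (u + 1) where
  /-- the sheaf of modules attached to a cocycle. -/
  toMod : ∀ {X : Scheme.{u}}, LB X → X.Modules
  isInvertible : ∀ {X : Scheme.{u}} (M : LB X), Scheme.Modules.IsInvertible (toMod M)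
  exists_lb : ∀ {X : Scheme.{u}} (N : X.Modules), Scheme.Modules.IsInvertible N →
    ∃ M : LB X, Nonempty (toMod M ≅ N)
  iso_iff : ∀ {X : Scheme.{u}} (M M' : LB X), Nonempty (toMod M ≅ toMod M') ↔ LB.Iso M M'
  pullback_iso : ∀ {X Y : Scheme.{u}} (φ : Y ⟶ X) (M : LB X),
    Nonempty ((Scheme.Modules.pullback φ).obj (toMod M) ≅ toMod (M.pullback φ))
  unit_iff : ∀ {X : Scheme.{u}} (M : LB X),
    Nonempty (toMod M ≅ SheafOfModules.unit X.ringCatSheaf) ↔ M.IsTrivial

namespace ModBridge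

variable (Br : ModBridge.{u})

/-- pull-back of a module isomorphic to `toMod M`. -/
theorem pullback_of_iso {X Y : Scheme.{u}} (φ : Y ⟶ X) {N : X.Modules} {M : LB X}
    (e : Nonempty (Br.toMod M ≅ N)) :
    Nonempty ((Scheme.Modules.pullback φ).obj N ≅ Br.toMod (M.pullback φ)) := by
  obtain ⟨e⟩ := e
  obtain ⟨e'⟩ := Br.pullback_iso φ M
  exact ⟨(Scheme.Modules.pullback φ).mapIso e.symm ≪≫ e'⟩

theorem isTrivial_pullback_iff {X Y : Scheme.{u}} (φ : Y ⟶ X) {N : X.Modules} {M : LB X}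
    (e : Nonempty (Br.toMod M ≅ N)) :
    Nonempty ((Scheme.Modules.pullback φ).obj N ≅ SheafOfModules.unit Y.ringCatSheaf) ↔
      (M.pullback φ).IsTrivial := by
  obtain ⟨e'⟩ := Br.pullback_of_iso φ e
  rw [← Br.unit_iff]
  exact ⟨fun ⟨i⟩ => ⟨e'.symm ≪≫ i⟩, fun ⟨i⟩ => ⟨e' ≪≫ i⟩⟩

theorem iso_pullback_iff {X Y Z : Scheme.{u}} (φ : Z ⟶ X) (ψ : Z ⟶ Y) {N : X.Modules} {M : LB X}
    {N' : Y.Modules} {M' : LB Y}
    (e : Nonempty (Br.toMod M ≅ N)) (e' : Nonempty (Br.toMod M' ≅ N')) :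
    Nonempty ((Scheme.Modules.pullback φ).obj N ≅ (Scheme.Modules.pullback ψ).obj N') ↔
      LB.Iso (M.pullback φ) (M'.pullback ψ) := by
  obtain ⟨a⟩ := Br.pullback_of_iso φ e
  obtain ⟨b⟩ := Br.pullback_of_iso ψ e'
  rw [← Br.iso_iff]
  exact ⟨fun ⟨i⟩ => ⟨a.symm ≪≫ i ≪≫ b⟩, fun ⟨i⟩ => ⟨a ≪≫ i ≪≫ b.symm⟩⟩

theorem iso_pullback_iff' {X Z : Scheme.{u}} (φ : Z ⟶ X) {N : X.Modules} {M : LB X}
    {N' : Z.Modules} {M' : LB Z}
    (e : Nonempty (Br.toMod M ≅ N)) (e' : Nonempty (Br.toMod M' ≅ N')) :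
    Nonempty ((Scheme.Modules.pullback φ).obj N ≅ N') ↔ LB.Iso (M.pullback φ) M' := by
  obtain ⟨a⟩ := Br.pullback_of_iso φ e
  obtain ⟨b⟩ := e'
  rw [← Br.iso_iff]
  exact ⟨fun ⟨i⟩ => ⟨a.symm ≪≫ i ≪≫ b.symm⟩, fun ⟨i⟩ => ⟨a ≪≫ i ≪≫ b⟩⟩

end ModBridge

/-! ### LB-level versions of the Prelude's notions -/

section defs

variable {R : Type u} [CommRing R]

/-- LB-level `IsAlgEquivZero`. -/
def LBIsAlgEquivZero {k : Type u} [Field k] {A : Scheme.{u}} (a : A ⟶ Spec (CommRingCat.of k))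
    (L : LB A) : Prop :=
  ∃ (T' : Scheme.{u}) (h : T' ⟶ Spec (CommRingCat.of k)) (_ : LocallyOfFiniteType h)
    (_ : GeometricallyIntegral h) (M : LB (pullback a h))
    (t₀ t₁ : SchemeHomOver (𝟙 (Spec (CommRingCat.of k))) h),
    (M.pullback (baseChangeSnd a t₀)).IsTrivial ∧
    LB.Iso (M.pullback (baseChangeSnd a t₁))
      (L.pullback (pullback.fst a (𝟙 (Spec (CommRingCat.of k)))))

variable {C : Scheme.{u}} (c : C ⟶ Spec (CommRingCat.of R))
  (ε : SchemeHomOver (𝟙 (Spec (CommRingCat.of R))) c)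

/-- LB-level rigidifiability along `ε`. -/
def LBRigidified {T : Scheme.{u}} (t : T ⟶ Spec (CommRingCat.of R)) (M : LB (pullback c t)) : Prop :=
  (M.pullback (rigSection c t ε)).IsTrivial

/-- LB-level `FibrewiseAlgEquivZero`. -/
def LBFibrewiseAE0 {T : Scheme.{u}} (t : T ⟶ Spec (CommRingCat.of R)) (M : LB (pullback c t)) :
    Prop :=
  ∀ (k : Type u) [Field k] [IsAlgClosed k] (s : Spec (CommRingCat.of k) ⟶ T),
    LBIsAlgEquivZero (fibreAt c t s) (M.pullback (pullback.fst (pullback.snd c t) s))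

/-- LB-level version of `RepresentsRelSubPic c ε (algEquivZeroCut c ε) D`. -/
structure LBRepresentsAE0 (D : RelativePic0Designation R c) : Type (u + 1) where
  P : LB (pullback c D.toBase)
  rig : LBRigidified c ε D.toBase P
  ae0 : LBFibrewiseAE0 c D.toBase P
  univ : ∀ {T : Scheme.{u}} (t : T ⟶ Spec (CommRingCat.of R)) (M : LB (pullback c t)),
    LBRigidified c ε t M → LBFibrewiseAE0 c t M →
    ∃! g : SchemeHomOver t D.toBase, LB.Iso (P.pullback (baseChangeSnd c g)) M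
  zero : (P.pullback (baseChangeSnd c
    (⟨D.zeroSection, D.zeroSection_toBase⟩ : SchemeHomOver (𝟙 _) D.toBase))).IsTrivial

end defs

/-! ### The translation -/

section translation

variable (Br : ModBridge.{u})

theorem isAlgEquivZero_iff {k : Type u} [Field k] {A : Scheme.{u}}
    (a : A ⟶ Spec (CommRingCat.of k)) {N : A.Modules} {L : LB A}
    (e : Nonempty (Br.toMod L ≅ N)) :
    IsAlgEquivZero a N ↔ LBIsAlgEquivZero a L := by
  constructor
  · rintro ⟨T', h, hft, hgi, M, hM, t₀, t₁, e₀, e₁⟩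
    obtain ⟨M', eM'⟩ := Br.exists_lb M hM
    refine ⟨T', h, hft, hgi, M', t₀, t₁, ?_, ?_⟩
    · exact (Br.isTrivial_pullback_iff _ eM').mp e₀
    · exact (Br.iso_pullback_iff _ _ eM' e).mp e₁
  · rintro ⟨T', h, hft, hgi, M', t₀, t₁, e₀, e₁⟩
    refine ⟨T', h, hft, hgi, Br.toMod M', Br.isInvertible M', t₀, t₁, ?_, ?_⟩
    · exact (Br.isTrivial_pullback_iff _ ⟨Iso.refl _⟩).mpr e₀
    · exact (Br.iso_pullback_iff _ _ ⟨Iso.refl _⟩ e).mpr e₁

variable {R : Type u} [CommRing R] {C : Scheme.{u}} {c : C ⟶ Spec (CommRingCat.of R)}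
  {ε : SchemeHomOver (𝟙 (Spec (CommRingCat.of R))) c}

theorem fibrewiseAlgEquivZero_iff {T : Scheme.{u}} {t : T ⟶ Spec (CommRingCat.of R)}
    (N : RigidifiedLineBundle c ε t) {M : LB (pullback c t)} (e : Nonempty (Br.toMod M ≅ N.L)) :
    FibrewiseAlgEquivZero N ↔ LBFibrewiseAE0 c t M := by
  constructor
  · intro h k _ _ s
    obtain ⟨e'⟩ := Br.pullback_of_iso (pullback.fst (pullback.snd c t) s) e
    exact (isAlgEquivZero_iff Br _ ⟨e'.symm⟩).mp (h k s)
  · intro h k _ _ s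
    obtain ⟨e'⟩ := Br.pullback_of_iso (pullback.fst (pullback.snd c t) s) e
    exact (isAlgEquivZero_iff Br _ ⟨e'.symm⟩).mpr (h k s)

theorem lbRigidified_of_iso {T : Scheme.{u}} {t : T ⟶ Spec (CommRingCat.of R)}
    (N : RigidifiedLineBundle c ε t) {M : LB (pullback c t)} (e : Nonempty (Br.toMod M ≅ N.L)) :
    LBRigidified c ε t M :=
  (Br.isTrivial_pullback_iff _ e).mp N.rigidified

/-- the rigidified line bundle attached to a rigidified cocycle. -/
noncomputable def ModBridge.toRig {T : Scheme.{u}} (t : T ⟶ Spec (CommRingCat.of R))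
    (M : LB (pullback c t)) (hM : LBRigidified c ε t M) : RigidifiedLineBundle c ε t where
  L := Br.toMod M
  isInvertible := Br.isInvertible M
  rigidified := (Br.isTrivial_pullback_iff _ ⟨Iso.refl _⟩).mpr hM

/-- **TOP (D)**: LB-level representability implies the Prelude's `RepresentsRelSubPic`. -/
theorem representsRelSubPic_of_lb (Br : ModBridge.{u}) {D : RelativePic0Designation R c}
    (h : LBRepresentsAE0 c ε D) :
    Nonempty (RepresentsRelSubPic c ε (algEquivZeroCut c ε) D) := by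
  refine ⟨{ poincare := Br.toRig D.toBase h.P h.rig
            poincare_mem := ?_
            univ := ?_
            zero := ?_ }⟩
  · exact (fibrewiseAlgEquivZero_iff Br (Br.toRig D.toBase h.P h.rig) ⟨Iso.refl _⟩).mpr h.ae0
  · intro T t M hM
    obtain ⟨M', eM'⟩ := Br.exists_lb M.L M.isInvertible
    have hrig : LBRigidified c ε t M' := lbRigidified_of_iso Br M eM'
    have hae : LBFibrewiseAE0 c t M' := (fibrewiseAlgEquivZero_iff Br M eM').mp hM
    obtain ⟨g, hg, huniq⟩ := h.univ t M' hrig hae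
    have key : ∀ g' : SchemeHomOver t D.toBase,
        Nonempty (((Br.toRig D.toBase h.P h.rig).pullbackAlong g').L ≅ M.L) ↔
          LB.Iso (h.P.pullback (baseChangeSnd c g')) M' := fun g' =>
      Br.iso_pullback_iff' (baseChangeSnd c g') ⟨Iso.refl _⟩ eM'
    exact ⟨g, (key g).mpr hg, fun g' hg' => huniq g' ((key g').mp hg')⟩
  · exact (Br.isTrivial_pullback_iff _ ⟨Iso.refl _⟩).mpr h.zero

end translation

end Fermat.Agent.JAC
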