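/-
PROJECT JAC — bricks (SMALL)+(SHEAF) (helper1) — **the small rigidified Picard functor.**

* `PointLB X` : cocycles indexed by the points of `X` (a `u`-small type), every cocycle is
  isomorphic to one of these, hence `Small.{u} (PicGroup X)`;
* `LBCond c` : a condition on cocycles on the `C ×ₛ T`, stable under isomorphism and base change
  and local on `T`;
* `picFunctor c ε Q : (Over S)ᵒᵖ ⥤ Type u` : the functor of isomorphism classes of cocycles on
  `C ×ₛ T` which are trivial along `ε` and satisfy `Q`;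
  `picFunctor.mk`, `picFunctor.mk_eq_mk_iff`, `picFunctor.exists_rep`, `picFunctor.map_mk`.
-/
import Mathlib
import Fermat.Agent.JAC.TOP_helper9_Bridge

set_option autoImplicit false

open AlgebraicGeometry CategoryTheory CategoryTheory.Limits Opposite TopologicalSpace
  AlgebraicGeometry.RelPicard NeronModelInfra

universe u

namespace Fermat.Agent.JAC

open Fermat.Agent.AV

noncomputable section

/-! ### Smallness of the Picard group -/

/-- cocycles indexed by the points of the scheme. -/
structure PointLB (X : Scheme.{u}) : Type u where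
  /-- the chart attached to a point -/
  U : X → X.Opens
  iSup_U : ⨆ x, U x = ⊤
  /-- the transition functions -/
  g : ∀ x y, Γ(X, U x ⊓ U y)
  g_self : ∀ x, g x x = 1
  cocycle : ∀ x y z,
    res (U x ⊓ U y ⊓ U z) inf_le_left (g x y) *
      res (U x ⊓ U y ⊓ U z) (le_inf (inf_le_left.trans inf_le_right) inf_le_right) (g y z) =
    res (U x ⊓ U y ⊓ U z) (le_inf (inf_le_left.trans inf_le_left) inf_le_right) (g x z)

/-- the underlying cocycle. -/
def PointLB.toLB {X : Scheme.{u}} (N : PointLB X) : LB X where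
  ι := X
  U := N.U
  iSup_U := N.iSup_U
  g := N.g
  g_self := N.g_self
  cocycle := N.cocycle

/-- every cocycle is isomorphic to a cocycle indexed by the points. -/
theorem exists_pointLB {X : Scheme.{u}} (M : LB X) : ∃ N : PointLB X, LB.Iso N.toLB M := by
  have hex : ∀ x : X, ∃ i, x ∈ M.U i := fun x => by
    have hx : x ∈ (⊤ : X.Opens) := trivial
    rw [← M.iSup_U] at hx
    exact Opens.mem_iSup.mp hx
  choose α hα using hex
  have hW : ⨆ x : X, M.U (α x) = ⊤ := by
    apply top_le_iff.mp
    intro x _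
    exact Opens.mem_iSup.mpr ⟨x, hα x⟩
  refine ⟨{
    U := fun x => M.U (α x)
    iSup_U := hW
    g := fun x y => M.g (α x) (α y)
    g_self := fun x => M.g_self (α x)
    cocycle := fun x y z => M.cocycle (α x) (α y) (α z) }, ⟨{
    κ := X
    W := fun x => M.U (α x)
    iSup_W := hW
    α := fun x => x
    β := α
    hα := fun _ => le_rfl
    hβ := fun _ => le_rfl
    f := fun _ => 1
    fi := fun _ => 1
    f_mul_fi := fun _ => mul_one 1
    compat := fun x y => by
      rw [map_one, map_one, one_mul, mul_one]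
      rfl }⟩⟩

instance small_picGroup (X : Scheme.{u}) : Small.{u} (PicGroup X) := by
  refine small_of_surjective (f := fun N : PointLB X => PicGroup.mk N.toLB) ?_
  intro x
  obtain ⟨M, rfl⟩ := PicGroup.mk_surjective x
  obtain ⟨N, hN⟩ := exists_pointLB M
  exact ⟨N, (PicGroup.mk_eq_mk_iff _ _).mpr hN⟩

/-! ### Conditions on cocycles -/

section

variable {k : Type u} [CommRing k] {C : Scheme.{u}} (c : C ⟶ Spec (CommRingCat.of k))
  (ε : SchemeHomOver (𝟙 (Spec (CommRingCat.of k))) c)

/-- a condition on the cocycles on the `C ×ₛ T`, stable under isomorphism and base change, and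
local on `T`. -/
structure LBCond where
  /-- the condition -/
  P : ∀ {T : Scheme.{u}} (t : T ⟶ Spec (CommRingCat.of k)), LB (pullback c t) → Prop
  iso : ∀ {T : Scheme.{u}} (t : T ⟶ Spec (CommRingCat.of k)) (M M' : LB (pullback c t)),
    LB.Iso M M' → P t M → P t M'
  baseChange : ∀ {T T' : Scheme.{u}} {t : T ⟶ Spec (CommRingCat.of k)}
    {t' : T' ⟶ Spec (CommRingCat.of k)} (ψ : SchemeHomOver t' t) (M : LB (pullback c t)),
    P t M → P t' (M.pullback (baseChangeSnd c ψ))
  isLocal : ∀ {T : Scheme.{u}} (t : T ⟶ Spec (CommRingCat.of k)) (M : LB (pullback c t))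
    (𝒰 : Set T.Opens), sSup 𝒰 = ⊤ →
    (∀ U ∈ 𝒰, P (U.ι ≫ t) (M.pullback (baseChangeSnd c (⟨U.ι, rfl⟩ : SchemeHomOver (U.ι ≫ t) t)))) →
    P t M

/-- the empty condition. -/
def LBCond.top : LBCond c where
  P _ _ := True
  iso _ _ _ _ _ := trivial
  baseChange _ _ _ := trivial
  isLocal _ _ _ _ _ := trivial

variable {c}

/-- rigidifiability is invariant under isomorphism. -/
theorem LBRigidified.of_iso {T : Scheme.{u}} {t : T ⟶ Spec (CommRingCat.of k)}
    {M M' : LB (pullback c t)} (h : LB.Iso M M') (hM : LBRigidified c ε t M) :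
    LBRigidified c ε t M' := by
  unfold LBRigidified at hM ⊢
  rw [← PicGroup.mk_eq_zero_iff] at hM ⊢
  rw [← hM]
  exact ((PicGroup.mk_eq_mk_iff _ _).mpr ⟨h.some.pullback _⟩).symm

/-- the pull-back of a trivial cocycle is trivial. -/
theorem LB.isTrivial_pullback_of_isTrivial {X Y : Scheme.{u}} (φ : Y ⟶ X) {M : LB X}
    (hM : M.IsTrivial) : (M.pullback φ).IsTrivial := by
  rw [← PicGroup.mk_eq_zero_iff] at hM ⊢
  rw [← PicGroup.map_mk, hM, map_zero]

/-- rigidifiability is stable under base change. -/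
theorem LBRigidified.pullback {T T' : Scheme.{u}} {t : T ⟶ Spec (CommRingCat.of k)}
    {t' : T' ⟶ Spec (CommRingCat.of k)} (ψ : SchemeHomOver t' t) {M : LB (pullback c t)}
    (hM : LBRigidified c ε t M) : LBRigidified c ε t' (M.pullback (baseChangeSnd c ψ)) := by
  unfold LBRigidified at hM ⊢
  have h1 : (M.pullback (baseChangeSnd c ψ)).pullback (rigSection c t' ε) =
      M.pullback (rigSection c t' ε ≫ baseChangeSnd c ψ) := rfl
  have h2 : (M.pullback (rigSection c t ε)).pullback ψ.1 =
      M.pullback (ψ.1 ≫ rigSection c t ε) := rfl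
  rw [h1, rigSection_baseChangeSnd c ε ψ, ← h2]
  exact LB.isTrivial_pullback_of_isTrivial ψ.1 hM

variable (c)

/-- the cut: classes of cocycles which are trivial along `ε` and satisfy `Q`. -/
def PicCut (Q : LBCond c) {T : Scheme.{u}} (t : T ⟶ Spec (CommRingCat.of k))
    (x : PicGroup (pullback c t)) : Prop :=
  ∃ M : LB (pullback c t), PicGroup.mk M = x ∧ LBRigidified c ε t M ∧ Q.P t M

variable {c ε}

theorem picCut_mk_iff (Q : LBCond c) {T : Scheme.{u}} (t : T ⟶ Spec (CommRingCat.of k))
    (M : LB (pullback c t)) :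
    PicCut c ε Q t (PicGroup.mk M) ↔ LBRigidified c ε t M ∧ Q.P t M := by
  constructor
  · rintro ⟨M', h, hr, hq⟩
    have hi : LB.Iso M' M := (PicGroup.mk_eq_mk_iff _ _).mp h
    exact ⟨LBRigidified.of_iso ε hi hr, Q.iso t M' M hi hq⟩
  · rintro ⟨hr, hq⟩
    exact ⟨M, rfl, hr, hq⟩

theorem PicCut.map (Q : LBCond c) {T T' : Scheme.{u}} {t : T ⟶ Spec (CommRingCat.of k)}
    {t' : T' ⟶ Spec (CommRingCat.of k)} (ψ : SchemeHomOver t' t)
    {x : PicGroup (pullback c t)} (hx : PicCut c ε Q t x) :
    PicCut c ε Q t' (PicGroup.map (baseChangeSnd c ψ) x) := by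
  obtain ⟨M, rfl, hr, hq⟩ := hx
  rw [PicGroup.map_mk]
  exact (picCut_mk_iff Q t' _).mpr ⟨LBRigidified.pullback ε ψ hr, Q.baseChange ψ M hq⟩

end

/-! ### The functor -/

section

variable {k : Type u} [CommRing k] {C : Scheme.{u}} (c : C ⟶ Spec (CommRingCat.of k))
  (ε : SchemeHomOver (𝟙 (Spec (CommRingCat.of k))) c) (Q : LBCond c)

/-- the values of the functor. -/
def PicObj (T : Over (Spec (CommRingCat.of k))) : Type u :=
  {x : Shrink.{u} (PicGroup (pullback c T.hom)) //
    PicCut c ε Q T.hom ((equivShrink (PicGroup (pullback c T.hom))).symm x)}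

variable {c ε Q}

/-- the class in the Picard group. -/
def PicObj.cls {T : Over (Spec (CommRingCat.of k))} (x : PicObj c ε Q T) :
    PicGroup (pullback c T.hom) :=
  (equivShrink (PicGroup (pullback c T.hom))).symm x.1

theorem PicObj.cls_cut {T : Over (Spec (CommRingCat.of k))} (x : PicObj c ε Q T) :
    PicCut c ε Q T.hom x.cls := x.2

/-- constructor from a class in the cut. -/
def PicObj.ofCls {T : Over (Spec (CommRingCat.of k))} (x : PicGroup (pullback c T.hom))
    (hx : PicCut c ε Q T.hom x) : PicObj c ε Q T :=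
  ⟨equivShrink _ x, by rw [Equiv.symm_apply_apply]; exact hx⟩

@[simp]
theorem PicObj.cls_ofCls {T : Over (Spec (CommRingCat.of k))} (x : PicGroup (pullback c T.hom))
    (hx : PicCut c ε Q T.hom x) : (PicObj.ofCls x hx).cls = x :=
  Equiv.symm_apply_apply _ _

theorem PicObj.ext {T : Over (Spec (CommRingCat.of k))} {x y : PicObj c ε Q T}
    (h : x.cls = y.cls) : x = y :=
  Subtype.ext ((equivShrink (PicGroup (pullback c T.hom))).symm.injective h)

/-- the structure morphism datum of a morphism of `Over S`. -/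
abbrev overHom {T' T : Over (Spec (CommRingCat.of k))} (f : T' ⟶ T) :
    SchemeHomOver T'.hom T.hom := ⟨f.left, Over.w f⟩

/-- the transition maps of the functor. -/
def PicObj.map {T' T : Over (Spec (CommRingCat.of k))} (f : T' ⟶ T) (x : PicObj c ε Q T) :
    PicObj c ε Q T' :=
  PicObj.ofCls (PicGroup.map (baseChangeSnd c (overHom f)) x.cls) (PicCut.map Q _ x.cls_cut)

@[simp]
theorem PicObj.cls_map {T' T : Over (Spec (CommRingCat.of k))} (f : T' ⟶ T)
    (x : PicObj c ε Q T) :
    (PicObj.map f x).cls = PicGroup.map (baseChangeSnd c (overHom f)) x.cls :=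
  PicObj.cls_ofCls _ _

variable (c ε Q)

/-- **the small rigidified Picard functor** cut out by `Q`. -/
def picFunctor : (Over (Spec (CommRingCat.of k)))ᵒᵖ ⥤ Type u where
  obj T := PicObj c ε Q T.unop
  map {T T'} f := TypeCat.ofHom (PicObj.map f.unop)
  map_id T := TypeCat.homEquiv.injective (funext fun x => by
    apply PicObj.ext
    show (PicObj.map (𝟙 T.unop) x).cls = x.cls
    rw [PicObj.cls_map]
    have h : baseChangeSnd c (overHom (𝟙 T.unop)) = 𝟙 (pullback c T.unop.hom) :=
      baseChangeSnd_id c T.unop.hom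
    rw [h, PicGroup.map_id])
  map_comp {T T' T''} f g := TypeCat.homEquiv.injective (funext fun x => by
    apply PicObj.ext
    show (PicObj.map (g.unop ≫ f.unop) x).cls = (PicObj.map g.unop (PicObj.map f.unop x)).cls
    rw [PicObj.cls_map, PicObj.cls_map, PicObj.cls_map]
    have h : baseChangeSnd c (overHom (g.unop ≫ f.unop)) =
        baseChangeSnd c (overHom g.unop) ≫ baseChangeSnd c (overHom f.unop) :=
      (baseChangeSnd_comp c (overHom f.unop) (overHom g.unop)).symm
    rw [h, PicGroup.map_comp])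

variable {c ε Q}

/-- the class of a cocycle. -/
def PicObj.mk {T : Over (Spec (CommRingCat.of k))} (M : LB (pullback c T.hom))
    (hrig : LBRigidified c ε T.hom M) (hQ : Q.P T.hom M) : PicObj c ε Q T :=
  PicObj.ofCls (PicGroup.mk M) ((picCut_mk_iff Q T.hom M).mpr ⟨hrig, hQ⟩)

@[simp]
theorem PicObj.cls_mk {T : Over (Spec (CommRingCat.of k))} (M : LB (pullback c T.hom))
    (hrig : LBRigidified c ε T.hom M) (hQ : Q.P T.hom M) :
    (PicObj.mk M hrig hQ : PicObj c ε Q T).cls = PicGroup.mk M :=
  PicObj.cls_ofCls _ _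

theorem PicObj.mk_eq_mk_iff {T : Over (Spec (CommRingCat.of k))}
    {M M' : LB (pullback c T.hom)} (hrig : LBRigidified c ε T.hom M) (hQ : Q.P T.hom M)
    (hrig' : LBRigidified c ε T.hom M') (hQ' : Q.P T.hom M') :
    (PicObj.mk M hrig hQ : PicObj c ε Q T) = PicObj.mk M' hrig' hQ' ↔ LB.Iso M M' := by
  rw [← PicGroup.mk_eq_mk_iff]
  constructor
  · intro h
    have h2 := congrArg PicObj.cls h
    rwa [PicObj.cls_mk, PicObj.cls_mk] at h2
  · intro h
    apply PicObj.ext
    rwa [PicObj.cls_mk, PicObj.cls_mk]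

theorem PicObj.exists_rep {T : Over (Spec (CommRingCat.of k))} (x : PicObj c ε Q T) :
    ∃ (M : LB (pullback c T.hom)) (hrig : LBRigidified c ε T.hom M) (hQ : Q.P T.hom M),
      x = PicObj.mk M hrig hQ := by
  obtain ⟨M, hM, hr, hq⟩ := PicObj.cls_cut x
  refine ⟨M, hr, hq, ?_⟩
  apply PicObj.ext
  rw [PicObj.cls_mk, hM]

theorem PicObj.map_mk {T T' : Over (Spec (CommRingCat.of k))} (f : T' ⟶ T)
    (M : LB (pullback c T.hom)) (hrig : LBRigidified c ε T.hom M) (hQ : Q.P T.hom M) :
    PicObj.map f (PicObj.mk M hrig hQ : PicObj c ε Q T) =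
      PicObj.mk (M.pullback (baseChangeSnd c (overHom f)))
        (LBRigidified.pullback ε (overHom f) hrig) (Q.baseChange (overHom f) M hQ) := by
  apply PicObj.ext
  rw [PicObj.cls_map, PicObj.cls_mk, PicObj.cls_mk, PicGroup.map_mk]

/-- the class of a cocycle, as an element of the functor. -/
def picFunctor.mk {T : Over (Spec (CommRingCat.of k))} (M : LB (pullback c T.hom))
    (hrig : LBRigidified c ε T.hom M) (hQ : Q.P T.hom M) : (picFunctor c ε Q).obj (op T) :=
  PicObj.mk M hrig hQ

theorem picFunctor.mk_eq_mk_iff {T : Over (Spec (CommRingCat.of k))}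
    {M M' : LB (pullback c T.hom)} (hrig : LBRigidified c ε T.hom M) (hQ : Q.P T.hom M)
    (hrig' : LBRigidified c ε T.hom M') (hQ' : Q.P T.hom M') :
    (picFunctor.mk M hrig hQ : (picFunctor c ε Q).obj (op T)) = picFunctor.mk M' hrig' hQ' ↔
      LB.Iso M M' :=
  PicObj.mk_eq_mk_iff hrig hQ hrig' hQ'

theorem picFunctor.exists_rep {T : Over (Spec (CommRingCat.of k))}
    (x : (picFunctor c ε Q).obj (op T)) :
    ∃ (M : LB (pullback c T.hom)) (hrig : LBRigidified c ε T.hom M) (hQ : Q.P T.hom M),
      x = picFunctor.mk M hrig hQ :=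
  PicObj.exists_rep (T := T) x

theorem picFunctor.map_mk {T T' : Over (Spec (CommRingCat.of k))} (f : T' ⟶ T)
    (M : LB (pullback c T.hom)) (hrig : LBRigidified c ε T.hom M) (hQ : Q.P T.hom M) :
    (picFunctor c ε Q).map f.op (picFunctor.mk M hrig hQ) =
      picFunctor.mk (M.pullback (baseChangeSnd c (overHom f)))
        (LBRigidified.pullback ε (overHom f) hrig) (Q.baseChange (overHom f) M hQ) :=
  PicObj.map_mk f M hrig hQ

end

end

end Fermat.Agent.JAC
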