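/-
PROJECT JAC — bricks (SMALL)+(SHEAF) (helper1) — **the fibrewise condition "algebraically
equivalent to zero" as an `LBCond`.**

* `LBIsAlgEquivZero.of_iso`, `LBIsAlgEquivZero.pullback` : LB-level versions of the Prelude's
  `IsAlgEquivZero.of_iso`, `IsAlgEquivZero.pullback`;
* `LBFibrewiseAE0.of_iso`, `LBFibrewiseAE0.pullback`, `LBFibrewiseAE0.of_locally`;
* `LBCond.ae0 c : LBCond c`.
-/
import Mathlib
import Fermat.Agent.JAC.SH_helper1_Functor

set_option autoImplicit false

open AlgebraicGeometry CategoryTheory CategoryTheory.Limits Opposite TopologicalSpace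
  AlgebraicGeometry.RelPicard NeronModelInfra

universe u

namespace Fermat.Agent.JAC

open Fermat.Agent.AV

noncomputable section

theorem LBIsAlgEquivZero.of_iso {k : Type u} [Field k] {A : Scheme.{u}}
    {a : A ⟶ Spec (CommRingCat.of k)} {L L' : LB A} (e : LB.Iso L L')
    (hL : LBIsAlgEquivZero a L) : LBIsAlgEquivZero a L' := by
  obtain ⟨T', h, hft, hgi, M, t₀, t₁, h₀, h₁⟩ := hL
  exact ⟨T', h, hft, hgi, M, t₀, t₁, h₀, h₁.trans ⟨e.some.pullback _⟩⟩

theorem LBIsAlgEquivZero.pullback {k : Type u} [Field k] {A A' : Scheme.{u}}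
    {a : A ⟶ Spec (CommRingCat.of k)} {a' : A' ⟶ Spec (CommRingCat.of k)} (e : A' ⟶ A)
    (he : e ≫ a = a') {L : LB A} (hL : LBIsAlgEquivZero a L) :
    LBIsAlgEquivZero a' (L.pullback e) := by
  obtain ⟨T', h, hft, hgi, M, t₀, t₁, h₀, h₁⟩ := hL
  let eT : Limits.pullback a' h ⟶ Limits.pullback a h :=
    pullback.map a' h a h e (𝟙 T') (𝟙 _) (by rw [Category.comp_id, he]) (by simp)
  let e1 : Limits.pullback a' (𝟙 (Spec (CommRingCat.of k))) ⟶
      Limits.pullback a (𝟙 (Spec (CommRingCat.of k))) :=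
    pullback.map a' (𝟙 _) a (𝟙 _) e (𝟙 _) (𝟙 _) (by rw [Category.comp_id, he]) (by simp)
  have hsq : ∀ tt : SchemeHomOver (𝟙 (Spec (CommRingCat.of k))) h,
      baseChangeSnd a' tt ≫ eT = e1 ≫ baseChangeSnd a tt := by
    intro tt
    apply pullback.hom_ext <;>
      simp only [eT, e1, baseChangeSnd, Category.assoc, pullback.lift_fst, pullback.lift_snd,
        pullback.lift_fst_assoc, pullback.lift_snd_assoc, Category.comp_id]
  have hfst : e1 ≫ pullback.fst a (𝟙 _) = pullback.fst a' (𝟙 _) ≫ e := by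
    simp only [e1, pullback.lift_fst]
  refine ⟨T', h, hft, hgi, M.pullback eT, t₀, t₁, ?_, ?_⟩
  · have h1 : (M.pullback eT).pullback (baseChangeSnd a' t₀) =
        (M.pullback (baseChangeSnd a t₀)).pullback e1 := by
      show M.pullback (baseChangeSnd a' t₀ ≫ eT) = M.pullback (e1 ≫ baseChangeSnd a t₀)
      rw [hsq]
    rw [h1]
    exact LB.isTrivial_pullback_of_isTrivial e1 h₀
  · have h1 : (M.pullback eT).pullback (baseChangeSnd a' t₁) =
        (M.pullback (baseChangeSnd a t₁)).pullback e1 := by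
      show M.pullback (baseChangeSnd a' t₁ ≫ eT) = M.pullback (e1 ≫ baseChangeSnd a t₁)
      rw [hsq]
    have h2 : (L.pullback e).pullback (pullback.fst a' (𝟙 (Spec (CommRingCat.of k)))) =
        (L.pullback (pullback.fst a (𝟙 (Spec (CommRingCat.of k))))).pullback e1 := by
      show L.pullback (pullback.fst a' (𝟙 _) ≫ e) = L.pullback (e1 ≫ pullback.fst a (𝟙 _))
      rw [hfst]
    rw [h1, h2]
    exact ⟨h₁.some.pullback e1⟩

section

variable {R : Type u} [CommRing R] {C : Scheme.{u}} (c : C ⟶ Spec (CommRingCat.of R))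

variable {c} in
theorem LBFibrewiseAE0.of_iso {T : Scheme.{u}} {t : T ⟶ Spec (CommRingCat.of R)}
    {M M' : LB (pullback c t)} (h : LB.Iso M M') (hM : LBFibrewiseAE0 c t M) :
    LBFibrewiseAE0 c t M' := by
  intro k _ _ s
  exact (hM k s).of_iso ⟨h.some.pullback _⟩

variable {c} in
theorem LBFibrewiseAE0.pullback {T T' : Scheme.{u}} {t : T ⟶ Spec (CommRingCat.of R)}
    {t' : T' ⟶ Spec (CommRingCat.of R)} (ψ : SchemeHomOver t' t) {M : LB (pullback c t)}
    (hM : LBFibrewiseAE0 c t M) : LBFibrewiseAE0 c t' (M.pullback (baseChangeSnd c ψ)) := by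
  intro k _ _ s'
  have hψ : pullback.snd c t' ≫ ψ.1 = baseChangeSnd c ψ ≫ pullback.snd c t := by
    simp only [baseChangeSnd, pullback.lift_snd]
  let e : Limits.pullback (pullback.snd c t') s' ⟶
      Limits.pullback (pullback.snd c t) (s' ≫ ψ.1) :=
    pullback.map _ _ _ _ (baseChangeSnd c ψ) (𝟙 _) ψ.1 hψ (by simp)
  have he : e ≫ fibreAt c t (s' ≫ ψ.1) = fibreAt c t' s' := by
    simp only [e, fibreAt, pullback.lift_snd, Category.comp_id]
  have hfst : e ≫ pullback.fst (pullback.snd c t) (s' ≫ ψ.1) =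
      pullback.fst (pullback.snd c t') s' ≫ baseChangeSnd c ψ := by
    simp only [e, pullback.lift_fst]
  have h1 := (hM k (s' ≫ ψ.1)).pullback e he
  have h2 : (M.pullback (pullback.fst (pullback.snd c t) (s' ≫ ψ.1))).pullback e =
      (M.pullback (baseChangeSnd c ψ)).pullback (pullback.fst (pullback.snd c t') s') := by
    show M.pullback (e ≫ pullback.fst (pullback.snd c t) (s' ≫ ψ.1)) =
      M.pullback (pullback.fst (pullback.snd c t') s' ≫ baseChangeSnd c ψ)
    rw [hfst]
  rw [h2] at h1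
  exact h1

/-- the condition is local on the base. -/
theorem LBFibrewiseAE0.of_locally {T : Scheme.{u}} (t : T ⟶ Spec (CommRingCat.of R))
    (M : LB (Limits.pullback c t)) (𝒰 : Set T.Opens) (h𝒰 : sSup 𝒰 = ⊤)
    (h : ∀ U : T.Opens, U ∈ 𝒰 → LBFibrewiseAE0 c (U.ι ≫ t)
      (M.pullback (baseChangeSnd c (⟨U.ι, rfl⟩ : SchemeHomOver (U.ι ≫ t) t)))) :
    LBFibrewiseAE0 c t M := by
  intro k _ _ s
  have : Subsingleton (Spec (CommRingCat.of k)) :=
    inferInstanceAs (Subsingleton (PrimeSpectrum k))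
  have : Nonempty (Spec (CommRingCat.of k)) :=
    inferInstanceAs (Nonempty (PrimeSpectrum k))
  let y₀ : Spec (CommRingCat.of k) := Classical.arbitrary _
  have hx : s y₀ ∈ (⊤ : T.Opens) := trivial
  rw [← h𝒰] at hx
  obtain ⟨U, hU, hxU⟩ : ∃ U : T.Opens, U ∈ 𝒰 ∧ s y₀ ∈ U := Opens.mem_sSup.mp hx
  have hrange : Set.range s ⊆ Set.range U.ι := by
    rintro _ ⟨y, rfl⟩
    rw [Subsingleton.elim y y₀, Scheme.Opens.range_ι]
    exact hxU
  let sU : Spec (CommRingCat.of k) ⟶ U.toScheme := IsOpenImmersion.lift U.ι s hrange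
  have hsU : sU ≫ U.ι = s := IsOpenImmersion.lift_fac U.ι s hrange
  set ψ : SchemeHomOver (U.ι ≫ t) t := ⟨U.ι, rfl⟩ with hψ
  have h0 := h U hU k sU
  -- the comparison of the fibres
  have hc1 : (pullback.fst (pullback.snd c t) s ≫ pullback.fst c t) ≫ c =
      (pullback.snd (pullback.snd c t) s ≫ sU) ≫ U.ι ≫ t := by
    rw [Category.assoc, pullback.condition, ← Category.assoc, pullback.condition,
      Category.assoc, Category.assoc, ← Category.assoc sU, hsU]
  let d₀ : Limits.pullback (pullback.snd c t) s ⟶ Limits.pullback c (U.ι ≫ t) :=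
    pullback.lift (pullback.fst (pullback.snd c t) s ≫ pullback.fst c t)
      (pullback.snd (pullback.snd c t) s ≫ sU) hc1
  have hc2 : d₀ ≫ pullback.snd c (U.ι ≫ t) = pullback.snd (pullback.snd c t) s ≫ sU :=
    pullback.lift_snd _ _ _
  let d : Limits.pullback (pullback.snd c t) s ⟶
      Limits.pullback (pullback.snd c (U.ι ≫ t)) sU :=
    pullback.lift d₀ (pullback.snd (pullback.snd c t) s) hc2
  have hd : d ≫ fibreAt c (U.ι ≫ t) sU = fibreAt c t s := by
    simp only [d, fibreAt, pullback.lift_snd]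
  have h1 := h0.pullback d hd
  have hfst : d ≫ pullback.fst (pullback.snd c (U.ι ≫ t)) sU ≫ baseChangeSnd c ψ =
      pullback.fst (pullback.snd c t) s := by
    rw [← Category.assoc]
    have : d ≫ pullback.fst (pullback.snd c (U.ι ≫ t)) sU = d₀ := pullback.lift_fst _ _ _
    rw [this]
    apply pullback.hom_ext
    · simp only [d₀, baseChangeSnd, Category.assoc, pullback.lift_fst, Category.comp_id]
    · simp only [d₀, baseChangeSnd, Category.assoc, pullback.lift_snd, pullback.lift_snd_assoc]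
      rw [hψ]
      show pullback.snd (pullback.snd c t) s ≫ sU ≫ U.ι = _
      rw [hsU, pullback.condition]
  have h2 : ((M.pullback (baseChangeSnd c ψ)).pullback
      (pullback.fst (pullback.snd c (U.ι ≫ t)) sU)).pullback d =
      M.pullback (pullback.fst (pullback.snd c t) s) := by
    show M.pullback (d ≫ pullback.fst (pullback.snd c (U.ι ≫ t)) sU ≫ baseChangeSnd c ψ) = _
    rw [hfst]
  rw [h2] at h1
  exact h1

/-- **the condition "fibrewise algebraically equivalent to zero".** -/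
def LBCond.ae0 : LBCond c where
  P t M := LBFibrewiseAE0 c t M
  iso _ _ _ h hM := LBFibrewiseAE0.of_iso h hM
  baseChange ψ _ hM := LBFibrewiseAE0.pullback ψ hM
  isLocal t M 𝒰 h𝒰 h := LBFibrewiseAE0.of_locally c t M 𝒰 h𝒰 h

@[simp]
theorem LBCond.ae0_P {T : Scheme.{u}} (t : T ⟶ Spec (CommRingCat.of R)) (M : LB (pullback c t)) :
    (LBCond.ae0 c).P t M ↔ LBFibrewiseAE0 c t M := Iff.rfl

end

end

end Fermat.Agent.JAC
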