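/-
PROJECT JAC — brick (RIG-TWIST) (helper1) — **rigidification by twisting with a line bundle from
the base.**

For `M` on `C ×ₛ T` the twist `M ⊗ q^* (e^* M)⁻¹` (`q` the projection to `T`, `e` the section
induced by `ε`) is trivial along `e`; the twist is invisible on every fibre over a field-valued
point, and commutes with base change.
-/
import Mathlib
import Fermat.Agent.JAC.SH_helper1_Functor
import Fermat.Agent.JAC.SH_helper1_AE0

set_option autoImplicit false

open AlgebraicGeometry CategoryTheory CategoryTheory.Limits Opposite TopologicalSpace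
  AlgebraicGeometry.RelPicard NeronModelInfra

universe u

namespace Fermat.Agent.JAC

open Fermat.Agent.AV

noncomputable section

/-- tensoring with a trivial cocycle does not change the class. -/
theorem LB.iso_tensor_of_isTrivial {X : Scheme.{u}} (M N : LB X) (hN : N.IsTrivial) :
    LB.Iso (M.tensor N) M := by
  rw [← PicGroup.mk_eq_mk_iff, PicGroup.mk_tensor, (PicGroup.mk_eq_zero_iff N).mpr hN, add_zero]

/-- a cocycle pulled back from the spectrum of a field is trivial. -/
theorem LB.isTrivial_pullback_of_field {A B : Scheme.{u}} {κ : Type u} [Field κ]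
    (N : LB B) (f : A ⟶ B) (a : A ⟶ Spec (CommRingCat.of κ)) (s : Spec (CommRingCat.of κ) ⟶ B)
    (hf : f = a ≫ s) : (N.pullback f).IsTrivial := by
  subst hf
  have h1 : N.pullback (a ≫ s) = (N.pullback s).pullback a := rfl
  rw [h1]
  refine LB.isTrivial_pullback_of_isTrivial a ?_
  rw [← PicGroup.mk_eq_zero_iff]
  exact PicGroup.eq_zero_of_field κ _

section

variable {k : Type u} [CommRing k] {C : Scheme.{u}} (c : C ⟶ Spec (CommRingCat.of k))
  (ε : SchemeHomOver (𝟙 (Spec (CommRingCat.of k))) c)

omit ε in
theorem rigSection_comp_snd (ε : SchemeHomOver (𝟙 (Spec (CommRingCat.of k))) c) {T : Scheme.{u}}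
    (t : T ⟶ Spec (CommRingCat.of k)) : rigSection c t ε ≫ pullback.snd c t = 𝟙 T := by
  unfold rigSection
  exact pullback.lift_snd _ _ _

/-- the twist of `M` by the pull-back of the inverse of its restriction along the section. -/
def LB.rigTwist {T : Scheme.{u}} (t : T ⟶ Spec (CommRingCat.of k)) (M : LB (pullback c t)) :
    LB (pullback c t) :=
  M.tensor (((M.pullback (rigSection c t ε)).inv).pullback (pullback.snd c t))

variable {c ε}

/-- the twist is trivial along the section. -/
theorem lbRigidified_rigTwist {T : Scheme.{u}} (t : T ⟶ Spec (CommRingCat.of k))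
    (M : LB (pullback c t)) : LBRigidified c ε t (LB.rigTwist c ε t M) := by
  unfold LBRigidified LB.rigTwist
  rw [← PicGroup.mk_eq_zero_iff, ← PicGroup.map_mk, PicGroup.mk_tensor, map_add,
    PicGroup.map_mk, PicGroup.map_mk]
  have h1 : (((M.pullback (rigSection c t ε)).inv).pullback (pullback.snd c t)).pullback
      (rigSection c t ε) =
      ((M.pullback (rigSection c t ε)).inv).pullback (rigSection c t ε ≫ pullback.snd c t) := rfl
  rw [h1, rigSection_comp_snd]
  have h2 : PicGroup.mk (((M.pullback (rigSection c t ε)).inv).pullback (𝟙 T)) =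
      - PicGroup.mk (M.pullback (rigSection c t ε)) := by
    rw [← PicGroup.map_mk, PicGroup.map_id, PicGroup.mk_inv]
  rw [h2, add_neg_cancel]

/-- a rigidified cocycle is not changed by the twist. -/
theorem rigTwist_iso_of_rigidified {T : Scheme.{u}} (t : T ⟶ Spec (CommRingCat.of k))
    (M : LB (pullback c t)) (hM : LBRigidified c ε t M) : LB.Iso (LB.rigTwist c ε t M) M := by
  refine LB.iso_tensor_of_isTrivial M _ (LB.isTrivial_pullback_of_isTrivial _ ?_)
  rw [← PicGroup.mk_eq_zero_iff, PicGroup.mk_inv, (PicGroup.mk_eq_zero_iff _).mpr hM, neg_zero]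

/-- a twist by a cocycle from the base is invisible on the fibres over field-valued points. -/
theorem iso_pullback_tensor_pullback_of_field {T A : Scheme.{u}}
    (t : T ⟶ Spec (CommRingCat.of k)) (M : LB (pullback c t)) (N : LB T) {κ : Type u} [Field κ]
    (p : A ⟶ pullback c t) (a : A ⟶ Spec (CommRingCat.of κ)) (s : Spec (CommRingCat.of κ) ⟶ T)
    (h : p ≫ pullback.snd c t = a ≫ s) :
    LB.Iso ((M.tensor (N.pullback (pullback.snd c t))).pullback p) (M.pullback p) := by
  have h1 : LB.Iso ((M.tensor (N.pullback (pullback.snd c t))).pullback p)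
      ((M.pullback p).tensor ((N.pullback (pullback.snd c t)).pullback p)) :=
    ⟨LB.IsoData.pullbackTensor p M _⟩
  refine h1.trans (LB.iso_tensor_of_isTrivial _ _ ?_)
  have h2 : (N.pullback (pullback.snd c t)).pullback p = N.pullback (p ≫ pullback.snd c t) := rfl
  rw [h2]
  exact LB.isTrivial_pullback_of_field N _ a s h

/-- the rigidifying twist is invisible on the fibres over field-valued points. -/
theorem iso_pullback_rigTwist_of_field {T A : Scheme.{u}} (t : T ⟶ Spec (CommRingCat.of k))
    (M : LB (pullback c t)) {κ : Type u} [Field κ] (p : A ⟶ pullback c t)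
    (a : A ⟶ Spec (CommRingCat.of κ)) (s : Spec (CommRingCat.of κ) ⟶ T)
    (h : p ≫ pullback.snd c t = a ≫ s) :
    LB.Iso ((LB.rigTwist c ε t M).pullback p) (M.pullback p) :=
  iso_pullback_tensor_pullback_of_field t M _ p a s h

omit ε in
theorem baseChangeSnd_snd {T T' : Scheme.{u}} {t : T ⟶ Spec (CommRingCat.of k)}
    {t' : T' ⟶ Spec (CommRingCat.of k)} (ψ : SchemeHomOver t' t) :
    baseChangeSnd c ψ ≫ pullback.snd c t = pullback.snd c t' ≫ ψ.1 := by
  simp only [baseChangeSnd, pullback.lift_snd]

/-- the rigidifying twist commutes with base change. -/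
theorem rigTwist_pullback_iso {T T' : Scheme.{u}} {t : T ⟶ Spec (CommRingCat.of k)}
    {t' : T' ⟶ Spec (CommRingCat.of k)} (ψ : SchemeHomOver t' t) (M : LB (pullback c t)) :
    LB.Iso ((LB.rigTwist c ε t M).pullback (baseChangeSnd c ψ))
      (LB.rigTwist c ε t' (M.pullback (baseChangeSnd c ψ))) := by
  unfold LB.rigTwist
  rw [← PicGroup.mk_eq_mk_iff, ← PicGroup.map_mk, PicGroup.mk_tensor, map_add, PicGroup.mk_tensor,
    PicGroup.map_mk, PicGroup.map_mk]
  congr 1
  -- both sides are the pull-back of `(e^* M)⁻¹` along the same morphism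
  have h1 : (((M.pullback (rigSection c t ε)).inv).pullback (pullback.snd c t)).pullback
      (baseChangeSnd c ψ) =
      ((M.pullback (rigSection c t ε)).inv).pullback (pullback.snd c t' ≫ ψ.1) := by
    show ((M.pullback (rigSection c t ε)).inv).pullback
      (baseChangeSnd c ψ ≫ pullback.snd c t) = _
    rw [baseChangeSnd_snd]
  rw [h1]
  have h2 : (M.pullback (baseChangeSnd c ψ)).pullback (rigSection c t' ε) =
      (M.pullback (rigSection c t ε)).pullback ψ.1 := by
    show M.pullback (rigSection c t' ε ≫ baseChangeSnd c ψ) =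
      M.pullback (ψ.1 ≫ rigSection c t ε)
    rw [rigSection_baseChangeSnd]
  rw [h2]
  rw [← PicGroup.map_mk (pullback.snd c t' ≫ ψ.1), ← PicGroup.map_mk (pullback.snd c t'),
    PicGroup.mk_inv, PicGroup.mk_inv, map_neg, map_neg, PicGroup.map_comp, PicGroup.map_mk ψ.1]

/-- the condition is not changed by a twist with a cocycle from the base. -/
class LBCond.IsTwistInvariant (Q : LBCond c) : Prop where
  twist : ∀ {T : Scheme.{u}} (t : T ⟶ Spec (CommRingCat.of k)) (M : LB (pullback c t))
    (N : LB T), Q.P t M → Q.P t (M.tensor (N.pullback (pullback.snd c t)))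

instance : (LBCond.top c).IsTwistInvariant where
  twist _ _ _ _ := trivial

instance : (LBCond.ae0 c).IsTwistInvariant where
  twist t M N hM := by
    intro κ _ _ s
    refine LBIsAlgEquivZero.of_iso ?_ (hM κ s)
    exact (iso_pullback_tensor_pullback_of_field t M N (pullback.fst (pullback.snd c t) s)
      (pullback.snd (pullback.snd c t) s) s pullback.condition).symm

/-- the class of the rigidifying twist of a cocycle satisfying a twist-invariant condition. -/
def picFunctor.mkTwist {Q : LBCond c} [Q.IsTwistInvariant] {T : Over (Spec (CommRingCat.of k))}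
    (M : LB (pullback c T.hom)) (hQ : Q.P T.hom M) : (picFunctor c ε Q).obj (op T) :=
  picFunctor.mk (LB.rigTwist c ε T.hom M) (lbRigidified_rigTwist T.hom M)
    (LBCond.IsTwistInvariant.twist T.hom M _ hQ)

theorem picFunctor.mkTwist_eq_mk {Q : LBCond c} [Q.IsTwistInvariant]
    {T : Over (Spec (CommRingCat.of k))} (M : LB (pullback c T.hom))
    (hrig : LBRigidified c ε T.hom M) (hQ : Q.P T.hom M) :
    (picFunctor.mkTwist M hQ : (picFunctor c ε Q).obj (op T)) = picFunctor.mk M hrig hQ :=
  (picFunctor.mk_eq_mk_iff _ _ _ _).mpr (rigTwist_iso_of_rigidified T.hom M hrig)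

theorem picFunctor.map_mkTwist {Q : LBCond c} [Q.IsTwistInvariant]
    {T T' : Over (Spec (CommRingCat.of k))} (f : T' ⟶ T) (M : LB (pullback c T.hom))
    (hQ : Q.P T.hom M) :
    (picFunctor c ε Q).map f.op (picFunctor.mkTwist M hQ) =
      picFunctor.mkTwist (M.pullback (baseChangeSnd c (overHom f)))
        (Q.baseChange (overHom f) M hQ) :=
  (picFunctor.map_mk f _ _ _).trans
    ((picFunctor.mk_eq_mk_iff _ _ _ _).mpr (rigTwist_pullback_iso (overHom f) M))

end

end

end Fermat.Agent.JAC
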