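/-
PROJECT JAC (S25) — brick (REP), helper9: interface.

A wrapper around Mathlib's `AlgebraicGeometry.Scheme.LocalRepresentability`:
a presheaf `F` on `Over S` which is a Zariski sheaf (open-subset form) and is covered by
representable open subfunctors (charts) is representable by an `S`-scheme glued from the charts.
-/
import Mathlib

set_option autoImplicit false

universe u

open CategoryTheory CategoryTheory.Limits AlgebraicGeometry Opposite

namespace Fermat.Agent.JAC.REP

variable {S : Scheme.{u}}

/-- the `S`-scheme `U ⟶ T ⟶ S` for an open `U` of an `S`-scheme `T`. -/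
noncomputable def resOpen (T : Over S) (U : T.left.Opens) : Over S := Over.mk (U.ι ≫ T.hom)

/-- the inclusion `U ⟶ T` over `S`. -/
noncomputable def resHom (T : Over S) (U : T.left.Opens) : resOpen T U ⟶ T := Over.homMk U.ι rfl

/-- the inclusion `U ⟶ V` over `S` for opens `U ≤ V` of `T`. -/
noncomputable def resLE (T : Over S) {U V : T.left.Opens} (h : U ≤ V) : resOpen T U ⟶ resOpen T V :=
  Over.homMk (T.left.homOfLE h) (by
    show T.left.homOfLE h ≫ V.ι ≫ T.hom = U.ι ≫ T.hom
    rw [← Category.assoc, Scheme.homOfLE_ι])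

variable (F : (Over S)ᵒᵖ ⥤ Type u)

/-- The Zariski sheaf condition, in the open-subset form: for every `S`-scheme `T` and every set
`𝒰` of opens of `T` with `sSup 𝒰 = ⊤`, sections are determined by their restrictions to the
members of `𝒰`, and families compatible on the pairwise intersections glue. -/
structure IsZariskiSheaf : Prop where
  sep : ∀ (T : Over S) (𝒰 : Set T.left.Opens), sSup 𝒰 = ⊤ → ∀ a b : F.obj (op T),
    (∀ U ∈ 𝒰, F.map (resHom T U).op a = F.map (resHom T U).op b) → a = b
  glue : ∀ (T : Over S) (𝒰 : Set T.left.Opens), sSup 𝒰 = ⊤ →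
    ∀ x : ∀ U ∈ 𝒰, F.obj (op (resOpen T U)),
    (∀ (U : T.left.Opens) (hU : U ∈ 𝒰) (V : T.left.Opens) (hV : V ∈ 𝒰),
      F.map (resLE T (inf_le_left : U ⊓ V ≤ U)).op (x U hU) =
        F.map (resLE T (inf_le_right : U ⊓ V ≤ V)).op (x V hV)) →
    ∃ a : F.obj (op T), ∀ U (hU : U ∈ 𝒰), F.map (resHom T U).op a = x U hU

/-- A family of charts: `S`-schemes `X i` with classes `ξ i ∈ F (X i)` such that
(mono) a morphism into `X i` is determined by the pull-back of `ξ i`,
(open) for every `(T, η)` there is an open `W i T η ⊆ T` such that an AFFINE `T' ⟶ T` factors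
through it iff the pull-back of `η` to `T'` is a pull-back of `ξ i`,
(cover) the opens `W i T η` cover `T`. -/
structure ChartData where
  ι : Type u
  X : ι → Over S
  ξ : ∀ i, F.obj (op (X i))
  mono : ∀ (i : ι) (T : Over S), IsAffine T.left → ∀ b b' : T ⟶ X i,
    F.map b.op (ξ i) = F.map b'.op (ξ i) → b = b'
  W : ∀ (_ : ι) (T : Over S), F.obj (op T) → T.left.Opens
  W_spec : ∀ (i : ι) (T : Over S) (η : F.obj (op T)) (T' : Over S), IsAffine T'.left →
    ∀ a : T' ⟶ T, (Set.range a.left.base ⊆ (W i T η : Set T.left)) ↔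
      ∃ b : T' ⟶ X i, F.map b.op (ξ i) = F.map a.op η
  cover : ∀ (T : Over S) (η : F.obj (op T)), ⨆ i, W i T η = ⊤

/-- The conclusion of (REP): a representing `S`-scheme with universal class, covered by the
charts. -/
structure Representation (D : ChartData F) where
  J : Over S
  ξ : F.obj (op J)
  univ : ∀ (T : Over S) (η : F.obj (op T)), ∃! g : T ⟶ J, F.map g.op ξ = η
  j : ∀ i, D.X i ⟶ J
  j_open : ∀ i, IsOpenImmersion (j i).left
  j_ξ : ∀ i, F.map (j i).op ξ = D.ξ i
  j_cover : ∀ x : J.left, ∃ i, x ∈ Set.range (j i).left.base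

end Fermat.Agent.JAC.REP
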