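/-
PROJECT JAC — brick J0 (helper1) — **invertible modules are sheaves of sections of cocycles.**

* `LB.isInvertible_toModules` : `toModules M` is invertible (Prelude's `Scheme.Modules.IsInvertible`);
* `exists_frame_of_isInvertible` : an invertible module has local frames;
* `LB.ofFrames` : the cocycle of a module with local frames, `LB.ofFramesIso`;
* `exists_LB_of_isInvertible` (item (b)) : every invertible module is `toModules M` for some `M`.
-/
import Mathlib
import Fermat.Agent.JAC.BR_helper1_Pullback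
import Fermat.Prelude.Def_AlgebraicGeometry_RelativePicardFunctor

set_option autoImplicit false

open AlgebraicGeometry CategoryTheory Opposite TopologicalSpace

universe u

namespace Fermat.Agent.JAC

open Fermat.Agent.AV

noncomputable section

variable {X : Scheme.{u}}

/-- the pull-back of `M` to one of its charts is trivial. -/
theorem LB.isTrivial_pullback_chart (M : LB X) (i : M.ι) : (M.pullback (M.U i).ι).IsTrivial := by
  rw [← LB.isTrivialOn_top_iff]
  refine ⟨((M.chartFrame i le_rfl).pullback (M.U i).ι).restrict (by simp), fun j => ?_⟩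
  have h1 : IsUnit (appInf (M.U i).ι (M.U j) (M.U i) ((M.chartFrame i le_rfl).s j)) :=
    (M.isUnit_chartFrame i le_rfl j).map _
  exact isUnit_res _ h1

/-- `toModules M` is an invertible module. -/
theorem LB.isInvertible_toModules (M : LB X) :
    Scheme.Modules.IsInvertible (LB.toModules M) := by
  refine ⟨fun x => ?_⟩
  obtain ⟨i, hi⟩ : ∃ i, x ∈ M.U i := by
    have : x ∈ (⊤ : X.Opens) := trivial
    rw [← M.iSup_U] at this
    exact Opens.mem_iSup.mp this
  exact ⟨M.U i, hi, ⟨LB.pullbackIso (M.U i).ι M ≪≫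
    ((LB.isTrivial_iff_nonempty_iso _).mp (LB.isTrivial_pullback_chart M i)).some⟩⟩

theorem bijective_app_of_iso {P Q : X.Modules} (θ : P ≅ Q) (V : X.Opens) :
    Function.Bijective (θ.hom.app V).hom := by
  refine ⟨?_, ?_⟩
  · intro x y hxy
    have := congrArg (θ.inv.app V).hom hxy
    rw [← AddCommGrpCat.comp_apply, ← AddCommGrpCat.comp_apply,
      ← Scheme.Modules.Hom.comp_app, θ.hom_inv_id] at this
    exact this
  · intro y
    refine ⟨(θ.inv.app V).hom y, ?_⟩
    rw [← AddCommGrpCat.comp_apply, ← Scheme.Modules.Hom.comp_app, θ.inv_hom_id]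
    rfl

section Restrict

variable (L : X.Modules) (U : X.Opens)

/-- a section of `L` over `ι '' V'`, as a section of the restriction (the identity map). -/
def resOf {V' : U.toScheme.Opens} (x : Γ(L, U.ι ''ᵁ V')) : Γ(L.restrict U.ι, V') := x

/-- a function on `ι '' V'`, as a function on `V'` (the identity map). -/
def fnOf {V' : U.toScheme.Opens} (a : Γ(X, U.ι ''ᵁ V')) : Γ(U.toScheme, V') := a

theorem appIso_inv_fnOf {V' : U.toScheme.Opens} (a : Γ(X, U.ι ''ᵁ V')) :
    (U.ι.appIso V').inv.hom (fnOf U a) = a := by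
  rw [Scheme.Opens.ι_appIso]
  rfl

theorem fnOf_smul_resOf {V' : U.toScheme.Opens} (a : Γ(X, U.ι ''ᵁ V'))
    (x : Γ(L, U.ι ''ᵁ V')) : fnOf U a • resOf L U x = resOf L U (a • x) := by
  show resOf L U (((U.ι.appIso V').inv.hom (fnOf U a)) • x) = _
  rw [appIso_inv_fnOf]

theorem pres_resOf {V' W' : U.toScheme.Opens} (h : W' ≤ V') (x : Γ(L, U.ι ''ᵁ V')) :
    pres (L.restrict U.ι) h (resOf L U x) = resOf L U (pres L (U.ι.image_mono h) x) := rfl

theorem resOf_injective {V' : U.toScheme.Opens} :
    Function.Injective (resOf L U (V' := V')) := fun _ _ h => h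

theorem resOf_surjective {V' : U.toScheme.Opens} :
    Function.Surjective (resOf L U (V' := V')) := fun x => ⟨x, rfl⟩

theorem fnOf_bijective {V' : U.toScheme.Opens} :
    Function.Bijective (fnOf U (V' := V')) := ⟨fun _ _ h => h, fun x => ⟨x, rfl⟩⟩

theorem fnOf_one {V' : U.toScheme.Opens} : fnOf U (1 : Γ(X, U.ι ''ᵁ V')) = 1 := rfl

/-- a trivialisation of the restriction of `L` to `U` gives a frame of `L` over `U`. -/
theorem exists_frame_of_restrict_iso (θ : L.restrict U.ι ≅ unitMod U.toScheme) :
    ∃ e : Γ(L, U.ι ''ᵁ ⊤), IsFrame L e := by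
  obtain ⟨e, he⟩ := resOf_surjective L U ((θ.inv.app ⊤).hom (unitOf 1))
  refine ⟨e, ?_⟩
  intro V h
  obtain ⟨V', rfl⟩ : ∃ V' : U.toScheme.Opens, V = U.ι ''ᵁ V' := by
    refine ⟨U.ι ⁻¹ᵁ V, ?_⟩
    rw [Scheme.Hom.image_preimage_eq_opensRange_inf, ← Scheme.Hom.image_top_eq_opensRange]
    exact (inf_eq_right.mpr h).symm
  have key : ∀ a : Γ(X, U.ι ''ᵁ V'),
      resOf L U (a • JAC.pres L h e) = (θ.inv.app V').hom (unitOf (fnOf U a)) := by
    intro a
    have h1 : unitOf (fnOf U a) = fnOf U a • JAC.pres (unitMod U.toScheme) (le_top : V' ≤ ⊤)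
        (unitOf 1) := by
      rw [pres_unitOf, smul_unitOf, map_one, mul_one]
    rw [h1, app_smul', app_pres, ← he, pres_resOf, fnOf_smul_resOf]
  have hu : Function.Bijective (unitOf (X := U.toScheme) (U := V')) :=
    ⟨unitOf_injective, fun x => ⟨ofUnit x, rfl⟩⟩
  have hb := (bijective_app_of_iso θ.symm V').comp (hu.comp (fnOf_bijective U (V' := V')))
  refine ⟨?_, ?_⟩
  · intro a b hab
    apply hb.1
    show (θ.inv.app V').hom (unitOf (fnOf U a)) = (θ.inv.app V').hom (unitOf (fnOf U b))
    rw [← key, ← key]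
    exact congrArg (resOf L U) hab
  · intro y
    obtain ⟨a, ha⟩ := hb.2 (resOf L U y)
    refine ⟨a, ?_⟩
    apply resOf_injective L U
    rw [key]
    exact ha

end Restrict

/-- an invertible module has local frames. -/
theorem exists_frame_of_isInvertible (L : X.Modules) (hL : Scheme.Modules.IsInvertible L) (x : X) :
    ∃ U : X.Opens, x ∈ U ∧ ∃ e : Γ(L, U), IsFrame L e := by
  obtain ⟨U, hxU, ⟨e⟩⟩ := hL.exists_trivialization x
  refine ⟨U, hxU, ?_⟩
  have h := exists_frame_of_restrict_iso L U
    ((Scheme.Modules.restrictFunctorIsoPullback U.ι).app L ≪≫ e)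
  rw [Scheme.Opens.ι_image_top] at h
  exact h

/-- a cover of `X` with frames of the module `L`. -/
structure FrameData (L : X.Modules) where
  /-- the index type of the cover -/
  ι : Type u
  /-- the cover -/
  U : ι → X.Opens
  iSup_U : ⨆ i, U i = ⊤
  /-- the frames -/
  e : ∀ i, Γ(L, U i)
  isFrame : ∀ i, IsFrame L (e i)

namespace FrameData

variable {L : X.Modules} (D : FrameData L)

theorem eq_of_smul_eq (i : D.ι) (O : X.Opens) (hi : O ≤ D.U i) (a b : Γ(X, O))
    (h : a • pres L hi (D.e i) = b • pres L hi (D.e i)) : a = b :=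
  (D.isFrame i O hi).1 h

theorem exists_g (i j : D.ι) : ∃ a : Γ(X, D.U i ⊓ D.U j),
    a • pres L (inf_le_left : D.U i ⊓ D.U j ≤ D.U i) (D.e i) =
      pres L (inf_le_right : D.U i ⊓ D.U j ≤ D.U j) (D.e j) :=
  (D.isFrame i (D.U i ⊓ D.U j) inf_le_left).2 _

/-- the transition functions of the frames. -/
def g (i j : D.ι) : Γ(X, D.U i ⊓ D.U j) := (D.exists_g i j).choose

theorem g_spec (i j : D.ι) :
    D.g i j • pres L (inf_le_left : D.U i ⊓ D.U j ≤ D.U i) (D.e i) =
      pres L (inf_le_right : D.U i ⊓ D.U j ≤ D.U j) (D.e j) :=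
  (D.exists_g i j).choose_spec

theorem g_spec' (i j : D.ι) (O : X.Opens) (hi : O ≤ D.U i) (hj : O ≤ D.U j) :
    res O (le_inf hi hj) (D.g i j) • pres L hi (D.e i) = pres L hj (D.e j) := by
  have h := congrArg (pres L (le_inf hi hj)) (D.g_spec i j)
  rw [pres_smul, pres_pres, pres_pres] at h
  exact h

/-- the cocycle of a module with local frames. -/
def toLB : LB X where
  ι := D.ι
  U := D.U
  iSup_U := D.iSup_U
  g := D.g
  g_self i := by
    refine D.eq_of_smul_eq i _ inf_le_left _ _ ?_
    rw [D.g_spec i i, one_smul]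
  cocycle i j k := by
    set O := D.U i ⊓ D.U j ⊓ D.U k with hO
    have hi : O ≤ D.U i := inf_le_left.trans inf_le_left
    have hj : O ≤ D.U j := inf_le_left.trans inf_le_right
    have hk : O ≤ D.U k := inf_le_right
    refine D.eq_of_smul_eq i O hi _ _ ?_
    rw [mul_comm, mul_smul]
    have h1 := D.g_spec' i j O hi hj
    have h2 := D.g_spec' j k O hj hk
    have h3 := D.g_spec' i k O hi hk
    rw [h1, h2, h3]

/-- the frames, as a family. -/
def fam : LB.Fam D.toLB L where
  p := D.e
  compat i j := (D.g_spec i j).symm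

/-- the module is the sheaf of sections of the cocycle of its frames. -/
def iso : LB.toModules D.toLB ≅ L := D.fam.toIso D.isFrame

end FrameData

/-- item (b): every invertible module is the sheaf of sections of a cocycle. -/
theorem exists_LB_of_isInvertible (L : X.Modules) (hL : Scheme.Modules.IsInvertible L) :
    ∃ M : LB X, Nonempty (LB.toModules M ≅ L) := by
  have h := exists_frame_of_isInvertible L hL
  choose U hxU e he using h
  let D : FrameData L :=
    { ι := X
      U := U
      iSup_U := by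
        apply top_le_iff.mp
        intro x _
        exact Opens.mem_iSup.mpr ⟨x, hxU x⟩
      e := e
      isFrame := he }
  exact ⟨D.toLB, ⟨D.iso⟩⟩

end

end Fermat.Agent.JAC
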