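/-
PROJECT JAC — brick J0 (helper1) — **isomorphisms of sheaves of sections versus isomorphisms of
cocycles** (item (c)).

* `isUnit_s_of_isFrame` : the components of a frame of `toModules N` are units;
* `IsFrame.smul_of_isUnit` : a unit multiple of a frame is a frame;
* `LB.refine` : the refinement of a cocycle to a finer cover, `LB.refineIso`;
* `LB.iso_iff_nonempty_iso : LB.Iso M N ↔ Nonempty (toModules M ≅ toModules N)`.
-/
import Mathlib
import Fermat.Agent.JAC.BR_helper1_Invertible
import Fermat.Agent.AV.LB_helper5_Pic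

set_option autoImplicit false

open AlgebraicGeometry CategoryTheory Opposite TopologicalSpace

universe u

namespace Fermat.Agent.JAC

open Fermat.Agent.AV

noncomputable section

variable {X : Scheme.{u}}

/-- the components of a frame of `toModules N` are units. -/
theorem isUnit_s_of_isFrame (N : LB X) {O : X.Opens} (x : Γ(LB.toModules N, O))
    (hx : IsFrame (LB.toModules N) x) (j : N.ι) : IsUnit ((LB.toSecOn N x).s j) := by
  set V := N.U j ⊓ O with hV
  have h : V ≤ O := inf_le_right
  obtain ⟨a, ha⟩ := (hx V h).2 (LB.ofSecOn N (N.chartFrame j (inf_le_left : V ≤ N.U j)))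
  have h1 := congrArg (fun y => (LB.toSecOn N y).s j) ha
  simp only [LB.toSecOn_smul, toSecOn_pres, LB.toSecOn_ofSecOn, LB.SecOn.smul_s,
    LB.SecOn.restrict_s, LB.chartFrame, N.g_self, map_one] at h1
  have h2 : IsUnit (res (N.U j ⊓ V) (inf_le_inf_left _ h) ((LB.toSecOn N x).s j)) :=
    IsUnit.of_mul_eq_one _ ((mul_comm _ _).trans h1)
  refine Fermat.Agent.AV.isUnit_of_cover (fun _ : Unit => N.U j ⊓ V)
    (fun _ => inf_le_inf_left _ h) ?_ _ (fun _ => h2)
  intro y hy
  exact Opens.mem_iSup.mpr ⟨(), ⟨hy.1, hy⟩⟩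

/-- a unit multiple of a frame is a frame. -/
theorem IsFrame.smul_of_isUnit {P : X.Modules} {U : X.Opens} {e : Γ(P, U)} (he : IsFrame P e)
    {c : Γ(X, U)} (hc : IsUnit c) : IsFrame P (c • e) := by
  intro V h
  have key : (fun a : Γ(X, V) => a • JAC.pres P h (c • e)) =
      (fun a : Γ(X, V) => a • JAC.pres P h e) ∘ (fun a => a * res V h c) := by
    funext a
    simp only [Function.comp_apply]
    rw [pres_smul, smul_smul]
  rw [key]
  exact (he V h).comp (IsUnit.isUnit_iff_mulRight_bijective.mp (isUnit_res h hc))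

/-- an isomorphism of the sheaves of sections gives an isomorphism of cocycles. -/
theorem LB.iso_of_iso {M N : LB X} (θ : LB.toModules M ≅ LB.toModules N) : LB.Iso M N := by
  set F := LB.Fam.ofHom θ.hom with hF
  have hfr : ∀ i, IsFrame (LB.toModules N) (F.p i) := LB.Fam.isFrame_ofHom_iso θ
  set σ : ∀ i, N.SecOn (M.U i) := fun i => LB.toSecOn N (F.p i) with hσ
  have hu : ∀ i j, IsUnit ((σ i).s j) := fun i j => isUnit_s_of_isFrame N _ (hfr i) j
  have hex : ∀ i j, ∃ t : Γ(X, N.U j ⊓ M.U i), (σ i).s j * t = 1 :=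
    fun i j => (hu i j).exists_right_inv
  choose t ht using hex
  -- the compatibility of the family, on the level of components
  have hA : ∀ (i i' : M.ι) (j : N.ι) (O : X.Opens) (hi : O ≤ M.U i) (hi' : O ≤ M.U i')
      (hj : O ≤ N.U j),
      res O (le_inf hj hi') ((σ i').s j) =
        res O (le_inf hi hi') (M.g i i') * res O (le_inf hj hi) ((σ i).s j) := by
    intro i i' j O hi hi' hj
    have h := F.compat' i i' O hi hi'
    have h1 := congrArg (fun y => (LB.toSecOn N y).s j) h
    simp only [LB.toSecOn_smul, toSecOn_pres, LB.SecOn.smul_s, LB.SecOn.restrict_s] at h1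
    have h2 := congrArg (res O (le_inf hj le_rfl)) h1
    simp only [map_mul, res_res] at h2
    exact h2
  refine ⟨{
    κ := M.ι × N.ι
    W := fun p => M.U p.1 ⊓ N.U p.2
    iSup_W := by
      show ⨆ p : M.ι × N.ι, M.U p.1 ⊓ N.U p.2 = ⊤
      rw [← iSup_inf_iSup, M.iSup_U, N.iSup_U, top_inf_eq]
    α := Prod.fst
    β := Prod.snd
    hα := fun _ => inf_le_left
    hβ := fun _ => inf_le_right
    f := fun p => res _ (le_inf inf_le_right inf_le_left) ((σ p.1).s p.2)
    fi := fun p => res _ (le_inf inf_le_right inf_le_left) (t p.1 p.2)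
    f_mul_fi := fun p => by rw [← map_mul, ht, map_one]
    compat := ?_ }⟩
  rintro ⟨i, j⟩ ⟨i', j'⟩
  simp only [res_res]
  set O := (M.U i ⊓ N.U j) ⊓ (M.U i' ⊓ N.U j') with hO
  have hi : O ≤ M.U i := inf_le_left.trans inf_le_left
  have hj : O ≤ N.U j := inf_le_left.trans inf_le_right
  have hi' : O ≤ M.U i' := inf_le_right.trans inf_le_left
  have hj' : O ≤ N.U j' := inf_le_right.trans inf_le_right
  have hB := (σ i').compat' j j' O hj hj' hi'
  have hA' := hA i i' j O hi hi' hj
  calc res O _ ((σ i).s j) * res O _ (M.g i i')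
      = res O (le_inf hi hi') (M.g i i') * res O (le_inf hj hi) ((σ i).s j) := mul_comm _ _
    _ = res O (le_inf hj hi') ((σ i').s j) := hA'.symm
    _ = res O (le_inf hj hj') (N.g j j') * res O (le_inf hj' hi') ((σ i').s j') := hB

/-- the refinement of a cocycle to a finer cover. -/
def LB.refine (M : LB X) {κ : Type u} (W : κ → X.Opens) (hW : ⨆ k, W k = ⊤) (α : κ → M.ι)
    (hα : ∀ k, W k ≤ M.U (α k)) : LB X where
  ι := κ
  U := W
  iSup_U := hW
  g k l := res (W k ⊓ W l) (le_inf (inf_le_left.trans (hα k)) (inf_le_right.trans (hα l)))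
    (M.g (α k) (α l))
  g_self k := by rw [M.g_self, map_one]
  cocycle k l m := by
    simp only [res_res]
    exact M.cocycle' (α k) (α l) (α m) _ ((inf_le_left.trans inf_le_left).trans (hα k))
      ((inf_le_left.trans inf_le_right).trans (hα l)) (inf_le_right.trans (hα m))

/-- the sheaf of sections of a refinement is the sheaf of sections of the cocycle. -/
def LB.refineIso (M : LB X) {κ : Type u} (W : κ → X.Opens) (hW : ⨆ k, W k = ⊤) (α : κ → M.ι)
    (hα : ∀ k, W k ≤ M.U (α k)) :
    LB.toModules (LB.refine M W hW α hα) ≅ LB.toModules M :=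
  LB.Fam.toIso (M := LB.refine M W hW α hα)
    { p := fun (k : κ) => LB.ofSecOn M (M.chartFrame (α k) (hα k))
      compat := fun (k l : κ) => by
        show JAC.pres (LB.toModules M) (inf_le_right : W k ⊓ W l ≤ W l)
            (LB.ofSecOn M (M.chartFrame (α l) (hα l))) =
          res (W k ⊓ W l) (le_inf (inf_le_left.trans (hα k)) (inf_le_right.trans (hα l)))
            (M.g (α k) (α l)) •
          JAC.pres (LB.toModules M) (inf_le_left : W k ⊓ W l ≤ W k)
            (LB.ofSecOn M (M.chartFrame (α k) (hα k)))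
        rw [pres_ofSecOn, pres_ofSecOn, LB.smul_ofSecOn, chartFrame_restrict,
          chartFrame_restrict]
        congr 1
        exact chartFrame_eq_smul M (α k) (α l) _ _ }
    (fun (k : κ) => isFrame_chartFrame M (α k) (hα k))

/-- an isomorphism of cocycles gives an isomorphism of the sheaves of sections. -/
def LB.IsoData.toModulesIso {M N : LB X} (D : LB.IsoData M N) :
    LB.toModules M ≅ LB.toModules N :=
  (LB.refineIso M D.W D.iSup_W D.α D.hα).symm ≪≫
    LB.Fam.toIso (M := LB.refine M D.W D.iSup_W D.α D.hα)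
      { p := fun (k : D.κ) => LB.ofSecOn N ((N.chartFrame (D.β k) (D.hβ k)).smul (D.f k))
        compat := fun (k l : D.κ) => by
          show JAC.pres (LB.toModules N) (inf_le_right : D.W k ⊓ D.W l ≤ D.W l)
              (LB.ofSecOn N ((N.chartFrame (D.β l) (D.hβ l)).smul (D.f l))) =
            res (D.W k ⊓ D.W l)
              (le_inf (inf_le_left.trans (D.hα k)) (inf_le_right.trans (D.hα l)))
              (M.g (D.α k) (D.α l)) •
            JAC.pres (LB.toModules N) (inf_le_left : D.W k ⊓ D.W l ≤ D.W k)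
              (LB.ofSecOn N ((N.chartFrame (D.β k) (D.hβ k)).smul (D.f k)))
          rw [pres_ofSecOn, pres_ofSecOn, LB.smul_ofSecOn, LB.SecOn.restrict_smul,
            LB.SecOn.restrict_smul, chartFrame_restrict, chartFrame_restrict,
            chartFrame_eq_smul N (D.β k) (D.β l) (inf_le_left.trans (D.hβ k))
              (inf_le_right.trans (D.hβ l)), LB.SecOn.smul_smul, LB.SecOn.smul_smul]
          congr 2
          have h := D.compat k l
          show res _ _ (D.f l) * res _ _ (N.g (D.β k) (D.β l)) =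
            res _ _ (M.g (D.α k) (D.α l)) * res _ _ (D.f k)
          rw [mul_comm, ← h, mul_comm] }
      (fun (k : D.κ) => by
        show IsFrame (LB.toModules N)
          (LB.ofSecOn N ((N.chartFrame (D.β k) (D.hβ k)).smul (D.f k)))
        rw [← LB.smul_ofSecOn]
        exact (isFrame_chartFrame N (D.β k) (D.hβ k)).smul_of_isUnit
          (IsUnit.of_mul_eq_one _ (D.f_mul_fi k)))

/-- item (c): cocycles are isomorphic iff their sheaves of sections are. -/
theorem LB.iso_iff_nonempty_iso (M N : LB X) :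
    LB.Iso M N ↔ Nonempty (LB.toModules M ≅ LB.toModules N) :=
  ⟨fun ⟨D⟩ => ⟨LB.IsoData.toModulesIso D⟩, fun ⟨θ⟩ => LB.iso_of_iso θ⟩

end

end Fermat.Agent.JAC
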