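/-
PROJECT JAC — bricks (SMALL)+(SHEAF) (helper1) — **partial cocycles and rigidity.**

Setting: `q : Y ⟶ T` with a section `e`, such that functions on `q⁻¹ V` come from `V`.

* `PLB Y W` : a cocycle line bundle on the open `W` of `Y`, with charts and transition functions
  living on `Y` (`PLB.cocycle'`, `PLB.g_mul_g_symm'`), `PLB.pull` : its pull-back along a morphism
  landing in `W`;
* `eq_one_of_section` (**rigidity**) : functions `d n` on a cover of `q⁻¹ B` which agree on the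
  overlaps and are `1` along `e` are `1`.
-/
import Mathlib
import Fermat.Agent.AV.LB_helper5_Pic
import Fermat.Agent.AV.SEESAW_helper1_Glue

set_option autoImplicit false

open AlgebraicGeometry CategoryTheory Opposite TopologicalSpace

universe u

namespace Fermat.Agent.JAC

open Fermat.Agent.AV

noncomputable section

/-- a cocycle line bundle on the open `W` of `Y`: charts inside `W` covering `W`, with transition
functions. -/
structure PLB (Y : Scheme.{u}) (W : Y.Opens) where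
  /-- the index type of the charts -/
  ι : Type u
  /-- the charts -/
  U : ι → Y.Opens
  U_le : ∀ i, U i ≤ W
  cover : W ≤ ⨆ i, U i
  /-- the transition functions -/
  g : ∀ i j, Γ(Y, U i ⊓ U j)
  g_self : ∀ i, g i i = 1
  cocycle : ∀ i j k,
    res (U i ⊓ U j ⊓ U k) inf_le_left (g i j) *
      res (U i ⊓ U j ⊓ U k) (le_inf (inf_le_left.trans inf_le_right) inf_le_right) (g j k) =
    res (U i ⊓ U j ⊓ U k) (le_inf (inf_le_left.trans inf_le_left) inf_le_right) (g i k)

namespace PLB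

variable {Y : Scheme.{u}} {W : Y.Opens} (P : PLB Y W)

theorem cocycle' (i j k : P.ι) (O : Y.Opens) (hi : O ≤ P.U i) (hj : O ≤ P.U j) (hk : O ≤ P.U k) :
    res O (le_inf hi hj) (P.g i j) * res O (le_inf hj hk) (P.g j k) =
      res O (le_inf hi hk) (P.g i k) := by
  have h := congrArg (res O (le_inf (le_inf hi hj) hk)) (P.cocycle i j k)
  rw [map_mul, res_res, res_res, res_res] at h
  exact h

theorem g_mul_g_symm' (i j : P.ι) (O : Y.Opens) (hi : O ≤ P.U i) (hj : O ≤ P.U j) :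
    res O (le_inf hi hj) (P.g i j) * res O (le_inf hj hi) (P.g j i) = 1 := by
  have h := P.cocycle' i j i O hi hj hi
  rw [h, P.g_self, map_one]

/-- the pull-back of a partial cocycle along a morphism landing in `W`. -/
def pull {Z : Scheme.{u}} (j : Z ⟶ Y) (hj : j ⁻¹ᵁ W = ⊤) : LB Z where
  ι := P.ι
  U i := j ⁻¹ᵁ P.U i
  iSup_U := by
    apply top_le_iff.mp
    rw [← hj]
    intro x hx
    obtain ⟨i, hi⟩ := Opens.mem_iSup.mp (P.cover hx)
    exact Opens.mem_iSup.mpr ⟨i, hi⟩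
  g i k := (j.app (P.U i ⊓ P.U k)).hom (P.g i k)
  g_self i := by
    show (j.app (P.U i ⊓ P.U i)).hom (P.g i i) = 1
    rw [P.g_self, map_one]
  cocycle i k l := by
    have h := congrArg (j.app (P.U i ⊓ P.U k ⊓ P.U l)).hom (P.cocycle i k l)
    rw [map_mul, app_res, app_res, app_res] at h
    exact h

end PLB

section Rigid

variable {T Y : Scheme.{u}} (q : Y ⟶ T) (e : T ⟶ Y) (he : e ≫ q = 𝟙 T)

include he in
theorem preimage_preimage_section (B : T.Opens) : e ⁻¹ᵁ (q ⁻¹ᵁ B) = B := by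
  rw [← Scheme.Hom.comp_preimage, he, Scheme.Hom.id_preimage]

include he in
/-- **rigidity**: functions on a cover of `q⁻¹ B` which agree on the overlaps and are `1` along
the section `e` are `1`, as soon as functions on `q⁻¹ B` come from `B`. -/
theorem eq_one_of_section
    (hfun : ∀ (V : T.Opens) (hle : V ≤ e ⁻¹ᵁ (q ⁻¹ᵁ V)) (h : Γ(Y, q ⁻¹ᵁ V)),
      (q.app V).hom ((e.appLE (q ⁻¹ᵁ V) V hle).hom h) = h)
    (B : T.Opens) {N : Type u} (O : N → Y.Opens) (hO : ∀ n, O n ≤ q ⁻¹ᵁ B)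
    (hcov : q ⁻¹ᵁ B ≤ ⨆ n, O n) (d : ∀ n, Γ(Y, O n))
    (hd : ∀ n m, res (O n ⊓ O m) inf_le_left (d n) = res (O n ⊓ O m) inf_le_right (d m))
    (hde : ∀ n, (e.app (O n)).hom (d n) = 1) (n : N) : d n = 1 := by
  obtain ⟨d₀, hd₀, -⟩ := Fermat.Agent.AV.exists_glue (V := q ⁻¹ᵁ B) O hO hcov d hd
  have hle : B ≤ e ⁻¹ᵁ (q ⁻¹ᵁ B) := (preimage_preimage_section q e he B).ge
  have h1 : (e.app (q ⁻¹ᵁ B)).hom d₀ = 1 := by
    refine eq_of_res_eq (fun n => e ⁻¹ᵁ O n) (fun n => e.preimage_mono (hO n)) ?_ _ _ ?_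
    · intro x hx
      obtain ⟨m, hm⟩ := Opens.mem_iSup.mp (hcov hx)
      exact Opens.mem_iSup.mpr ⟨m, hm⟩
    · intro m
      rw [← app_res e (hO m), hd₀ m, hde m, map_one]
  have h2 : (e.appLE (q ⁻¹ᵁ B) B hle).hom d₀ = 1 := by
    rw [Scheme.Hom.appLE]
    show res B hle ((e.app (q ⁻¹ᵁ B)).hom d₀) = 1
    rw [h1, map_one]
  have h3 := hfun B hle d₀
  rw [h2, map_one] at h3
  rw [← hd₀ n, ← h3, map_one]

end Rigid

end

end Fermat.Agent.JAC
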