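/-
PROJECT JAC — bricks (SMALL)+(SHEAF) (helper1) — **gluing rigidified cocycles: the core.**

Setting: `q : Y ⟶ T` with a section `e`, functions on `q⁻¹ V` come from `V`.  Data (`GlueData`):
a cover `U a` of `T`, partial cocycles `P a` on `q⁻¹ (U a)`, rigidifications `τ a` (unit sections
of `e^* (P a)`) and full transition matrices `f a b` (isomorphisms `P b ≅ P a` on the overlaps).
Output: the glued cocycle `GlueData.glued : LB Y` whose transition functions are the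
rigidification-normalised matrices `G a b`, with `G a a = (P a).g` and `e^* glued` trivial.
-/
import Mathlib
import Fermat.Agent.JAC.SH_helper1_Rigid

set_option autoImplicit false

open AlgebraicGeometry CategoryTheory Opposite TopologicalSpace

universe u

namespace Fermat.Agent.JAC

open Fermat.Agent.AV

noncomputable section

/-! ### Pure ring identities -/

section Ring

variable {R : Type*} [CommRing R]

theorem ring_v_compat (ta ta' tb tb' tib tib' ga ga' gb gb' φ φ' : R)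
    (h1 : ta = ga * ta') (h2 : tb' = gb' * tb) (h3 : tb * tib = 1) (h4 : tb' * tib' = 1)
    (h5 : ga * ga' = 1) (h6 : gb * gb' = 1) (h7 : φ = φ' * gb * ga') :
    ta * tib * φ = ta' * tib' * φ' := by
  grind

theorem ring_fi_compat (f f' fi fi' ga ga' gb : R) (h1 : f * gb = ga * f') (h2 : f * fi = 1)
    (h3 : f' * fi' = 1) (h4 : ga * ga' = 1) : fi = fi' * gb * ga' := by
  grind

theorem ring_norm (F Fi ta tia tb tib : R) (h1 : F * Fi = 1) (h2 : ta * tia = 1)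
    (h3 : tb * tib = 1) : F * (ta * tib * Fi) * tb = ta := by
  grind

theorem ring_G_compat (f f' w ga gb : R) (h1 : f * gb = ga * f') :
    (f * w) * gb = ga * (f' * w) := by
  grind

theorem ring_diag_compat (G G' x1 x2 y z1 z2 z3 : R) (h : G * x1 = x2 * G') (h1 : x1 * y = 1)
    (h2 : y * z1 = z2) (h3 : z2 * x2 = z3) : G * z1 = G' * z3 := by
  grind

theorem ring_diag_sec (F g ta tb tia : R) (h1 : F * tb = ta) (h2 : tb = g * ta)
    (h3 : ta * tia = 1) : F * g = 1 := by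
  grind

theorem ring_triple_compat (A A' B B' C C' x xi y yi z zi : R) (h1 : A * x = y * A')
    (h2 : B * z = x * B') (h3 : C * y = z * C') (hx : x * xi = 1) (hy : y * yi = 1)
    (hz : z * zi = 1) : A * B * C = A' * B' * C' := by
  grind

theorem ring_triple_sec (A B C ta tb tc tia : R) (h1 : A * tb = ta) (h2 : B * tc = tb)
    (h3 : C * ta = tc) (h4 : ta * tia = 1) : A * B * C = 1 := by
  grind

theorem ring_cocycle (A B C C' : R) (h1 : A * B * C = 1) (h2 : C' * C = 1) : A * B = C' := by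
  grind

end Ring

/-- the data to be glued. -/
structure GlueData {T Y : Scheme.{u}} (q : Y ⟶ T) (e : T ⟶ Y) where
  sec : e ≫ q = 𝟙 T
  hfun : ∀ (V : T.Opens) (hle : V ≤ e ⁻¹ᵁ (q ⁻¹ᵁ V)) (h : Γ(Y, q ⁻¹ᵁ V)),
    (q.app V).hom ((e.appLE (q ⁻¹ᵁ V) V hle).hom h) = h
  /-- the index type of the cover of `T` -/
  A : Type u
  /-- the cover of `T` -/
  U : A → T.Opens
  iSup_U : ⨆ a, U a = ⊤
  /-- the local cocycles -/
  P : ∀ a, PLB Y (q ⁻¹ᵁ U a)
  /-- the rigidifying sections -/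
  τ : ∀ a (i : (P a).ι), Γ(T, e ⁻¹ᵁ (P a).U i)
  /-- their inverses -/
  τi : ∀ a (i : (P a).ι), Γ(T, e ⁻¹ᵁ (P a).U i)
  τ_mul_τi : ∀ a i, τ a i * τi a i = 1
  τ_compat : ∀ a i i',
    res (e ⁻¹ᵁ (P a).U i ⊓ e ⁻¹ᵁ (P a).U i') inf_le_left (τ a i) =
      appInf e ((P a).U i) ((P a).U i') ((P a).g i i') *
      res (e ⁻¹ᵁ (P a).U i ⊓ e ⁻¹ᵁ (P a).U i') inf_le_right (τ a i')
  /-- the transition matrices (`P b ≅ P a` over the overlap) -/
  f : ∀ a b (i : (P a).ι) (j : (P b).ι), Γ(Y, (P a).U i ⊓ (P b).U j)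
  /-- their inverses -/
  fi : ∀ a b (i : (P a).ι) (j : (P b).ι), Γ(Y, (P a).U i ⊓ (P b).U j)
  f_mul_fi : ∀ a b i j, f a b i j * fi a b i j = 1
  f_compat : ∀ a b i j i' j',
    res (((P a).U i ⊓ (P b).U j) ⊓ ((P a).U i' ⊓ (P b).U j')) inf_le_left (f a b i j) *
      res (((P a).U i ⊓ (P b).U j) ⊓ ((P a).U i' ⊓ (P b).U j'))
        (le_inf (inf_le_left.trans inf_le_right) (inf_le_right.trans inf_le_right))
        ((P b).g j j') =
    res (((P a).U i ⊓ (P b).U j) ⊓ ((P a).U i' ⊓ (P b).U j'))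
        (le_inf (inf_le_left.trans inf_le_left) (inf_le_right.trans inf_le_left))
        ((P a).g i i') *
      res (((P a).U i ⊓ (P b).U j) ⊓ ((P a).U i' ⊓ (P b).U j')) inf_le_right (f a b i' j')

namespace GlueData

variable {T Y : Scheme.{u}} {q : Y ⟶ T} {e : T ⟶ Y} (D : GlueData q e)

/-- the chart `(a, i)`. -/
abbrev V (a : D.A) (i : (D.P a).ι) : Y.Opens := (D.P a).U i

theorem V_le (a : D.A) (i : (D.P a).ι) : D.V a i ≤ q ⁻¹ᵁ D.U a := (D.P a).U_le i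

theorem f_compat' (a b : D.A) (i : (D.P a).ι) (j : (D.P b).ι) (i' : (D.P a).ι) (j' : (D.P b).ι)
    (O : Y.Opens) (hi : O ≤ D.V a i) (hj : O ≤ D.V b j) (hi' : O ≤ D.V a i')
    (hj' : O ≤ D.V b j') :
    res O (le_inf hi hj) (D.f a b i j) * res O (le_inf hj hj') ((D.P b).g j j') =
      res O (le_inf hi hi') ((D.P a).g i i') * res O (le_inf hi' hj') (D.f a b i' j') := by
  have h := congrArg (res O (le_inf (le_inf hi hj) (le_inf hi' hj'))) (D.f_compat a b i j i' j')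
  simp only [map_mul, res_res] at h
  exact h

theorem f_mul_fi' (a b : D.A) (i : (D.P a).ι) (j : (D.P b).ι) (O : Y.Opens)
    (h : O ≤ D.V a i ⊓ D.V b j) :
    res O h (D.f a b i j) * res O h (D.fi a b i j) = 1 := by
  rw [← map_mul, D.f_mul_fi, map_one]

theorem τ_mul_τi' (a : D.A) (i : (D.P a).ι) (O : T.Opens) (h : O ≤ e ⁻¹ᵁ D.V a i) :
    res O h (D.τ a i) * res O h (D.τi a i) = 1 := by
  rw [← map_mul, D.τ_mul_τi, map_one]

theorem τ_compat' (a : D.A) (i i' : (D.P a).ι) (O : Y.Opens) (hi : O ≤ D.V a i)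
    (hi' : O ≤ D.V a i') :
    res (e ⁻¹ᵁ O) (e.preimage_mono hi) (D.τ a i) =
      (e.app O).hom (res O (le_inf hi hi') ((D.P a).g i i')) *
        res (e ⁻¹ᵁ O) (e.preimage_mono hi') (D.τ a i') := by
  have h := congrArg (res (e ⁻¹ᵁ O)
    (le_inf (e.preimage_mono hi) (e.preimage_mono hi') :
      e ⁻¹ᵁ O ≤ e ⁻¹ᵁ D.V a i ⊓ e ⁻¹ᵁ D.V a i')) (D.τ_compat a i i')
  rw [map_mul, res_res, res_res] at h
  rw [h, app_res]
  rfl

theorem fi_compat' (a b : D.A) (i : (D.P a).ι) (j : (D.P b).ι) (i' : (D.P a).ι) (j' : (D.P b).ι)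
    (O : Y.Opens) (hi : O ≤ D.V a i) (hj : O ≤ D.V b j) (hi' : O ≤ D.V a i')
    (hj' : O ≤ D.V b j') :
    res O (le_inf hi hj) (D.fi a b i j) =
      res O (le_inf hi' hj') (D.fi a b i' j') * res O (le_inf hj hj') ((D.P b).g j j') *
        res O (le_inf hi' hi) ((D.P a).g i' i) :=
  ring_fi_compat _ _ _ _ _ _ _ (D.f_compat' a b i j i' j' O hi hj hi' hj')
    (D.f_mul_fi' a b i j O _) (D.f_mul_fi' a b i' j' O _)
    ((D.P a).g_mul_g_symm' i i' O hi hi')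

/-- the local pieces of the normaliser. -/
def vloc (a b : D.A) (i : (D.P a).ι) (j : (D.P b).ι) : Γ(T, e ⁻¹ᵁ (D.V a i ⊓ D.V b j)) :=
  res _ (e.preimage_mono inf_le_left) (D.τ a i) * res _ (e.preimage_mono inf_le_right) (D.τi b j) *
    (e.app (D.V a i ⊓ D.V b j)).hom (D.fi a b i j)

theorem res_vloc (a b : D.A) (i : (D.P a).ι) (j : (D.P b).ι) (O : Y.Opens) (hi : O ≤ D.V a i)
    (hj : O ≤ D.V b j) :
    res (e ⁻¹ᵁ O) (e.preimage_mono (le_inf hi hj)) (D.vloc a b i j) =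
      res (e ⁻¹ᵁ O) (e.preimage_mono hi) (D.τ a i) *
        res (e ⁻¹ᵁ O) (e.preimage_mono hj) (D.τi b j) *
        (e.app O).hom (res O (le_inf hi hj) (D.fi a b i j)) := by
  rw [vloc, map_mul, map_mul, res_res, res_res, app_res]

theorem vloc_compat (a b : D.A) (i : (D.P a).ι) (j : (D.P b).ι) (i' : (D.P a).ι) (j' : (D.P b).ι)
    (O : Y.Opens) (hi : O ≤ D.V a i) (hj : O ≤ D.V b j) (hi' : O ≤ D.V a i')
    (hj' : O ≤ D.V b j') :
    res (e ⁻¹ᵁ O) (e.preimage_mono (le_inf hi hj)) (D.vloc a b i j) =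
      res (e ⁻¹ᵁ O) (e.preimage_mono (le_inf hi' hj')) (D.vloc a b i' j') := by
  rw [D.res_vloc a b i j O hi hj, D.res_vloc a b i' j' O hi' hj']
  refine ring_v_compat _ _ (res (e ⁻¹ᵁ O) (e.preimage_mono hj) (D.τ b j))
    (res (e ⁻¹ᵁ O) (e.preimage_mono hj') (D.τ b j')) _ _
    ((e.app O).hom (res O (le_inf hi hi') ((D.P a).g i i')))
    ((e.app O).hom (res O (le_inf hi' hi) ((D.P a).g i' i)))
    ((e.app O).hom (res O (le_inf hj hj') ((D.P b).g j j')))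
    ((e.app O).hom (res O (le_inf hj' hj) ((D.P b).g j' j))) _ _
    (D.τ_compat' a i i' O hi hi') (D.τ_compat' b j' j O hj' hj)
    (D.τ_mul_τi' b j _ _) (D.τ_mul_τi' b j' _ _) ?_ ?_ ?_
  · rw [← map_mul, (D.P a).g_mul_g_symm' i i' O hi hi', map_one]
  · rw [← map_mul, (D.P b).g_mul_g_symm' j j' O hj hj', map_one]
  · rw [D.fi_compat' a b i j i' j' O hi hj hi' hj', map_mul, map_mul]

theorem preimage_V_le (a : D.A) (i : (D.P a).ι) : e ⁻¹ᵁ D.V a i ≤ D.U a := by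
  have h := e.preimage_mono (D.V_le a i)
  rwa [preimage_preimage_section q e D.sec] at h

theorem exists_v (a b : D.A) : ∃! v : Γ(T, D.U a ⊓ D.U b), ∀ p : (D.P a).ι × (D.P b).ι,
    res (e ⁻¹ᵁ (D.V a p.1 ⊓ D.V b p.2))
      (le_inf ((e.preimage_mono inf_le_left).trans (D.preimage_V_le a p.1))
        ((e.preimage_mono inf_le_right).trans (D.preimage_V_le b p.2))) v =
      D.vloc a b p.1 p.2 := by
  refine Fermat.Agent.AV.exists_glue (V := D.U a ⊓ D.U b)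
    (fun p : (D.P a).ι × (D.P b).ι => e ⁻¹ᵁ (D.V a p.1 ⊓ D.V b p.2)) _ ?_
    (fun p => D.vloc a b p.1 p.2) ?_
  · intro x hx
    have hxa : e x ∈ q ⁻¹ᵁ D.U a := by
      have : x ∈ e ⁻¹ᵁ (q ⁻¹ᵁ D.U a) := by
        rw [preimage_preimage_section q e D.sec]; exact hx.1
      exact this
    have hxb : e x ∈ q ⁻¹ᵁ D.U b := by
      have : x ∈ e ⁻¹ᵁ (q ⁻¹ᵁ D.U b) := by
        rw [preimage_preimage_section q e D.sec]; exact hx.2
      exact this
    obtain ⟨i, hi⟩ := Opens.mem_iSup.mp ((D.P a).cover hxa)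
    obtain ⟨j, hj⟩ := Opens.mem_iSup.mp ((D.P b).cover hxb)
    exact Opens.mem_iSup.mpr ⟨(i, j), ⟨hi, hj⟩⟩
  · rintro ⟨i, j⟩ ⟨i', j'⟩
    exact D.vloc_compat a b i j i' j' ((D.V a i ⊓ D.V b j) ⊓ (D.V a i' ⊓ D.V b j'))
      (inf_le_left.trans inf_le_left) (inf_le_left.trans inf_le_right)
      (inf_le_right.trans inf_le_left) (inf_le_right.trans inf_le_right)

/-- the normaliser of the transition matrix `f a b`. -/
def v (a b : D.A) : Γ(T, D.U a ⊓ D.U b) := (D.exists_v a b).choose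

theorem res_v (a b : D.A) (i : (D.P a).ι) (j : (D.P b).ι) :
    res (e ⁻¹ᵁ (D.V a i ⊓ D.V b j))
      (le_inf ((e.preimage_mono inf_le_left).trans (D.preimage_V_le a i))
        ((e.preimage_mono inf_le_right).trans (D.preimage_V_le b j))) (D.v a b) =
      D.vloc a b i j :=
  (D.exists_v a b).choose_spec.1 (i, j)

theorem V_inf_le (a b : D.A) (i : (D.P a).ι) (j : (D.P b).ι) :
    D.V a i ⊓ D.V b j ≤ q ⁻¹ᵁ (D.U a ⊓ D.U b) :=
  le_inf (inf_le_left.trans (D.V_le a i)) (inf_le_right.trans (D.V_le b j))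

/-- the normaliser, as a function on `q⁻¹ (U a ⊓ U b)`. -/
def w (a b : D.A) : Γ(Y, q ⁻¹ᵁ (D.U a ⊓ D.U b)) := (q.app (D.U a ⊓ D.U b)).hom (D.v a b)

/-- the normalised transition functions. -/
def G (a b : D.A) (i : (D.P a).ι) (j : (D.P b).ι) : Γ(Y, D.V a i ⊓ D.V b j) :=
  D.f a b i j * res _ (D.V_inf_le a b i j) (D.w a b)

theorem res_G (a b : D.A) (i : (D.P a).ι) (j : (D.P b).ι) (O : Y.Opens) (hi : O ≤ D.V a i)
    (hj : O ≤ D.V b j) :
    res O (le_inf hi hj) (D.G a b i j) =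
      res O (le_inf hi hj) (D.f a b i j) *
        res O ((le_inf hi hj).trans (D.V_inf_le a b i j)) (D.w a b) := by
  rw [G, map_mul, res_res]

theorem G_compat' (a b : D.A) (i : (D.P a).ι) (j : (D.P b).ι) (i' : (D.P a).ι) (j' : (D.P b).ι)
    (O : Y.Opens) (hi : O ≤ D.V a i) (hj : O ≤ D.V b j) (hi' : O ≤ D.V a i')
    (hj' : O ≤ D.V b j') :
    res O (le_inf hi hj) (D.G a b i j) * res O (le_inf hj hj') ((D.P b).g j j') =
      res O (le_inf hi hi') ((D.P a).g i i') * res O (le_inf hi' hj') (D.G a b i' j') := by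
  rw [D.res_G a b i j O hi hj, D.res_G a b i' j' O hi' hj']
  exact ring_G_compat _ _ _ _ _ (D.f_compat' a b i j i' j' O hi hj hi' hj')

/-- the pull-back of the normaliser along `e`. -/
theorem app_res_w (a b : D.A) (i : (D.P a).ι) (j : (D.P b).ι) (O : Y.Opens) (hi : O ≤ D.V a i)
    (hj : O ≤ D.V b j) :
    (e.app O).hom (res O ((le_inf hi hj).trans (D.V_inf_le a b i j)) (D.w a b)) =
      res (e ⁻¹ᵁ O) (e.preimage_mono (le_inf hi hj)) (D.vloc a b i j) := by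
  have hle : D.U a ⊓ D.U b ≤ e ⁻¹ᵁ (q ⁻¹ᵁ (D.U a ⊓ D.U b)) :=
    (preimage_preimage_section q e D.sec _).ge
  have h1 := appLE_of_comp_eq_id q e D.sec (D.U a ⊓ D.U b) hle (D.v a b)
  have h2 : res (D.U a ⊓ D.U b) hle ((e.app (q ⁻¹ᵁ (D.U a ⊓ D.U b))).hom (D.w a b)) =
      D.v a b := h1
  have hO : e ⁻¹ᵁ O ≤ D.U a ⊓ D.U b :=
    le_inf ((e.preimage_mono hi).trans (D.preimage_V_le a i))
      ((e.preimage_mono hj).trans (D.preimage_V_le b j))
  rw [app_res, ← D.res_v a b i j, res_res, ← h2, res_res]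

/-- the normalisation: `G a b` carries the rigidification `τ b` to `τ a`. -/
theorem app_G_mul_τ (a b : D.A) (i : (D.P a).ι) (j : (D.P b).ι) (O : Y.Opens)
    (hi : O ≤ D.V a i) (hj : O ≤ D.V b j) :
    (e.app O).hom (res O (le_inf hi hj) (D.G a b i j)) *
        res (e ⁻¹ᵁ O) (e.preimage_mono hj) (D.τ b j) =
      res (e ⁻¹ᵁ O) (e.preimage_mono hi) (D.τ a i) := by
  rw [D.res_G a b i j O hi hj, map_mul, D.app_res_w a b i j O hi hj,
    D.res_vloc a b i j O hi hj]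
  refine ring_norm _ _ _ (res (e ⁻¹ᵁ O) (e.preimage_mono hi) (D.τi a i)) _ _ ?_
    (D.τ_mul_τi' a i _ _) (D.τ_mul_τi' b j _ _)
  rw [← map_mul, D.f_mul_fi' a b i j O (le_inf hi hj), map_one]

/-- on the diagonal, the normalised transition functions are the given cocycles. -/
theorem G_mul_g_symm (a : D.A) (i i' : (D.P a).ι) :
    D.G a a i i' * res (D.V a i ⊓ D.V a i') (le_inf inf_le_right inf_le_left)
      ((D.P a).g i' i) = 1 := by
  refine eq_one_of_section q e D.sec D.hfun (D.U a) (N := (D.P a).ι × (D.P a).ι)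
    (fun p => D.V a p.1 ⊓ D.V a p.2) (fun p => inf_le_left.trans (D.V_le a p.1)) ?_
    (fun p => D.G a a p.1 p.2 * res (D.V a p.1 ⊓ D.V a p.2) (le_inf inf_le_right inf_le_left)
      ((D.P a).g p.2 p.1)) ?_ ?_ (i, i')
  · intro x hx
    obtain ⟨k, hk⟩ := Opens.mem_iSup.mp ((D.P a).cover hx)
    exact Opens.mem_iSup.mpr ⟨(k, k), ⟨hk, hk⟩⟩
  · rintro ⟨k, k'⟩ ⟨l, l'⟩
    simp only [map_mul, res_res]
    set O := (D.V a k ⊓ D.V a k') ⊓ (D.V a l ⊓ D.V a l') with hO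
    have hk : O ≤ D.V a k := inf_le_left.trans inf_le_left
    have hk' : O ≤ D.V a k' := inf_le_left.trans inf_le_right
    have hl : O ≤ D.V a l := inf_le_right.trans inf_le_left
    have hl' : O ≤ D.V a l' := inf_le_right.trans inf_le_right
    exact ring_diag_compat _ _ _ _ _ _ _ _ (D.G_compat' a a k k' l l' O hk hk' hl hl')
      ((D.P a).g_mul_g_symm' k' l' O hk' hl') ((D.P a).cocycle' l' k' k O hl' hk' hk)
      ((D.P a).cocycle' l' k l O hl' hk hl)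
  · rintro ⟨k, k'⟩
    rw [map_mul]
    set O := D.V a k ⊓ D.V a k' with hO
    have hk : O ≤ D.V a k := inf_le_left
    have hk' : O ≤ D.V a k' := inf_le_right
    have h1 := D.app_G_mul_τ a a k k' O hk hk'
    rw [res_self] at h1
    exact ring_diag_sec _ _ _ _ _ h1 (D.τ_compat' a k' k O hk' hk) (D.τ_mul_τi' a k _ _)

theorem G_diag (a : D.A) (i i' : (D.P a).ι) : D.G a a i i' = (D.P a).g i i' := by
  have h1 := D.G_mul_g_symm a i i'
  have h2 := (D.P a).g_mul_g_symm' i' i (D.V a i ⊓ D.V a i') inf_le_right inf_le_left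
  rw [res_self] at h2
  calc D.G a a i i' = D.G a a i i' *
        (res (D.V a i ⊓ D.V a i') (le_inf inf_le_right inf_le_left) ((D.P a).g i' i) *
          (D.P a).g i i') := by rw [h2, mul_one]
    _ = (D.P a).g i i' := by rw [← mul_assoc, h1, one_mul]

/-- the triple products of the normalised transition functions are `1`. -/
theorem G_triple (a b c : D.A) (i : (D.P a).ι) (j : (D.P b).ι) (k : (D.P c).ι) (O : Y.Opens)
    (hi : O ≤ D.V a i) (hj : O ≤ D.V b j) (hk : O ≤ D.V c k) :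
    res O (le_inf hi hj) (D.G a b i j) * res O (le_inf hj hk) (D.G b c j k) *
      res O (le_inf hk hi) (D.G c a k i) = 1 := by
  have key := eq_one_of_section q e D.sec D.hfun (D.U a ⊓ D.U b ⊓ D.U c)
    (N := (D.P a).ι × (D.P b).ι × (D.P c).ι)
    (fun p => D.V a p.1 ⊓ D.V b p.2.1 ⊓ D.V c p.2.2)
    (fun p => le_inf (le_inf ((inf_le_left.trans inf_le_left).trans (D.V_le a p.1))
      ((inf_le_left.trans inf_le_right).trans (D.V_le b p.2.1)))
      (inf_le_right.trans (D.V_le c p.2.2))) ?_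
    (fun p => res _ inf_le_left (D.G a b p.1 p.2.1) *
      res _ (le_inf (inf_le_left.trans inf_le_right) inf_le_right) (D.G b c p.2.1 p.2.2) *
      res _ (le_inf inf_le_right (inf_le_left.trans inf_le_left)) (D.G c a p.2.2 p.1)) ?_ ?_
    (i, j, k)
  · have h := congrArg (res O (le_inf (le_inf hi hj) hk)) key
    simp only [map_mul, res_res, map_one] at h
    exact h
  · intro x hx
    obtain ⟨i₀, hi₀⟩ := Opens.mem_iSup.mp ((D.P a).cover hx.1.1)
    obtain ⟨j₀, hj₀⟩ := Opens.mem_iSup.mp ((D.P b).cover hx.1.2)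
    obtain ⟨k₀, hk₀⟩ := Opens.mem_iSup.mp ((D.P c).cover hx.2)
    exact Opens.mem_iSup.mpr ⟨(i₀, j₀, k₀), ⟨⟨hi₀, hj₀⟩, hk₀⟩⟩
  · rintro ⟨i₁, j₁, k₁⟩ ⟨i₂, j₂, k₂⟩
    simp only [map_mul, res_res]
    set O' := (D.V a i₁ ⊓ D.V b j₁ ⊓ D.V c k₁) ⊓ (D.V a i₂ ⊓ D.V b j₂ ⊓ D.V c k₂) with hO'
    have hi₁ : O' ≤ D.V a i₁ := (inf_le_left.trans inf_le_left).trans inf_le_left
    have hj₁ : O' ≤ D.V b j₁ := (inf_le_left.trans inf_le_left).trans inf_le_right
    have hk₁ : O' ≤ D.V c k₁ := inf_le_left.trans inf_le_right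
    have hi₂ : O' ≤ D.V a i₂ := (inf_le_right.trans inf_le_left).trans inf_le_left
    have hj₂ : O' ≤ D.V b j₂ := (inf_le_right.trans inf_le_left).trans inf_le_right
    have hk₂ : O' ≤ D.V c k₂ := inf_le_right.trans inf_le_right
    exact ring_triple_compat _ _ _ _ _ _ _ _ _ _ _ _
      (D.G_compat' a b i₁ j₁ i₂ j₂ O' hi₁ hj₁ hi₂ hj₂)
      (D.G_compat' b c j₁ k₁ j₂ k₂ O' hj₁ hk₁ hj₂ hk₂)
      (D.G_compat' c a k₁ i₁ k₂ i₂ O' hk₁ hi₁ hk₂ hi₂)
      ((D.P b).g_mul_g_symm' j₁ j₂ O' hj₁ hj₂) ((D.P a).g_mul_g_symm' i₁ i₂ O' hi₁ hi₂)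
      ((D.P c).g_mul_g_symm' k₁ k₂ O' hk₁ hk₂)
  · rintro ⟨i₁, j₁, k₁⟩
    rw [map_mul, map_mul]
    set O' := D.V a i₁ ⊓ D.V b j₁ ⊓ D.V c k₁ with hO'
    have hi₁ : O' ≤ D.V a i₁ := inf_le_left.trans inf_le_left
    have hj₁ : O' ≤ D.V b j₁ := inf_le_left.trans inf_le_right
    have hk₁ : O' ≤ D.V c k₁ := inf_le_right
    exact ring_triple_sec _ _ _ _ _ _ _ (D.app_G_mul_τ a b i₁ j₁ O' hi₁ hj₁)
      (D.app_G_mul_τ b c j₁ k₁ O' hj₁ hk₁) (D.app_G_mul_τ c a k₁ i₁ O' hk₁ hi₁)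
      (D.τ_mul_τi' a i₁ _ _)

theorem G_mul_G_symm (a b : D.A) (i : (D.P a).ι) (j : (D.P b).ι) (O : Y.Opens)
    (hi : O ≤ D.V a i) (hj : O ≤ D.V b j) :
    res O (le_inf hi hj) (D.G a b i j) * res O (le_inf hj hi) (D.G b a j i) = 1 := by
  have h := D.G_triple a b a i j i O hi hj hi
  rw [D.G_diag a i i, (D.P a).g_self, map_one, mul_one] at h
  exact h

/-- **the glued cocycle.** -/
def glued : LB Y where
  ι := Σ a, (D.P a).ι
  U k := D.V k.1 k.2
  iSup_U := by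
    apply top_le_iff.mp
    intro x _
    have hx : q x ∈ (⊤ : T.Opens) := trivial
    rw [← D.iSup_U] at hx
    obtain ⟨a, ha⟩ := Opens.mem_iSup.mp hx
    obtain ⟨i, hi⟩ := Opens.mem_iSup.mp ((D.P a).cover (show x ∈ q ⁻¹ᵁ D.U a from ha))
    exact Opens.mem_iSup.mpr ⟨⟨a, i⟩, hi⟩
  g k l := D.G k.1 l.1 k.2 l.2
  g_self k := by rw [D.G_diag, (D.P k.1).g_self]
  cocycle k l m := by
    set O := D.V k.1 k.2 ⊓ D.V l.1 l.2 ⊓ D.V m.1 m.2 with hO
    have hk : O ≤ D.V k.1 k.2 := inf_le_left.trans inf_le_left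
    have hl : O ≤ D.V l.1 l.2 := inf_le_left.trans inf_le_right
    have hm : O ≤ D.V m.1 m.2 := inf_le_right
    exact ring_cocycle _ _ _ _ (D.G_triple k.1 l.1 m.1 k.2 l.2 m.2 O hk hl hm)
      (D.G_mul_G_symm k.1 m.1 k.2 m.2 O hk hm)

@[simp] theorem glued_U (a : D.A) (i : (D.P a).ι) : D.glued.U ⟨a, i⟩ = (D.P a).U i := rfl

theorem glued_g (a b : D.A) (i : (D.P a).ι) (j : (D.P b).ι) :
    D.glued.g ⟨a, i⟩ ⟨b, j⟩ = D.G a b i j := rfl

theorem glued_g_diag (a : D.A) (i i' : (D.P a).ι) :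
    D.glued.g ⟨a, i⟩ ⟨a, i'⟩ = (D.P a).g i i' := D.G_diag a i i'

/-- the glued cocycle is rigidified by the given rigidifications. -/
theorem isTrivial_pullback_glued : (D.glued.pullback e).IsTrivial := by
  refine ⟨⟨fun k => D.τ k.1 k.2, ?_⟩, fun k => IsUnit.of_mul_eq_one _ (D.τ_mul_τi k.1 k.2)⟩
  rintro ⟨a, i⟩ ⟨b, j⟩
  have h := D.app_G_mul_τ a b i j (D.V a i ⊓ D.V b j) inf_le_left inf_le_right
  rw [res_self] at h
  exact h.symm

end GlueData

end

end Fermat.Agent.JAC
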