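/-
PROJECT JAC — bricks (SMALL)+(SHEAF) (helper1) — **descent of cocycle data along open immersions.**

* `descend j hO x` : the function on `O ≤ range j` whose pull-back along the open immersion `j`
  is `x`;
* `PLB.ofOpenImmersion j M W hW` : a cocycle on the source of an open immersion with range `W`, as
  a partial cocycle on `W`; `PLB.iso_pull_ofOpenImmersion`;
* `LB.exists_matrix_of_iso` : the full transition matrix of an isomorphism of cocycles;
* `PLB.exists_matrix_of_iso_pull` : the same for pull-backs of partial cocycles along an open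
  immersion, descended to the target;
* `PLB.exists_rigidification` : descent of a trivialising section along `B.ι ≫ e`.
-/
import Mathlib
import Fermat.Agent.JAC.SH_helper1_GlueCore
import Fermat.Agent.JAC.BR_helper1_Iso

set_option autoImplicit false

open AlgebraicGeometry CategoryTheory Opposite TopologicalSpace

universe u

namespace Fermat.Agent.JAC

open Fermat.Agent.AV

noncomputable section

section Descend

variable {Z Y : Scheme.{u}} (j : Z ⟶ Y) [IsOpenImmersion j]

theorem bijective_app_of_le_opensRange {O : Y.Opens} (hO : O ≤ j.opensRange) :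
    Function.Bijective (j.app O).hom := by
  have := Scheme.Hom.isIso_app j O hO
  exact ConcreteCategory.bijective_of_isIso (j.app O)

/-- the function on `O ≤ range j` with given pull-back along `j`. -/
def descend {O : Y.Opens} (hO : O ≤ j.opensRange) (x : Γ(Z, j ⁻¹ᵁ O)) : Γ(Y, O) :=
  ((bijective_app_of_le_opensRange j hO).2 x).choose

@[simp]
theorem app_descend {O : Y.Opens} (hO : O ≤ j.opensRange) (x : Γ(Z, j ⁻¹ᵁ O)) :
    (j.app O).hom (descend j hO x) = x :=
  ((bijective_app_of_le_opensRange j hO).2 x).choose_spec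

theorem app_injective {O : Y.Opens} (hO : O ≤ j.opensRange) {a b : Γ(Y, O)}
    (h : (j.app O).hom a = (j.app O).hom b) : a = b :=
  (bijective_app_of_le_opensRange j hO).1 h

theorem preimage_le_of_le_image {O : Y.Opens} {U : Z.Opens} (h : O ≤ j ''ᵁ U) : j ⁻¹ᵁ O ≤ U :=
  (j.preimage_mono h).trans (j.preimage_image_eq U).le

theorem descend_mul_descend {O : Y.Opens} (hO : O ≤ j.opensRange) (x y : Γ(Z, j ⁻¹ᵁ O))
    (h : x * y = 1) : descend j hO x * descend j hO y = 1 := by
  apply app_injective j hO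
  rw [map_mul, app_descend, app_descend, h, map_one]

end Descend

/-- a cocycle on the source of an open immersion with range `W`, as a partial cocycle on `W`. -/
def PLB.ofOpenImmersion {Z Y : Scheme.{u}} (j : Z ⟶ Y) [IsOpenImmersion j] (M : LB Z)
    (W : Y.Opens) (hW : j.opensRange = W) : PLB Y W where
  ι := M.ι
  U i := j ''ᵁ M.U i
  U_le i := hW ▸ j.image_le_opensRange _
  cover := by
    rw [← hW]
    rintro _ ⟨z, rfl⟩
    have hz : z ∈ (⊤ : Z.Opens) := trivial
    rw [← M.iSup_U] at hz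
    obtain ⟨i, hi⟩ := Opens.mem_iSup.mp hz
    exact Opens.mem_iSup.mpr ⟨i, ⟨z, hi, rfl⟩⟩
  g i k := descend j (inf_le_left.trans (j.image_le_opensRange _))
    (res (j ⁻¹ᵁ (j ''ᵁ M.U i ⊓ j ''ᵁ M.U k))
      (le_inf (preimage_le_of_le_image j inf_le_left) (preimage_le_of_le_image j inf_le_right))
      (M.g i k))
  g_self i := by
    apply app_injective j (inf_le_left.trans (j.image_le_opensRange _))
    rw [app_descend, M.g_self, map_one, map_one]
  cocycle i k l := by
    apply app_injective j ((inf_le_left.trans inf_le_left).trans (j.image_le_opensRange _))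
    rw [map_mul, app_res, app_res, app_res, app_descend, app_descend, app_descend, res_res,
      res_res, res_res]
    exact M.cocycle' i k l _ (preimage_le_of_le_image j (inf_le_left.trans inf_le_left))
      (preimage_le_of_le_image j (inf_le_left.trans inf_le_right))
      (preimage_le_of_le_image j inf_le_right)

theorem PLB.pull_ofOpenImmersion_g {Z Y : Scheme.{u}} (j : Z ⟶ Y) [IsOpenImmersion j] (M : LB Z)
    (W : Y.Opens) (hW : j.opensRange = W) (hj : j ⁻¹ᵁ W = ⊤) (i k : M.ι) :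
    ((PLB.ofOpenImmersion j M W hW).pull j hj).g i k =
      res (j ⁻¹ᵁ (j ''ᵁ M.U i ⊓ j ''ᵁ M.U k))
        (le_inf (preimage_le_of_le_image j inf_le_left) (preimage_le_of_le_image j inf_le_right))
        (M.g i k) :=
  app_descend j (inf_le_left.trans (j.image_le_opensRange _)) _

/-- the pull-back of `ofOpenImmersion j M` along `j` is `M`. -/
theorem PLB.iso_pull_ofOpenImmersion {Z Y : Scheme.{u}} (j : Z ⟶ Y) [IsOpenImmersion j]
    (M : LB Z) (W : Y.Opens) (hW : j.opensRange = W) (hj : j ⁻¹ᵁ W = ⊤) :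
    LB.Iso ((PLB.ofOpenImmersion j M W hW).pull j hj) M := by
  refine ⟨{
    κ := M.ι
    W := M.U
    iSup_W := M.iSup_U
    α := fun (k : M.ι) => k
    β := id
    hα := fun k => (j.preimage_image_eq (M.U k)).ge
    hβ := fun _ => le_rfl
    f := fun _ => 1
    fi := fun _ => 1
    f_mul_fi := fun _ => mul_one 1
    compat := ?_ }⟩
  intro (k : M.ι) (l : M.ι)
  rw [map_one, map_one, one_mul, mul_one]
  have h := PLB.pull_ofOpenImmersion_g j M W hW hj k l
  have h2 : ∀ (hle : M.U k ⊓ M.U l ≤ j ⁻¹ᵁ (j ''ᵁ M.U k ⊓ j ''ᵁ M.U l)),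
      res (M.U k ⊓ M.U l) hle (((PLB.ofOpenImmersion j M W hW).pull j hj).g k l) =
        res (M.U k ⊓ M.U l) le_rfl (M.g k l) := by
    intro hle
    rw [h, res_res]
  exact h2 _

/-- the full transition matrix of an isomorphism of cocycles: units `f i j` on `M.U i ⊓ N.U j`
(the `N`-coefficient in the chart `j` is `f i j` times the `M`-coefficient in the chart `i`). -/
theorem LB.exists_matrix_of_iso {X : Scheme.{u}} {M N : LB X} (h : LB.Iso M N) :
    ∃ f fi : ∀ (i : M.ι) (j : N.ι), Γ(X, M.U i ⊓ N.U j),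
      (∀ i j, f i j * fi i j = 1) ∧
      ∀ (i : M.ι) (j : N.ι) (i' : M.ι) (j' : N.ι) (O : X.Opens) (hi : O ≤ M.U i) (hj : O ≤ N.U j)
        (hi' : O ≤ M.U i') (hj' : O ≤ N.U j'),
        res O (le_inf hi hj) (f i j) * res O (le_inf hi hi') (M.g i i') =
          res O (le_inf hj hj') (N.g j j') * res O (le_inf hi' hj') (f i' j') := by
  obtain ⟨D⟩ := h
  set θ := LB.IsoData.toModulesIso D with hθ
  set F := LB.Fam.ofHom θ.hom with hF
  have hfr : ∀ i, IsFrame (LB.toModules N) (F.p i) := LB.Fam.isFrame_ofHom_iso θ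
  set σ : ∀ i, N.SecOn (M.U i) := fun i => LB.toSecOn N (F.p i) with hσ
  have hu : ∀ i j, IsUnit ((σ i).s j) := fun i j => isUnit_s_of_isFrame N _ (hfr i) j
  have hex : ∀ i j, ∃ t : Γ(X, N.U j ⊓ M.U i), (σ i).s j * t = 1 :=
    fun i j => (hu i j).exists_right_inv
  choose t ht using hex
  have hA : ∀ (i i' : M.ι) (j : N.ι) (O : X.Opens) (hi : O ≤ M.U i) (hi' : O ≤ M.U i')
      (hj : O ≤ N.U j),
      res O (le_inf hj hi') ((σ i').s j) =
        res O (le_inf hi hi') (M.g i i') * res O (le_inf hj hi) ((σ i).s j) := by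
    intro i i' j O hi hi' hj
    have h := F.compat' i i' O hi hi'
    have h1 := congrArg (fun y => (LB.toSecOn N y).s j) h
    simp only [LB.toSecOn_smul, toSecOn_pres, LB.SecOn.smul_s, LB.SecOn.restrict_s] at h1
    have h2 := congrArg (res O (le_inf hj le_rfl)) h1
    simp only [map_mul, res_res] at h2
    exact h2
  refine ⟨fun i j => res _ (le_inf inf_le_right inf_le_left) ((σ i).s j),
    fun i j => res _ (le_inf inf_le_right inf_le_left) (t i j),
    fun i j => by rw [← map_mul, ht, map_one], ?_⟩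
  intro i j i' j' O hi hj hi' hj'
  simp only [res_res]
  have hB := (σ i').compat' j j' O hj hj' hi'
  have hA' := hA i i' j O hi hi' hj
  calc res O _ ((σ i).s j) * res O _ (M.g i i')
      = res O (le_inf hi hi') (M.g i i') * res O (le_inf hj hi) ((σ i).s j) := mul_comm _ _
    _ = res O (le_inf hj hi') ((σ i').s j) := hA'.symm
    _ = res O (le_inf hj hj') (N.g j j') * res O (le_inf hj' hi') ((σ i').s j') := hB

/-- the full transition matrix of an isomorphism between the pull-backs of two partial cocycles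
along an open immersion whose range contains the overlap, descended to the target. -/
theorem PLB.exists_matrix_of_iso_pull {Z Y : Scheme.{u}} (j : Z ⟶ Y) [IsOpenImmersion j]
    {W W' : Y.Opens} (P : PLB Y W) (P' : PLB Y W') (hj : j ⁻¹ᵁ W = ⊤) (hj' : j ⁻¹ᵁ W' = ⊤)
    (hle : W ⊓ W' ≤ j.opensRange) (h : LB.Iso (P.pull j hj) (P'.pull j hj')) :
    ∃ f fi : ∀ (i : P.ι) (k : P'.ι), Γ(Y, P.U i ⊓ P'.U k),
      (∀ i k, f i k * fi i k = 1) ∧
      ∀ (i : P.ι) (k : P'.ι) (i' : P.ι) (k' : P'.ι) (O : Y.Opens) (hi : O ≤ P.U i)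
        (hk : O ≤ P'.U k) (hi' : O ≤ P.U i') (hk' : O ≤ P'.U k'),
        res O (le_inf hi hk) (f i k) * res O (le_inf hi hi') (P.g i i') =
          res O (le_inf hk hk') (P'.g k k') * res O (le_inf hi' hk') (f i' k') := by
  obtain ⟨f', fi', hff', hc'⟩ := LB.exists_matrix_of_iso h
  have hO : ∀ (i : P.ι) (k : P'.ι), P.U i ⊓ P'.U k ≤ j.opensRange := fun i k =>
    (inf_le_inf (P.U_le i) (P'.U_le k)).trans hle
  refine ⟨fun i k => descend j (hO i k) (f' i k), fun i k => descend j (hO i k) (fi' i k),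
    fun i k => descend_mul_descend j (hO i k) _ _ (hff' i k), ?_⟩
  intro i k i' k' O hi hk hi' hk'
  apply app_injective j ((le_inf hi hk).trans (hO i k))
  have hd : ∀ i k, (j.app (P.U i ⊓ P'.U k)).hom (descend j (hO i k) (f' i k)) = f' i k :=
    fun i k => app_descend j (hO i k) (f' i k)
  have h1 := hc' i k i' k' (j ⁻¹ᵁ O) (j.preimage_mono hi) (j.preimage_mono hk)
    (j.preimage_mono hi') (j.preimage_mono hk')
  beta_reduce
  rw [map_mul, map_mul, app_res, app_res, app_res, app_res, hd i k, hd i' k']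
  exact h1

theorem PLB.pull_comp_preimage {Y Z Z' : Scheme.{u}} {W : Y.Opens} (j : Z ⟶ Y) (p : Z' ⟶ Z)
    (hj : j ⁻¹ᵁ W = ⊤) : (p ≫ j) ⁻¹ᵁ W = ⊤ := by
  rw [Scheme.Hom.comp_preimage, hj]
  rfl

theorem PLB.pullback_pull {Y Z Z' : Scheme.{u}} {W : Y.Opens} (P : PLB Y W) (j : Z ⟶ Y)
    (p : Z' ⟶ Z) (hj : j ⁻¹ᵁ W = ⊤) :
    (P.pull j hj).pullback p = P.pull (p ≫ j) (PLB.pull_comp_preimage j p hj) := rfl

theorem LB.isTrivial_of_lbIso {X : Scheme.{u}} {M N : LB X} (h : LB.Iso M N) (hM : M.IsTrivial) :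
    N.IsTrivial := by
  rw [← PicGroup.mk_eq_zero_iff] at hM ⊢
  rw [← hM]
  exact ((PicGroup.mk_eq_mk_iff M N).mpr h).symm

theorem LB.lbIso_pullback {X Y : Scheme.{u}} {M N : LB X} (h : LB.Iso M N) (φ : Y ⟶ X) :
    LB.Iso (M.pullback φ) (N.pullback φ) := ⟨h.some.pullback φ⟩

/-- the pull-back of `ofOpenImmersion j M` along `p ≫ j` is the pull-back of `M` along `p`. -/
theorem PLB.iso_pull_ofOpenImmersion_comp {Z Y Z' : Scheme.{u}} (j : Z ⟶ Y) [IsOpenImmersion j]
    (M : LB Z) (W : Y.Opens) (hW : j.opensRange = W) (p : Z' ⟶ Z) (j' : Z' ⟶ Y)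
    (hp : p ≫ j = j') (hj' : j' ⁻¹ᵁ W = ⊤) :
    LB.Iso ((PLB.ofOpenImmersion j M W hW).pull j' hj') (M.pullback p) := by
  subst hp
  have hj : j ⁻¹ᵁ W = ⊤ := by
    rw [← hW]
    exact Scheme.Hom.preimage_opensRange j
  exact LB.lbIso_pullback (PLB.iso_pull_ofOpenImmersion j M W hW hj) p

/-- descent of a trivialising section of the pull-back along `B.ι ≫ e` to `T`. -/
theorem PLB.exists_rigidification {T Y : Scheme.{u}} {W : Y.Opens} (P : PLB Y W) (e : T ⟶ Y)
    (B : T.Opens) (hB : e ⁻¹ᵁ W ≤ B) (hpull : (B.ι ≫ e) ⁻¹ᵁ W = ⊤)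
    (htriv : (P.pull (B.ι ≫ e) hpull).IsTrivial) :
    ∃ τ τi : ∀ i, Γ(T, e ⁻¹ᵁ P.U i), (∀ i, τ i * τi i = 1) ∧
      ∀ i i', res (e ⁻¹ᵁ P.U i ⊓ e ⁻¹ᵁ P.U i') inf_le_left (τ i) =
        appInf e (P.U i) (P.U i') (P.g i i') *
          res (e ⁻¹ᵁ P.U i ⊓ e ⁻¹ᵁ P.U i') inf_le_right (τ i') := by
  obtain ⟨s, hs⟩ := htriv
  have hex : ∀ i, ∃ t, s.1 i * t = 1 := fun i => (hs i).exists_right_inv
  choose t ht using hex
  have hO : ∀ i, e ⁻¹ᵁ P.U i ≤ B.ι.opensRange := fun i => by
    rw [Scheme.Opens.opensRange_ι]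
    exact (e.preimage_mono (P.U_le i)).trans hB
  refine ⟨fun i => descend B.ι (hO i) (s.1 i), fun i => descend B.ι (hO i) (t i),
    fun i => descend_mul_descend B.ι (hO i) _ _ (ht i), ?_⟩
  intro i i'
  apply app_injective B.ι (inf_le_left.trans (hO i))
  have hd : ∀ i, (B.ι.app (e ⁻¹ᵁ P.U i)).hom (descend B.ι (hO i) (s.1 i)) = s.1 i :=
    fun i => app_descend B.ι (hO i) (s.1 i)
  have h1 := s.2 i i'
  beta_reduce
  rw [map_mul, app_res, app_res, hd i, hd i']
  exact h1

end

end Fermat.Agent.JAC
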