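/-
PROJECT JAC — bricks (SMALL)+(SHEAF) (helper1) — **gluing rigidified cocycles (Theorem G).**

`q : Y ⟶ T` with a section `e`, functions on `q⁻¹ V` come from `V`.  Given a cover `U a` of `T`,
open immersions `j a : Z a ⟶ Y` with range `q⁻¹ (U a)`, cocycles `M a` on `Z a` which are trivial
along (the lift of) `e`, and isomorphisms between `M a` and `M b` over `q⁻¹ (U a ⊓ U b)`, there is
a cocycle `L` on `Y`, trivial along `e`, whose pull-back along each `j a` is isomorphic to `M a`.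
-/
import Mathlib
import Fermat.Agent.JAC.SH_helper1_Descend

set_option autoImplicit false

open AlgebraicGeometry CategoryTheory Opposite TopologicalSpace

universe u

namespace Fermat.Agent.JAC

open Fermat.Agent.AV

noncomputable section

/-- the pull-back of the glued cocycle to a chart is the given local cocycle. -/
theorem GlueData.iso_pull_glued {T Y : Scheme.{u}} {q : Y ⟶ T} {e : T ⟶ Y} (D : GlueData q e)
    (a : D.A) {Z : Scheme.{u}} (j : Z ⟶ Y) (hj : j ⁻¹ᵁ (q ⁻¹ᵁ D.U a) = ⊤) :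
    LB.Iso (D.glued.pullback j) ((D.P a).pull j hj) := by
  refine ⟨{
    κ := (D.P a).ι
    W := fun k => j ⁻¹ᵁ (D.P a).U k
    iSup_W := ((D.P a).pull j hj).iSup_U
    α := fun k => (⟨a, k⟩ : Σ a, (D.P a).ι)
    β := fun k => k
    hα := fun _ => le_rfl
    hβ := fun _ => le_rfl
    f := fun _ => 1
    fi := fun _ => 1
    f_mul_fi := fun _ => mul_one 1
    compat := ?_ }⟩
  intro k l
  rw [map_one, map_one, one_mul, mul_one]
  have h : (D.glued.pullback j).g ⟨a, k⟩ ⟨a, l⟩ = ((D.P a).pull j hj).g k l :=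
    congrArg (j.app ((D.P a).U k ⊓ (D.P a).U l)).hom (D.glued_g_diag a k l)
  exact congrArg _ h

/-- **Theorem G** : gluing rigidified cocycles along a cover of the base. -/
theorem exists_glued_LB {T Y : Scheme.{u}} (q : Y ⟶ T) (e : T ⟶ Y) (he : e ≫ q = 𝟙 T)
    (hfun : ∀ (V : T.Opens) (hle : V ≤ e ⁻¹ᵁ (q ⁻¹ᵁ V)) (h : Γ(Y, q ⁻¹ᵁ V)),
      (q.app V).hom ((e.appLE (q ⁻¹ᵁ V) V hle).hom h) = h)
    {A : Type u} (U : A → T.Opens) (hU : ⨆ a, U a = ⊤)
    (Z : A → Scheme.{u}) (j : ∀ a, Z a ⟶ Y) [∀ a, IsOpenImmersion (j a)]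
    (hj : ∀ a, (j a).opensRange = q ⁻¹ᵁ U a)
    (M : ∀ a, LB (Z a))
    (ea : ∀ a, (U a).toScheme ⟶ Z a) (hea : ∀ a, ea a ≫ j a = (U a).ι ≫ e)
    (hrig : ∀ a, ((M a).pullback (ea a)).IsTrivial)
    (Zab : A → A → Scheme.{u}) (p₁ : ∀ a b, Zab a b ⟶ Z a) (p₂ : ∀ a b, Zab a b ⟶ Z b)
    (hp : ∀ a b, p₁ a b ≫ j a = p₂ a b ≫ j b)
    [∀ a b, IsOpenImmersion (p₁ a b ≫ j a)]
    (hrange : ∀ a b, q ⁻¹ᵁ U a ⊓ q ⁻¹ᵁ U b ≤ (p₁ a b ≫ j a).opensRange)
    (hiso : ∀ a b, LB.Iso ((M a).pullback (p₁ a b)) ((M b).pullback (p₂ a b))) :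
    ∃ L : LB Y, (L.pullback e).IsTrivial ∧ ∀ a, LB.Iso (L.pullback (j a)) (M a) := by
  -- the local cocycles
  set P : ∀ a, PLB Y (q ⁻¹ᵁ U a) := fun a => PLB.ofOpenImmersion (j a) (M a) _ (hj a) with hP
  have hjtop : ∀ a, (j a) ⁻¹ᵁ (q ⁻¹ᵁ U a) = ⊤ := fun a => by
    rw [← hj a]
    exact Scheme.Hom.preimage_opensRange (j a)
  -- the rigidifications
  have hτ : ∀ a, ∃ τ τi : ∀ i, Γ(T, e ⁻¹ᵁ (P a).U i), (∀ i, τ i * τi i = 1) ∧
      ∀ i i', res (e ⁻¹ᵁ (P a).U i ⊓ e ⁻¹ᵁ (P a).U i') inf_le_left (τ i) =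
        appInf e ((P a).U i) ((P a).U i') ((P a).g i i') *
          res (e ⁻¹ᵁ (P a).U i ⊓ e ⁻¹ᵁ (P a).U i') inf_le_right (τ i') := by
    intro a
    have hB : e ⁻¹ᵁ (q ⁻¹ᵁ U a) ≤ U a := (preimage_preimage_section q e he (U a)).le
    have hpull : ((U a).ι ≫ e) ⁻¹ᵁ (q ⁻¹ᵁ U a) = ⊤ := by
      rw [← hea a]
      exact PLB.pull_comp_preimage (j a) (ea a) (hjtop a)
    refine PLB.exists_rigidification (P a) e (U a) hB hpull ?_
    exact LB.isTrivial_of_lbIso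
      (PLB.iso_pull_ofOpenImmersion_comp (j a) (M a) _ (hj a) (ea a) _ (hea a) hpull).symm
      (hrig a)
  choose τ τi hττi hτc using hτ
  -- the transition matrices
  have hf : ∀ a b, ∃ f fi : ∀ (k : (P b).ι) (i : (P a).ι), Γ(Y, (P b).U k ⊓ (P a).U i),
      (∀ k i, f k i * fi k i = 1) ∧
      ∀ (k : (P b).ι) (i : (P a).ι) (k' : (P b).ι) (i' : (P a).ι) (O : Y.Opens)
        (hk : O ≤ (P b).U k) (hi : O ≤ (P a).U i) (hk' : O ≤ (P b).U k') (hi' : O ≤ (P a).U i'),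
        res O (le_inf hk hi) (f k i) * res O (le_inf hk hk') ((P b).g k k') =
          res O (le_inf hi hi') ((P a).g i i') * res O (le_inf hk' hi') (f k' i') := by
    intro a b
    have h1 : (p₁ a b ≫ j a) ⁻¹ᵁ (q ⁻¹ᵁ U a) = ⊤ :=
      PLB.pull_comp_preimage (j a) (p₁ a b) (hjtop a)
    have h2 : (p₁ a b ≫ j a) ⁻¹ᵁ (q ⁻¹ᵁ U b) = ⊤ := by
      rw [hp a b]
      exact PLB.pull_comp_preimage (j b) (p₂ a b) (hjtop b)
    have hle : q ⁻¹ᵁ U b ⊓ q ⁻¹ᵁ U a ≤ (p₁ a b ≫ j a).opensRange := by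
      rw [inf_comm]
      exact hrange a b
    refine PLB.exists_matrix_of_iso_pull (p₁ a b ≫ j a) (P b) (P a) h2 h1 hle ?_
    have i1 : LB.Iso ((P a).pull (p₁ a b ≫ j a) h1) ((M a).pullback (p₁ a b)) :=
      PLB.iso_pull_ofOpenImmersion_comp (j a) (M a) _ (hj a) (p₁ a b) _ rfl h1
    have i2 : LB.Iso ((P b).pull (p₁ a b ≫ j a) h2) ((M b).pullback (p₂ a b)) :=
      PLB.iso_pull_ofOpenImmersion_comp (j b) (M b) _ (hj b) (p₂ a b) _ (hp a b).symm h2
    exact i2.trans ((hiso a b).symm.trans i1.symm)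
  choose F Fi hFFi hFc using hf
  -- the glue data
  let D : GlueData q e :=
    { sec := he
      hfun := hfun
      A := A
      U := U
      iSup_U := hU
      P := P
      τ := τ
      τi := τi
      τ_mul_τi := hττi
      τ_compat := hτc
      f := fun a b i k => res _ (le_inf inf_le_right inf_le_left) (F a b k i)
      fi := fun a b i k => res _ (le_inf inf_le_right inf_le_left) (Fi a b k i)
      f_mul_fi := fun a b i k => by rw [← map_mul, hFFi, map_one]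
      f_compat := fun a b i k i' k' => by
        simp only [res_res]
        exact hFc a b k i k' i' _ (inf_le_left.trans inf_le_right)
          (inf_le_left.trans inf_le_left) (inf_le_right.trans inf_le_right)
          (inf_le_right.trans inf_le_left) }
  refine ⟨D.glued, D.isTrivial_pullback_glued, fun a => ?_⟩
  exact (D.iso_pull_glued a (j a) (hjtop a)).trans
    (PLB.iso_pull_ofOpenImmersion (j a) (M a) _ (hj a) (hjtop a))

end

end Fermat.Agent.JAC
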