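/-
PROJECT JAC — bricks (SMALL)+(SHEAF) (helper1) — **the rigidified Picard functor is a Zariski
sheaf.**

`isZariskiSheaf_picFunctor` : for `c : C ⟶ Spec k` proper with `C` integral, `k` algebraically
closed, and a section `ε`, the functor `picFunctor c ε Q` is a Zariski sheaf in the sense of
helper9's `REP.IsZariskiSheaf`.
-/
import Mathlib
import Fermat.Agent.JAC.SH_helper1_Glue
import Fermat.Agent.JAC.SH_helper1_Functor
import Fermat.Agent.JAC.REP_helper9_Iface
import Fermat.Agent.AV.SEESAW_helper1_Main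

set_option autoImplicit false

open AlgebraicGeometry CategoryTheory CategoryTheory.Limits Opposite TopologicalSpace
  AlgebraicGeometry.RelPicard NeronModelInfra

universe u

namespace Fermat.Agent.JAC

open Fermat.Agent.AV

noncomputable section

section

variable {k : Type u} [CommRing k] {C : Scheme.{u}} (c : C ⟶ Spec (CommRingCat.of k))

instance isOpenImmersion_baseChangeSnd {T T' : Scheme.{u}} {t : T ⟶ Spec (CommRingCat.of k)}
    {t' : T' ⟶ Spec (CommRingCat.of k)} (ψ : SchemeHomOver t' t) [IsOpenImmersion ψ.1] :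
    IsOpenImmersion (baseChangeSnd c ψ) := by
  unfold baseChangeSnd
  infer_instance

theorem opensRange_baseChangeSnd {T T' : Scheme.{u}} {t : T ⟶ Spec (CommRingCat.of k)}
    {t' : T' ⟶ Spec (CommRingCat.of k)} (ψ : SchemeHomOver t' t) [IsOpenImmersion ψ.1] :
    (baseChangeSnd c ψ).opensRange = pullback.snd c t ⁻¹ᵁ ψ.1.opensRange := by
  apply Opens.ext
  show Set.range (baseChangeSnd c ψ) = _
  unfold baseChangeSnd
  rw [AlgebraicGeometry.Scheme.Pullback.range_map]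
  have : Set.range (𝟙 C : C ⟶ C) = Set.univ := by
    simp
  rw [this, Set.preimage_univ, Set.univ_inter]
  rfl

end

section

variable {k : Type u} [Field k] {C : Scheme.{u}}
  (c : C ⟶ Spec (CommRingCat.of k))
  (ε : SchemeHomOver (𝟙 (Spec (CommRingCat.of k))) c)

theorem rigSection_snd {T : Scheme.{u}} (t : T ⟶ Spec (CommRingCat.of k)) :
    rigSection c t ε ≫ pullback.snd c t = 𝟙 T := by
  unfold rigSection
  exact pullback.lift_snd _ _ _

variable [IsAlgClosed k] [IsProper c] [IsIntegral C]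

/-- functions on `C ×ₛ V` come from `V`. -/
theorem hfun_rigSection {T : Scheme.{u}} (t : T ⟶ Spec (CommRingCat.of k)) (V : T.Opens)
    (hle : V ≤ rigSection c t ε ⁻¹ᵁ (pullback.snd c t ⁻¹ᵁ V))
    (h : Γ(pullback c t, pullback.snd c t ⁻¹ᵁ V)) :
    ((pullback.snd c t).app V).hom
      (((rigSection c t ε).appLE (pullback.snd c t ⁻¹ᵁ V) V hle).hom h) = h :=
  app_appLE_of_isPullback (IsPullback.of_hasPullback c t) (rigSection c t ε)
    (rigSection_snd c ε t) V hle h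

/-- **separatedness**: two rigidified cocycles on `C ×ₛ T` which are isomorphic over the members
of an open cover of `T` are isomorphic. -/
theorem iso_of_locally_iso {T : Scheme.{u}} (t : T ⟶ Spec (CommRingCat.of k))
    (𝒰 : Set T.Opens) (h𝒰 : sSup 𝒰 = ⊤) (M M' : LB (pullback c t))
    (hM : LBRigidified c ε t M) (hM' : LBRigidified c ε t M')
    (hloc : ∀ U ∈ 𝒰, LB.Iso
      (M.pullback (baseChangeSnd c (⟨U.ι, rfl⟩ : SchemeHomOver (U.ι ≫ t) t)))
      (M'.pullback (baseChangeSnd c (⟨U.ι, rfl⟩ : SchemeHomOver (U.ι ≫ t) t)))) :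
    LB.Iso M M' := by
  set N : LB (pullback c t) := M'.tensor M.inv with hN
  have hNmk : ∀ {Z : Scheme.{u}} (φ : Z ⟶ pullback c t),
      PicGroup.mk (N.pullback φ) = PicGroup.mk (M'.pullback φ) - PicGroup.mk (M.pullback φ) := by
    intro Z φ
    rw [← PicGroup.map_mk, ← PicGroup.map_mk, ← PicGroup.map_mk, hN, PicGroup.mk_tensor,
      PicGroup.mk_inv, map_add, map_neg, sub_eq_add_neg]
  have hNtriv : N.IsTrivial := by
    refine LB.isTrivial_of_locally_trivial (pullback.snd c t) (rigSection c t ε)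
      (rigSection_snd c ε t) (hfun_rigSection c ε t) ?_ ?_
    · rw [← PicGroup.mk_eq_zero_iff, hNmk]
      have h1 : PicGroup.mk (M.pullback (rigSection c t ε)) = 0 :=
        (PicGroup.mk_eq_zero_iff _).mpr hM
      have h2 : PicGroup.mk (M'.pullback (rigSection c t ε)) = 0 :=
        (PicGroup.mk_eq_zero_iff _).mpr hM'
      rw [h1, h2, sub_zero]
    · intro x
      have hx : x ∈ (⊤ : T.Opens) := trivial
      rw [← h𝒰] at hx
      obtain ⟨U, hU, hxU⟩ : ∃ U : T.Opens, U ∈ 𝒰 ∧ x ∈ U := Opens.mem_sSup.mp hx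
      refine ⟨U, hxU, ?_⟩
      set ψ : SchemeHomOver (U.ι ≫ t) t := ⟨U.ι, rfl⟩ with hψ
      have : IsOpenImmersion ψ.1 := inferInstanceAs (IsOpenImmersion U.ι)
      have hr : (baseChangeSnd c ψ).opensRange = pullback.snd c t ⁻¹ᵁ U := by
        rw [opensRange_baseChangeSnd]
        congr 1
        exact Scheme.Opens.opensRange_ι U
      refine LB.isTrivialOn_of_isOpenImmersion (baseChangeSnd c ψ) _ hr.ge ?_
      have h3 : (N.pullback (baseChangeSnd c ψ)).IsTrivial := by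
        rw [← PicGroup.mk_eq_zero_iff, hNmk, sub_eq_zero]
        exact ((PicGroup.mk_eq_mk_iff _ _).mpr (hloc U hU)).symm
      exact LB.IsTrivialOn.mono _ le_top ((LB.isTrivialOn_top_iff _).mpr h3)
  have h4 : PicGroup.mk N = 0 := (PicGroup.mk_eq_zero_iff _).mpr hNtriv
  rw [hN, PicGroup.mk_tensor, PicGroup.mk_inv, ← sub_eq_add_neg, sub_eq_zero] at h4
  exact (PicGroup.mk_eq_mk_iff _ _).mp h4.symm

omit [IsAlgClosed k] [IsProper c] [IsIntegral C] in
theorem homOfLE_comp_over {T : Scheme.{u}} (t : T ⟶ Spec (CommRingCat.of k)) {U V : T.Opens}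
    (h : U ≤ V) : T.homOfLE h ≫ V.ι ≫ t = U.ι ≫ t := by
  rw [← Category.assoc, Scheme.homOfLE_ι]

/-- **gluing**: rigidified cocycles on the `C ×ₛ U`, `U` in an open cover of `T`, which are
isomorphic over the pairwise intersections, come from a rigidified cocycle on `C ×ₛ T`. -/
theorem exists_glued_of_locally {T : Scheme.{u}} (t : T ⟶ Spec (CommRingCat.of k))
    (𝒰 : Set T.Opens) (h𝒰 : sSup 𝒰 = ⊤)
    (M : ∀ U : T.Opens, U ∈ 𝒰 → LB (pullback c (U.ι ≫ t)))
    (hM : ∀ (U : T.Opens) (hU : U ∈ 𝒰), LBRigidified c ε (U.ι ≫ t) (M U hU))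
    (hiso : ∀ (U : T.Opens) (hU : U ∈ 𝒰) (V : T.Opens) (hV : V ∈ 𝒰), LB.Iso
      ((M U hU).pullback (baseChangeSnd c
        (⟨T.homOfLE (inf_le_left : U ⊓ V ≤ U), homOfLE_comp_over t _⟩ :
          SchemeHomOver ((U ⊓ V).ι ≫ t) (U.ι ≫ t))))
      ((M V hV).pullback (baseChangeSnd c
        (⟨T.homOfLE (inf_le_right : U ⊓ V ≤ V), homOfLE_comp_over t _⟩ :
          SchemeHomOver ((U ⊓ V).ι ≫ t) (V.ι ≫ t))))) :
    ∃ L : LB (pullback c t), LBRigidified c ε t L ∧
      ∀ (U : T.Opens) (hU : U ∈ 𝒰),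
        LB.Iso (L.pullback (baseChangeSnd c (⟨U.ι, rfl⟩ : SchemeHomOver (U.ι ≫ t) t)))
          (M U hU) := by
  -- the structure data of the inclusions
  set ψ : ∀ U : T.Opens, SchemeHomOver (U.ι ≫ t) t := fun U => ⟨U.ι, rfl⟩ with hψ
  have hψo : ∀ U : T.Opens, IsOpenImmersion (ψ U).1 := fun U =>
    inferInstanceAs (IsOpenImmersion U.ι)
  have hjo : ∀ U : T.Opens, IsOpenImmersion (baseChangeSnd c (ψ U)) := fun U =>
    haveI := hψo U
    inferInstance
  have hr : ∀ U : T.Opens, (baseChangeSnd c (ψ U)).opensRange = pullback.snd c t ⁻¹ᵁ U := by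
    intro U
    have := hψo U
    rw [opensRange_baseChangeSnd]
    congr 1
    exact Scheme.Opens.opensRange_ι U
  set ψ₁ : ∀ U V : T.Opens, SchemeHomOver ((U ⊓ V).ι ≫ t) (U.ι ≫ t) := fun U V =>
    ⟨T.homOfLE (inf_le_left : U ⊓ V ≤ U), homOfLE_comp_over t _⟩ with hψ₁
  set ψ₂ : ∀ U V : T.Opens, SchemeHomOver ((U ⊓ V).ι ≫ t) (V.ι ≫ t) := fun U V =>
    ⟨T.homOfLE (inf_le_right : U ⊓ V ≤ V), homOfLE_comp_over t _⟩ with hψ₂
  have hp1 : ∀ U V : T.Opens,
      baseChangeSnd c (ψ₁ U V) ≫ baseChangeSnd c (ψ U) = baseChangeSnd c (ψ (U ⊓ V)) := by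
    intro U V
    rw [baseChangeSnd_comp]
    congr 1
    exact Subtype.ext (Scheme.homOfLE_ι T (inf_le_left : U ⊓ V ≤ U))
  have hp2 : ∀ U V : T.Opens,
      baseChangeSnd c (ψ₂ U V) ≫ baseChangeSnd c (ψ V) = baseChangeSnd c (ψ (U ⊓ V)) := by
    intro U V
    rw [baseChangeSnd_comp]
    congr 1
    exact Subtype.ext (Scheme.homOfLE_ι T (inf_le_right : U ⊓ V ≤ V))
  have hUtop : ⨆ a : 𝒰, (a.1 : T.Opens) = ⊤ := by
    rw [← h𝒰, sSup_eq_iSup']
  have : ∀ a : 𝒰, IsOpenImmersion (baseChangeSnd c (ψ a.1)) := fun a => hjo a.1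
  have : ∀ a b : 𝒰, IsOpenImmersion (baseChangeSnd c (ψ₁ a.1 b.1) ≫ baseChangeSnd c (ψ a.1)) :=
    fun a b => by
      rw [hp1]
      exact hjo _
  obtain ⟨L, hL, hLiso⟩ := exists_glued_LB (pullback.snd c t) (rigSection c t ε)
    (rigSection_snd c ε t) (hfun_rigSection c ε t) (A := 𝒰) (fun a => a.1) hUtop
    (fun a => pullback c (a.1.ι ≫ t)) (fun a => baseChangeSnd c (ψ a.1)) (fun a => hr a.1)
    (fun a => M a.1 a.2) (fun a => rigSection c (a.1.ι ≫ t) ε)
    (fun a => rigSection_baseChangeSnd c ε (ψ a.1)) (fun a => hM a.1 a.2)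
    (fun a b => pullback c ((a.1 ⊓ b.1).ι ≫ t)) (fun a b => baseChangeSnd c (ψ₁ a.1 b.1))
    (fun a b => baseChangeSnd c (ψ₂ a.1 b.1)) (fun a b => (hp1 a.1 b.1).trans (hp2 a.1 b.1).symm)
    (fun a b => by
      intro y hy
      have h1 : y ∈ (baseChangeSnd c (ψ (a.1 ⊓ b.1))).opensRange := by
        rw [hr]
        exact hy
      obtain ⟨z, rfl⟩ := h1
      exact ⟨z, by rw [hp1]⟩)
    (fun a b => hiso a.1 a.2 b.1 b.2)
  exact ⟨L, hL, fun U hU => hLiso ⟨U, hU⟩⟩

/-- **the rigidified Picard functor is a Zariski sheaf.** -/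
theorem isZariskiSheaf_picFunctor (Q : LBCond c) : REP.IsZariskiSheaf (picFunctor c ε Q) where
  sep T 𝒰 h𝒰 a b hab := by
    obtain ⟨M, hr, hq, rfl⟩ := picFunctor.exists_rep a
    obtain ⟨M', hr', hq', rfl⟩ := picFunctor.exists_rep b
    rw [picFunctor.mk_eq_mk_iff]
    refine iso_of_locally_iso c ε T.hom 𝒰 h𝒰 M M' hr hr' (fun U hU => ?_)
    have h := hab U hU
    rw [picFunctor.map_mk, picFunctor.map_mk, picFunctor.mk_eq_mk_iff] at h
    exact h
  glue T 𝒰 h𝒰 x hx := by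
    have hex : ∀ (U : T.left.Opens) (hU : U ∈ 𝒰),
        ∃ (M : LB (pullback c (REP.resOpen T U).hom))
          (hrig : LBRigidified c ε (REP.resOpen T U).hom M)
          (hQ : Q.P (REP.resOpen T U).hom M),
          x U hU = picFunctor.mk M hrig hQ :=
      fun U hU => picFunctor.exists_rep (x U hU)
    choose M hr hq hxM using hex
    obtain ⟨L, hL, hLiso⟩ := exists_glued_of_locally c ε T.hom 𝒰 h𝒰 M hr (fun U hU V hV => by
      have h := hx U hU V hV
      rw [hxM U hU, hxM V hV] at h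
      have h1 := picFunctor.map_mk (REP.resLE T (inf_le_left : U ⊓ V ≤ U)) (M U hU) (hr U hU)
        (hq U hU)
      have h2 := picFunctor.map_mk (REP.resLE T (inf_le_right : U ⊓ V ≤ V)) (M V hV) (hr V hV)
        (hq V hV)
      exact (picFunctor.mk_eq_mk_iff _ _ _ _).mp ((h1.symm.trans h).trans h2))
    have hQL : Q.P T.hom L := Q.isLocal T.hom L 𝒰 h𝒰
      (fun U hU => Q.iso _ _ _ (hLiso U hU).symm (hq U hU))
    refine ⟨picFunctor.mk L hL hQL, fun U hU => ?_⟩
    have h1 := picFunctor.map_mk (REP.resHom T U) L hL hQL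
    refine h1.trans ((hxM U hU).symm ▸ ?_)
    exact (picFunctor.mk_eq_mk_iff _ _ _ _).mpr (hLiso U hU)

end

end

end Fermat.Agent.JAC
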