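/-
PROJECT JAC — brick (D) (AJ-GLUE), core layer (helper1) — **gluing local, non-rigidified
cocycles to an element of the rigidified Picard functor.**

Given an `S`-scheme `T`, an open cover `𝒰` of `T` and cocycles `M U` on the `C ×ₛ U`
(`U ∈ 𝒰`) which satisfy the (twist-invariant) condition `Q` and are isomorphic over the
pairwise intersections, the classes of their rigidifying twists glue to an element `x` of
`picFunctor c ε Q` over `T`; a representative `M₁` of `x` restricts over every `U ∈ 𝒰` to the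
rigidifying twist of `M U`, and over a field-valued point of `U` its fibre is the fibre of `M U`.
-/
import Mathlib
import Fermat.Agent.JAC.SH_helper1_Sheaf
import Fermat.Agent.JAC.SH_helper1_RigTwist

set_option autoImplicit false

open AlgebraicGeometry CategoryTheory CategoryTheory.Limits Opposite TopologicalSpace
  AlgebraicGeometry.RelPicard NeronModelInfra

universe u

namespace Fermat.Agent.JAC

open Fermat.Agent.AV

noncomputable section

section

variable {k : Type u} [CommRing k] {C : Scheme.{u}} {c : C ⟶ Spec (CommRingCat.of k)}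
  {ε : SchemeHomOver (𝟙 (Spec (CommRingCat.of k))) c}

/-- the rigidifying twists of isomorphic cocycles are isomorphic. -/
theorem rigTwist_iso_of_iso {T : Scheme.{u}} (t : T ⟶ Spec (CommRingCat.of k))
    {M M' : LB (pullback c t)} (h : LB.Iso M M') :
    LB.Iso (LB.rigTwist c ε t M) (LB.rigTwist c ε t M') := by
  unfold LB.rigTwist
  have h0 : PicGroup.mk M = PicGroup.mk M' := (PicGroup.mk_eq_mk_iff _ _).mpr h
  rw [← PicGroup.mk_eq_mk_iff, PicGroup.mk_tensor, PicGroup.mk_tensor, ← PicGroup.map_mk,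
    ← PicGroup.map_mk (pullback.snd c t), PicGroup.mk_inv, PicGroup.mk_inv, ← PicGroup.map_mk,
    ← PicGroup.map_mk (rigSection c t ε), h0]

/-- the class of the rigidifying twist only depends on the isomorphism class. -/
theorem picFunctor.mkTwist_eq_of_iso {Q : LBCond c} [Q.IsTwistInvariant]
    {T : Over (Spec (CommRingCat.of k))} {M M' : LB (pullback c T.hom)} (hQ : Q.P T.hom M)
    (hQ' : Q.P T.hom M') (h : LB.Iso M M') :
    (picFunctor.mkTwist M hQ : (picFunctor c ε Q).obj (op T)) = picFunctor.mkTwist M' hQ' :=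
  (picFunctor.mk_eq_mk_iff _ _ _ _).mpr (rigTwist_iso_of_iso T.hom h)

end

section

variable {k : Type u} [Field k] {C : Scheme.{u}}
  (c : C ⟶ Spec (CommRingCat.of k))
  (ε : SchemeHomOver (𝟙 (Spec (CommRingCat.of k))) c)
  [IsAlgClosed k] [IsProper c] [IsIntegral C]

/-- **gluing local cocycles**: cocycles on the `C ×ₛ U`, `U` in an open cover of `T`, which
satisfy `Q` and are isomorphic over the pairwise intersections (no rigidification needed), define
an element of the rigidified Picard functor over `T` restricting to the classes of their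
rigidifying twists. -/
theorem picFunctor.exists_glue_mkTwist (Q : LBCond c) [Q.IsTwistInvariant]
    (T : Over (Spec (CommRingCat.of k))) (𝒰 : Set T.left.Opens) (h𝒰 : sSup 𝒰 = ⊤)
    (M : ∀ U : T.left.Opens, U ∈ 𝒰 → LB (pullback c (REP.resOpen T U).hom))
    (hQ : ∀ (U : T.left.Opens) (hU : U ∈ 𝒰), Q.P (REP.resOpen T U).hom (M U hU))
    (hiso : ∀ (U : T.left.Opens) (hU : U ∈ 𝒰) (V : T.left.Opens) (hV : V ∈ 𝒰), LB.Iso
      ((M U hU).pullback (baseChangeSnd c (overHom (REP.resLE T (inf_le_left : U ⊓ V ≤ U)))))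
      ((M V hV).pullback (baseChangeSnd c (overHom (REP.resLE T (inf_le_right : U ⊓ V ≤ V)))))) :
    ∃ x : (picFunctor c ε Q).obj (op T), ∀ (U : T.left.Opens) (hU : U ∈ 𝒰),
      (picFunctor c ε Q).map (REP.resHom T U).op x = picFunctor.mkTwist (M U hU) (hQ U hU) := by
  refine (isZariskiSheaf_picFunctor c ε Q).glue T 𝒰 h𝒰
    (fun U hU => picFunctor.mkTwist (M U hU) (hQ U hU)) (fun U hU V hV => ?_)
  refine (picFunctor.map_mkTwist _ _ _).trans (Eq.trans ?_ (picFunctor.map_mkTwist _ _ _).symm)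
  exact picFunctor.mkTwist_eq_of_iso _ _ (hiso U hU V hV)

/-- **gluing local cocycles, with a representative**: as `picFunctor.exists_glue_mkTwist`, with a
representing cocycle `M₁` on `C ×ₛ T` whose restriction over every member `U` of the cover is
the rigidifying twist of `M U`. -/
theorem picFunctor.exists_glue_rep (Q : LBCond c) [Q.IsTwistInvariant]
    (T : Over (Spec (CommRingCat.of k))) (𝒰 : Set T.left.Opens) (h𝒰 : sSup 𝒰 = ⊤)
    (M : ∀ U : T.left.Opens, U ∈ 𝒰 → LB (pullback c (REP.resOpen T U).hom))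
    (hQ : ∀ (U : T.left.Opens) (hU : U ∈ 𝒰), Q.P (REP.resOpen T U).hom (M U hU))
    (hiso : ∀ (U : T.left.Opens) (hU : U ∈ 𝒰) (V : T.left.Opens) (hV : V ∈ 𝒰), LB.Iso
      ((M U hU).pullback (baseChangeSnd c (overHom (REP.resLE T (inf_le_left : U ⊓ V ≤ U)))))
      ((M V hV).pullback (baseChangeSnd c (overHom (REP.resLE T (inf_le_right : U ⊓ V ≤ V)))))) :
    ∃ (M₁ : LB (pullback c T.hom)) (hrig : LBRigidified c ε T.hom M₁) (hQ₁ : Q.P T.hom M₁),
      (∀ (U : T.left.Opens) (hU : U ∈ 𝒰),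
        (picFunctor c ε Q).map (REP.resHom T U).op (picFunctor.mk M₁ hrig hQ₁) =
          picFunctor.mkTwist (M U hU) (hQ U hU)) ∧
      ∀ (U : T.left.Opens) (hU : U ∈ 𝒰), LB.Iso
        (M₁.pullback (baseChangeSnd c (overHom (REP.resHom T U))))
        (LB.rigTwist c ε (REP.resOpen T U).hom (M U hU)) := by
  obtain ⟨x, hx⟩ := picFunctor.exists_glue_mkTwist c ε Q T 𝒰 h𝒰 M hQ hiso
  obtain ⟨M₁, hrig, hQ₁, rfl⟩ := picFunctor.exists_rep x
  refine ⟨M₁, hrig, hQ₁, hx, fun U hU => ?_⟩
  have h := (picFunctor.map_mk (REP.resHom T U) M₁ hrig hQ₁).symm.trans (hx U hU)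
  exact (picFunctor.mk_eq_mk_iff _ _ _ _).mp h

end

section

variable {k : Type u} [CommRing k] {C : Scheme.{u}} {c : C ⟶ Spec (CommRingCat.of k)}
  {ε : SchemeHomOver (𝟙 (Spec (CommRingCat.of k))) c}

/-- **the fibre formula**: if the restriction of `M₁` over an open `U` of `T` is the rigidifying
twist of `M`, then over a field-valued point of `U` the fibre of `M₁` is the fibre of `M`. -/
theorem iso_fibre_of_iso_rigTwist {T : Over (Spec (CommRingCat.of k))} (U : T.left.Opens)
    (M₁ : LB (pullback c T.hom)) (M : LB (pullback c (REP.resOpen T U).hom))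
    (h : LB.Iso (M₁.pullback (baseChangeSnd c (overHom (REP.resHom T U))))
      (LB.rigTwist c ε (REP.resOpen T U).hom M))
    {κ : Type u} [Field κ] {t' : Spec (CommRingCat.of κ) ⟶ Spec (CommRingCat.of k)}
    (ψ : SchemeHomOver t' (REP.resOpen T U).hom) (ψ' : SchemeHomOver t' T.hom)
    (hψ : ψ'.1 = ψ.1 ≫ U.ι) :
    LB.Iso (M₁.pullback (baseChangeSnd c ψ')) (M.pullback (baseChangeSnd c ψ)) := by
  have h1 : baseChangeSnd c ψ' =
      baseChangeSnd c ψ ≫ baseChangeSnd c (overHom (REP.resHom T U)) := by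
    rw [baseChangeSnd_comp]
    congr 1
    exact Subtype.ext hψ
  have h2 : M₁.pullback (baseChangeSnd c ψ') =
      (M₁.pullback (baseChangeSnd c (overHom (REP.resHom T U)))).pullback (baseChangeSnd c ψ) := by
    rw [h1]
    rfl
  rw [h2]
  refine (LB.lbIso_pullback h (baseChangeSnd c ψ)).trans ?_
  exact iso_pullback_rigTwist_of_field (REP.resOpen T U).hom M (baseChangeSnd c ψ)
    (pullback.snd c t') ψ.1 (baseChangeSnd_snd ψ)

end

section

variable {k : Type u} [Field k] {C : Scheme.{u}}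
  (c : C ⟶ Spec (CommRingCat.of k))
  (ε : SchemeHomOver (𝟙 (Spec (CommRingCat.of k))) c)
  [IsAlgClosed k] [IsProper c] [IsIntegral C]

omit [IsAlgClosed k] [IsProper c] [IsIntegral C] in
/-- the fibre of `L ⊗ pr₁^* N` over a `k`-point of `U`, transported to `C`. -/
theorem mk_pullback_tensor_fst_pullback {T : Scheme.{u}} {t : T ⟶ Spec (CommRingCat.of k)}
    (L : LB (pullback c t)) (N : LB C) (yT : SchemeHomOver (𝟙 (Spec (CommRingCat.of k))) t)
    (φ : C ⟶ pullback c (𝟙 (Spec (CommRingCat.of k))))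
    (hφ : φ ≫ pullback.fst c (𝟙 (Spec (CommRingCat.of k))) = 𝟙 C) :
    PicGroup.mk (((L.tensor (N.pullback (pullback.fst c t))).pullback
      (baseChangeSnd c yT)).pullback φ) =
      PicGroup.mk ((L.pullback (baseChangeSnd c yT)).pullback φ) + PicGroup.mk N := by
  have h1 : ((L.tensor (N.pullback (pullback.fst c t))).pullback (baseChangeSnd c yT)).pullback φ =
      (L.tensor (N.pullback (pullback.fst c t))).pullback (φ ≫ baseChangeSnd c yT) := rfl
  have h2 : (L.pullback (baseChangeSnd c yT)).pullback φ =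
      L.pullback (φ ≫ baseChangeSnd c yT) := rfl
  rw [h1, h2, ← PicGroup.map_mk, PicGroup.mk_tensor, map_add, PicGroup.map_mk, PicGroup.map_mk]
  congr 1
  have h3 : (N.pullback (pullback.fst c t)).pullback (φ ≫ baseChangeSnd c yT) =
      N.pullback ((φ ≫ baseChangeSnd c yT) ≫ pullback.fst c t) := rfl
  have h4 : (φ ≫ baseChangeSnd c yT) ≫ pullback.fst c t = 𝟙 C := by
    rw [Category.assoc]
    have : baseChangeSnd c yT ≫ pullback.fst c t =
        pullback.fst c (𝟙 (Spec (CommRingCat.of k))) := by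
      simp only [baseChangeSnd, pullback.lift_fst, Category.comp_id]
    rw [this, hφ]
  rw [h3, h4, ← PicGroup.map_mk, PicGroup.map_id]

/-- **the Abel–Jacobi class from local data (generic form)**: cocycles `L U` on the
`C ×ₛ U`, `U` in an open cover `𝒰` of `C`, isomorphic over the pairwise intersections, such that
`L U ⊗ pr₁^* N` satisfies `Q`, and such that for every point `z` with `P z` the fibre of some
`L U` over a `k`-point is `cl z`: then there is a class `x ∈ picFunctor c ε Q (C)` whose fibre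
over such a `k`-point is `cl z + [N]`. -/
theorem picFunctor.exists_AJ_of_local (Q : LBCond c) [Q.IsTwistInvariant] (N : LB C)
    (𝒰 : Set (Over.mk c).left.Opens) (h𝒰 : sSup 𝒰 = ⊤)
    (L : ∀ U : (Over.mk c).left.Opens, U ∈ 𝒰 →
      LB (pullback c (REP.resOpen (Over.mk c) U).hom))
    (hQ : ∀ (U : (Over.mk c).left.Opens) (hU : U ∈ 𝒰), Q.P (REP.resOpen (Over.mk c) U).hom
      ((L U hU).tensor (N.pullback (pullback.fst c (REP.resOpen (Over.mk c) U).hom))))
    (hiso : ∀ (U : (Over.mk c).left.Opens) (hU : U ∈ 𝒰) (V : (Over.mk c).left.Opens)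
      (hV : V ∈ 𝒰), LB.Iso
      ((L U hU).pullback (baseChangeSnd c
        (overHom (REP.resLE (Over.mk c) (inf_le_left : U ⊓ V ≤ U)))))
      ((L V hV).pullback (baseChangeSnd c
        (overHom (REP.resLE (Over.mk c) (inf_le_right : U ⊓ V ≤ V))))))
    (φ : C ⟶ pullback c (𝟙 (Spec (CommRingCat.of k))))
    (hφ : φ ≫ pullback.fst c (𝟙 (Spec (CommRingCat.of k))) = 𝟙 C)
    (cl : C → PicGroup C) (P : C → Prop)
    (hpt : ∀ z : C, P z → ∃ (U : (Over.mk c).left.Opens) (hU : U ∈ 𝒰)
      (yU : SchemeHomOver (𝟙 (Spec (CommRingCat.of k))) (REP.resOpen (Over.mk c) U).hom),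
      PicGroup.mk (((L U hU).pullback (baseChangeSnd c yU)).pullback φ) = cl z) :
    ∃ x : (picFunctor c ε Q).obj (op (Over.mk c)), ∀ z : C, P z →
      ∃ y : Over.mk (𝟙 (Spec (CommRingCat.of k))) ⟶ Over.mk c,
        PicGroup.map φ (PicObj.cls ((picFunctor c ε Q).map y.op x)) = cl z + PicGroup.mk N := by
  -- the local cocycles `M U := L U ⊗ pr₁^* N`
  have hisoM : ∀ (U : (Over.mk c).left.Opens) (hU : U ∈ 𝒰) (V : (Over.mk c).left.Opens)
      (hV : V ∈ 𝒰), LB.Iso
      (((L U hU).tensor (N.pullback (pullback.fst c (REP.resOpen (Over.mk c) U).hom))).pullback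
        (baseChangeSnd c (overHom (REP.resLE (Over.mk c) (inf_le_left : U ⊓ V ≤ U)))))
      (((L V hV).tensor (N.pullback (pullback.fst c (REP.resOpen (Over.mk c) V).hom))).pullback
        (baseChangeSnd c (overHom (REP.resLE (Over.mk c) (inf_le_right : U ⊓ V ≤ V))))) := by
    intro U hU V hV
    have hfst : ∀ {W W' : Over (Spec (CommRingCat.of k))} (f : W ⟶ W'),
        baseChangeSnd c (overHom f) ≫ pullback.fst c W'.hom = pullback.fst c W.hom := by
      intro W W' f
      simp only [baseChangeSnd, pullback.lift_fst, Category.comp_id]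
    rw [← PicGroup.mk_eq_mk_iff, ← PicGroup.map_mk, ← PicGroup.map_mk, PicGroup.mk_tensor,
      PicGroup.mk_tensor, map_add, map_add, PicGroup.map_mk, PicGroup.map_mk, PicGroup.map_mk,
      PicGroup.map_mk]
    congr 1
    · exact (PicGroup.mk_eq_mk_iff _ _).mpr (hiso U hU V hV)
    · have h1 : (N.pullback (pullback.fst c (REP.resOpen (Over.mk c) U).hom)).pullback
          (baseChangeSnd c (overHom (REP.resLE (Over.mk c) (inf_le_left : U ⊓ V ≤ U)))) =
          N.pullback (baseChangeSnd c (overHom (REP.resLE (Over.mk c)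
            (inf_le_left : U ⊓ V ≤ U))) ≫ pullback.fst c (REP.resOpen (Over.mk c) U).hom) := rfl
      have h2 : (N.pullback (pullback.fst c (REP.resOpen (Over.mk c) V).hom)).pullback
          (baseChangeSnd c (overHom (REP.resLE (Over.mk c) (inf_le_right : U ⊓ V ≤ V)))) =
          N.pullback (baseChangeSnd c (overHom (REP.resLE (Over.mk c)
            (inf_le_right : U ⊓ V ≤ V))) ≫ pullback.fst c (REP.resOpen (Over.mk c) V).hom) := rfl
      rw [h1, h2, hfst, hfst]
  obtain ⟨M₁, hrig, hQ₁, -, hM₁⟩ := picFunctor.exists_glue_rep c ε Q (Over.mk c) 𝒰 h𝒰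
    (fun U hU => (L U hU).tensor (N.pullback (pullback.fst c (REP.resOpen (Over.mk c) U).hom)))
    hQ hisoM
  refine ⟨picFunctor.mk M₁ hrig hQ₁, fun z hz => ?_⟩
  obtain ⟨U, hU, yU, hy⟩ := hpt z hz
  -- the `k`-point of `C`
  have hw : (yU.1 ≫ U.ι) ≫ (Over.mk c).hom = (Over.mk (𝟙 (Spec (CommRingCat.of k)))).hom :=
    (Category.assoc _ _ _).trans yU.2
  refine ⟨Over.homMk (yU.1 ≫ U.ι) hw, ?_⟩
  rw [picFunctor.map_mk]
  have hcls : PicObj.cls (picFunctor.mk (M₁.pullback (baseChangeSnd c
      (overHom (Over.homMk (yU.1 ≫ U.ι) hw :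
        Over.mk (𝟙 (Spec (CommRingCat.of k))) ⟶ Over.mk c))))
      (LBRigidified.pullback ε _ hrig) (Q.baseChange _ M₁ hQ₁)) =
      PicGroup.mk (M₁.pullback (baseChangeSnd c
      (overHom (Over.homMk (yU.1 ≫ U.ι) hw :
        Over.mk (𝟙 (Spec (CommRingCat.of k))) ⟶ Over.mk c)))) :=
    PicObj.cls_mk (T := Over.mk (𝟙 (Spec (CommRingCat.of k)))) _ _ _
  rw [hcls, PicGroup.map_mk]
  have hfib := iso_fibre_of_iso_rigTwist (ε := ε) U M₁ _ (hM₁ U hU) yU
    (overHom (Over.homMk (yU.1 ≫ U.ι) hw :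
      Over.mk (𝟙 (Spec (CommRingCat.of k))) ⟶ Over.mk c)) rfl
  have h5 := (PicGroup.mk_eq_mk_iff _ _).mpr (LB.lbIso_pullback hfib φ)
  rw [h5, mk_pullback_tensor_fst_pullback c (L U hU) N yU φ hφ, hy]

end

end

end Fermat.Agent.JAC
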