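/-
PROJECT JAC — brick (D) (AJ-GLUE), instantiation layer (helper1) — **the Abel–Jacobi class
`x_AJ ∈ picFunctor c ε Q (C)` glued from lead's graph bundles.**

* `IsGraphPairOver c t hU τ hτ hτU L σ` : lead's `IsGraphPair` for the Mathlib pull-back square of
  `c` and `t` (with `KScheme` structures `⟨c⟩`, `⟨t⟩`), with existence, uniqueness, base change
  along `baseChangeSnd c ψ` and comparison for two affine opens;
* `IsCurveAffineOpen c U` : helper7's (hA-geom) package;
* `picFunctor.exists_AJ_of_graphPairs` / `picFunctor.exists_AJ` : the class `x_AJ` with its fibres.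
-/
import Mathlib
import Fermat.Agent.JAC.SH_helper1_AbelJacobi
import Fermat.Agent.JAC.AJ_lead_Graph
import Fermat.Agent.JAC.GEOM_helper7_AffineCurve

set_option autoImplicit false
set_option linter.style.haveILetI false

open AlgebraicGeometry CategoryTheory CategoryTheory.Limits Opposite TopologicalSpace
  AlgebraicGeometry.RelPicard NeronModelInfra

universe u

namespace Fermat.Agent.JAC

open Fermat.Agent.AV Fermat.Agent.AV.CP

noncomputable section

section Transport

variable {K : Type u} [Field K] {C T Y : Scheme.{u}} [KScheme K C] [KScheme K T] [IsAffine T]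

/-- transport of a graph pair along equalities of the first projection and of `τ`. -/
theorem IsGraphPair.of_eq {p₁ p₁' : Y ⟶ C} {p₂ : Y ⟶ T}
    {H : IsPullback p₁ p₂ (KScheme.str (K := K)) (KScheme.str (K := K))}
    (H' : IsPullback p₁' p₂ (KScheme.str (K := K)) (KScheme.str (K := K)))
    (hp : p₁ = p₁') {U : C.Opens} {hU : IsAffineOpen U} {τ τ' : T ⟶ C} (hττ : τ = τ')
    {hτ : τ ≫ KScheme.str (K := K) = KScheme.str} {hτU : τ ⁻¹ᵁ U = ⊤}
    (hτ' : τ' ≫ KScheme.str (K := K) = KScheme.str) (hτU' : τ' ⁻¹ᵁ U = ⊤)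
    {L : LB Y} {σ : L.H0} (h : IsGraphPair H hU τ hτ hτU L σ) :
    IsGraphPair H' hU τ' hτ' hτU' L σ := by
  subst hp
  subst hττ
  exact h

end Transport

section

variable {k : Type u} [Field k] {C : Scheme.{u}} (c : C ⟶ Spec (CommRingCat.of k))

/-- lead's `IsGraphPair` for the Mathlib pull-back square of `c` and `t : T ⟶ Spec k`. -/
def IsGraphPairOver {T : Scheme.{u}} (t : T ⟶ Spec (CommRingCat.of k)) [IsAffine T]
    {U : C.Opens} (hU : IsAffineOpen U) (τ : T ⟶ C) (hτ : τ ≫ c = t) (hτU : τ ⁻¹ᵁ U = ⊤)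
    (L : LB (pullback c t)) (σ : L.H0) : Prop :=
  letI : KScheme k C := ⟨c⟩
  letI : KScheme k T := ⟨t⟩
  IsGraphPair (K := k) (IsPullback.of_hasPullback c t) hU τ hτ hτU L σ

/-- the (hA-geom) package for an affine open of the curve. -/
structure IsCurveAffineOpen (U : C.Opens) : Prop where
  affine : IsAffineOpen U
  domain : IsDomain Γ(C, U)
  finiteType : letI : KScheme k C := ⟨c⟩; Algebra.FiniteType k Γ(C, U)
  dvr : ∀ (𝔫 : Ideal Γ(C, U)) [𝔫.IsMaximal], IsDiscreteValuationRing (Localization.AtPrime 𝔫)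

variable {c}

theorem IsGraphPairOver.iso {T : Scheme.{u}} {t : T ⟶ Spec (CommRingCat.of k)} [IsAffine T]
    {U : C.Opens} {hU : IsAffineOpen U} {τ : T ⟶ C} {hτ : τ ≫ c = t} {hτU : τ ⁻¹ᵁ U = ⊤}
    {L L' : LB (pullback c t)} {σ : L.H0} {σ' : L'.H0}
    (h : IsGraphPairOver c t hU τ hτ hτU L σ) (h' : IsGraphPairOver c t hU τ hτ hτU L' σ') :
    LB.Iso L L' :=
  letI : KScheme k C := ⟨c⟩
  letI : KScheme k T := ⟨t⟩
  IsGraphPair.iso h h'

variable [IsAlgClosed k]

theorem exists_isGraphPairOver [IsSeparated c] {T : Scheme.{u}}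
    (t : T ⟶ Spec (CommRingCat.of k)) [IsAffine T]
    {U : C.Opens} (hU : IsCurveAffineOpen c U) (τ : T ⟶ C) (hτ : τ ≫ c = t)
    (hτU : τ ⁻¹ᵁ U = ⊤) :
    ∃ (L : LB (pullback c t)) (σ : L.H0), IsGraphPairOver c t hU.affine τ hτ hτU L σ := by
  letI : KScheme k C := ⟨c⟩
  letI : KScheme k T := ⟨t⟩
  haveI := hU.domain
  haveI : Algebra.FiniteType k Γ(C, U) := hU.finiteType
  haveI : IsSeparated (KScheme.str (K := k) (X := C)) := ‹IsSeparated c›
  exact exists_isGraphPair (K := k) (IsPullback.of_hasPullback c t) hU.affine τ hτ hτU hU.dvr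

/-- base change of a graph pair. -/
theorem IsGraphPairOver.pullback {T T' : Scheme.{u}} {t : T ⟶ Spec (CommRingCat.of k)}
    {t' : T' ⟶ Spec (CommRingCat.of k)} [IsAffine T] [IsAffine T'] (ψ : SchemeHomOver t' t)
    {U : C.Opens} (hU : IsCurveAffineOpen c U) {τ : T ⟶ C} {hτ : τ ≫ c = t} {hτU : τ ⁻¹ᵁ U = ⊤}
    {L : LB (pullback c t)} {σ : L.H0} (h : IsGraphPairOver c t hU.affine τ hτ hτU L σ)
    (τ' : T' ⟶ C) (hττ' : ψ.1 ≫ τ = τ') (hτ' : τ' ≫ c = t') (hτU' : τ' ⁻¹ᵁ U = ⊤) :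
    IsGraphPairOver c t' hU.affine τ' hτ' hτU' (L.pullback (baseChangeSnd c ψ))
      (L.pullbackSection (baseChangeSnd c ψ) σ) := by
  letI : KScheme k C := ⟨c⟩
  letI : KScheme k T := ⟨t⟩
  letI : KScheme k T' := ⟨t'⟩
  haveI := hU.domain
  haveI : Algebra.FiniteType k Γ(C, U) := hU.finiteType
  subst hττ'
  have hfst : baseChangeSnd c ψ ≫ pullback.fst c t = pullback.fst c t' := by
    simp only [baseChangeSnd, pullback.lift_fst, Category.comp_id]
  have H' : IsPullback (baseChangeSnd c ψ ≫ pullback.fst c t) (pullback.snd c t')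
      (KScheme.str (K := k)) (KScheme.str (K := k)) := by
    rw [hfst]
    exact IsPullback.of_hasPullback c t'
  have h1 := IsGraphPair.pullback (K := k) (H := IsPullback.of_hasPullback c t) hU.dvr ψ.1 ψ.2
    (pullback.snd c t') (baseChangeSnd c ψ) H' (baseChangeSnd_snd ψ) h hτ' hτU'
  exact IsGraphPair.of_eq (IsPullback.of_hasPullback c t') hfst rfl hτ' hτU' h1

/-- comparison of graph pairs of the same `τ` with respect to two affine opens. -/
theorem IsGraphPairOver.iso' [IsSeparated c] {T : Scheme.{u}}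
    {t : T ⟶ Spec (CommRingCat.of k)} [IsAffine T]
    {U V : C.Opens} {hU : IsAffineOpen U} {hV : IsAffineOpen V}
    (hUV : IsCurveAffineOpen c (U ⊓ V)) {τ : T ⟶ C} {hτ : τ ≫ c = t} {hτU : τ ⁻¹ᵁ U = ⊤}
    {hτV : τ ⁻¹ᵁ V = ⊤} {L L' : LB (Limits.pullback c t)} {σ : L.H0} {σ' : L'.H0}
    (h : IsGraphPairOver c t hU τ hτ hτU L σ) (h' : IsGraphPairOver c t hV τ hτ hτV L' σ') :
    LB.Iso L L' := by
  letI : KScheme k C := ⟨c⟩
  letI : KScheme k T := ⟨t⟩
  haveI := hUV.domain
  haveI : Algebra.FiniteType k Γ(C, U ⊓ V) := hUV.finiteType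
  haveI : IsSeparated (KScheme.str (K := k) (X := C)) := ‹IsSeparated c›
  exact IsGraphPair.iso' (K := k) hUV.affine hUV.dvr h h'

end

section

variable {k : Type u} [Field k] {C : Scheme.{u}}
  (c : C ⟶ Spec (CommRingCat.of k))
  (ε : SchemeHomOver (𝟙 (Spec (CommRingCat.of k))) c)
  [IsAlgClosed k] [IsProper c] [IsIntegral C]

/-- **the Abel–Jacobi class from graph pairs**: given graph pairs `(L U, σ U)` of the inclusions
`U ⟶ C` for `U` in a cover `𝒰` of `C` by affine opens (with the (hA-geom) package for the members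
and their pairwise intersections) such that `L U ⊗ pr₁^* N` satisfies `Q`, and for every point `z`
with `P z` a `k`-point `y` of some `U ∈ 𝒰` such that every graph pair of `y` on `C ×ₖ Spec k` has
class `cl z` (after pull-back along `φ`): there is `x ∈ picFunctor c ε Q (C)` whose fibre over
such a `k`-point is `cl z + [N]`. -/
theorem picFunctor.exists_AJ_of_graphPairs (Q : LBCond c) [Q.IsTwistInvariant] (N : LB C)
    (𝒰 : Set (Over.mk c).left.Opens) (h𝒰 : sSup 𝒰 = ⊤)
    (haff : ∀ U : (Over.mk c).left.Opens, U ∈ 𝒰 → IsCurveAffineOpen c U)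
    (hinf : ∀ U : (Over.mk c).left.Opens, U ∈ 𝒰 → ∀ V : (Over.mk c).left.Opens, V ∈ 𝒰 →
      IsCurveAffineOpen c (U ⊓ V))
    (L : ∀ U : (Over.mk c).left.Opens, U ∈ 𝒰 →
      LB (pullback c (REP.resOpen (Over.mk c) U).hom))
    (σ : ∀ (U : (Over.mk c).left.Opens) (hU : U ∈ 𝒰), (L U hU).H0)
    (hL : ∀ (U : (Over.mk c).left.Opens) (hU : U ∈ 𝒰),
      @IsGraphPairOver k _ C c U (REP.resOpen (Over.mk c) U).hom (haff U hU).affine U
        (haff U hU).affine U.ι rfl (Scheme.Opens.ι_preimage_self U) (L U hU) (σ U hU))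
    (hQ : ∀ (U : (Over.mk c).left.Opens) (hU : U ∈ 𝒰), Q.P (REP.resOpen (Over.mk c) U).hom
      ((L U hU).tensor (N.pullback (pullback.fst c (REP.resOpen (Over.mk c) U).hom))))
    (φ : C ⟶ pullback c (𝟙 (Spec (CommRingCat.of k))))
    (hφ : φ ≫ pullback.fst c (𝟙 (Spec (CommRingCat.of k))) = 𝟙 C)
    (cl : C → PicGroup C) (P : C → Prop)
    (hpt : ∀ z : C, P z → ∃ (U : (Over.mk c).left.Opens) (hU : U ∈ 𝒰)
      (y : Spec (CommRingCat.of k) ⟶ C) (hy : y ≫ c = 𝟙 (Spec (CommRingCat.of k)))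
      (hyU : y ⁻¹ᵁ U = ⊤),
      ∀ (L' : LB (pullback c (𝟙 (Spec (CommRingCat.of k))))) (σ' : L'.H0),
        IsGraphPairOver c (𝟙 (Spec (CommRingCat.of k))) (haff U hU).affine y hy hyU L' σ' →
        PicGroup.mk (L'.pullback φ) = cl z) :
    ∃ x : (picFunctor c ε Q).obj (op (Over.mk c)), ∀ z : C, P z →
      ∃ y : Over.mk (𝟙 (Spec (CommRingCat.of k))) ⟶ Over.mk c,
        PicGroup.map φ (PicObj.cls ((picFunctor c ε Q).map y.op x)) = cl z + PicGroup.mk N := by
  have hsep : IsSeparated c := inferInstance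
  refine picFunctor.exists_AJ_of_local c ε Q N 𝒰 h𝒰 L hQ ?_ φ hφ cl P ?_
  · -- compatibility on the overlaps
    intro U hU V hV
    haveI : IsAffine (REP.resOpen (Over.mk c) U).left := (haff U hU).affine
    haveI : IsAffine (REP.resOpen (Over.mk c) V).left := (haff V hV).affine
    haveI : IsAffine (REP.resOpen (Over.mk c) (U ⊓ V)).left := (hinf U hU V hV).affine
    have hτ : (U ⊓ V).ι ≫ c = (REP.resOpen (Over.mk c) (U ⊓ V)).hom := rfl
    have h1 := IsGraphPairOver.pullback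
      (overHom (REP.resLE (Over.mk c) (inf_le_left : U ⊓ V ≤ U))) (haff U hU) (hL U hU)
      (U ⊓ V).ι (Scheme.homOfLE_ι C (inf_le_left : U ⊓ V ≤ U)) hτ
      (by
        rw [eq_top_iff]
        intro x _
        exact (inf_le_left : U ⊓ V ≤ U) x.2)
    have h2 := IsGraphPairOver.pullback
      (overHom (REP.resLE (Over.mk c) (inf_le_right : U ⊓ V ≤ V))) (haff V hV) (hL V hV)
      (U ⊓ V).ι (Scheme.homOfLE_ι C (inf_le_right : U ⊓ V ≤ V)) hτ
      (by
        rw [eq_top_iff]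
        intro x _
        exact (inf_le_right : U ⊓ V ≤ V) x.2)
    exact IsGraphPairOver.iso' (hinf U hU V hV) h1 h2
  · intro z hz
    obtain ⟨U, hU, y, hy, hyU, hfib⟩ := hpt z hz
    -- the `k`-point factors through `U`
    haveI hoi : IsOpenImmersion U.ι := inferInstanceAs (IsOpenImmersion (show C.Opens from U).ι)
    have hrange : Set.range y ⊆ Set.range U.ι := by
      rintro _ ⟨w, rfl⟩
      rw [Scheme.Opens.range_ι]
      have hw : w ∈ y ⁻¹ᵁ U := by
        rw [hyU]
        trivial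
      exact hw
    obtain ⟨yU, hfac⟩ : ∃ yU : Spec (CommRingCat.of k) ⟶ ((show C.Opens from U) : Scheme.{u}),
        yU ≫ U.ι = y := ⟨IsOpenImmersion.lift U.ι y hrange, IsOpenImmersion.lift_fac _ _ _⟩
    have hover : yU ≫ (REP.resOpen (Over.mk c) U).hom = 𝟙 (Spec (CommRingCat.of k)) := by
      show yU ≫ U.ι ≫ c = _
      rw [← Category.assoc, hfac, hy]
    refine ⟨U, hU, ⟨yU, hover⟩, ?_⟩
    haveI : IsAffine (REP.resOpen (Over.mk c) U).left := (haff U hU).affine
    have h1 := IsGraphPairOver.pullback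
      (⟨yU, hover⟩ :
        SchemeHomOver (𝟙 (Spec (CommRingCat.of k))) (REP.resOpen (Over.mk c) U).hom)
      (haff U hU) (hL U hU) y hfac hy hyU
    exact hfib _ _ h1

end

section

variable {k : Type u} [Field k] {C : Scheme.{u}} (c : C ⟶ Spec (CommRingCat.of k))

/-- helper7's (hA-geom) package for a nonempty affine open of a proper smooth curve. -/
theorem isCurveAffineOpen_of_curve [SmoothOfRelativeDimension 1 c] [IsIntegral C] [IsProper c]
    {U : C.Opens} (hU : IsAffineOpen U) [Nonempty U] : IsCurveAffineOpen c U := by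
  obtain ⟨h1, h2, h3, -⟩ := affineCurve_hypotheses c hU
  exact ⟨hU, h1, h2, h3⟩

/-- the intersection of two affine opens of a separated `k`-scheme is affine. -/
theorem isAffineOpen_inf_of_isSeparated_field [IsSeparated c] {U V : C.Opens} (hU : IsAffineOpen U)
    (hV : IsAffineOpen V) : IsAffineOpen (U ⊓ V) := by
  have h : IsAffineHom (Limits.pullback.diagonal c) := inferInstance
  exact isAffineHom_diagonal_iff.mp h ⊤ (isAffineOpen_top _) U (fun _ _ => trivial) V
    (fun _ _ => trivial) hU hV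

/-- the nonempty affine opens cover. -/
theorem sSup_affineOpens_nonempty (X : Scheme.{u}) :
    sSup {U : X.Opens | IsAffineOpen U ∧ Nonempty U} = ⊤ := by
  rw [eq_top_iff]
  intro x _
  obtain ⟨U, hU, hxU, -⟩ := exists_isAffineOpen_mem_and_subset (x := x) (U := ⊤) trivial
  exact Opens.mem_sSup.mpr ⟨U, ⟨hU, ⟨⟨x, hxU⟩⟩⟩, hxU⟩

variable (ε : SchemeHomOver (𝟙 (Spec (CommRingCat.of k))) c)
  [IsAlgClosed k] [IsProper c] [IsIntegral C] [SmoothOfRelativeDimension 1 c]

/-- **the Abel–Jacobi class**: for a proper smooth integral curve `c : C ⟶ Spec k` over an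
algebraically closed field, a twist-invariant condition `Q` and a cocycle `N` on `C` such that
`L ⊗ pr₁^* N` satisfies `Q` for every graph pair `(L, σ)` of the inclusion of an affine open
(`hQ`, helper4's (E)), and such that for every point `z` with `P z` there are an affine open `U`
and a `k`-point `y` of `U` all of whose graph pairs on `C ×ₖ Spec k` have class `cl z` after
pull-back along `φ` (`hC`, helper6's (C)): there is `x ∈ picFunctor c ε Q (C)` whose fibre over
such a `k`-point is `cl z + [N]`. -/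
theorem picFunctor.exists_AJ (Q : LBCond c) [Q.IsTwistInvariant] (N : LB C)
    (hQ : ∀ (U : C.Opens) (hU : IsAffineOpen U) (_ : Nonempty U) (L : LB (pullback c (U.ι ≫ c)))
      (σ : L.H0),
      @IsGraphPairOver k _ C c U (U.ι ≫ c) hU U hU U.ι rfl (Scheme.Opens.ι_preimage_self U) L σ →
      Q.P (U.ι ≫ c) (L.tensor (N.pullback (pullback.fst c (U.ι ≫ c)))))
    (φ : C ⟶ pullback c (𝟙 (Spec (CommRingCat.of k))))
    (hφ : φ ≫ pullback.fst c (𝟙 (Spec (CommRingCat.of k))) = 𝟙 C)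
    (cl : C → PicGroup C) (P : C → Prop)
    (hC : ∀ z : C, P z → ∃ (U : C.Opens) (hU : IsAffineOpen U)
      (y : Spec (CommRingCat.of k) ⟶ C) (hy : y ≫ c = 𝟙 (Spec (CommRingCat.of k)))
      (hyU : y ⁻¹ᵁ U = ⊤),
      ∀ (L' : LB (pullback c (𝟙 (Spec (CommRingCat.of k))))) (σ' : L'.H0),
        IsGraphPairOver c (𝟙 (Spec (CommRingCat.of k))) hU y hy hyU L' σ' →
        PicGroup.mk (L'.pullback φ) = cl z) :
    ∃ x : (picFunctor c ε Q).obj (op (Over.mk c)), ∀ z : C, P z →
      ∃ y : Over.mk (𝟙 (Spec (CommRingCat.of k))) ⟶ Over.mk c,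
        PicGroup.map φ (PicObj.cls ((picFunctor c ε Q).map y.op x)) = cl z + PicGroup.mk N := by
  have hsep : IsSeparated c := inferInstance
  set 𝒰 : Set (Over.mk c).left.Opens := {U : C.Opens | IsAffineOpen U ∧ Nonempty U} with h𝒰def
  have h𝒰 : sSup 𝒰 = ⊤ := sSup_affineOpens_nonempty C
  have haff : ∀ U : (Over.mk c).left.Opens, U ∈ 𝒰 → IsCurveAffineOpen c U := by
    intro U hU
    haveI : Nonempty U := hU.2
    exact isCurveAffineOpen_of_curve c hU.1
  have hinf : ∀ U : (Over.mk c).left.Opens, U ∈ 𝒰 → ∀ V : (Over.mk c).left.Opens, V ∈ 𝒰 →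
      IsCurveAffineOpen c (U ⊓ V) := by
    intro U hU V hV
    obtain ⟨⟨a, ha⟩⟩ := hU.2
    obtain ⟨⟨b, hb⟩⟩ := hV.2
    obtain ⟨w, hwU, hwV⟩ := nonempty_preirreducible_inter (X := C) U.2 V.2 ⟨a, ha⟩ ⟨b, hb⟩
    haveI : Nonempty (U ⊓ V : C.Opens) := ⟨⟨w, hwU, hwV⟩⟩
    exact isCurveAffineOpen_of_curve c (isAffineOpen_inf_of_isSeparated_field c hU.1 hV.1)
  have hex : ∀ (U : (Over.mk c).left.Opens) (hU : U ∈ 𝒰),
      ∃ (L : LB (pullback c (REP.resOpen (Over.mk c) U).hom)) (σ : L.H0),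
        @IsGraphPairOver k _ C c U (REP.resOpen (Over.mk c) U).hom (haff U hU).affine U
          (haff U hU).affine U.ι rfl (Scheme.Opens.ι_preimage_self U) L σ := by
    intro U hU
    haveI : IsAffine (REP.resOpen (Over.mk c) U).left := (haff U hU).affine
    exact exists_isGraphPairOver (REP.resOpen (Over.mk c) U).hom (haff U hU) U.ι rfl
      (Scheme.Opens.ι_preimage_self U)
  choose L σ hL using hex
  refine picFunctor.exists_AJ_of_graphPairs c ε Q N 𝒰 h𝒰 haff hinf L σ hL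
    (fun U hU => hQ U hU.1 hU.2 (L U hU) (σ U hU) (hL U hU)) φ hφ cl P ?_
  intro z hz
  obtain ⟨U, hU, y, hy, hyU, hfib⟩ := hC z hz
  have hne : Nonempty U := by
    obtain ⟨w⟩ : Nonempty (Spec (CommRingCat.of k)) := inferInstance
    have hw : w ∈ y ⁻¹ᵁ U := by
      rw [hyU]
      trivial
    exact ⟨⟨y.base w, hw⟩⟩
  exact ⟨U, ⟨hU, hne⟩, y, hy, hyU, hfib⟩

end

end

end Fermat.Agent.JAC
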