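/-
PROJECT JAC (S25) — J1a, helper2: the two-affine cover of a smooth proper curve defined by a
non-constant rational function.

`C` integral scheme; `x ∈ K(C)`.
* `regLocus x : C.Opens` (points where `x` is regular), `xSec x : Γ(C, regLocus x)`,
  `germOf_xSec`;
* `mem_regAt_iff_mem_range` (regular at `z` = in the image of the stalk);
* on a curve (`hDVR`, `coheight ≤ 1`): `regLocus_sup_regLocus_inv`, `regLocus_inf_regLocus_inv`
  (`= C.basicOpen (xSec x)`), `xSec_mul_xSec_inv`;
* `pullHom j W h : Γ(C, W) ⟶ A` for `j : Spec A ⟶ C` landing in `W` (+ naturality);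
* `coordRingHom c x : K[X] →+* Γ(C, regLocus x)`, `coordMap c x : regLocus x ⟶ 𝔸¹`;
  `valuative_existence_coordMap` (valuative criterion, from properness of `c`),
  `finite_preimage_coordMap` (finite fibres, residue fields `= K`), hence
  **`isFinite_coordMap`**, **`isAffineOpen_regLocus`**, **`finite_coordRingHom`**;
* `injective_coordRingHom_iff` (`↔ Transcendental K x`), `exists_transcendental`,
  **`exists_two_affine_cover`**.
-/
import Mathlib
import Fermat.Agent.JAC.CURVE_helper2_Dim1

set_option autoImplicit false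
set_option linter.style.haveILetI false
set_option linter.unusedSectionVars false

open AlgebraicGeometry CategoryTheory Opposite TopologicalSpace Order

universe u

namespace Fermat.Agent.JAC

open Fermat.Agent.AV Fermat.Agent.AV.LB

noncomputable section

variable {C : Scheme.{u}} [IsIntegral C]

/-- regular at `z` = in the image of the local ring at `z`. -/
theorem mem_regAt_iff_mem_range (z : C) (f : C.functionField) :
    f ∈ regAt z ↔ f ∈ Set.range (algebraMap (C.presheaf.stalk z) C.functionField) := by
  constructor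
  · rintro ⟨W, b, hz, rfl⟩
    haveI : Nonempty W := ⟨⟨z, hz⟩⟩
    refine ⟨C.presheaf.germ W z hz b, ?_⟩
    rw [germOf_eq, Scheme.algebraMap_germ_eq_germToFunctionField]
  · rintro ⟨a, rfl⟩
    obtain ⟨W, hz, b, rfl⟩ := C.presheaf.germ_exist a
    haveI : Nonempty W := ⟨⟨z, hz⟩⟩
    refine ⟨W, b, hz, ?_⟩
    rw [germOf_eq, Scheme.algebraMap_germ_eq_germToFunctionField]

/-- the open set of points where the rational function `x` is regular. -/
def regLocus (x : C.functionField) : C.Opens where
  carrier := {z | x ∈ regAt z}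
  is_open' := by
    rw [isOpen_iff_forall_mem_open]
    rintro z ⟨W, b, hz, hb⟩
    exact ⟨W, fun y hy => ⟨W, b, hy, hb⟩, W.isOpen, hz⟩

theorem mem_regLocus {x : C.functionField} {z : C} : z ∈ regLocus x ↔ x ∈ regAt z := Iff.rfl

theorem genericPoint_mem_regLocus (x : C.functionField) : genericPoint C ∈ regLocus x := by
  rw [mem_regLocus]
  obtain ⟨W, hz, b, hb⟩ := C.presheaf.germ_exist (x := genericPoint C) x
  haveI : Nonempty W := ⟨⟨genericPoint C, hz⟩⟩
  refine ⟨W, b, hz, ?_⟩
  rw [germOf_eq]
  exact hb

instance nonempty_regLocus (x : C.functionField) : Nonempty (regLocus x) :=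
  ⟨⟨genericPoint C, genericPoint_mem_regLocus x⟩⟩

theorem mem_regOn_regLocus (x : C.functionField) : x ∈ regOn (regLocus x) := by
  rw [mem_regOn]
  exact fun y hy => hy

/-- `x` as a section over its locus of regularity. -/
def xSec (x : C.functionField) : Γ(C, regLocus x) :=
  (exists_germOf_eq_of_mem_regOn (regLocus x) (mem_regOn_regLocus x)).choose

@[simp] theorem germOf_xSec (x : C.functionField) : germOf (regLocus x) (xSec x) = x :=
  (exists_germOf_eq_of_mem_regOn (regLocus x) (mem_regOn_regLocus x)).choose_spec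

theorem le_regLocus_of_germOf {W : C.Opens} (b : Γ(C, W)) : W ≤ regLocus (germOf W b) :=
  fun _ hy => ⟨W, b, hy, rfl⟩

/-- a section whose germ is `x` is the restriction of `xSec x`. -/
theorem res_xSec {W : C.Opens} [Nonempty W] (b : Γ(C, W)) {x : C.functionField}
    (hb : germOf W b = x) (hW : W ≤ regLocus x) : res W hW (xSec x) = b := by
  apply germOf_injective W
  rw [germOf_res', germOf_xSec, hb]

theorem xSec_ne_zero {x : C.functionField} (hx : x ≠ 0) : xSec x ≠ 0 := by
  intro h
  apply hx
  rw [← germOf_xSec x, h, germOf_map_zero]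

/-- the product of `xSec x` and `xSec x⁻¹` is `1` where both are defined. -/
theorem xSec_mul_xSec_inv {x : C.functionField} (hx : x ≠ 0) :
    res (regLocus x ⊓ regLocus x⁻¹) inf_le_left (xSec x) *
      res (regLocus x ⊓ regLocus x⁻¹) inf_le_right (xSec x⁻¹) = 1 := by
  haveI : Nonempty (regLocus x ⊓ regLocus x⁻¹ : C.Opens) :=
    ⟨⟨genericPoint C, genericPoint_mem_regLocus x, genericPoint_mem_regLocus x⁻¹⟩⟩
  apply germOf_injective (regLocus x ⊓ regLocus x⁻¹)
  rw [germOf_map_mul, germOf_res', germOf_res', germOf_xSec, germOf_xSec, germOf_map_one,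
    mul_inv_cancel₀ hx]

/-- the locus where both `x` and `x⁻¹` are regular is the non-vanishing locus of `x`. -/
theorem regLocus_inf_regLocus_inv {x : C.functionField} (hx : x ≠ 0) :
    regLocus x ⊓ regLocus x⁻¹ = C.basicOpen (xSec x) := by
  apply le_antisymm
  · intro z hz
    have h1 := xSec_mul_xSec_inv hx
    have h2 : IsUnit (res (regLocus x ⊓ regLocus x⁻¹) inf_le_left (xSec x)) :=
      IsUnit.of_mul_eq_one _ h1
    have h3 : z ∈ C.basicOpen (res (regLocus x ⊓ regLocus x⁻¹) inf_le_left (xSec x)) := by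
      rw [Scheme.basicOpen_of_isUnit _ h2]
      exact hz
    rw [Scheme.basicOpen_res] at h3
    exact h3.2
  · intro z hz
    have hzU : z ∈ regLocus x := C.basicOpen_le _ hz
    refine ⟨hzU, ?_⟩
    -- the inverse of `xSec x` on the basic open
    haveI : Nonempty (C.basicOpen (xSec x)) := ⟨⟨z, hz⟩⟩
    have hu := isUnit_res_basicOpen_self (xSec x)
    obtain ⟨b, hb⟩ := hu.exists_right_inv
    refine ⟨C.basicOpen (xSec x), b, hz, ?_⟩
    have h1 : germOf (C.basicOpen (xSec x)) (res _ (C.basicOpen_le _) (xSec x)) *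
        germOf (C.basicOpen (xSec x)) b = 1 := by
      rw [← germOf_map_mul, hb, germOf_map_one]
    rw [germOf_res', germOf_xSec] at h1
    exact (eq_inv_of_mul_eq_one_right h1)

/-- at a point whose local ring is a discrete valuation ring, `x` or `x⁻¹` is regular. -/
theorem mem_regAt_or_inv_mem_regAt (z : C) [IsDiscreteValuationRing (C.presheaf.stalk z)]
    (x : C.functionField) : x ∈ regAt z ∨ x⁻¹ ∈ regAt z := by
  rw [mem_regAt_iff_mem_range, mem_regAt_iff_mem_range]
  exact ValuationRing.isInteger_or_isInteger (C.presheaf.stalk z) x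

/-- **on a curve, the loci of regularity of `x` and `x⁻¹` cover.** -/
theorem regLocus_sup_regLocus_inv
    (hDVR : ∀ z : C, z ≠ genericPoint C → IsDiscreteValuationRing (C.presheaf.stalk z))
    (x : C.functionField) : regLocus x ⊔ regLocus x⁻¹ = ⊤ := by
  rw [eq_top_iff]
  intro z _
  by_cases hz : z = genericPoint C
  · exact Or.inl (hz ▸ genericPoint_mem_regLocus x)
  · haveI := hDVR z hz
    exact mem_regAt_or_inv_mem_regAt z x

/-! ### morphisms from affine schemes into opens -/

/-- the ring map induced by a morphism from an affine scheme landing in an open. -/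
def pullHom {A : CommRingCat.{u}} (j : Spec A ⟶ C) (W : C.Opens) (h : Set.range j ⊆ W) :
    Γ(C, W) ⟶ A :=
  Spec.preimage (IsOpenImmersion.lift W.ι j (by rw [Scheme.Opens.range_ι]; exact h) ≫ W.toSpecΓ)

theorem SpecMap_pullHom {A : CommRingCat.{u}} (j : Spec A ⟶ C) (W : C.Opens)
    (h : Set.range j ⊆ W) :
    Spec.map (pullHom j W h) =
      IsOpenImmersion.lift W.ι j (by rw [Scheme.Opens.range_ι]; exact h) ≫ W.toSpecΓ :=
  Spec.map_preimage _

theorem pullHom_res {A : CommRingCat.{u}} (j : Spec A ⟶ C) {W W' : C.Opens} (hW : W' ≤ W)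
    (h' : Set.range j ⊆ W') :
    C.presheaf.map (homOfLE hW).op ≫ pullHom j W' h' =
      pullHom j W (h'.trans (by exact_mod_cast hW)) := by
  apply Spec.map_injective
  rw [Spec.map_comp, SpecMap_pullHom, SpecMap_pullHom, Category.assoc,
    Scheme.Opens.toSpecΓ_SpecMap_presheaf_map, ← Category.assoc]
  congr 1
  rw [← cancel_mono W.ι, Category.assoc, Scheme.homOfLE_ι, IsOpenImmersion.lift_fac,
    IsOpenImmersion.lift_fac]

theorem pullHom_comp {A A' : CommRingCat.{u}} (f : A ⟶ A') (j : Spec A ⟶ C) (W : C.Opens)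
    (h : Set.range j ⊆ W) (h' : Set.range (Spec.map f ≫ j) ⊆ W) :
    pullHom (Spec.map f ≫ j) W h' = pullHom j W h ≫ f := by
  apply Spec.map_injective
  rw [Spec.map_comp, SpecMap_pullHom, SpecMap_pullHom, ← Category.assoc]
  congr 1
  rw [← cancel_mono W.ι, Category.assoc, IsOpenImmersion.lift_fac, IsOpenImmersion.lift_fac]

theorem SpecMap_pullHom_of_fac {A : CommRingCat.{u}} (j : Spec A ⟶ C) (W : C.Opens)
    (i : Spec A ⟶ W.toScheme) (hi : i ≫ W.ι = j) (h : Set.range j ⊆ W) :
    Spec.map (pullHom j W h) = i ≫ W.toSpecΓ := by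
  rw [SpecMap_pullHom]
  congr 1
  rw [← cancel_mono W.ι, IsOpenImmersion.lift_fac, hi]

set_option backward.isDefEq.respectTransparency false in
/-- points of `Spec` under `toSpecΓ`. -/
theorem mem_asIdeal_toSpecΓ (U : C.Opens) (u : U.toScheme) (g : Γ(C, U)) :
    g ∈ (U.toSpecΓ u).asIdeal ↔ u.1 ∉ C.basicOpen g := by
  have h2 := congr(u ∈ $(Scheme.Opens.toSpecΓ_preimage_basicOpen U g))
  have h4 : (u ∈ U.toSpecΓ ⁻¹ᵁ PrimeSpectrum.basicOpen g) ↔
      g ∉ (U.toSpecΓ u).asIdeal := Iff.rfl
  have h5 : (u ∈ U.ι ⁻¹ᵁ C.basicOpen g) ↔ u.1 ∈ C.basicOpen g := Iff.rfl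
  rw [← h5, ← h2.to_iff, h4, not_not]

theorem pullHom_mem_asIdeal_iff {A : CommRingCat.{u}} (j : Spec A ⟶ C) (W : C.Opens)
    (h : Set.range j ⊆ W) (t : Spec A) (g : Γ(C, W)) :
    (pullHom j W h).hom g ∈ t.asIdeal ↔ j t ∉ C.basicOpen g := by
  have h1 : (pullHom j W h).hom g ∈ t.asIdeal ↔ g ∈ (Spec.map (pullHom j W h) t).asIdeal := Iff.rfl
  rw [h1, SpecMap_pullHom]
  have h2 : (IsOpenImmersion.lift W.ι j (by rw [Scheme.Opens.range_ι]; exact h) ≫ W.toSpecΓ) t =
      W.toSpecΓ (IsOpenImmersion.lift W.ι j (by rw [Scheme.Opens.range_ι]; exact h) t) := rfl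
  rw [h2, mem_asIdeal_toSpecΓ]
  have h3 : (IsOpenImmersion.lift W.ι j (by rw [Scheme.Opens.range_ι]; exact h) t).1 = j t := by
    have := IsOpenImmersion.lift_fac W.ι j (by rw [Scheme.Opens.range_ι]; exact h)
    exact congr($this t)
  rw [h3]

variable {K : Type u} [Field K] (c : C ⟶ Spec (.of K))

theorem toSpecΓ_sectionsStrMap (U : C.Opens) :
    U.toSpecΓ ≫ Spec.map (CommRingCat.ofHom (sectionsStrMap c U)) = U.ι ≫ c := by
  have h1 : CommRingCat.ofHom (sectionsStrMap c U) =
      (Scheme.ΓSpecIso (.of K)).inv ≫ c.appTop ≫ C.presheaf.map (homOfLE le_top).op := by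
    ext a
    simp [sectionsStrMap, Scheme.Hom.appLE]
    try rfl
  rw [h1, Spec.map_comp, Spec.map_comp]
  simp only [Category.assoc]
  rw [Scheme.Opens.toSpecΓ_SpecMap_presheaf_map_top_assoc,
    ← Scheme.toSpecΓ_naturality_assoc, toSpecΓ_SpecMap_ΓSpecIso_inv]
  simp

/-- the ring map `K[X] → Γ(C, regLocus x)`, `X ↦ x`. -/
def coordRingHom (x : C.functionField) : Polynomial K →+* Γ(C, regLocus x) :=
  Polynomial.eval₂RingHom (sectionsStrMap c (regLocus x)) (xSec x)

/-- the morphism `regLocus x ⟶ 𝔸¹` defined by `x`. -/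
def coordMap (x : C.functionField) : (regLocus x).toScheme ⟶ Spec (.of (Polynomial K)) :=
  (regLocus x).toSpecΓ ≫ Spec.map (CommRingCat.ofHom (coordRingHom c x))

theorem coordMap_comp (x : C.functionField) :
    coordMap c x ≫ Spec.map (CommRingCat.ofHom (Polynomial.C : K →+* Polynomial K)) =
      (regLocus x).ι ≫ c := by
  rw [coordMap, Category.assoc, ← Spec.map_comp, ← toSpecΓ_sectionsStrMap]
  congr 2
  ext a
  simp [coordRingHom]

theorem valuative_existence_coordMap [UniversallyClosed c]
    (hDVR : ∀ z : C, z ≠ genericPoint C → IsDiscreteValuationRing (C.presheaf.stalk z))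
    (x : C.functionField) (hx0 : x ≠ 0) : ValuativeCriterion.Existence (coordMap c x) := by
  intro S
  have hex : ValuativeCriterion.Existence c := by
    have h : (ValuativeCriterion.Existence ⊓ @QuasiCompact) c := by
      rw [← UniversallyClosed.eq_valuativeCriterion]; infer_instance
    exact h.1
  let ι : CommRingCat.of S.R ⟶ CommRingCat.of S.K := CommRingCat.ofHom (algebraMap S.R S.K)
  have hιinj : Function.Injective ι.hom := IsFractionRing.injective S.R S.K
  let S' : ValuativeCommSq c :=
    { R := S.R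
      K := S.K
      i₁ := S.i₁ ≫ (regLocus x).ι
      i₂ := S.i₂ ≫ Spec.map (CommRingCat.ofHom (Polynomial.C : K →+* Polynomial K))
      commSq := ⟨by
        rw [Category.assoc, ← coordMap_comp, ← Category.assoc, S.commSq.w, Category.assoc]⟩ }
  obtain ⟨⟨l, hl₁, hl₂⟩⟩ := (hex S').exists_lift
  change Spec.map ι ≫ l = S.i₁ ≫ (regLocus x).ι at hl₁
  have hrange : ∀ W : C.Opens, l (IsLocalRing.closedPoint S.R) ∈ W → Set.range l ⊆ W := by
    rintro W hW _ ⟨t, rfl⟩
    have h1 : IsLocalRing.closedPoint S.R ∈ l ⁻¹ᵁ W := hW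
    have h2 : l ⁻¹ᵁ W = ⊤ := IsLocalRing.closed_point_mem_iff.mp h1
    have h3 : t ∈ l ⁻¹ᵁ W := h2 ▸ trivial
    exact h3
  have hjU : Set.range (Spec.map ι ≫ l) ⊆ regLocus x := by
    rw [hl₁]
    rintro _ ⟨t, rfl⟩
    exact (S.i₁ t).2
  -- the ring map of `S.i₂`
  obtain ⟨β, hβ⟩ : ∃ β : CommRingCat.of (Polynomial K) ⟶ CommRingCat.of S.R, Spec.map β = S.i₂ :=
    ⟨Spec.preimage S.i₂, Spec.map_preimage _⟩
  have hA2 : CommRingCat.ofHom (coordRingHom c x) ≫ pullHom (Spec.map ι ≫ l) (regLocus x) hjU =
      β ≫ ι := by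
    apply Spec.map_injective
    rw [Spec.map_comp, SpecMap_pullHom_of_fac _ _ S.i₁ hl₁.symm, Category.assoc, Spec.map_comp, hβ]
    exact S.commSq.w
  -- key claim
  have hclaim : l (IsLocalRing.closedPoint S.R) ∈ regLocus x := by
    by_contra hz
    have hz1 : l (IsLocalRing.closedPoint S.R) ∈ regLocus x⁻¹ := by
      have h := regLocus_sup_regLocus_inv hDVR x
      have h2 : l (IsLocalRing.closedPoint S.R) ∈ regLocus x ⊔ regLocus x⁻¹ := h ▸ trivial
      exact h2.resolve_left hz
    have hl1 := hrange _ hz1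
    set s := (pullHom l (regLocus x⁻¹) hl1).hom (xSec x⁻¹) with hs
    have hsm : s ∈ IsLocalRing.maximalIdeal S.R := by
      have := (pullHom_mem_asIdeal_iff l (regLocus x⁻¹) hl1 (IsLocalRing.closedPoint S.R)
        (xSec x⁻¹)).mpr ?_
      · exact this
      · rw [← regLocus_inf_regLocus_inv (inv_ne_zero hx0), inv_inv]
        exact fun h => hz h.2
    have hjU1 : Set.range (Spec.map ι ≫ l) ⊆ regLocus x⁻¹ := by
      rintro _ ⟨t, rfl⟩
      exact hl1 ⟨_, rfl⟩
    have hjV : Set.range (Spec.map ι ≫ l) ⊆ (regLocus x ⊓ regLocus x⁻¹ : C.Opens) :=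
      fun y hy => ⟨hjU hy, hjU1 hy⟩
    have hA3 := pullHom_comp ι l (regLocus x⁻¹) hl1 hjU1
    have hA4a := pullHom_res (Spec.map ι ≫ l) (inf_le_left : regLocus x ⊓ regLocus x⁻¹ ≤ _) hjV
    have hA4b := pullHom_res (Spec.map ι ≫ l) (inf_le_right : regLocus x ⊓ regLocus x⁻¹ ≤ _) hjV
    have h1 := congrArg (pullHom (Spec.map ι ≫ l) _ hjV).hom (xSec_mul_xSec_inv hx0)
    rw [map_mul, map_one] at h1
    have e1 : (pullHom (Spec.map ι ≫ l) _ hjV).hom
        (res (regLocus x ⊓ regLocus x⁻¹) inf_le_left (xSec x)) = ι.hom (β.hom Polynomial.X) := by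
      have := congr($(hA4a).hom (xSec x))
      rw [CommRingCat.comp_apply] at this
      rw [this]
      have h2 := congr($(hA2).hom Polynomial.X)
      rw [CommRingCat.comp_apply, CommRingCat.comp_apply] at h2
      rw [← h2]
      simp [coordRingHom]
    have e2 : (pullHom (Spec.map ι ≫ l) _ hjV).hom
        (res (regLocus x ⊓ regLocus x⁻¹) inf_le_right (xSec x⁻¹)) = ι.hom s := by
      have := congr($(hA4b).hom (xSec x⁻¹))
      rw [CommRingCat.comp_apply] at this
      rw [this, hA3, CommRingCat.comp_apply]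
    rw [e1, e2, ← map_mul, ← map_one ι.hom] at h1
    have h2 := hιinj h1
    have h3 : IsUnit s := IsUnit.of_mul_eq_one_right _ h2
    exact (IsLocalRing.mem_maximalIdeal _).mp hsm h3
  have hl0 := hrange _ hclaim
  refine ⟨⟨⟨IsOpenImmersion.lift (regLocus x).ι l (by rw [Scheme.Opens.range_ι]; exact hl0), ?_, ?_⟩⟩⟩
  · rw [← cancel_mono (regLocus x).ι, Category.assoc, IsOpenImmersion.lift_fac]
    exact hl₁
  · obtain ⟨α, hα⟩ : ∃ α : CommRingCat.of (Polynomial K) ⟶ CommRingCat.of S.R, Spec.map α =
        IsOpenImmersion.lift (regLocus x).ι l (by rw [Scheme.Opens.range_ι]; exact hl0) ≫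
          coordMap c x := ⟨Spec.preimage _, Spec.map_preimage _⟩
    rw [← hα, ← hβ]
    congr 1
    have h1 : α ≫ ι = β ≫ ι := by
      apply Spec.map_injective
      rw [Spec.map_comp, Spec.map_comp, hα, hβ, ← Category.assoc]
      have : Spec.map ι ≫ IsOpenImmersion.lift (regLocus x).ι l
          (by rw [Scheme.Opens.range_ι]; exact hl0) = S.i₁ := by
        rw [← cancel_mono (regLocus x).ι, Category.assoc, IsOpenImmersion.lift_fac]
        exact hl₁
      rw [this]
      exact S.commSq.w
    refine CommRingCat.hom_ext (RingHom.ext fun a => ?_)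
    apply hιinj
    exact congr($(h1).hom a)


/-! ### finiteness of the coordinate map -/

theorem res_sectionsStrMap {U W : C.Opens} (h : W ≤ U) (k : K) :
    res W h (sectionsStrMap c U k) = sectionsStrMap c W k := by
  simp only [sectionsStrMap, RingHom.comp_apply]
  have := Scheme.Hom.appLE_map c (U := ⊤) (V := U) (V' := W) (fun _ _ => trivial) (homOfLE h).op
  exact congr($(this).hom _)

instance locallyOfFiniteType_coordMap [LocallyOfFiniteType c] (x : C.functionField) :
    LocallyOfFiniteType (coordMap c x) := by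
  haveI : LocallyOfFiniteType (coordMap c x ≫
      Spec.map (CommRingCat.ofHom (Polynomial.C : K →+* Polynomial K))) := by
    rw [coordMap_comp]; infer_instance
  exact locallyOfFiniteType_of_comp (coordMap c x)
    (Spec.map (CommRingCat.ofHom (Polynomial.C : K →+* Polynomial K)))

instance isSeparated_coordMap [IsSeparated c] (x : C.functionField) :
    IsSeparated (coordMap c x) := by
  haveI : IsSeparated (coordMap c x ≫
      Spec.map (CommRingCat.ofHom (Polynomial.C : K →+* Polynomial K))) := by
    rw [coordMap_comp]; infer_instance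
  exact IsSeparated.of_comp (coordMap c x)
    (Spec.map (CommRingCat.ofHom (Polynomial.C : K →+* Polynomial K)))

instance quasiCompact_coordMap [IsNoetherian C] (x : C.functionField) :
    QuasiCompact (coordMap c x) := by
  rw [quasiCompact_iff_compactSpace]
  exact isCompact_iff_compactSpace.mp (NoetherianSpace.isCompact (regLocus x : Set C))

/-- points of `𝔸¹` under the coordinate map. -/
theorem mem_asIdeal_coordMap (x : C.functionField) (u : (regLocus x).toScheme)
    (g : Polynomial K) :
    g ∈ (coordMap c x u).asIdeal ↔ u.1 ∉ C.basicOpen (coordRingHom c x g) := by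
  have h1 : coordMap c x u =
      Spec.map (CommRingCat.ofHom (coordRingHom c x)) ((regLocus x).toSpecΓ u) := rfl
  have h3 : g ∈ (Spec.map (CommRingCat.ofHom (coordRingHom c x))
      ((regLocus x).toSpecΓ u)).asIdeal ↔
      coordRingHom c x g ∈ ((regLocus x).toSpecΓ u).asIdeal := Iff.rfl
  rw [h1, h3, mem_asIdeal_toSpecΓ]

theorem genericPoint_mem_basicOpen {U : C.Opens} (a : Γ(C, U)) (ha : a ≠ 0) [Nonempty U] :
    genericPoint C ∈ C.basicOpen a := by
  have hη : genericPoint C ∈ U :=
    ((genericPoint_spec C).mem_open_set_iff U.isOpen).mpr (by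
      obtain ⟨⟨y, hy⟩⟩ := ‹Nonempty U›
      exact ⟨y, trivial, hy⟩)
  rw [Scheme.mem_basicOpen C a _ hη]
  have : C.presheaf.germ U (genericPoint C) hη a ≠ 0 := by
    intro h0
    apply ha
    exact germ_injective_of_isIntegral C _ hη (by rw [h0, map_zero])
  exact this.isUnit

/-- **the coordinate map has finite fibres.** -/
theorem finite_preimage_coordMap [IsAlgClosed K] [SmoothOfRelativeDimension 1 c] [IsNoetherian C]
    (x : C.functionField) (hx : Function.Injective (coordRingHom c x))
    (p : Spec (.of (Polynomial K))) : (coordMap c x ⁻¹' {p}).Finite := by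
  haveI : Smooth c := SmoothOfRelativeDimension.smooth 1 c
  haveI : LocallyOfFiniteType c := inferInstance
  by_cases hp : ∃ g : Polynomial K, g ≠ 0 ∧ g ∈ p.asIdeal
  · obtain ⟨g, hg0, hgp⟩ := hp
    have hne : coordRingHom c x g ≠ 0 := fun h => hg0 (hx (by rw [h, map_zero]))
    have hZ : ((C.basicOpen (coordRingHom c x g) : Set C)ᶜ).Finite := by
      refine finite_of_isClosed_of_ne_univ c _ (C.basicOpen _).isOpen.isClosed_compl ?_
      intro h
      have h1 : genericPoint C ∈ ((C.basicOpen (coordRingHom c x g) : Set C)ᶜ) := h ▸ trivial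
      exact h1 (genericPoint_mem_basicOpen _ hne)
    refine (hZ.preimage ((regLocus x).ι.isOpenEmbedding.injective.injOn)).subset ?_
    intro u hu
    rw [Set.mem_preimage, Set.mem_singleton_iff] at hu
    have : g ∈ (coordMap c x u).asIdeal := hu ▸ hgp
    rw [mem_asIdeal_coordMap] at this
    exact this
  · push Not at hp
    have hsub : (coordMap c x ⁻¹' {p}) ⊆ {u | (regLocus x).ι u = genericPoint C} := by
      intro u hu
      rw [Set.mem_preimage, Set.mem_singleton_iff] at hu
      by_contra hne
      have hne' : u.1 ≠ genericPoint C := hne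
      have hcl : IsClosed ({u.1} : Set C) := (isClosed_singleton_iff c u.1).mpr hne'
      obtain ⟨_, ⟨W, hW, rfl⟩, hzW, hWU⟩ :=
        C.isBasis_affineOpens.exists_subset_of_mem_open u.2 (regLocus x).isOpen
      have hWU' : W ≤ regLocus x := hWU
      obtain ⟨k, hk⟩ := exists_sub_notMem_basicOpen c hW u.1 hzW hcl (res W hWU' (xSec x))
      have h1 : res W hWU' (xSec x) - sectionsStrMap c W k =
          res W hWU' (coordRingHom c x (Polynomial.X - Polynomial.C k)) := by
        have hX : coordRingHom c x Polynomial.X = xSec x := by simp [coordRingHom]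
        have hC : coordRingHom c x (Polynomial.C k) = sectionsStrMap c (regLocus x) k := by
          simp [coordRingHom]
        rw [map_sub, map_sub, hX, hC, res_sectionsStrMap c hWU']
      rw [h1, Scheme.basicOpen_res] at hk
      have h2 : u.1 ∉ C.basicOpen (coordRingHom c x (Polynomial.X - Polynomial.C k)) :=
        fun h => hk ⟨hzW, h⟩
      rw [← mem_asIdeal_coordMap, hu] at h2
      exact Polynomial.X_sub_C_ne_zero k (by_contra fun h0 => hp _ h0 h2)
    refine Set.Subsingleton.finite ?_
    intro u hu v hv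
    exact (regLocus x).ι.isOpenEmbedding.injective ((hsub hu).trans (hsub hv).symm)

theorem ne_zero_of_injective_coordRingHom (x : C.functionField)
    (hx : Function.Injective (coordRingHom c x)) : x ≠ 0 := by
  rintro rfl
  have h1 : coordRingHom c (0 : C.functionField) Polynomial.X = 0 := by
    have : coordRingHom c (0 : C.functionField) Polynomial.X = xSec 0 := by simp [coordRingHom]
    rw [this]
    apply germOf_injective (regLocus (0 : C.functionField))
    rw [germOf_xSec, germOf_map_zero]
  exact Polynomial.X_ne_zero (hx (by rw [h1, map_zero]))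

/-- **the coordinate map of a non-constant function on a smooth proper curve is finite.** -/
theorem isFinite_coordMap [IsAlgClosed K] [IsProper c] [SmoothOfRelativeDimension 1 c]
    (x : C.functionField) (hx : Function.Injective (coordRingHom c x)) :
    IsFinite (coordMap c x) := by
  haveI : Smooth c := SmoothOfRelativeDimension.smooth 1 c
  haveI := isNoetherian_of_isProper c
  have hDVR : ∀ z : C, z ≠ genericPoint C → IsDiscreteValuationRing (C.presheaf.stalk z) :=
    fun z hz => isDiscreteValuationRing_stalk_of_coheight_eq_one c z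
      ((coheight_eq_one_iff c z).mpr hz)
  have hx0 := ne_zero_of_injective_coordRingHom c x hx
  haveI : UniversallyClosed (coordMap c x) :=
    UniversallyClosed.of_valuativeCriterion _ (valuative_existence_coordMap c hDVR x hx0)
  haveI : IsProper (coordMap c x) := {}
  haveI : LocallyQuasiFinite (coordMap c x) :=
    LocallyQuasiFinite.of_finite_preimage_singleton _ (finite_preimage_coordMap c x hx)
  exact IsFinite.of_isProper_of_locallyQuasiFinite _

/-- **the locus of regularity of a non-constant function on a smooth proper curve is affine.** -/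
theorem isAffineOpen_regLocus [IsAlgClosed K] [IsProper c] [SmoothOfRelativeDimension 1 c]
    (x : C.functionField) (hx : Function.Injective (coordRingHom c x)) :
    IsAffineOpen (regLocus x) := by
  haveI := isFinite_coordMap c x hx
  exact isAffine_of_isAffineHom (coordMap c x)

/-- sections over the locus of regularity form a finite `K[x]`-module. -/
theorem finite_coordRingHom [IsAlgClosed K] [IsProper c] [SmoothOfRelativeDimension 1 c]
    (x : C.functionField) (hx : Function.Injective (coordRingHom c x)) :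
    (coordRingHom c x).Finite := by
  haveI := isFinite_coordMap c x hx
  have hU := isAffineOpen_regLocus c x hx
  have h1 : Spec.map (CommRingCat.ofHom (coordRingHom c x)) = hU.isoSpec.inv ≫ coordMap c x := by
    rw [coordMap, ← Category.assoc, IsAffineOpen.isoSpec_inv_toSpecΓ, Category.id_comp]
  have h2 : IsFinite (Spec.map (CommRingCat.ofHom (coordRingHom c x))) := by
    rw [h1]; infer_instance
  exact (IsFinite.SpecMap_iff _).mp h2


/-! ### the two-affine cover -/

/-- the coordinate ring map computes `aeval x`. -/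
theorem germOf_coordRingHom [Algebra K C.functionField]
    (halg : ∀ a : K, algebraMap K C.functionField a = (functionFieldStrMap c).hom a)
    (x : C.functionField) (g : Polynomial K) :
    germOf (regLocus x) (coordRingHom c x g) = Polynomial.aeval x g := by
  let φ : Γ(C, regLocus x) →+* C.functionField :=
    { toFun := germOf (regLocus x)
      map_one' := germOf_map_one _
      map_mul' := germOf_map_mul _
      map_zero' := germOf_map_zero _
      map_add' := germOf_map_add _ }
  have h : φ.comp (coordRingHom c x) = (Polynomial.aeval x : Polynomial K →ₐ[K] _).toRingHom := by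
    apply Polynomial.ringHom_ext
    · intro a
      simp only [RingHom.comp_apply, coordRingHom, Polynomial.coe_eval₂RingHom,
        Polynomial.eval₂_C, AlgHom.toRingHom_eq_coe, RingHom.coe_coe, Polynomial.aeval_C]
      show germOf (regLocus x) (sectionsStrMap c (regLocus x) a) = _
      rw [germOf_sectionsStrMap, halg]
    · simp only [RingHom.comp_apply, coordRingHom, Polynomial.coe_eval₂RingHom,
        Polynomial.eval₂_X, AlgHom.toRingHom_eq_coe, RingHom.coe_coe, Polynomial.aeval_X]
      exact germOf_xSec x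
  exact congr($h g)

theorem injective_coordRingHom_iff [Algebra K C.functionField]
    (halg : ∀ a : K, algebraMap K C.functionField a = (functionFieldStrMap c).hom a)
    (x : C.functionField) :
    Function.Injective (coordRingHom c x) ↔ Transcendental K x := by
  rw [transcendental_iff_injective]
  constructor
  · intro h g₁ g₂ hg
    rw [← germOf_coordRingHom c halg, ← germOf_coordRingHom c halg] at hg
    exact h (germOf_injective _ hg)
  · intro h g₁ g₂ hg
    apply h
    rw [← germOf_coordRingHom c halg, ← germOf_coordRingHom c halg, hg]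

/-- a curve carries a non-constant rational function. -/
theorem exists_transcendental [SmoothOfRelativeDimension 1 c] [Algebra K C.functionField]
    (halg : ∀ a : K, algebraMap K C.functionField a = (functionFieldStrMap c).hom a) :
    ∃ x : C.functionField, Transcendental K x := by
  obtain ⟨_, ⟨U, hU, rfl⟩, hzU, -⟩ :=
    C.isBasis_affineOpens.exists_subset_of_mem_open (Set.mem_univ (genericPoint C)) isOpen_univ
  haveI : Nonempty U := ⟨⟨genericPoint C, hzU⟩⟩
  letI := secAlgebra c U
  haveI : IsScalarTower K Γ(C, U) C.functionField := isScalarTower_sections c U halg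
  obtain ⟨ν, hν, -⟩ := exists_nn_one c hU
  have h := algebraicIndependent_nnCoord C U ν hν
  exact ⟨nnCoord C U ν 0, h.transcendental 0⟩

/-- a finite ring map has a finite set of module generators (explicit form). -/
theorem exists_generators_of_finite {A B : Type*} [CommRing A] [CommRing B] (f : A →+* B)
    (hf : f.Finite) : ∃ (n : ℕ) (ρ : Fin n → B), ∀ r : B, ∃ p : Fin n → A,
      r = ∑ i, f (p i) * ρ i := by
  letI := f.toAlgebra
  haveI : Module.Finite A B := hf
  obtain ⟨n, ρ, hρ⟩ := Module.Finite.exists_fin (R := A) (M := B)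
  refine ⟨n, ρ, fun r => ?_⟩
  have hr : r ∈ Submodule.span A (Set.range ρ) := hρ ▸ Submodule.mem_top
  obtain ⟨p, hp⟩ := (Submodule.mem_span_range_iff_exists_fun A).mp hr
  refine ⟨p, ?_⟩
  rw [← hp]
  refine Finset.sum_congr rfl fun i _ => ?_
  rw [Algebra.smul_def]
  rfl

/-- **the two-affine cover of a smooth proper curve.** -/
theorem exists_two_affine_cover [IsAlgClosed K] [IsProper c] [SmoothOfRelativeDimension 1 c] :
    ∃ (U₀ U₁ : C.Opens) (x : Γ(C, U₀)) (y : Γ(C, U₁)),
      IsAffineOpen U₀ ∧ IsAffineOpen U₁ ∧ U₀ ⊔ U₁ = ⊤ ∧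
      C.basicOpen x = U₀ ⊓ U₁ ∧ C.basicOpen y = U₀ ⊓ U₁ ∧
      res (U₀ ⊓ U₁) inf_le_left x * res (U₀ ⊓ U₁) inf_le_right y = 1 ∧
      (Polynomial.eval₂RingHom (sectionsStrMap c U₀) x).Finite ∧
      (Polynomial.eval₂RingHom (sectionsStrMap c U₁) y).Finite ∧
      Function.Injective (Polynomial.eval₂RingHom (sectionsStrMap c U₀) x) ∧
      Function.Injective (Polynomial.eval₂RingHom (sectionsStrMap c U₁) y) := by
  letI := ffAlgebra c
  have halg : ∀ a : K, algebraMap K C.functionField a = (functionFieldStrMap c).hom a :=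
    fun _ => rfl
  obtain ⟨t, ht⟩ := exists_transcendental c halg
  have ht0 : t ≠ 0 := fun h => ht (h ▸ isAlgebraic_zero)
  have ht' : Transcendental K t⁻¹ := fun h => ht (by simpa using h.inv)
  have h0 := (injective_coordRingHom_iff c halg t).mpr ht
  have h1 := (injective_coordRingHom_iff c halg t⁻¹).mpr ht'
  have hDVR : ∀ z : C, z ≠ genericPoint C → IsDiscreteValuationRing (C.presheaf.stalk z) := by
    haveI : Smooth c := SmoothOfRelativeDimension.smooth 1 c
    exact fun z hz => isDiscreteValuationRing_stalk_of_coheight_eq_one c z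
      ((coheight_eq_one_iff c z).mpr hz)
  refine ⟨regLocus t, regLocus t⁻¹, xSec t, xSec t⁻¹, isAffineOpen_regLocus c t h0,
    isAffineOpen_regLocus c t⁻¹ h1, regLocus_sup_regLocus_inv hDVR t,
    (regLocus_inf_regLocus_inv ht0).symm, ?_, xSec_mul_xSec_inv ht0,
    finite_coordRingHom c t h0, finite_coordRingHom c t⁻¹ h1, h0, h1⟩
  have := regLocus_inf_regLocus_inv (inv_ne_zero ht0)
  rw [inv_inv, inf_comm] at this
  exact this.symm


end

end Fermat.Agent.JAC
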