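/-
PROJECT JAC (S25) — J1/J2, helper2: degrees of divisors on a prime divisor system.

`S : PDS K F` (helper2's `Fermat.Agent.AV.PDS`).  Divisors are functions `D : S.ι → ℤ` (of finite
support whenever that matters).
* `PDS.deg D := ∑ᶠ p, D p`, `deg_zero`, `deg_add`, `deg_neg`, `deg_sub`, `deg_single`, `deg_nsmul`;
* `PDS.divOf f := fun p => S.ordZ p f`, `finite_support_divOf`, `divOf_mul`, `divOf_inv`,
  `divOf_one`, `divOf_algebraMap`, `divOf_pow`;
* `schemePDS_ordZ`: on `schemePDS`, `ordZ` is Mathlib's `Scheme.ord`.
-/
import Mathlib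
import Fermat.Agent.AV.AV5_helper2_PDS
import Fermat.Agent.AV.AV5_helper2_SchemePDS

set_option autoImplicit false
set_option linter.style.haveILetI false

open AlgebraicGeometry Order

universe u v w

namespace Fermat.Agent.AV

namespace PDS

variable {K : Type u} {F : Type v} [Field K] [Field F] [Algebra K F] (S : PDS.{u, v, w} K F)

/-- the degree of a divisor (all prime divisors have degree one: algebraically closed base). -/
noncomputable def deg (D : S.ι → ℤ) : ℤ := ∑ᶠ p, D p

@[simp] theorem deg_zero : S.deg (0 : S.ι → ℤ) = 0 := by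
  simp [deg]

theorem deg_add {D E : S.ι → ℤ} (hD : (Function.support D).Finite)
    (hE : (Function.support E).Finite) : S.deg (D + E) = S.deg D + S.deg E := by
  simp only [deg, Pi.add_apply]
  exact finsum_add_distrib hD hE

theorem deg_neg (D : S.ι → ℤ) : S.deg (-D) = - S.deg D := by
  simp only [deg, Pi.neg_apply]
  exact finsum_neg_distrib D

theorem deg_sub {D E : S.ι → ℤ} (hD : (Function.support D).Finite)
    (hE : (Function.support E).Finite) : S.deg (D - E) = S.deg D - S.deg E := by
  rw [sub_eq_add_neg, deg_add S hD (by simpa using hE), deg_neg, sub_eq_add_neg]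

theorem deg_single [DecidableEq S.ι] (p : S.ι) (n : ℤ) : S.deg (Pi.single p n) = n := by
  simp only [deg]
  rw [finsum_eq_single _ p (fun q hq => by simp [hq])]
  simp

theorem deg_nsmul (k : ℕ) (D : S.ι → ℤ) : S.deg (k • D) = k • S.deg D := by
  simp only [deg, Pi.smul_apply]
  exact (smul_finsum k D).symm

theorem support_add_finite {D E : S.ι → ℤ} (hD : (Function.support D).Finite)
    (hE : (Function.support E).Finite) : (Function.support (D + E)).Finite :=
  (hD.union hE).subset (Function.support_add D E)

theorem support_neg_finite {D : S.ι → ℤ} (hD : (Function.support D).Finite) :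
    (Function.support (-D)).Finite := by
  simpa using hD

theorem support_sub_finite {D E : S.ι → ℤ} (hD : (Function.support D).Finite)
    (hE : (Function.support E).Finite) : (Function.support (D - E)).Finite := by
  rw [sub_eq_add_neg]
  exact support_add_finite S hD (support_neg_finite S hE)

/-- the divisor of a function (junk value `0` for `f = 0`). -/
noncomputable def divOf (f : F) : S.ι → ℤ := fun p => S.ordZ p f

@[simp] theorem divOf_apply (f : F) (p : S.ι) : S.divOf f p = S.ordZ p f := rfl

theorem finite_support_divOf {f : F} (hf : f ≠ 0) : (Function.support (S.divOf f)).Finite := by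
  refine (S.finite_support f hf).subset ?_
  intro p hp
  simp only [Function.mem_support, divOf_apply] at hp
  intro h0
  apply hp
  simp [ordZ, h0]

theorem divOf_mul {f g : F} (hf : f ≠ 0) (hg : g ≠ 0) :
    S.divOf (f * g) = S.divOf f + S.divOf g := by
  funext p
  exact S.ordZ_mul p hf hg

theorem divOf_one : S.divOf (1 : F) = 0 := by
  funext p
  simp [ordZ]

theorem divOf_inv {f : F} (hf : f ≠ 0) : S.divOf f⁻¹ = - S.divOf f := by
  have h := S.divOf_mul hf (inv_ne_zero hf)
  rw [mul_inv_cancel₀ hf, divOf_one] at h
  exact eq_neg_of_add_eq_zero_right h.symm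

theorem divOf_algebraMap {c : K} (hc : c ≠ 0) : S.divOf (algebraMap K F c) = 0 := by
  funext p
  simp [ordZ, S.ord_algebraMap p c hc]

theorem divOf_pow {f : F} (hf : f ≠ 0) (k : ℕ) : S.divOf (f ^ k) = k • S.divOf f := by
  induction k with
  | zero => simp [divOf_one]
  | succ k ih =>
    rw [pow_succ, S.divOf_mul (pow_ne_zero k hf) hf, ih, succ_nsmul]

end PDS

/-- on the prime divisor system of a scheme, `ordZ` is Mathlib's `Scheme.ord`. -/
theorem schemePDS_ordZ {K : Type u} [Field K] (X : Scheme.{u}) [IsIntegral X] [IsNoetherian X]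
    [Algebra K X.functionField]
    (hDVR : ∀ z : X, coheight z = 1 → IsDiscreteValuationRing (X.presheaf.stalk z))
    (hK : ∀ c : K, c ≠ 0 → ∀ z : X, coheight z = 1 →
      Scheme.ord (algebraMap K X.functionField c) z = 0)
    (z : (schemePDS X hDVR hK).ι) {f : X.functionField} (hf : f ≠ 0) :
    (schemePDS X hDVR hK).ordZ z f = Scheme.ord f z.1 := by
  rw [PDS.ordZ, schemePDS_ord_apply X hDVR hK z hf]
  rfl

end Fermat.Agent.AV
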