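/-
PROJECT JAC (S25) — J1b, helper2: the places of the function field of a smooth proper curve are its
closed points.

* abstract: `PDS.ordFn S p`, `PDS.place S p : Place K F`, `PDS.ord_place`, `PDS.mem_place_iff`,
  `PDS.place_eq_of_le` (a valuation ring containing that of `p`, not everything, is that of `p`);
-/
import Mathlib
import Fermat.Agent.FF.OfOrd
import Fermat.Agent.JAC.CURVE_helper2_DegDef

set_option autoImplicit false
set_option linter.style.haveILetI false
set_option linter.unusedSectionVars false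

open AlgebraicCurve

universe u v w

namespace Fermat.Agent.AV

namespace PDS

open Fermat.Agent.FF

variable {K : Type u} {F : Type v} [Field K] [Field F] [Algebra K F] (S : PDS.{u, v, w} K F)

theorem ordZ_algebraMap (p : S.ι) {c : K} (hc : c ≠ 0) : S.ordZ p (algebraMap K F c) = 0 := by
  simp [ordZ, S.ord_algebraMap p c hc]

/-- the order function of a prime divisor. -/
noncomputable def ordFn (p : S.ι) : OrdFn K F where
  ord := S.ordZ p
  ord_mul := fun hx hy => S.ordZ_mul p hx hy
  ord_add := by
    intro x y hx hy hxy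
    have h := (S.ord p).map_add x y
    rw [S.ord_eq_coe_ordZ p hx, S.ord_eq_coe_ordZ p hy, S.ord_eq_coe_ordZ p hxy] at h
    exact_mod_cast h
  ord_algebraMap := fun a ha => S.ordZ_algebraMap p ha
  nontrivial := by
    obtain ⟨x, hx⟩ := S.exists_uniformizer p
    have hx0 : x ≠ 0 := by
      rintro rfl
      rw [(S.ord p).map_zero] at hx
      exact absurd hx (by simp)
    refine ⟨x, hx0, ?_⟩
    simp [ordZ, hx]

/-- the place of a prime divisor. -/
noncomputable def place (p : S.ι) : Place K F := (S.ordFn p).toPlace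

theorem mem_place_iff (p : S.ι) {f : F} (hf : f ≠ 0) :
    f ∈ (S.place p).toValuationSubring ↔ 0 ≤ S.ordZ p f :=
  (S.ordFn p).mem_toPlace_iff hf

/-- the order at the place of `p` is the order along `p`. -/
theorem ord_place (p : S.ι) {f : F} (hf : f ≠ 0) : (S.place p).ord f = S.ordZ p f := by
  obtain ⟨m, hm0, hm⟩ := (S.ordFn p).exists_ord_eq_mul
  obtain ⟨x, hx⟩ := S.exists_uniformizer p
  have hx0 : x ≠ 0 := by
    rintro rfl
    rw [(S.ord p).map_zero] at hx
    exact absurd hx (by simp)
  have h1 : S.ordZ p x = 1 := by simp [ordZ, hx]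
  have h2 := hm x hx0
  change S.ordZ p x = m * (S.place p).ord x at h2
  rw [h1] at h2
  have hm1 : m = 1 := by
    have hdvd : m ∣ 1 := ⟨_, h2⟩
    exact Int.eq_one_of_dvd_one hm0.le hdvd
  have h3 := hm f hf
  change S.ordZ p f = m * (S.place p).ord f at h3
  rw [hm1, one_mul] at h3
  exact h3.symm

/-- a place whose valuation ring contains that of `p` is the place of `p`. -/
theorem place_eq_of_le (p : S.ι) (v : Place K F)
    (h : (S.place p).toValuationSubring ≤ v.toValuationSubring) : v = S.place p := by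
  apply Place.ext
  refine le_antisymm ?_ h
  intro f hf
  by_contra hnot
  have hf0 : f ≠ 0 := by
    rintro rfl
    exact hnot (ValuationSubring.zero_mem _)
  rw [S.mem_place_iff p hf0, not_le] at hnot
  obtain ⟨t, ht⟩ := S.exists_uniformizer p
  have ht0 : t ≠ 0 := by
    rintro rfl
    rw [(S.ord p).map_zero] at ht
    exact absurd ht (by simp)
  have ht1 : S.ordZ p t = 1 := by simp [ordZ, ht]
  have hzpow : ∀ n : ℤ, S.ordZ p (t ^ n) = n := by
    intro n
    have := (S.ordFn p).exists_ord_eq_mul
    have h1 := (S.place p).ord_zpow t n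
    rw [S.ord_place p (zpow_ne_zero n ht0), S.ord_place p ht0, ht1, mul_one] at h1
    exact h1
  -- `t⁻¹ ∈ v`
  have htinv : t⁻¹ ∈ v.toValuationSubring := by
    set n := S.ordZ p f with hn
    -- `g := f⁻¹ * t ^ (n + 1)`... use `t⁻¹ = f * (f⁻¹ * t⁻¹)` with `ord (f⁻¹ t⁻¹) = -n - 1 ≥ 0`
    have hg0 : f⁻¹ * t⁻¹ ≠ 0 := mul_ne_zero (inv_ne_zero hf0) (inv_ne_zero ht0)
    have hg : f⁻¹ * t⁻¹ ∈ (S.place p).toValuationSubring := by
      rw [S.mem_place_iff p hg0, S.ordZ_mul p (inv_ne_zero hf0) (inv_ne_zero ht0)]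
      have e1 : S.ordZ p f⁻¹ = -n := by
        have := congrFun (S.divOf_inv hf0) p
        simpa using this
      have e2 : S.ordZ p t⁻¹ = -1 := by
        have := congrFun (S.divOf_inv ht0) p
        simp only [divOf_apply, Pi.neg_apply] at this
        rw [this, ht1]
      rw [e1, e2]
      omega
    have : t⁻¹ = f * (f⁻¹ * t⁻¹) := by
      rw [← mul_assoc, mul_inv_cancel₀ hf0, one_mul]
    rw [this]
    exact v.toValuationSubring.mul_mem _ _ hf (h hg)
  -- hence everything is in `v`
  apply v.ne_top'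
  rw [eq_top_iff]
  intro g _
  by_cases hg0 : g = 0
  · rw [hg0]; exact ValuationSubring.zero_mem _
  set m := S.ordZ p g with hm
  by_cases hm0 : 0 ≤ m
  · exact h ((S.mem_place_iff p hg0).mpr hm0)
  · rw [not_le] at hm0
    -- `g = (g * t ^ (-m)) * (t⁻¹) ^ (-m)`
    obtain ⟨k, hk⟩ := Int.eq_ofNat_of_zero_le (neg_nonneg.mpr hm0.le)
    have h1 : g * t ^ k ∈ (S.place p).toValuationSubring := by
      have hne : g * t ^ k ≠ 0 := mul_ne_zero hg0 (pow_ne_zero k ht0)
      rw [S.mem_place_iff p hne, S.ordZ_mul p hg0 (pow_ne_zero k ht0)]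
      have := hzpow k
      rw [zpow_natCast] at this
      rw [this, ← hm]
      omega
    have h2 : g = (g * t ^ k) * (t⁻¹) ^ k := by
      rw [mul_assoc, ← mul_pow, mul_inv_cancel₀ ht0, one_pow, mul_one]
    rw [h2]
    exact v.toValuationSubring.mul_mem _ _ (h h1) (pow_mem htinv k)

end PDS

end Fermat.Agent.AV
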