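/-
PROJECT JAC (S25) — J1b, helper2: the places of the function field of a smooth proper curve are its
closed points.

Setting: `K` algebraically closed, `c : C ⟶ Spec K` proper, smooth of relative dimension one, `C`
integral; `S := schemePDS C hDVR hK`.
* `mem_place_iff_regAt`: the valuation ring of the place of `p` is `regAt p`;
* `exists_mem_regAt_notMem_regAt` (distinct closed points have different local rings);
* `place_injective`, `place_surjective` (centre of a valuation + maximality of DVRs),
  **`placeEquiv : S.ι ≃ Place K K(C)`**, `ord_placeEquiv`.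
-/
import Mathlib
import Fermat.Agent.AV.CENTRE_helper5_Valuative
import Fermat.Agent.JAC.CURVE_helper2_Places
import Fermat.Agent.JAC.CURVE_helper2_Cover

set_option autoImplicit false
set_option linter.style.haveILetI false
set_option linter.unusedSectionVars false

open AlgebraicGeometry CategoryTheory Opposite TopologicalSpace Order AlgebraicCurve

universe u

namespace Fermat.Agent.JAC

open Fermat.Agent.AV Fermat.Agent.AV.LB

noncomputable section

variable {K : Type u} [Field K] {C : Scheme.{u}} [IsIntegral C]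

section Local

/-- distinct closed points of an affine open have different local rings. -/
theorem exists_mem_regAt_notMem_regAt_of_isAffineOpen {U : C.Opens} (hU : IsAffineOpen U)
    {p q : C} (hp : p ∈ U) (hq : q ∈ U) (hpcl : IsClosed ({p} : Set C)) (hne : p ≠ q) :
    ∃ f : C.functionField, f ∈ regAt q ∧ f ∉ regAt p := by
  haveI : Nonempty U := ⟨⟨p, hp⟩⟩
  haveI := hU.primeIdealOf_isMaximal_of_isClosed ⟨p, hp⟩ hpcl
  -- a function vanishing at `p` but not at `q`
  have hPne : hU.primeIdealOf ⟨p, hp⟩ ≠ hU.primeIdealOf ⟨q, hq⟩ := by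
    intro h
    apply hne
    have h1 := hU.fromSpec_primeIdealOf ⟨p, hp⟩
    have h2 := hU.fromSpec_primeIdealOf ⟨q, hq⟩
    rw [h] at h1
    exact h1.symm.trans h2
  have hnle : ¬ (hU.primeIdealOf ⟨p, hp⟩).asIdeal ≤ (hU.primeIdealOf ⟨q, hq⟩).asIdeal := by
    intro hle
    apply hPne
    have := (Ideal.IsMaximal.eq_of_le inferInstance
      (hU.primeIdealOf ⟨q, hq⟩).isPrime.ne_top hle)
    exact PrimeSpectrum.ext this
  obtain ⟨a, haP, haQ⟩ := SetLike.not_le_iff_exists.mp hnle
  have hqa : q ∈ C.basicOpen a := (mem_basicOpen_iff_notMem_primeIdealOf hU q hq a).mpr haQ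
  have hpa : p ∉ C.basicOpen a := fun h =>
    (mem_basicOpen_iff_notMem_primeIdealOf hU p hp a).mp h haP
  refine ⟨(germOf U a)⁻¹, ?_, ?_⟩
  · -- regular at `q`
    haveI : Nonempty (C.basicOpen a) := ⟨⟨q, hqa⟩⟩
    have h1 := inv_germOf_mem_regOn (res (C.basicOpen a) (C.basicOpen_le a) a)
      (isUnit_res_basicOpen_self a)
    rw [germOf_res'] at h1
    exact (mem_regOn.mp h1) q hqa
  · -- not regular at `p`
    rintro ⟨W, b, hpW, hb⟩
    apply hpa
    haveI : Nonempty (W ⊓ U : C.Opens) := ⟨⟨p, hpW, hp⟩⟩
    have ha0 : germOf U a ≠ 0 := by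
      intro h0
      have : a = 0 := germOf_injective U (by rw [h0, germOf_map_zero])
      rw [this] at haQ
      exact haQ (Ideal.zero_mem _)
    have hmul : res (W ⊓ U) inf_le_right a * res (W ⊓ U) inf_le_left b = 1 := by
      apply germOf_injective (W ⊓ U)
      rw [germOf_map_mul, germOf_res', germOf_res', hb, germOf_map_one, mul_inv_cancel₀ ha0]
    have hu : IsUnit (res (W ⊓ U) inf_le_right a) := IsUnit.of_mul_eq_one _ hmul
    have h3 : p ∈ C.basicOpen (res (W ⊓ U) inf_le_right a) := by
      rw [Scheme.basicOpen_of_isUnit _ hu]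
      exact ⟨hpW, hp⟩
    rw [Scheme.basicOpen_res] at h3
    exact h3.2

end Local

variable (c : C ⟶ Spec (.of K))

section Curve

variable [IsAlgClosed K] [IsProper c] [SmoothOfRelativeDimension 1 c]

include c in
/-- **distinct closed points of a smooth proper curve have different local rings.** -/
theorem exists_mem_regAt_notMem_regAt {p q : C} (hp : p ≠ genericPoint C)
    (hq : q ≠ genericPoint C) (hne : p ≠ q) :
    ∃ f : C.functionField, (f ∈ regAt q ∧ f ∉ regAt p) ∨ (f ∈ regAt p ∧ f ∉ regAt q) := by
  letI := ffAlgebra c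
  have halg : ∀ a : K, algebraMap K C.functionField a = (functionFieldStrMap c).hom a :=
    fun _ => rfl
  obtain ⟨t, ht⟩ := exists_transcendental c halg
  have ht' : Transcendental K t⁻¹ := fun h => ht (by simpa using h.inv)
  have h0 := isAffineOpen_regLocus c t ((injective_coordRingHom_iff c halg t).mpr ht)
  have h1 := isAffineOpen_regLocus c t⁻¹ ((injective_coordRingHom_iff c halg t⁻¹).mpr ht')
  have hDVR : ∀ z : C, z ≠ genericPoint C → IsDiscreteValuationRing (C.presheaf.stalk z) := by
    haveI : Smooth c := SmoothOfRelativeDimension.smooth 1 c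
    exact fun z hz => isDiscreteValuationRing_stalk_of_coheight_eq_one c z
      ((coheight_eq_one_iff c z).mpr hz)
  have hcov := regLocus_sup_regLocus_inv hDVR t
  have hpcl := (isClosed_singleton_iff c p).mpr hp
  have hqcl := (isClosed_singleton_iff c q).mpr hq
  have hp' : p ∈ regLocus t ⊔ regLocus t⁻¹ := hcov ▸ trivial
  have hq' : q ∈ regLocus t ⊔ regLocus t⁻¹ := hcov ▸ trivial
  by_cases hp0 : p ∈ regLocus t
  · by_cases hq0 : q ∈ regLocus t
    · obtain ⟨f, hf⟩ := exists_mem_regAt_notMem_regAt_of_isAffineOpen h0 hp0 hq0 hpcl hne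
      exact ⟨f, Or.inl hf⟩
    · exact ⟨t, Or.inr ⟨hp0, hq0⟩⟩
  · have hp1 : p ∈ regLocus t⁻¹ := hp'.resolve_left hp0
    by_cases hq0 : q ∈ regLocus t
    · exact ⟨t, Or.inl ⟨hq0, hp0⟩⟩
    · have hq1 : q ∈ regLocus t⁻¹ := hq'.resolve_left hq0
      obtain ⟨f, hf⟩ := exists_mem_regAt_notMem_regAt_of_isAffineOpen h1 hp1 hq1 hpcl hne
      exact ⟨f, Or.inl hf⟩

end Curve

section Dictionary

variable [IsNoetherian C] [Algebra K C.functionField]
  (hDVR : ∀ z : C, coheight z = 1 → IsDiscreteValuationRing (C.presheaf.stalk z))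
  (hK : ∀ a : K, a ≠ 0 → ∀ z : C, coheight z = 1 →
    Scheme.ord (algebraMap K C.functionField a) z = 0)

/-- the valuation ring of the place of a closed point is its local ring. -/
theorem mem_place_iff_regAt (p : (schemePDS C hDVR hK).ι) (f : C.functionField) :
    f ∈ ((schemePDS C hDVR hK).place p).toValuationSubring ↔ f ∈ regAt p.1 := by
  haveI := hDVR p.1 p.2
  rw [mem_regAt_iff_mem_range, mem_range_stalk_iff_ord p.1 p.2]
  by_cases hf : f = 0
  · subst hf
    simp only [true_or, iff_true]
    exact ValuationSubring.zero_mem _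
  · rw [(schemePDS C hDVR hK).mem_place_iff p hf, schemePDS_ordZ C hDVR hK p hf]
    simp [hf]

variable [IsAlgClosed K] [IsProper c] [SmoothOfRelativeDimension 1 c]

include c in
theorem place_injective : Function.Injective (schemePDS C hDVR hK).place := by
  intro p q hpq
  by_contra hne
  have hne' : p.1 ≠ q.1 := fun h => hne (Subtype.ext h)
  obtain ⟨f, hf⟩ := exists_mem_regAt_notMem_regAt c ((coheight_eq_one_iff c p.1).mp p.2)
    ((coheight_eq_one_iff c q.1).mp q.2) hne'
  rw [← mem_place_iff_regAt hDVR hK, ← mem_place_iff_regAt hDVR hK, hpq] at hf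
  rcases hf with ⟨h1, h2⟩ | ⟨h1, h2⟩ <;> exact h2 h1

include c in
theorem place_surjective
    (halg : ∀ a : K, algebraMap K C.functionField a = (functionFieldStrMap c).hom a) :
    Function.Surjective (schemePDS C hDVR hK).place := by
  intro v
  obtain ⟨ξ, ψ, -, hψ⟩ := exists_centre_hom c v.toValuationSubring
    (fun a => by rw [← halg]; exact v.algebraMap_mem' a)
  have hsub : ∀ f : C.functionField, f ∈ regAt ξ → f ∈ v.toValuationSubring := by
    intro f hf
    rw [mem_regAt_iff_mem_range] at hf
    obtain ⟨a, rfl⟩ := hf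
    rw [← hψ a]
    exact (ψ a).2
  have hξ : ξ ≠ genericPoint C := by
    rintro rfl
    apply v.ne_top'
    rw [eq_top_iff]
    intro f _
    exact hsub f (genericPoint_mem_regLocus f)
  let p : (schemePDS C hDVR hK).ι := ⟨ξ, (coheight_eq_one_iff c ξ).mpr hξ⟩
  refine ⟨p, ((schemePDS C hDVR hK).place_eq_of_le p v ?_).symm⟩
  intro f hf
  exact hsub f ((mem_place_iff_regAt hDVR hK p f).mp hf)

/-- **the place dictionary of a smooth proper curve.** -/
def placeEquiv (halg : ∀ a : K, algebraMap K C.functionField a = (functionFieldStrMap c).hom a) :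
    (schemePDS C hDVR hK).ι ≃ Place K C.functionField :=
  Equiv.ofBijective (schemePDS C hDVR hK).place
    ⟨place_injective c hDVR hK, place_surjective c hDVR hK halg⟩

theorem ord_placeEquiv
    (halg : ∀ a : K, algebraMap K C.functionField a = (functionFieldStrMap c).hom a)
    (p : (schemePDS C hDVR hK).ι) (f : C.functionField) (hf : f ≠ 0) :
    (placeEquiv c hDVR hK halg p).ord f = (schemePDS C hDVR hK).ordZ p f :=
  (schemePDS C hDVR hK).ord_place p hf

end Dictionary

end

end Fermat.Agent.JAC
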