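/-
PROJECT JAC (S25) — J2, helper2: Riemann–Roch in the Prelude's divisor language, typeclass setting.

`K` algebraically closed (any characteristic), `F` finite separable over `K(X)` (the setting of
`Fermat/Agent/FF/RR_helper3_*`).  For a divisor `D : Divisor K F = Place K F →₀ ℤ`:
* `idealFin D`, `idealInf D`: the fractional ideals of `B`, `Binf` with exponents `-D`;
  `riemannRochSpace_eq_inf : riemannRochSpace D = finLat (idealFin D) ⊓ infLat (idealInf D)`;
* `canDiv K F : Divisor K F` (the divisor of the canonical pair `(canI, canJ)`), `genusTC K F : ℕ`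
  (`= dim F / (B + Binf)`), `sumDiv D = ∑ v, D v`;
* **`finite_riemannRochSpace`**, **`rr_TC`**:
  `ℓ(D) - ℓ(canDiv - D) = sumDiv D + 1 - genusTC`.
-/
import Mathlib
import Fermat.Agent.FF.PlaceDict
import Fermat.Agent.FF.RR_helper3_Main

set_option autoImplicit false
set_option linter.unusedSectionVars false
set_option linter.style.haveILetI false

open Polynomial AlgebraicCurve IsDedekindDomain WithZero
open Module nonZeroDivisors FractionalIdeal

namespace Fermat.Agent.JAC

open Fermat.Agent.FF Fermat.Agent.FF.RR

section General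

variable {R L : Type*} [CommRing R] [IsDedekindDomain R] [Field L] [Algebra R L]
  [IsFractionRing R L]

/-- the fractional ideal with prescribed exponents. -/
noncomputable def idealOfExp (e : HeightOneSpectrum R →₀ ℤ) : FractionalIdeal R⁰ L :=
  e.prod fun v k => (v.asIdeal : FractionalIdeal R⁰ L) ^ k

theorem idealOfExp_ne_zero (e : HeightOneSpectrum R →₀ ℤ) : (idealOfExp e : FractionalIdeal R⁰ L) ≠ 0 := by
  rw [idealOfExp, Finsupp.prod, Finset.prod_ne_zero_iff]
  intro v _
  exact zpow_ne_zero _ (coeIdeal_ne_zero.mpr v.ne_bot)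

theorem count_idealOfExp (e : HeightOneSpectrum R →₀ ℤ) (v : HeightOneSpectrum R) :
    count L v (idealOfExp e : FractionalIdeal R⁰ L) = e v :=
  count_finsuppProd L v e

end General

section SumDiv

variable {K F : Type*} [Field K] [Field F] [Algebra K F]

/-- the sum of the coefficients of a divisor. -/
noncomputable def sumDiv (D : Divisor K F) : ℤ := D.sum fun _ n => n

theorem sumDiv_eq_finsum (D : Divisor K F) : sumDiv D = ∑ᶠ v, D v := by
  rw [sumDiv, Finsupp.sum, finsum_eq_sum_of_support_subset]
  intro v hv
  simpa using hv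

end SumDiv

variable {K F : Type*} [Field K] [IsAlgClosed K] [Field F] [Algebra K F] [Algebra K[X] F]
  [Algebra (RatFunc K) F]
  [IsScalarTower K[X] (RatFunc K) F] [IsScalarTower K K[X] F] [IsScalarTower K (RatFunc K) F]
  [FiniteDimensional (RatFunc K) F] [Algebra.IsSeparable (RatFunc K) F]

local notation "B" => FunctionField.ringOfIntegers K F
local notation "Binf" => ringAtInfty K F

/-- exponents at the finite primes: `-D`. -/
noncomputable def finExp (D : Divisor K F) : HeightOneSpectrum B →₀ ℤ :=
  Finsupp.comapDomain (fun P => placeOf (k := K) (F := F) P) (-D) placeOf_injective.injOn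

/-- exponents at the infinite primes: `-D`. -/
noncomputable def infExp (D : Divisor K F) : HeightOneSpectrum Binf →₀ ℤ :=
  Finsupp.comapDomain (fun Q => placeOf (k := K) (F := F) Q) (-D) placeOf_injective.injOn

@[simp] theorem finExp_apply (D : Divisor K F) (P : HeightOneSpectrum B) :
    finExp D P = -D (placeOf (k := K) (F := F) P) := rfl

@[simp] theorem infExp_apply (D : Divisor K F) (Q : HeightOneSpectrum Binf) :
    infExp D Q = -D (placeOf (k := K) (F := F) Q) := rfl

/-- the finite part of the pair of a divisor. -/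
noncomputable def idealFin (D : Divisor K F) : FractionalIdeal B⁰ F := idealOfExp (finExp D)

/-- the infinite part of the pair of a divisor. -/
noncomputable def idealInf (D : Divisor K F) : FractionalIdeal Binf⁰ F := idealOfExp (infExp D)

theorem idealFin_ne_zero (D : Divisor K F) : idealFin D ≠ 0 := idealOfExp_ne_zero _

theorem idealInf_ne_zero (D : Divisor K F) : idealInf D ≠ 0 := idealOfExp_ne_zero _

@[simp] theorem count_idealFin (D : Divisor K F) (P : HeightOneSpectrum B) :
    count F P (idealFin D) = -D (placeOf (k := K) (F := F) P) := by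
  rw [idealFin, count_idealOfExp, finExp_apply]

@[simp] theorem count_idealInf (D : Divisor K F) (Q : HeightOneSpectrum Binf) :
    count F Q (idealInf D) = -D (placeOf (k := K) (F := F) Q) := by
  rw [idealInf, count_idealOfExp, infExp_apply]

/-- a pair of nonzero fractional ideals with the exponents of `D` computes `L(D)`. -/
theorem riemannRochSpace_eq_of_count (D : Divisor K F) {I : FractionalIdeal B⁰ F} (hI : I ≠ 0)
    {J : FractionalIdeal Binf⁰ F} (hJ : J ≠ 0)
    (hcI : ∀ P : HeightOneSpectrum B, count F P I = -D (placeOf (k := K) (F := F) P))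
    (hcJ : ∀ Q : HeightOneSpectrum Binf, count F Q J = -D (placeOf (k := K) (F := F) Q)) :
    riemannRochSpace D = finLat I ⊓ infLat J := by
  ext f
  have e1 : f ∈ finLat I ↔ ∀ P : HeightOneSpectrum B,
      P.valuation F f ≤ exp (D (placeOf (k := K) (F := F) P)) := by
    rw [mem_finLat]
    refine (mem_iff_valuation_le hI).trans (forall_congr' fun P => ?_)
    rw [hcI P, neg_neg]
  have e2 : f ∈ infLat J ↔ ∀ Q : HeightOneSpectrum Binf,
      Q.valuation F f ≤ exp (D (placeOf (k := K) (F := F) Q)) := by
    rw [mem_infLat]
    refine (mem_iff_valuation_le hJ).trans (forall_congr' fun Q => ?_)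
    rw [hcJ Q, neg_neg]
  rw [Submodule.mem_inf, e1, e2]
  exact mem_riemannRochSpace_iff_valuation D f

theorem riemannRochSpace_eq_inf (D : Divisor K F) :
    riemannRochSpace D = finLat (idealFin D) ⊓ infLat (idealInf D) :=
  riemannRochSpace_eq_of_count D (idealFin_ne_zero D) (idealInf_ne_zero D)
    (count_idealFin D) (count_idealInf D)

/-- **finiteness of the Riemann–Roch spaces.** -/
theorem finite_riemannRochSpace (D : Divisor K F) : Module.Finite K ↥(riemannRochSpace D) := by
  rw [riemannRochSpace_eq_inf]
  exact (finite_pair _ (idealFin_ne_zero D) _ (idealInf_ne_zero D)).1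

variable (K F) in
/-- the canonical divisor of the typeclass setting: the divisor of the pair `(canI, canJ)`. -/
noncomputable def canDiv : Divisor K F :=
  Finsupp.equivMapDomain (placeSumEquiv K F)
    (Finsupp.sumElim (-countFinsupp (canI K F)) (-countFinsupp (canJ K F)))

theorem canDiv_placeOf_fin (P : HeightOneSpectrum B) :
    canDiv K F (placeOf (k := K) (F := F) P) = -count F P (canI K F) := by
  rw [canDiv, Finsupp.equivMapDomain_apply, ← placeSumEquiv_inl, Equiv.symm_apply_apply]
  simp

theorem canDiv_placeOf_inf (Q : HeightOneSpectrum Binf) :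
    canDiv K F (placeOf (k := K) (F := F) Q) = -count F Q (canJ K F) := by
  rw [canDiv, Finsupp.equivMapDomain_apply, ← placeSumEquiv_inr, Equiv.symm_apply_apply]
  simp

variable (K F) in
/-- the genus of the typeclass setting. -/
noncomputable def genusTC : ℕ :=
  finrank K (F ⧸ (finLat (1 : FractionalIdeal B⁰ F) ⊔ infLat (1 : FractionalIdeal Binf⁰ F)))

theorem sumDiv_eq_finsum_add_finsum (D : Divisor K F) :
    sumDiv D = ∑ᶠ P : HeightOneSpectrum B, D (placeOf (k := K) (F := F) P) +
      ∑ᶠ Q : HeightOneSpectrum Binf, D (placeOf (k := K) (F := F) Q) := by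
  rw [sumDiv_eq_finsum, ← finsum_comp_equiv (placeSumEquiv K F)]
  have hfin : (Function.support fun s : HeightOneSpectrum B ⊕ HeightOneSpectrum Binf =>
      D (placeSumEquiv K F s)).Finite := by
    refine (D.support.finite_toSet.preimage (placeSumEquiv K F).injective.injOn).subset ?_
    intro s hs
    simpa using hs
  rw [finsum_eq_sum_of_support_subset _ (s := hfin.toFinset) (by simp),
    Finset.sum_sum_eq_sum_toLeft_add_sum_toRight]
  congr 1
  · rw [finsum_eq_sum_of_support_subset (s := hfin.toFinset.toLeft)]
    · rfl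
    · intro P hP
      rw [Finset.mem_coe, Finset.mem_toLeft, Set.Finite.mem_toFinset]
      exact hP
  · rw [finsum_eq_sum_of_support_subset (s := hfin.toFinset.toRight)]
    · rfl
    · intro Q hQ
      rw [Finset.mem_coe, Finset.mem_toRight, Set.Finite.mem_toFinset]
      exact hQ

/-- the dual pair of the pair of `D` computes `L(canDiv - D)`. -/
theorem riemannRochSpace_canDiv_sub (D : Divisor K F) :
    riemannRochSpace (canDiv K F - D) =
      finLat (dual K[X] (RatFunc K) (idealFin D)) ⊓
        infLat (twist (-2) (dual (Oinf K) (RatFunc K) (idealInf D))) := by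
  have hI := idealFin_ne_zero D
  have hJ := idealInf_ne_zero D
  have hI' : dual K[X] (RatFunc K) (idealFin D) ≠ 0 := dual_ne_zero _ _ hI
  have hJ' : dual (Oinf K) (RatFunc K) (idealInf D) ≠ 0 := dual_ne_zero _ _ hJ
  refine riemannRochSpace_eq_of_count _ hI' (twist_ne_zero hJ') (fun P => ?_) (fun Q => ?_)
  · have h0 : dual K[X] (RatFunc K) (idealFin D) = canI K F * (idealFin D)⁻¹ := by
      rw [dual_eq_mul_inv, canI]
    rw [h0, count_mul F P (canI_ne_zero (K := K) (F := F)) (inv_ne_zero hI),
      count_inv, count_idealFin, Finsupp.sub_apply, canDiv_placeOf_fin]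
    ring
  · have h1 : twist (-2) (dual (Oinf K) (RatFunc K) (idealInf D)) =
        canJ K F * (idealInf D)⁻¹ := by
      rw [dual_eq_mul_inv, canJ, twist, twist, mul_assoc]
    rw [h1, count_mul F Q (canJ_ne_zero (K := K) (F := F)) (inv_ne_zero hJ), count_inv,
      count_idealInf, Finsupp.sub_apply, canDiv_placeOf_inf]
    ring

/-- **Riemann–Roch** in the typeclass setting, in the Prelude's divisor language. -/
theorem rr_TC (D : Divisor K F) :
    (finrank K ↥(riemannRochSpace D) : ℤ) - finrank K ↥(riemannRochSpace (canDiv K F - D)) =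
      sumDiv D + 1 - genusTC K F := by
  have hI := idealFin_ne_zero D
  have hJ := idealInf_ne_zero D
  have h1 := chi_eq hI hJ
  rw [chi, chi, finrank_one_one, finrank_quotient_pair _ hI _ hJ, ← riemannRochSpace_eq_inf,
    ← riemannRochSpace_canDiv_sub] at h1
  have h2 : ∑ᶠ P : HeightOneSpectrum B, count F P (idealFin D) =
      -∑ᶠ P : HeightOneSpectrum B, D (placeOf (k := K) (F := F) P) := by
    rw [← finsum_neg_distrib]
    exact finsum_congr fun P => count_idealFin D P
  have h3 : ∑ᶠ Q : HeightOneSpectrum Binf, count F Q (idealInf D) =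
      -∑ᶠ Q : HeightOneSpectrum Binf, D (placeOf (k := K) (F := F) Q) := by
    rw [← finsum_neg_distrib]
    exact finsum_congr fun Q => count_idealInf D Q
  rw [h2, h3] at h1
  rw [sumDiv_eq_finsum_add_finsum, genusTC, h1]
  push_cast
  ring

end Fermat.Agent.JAC
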