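/-
PROJECT JAC (S25) — J2, helper2: separating coordinates, and Riemann–Roch for an abstract function
field of one variable over an algebraically closed field (any characteristic).

* `Coord.exists_typeclass_setting_of_isSeparable`: a coordinate `x` with `F / K(x)` separable gives
  the typeclass setting of `Fermat/Agent/FF/RR_helper3_*`;
* `exists_separating_coord`: `F / K` essentially of finite type, `trdeg = 1`, `K` perfect ⇒
  there is a coordinate with `F / K(x)` finite separable;
* **`exists_rr`**: `∃ g W, ∀ D, Module.Finite K L(D) ∧ ℓ(D) - ℓ(W - D) = sumDiv D + 1 - g`.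
-/
import Mathlib
import Fermat.Agent.JAC.CURVE_helper2_RRFF

set_option autoImplicit false
set_option linter.unusedSectionVars false
set_option linter.style.haveILetI false

open Polynomial AlgebraicCurve IntermediateField Module

namespace Fermat.Agent.JAC

open Fermat.Agent.FF Fermat.Agent.FF.RR

/-- **from a separating coordinate to the typeclass setting.** -/
theorem Coord.exists_typeclass_setting_of_isSeparable {k F : Type*} [Field k] [Field F]
    [Algebra k F] (c : Coord k F) (hsep : Algebra.IsSeparable k⟮c.x⟯ F) :
    ∃ (_ : Algebra k[X] F) (_ : Algebra (RatFunc k) F) (_ : IsScalarTower k[X] (RatFunc k) F)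
      (_ : IsScalarTower k k[X] F) (_ : IsScalarTower k (RatFunc k) F)
      (_ : FiniteDimensional (RatFunc k) F) (_ : Algebra.IsSeparable (RatFunc k) F),
      xF k F = c.x := by
  letI := c.algPoly
  letI := c.algRat
  haveI := c.tower1
  haveI := c.tower2
  haveI := c.tower3
  haveI : FunctionField k F := c.functionField
  haveI : Algebra.IsSeparable (RatFunc k) F := by
    refine Algebra.IsSeparable.of_equiv_equiv c.ratEquiv.symm (RingEquiv.refl F) ?_
    ext f
    simp only [RingHom.coe_comp, Function.comp_apply, RingEquiv.coe_toRingHom,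
      RingEquiv.refl_apply]
    show c.ratEmb (c.ratEquiv.symm f) = (f : F)
    simp [Coord.ratEmb, Coord.ratEquiv]
  exact ⟨c.algPoly, c.algRat, c.tower1, c.tower2, c.tower3, c.functionField, inferInstance,
    (xF_eq_coord k F).trans c.coord_eq⟩

/-- **separating coordinates exist** over a perfect field. -/
theorem exists_separating_coord (K F : Type*) [Field K] [PerfectField K] [Field F] [Algebra K F]
    [Algebra.EssFiniteType K F] (htr : Algebra.trdeg K F = 1) :
    ∃ c : Coord K F, Algebra.IsSeparable K⟮c.x⟯ F := by
  obtain ⟨s, hs, hsep⟩ := exists_isTranscendenceBasis_and_isSeparable_of_perfectField K F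
  have hcard : s.card = 1 := by
    have h1 := hs.cardinalMk_eq_trdeg
    rw [htr] at h1
    have h2 : Cardinal.mk (s : Type _) = s.card := by simp
    rw [h2] at h1
    exact_mod_cast h1
  obtain ⟨x, rfl⟩ := Finset.card_eq_one.mp hcard
  have hx : Transcendental K x := by
    have := hs.1
    have h := this.transcendental ⟨x, by simp⟩
    simpa using h
  have hset : (({x} : Finset F) : Set F) = {x} := by simp
  rw [hset] at hsep
  haveI : Algebra.IsAlgebraic K⟮x⟯ F := inferInstance
  haveI : Algebra.EssFiniteType K⟮x⟯ F := Algebra.EssFiniteType.of_comp K _ F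
  have hfin : FiniteDimensional K⟮x⟯ F := Algebra.finite_of_essFiniteType_of_isAlgebraic
  exact ⟨⟨x, hx, hfin⟩, hsep⟩

/-- **Riemann–Roch for a function field of one variable** over an algebraically closed field. -/
theorem exists_rr (K F : Type*) [Field K] [IsAlgClosed K] [Field F] [Algebra K F]
    [Algebra.EssFiniteType K F] (htr : Algebra.trdeg K F = 1) :
    ∃ (g : ℕ) (W : Divisor K F), ∀ D : Divisor K F,
      Module.Finite K ↥(riemannRochSpace D) ∧
        (finrank K ↥(riemannRochSpace D) : ℤ) - finrank K ↥(riemannRochSpace (W - D)) =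
          sumDiv D + 1 - g := by
  obtain ⟨c, hsep⟩ := exists_separating_coord K F htr
  obtain ⟨i1, i2, i3, i4, i5, i6, i7, -⟩ := Coord.exists_typeclass_setting_of_isSeparable c hsep
  exact ⟨genusTC K F, canDiv K F, fun D => ⟨finite_riemannRochSpace D, rr_TC D⟩⟩

end Fermat.Agent.JAC
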