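/-
PROJECT JAC (S25) — J2, helper2: formal consequences of Riemann–Roch on a prime divisor system.

`S : PDS K F`, `ℓ D := finrank K (S.RRSpace D)`.  `PDS.RRData S`: a genus `g`, a canonical divisor
`W` (finite support), finiteness of all `L(D)` and `ℓ D - ℓ (W - D) = deg D + 1 - g` for all `D` of
finite support.  From this (and `K` algebraically closed for `ℓ 0 = 1`):
* `ell_add_divOf` (linear equivalence), **`deg_divOf_eq_zero`**, `ell_zero`, `ell_W`, `deg_W`;
* **`ell_eq_zero_of_deg_neg`**, **`riemann_le`**, **`ell_eq_of_lt_deg`**;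
* `ell_le_ell_add_single`, `ell_add_single_le`, **`finite_bad_points`** (general position);
* **`exists_only_pole`** (a non-constant function whose only pole is a given prime divisor).
-/
import Mathlib
import Fermat.Agent.JAC.CURVE_helper2_DegDef

set_option autoImplicit false
set_option linter.style.haveILetI false
set_option linter.unusedSectionVars false

open Module

universe u v w

namespace Fermat.Agent.AV

namespace PDS

variable {K : Type u} {F : Type v} [Field K] [Field F] [Algebra K F] (S : PDS.{u, v, w} K F)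

/-- the dimension of the Riemann–Roch space. -/
noncomputable def ell (D : S.ι → ℤ) : ℕ := finrank K (S.RRSpace D)

/-- **Riemann–Roch data** on a prime divisor system. -/
structure RRData where
  /-- the genus -/
  g : ℕ
  /-- a canonical divisor -/
  W : S.ι → ℤ
  hW : (Function.support W).Finite
  finite : ∀ D : S.ι → ℤ, (Function.support D).Finite → FiniteDimensional K (S.RRSpace D)
  rr : ∀ D : S.ι → ℤ, (Function.support D).Finite →
    (S.ell D : ℤ) - S.ell (W - D) = S.deg D + 1 - g

variable {S}

theorem mem_RRSpace_iff_ordZ {D : S.ι → ℤ} {f : F} (hf : f ≠ 0) :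
    f ∈ S.RRSpace D ↔ ∀ p, -D p ≤ S.ordZ p f := by
  rw [mem_RRSpace]
  refine forall_congr' fun p => ?_
  rw [S.ord_eq_coe_ordZ p hf]
  exact WithTop.coe_le_coe

theorem self_mem_RRSpace_neg_divOf {f : F} (hf : f ≠ 0) : f ∈ S.RRSpace (-S.divOf f) := by
  rw [mem_RRSpace_iff_ordZ hf]
  intro p
  simp

theorem inv_mem_RRSpace_divOf {f : F} (hf : f ≠ 0) : f⁻¹ ∈ S.RRSpace (S.divOf f) := by
  rw [mem_RRSpace_iff_ordZ (inv_ne_zero hf)]
  intro p
  have h := congrFun (S.divOf_inv hf) p
  simp only [divOf_apply, Pi.neg_apply] at h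
  rw [h, divOf_apply]

/-- linearly equivalent divisors have Riemann–Roch spaces of the same dimension. -/
theorem ell_add_divOf (D : S.ι → ℤ) {f : F} (hf : f ≠ 0)
    [FiniteDimensional K (S.RRSpace D)] [FiniteDimensional K (S.RRSpace (D + S.divOf f))] :
    S.ell (D + S.divOf f) = S.ell D := by
  apply le_antisymm
  · exact S.finrank_RRSpace_le_of_mem f (self_mem_RRSpace_neg_divOf hf) hf
      (fun p => by simp)
  · exact S.finrank_RRSpace_le_of_mem f⁻¹ (inv_mem_RRSpace_divOf hf) (inv_ne_zero hf)
      (fun p => by simp)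

theorem ell_mono {D E : S.ι → ℤ} (h : ∀ p, D p ≤ E p) [FiniteDimensional K (S.RRSpace E)] :
    S.ell D ≤ S.ell E :=
  Submodule.finrank_mono (S.RRSpace_mono h)

/-- the degree of an effective divisor is non-negative. -/
theorem deg_nonneg {D : S.ι → ℤ} (h : ∀ p, 0 ≤ D p) : 0 ≤ S.deg D :=
  finsum_nonneg h

namespace RRData

variable (R : S.RRData)

include R in
/-- **principal divisors have degree zero.** -/
theorem deg_divOf_eq_zero {f : F} (hf : f ≠ 0) : S.deg (S.divOf f) = 0 := by
  have hfs := S.finite_support_divOf hf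
  have h0s : (Function.support (0 : S.ι → ℤ)).Finite := by simp
  haveI := R.finite 0 h0s
  haveI := R.finite (S.divOf f) hfs
  haveI := R.finite R.W R.hW
  haveI := R.finite (R.W - S.divOf f) (S.support_sub_finite R.hW hfs)
  have h1 := R.rr 0 h0s
  have h2 := R.rr (S.divOf f) hfs
  have e1 : S.ell (S.divOf f) = S.ell (0 : S.ι → ℤ) := by
    haveI : FiniteDimensional K (S.RRSpace ((0 : S.ι → ℤ) + S.divOf f)) := by
      rw [zero_add]; infer_instance
    have := ell_add_divOf (0 : S.ι → ℤ) hf (S := S)
    rwa [zero_add] at this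
  have e2 : S.ell (R.W - S.divOf f) = S.ell R.W := by
    have hinv : S.divOf f⁻¹ = -S.divOf f := S.divOf_inv hf
    haveI : FiniteDimensional K (S.RRSpace (R.W + S.divOf f⁻¹)) := by
      rw [hinv, ← sub_eq_add_neg]; infer_instance
    have := ell_add_divOf R.W (inv_ne_zero hf) (S := S)
    rwa [hinv, ← sub_eq_add_neg] at this
  rw [e1, e2] at h2
  rw [sub_zero, deg_zero] at h1
  linarith

include R in
/-- a divisor of negative degree has no sections. -/
theorem ell_eq_zero_of_deg_neg {D : S.ι → ℤ} (hD : (Function.support D).Finite)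
    (hdeg : S.deg D < 0) : S.ell D = 0 := by
  by_contra hne
  have hbot : S.RRSpace D ≠ ⊥ := fun h => hne (by rw [ell, h, finrank_bot])
  obtain ⟨f, hfD, hf0⟩ := Submodule.exists_mem_ne_zero_of_ne_bot hbot
  have h1 : 0 ≤ S.deg (D + S.divOf f) := by
    refine deg_nonneg fun p => ?_
    have := (mem_RRSpace_iff_ordZ hf0).mp hfD p
    simp only [Pi.add_apply, divOf_apply]
    linarith
  rw [S.deg_add hD (S.finite_support_divOf hf0), R.deg_divOf_eq_zero hf0, add_zero] at h1
  exact absurd h1 (not_le.mpr hdeg)

include R in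
/-- **Riemann's inequality.** -/
theorem riemann_le {D : S.ι → ℤ} (hD : (Function.support D).Finite) :
    S.deg D + 1 - R.g ≤ S.ell D := by
  have := R.rr D hD
  have h0 : (0 : ℤ) ≤ S.ell (R.W - D) := Int.natCast_nonneg _
  linarith

end RRData

section Constants

variable [IsAlgClosed K] (S)

/-- the functions without poles, as a subalgebra. -/
def integers : Subalgebra K F where
  carrier := {f | ∀ p, 0 ≤ S.ord p f}
  mul_mem' := by
    intro a b ha hb p
    rw [(S.ord p).map_mul]
    exact add_nonneg (ha p) (hb p)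
  add_mem' := by
    intro a b ha hb p
    exact (S.ord p).map_le_add (ha p) (hb p)
  algebraMap_mem' := by
    intro c p
    by_cases hc : c = 0
    · rw [hc, map_zero, (S.ord p).map_zero]
      exact le_top
    · rw [S.ord_algebraMap p c hc]

theorem integers_toSubmodule : Subalgebra.toSubmodule S.integers = S.RRSpace 0 := by
  ext f
  rw [Subalgebra.mem_toSubmodule, mem_RRSpace]
  simp only [Pi.zero_apply, neg_zero]
  rfl

variable {S}

/-- **the only functions without poles are the constants** (given finite-dimensionality). -/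
theorem mem_range_algebraMap_of_mem_RRSpace_zero [FiniteDimensional K (S.RRSpace 0)] {f : F}
    (hf : f ∈ S.RRSpace 0) : f ∈ Set.range (algebraMap K F) := by
  have hFG : (Subalgebra.toSubmodule S.integers).FG := by
    rw [integers_toSubmodule]
    exact (Submodule.fg_iff_finiteDimensional _).mpr inferInstance
  have hx : f ∈ S.integers := by
    rw [← Subalgebra.mem_toSubmodule, integers_toSubmodule]
    exact hf
  have hint : IsIntegral K f := IsIntegral.of_mem_of_fg S.integers hFG f hx
  have hdeg : (minpoly K f).degree = 1 :=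
    IsAlgClosed.degree_eq_one_of_irreducible K (minpoly.irreducible hint)
  exact minpoly.mem_range_of_degree_eq_one K f hdeg

theorem RRSpace_zero_eq [FiniteDimensional K (S.RRSpace 0)] : S.RRSpace 0 = K ∙ (1 : F) := by
  apply le_antisymm
  · intro f hf
    obtain ⟨c, rfl⟩ := mem_range_algebraMap_of_mem_RRSpace_zero hf
    rw [Submodule.mem_span_singleton]
    exact ⟨c, by rw [Algebra.smul_def, mul_one]⟩
  · rw [Submodule.span_singleton_le_iff_mem, ← integers_toSubmodule, Subalgebra.mem_toSubmodule]
    exact one_mem _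

theorem ell_zero_eq_one [FiniteDimensional K (S.RRSpace 0)] : S.ell (0 : S.ι → ℤ) = 1 := by
  rw [ell, RRSpace_zero_eq]
  exact finrank_span_singleton one_ne_zero

end Constants

namespace RRData

variable [IsAlgClosed K] (R : S.RRData)

include R in
theorem ell_zero : S.ell (0 : S.ι → ℤ) = 1 := by
  haveI := R.finite 0 (by simp)
  exact ell_zero_eq_one

include R in
/-- `ℓ(W) = g`. -/
theorem ell_W : S.ell R.W = R.g := by
  have h := R.rr 0 (by simp)
  rw [sub_zero, deg_zero, R.ell_zero] at h
  push_cast at h
  have : (S.ell R.W : ℤ) = R.g := by linarith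
  exact_mod_cast this

include R in
/-- `deg W = 2g - 2`. -/
theorem deg_W : S.deg R.W = 2 * (R.g : ℤ) - 2 := by
  have h := R.rr R.W R.hW
  rw [sub_self, R.ell_zero, R.ell_W] at h
  push_cast at h
  linarith

include R in
/-- **Riemann's theorem**: `ℓ D = deg D + 1 - g` as soon as `deg D > 2g - 2`. -/
theorem ell_eq_of_lt_deg {D : S.ι → ℤ} (hD : (Function.support D).Finite)
    (hdeg : 2 * (R.g : ℤ) - 2 < S.deg D) : (S.ell D : ℤ) = S.deg D + 1 - R.g := by
  have h := R.rr D hD
  have h0 : S.ell (R.W - D) = 0 := by
    refine R.ell_eq_zero_of_deg_neg (S.support_sub_finite R.hW hD) ?_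
    rw [S.deg_sub R.hW hD, R.deg_W]
    linarith
  rw [h0] at h
  push_cast at h
  linarith

open Classical in
include R in
/-- adding a point raises `ℓ` by at most one. -/
theorem ell_add_single_le {D : S.ι → ℤ} (hD : (Function.support D).Finite) (p : S.ι) :
    S.ell (D + Pi.single p 1) ≤ S.ell D + 1 := by
  have hp : (Function.support (Pi.single p 1 : S.ι → ℤ)).Finite :=
    (Set.finite_singleton p).subset (by
      intro q hq
      by_contra hne
      exact hq (Pi.single_eq_of_ne hne 1))
  have hD' := S.support_add_finite hD hp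
  have h1 := R.rr D hD
  have h2 := R.rr (D + Pi.single p 1) hD'
  rw [S.deg_add hD hp, S.deg_single] at h2
  haveI := R.finite (R.W - D) (S.support_sub_finite R.hW hD)
  have h3 : S.ell (R.W - (D + Pi.single p 1)) ≤ S.ell (R.W - D) := by
    refine ell_mono fun q => ?_
    simp only [Pi.sub_apply, Pi.add_apply]
    by_cases hq : q = p
    · subst hq
      rw [Pi.single_eq_same]
      linarith
    · simp [Pi.single_eq_of_ne hq]
  have : (S.ell (D + Pi.single p 1) : ℤ) ≤ S.ell D + 1 := by
    have h3' : (S.ell (R.W - (D + Pi.single p 1)) : ℤ) ≤ S.ell (R.W - D) := by exact_mod_cast h3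
    linarith
  exact_mod_cast this

open Classical in
include R in
/-- **general position**: for `ℓ E ≥ 1`, all but finitely many points `p` impose a condition:
`ℓ (E - p) = ℓ E - 1`. -/
theorem finite_bad_points {E : S.ι → ℤ} (hE : (Function.support E).Finite) (h1 : 1 ≤ S.ell E) :
    {p : S.ι | S.ell (E - Pi.single p 1) ≠ S.ell E - 1}.Finite := by
  have hbot : S.RRSpace E ≠ ⊥ := fun h => by
    rw [ell, h, finrank_bot] at h1; exact absurd h1 (by norm_num)
  obtain ⟨f, hfE, hf0⟩ := Submodule.exists_mem_ne_zero_of_ne_bot hbot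
  refine ((hE.union (S.finite_support_divOf hf0))).subset ?_
  intro p hp
  by_contra hnot
  rw [Set.mem_union, not_or, Function.mem_support, Function.mem_support, not_not, not_not,
    divOf_apply] at hnot
  apply hp
  have hsp : (Function.support (Pi.single p 1 : S.ι → ℤ)).Finite :=
    (Set.finite_singleton p).subset (by
      intro q hq
      by_contra hne
      exact hq (Pi.single_eq_of_ne hne 1))
  have hE' := S.support_sub_finite hE hsp
  haveI := R.finite E hE
  -- `f ∉ L(E - p)`
  have hlt : S.RRSpace (E - Pi.single p 1) < S.RRSpace E := by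
    refine lt_of_le_of_ne (S.RRSpace_mono fun q => ?_) ?_
    · simp only [Pi.sub_apply]
      by_cases hq : q = p
      · subst hq; simp
      · simp [Pi.single_eq_of_ne hq]
    · intro heq
      have hf' : f ∈ S.RRSpace (E - Pi.single p 1) := heq ▸ hfE
      have := (mem_RRSpace_iff_ordZ hf0).mp hf' p
      simp only [Pi.sub_apply, Pi.single_eq_same] at this
      rw [hnot.1, hnot.2] at this
      norm_num at this
  have h2 : S.ell (E - Pi.single p 1) < S.ell E := Submodule.finrank_lt_finrank_of_lt hlt
  have h3 := R.ell_add_single_le hE' p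
  rw [sub_add_cancel] at h3
  omega

open Classical in
include R in
/-- **a non-constant function whose only pole is `p`.** -/
theorem exists_only_pole (p : S.ι) :
    ∃ f : F, (∀ c : K, f ≠ algebraMap K F c) ∧ (∀ q, q ≠ p → 0 ≤ S.ord q f) ∧ S.ord p f < 0 := by
  set D : S.ι → ℤ := Pi.single p (2 * (R.g : ℤ) + 1) with hDdef
  have hD : (Function.support D).Finite :=
    (Set.finite_singleton p).subset (by
      intro q hq
      by_contra hne
      exact hq (Pi.single_eq_of_ne hne _))
  have hdeg : S.deg D = 2 * (R.g : ℤ) + 1 := S.deg_single p _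
  have hell := R.ell_eq_of_lt_deg hD (by rw [hdeg]; linarith)
  rw [hdeg] at hell
  haveI := R.finite D hD
  haveI := R.finite 0 (by simp)
  -- `L(D)` is not contained in the constants
  have hnot : ¬ S.RRSpace D ≤ K ∙ (1 : F) := by
    intro hle
    have h1 : S.ell D ≤ 1 := by
      have := Submodule.finrank_mono hle
      rwa [finrank_span_singleton (one_ne_zero : (1 : F) ≠ 0)] at this
    have : (S.ell D : ℤ) ≤ 1 := by exact_mod_cast h1
    linarith [Int.natCast_nonneg R.g]
  obtain ⟨f, hfD, hfK⟩ := SetLike.not_le_iff_exists.mp hnot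
  have hconst : ∀ c : K, f ≠ algebraMap K F c := by
    rintro c rfl
    apply hfK
    rw [Submodule.mem_span_singleton]
    exact ⟨c, by rw [Algebra.smul_def, mul_one]⟩
  have hq : ∀ q, q ≠ p → 0 ≤ S.ord q f := by
    intro q hq
    have := hfD q
    rw [hDdef, Pi.single_eq_of_ne hq] at this
    simpa using this
  refine ⟨f, hconst, hq, ?_⟩
  by_contra hp
  rw [not_lt] at hp
  have hf0 : f ∈ S.RRSpace 0 := by
    intro q
    simp only [Pi.zero_apply, neg_zero]
    by_cases hqp : q = p
    · subst hqp; exact_mod_cast hp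
    · exact_mod_cast hq q hqp
  obtain ⟨c, hc⟩ := mem_range_algebraMap_of_mem_RRSpace_zero hf0
  exact hconst c hc.symm

end RRData

end PDS

end Fermat.Agent.AV
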