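/-
PROJECT JAC (S25) — J2, helper2: from Riemann–Roch for the function field (places) to Riemann–Roch
data on a prime divisor system whose prime divisors are the places.

`S : PDS K F`, `e : S.ι ≃ Place K F` with `(e p).ord f = S.ordZ p f`:
* `PDS.toDivisor e D` (finite support), `RRSpace_eq_riemannRochSpace`, `sumDiv_toDivisor`;
* **`PDS.nonempty_rrData_of_equiv`** (`K` algebraically closed, `F / K` a function field of one
  variable).
-/
import Mathlib
import Fermat.Agent.JAC.CURVE_helper2_Coord
import Fermat.Agent.JAC.CURVE_helper2_RRAbs

set_option autoImplicit false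
set_option linter.style.haveILetI false
set_option linter.unusedSectionVars false

open AlgebraicCurve Module

universe u v w

namespace Fermat.Agent.AV

namespace PDS

open Fermat.Agent.JAC

variable {K : Type u} {F : Type v} [Field K] [Field F] [Algebra K F] (S : PDS.{u, v, w} K F)
  (e : S.ι ≃ Place K F)

/-- a divisor of finite support on `S`, as a divisor on places. -/
noncomputable def toDivisor (D : S.ι → ℤ) (hD : (Function.support D).Finite) : Divisor K F :=
  Finsupp.ofSupportFinite (fun v => D (e.symm v)) (by
    refine (hD.image e).subset ?_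
    intro v hv
    exact ⟨e.symm v, hv, e.apply_symm_apply v⟩)

@[simp] theorem toDivisor_apply (D : S.ι → ℤ) (hD : (Function.support D).Finite) (v : Place K F) :
    S.toDivisor e D hD v = D (e.symm v) := rfl

theorem toDivisor_sub (D E : S.ι → ℤ) (hD : (Function.support D).Finite)
    (hE : (Function.support E).Finite) :
    S.toDivisor e (D - E) (S.support_sub_finite hD hE) =
      S.toDivisor e D hD - S.toDivisor e E hE := by
  ext v
  simp

theorem sumDiv_toDivisor (D : S.ι → ℤ) (hD : (Function.support D).Finite) :
    sumDiv (S.toDivisor e D hD) = S.deg D := by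
  rw [sumDiv_eq_finsum, deg, ← finsum_comp_equiv e]
  refine finsum_congr fun p => ?_
  simp

variable {S e}

theorem RRSpace_eq_riemannRochSpace
    (he : ∀ (p : S.ι) (f : F), f ≠ 0 → (e p).ord f = S.ordZ p f)
    (D : S.ι → ℤ) (hD : (Function.support D).Finite) :
    S.RRSpace D = riemannRochSpace (S.toDivisor e D hD) := by
  ext f
  rw [mem_riemannRochSpace_iff]
  by_cases hf : f = 0
  · subst hf
    simp only [true_or, implies_true, iff_true]
    exact (S.RRSpace D).zero_mem
  · rw [mem_RRSpace_iff_ordZ hf]
    constructor
    · intro h v
      refine Or.inr ?_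
      have := h (e.symm v)
      rw [toDivisor_apply, ← he (e.symm v) f hf, e.apply_symm_apply] at *
      exact this
    · intro h p
      have := (h (e p)).resolve_left hf
      rwa [toDivisor_apply, e.symm_apply_apply, he p f hf] at this

/-- **Riemann–Roch data from the place dictionary.** -/
theorem nonempty_rrData_of_equiv [IsAlgClosed K] [Algebra.EssFiniteType K F]
    (htr : Algebra.trdeg K F = 1) (e : S.ι ≃ Place K F)
    (he : ∀ (p : S.ι) (f : F), f ≠ 0 → (e p).ord f = S.ordZ p f) : Nonempty S.RRData := by
  obtain ⟨g, W, hrr⟩ := exists_rr K F htr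
  have hWfin : (Function.support fun p : S.ι => W (e p)).Finite := by
    refine (W.support.finite_toSet.preimage e.injective.injOn).subset ?_
    intro p hp
    simpa using hp
  have hWeq : S.toDivisor e (fun p => W (e p)) hWfin = W := by
    ext v
    simp
  refine ⟨{ g := g
            W := fun p => W (e p)
            hW := hWfin
            finite := fun D hD => ?_
            rr := fun D hD => ?_ }⟩
  · rw [RRSpace_eq_riemannRochSpace he D hD]
    exact (hrr _).1
  · have h := (hrr (S.toDivisor e D hD)).2
    rw [sumDiv_toDivisor, ← hWeq, ← toDivisor_sub _ _ _ _ hWfin hD,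
      ← RRSpace_eq_riemannRochSpace he, ← RRSpace_eq_riemannRochSpace he] at h
    exact h

end PDS

end Fermat.Agent.AV
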