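/-
PROJECT JAC (S25) — J2, helper2: **Riemann–Roch on a smooth proper curve** over an algebraically
closed field (any characteristic), in the language of `S := schemePDS C hDVR hK`.

* `essFiniteType_functionField`, `trdeg_functionField_eq_one`;
* **`nonempty_rrData`** : `Nonempty (schemePDS C hDVR hK).RRData` — hence every statement of
  `CURVE_helper2_RRAbs` (`deg_divOf_eq_zero`, `riemann_le`, `ell_eq_of_lt_deg`,
  `finite_bad_points`, `exists_only_pole`, …) holds on the curve;
* **`finsum_ord_eq_zero`** : `∑ᶠ z : {z // coheight z = 1}, Scheme.ord f z.1 = 0`;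
* **`exists_regLocus_eq_compl_singleton`**, **`exists_two_affine_cover_of_point`**: the two-affine
  cover with `U₀ = C ∖ {ε}`.
-/
import Mathlib
import Fermat.Agent.JAC.CURVE_helper2_PlaceEquiv
import Fermat.Agent.JAC.CURVE_helper2_RRTransfer

set_option autoImplicit false
set_option linter.style.haveILetI false
set_option linter.unusedSectionVars false

open AlgebraicGeometry CategoryTheory Opposite TopologicalSpace Order AlgebraicCurve

universe u

namespace Fermat.Agent.JAC

open Fermat.Agent.AV Fermat.Agent.AV.LB

noncomputable section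

variable {K : Type u} [Field K] {C : Scheme.{u}} [IsIntegral C] (c : C ⟶ Spec (.of K))
  [Algebra K C.functionField]
  (halg : ∀ a : K, algebraMap K C.functionField a = (functionFieldStrMap c).hom a)

include halg in
/-- the function field of a scheme locally of finite type over a field is essentially of finite
type. -/
theorem essFiniteType_functionField [LocallyOfFiniteType c] :
    Algebra.EssFiniteType K C.functionField := by
  obtain ⟨_, ⟨U, hU, rfl⟩, hzU, -⟩ :=
    C.isBasis_affineOpens.exists_subset_of_mem_open (Set.mem_univ (genericPoint C)) isOpen_univ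
  haveI : Nonempty U := ⟨⟨genericPoint C, hzU⟩⟩
  letI := secAlgebra c U
  haveI : IsScalarTower K Γ(C, U) C.functionField := isScalarTower_sections c U halg
  haveI : Algebra.FiniteType K Γ(C, U) :=
    RingHom.finiteType_algebraMap.mp (finiteType_sectionsStrMap c hU)
  haveI := functionField_isFractionRing_of_isAffineOpen C U hU
  haveI : Algebra.EssFiniteType Γ(C, U) C.functionField :=
    Algebra.EssFiniteType.of_isLocalization _ (nonZeroDivisors Γ(C, U))
  exact Algebra.EssFiniteType.comp K Γ(C, U) C.functionField

include halg in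
theorem trdeg_functionField_eq_one [SmoothOfRelativeDimension 1 c] :
    Algebra.trdeg K C.functionField = 1 := by
  have := trdeg_functionField (g := 1) c (fun _ a => by rw [halg]; rfl)
  exact_mod_cast this

variable [IsNoetherian C]
  (hDVR : ∀ z : C, coheight z = 1 → IsDiscreteValuationRing (C.presheaf.stalk z))
  (hK : ∀ a : K, a ≠ 0 → ∀ z : C, coheight z = 1 →
    Scheme.ord (algebraMap K C.functionField a) z = 0)
  [IsAlgClosed K] [IsProper c] [SmoothOfRelativeDimension 1 c]

include c halg in
/-- **Riemann–Roch on a smooth proper curve.** -/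
theorem nonempty_rrData : Nonempty (schemePDS C hDVR hK).RRData := by
  haveI : Smooth c := SmoothOfRelativeDimension.smooth 1 c
  haveI := essFiniteType_functionField c halg
  exact PDS.nonempty_rrData_of_equiv (trdeg_functionField_eq_one c halg)
    (placeEquiv c hDVR hK halg) (fun p f hf => ord_placeEquiv c hDVR hK halg p f hf)

include c halg in
/-- **the divisor of a rational function has degree zero.** -/
theorem deg_divOf_eq_zero {f : C.functionField} (hf : f ≠ 0) :
    (schemePDS C hDVR hK).deg ((schemePDS C hDVR hK).divOf f) = 0 := by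
  obtain ⟨R⟩ := nonempty_rrData c halg hDVR hK
  exact R.deg_divOf_eq_zero hf

include c halg hDVR hK in
/-- the same, as a plain `finsum` of Mathlib's orders of vanishing. -/
theorem finsum_ord_eq_zero {f : C.functionField} (hf : f ≠ 0) :
    ∑ᶠ z : {z : C // coheight z = 1}, Scheme.ord f z.1 = 0 := by
  have h := deg_divOf_eq_zero c halg hDVR hK hf
  rw [PDS.deg] at h
  rw [← h]
  refine finsum_congr fun z => ?_
  rw [PDS.divOf_apply]
  exact (schemePDS_ordZ C hDVR hK z hf).symm

include c halg hDVR hK in
/-- **a non-constant function whose only pole is a given closed point**: its locus of regularity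
is the complement of the point. -/
theorem exists_regLocus_eq_compl_singleton (ε : C) (hε : ε ≠ genericPoint C) :
    ∃ x : C.functionField, Transcendental K x ∧ ∀ z : C, z ∈ regLocus x ↔ z ≠ ε := by
  obtain ⟨R⟩ := nonempty_rrData c halg hDVR hK
  have hε1 : coheight ε = 1 := (coheight_eq_one_iff c ε).mpr hε
  obtain ⟨f, hconst, hreg, hpole⟩ := R.exists_only_pole ⟨ε, hε1⟩
  have hf0 : f ≠ 0 := by
    rintro rfl
    exact hconst 0 (map_zero _).symm
  refine ⟨f, ?_, fun z => ?_⟩
  · -- non-constant ⇒ transcendental
    intro halgf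
    have hint : IsIntegral K f := halgf.isIntegral
    have hdeg : (minpoly K f).degree = 1 :=
      IsAlgClosed.degree_eq_one_of_irreducible K (minpoly.irreducible hint)
    obtain ⟨a, ha⟩ := minpoly.mem_range_of_degree_eq_one K f hdeg
    exact hconst a ha.symm
  · by_cases hz : z = genericPoint C
    · subst hz
      simp only [genericPoint_mem_regLocus, true_iff]
      exact fun h => hε h.symm
    · have hz1 : coheight z = 1 := (coheight_eq_one_iff c z).mpr hz
      haveI := hDVR z hz1
      rw [mem_regLocus, mem_regAt_iff_mem_range, mem_range_stalk_iff_ord z hz1]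
      simp only [hf0, false_or]
      constructor
      · rintro h rfl
        have h1 := schemePDS_ord_apply C hDVR hK ⟨z, hz1⟩ hf0
        rw [h1] at hpole
        have : (Scheme.ord f z : WithTop ℤ) < ((0 : ℤ) : WithTop ℤ) := hpole
        rw [WithTop.coe_lt_coe] at this
        omega
      · intro hne
        have h1 := hreg ⟨z, hz1⟩ (fun h => hne (congrArg Subtype.val h))
        rw [schemePDS_ord_apply C hDVR hK ⟨z, hz1⟩ hf0] at h1
        exact_mod_cast h1

include halg hDVR hK in
/-- **the two-affine cover with `U₀ = C ∖ {ε}`.** -/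
theorem exists_two_affine_cover_of_point (ε : C) (hε : ε ≠ genericPoint C) :
    ∃ (U₀ U₁ : C.Opens) (x : Γ(C, U₀)) (y : Γ(C, U₁)),
      (∀ z : C, z ∈ U₀ ↔ z ≠ ε) ∧ ε ∈ U₁ ∧
      IsAffineOpen U₀ ∧ IsAffineOpen U₁ ∧ U₀ ⊔ U₁ = ⊤ ∧
      C.basicOpen x = U₀ ⊓ U₁ ∧ C.basicOpen y = U₀ ⊓ U₁ ∧
      res (U₀ ⊓ U₁) inf_le_left x * res (U₀ ⊓ U₁) inf_le_right y = 1 ∧
      (Polynomial.eval₂RingHom (sectionsStrMap c U₀) x).Finite ∧
      (Polynomial.eval₂RingHom (sectionsStrMap c U₁) y).Finite ∧
      Function.Injective (Polynomial.eval₂RingHom (sectionsStrMap c U₀) x) ∧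
      Function.Injective (Polynomial.eval₂RingHom (sectionsStrMap c U₁) y) := by
  obtain ⟨t, ht, hreg⟩ := exists_regLocus_eq_compl_singleton c halg hDVR hK ε hε
  have ht0 : t ≠ 0 := fun h => ht (h ▸ isAlgebraic_zero)
  have ht' : Transcendental K t⁻¹ := fun h => ht (by simpa using h.inv)
  have h0 := (injective_coordRingHom_iff c halg t).mpr ht
  have h1 := (injective_coordRingHom_iff c halg t⁻¹).mpr ht'
  have hDVR' : ∀ z : C, z ≠ genericPoint C → IsDiscreteValuationRing (C.presheaf.stalk z) :=
    fun z hz => hDVR z ((coheight_eq_one_iff c z).mpr hz)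
  have hcov := regLocus_sup_regLocus_inv hDVR' t
  have hε1 : ε ∈ regLocus t⁻¹ := by
    have : ε ∈ regLocus t ⊔ regLocus t⁻¹ := hcov ▸ trivial
    exact this.resolve_left (fun h => (hreg ε).mp h rfl)
  refine ⟨regLocus t, regLocus t⁻¹, xSec t, xSec t⁻¹, hreg, hε1, isAffineOpen_regLocus c t h0,
    isAffineOpen_regLocus c t⁻¹ h1, hcov,
    (regLocus_inf_regLocus_inv ht0).symm, ?_, xSec_mul_xSec_inv ht0,
    finite_coordRingHom c t h0, finite_coordRingHom c t⁻¹ h1, h0, h1⟩
  have := regLocus_inf_regLocus_inv (inv_ne_zero ht0)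
  rw [inv_inv, inf_comm] at this
  exact this.symm

end

end Fermat.Agent.JAC
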