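/-
PROJECT JAC (S25) — helper5 — J1c, part 3: **the degree of a line bundle** on an integral noetherian
scheme on which principal divisors have degree zero (a proper regular curve over an algebraically
closed field), and the dictionary `H⁰(M) ≃ L(div σ)`.

* `divDeg D = ∑ᶠ z : {z // coheight z = 1}, D z` (`divDeg_add/_neg/_sub/_congr/_nonneg/_single`);
* `PrincipalDegZero X` (hypothesis: `∀ f ≠ 0, divDeg (ord f) = 0`);
* `ratSecDeg s = divDeg s.div`, `LB.deg M` (degree of the canonical rational section),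
  `LB.deg_eq_ratSecDeg` (any rational section computes the degree), `LB.deg_eq_of_iso`,
  `LB.deg_tensor`, `LB.deg_trivial`, `LB.deg_inv`, `LB.deg_pow`, `LB.deg_npow`, `degHom : Pic X →+ ℤ`;
* `deg_LBofWeil : deg O(D) = divDeg D`;
* `LB.deg_nonneg_of_section`, `LB.isTrivial_of_deg_eq_zero_of_section`;
* `secRatio σ τ = τ / σ ∈ K(X)` for a rational section `σ` and a global section `τ`;
  `mem_range_secRatio_iff`, `mem_range_secRatio_iff_ord` (`= L(div σ)`).
-/
import Mathlib
import Fermat.Agent.JAC.DIV_helper5_Weil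

set_option autoImplicit false
set_option linter.style.haveILetI false
set_option linter.unusedSectionVars false

open AlgebraicGeometry CategoryTheory Opposite TopologicalSpace Order

universe u

namespace Fermat.Agent.JAC

open Fermat.Agent.AV Fermat.Agent.AV.LB

noncomputable section

open scoped Classical

variable {X : Scheme.{u}}

/-! ### The degree of a divisor -/

/-- the degree of a divisor `D : X → ℤ`: the sum of its values at the codimension-one points
(all of degree one: algebraically closed base field). -/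
def divDeg (D : X → ℤ) : ℤ := ∑ᶠ z : {z : X // coheight z = 1}, D z.1

theorem finite_support_subtype {D : X → ℤ} (hD : {z : X | coheight z = 1 ∧ D z ≠ 0}.Finite) :
    (Function.support fun z : {z : X // coheight z = 1} => D z.1).Finite := by
  have h : Function.support (fun z : {z : X // coheight z = 1} => D z.1) =
      Subtype.val ⁻¹' {z : X | coheight z = 1 ∧ D z ≠ 0} := by
    ext z
    simp [z.2]
  rw [h]
  exact hD.preimage Subtype.val_injective.injOn

theorem divDeg_congr {D E : X → ℤ} (h : ∀ z, coheight z = 1 → D z = E z) :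
    divDeg D = divDeg E :=
  finsum_congr (fun z => h z.1 z.2)

@[simp] theorem divDeg_zero : divDeg (0 : X → ℤ) = 0 := by
  simp [divDeg]

theorem divDeg_add {D E : X → ℤ} (hD : {z : X | coheight z = 1 ∧ D z ≠ 0}.Finite)
    (hE : {z : X | coheight z = 1 ∧ E z ≠ 0}.Finite) :
    divDeg (D + E) = divDeg D + divDeg E :=
  finsum_add_distrib (finite_support_subtype hD) (finite_support_subtype hE)

theorem divDeg_neg (D : X → ℤ) : divDeg (-D) = -divDeg D :=
  finsum_neg_distrib _

theorem divDeg_sub {D E : X → ℤ} (hD : {z : X | coheight z = 1 ∧ D z ≠ 0}.Finite)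
    (hE : {z : X | coheight z = 1 ∧ E z ≠ 0}.Finite) :
    divDeg (D - E) = divDeg D - divDeg E :=
  finsum_sub_distrib (finite_support_subtype hD) (finite_support_subtype hE)

theorem divDeg_smul (n : ℤ) (D : X → ℤ) : divDeg (n • D) = n * divDeg D := by
  simp only [divDeg, Pi.smul_apply, smul_eq_mul]
  exact (mul_finsum _ _).symm

theorem divDeg_nonneg {D : X → ℤ} (h : ∀ z, coheight z = 1 → 0 ≤ D z) : 0 ≤ divDeg D :=
  finsum_nonneg (fun z => h z.1 z.2)

theorem divDeg_mono {D E : X → ℤ} (hD : {z : X | coheight z = 1 ∧ D z ≠ 0}.Finite)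
    (hE : {z : X | coheight z = 1 ∧ E z ≠ 0}.Finite) (h : ∀ z, coheight z = 1 → D z ≤ E z) :
    divDeg D ≤ divDeg E :=
  finsum_le_finsum' (finite_support_subtype hD) (finite_support_subtype hE) (fun z => h z.1 z.2)

/-- an effective divisor of degree zero vanishes. -/
theorem eq_zero_of_divDeg_eq_zero {D : X → ℤ} (hD : {z : X | coheight z = 1 ∧ D z ≠ 0}.Finite)
    (h : ∀ z, coheight z = 1 → 0 ≤ D z) (h0 : divDeg D = 0) (z : X) (hz : coheight z = 1) :
    D z = 0 := by
  have hfin := finite_support_subtype hD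
  unfold divDeg at h0
  rw [finsum_eq_sum_of_support_subset _ (s := hfin.toFinset) (by simp)] at h0
  rw [Finset.sum_eq_zero_iff_of_nonneg (fun z _ => h z.1 z.2)] at h0
  by_contra hne
  exact hne (h0 ⟨z, hz⟩ (by simpa using hne))

theorem divDeg_single (x : X) (hx : coheight x = 1) (n : ℤ) :
    divDeg (Pi.single x n) = n := by
  unfold divDeg
  rw [finsum_eq_single _ (⟨x, hx⟩ : {z : X // coheight z = 1})]
  · simp
  · intro z hz
    have : z.1 ≠ x := fun h => hz (Subtype.ext h)
    simp [this]

theorem finite_single (x : X) (n : ℤ) :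
    {z : X | coheight z = 1 ∧ (Pi.single x n : X → ℤ) z ≠ 0}.Finite := by
  refine (Set.finite_singleton x).subset ?_
  rintro z ⟨-, hz⟩
  by_contra hne
  exact hz (Pi.single_eq_of_ne hne _)

theorem finite_add {D E : X → ℤ} (hD : {z : X | coheight z = 1 ∧ D z ≠ 0}.Finite)
    (hE : {z : X | coheight z = 1 ∧ E z ≠ 0}.Finite) :
    {z : X | coheight z = 1 ∧ (D + E) z ≠ 0}.Finite := by
  refine (hD.union hE).subset ?_
  rintro z ⟨hz, hne⟩
  by_cases h : D z = 0
  · right
    refine ⟨hz, fun h' => hne ?_⟩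
    simp [h, h']
  · exact Or.inl ⟨hz, h⟩

theorem finite_neg {D : X → ℤ} (hD : {z : X | coheight z = 1 ∧ D z ≠ 0}.Finite) :
    {z : X | coheight z = 1 ∧ (-D) z ≠ 0}.Finite := by
  refine hD.subset ?_
  rintro z ⟨hz, hne⟩
  exact ⟨hz, fun h => hne (by simp [h])⟩

theorem finite_sub {D E : X → ℤ} (hD : {z : X | coheight z = 1 ∧ D z ≠ 0}.Finite)
    (hE : {z : X | coheight z = 1 ∧ E z ≠ 0}.Finite) :
    {z : X | coheight z = 1 ∧ (D - E) z ≠ 0}.Finite := by
  rw [sub_eq_add_neg]
  exact finite_add hD (finite_neg hE)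

/-! ### The degree of a line bundle -/

section degree

variable [IsIntegral X] [IsNoetherian X]

/-- **principal divisors have degree zero** (hypothesis: proper regular curves over an
algebraically closed field, helper2's `deg_div_eq_zero`). -/
def PrincipalDegZero (X : Scheme.{u}) [IsIntegral X] [IsNoetherian X] : Prop :=
  ∀ f : X.functionField, f ≠ 0 → divDeg (fun z => Scheme.ord f z) = 0

/-- the degree of a rational section. -/
def ratSecDeg {M : LB X} (s : M.RatSec) : ℤ := divDeg s.div

theorem ratSecDeg_eq_of_isoData (h0 : PrincipalDegZero X) {M N : LB X} (I : IsoData M N)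
    (s : M.RatSec) (t : N.RatSec) : ratSecDeg s = ratSecDeg t := by
  obtain ⟨φ, hφ0, hφ⟩ := I.exists_function s t
  have h1 := h0 φ hφ0
  have h2 : (fun z => Scheme.ord φ z) = s.div - t.div := funext hφ
  rw [h2, divDeg_sub (finite_ratSec_div_ne_zero s) (finite_ratSec_div_ne_zero t)] at h1
  unfold ratSecDeg
  omega

end degree

end

end Fermat.Agent.JAC

namespace Fermat.Agent.AV.LB

open Fermat.Agent.JAC

noncomputable section

open scoped Classical

variable {X : Scheme.{u}} [IsIntegral X] [IsNoetherian X]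

/-- **the degree of a line bundle** (on a curve): the degree of the divisor of its canonical
rational section. -/
def deg (M : LB X) : ℤ := ratSecDeg M.canonicalRatSec

/-- every rational section computes the degree. -/
theorem deg_eq_ratSecDeg (h0 : PrincipalDegZero X) {M : LB X} (s : M.RatSec) :
    M.deg = ratSecDeg s :=
  ratSecDeg_eq_of_isoData h0 (IsoData.refl M) _ s

theorem deg_eq_of_iso (h0 : PrincipalDegZero X) {M N : LB X} (h : LB.Iso M N) : M.deg = N.deg :=
  ratSecDeg_eq_of_isoData h0 h.some _ _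

theorem deg_tensor (h0 : PrincipalDegZero X) (M N : LB X) :
    (M.tensor N).deg = M.deg + N.deg := by
  rw [deg_eq_ratSecDeg h0 (M.canonicalRatSec.tensor N.canonicalRatSec)]
  have h : (M.canonicalRatSec.tensor N.canonicalRatSec).div =
      M.canonicalRatSec.div + N.canonicalRatSec.div := funext (RatSec.tensor_div _ _)
  unfold ratSecDeg
  rw [h, divDeg_add (finite_ratSec_div_ne_zero _) (finite_ratSec_div_ne_zero _)]
  rfl

theorem deg_trivial (h0 : PrincipalDegZero X) : (LB.trivial X).deg = 0 := by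
  rw [deg_eq_ratSecDeg h0 (RatSec.one X)]
  have h : (RatSec.one X).div = 0 := funext RatSec.one_div
  unfold ratSecDeg
  rw [h, divDeg_zero]

theorem deg_of_isTrivial (h0 : PrincipalDegZero X) {M : LB X} (h : M.IsTrivial) : M.deg = 0 := by
  rw [← deg_eq_of_iso h0 ((isTrivial_iff_iso_trivial M).1 h), deg_trivial h0]

theorem deg_inv (h0 : PrincipalDegZero X) (M : LB X) : M.inv.deg = -M.deg := by
  have h := deg_eq_of_iso h0 ⟨IsoData.invTensor M⟩
  rw [deg_tensor h0, deg_trivial h0] at h
  omega

/-- the degree as a homomorphism on the Picard group. -/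
def _root_.Fermat.Agent.JAC.degHom (h0 : PrincipalDegZero X) : PicGroup X →+ ℤ where
  toFun := Quotient.lift (fun M : LB X => M.deg) (fun _ _ h => deg_eq_of_iso h0 h)
  map_zero' := deg_trivial h0
  map_add' := by
    intro x y
    obtain ⟨M, rfl⟩ := PicGroup.mk_surjective x
    obtain ⟨N, rfl⟩ := PicGroup.mk_surjective y
    exact deg_tensor h0 M N

@[simp] theorem _root_.Fermat.Agent.JAC.degHom_mk (h0 : PrincipalDegZero X) (M : LB X) :
    degHom h0 (PicGroup.mk M) = M.deg := rfl

theorem deg_pow (h0 : PrincipalDegZero X) (M : LB X) (k : ℕ) : (M.pow k).deg = k * M.deg := by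
  rw [← degHom_mk h0, mk_pow, map_nsmul, degHom_mk]
  simp

theorem deg_npow (h0 : PrincipalDegZero X) (M : LB X) (k : ℕ) : (M.npow k).deg = k * M.deg := by
  rw [← degHom_mk h0, mk_npow, map_nsmul, degHom_mk]
  simp

/-- a line bundle with a nonzero section has non-negative degree. -/
theorem deg_nonneg_of_section (h0 : PrincipalDegZero X) (M : LB X) (s : M.H0) (hs : s ≠ 0) :
    0 ≤ M.deg := by
  rw [deg_eq_ratSecDeg h0 (RatSec.ofSection M s hs)]
  exact divDeg_nonneg (fun z _ => M.sectionDiv_nonneg s hs z)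

/-- a line bundle of degree zero with a nonzero section is trivial. -/
theorem isTrivial_of_deg_eq_zero_of_section (h0 : PrincipalDegZero X) (hH : HartogsProp X)
    (M : LB X) (s : M.H0) (hs : s ≠ 0) (hd : M.deg = 0) : M.IsTrivial := by
  rw [isTrivial_iff_iso_trivial]
  rw [deg_eq_ratSecDeg h0 (RatSec.ofSection M s hs)] at hd
  refine iso_of_div_eq hH (RatSec.one X) (RatSec.ofSection M s hs) (fun z hz => ?_)
  rw [RatSec.one_div]
  exact (eq_zero_of_divDeg_eq_zero (finite_ratSec_div_ne_zero _)
    (fun z _ => M.sectionDiv_nonneg s hs z) hd z hz).symm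

/-- a line bundle of negative degree has no nonzero section. -/
theorem eq_zero_of_deg_neg (h0 : PrincipalDegZero X) (M : LB X) (hd : M.deg < 0) (s : M.H0) :
    s = 0 := by
  by_contra hs
  exact absurd (deg_nonneg_of_section h0 M s hs) (not_le.2 hd)

end

end Fermat.Agent.AV.LB

namespace Fermat.Agent.JAC

open Fermat.Agent.AV Fermat.Agent.AV.LB

noncomputable section

open scoped Classical

variable {X : Scheme.{u}} [IsIntegral X]

/-! ### `deg O(D) = deg D` -/

section weil

variable [IsNoetherian X]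
  (hDVR : ∀ z : X, coheight z = 1 → IsDiscreteValuationRing (X.presheaf.stalk z))
  (hcl : ∀ z : X, coheight z = 1 → IsClosed ({z} : Set X))

theorem deg_LBofWeil (h0 : PrincipalDegZero X) (hH : HartogsProp X) (D : X → ℤ)
    (hD : {z : X | coheight z = 1 ∧ D z ≠ 0}.Finite) :
    (LBofWeil hDVR hcl hH D hD).deg = divDeg D := by
  rw [deg_eq_ratSecDeg h0 (CartierDiv.ofWeil hDVR hcl hH D hD).ratSec]
  exact divDeg_congr (fun z hz => CartierDiv.ofWeil_ratSec_div hDVR hcl hH D hD hz)

/-- every line bundle of degree `d` is `O(D)` for a divisor `D` of degree `d`. -/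
theorem exists_iso_LBofWeil (hH : HartogsProp X) (M : LB X) :
    ∃ (D : X → ℤ) (hD : {z : X | coheight z = 1 ∧ D z ≠ 0}.Finite),
      divDeg D = M.deg ∧ LB.Iso M (LBofWeil hDVR hcl hH D hD) :=
  ⟨M.canonicalRatSec.div, finite_ratSec_div_ne_zero _, rfl,
    iso_LBofWeil_div hDVR hcl hH M.canonicalRatSec⟩

end weil

/-! ### The dictionary `H⁰(M) ≃ L(div σ)` -/

section dictionary

/-- the rational function `τ / σ` for a global section `τ` and a rational section `σ`. -/
def secRatio {M : LB X} (σ : M.RatSec) (τ : M.H0) : X.functionField :=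
  germOf (M.U (M.chart (genericPoint X))) (τ.1 (M.chart (genericPoint X))) /
    σ.σ (M.chart (genericPoint X))

theorem secRatio_mul {M : LB X} (σ : M.RatSec) (τ : M.H0) (i : M.ι)
    (hi : genericPoint X ∈ M.U i) : secRatio σ τ * σ.σ i = germOf (M.U i) (τ.1 i) := by
  have h₀ : genericPoint X ∈ M.U (M.chart (genericPoint X)) := M.mem_chart _
  haveI : Nonempty (M.U i ⊓ M.U (M.chart (genericPoint X)) : X.Opens) :=
    ⟨⟨genericPoint X, hi, h₀⟩⟩
  have h1 := M.germOf_section_eq τ i (M.chart (genericPoint X))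
  have h2 := germOf_g_eq_div σ i (M.chart (genericPoint X))
  have hσ₀ : σ.σ (M.chart (genericPoint X)) ≠ 0 := σ.ne_zero _ h₀
  rw [h1, h2, secRatio]
  field_simp

theorem secRatio_eq_div {M : LB X} (σ : M.RatSec) (τ : M.H0) (i : M.ι)
    (hi : genericPoint X ∈ M.U i) : secRatio σ τ = germOf (M.U i) (τ.1 i) / σ.σ i := by
  rw [← secRatio_mul σ τ i hi, mul_div_assoc, div_self (σ.ne_zero i hi), mul_one]

theorem secRatio_add {M : LB X} (σ : M.RatSec) (τ τ' : M.H0) :
    secRatio σ (τ + τ') = secRatio σ τ + secRatio σ τ' := by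
  haveI : Nonempty (M.U (M.chart (genericPoint X))) := ⟨⟨_, M.mem_chart _⟩⟩
  unfold secRatio
  rw [← add_div]
  congr 1
  exact germOf_map_add _ _ _

theorem secRatio_zero {M : LB X} (σ : M.RatSec) : secRatio σ (0 : M.H0) = 0 := by
  haveI : Nonempty (M.U (M.chart (genericPoint X))) := ⟨⟨_, M.mem_chart _⟩⟩
  unfold secRatio
  have : (0 : M.H0).1 (M.chart (genericPoint X)) = 0 := rfl
  rw [this, germOf_map_zero, zero_div]

theorem secRatio_smul {M : LB X} (σ : M.RatSec) (r : Γ(X, ⊤)) (τ : M.H0) :
    secRatio σ (r • τ) = germOf ⊤ r * secRatio σ τ := by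
  haveI : Nonempty (M.U (M.chart (genericPoint X))) := ⟨⟨_, M.mem_chart _⟩⟩
  unfold secRatio
  rw [LB.smul_apply, germOf_map_mul, germOf_res', mul_div_assoc]

/-- `τ ↦ τ / σ` as an additive map. -/
def secRatioHom {M : LB X} (σ : M.RatSec) : M.H0 →+ X.functionField where
  toFun := secRatio σ
  map_zero' := secRatio_zero σ
  map_add' := secRatio_add σ

@[simp] theorem secRatioHom_apply {M : LB X} (σ : M.RatSec) (τ : M.H0) :
    secRatioHom σ τ = secRatio σ τ := rfl

theorem secRatio_eq_zero_iff {M : LB X} (σ : M.RatSec) (τ : M.H0) :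
    secRatio σ τ = 0 ↔ τ = 0 := by
  constructor
  · intro h
    have h₀ : genericPoint X ∈ M.U (M.chart (genericPoint X)) := M.mem_chart _
    haveI : Nonempty (M.U (M.chart (genericPoint X))) := ⟨⟨_, h₀⟩⟩
    have h1 := secRatio_mul σ τ _ h₀
    rw [h, zero_mul] at h1
    have h2 : τ.1 (M.chart (genericPoint X)) = 0 := by
      apply germOf_injective (M.U (M.chart (genericPoint X)))
      rw [← h1, germOf_map_zero]
    exact M.eq_zero_of_apply_eq_zero τ _ h2
  · rintro rfl
    exact secRatio_zero σ

theorem secRatio_injective {M : LB X} (σ : M.RatSec) : Function.Injective (secRatio σ) := by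
  have h := (injective_iff_map_eq_zero (secRatioHom σ)).2
    (fun τ hτ => (secRatio_eq_zero_iff σ τ).1 hτ)
  exact h

/-- the image of `τ ↦ τ / σ`: the rational functions `f` with `f σ_i` regular on every chart. -/
theorem mem_range_secRatio_iff {M : LB X} (σ : M.RatSec) (f : X.functionField) :
    f ∈ Set.range (secRatio σ) ↔ ∀ i, f * σ.σ i ∈ regOn (M.U i) := by
  constructor
  · rintro ⟨τ, rfl⟩ i
    by_cases hi : Nonempty (M.U i)
    · rw [secRatio_mul σ τ i (genericPoint_mem_of_mem hi.some.2)]
      exact germOf_mem_regOn _ _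
    · exact regOn_eq_top_of_not_nonempty hi _
  · intro H
    have hsec : M.IsSection (fun i => secOfReg (M.U i) (f * σ.σ i) (H i)) := by
      intro i j
      apply eq_of_germOf_eq
      intro hV
      haveI := hV
      haveI : Nonempty (M.U i) := ⟨⟨hV.some.1, hV.some.2.1⟩⟩
      haveI : Nonempty (M.U j) := ⟨⟨hV.some.1, hV.some.2.2⟩⟩
      have hσj : σ.σ j ≠ 0 := ratSec_ne_zero_of_nonempty σ j (V := M.U j) le_rfl
      rw [germOf_map_mul, germOf_res', germOf_res', germOf_secOfReg, germOf_secOfReg,
        germOf_g_eq_div σ i j]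
      field_simp
    refine ⟨⟨_, hsec⟩, ?_⟩
    have h₀ : genericPoint X ∈ M.U (M.chart (genericPoint X)) := M.mem_chart _
    haveI : Nonempty (M.U (M.chart (genericPoint X))) := ⟨⟨_, h₀⟩⟩
    rw [secRatio_eq_div σ _ _ h₀]
    show germOf _ (secOfReg _ _ (H _)) / _ = f
    rw [germOf_secOfReg, mul_div_assoc, div_self (σ.ne_zero _ h₀), mul_one]

/-- the section with a prescribed ratio. -/
theorem exists_section_of_regOn {M : LB X} (σ : M.RatSec) (f : X.functionField)
    (H : ∀ i, f * σ.σ i ∈ regOn (M.U i)) : ∃ τ : M.H0, secRatio σ τ = f :=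
  (mem_range_secRatio_iff σ f).2 H

/-- **`H⁰(M) = L(div σ)`**: the image of `τ ↦ τ / σ` consists of `0` and the rational functions
`f` with `div f + div σ ≥ 0`. -/
theorem mem_range_secRatio_iff_ord [IsLocallyNoetherian X] (hH : HartogsProp X) {M : LB X}
    (σ : M.RatSec) {f : X.functionField} (hf : f ≠ 0) :
    f ∈ Set.range (secRatio σ) ↔ ∀ z : X, coheight z = 1 → 0 ≤ Scheme.ord f z + σ.div z := by
  rw [mem_range_secRatio_iff]
  constructor
  · intro H z hz
    have hzi := M.mem_chart z
    have hσ : σ.σ (M.chart z) ≠ 0 := σ.ne_zero _ (genericPoint_mem_of_mem hzi)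
    have h1 := ord_nonneg_of_mem_regOn (mul_ne_zero hf hσ) (H (M.chart z)) hzi hz
    rwa [Scheme.ord_mul hf hσ, ← σ.div_eq hzi] at h1
  · intro H i
    by_cases hi : Nonempty (M.U i)
    swap
    · exact regOn_eq_top_of_not_nonempty hi _
    have hσ : σ.σ i ≠ 0 := σ.ne_zero _ (genericPoint_mem_of_mem hi.some.2)
    apply mem_regOn_of_ord_nonneg hH
    intro z hzi hz
    rw [Scheme.ord_mul hf hσ, ← σ.div_eq hzi]
    exact H z hz

end dictionary

end

end Fermat.Agent.JAC
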