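/-
PROJECT JAC (S25) — helper2: **Riemann–Roch in line-bundle language** on a smooth proper curve over
an algebraically closed field (any characteristic).

General bridge (integral noetherian `X` with DVR codimension-one stalks, Hartogs):
* `ratSecPdsDiv σ` : the divisor of a rational section on the prime divisors of `schemePDS`;
  `finite_support_ratSecPdsDiv`, `deg_ratSecPdsDiv`, `mem_RRSpace_ratSecPdsDiv_iff`;
* `h0LinearEquiv` : `H⁰(M) ≃ₗ[K] L(div σ)` for every `K`-module structure on `H⁰(M)` which is the
  restriction of the `Γ(X, ⊤)`-structure along a ring map `φ : K → Γ(X, ⊤)` inducing the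
  `K`-structure of the function field; `finrank_H0_eq_ell`.

On the curve `c : C ⟶ Spec K` (proper, smooth of relative dimension one, `C` integral,
`K` algebraically closed) — no further hypotheses:
* `hartogsProp_curve`, `principalDegZero_curve`, `isDiscreteValuationRing_stalk_curve`,
  `isClosed_singleton_curve` (everything `DIV_helper5_Degree` asks for);
* **`exists_genus_LB`** (Riemann's inequality, Riemann's theorem, vanishing in negative degree and
  finiteness of `H⁰`, for one `g` and all line bundles);
* **`exists_LB_deg`**, `exists_LB_deg_point` (line bundles of every degree).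
-/
import Mathlib
import Fermat.Agent.JAC.CURVE_helper2_RR
import Fermat.Agent.JAC.DIV_helper5_Degree

set_option autoImplicit false
set_option linter.style.haveILetI false
set_option linter.unusedSectionVars false

open AlgebraicGeometry CategoryTheory Opposite TopologicalSpace Order

universe u

namespace Fermat.Agent.JAC

open Fermat.Agent.AV Fermat.Agent.AV.LB

noncomputable section

open scoped Classical

section Bridge

variable {K : Type u} [Field K] {X : Scheme.{u}} [IsIntegral X] [IsNoetherian X]
  [Algebra K X.functionField]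
  (hDVR : ∀ z : X, coheight z = 1 → IsDiscreteValuationRing (X.presheaf.stalk z))
  (hK : ∀ c : K, c ≠ 0 → ∀ z : X, coheight z = 1 →
      Scheme.ord (algebraMap K X.functionField c) z = 0)

/-- the divisor of a rational section on the prime divisors of `schemePDS`. -/
def ratSecPdsDiv {M : LB X} (σ : M.RatSec) : (schemePDS X hDVR hK).ι → ℤ := fun z => σ.div z.1

theorem finite_support_ratSecPdsDiv {M : LB X} (σ : M.RatSec) :
    (Function.support (ratSecPdsDiv hDVR hK σ)).Finite :=
  finite_support_subtype (finite_ratSec_div_ne_zero σ)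

theorem deg_ratSecPdsDiv {M : LB X} (σ : M.RatSec) :
    (schemePDS X hDVR hK).deg (ratSecPdsDiv hDVR hK σ) = ratSecDeg σ := rfl

/-- **`L(div σ)` is the image of `τ ↦ τ / σ`.** -/
theorem mem_RRSpace_ratSecPdsDiv_iff (hH : HartogsProp X) {M : LB X} (σ : M.RatSec)
    (f : X.functionField) :
    f ∈ (schemePDS X hDVR hK).RRSpace (ratSecPdsDiv hDVR hK σ) ↔ f ∈ Set.range (secRatio σ) := by
  by_cases hf : f = 0
  · subst hf
    exact ⟨fun _ => ⟨0, secRatio_zero σ⟩, fun _ => Submodule.zero_mem _⟩
  rw [mem_RRSpace_schemePDS_iff X hDVR hK _ hf, mem_range_secRatio_iff_ord hH σ hf]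
  refine forall₂_congr fun z hz => ?_
  show -(σ.div z) ≤ _ ↔ _
  omega

variable (φ : K →+* Γ(X, ⊤))
  (hφ : ∀ a : K, algebraMap K X.functionField a = germOf ⊤ (φ a))

include hφ in
theorem secRatio_smul_of_smul {M : LB X} [Module K M.H0]
    (hsmul : ∀ (a : K) (τ : M.H0), a • τ = φ a • τ) (σ : M.RatSec) (a : K) (τ : M.H0) :
    secRatio σ (a • τ) = a • secRatio σ τ := by
  rw [hsmul, secRatio_smul, ← hφ, Algebra.smul_def]

include hφ in
/-- **`H⁰(M) ≃ L(div σ)`**, `K`-linearly. -/
def h0LinearEquiv (hH : HartogsProp X) {M : LB X} [Module K M.H0]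
    (hsmul : ∀ (a : K) (τ : M.H0), a • τ = φ a • τ) (σ : M.RatSec) :
    M.H0 ≃ₗ[K] (schemePDS X hDVR hK).RRSpace (ratSecPdsDiv hDVR hK σ) :=
  LinearEquiv.ofBijective
    { toFun := fun τ => ⟨secRatio σ τ, (mem_RRSpace_ratSecPdsDiv_iff hDVR hK hH σ _).2 ⟨τ, rfl⟩⟩
      map_add' := fun τ τ' => Subtype.ext (secRatio_add σ τ τ')
      map_smul' := fun a τ => Subtype.ext (secRatio_smul_of_smul φ hφ hsmul σ a τ) }
    ⟨fun τ τ' h => secRatio_injective σ (congrArg Subtype.val h), fun f => by
      obtain ⟨τ, hτ⟩ := (mem_RRSpace_ratSecPdsDiv_iff hDVR hK hH σ f.1).1 f.2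
      exact ⟨τ, Subtype.ext hτ⟩⟩

include hφ in
@[simp] theorem h0LinearEquiv_apply (hH : HartogsProp X) {M : LB X} [Module K M.H0]
    (hsmul : ∀ (a : K) (τ : M.H0), a • τ = φ a • τ) (σ : M.RatSec) (τ : M.H0) :
    (h0LinearEquiv hDVR hK φ hφ hH hsmul σ τ : X.functionField) = secRatio σ τ := rfl

include hφ in
theorem finrank_H0_eq_ell (hH : HartogsProp X) {M : LB X} [Module K M.H0]
    (hsmul : ∀ (a : K) (τ : M.H0), a • τ = φ a • τ) (σ : M.RatSec) :
    Module.finrank K M.H0 = (schemePDS X hDVR hK).ell (ratSecPdsDiv hDVR hK σ) :=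
  (h0LinearEquiv hDVR hK φ hφ hH hsmul σ).finrank_eq

end Bridge

section Curve

variable {K : Type u} [Field K] {C : Scheme.{u}} [IsIntegral C] (c : C ⟶ Spec (.of K))

/-- constants have order zero, for the natural `K`-structure `ffAlgebra c` of the function
field. -/
theorem scheme_ord_const_curve [IsNoetherian C] (a : K) (ha : a ≠ 0) (z : C)
    (hz : coheight z = 1) : Scheme.ord ((functionFieldStrMap c).hom a) z = 0 := by
  letI := ffAlgebra c
  haveI : Nonempty (⊤ : C.Opens) := ⟨⟨genericPoint C, trivial⟩⟩
  exact scheme_ord_algebraMap_eq_zero C (sectionsStrMap c ⊤)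
    (fun b => by rw [← germOf_eq, germOf_sectionsStrMap c ⊤ b]; rfl) a ha z hz

/-- the structure map on global sections, in the form of helper8's `CP.constMap`. -/
theorem sectionsStrMap_top :
    sectionsStrMap c ⊤ = c.appTop.hom.comp (Scheme.ΓSpecIso (.of K)).inv.hom := by
  unfold sectionsStrMap
  congr 2
  exact Scheme.Hom.appLE_eq_app c

variable [SmoothOfRelativeDimension 1 c]

include c in
/-- the local rings of a smooth curve at its closed points are discrete valuation rings. -/
theorem isDiscreteValuationRing_stalk_curve (z : C) (hz : coheight z = 1) :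
    IsDiscreteValuationRing (C.presheaf.stalk z) :=
  haveI : Smooth c := SmoothOfRelativeDimension.smooth 1 c
  isDiscreteValuationRing_stalk_of_coheight_eq_one c z hz

include c in
/-- the codimension-one points of a smooth curve are closed. -/
theorem isClosed_singleton_curve (z : C) (hz : coheight z = 1) : IsClosed ({z} : Set C) :=
  (isClosed_singleton_iff_coheight c z).2 hz

include c in
/-- the Hartogs property of a smooth curve. -/
theorem hartogsProp_curve [IsLocallyNoetherian C] : HartogsProp C :=
  haveI : Smooth c := SmoothOfRelativeDimension.smooth 1 c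
  hartogsProp_of_smooth c

variable [IsAlgClosed K] [IsProper c] [IsNoetherian C]

include c in
/-- **principal divisors have degree zero** on a smooth proper curve. -/
theorem principalDegZero_curve : PrincipalDegZero C := by
  letI := ffAlgebra c
  intro f hf
  exact finsum_ord_eq_zero c (fun _ => rfl) (isDiscreteValuationRing_stalk_curve c)
    (fun a ha z hz => scheme_ord_const_curve c a ha z hz) hf

/-- **Riemann–Roch in line-bundle language** (the part without the canonical bundle): there is
`g` such that for every line bundle `L` on the curve, and every `K`-module structure on `H⁰(L)`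
which restricts the `Γ(C, ⊤)`-structure along the structure map: `H⁰(L)` is finite-dimensional,
`h⁰(L) ≥ deg L + 1 - g` (Riemann), with equality for `deg L > 2g - 2`, and `h⁰(L) = 0` for
`deg L < 0`. -/
theorem exists_genus_LB :
    ∃ g : ℕ, ∀ (L : LB C) [Module K L.H0],
      (∀ (a : K) (τ : L.H0), a • τ = sectionsStrMap c ⊤ a • τ) →
        Module.Finite K L.H0 ∧ L.deg + 1 - g ≤ (Module.finrank K L.H0 : ℤ) ∧
        (2 * (g : ℤ) - 2 < L.deg → (Module.finrank K L.H0 : ℤ) = L.deg + 1 - g) ∧
        (L.deg < 0 → Module.finrank K L.H0 = 0) := by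
  letI := ffAlgebra c
  have halg : ∀ a : K, algebraMap K C.functionField a = (functionFieldStrMap c).hom a :=
    fun _ => rfl
  have hDVR := isDiscreteValuationRing_stalk_curve c
  have hK : ∀ a : K, a ≠ 0 → ∀ z : C, coheight z = 1 →
      Scheme.ord (algebraMap K C.functionField a) z = 0 :=
    fun a ha z hz => scheme_ord_const_curve c a ha z hz
  have hH : HartogsProp C := hartogsProp_curve c
  haveI : Nonempty (⊤ : C.Opens) := ⟨⟨genericPoint C, trivial⟩⟩
  have hφ : ∀ a : K, algebraMap K C.functionField a = germOf ⊤ (sectionsStrMap c ⊤ a) :=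
    fun a => by rw [germOf_sectionsStrMap c ⊤ a]; rfl
  obtain ⟨R⟩ := nonempty_rrData c halg hDVR hK
  refine ⟨R.g, fun L _ hsmul => ?_⟩
  have hD := finite_support_ratSecPdsDiv hDVR hK L.canonicalRatSec
  have hdeg : (schemePDS C hDVR hK).deg (ratSecPdsDiv hDVR hK L.canonicalRatSec) = L.deg := rfl
  have e := h0LinearEquiv hDVR hK (sectionsStrMap c ⊤) hφ hH hsmul L.canonicalRatSec
  have hrk := finrank_H0_eq_ell hDVR hK (sectionsStrMap c ⊤) hφ hH hsmul L.canonicalRatSec
  haveI := R.finite _ hD
  refine ⟨Module.Finite.equiv e.symm, ?_, ?_, ?_⟩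
  · rw [hrk, ← hdeg]
    exact R.riemann_le hD
  · intro h
    rw [hrk, ← hdeg]
    exact R.ell_eq_of_lt_deg hD (by rw [hdeg]; exact h)
  · intro h
    rw [hrk]
    exact R.ell_eq_zero_of_deg_neg hD (by rw [hdeg]; exact h)

include c in
/-- a line bundle of every degree, supported at a given closed point. -/
theorem exists_LB_deg_point (ε : C) (hε : ε ≠ genericPoint C) (N : ℤ) :
    ∃ L : LB C, L.deg = N := by
  have hε1 : coheight ε = 1 := (coheight_eq_one_iff c ε).2 hε
  refine ⟨LBofWeil (isDiscreteValuationRing_stalk_curve c) (isClosed_singleton_curve c)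
    (hartogsProp_curve c) (Pi.single ε N) (finite_single ε N), ?_⟩
  rw [deg_LBofWeil _ _ (principalDegZero_curve c), divDeg_single ε hε1]

include c in
/-- a line bundle of every degree. -/
theorem exists_LB_deg (N : ℤ) : ∃ L : LB C, L.deg = N := by
  obtain ⟨ε, hε⟩ := exists_ne_genericPoint c
  exact exists_LB_deg_point c ε hε N

end Curve

end

end Fermat.Agent.JAC
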