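/-
PROJECT JAC (S25) — (J6)/(P2-i), helper6: **every line bundle of degree zero on the curve is
`O(p₁ + … + p_g − g ε₀)`**, for any `g` such that every line bundle of degree `≥ g` has a nonzero
section (Riemann's inequality, helper2's `exists_genus_LB`).

Generic (`X` integral noetherian, codimension-one points closed with DVR stalks, Hartogs):
* `J6.weilCls D hD : PicGroup X` (class of `O(D)`), `weilCls_congr/_add/_zero/_sum`,
  `J6.ptCls z` (class of `O(z)`), `weilCls_single_natCast`;
* `J6.exists_points_of_effective`: an effective divisor of degree `g` is a sum of `g` points;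
* **`J6.exists_points_of_deg_eq_zero`**.
On the curve: `J6.exists_genus_section`, `J6.ptClsCurve c z`, **`J6.exists_points_curve`**.
-/
import Mathlib
import Fermat.Agent.JAC.CURVE_helper2_RRLB

set_option autoImplicit false
set_option linter.style.haveILetI false
set_option linter.unusedSectionVars false

open AlgebraicGeometry CategoryTheory Opposite TopologicalSpace Order

universe u

namespace Fermat.Agent.JAC.J6

open Fermat.Agent.AV Fermat.Agent.AV.LB Fermat.Agent.JAC

noncomputable section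

open scoped Classical

section Generic

variable {X : Scheme.{u}} [IsIntegral X] [IsNoetherian X]
  (hDVR : ∀ z : X, coheight z = 1 → IsDiscreteValuationRing (X.presheaf.stalk z))
  (hcl : ∀ z : X, coheight z = 1 → IsClosed ({z} : Set X))
  (hH : HartogsProp X)

/-- the class of `O(D)` in the Picard group. -/
def weilCls (D : X → ℤ) (hD : {z : X | coheight z = 1 ∧ D z ≠ 0}.Finite) : PicGroup X :=
  PicGroup.mk (LBofWeil hDVR hcl hH D hD)

theorem weilCls_congr (D E : X → ℤ) (hD : {z : X | coheight z = 1 ∧ D z ≠ 0}.Finite)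
    (hE : {z : X | coheight z = 1 ∧ E z ≠ 0}.Finite)
    (h : ∀ z, coheight z = 1 → D z = E z) :
    weilCls hDVR hcl hH D hD = weilCls hDVR hcl hH E hE :=
  (PicGroup.mk_eq_mk_iff _ _).2 (iso_LBofWeil_of_eq hDVR hcl hH D E hD hE h)

theorem weilCls_add (D E : X → ℤ) (hD : {z : X | coheight z = 1 ∧ D z ≠ 0}.Finite)
    (hE : {z : X | coheight z = 1 ∧ E z ≠ 0}.Finite)
    (hDE : {z : X | coheight z = 1 ∧ (D + E) z ≠ 0}.Finite) :
    weilCls hDVR hcl hH (D + E) hDE = weilCls hDVR hcl hH D hD + weilCls hDVR hcl hH E hE := by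
  unfold weilCls
  rw [← PicGroup.mk_tensor]
  exact (PicGroup.mk_eq_mk_iff _ _).2 (iso_LBofWeil_add hDVR hcl hH D E hD hE hDE)

theorem finite_zero : {z : X | coheight z = 1 ∧ (0 : X → ℤ) z ≠ 0}.Finite := by
  refine Set.finite_empty.subset ?_
  rintro z ⟨-, hz⟩
  exact hz rfl

theorem weilCls_zero (h0 : {z : X | coheight z = 1 ∧ (0 : X → ℤ) z ≠ 0}.Finite) :
    weilCls hDVR hcl hH 0 h0 = 0 := by
  have h := weilCls_add hDVR hcl hH 0 0 h0 h0 (by simp)
  have h' : weilCls hDVR hcl hH (0 + 0) (by simp) = weilCls hDVR hcl hH 0 h0 :=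
    weilCls_congr hDVR hcl hH _ _ _ _ (fun z _ => by simp)
  rw [h'] at h
  exact left_eq_add.mp h

theorem finite_sum {ι : Type*} (s : Finset ι) (D : ι → X → ℤ)
    (hD : ∀ i ∈ s, {z : X | coheight z = 1 ∧ D i z ≠ 0}.Finite) :
    {z : X | coheight z = 1 ∧ (∑ i ∈ s, D i) z ≠ 0}.Finite := by
  induction s using Finset.induction_on with
  | empty => simp
  | insert a s ha ih =>
    rw [Finset.sum_insert ha]
    exact finite_add (hD a (Finset.mem_insert_self a s))
      (ih (fun i hi => hD i (Finset.mem_insert_of_mem hi)))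

theorem weilCls_sum {ι : Type*} (s : Finset ι) (D : ι → X → ℤ)
    (hD : ∀ i, {z : X | coheight z = 1 ∧ D i z ≠ 0}.Finite)
    (hs : {z : X | coheight z = 1 ∧ (∑ i ∈ s, D i) z ≠ 0}.Finite) :
    weilCls hDVR hcl hH (∑ i ∈ s, D i) hs = ∑ i ∈ s, weilCls hDVR hcl hH (D i) (hD i) := by
  induction s using Finset.induction_on with
  | empty =>
    refine (weilCls_congr hDVR hcl hH _ 0 _ finite_zero (fun z _ => by simp)).trans ?_
    rw [weilCls_zero hDVR hcl hH, Finset.sum_empty]
  | insert a s ha ih =>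
    have hs' := finite_sum s D (fun i _ => hD i)
    refine (weilCls_congr hDVR hcl hH _ (D a + ∑ i ∈ s, D i) _ (finite_add (hD a) hs')
      (fun z _ => by rw [Finset.sum_insert ha])).trans ?_
    rw [weilCls_add hDVR hcl hH (D a) (∑ i ∈ s, D i) (hD a) hs', ih hs', Finset.sum_insert ha]

/-- the class of `O(z)` for a point `z`. -/
def ptCls (z : X) : PicGroup X := weilCls hDVR hcl hH (Pi.single z 1) (finite_single z 1)

theorem ptCls_eq (z : X) :
    ptCls hDVR hcl hH z =
      PicGroup.mk (LBofWeil hDVR hcl hH (Pi.single z 1) (finite_single z 1)) := rfl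

theorem weilCls_single_natCast (z : X) (n : ℕ) :
    weilCls hDVR hcl hH (Pi.single z (n : ℤ)) (finite_single z _) = n • ptCls hDVR hcl hH z := by
  have h1 := weilCls_sum hDVR hcl hH (Finset.univ : Finset (Fin n))
    (fun _ => (Pi.single z 1 : X → ℤ)) (fun _ => finite_single z 1)
    (finite_sum _ _ (fun _ _ => finite_single z 1))
  have h2 : ∑ _i : Fin n, weilCls hDVR hcl hH (Pi.single z 1) (finite_single z 1) =
      n • ptCls hDVR hcl hH z := by
    rw [Finset.sum_const, Finset.card_univ, Fintype.card_fin]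
    rfl
  rw [← h2, ← h1]
  refine weilCls_congr hDVR hcl hH _ _ _ _ (fun w _ => ?_)
  rw [Finset.sum_const, Finset.card_univ, Fintype.card_fin]
  by_cases hw : w = z
  · subst hw; simp
  · simp [Pi.single_eq_of_ne hw]

/-- an effective divisor of degree `g` is a sum of `g` points. -/
theorem exists_points_of_effective (g : ℕ) (E : X → ℤ)
    (hE : {z : X | coheight z = 1 ∧ E z ≠ 0}.Finite)
    (hE0 : ∀ z, coheight z = 1 → 0 ≤ E z) (hdeg : divDeg E = g) :
    ∃ p : Fin g → {z : X // coheight z = 1}, ∀ z, coheight z = 1 →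
      E z = (∑ i, (Pi.single (p i).1 1 : X → ℤ)) z := by
  induction g generalizing E with
  | zero =>
    refine ⟨Fin.elim0, fun z hz => ?_⟩
    rw [Finset.univ_eq_empty, Finset.sum_empty]
    exact eq_zero_of_divDeg_eq_zero hE hE0 (by simpa using hdeg) z hz
  | succ n ih =>
    -- a point of the support
    obtain ⟨z₀, hz₀, hz₀E⟩ : ∃ z₀, coheight z₀ = 1 ∧ 0 < E z₀ := by
      by_contra hcon
      push Not at hcon
      have : divDeg E = 0 := by
        rw [← divDeg_zero (X := X)]
        exact divDeg_congr (fun z hz => le_antisymm (hcon z hz) (hE0 z hz))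
      rw [this] at hdeg
      exact absurd hdeg (by positivity)
    have hE' : {z : X | coheight z = 1 ∧ (E - (Pi.single z₀ 1 : X → ℤ)) z ≠ 0}.Finite :=
      finite_sub hE (finite_single z₀ 1)
    obtain ⟨p, hp⟩ := ih (E - (Pi.single z₀ 1 : X → ℤ)) hE' (fun z hz => by
      by_cases hzz : z = z₀
      · subst hzz
        simp only [Pi.sub_apply, Pi.single_eq_same]
        omega
      · simp only [Pi.sub_apply, Pi.single_eq_of_ne hzz, sub_zero]
        exact hE0 z hz) (by
      rw [divDeg_sub hE (finite_single z₀ 1), divDeg_single z₀ hz₀, hdeg]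
      push_cast
      ring)
    refine ⟨Fin.cons ⟨z₀, hz₀⟩ p, fun z hz => ?_⟩
    rw [Fin.sum_univ_succ]
    simp only [Fin.cons_zero, Fin.cons_succ, Pi.add_apply]
    rw [← hp z hz]
    simp

/-- **every line bundle of degree zero is `O(p₁ + … + p_g − g ε₀)`**, as soon as every line bundle
of degree `≥ g` has a nonzero section (Riemann's inequality). -/
theorem exists_points_of_deg_eq_zero (h0 : PrincipalDegZero X) (g : ℕ)
    (hg : ∀ L : LB X, (g : ℤ) ≤ L.deg → ∃ s : L.H0, s ≠ 0)
    (ε₀ : X) (hε₀ : coheight ε₀ = 1) (L : LB X) (hL : L.deg = 0) :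
    ∃ p : Fin g → {z : X // coheight z = 1},
      PicGroup.mk L = ∑ i, ptCls hDVR hcl hH (p i).1 - g • ptCls hDVR hcl hH ε₀ := by
  have hN : (LBofWeil hDVR hcl hH (Pi.single ε₀ (g : ℤ)) (finite_single ε₀ _)).deg = g := by
    rw [deg_LBofWeil hDVR hcl h0 hH, divDeg_single ε₀ hε₀]
  obtain ⟨s, hs⟩ := hg (L.tensor (LBofWeil hDVR hcl hH (Pi.single ε₀ (g : ℤ))
    (finite_single ε₀ _))) (by rw [deg_tensor h0, hL, hN, zero_add])
  have hσfin := finite_ratSec_div_ne_zero (RatSec.ofSection _ s hs)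
  have hσ0 : ∀ z, coheight z = 1 → 0 ≤ (RatSec.ofSection _ s hs).div z :=
    fun z _ => LB.sectionDiv_nonneg _ s hs z
  have hσdeg : divDeg (RatSec.ofSection _ s hs).div = g := by
    have := deg_eq_ratSecDeg h0 (RatSec.ofSection _ s hs)
    rw [deg_tensor h0, hL, hN, zero_add] at this
    exact this.symm
  obtain ⟨p, hp⟩ := exists_points_of_effective g _ hσfin hσ0 hσdeg
  refine ⟨p, ?_⟩
  have h1 : PicGroup.mk (L.tensor (LBofWeil hDVR hcl hH (Pi.single ε₀ (g : ℤ))
      (finite_single ε₀ _))) = weilCls hDVR hcl hH (RatSec.ofSection _ s hs).div hσfin :=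
    (PicGroup.mk_eq_mk_iff _ _).2 (iso_LBofWeil_div hDVR hcl hH (RatSec.ofSection _ s hs))
  have hfin := finite_sum (Finset.univ : Finset (Fin g))
    (fun i => (Pi.single (p i).1 1 : X → ℤ)) (fun i _ => finite_single (p i).1 1)
  have h2 : weilCls hDVR hcl hH (RatSec.ofSection _ s hs).div hσfin =
      weilCls hDVR hcl hH (∑ i, (Pi.single (p i).1 1 : X → ℤ)) hfin :=
    weilCls_congr hDVR hcl hH _ _ _ _ hp
  have h3 := weilCls_sum hDVR hcl hH (Finset.univ : Finset (Fin g))
    (fun i => (Pi.single (p i).1 1 : X → ℤ)) (fun i => finite_single (p i).1 1) hfin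
  have h4 : PicGroup.mk (LBofWeil hDVR hcl hH (Pi.single ε₀ (g : ℤ)) (finite_single ε₀ _)) =
      g • ptCls hDVR hcl hH ε₀ := weilCls_single_natCast hDVR hcl hH ε₀ g
  rw [PicGroup.mk_tensor, h4] at h1
  rw [eq_sub_iff_add_eq, h1, h2, h3]
  rfl

end Generic

section Curve

variable {K : Type u} [Field K] [IsAlgClosed K] {C : Scheme.{u}} [IsIntegral C] [IsNoetherian C]
  (c : C ⟶ Spec (.of K)) [IsProper c] [SmoothOfRelativeDimension 1 c]

include c in
/-- **Riemann's inequality, in the form used for the properness of the Jacobian**: there is `g`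
such that every line bundle of degree `≥ g` has a nonzero section. -/
theorem exists_genus_section :
    ∃ g : ℕ, ∀ L : LB C, (g : ℤ) ≤ L.deg → ∃ s : L.H0, s ≠ 0 := by
  obtain ⟨g, hg⟩ := exists_genus_LB c
  refine ⟨g, fun L hL => ?_⟩
  letI : Module K L.H0 := Module.compHom L.H0 (sectionsStrMap c ⊤)
  obtain ⟨-, h1, -, -⟩ := hg L (fun _ _ => rfl)
  by_contra hcon
  push Not at hcon
  haveI : Subsingleton L.H0 := ⟨fun a b => (hcon a).trans (hcon b).symm⟩
  rw [Module.finrank_zero_of_subsingleton] at h1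
  push_cast at h1
  omega

/-- the class of `O(z)` on the curve. -/
def ptClsCurve (z : C) : PicGroup C :=
  ptCls (isDiscreteValuationRing_stalk_curve c) (isClosed_singleton_curve c)
    (hartogsProp_curve c) z

theorem ptClsCurve_eq (z : C) :
    ptClsCurve c z = PicGroup.mk (LBofWeil (isDiscreteValuationRing_stalk_curve c)
      (isClosed_singleton_curve c) (hartogsProp_curve c) (Pi.single z 1) (finite_single z 1)) :=
  rfl

/-- **every line bundle of degree zero on the curve is `O(p₁ + … + p_g − g ε₀)`.** -/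
theorem exists_points_curve (g : ℕ) (hg : ∀ L : LB C, (g : ℤ) ≤ L.deg → ∃ s : L.H0, s ≠ 0)
    (ε₀ : C) (hε₀ : ε₀ ≠ genericPoint C) (L : LB C) (hL : L.deg = 0) :
    ∃ p : Fin g → {z : C // z ≠ genericPoint C},
      PicGroup.mk L = ∑ i, ptClsCurve c (p i).1 - g • ptClsCurve c ε₀ := by
  obtain ⟨p, hp⟩ := exists_points_of_deg_eq_zero (isDiscreteValuationRing_stalk_curve c)
    (isClosed_singleton_curve c) (hartogsProp_curve c) (principalDegZero_curve c) g hg ε₀
    ((coheight_eq_one_iff c ε₀).2 hε₀) L hL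
  exact ⟨fun i => ⟨(p i).1, (coheight_eq_one_iff c (p i).1).1 (p i).2⟩, hp⟩

end Curve

end

end Fermat.Agent.JAC.J6
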