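/-
PROJECT JAC (S25) — (J6), helper6: **properness and connectedness of the target of a surjection
from a proper connected scheme** (Mathlib-only).  `K` algebraically closed, `w : W ⟶ Spec K` proper,
`j : J ⟶ Spec K` separated and locally of finite type, `φ : W ⟶ J` over `K`:
* `J6.surjective_of_forall_kPoint`: if every `K`-point of `J` lifts to `W` then `φ` is surjective;
* `J6.isProper_of_surjective`: `φ` surjective ⇒ `j` proper;
* `J6.connectedSpace_of_surjective`: `W` connected, `φ` surjective ⇒ `J` connected.
-/
import Mathlib
set_option autoImplicit false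
open CategoryTheory CategoryTheory.Limits AlgebraicGeometry
universe u

namespace Fermat.Agent.JAC.J6

section Proper

variable {K : Type u} [Field K] [IsAlgClosed K] {W J : Scheme.{u}}
  (w : W ⟶ Spec (CommRingCat.of K)) (j : J ⟶ Spec (CommRingCat.of K)) (φ : W ⟶ J)
  (hφ : φ ≫ j = w)

include hφ in
/-- **(P1a)** a `K`-morphism from a proper `K`-scheme to a separated `K`-scheme locally of finite
type which hits every `K`-point is surjective (`K` algebraically closed): its image is closed and
contains all closed points of a Jacobson space. -/
theorem surjective_of_forall_kPoint [IsProper w] [LocallyOfFiniteType j] [IsSeparated j]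
    (hpts : ∀ x : Spec (CommRingCat.of K) ⟶ J, x ≫ j = 𝟙 _ →
      ∃ y : Spec (CommRingCat.of K) ⟶ W, y ≫ φ = x) : Surjective φ := by
  have h1 : IsProper (φ ≫ j) := hφ ▸ ‹IsProper w›
  have h2 : IsProper φ := IsProper.of_comp φ j
  have hcl : IsClosed (Set.range φ) := φ.isClosedMap.isClosed_range
  have : JacobsonSpace J := LocallyOfFiniteType.jacobsonSpace j
  have hsub : closedPoints J ⊆ Set.range φ := by
    intro z hz
    obtain ⟨⟨x, hx⟩, hxz⟩ := (pointEquivClosedPoint j).surjective ⟨z, hz⟩
    have hxz' : x (IsLocalRing.closedPoint K) = z := congrArg Subtype.val hxz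
    obtain ⟨y, hy⟩ := hpts x hx
    refine ⟨y (IsLocalRing.closedPoint K), ?_⟩
    rw [← hxz', ← hy]
    rfl
  have huniv : Set.range φ = Set.univ := by
    apply Set.eq_univ_of_univ_subset
    rw [← closure_closedPoints (X := J)]
    exact hcl.closure_subset_iff.mpr hsub
  exact ⟨Set.range_eq_univ.mp huniv⟩

omit [IsAlgClosed K] in
include hφ in
/-- **(P1b)** the target of a surjective `K`-morphism from a proper `K`-scheme is proper, if it is
separated and locally of finite type. -/
theorem isProper_of_surjective [IsProper w] [LocallyOfFiniteType j] [IsSeparated j]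
    [Surjective φ] : IsProper j := by
  have h1 : UniversallyClosed (φ ≫ j) := hφ ▸ inferInstance
  have h2 : UniversallyClosed j := UniversallyClosed.of_comp_surjective φ j
  exact { }

omit [IsAlgClosed K] in
/-- **(P1c)** the image of a connected scheme under a surjective morphism is connected. -/
theorem connectedSpace_of_surjective [ConnectedSpace W] [Surjective φ] : ConnectedSpace J := by
  have h := (isConnected_univ (α := W)).image φ φ.continuous.continuousOn
  rw [Set.image_univ, Set.range_eq_univ.mpr φ.surjective] at h
  exact connectedSpace_iff_univ.mpr h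

end Proper

end Fermat.Agent.JAC.J6
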