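/-
PROJECT JAC (S25) — (J6)/(P2-ii), helper6: **properness and connectedness of the Jacobian** from
its functor of points and a proper connected family hitting all classes `O(p₁ + … + p_g − g ε₀)`.

* `J6.toFibre c : C ⟶ C ×ₖ Spec k` (inverse of the first projection), `map_toFibre_injective`;
* **`J6.isProper_and_connectedSpace_of_represents`** (same generic `𝒬`-style as
  `J6.isSeparated_of_represents` and helper3's `SmoothTop.smooth_of_represents`).
-/
import Mathlib
import Fermat.Agent.JAC.J6_helper6_Sep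
import Fermat.Agent.JAC.J6_helper6_Proper
import Fermat.Agent.JAC.J6_helper6_Points

set_option autoImplicit false
set_option linter.style.haveILetI false
open CategoryTheory CategoryTheory.Limits AlgebraicGeometry AlgebraicGeometry.RelPicard
  NeronModelInfra GoodReductionJacobian
universe u

namespace Fermat.Agent.JAC.J6

open Fermat.Agent.AV Fermat.Agent.JAC

noncomputable section

section Fibre

variable {k : Type u} [CommRing k] {C : Scheme.{u}} (c : C ⟶ Spec (CommRingCat.of k))

/-- the identification `C ≅ C ×ₖ Spec k` (inverse of the first projection). -/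
def toFibre : C ⟶ pullback c (𝟙 (Spec (CommRingCat.of k))) :=
  pullback.lift (𝟙 C) c (by rw [Category.id_comp, Category.comp_id])

@[reassoc (attr := simp)]
theorem toFibre_fst : toFibre c ≫ pullback.fst c (𝟙 _) = 𝟙 C := pullback.lift_fst _ _ _

@[reassoc (attr := simp)]
theorem toFibre_snd : toFibre c ≫ pullback.snd c (𝟙 _) = c := pullback.lift_snd _ _ _

@[reassoc (attr := simp)]
theorem fst_toFibre : pullback.fst c (𝟙 _) ≫ toFibre c = 𝟙 _ := by
  apply pullback.hom_ext
  · rw [Category.assoc, toFibre_fst, Category.comp_id, Category.id_comp]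
  · rw [Category.assoc, toFibre_snd, Category.id_comp, pullback.condition, Category.comp_id]

theorem map_toFibre_injective :
    Function.Injective (PicGroup.map (toFibre c)) := by
  intro x y h
  have h' := congrArg (PicGroup.map (pullback.fst c (𝟙 (Spec (CommRingCat.of k))))) h
  rwa [← PicGroup.map_comp, ← PicGroup.map_comp, fst_toFibre, PicGroup.map_id,
    PicGroup.map_id] at h'

end Fibre

section Top

variable {k : Type u} [Field k] [IsAlgClosed k] {C : Scheme.{u}} [IsIntegral C] [IsNoetherian C]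
  (c : C ⟶ Spec (CommRingCat.of k)) [IsProper c] [SmoothOfRelativeDimension 1 c]
  (ε : SchemeHomOver (𝟙 (Spec (CommRingCat.of k))) c)

/-- **(P2) properness and connectedness of the Jacobian**: if `(D.P, P)` represents the functor of
rigidified line bundles cut out by a condition `𝒬` (stable under base change and `M⁻¹ ⊗ N`) which
over `Spec k` implies degree zero, `D.toBase` is locally of finite type, and there is a proper
connected `W` with a rigidified `𝒬`-family `M` on `C × W` whose fibres realise all the classes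
`O(p₁ + … + p_g − g ε₀)`, then `D.toBase` is proper and `D.P` is connected. -/
theorem isProper_and_connectedSpace_of_represents (D : RelativePic0Designation k c)
    (𝒬 : ∀ {T : Scheme.{u}} (t : T ⟶ Spec (CommRingCat.of k)), LB (pullback c t) → Prop)
    (h𝒬pb : ∀ {T T' : Scheme.{u}} {t : T ⟶ Spec (CommRingCat.of k)}
      {t' : T' ⟶ Spec (CommRingCat.of k)} (ψ : SchemeHomOver t' t) {M : LB (pullback c t)},
      𝒬 t M → 𝒬 t' (M.pullback (baseChangeSnd c ψ)))
    (h𝒬div : ∀ {T : Scheme.{u}} {t : T ⟶ Spec (CommRingCat.of k)} {M N : LB (pullback c t)},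
      𝒬 t M → 𝒬 t N → 𝒬 t (M.inv.tensor N))
    (h𝒬deg : ∀ N : LB (pullback c (𝟙 (Spec (CommRingCat.of k)))), 𝒬 (𝟙 _) N →
      (N.pullback (toFibre c)).deg = 0)
    (P : LB (pullback c D.toBase)) (hrig : LBRigidified c ε D.toBase P) (hP : 𝒬 D.toBase P)
    (huniv : ∀ {T : Scheme.{u}} (t : T ⟶ Spec (CommRingCat.of k)) (M : LB (pullback c t)),
      LBRigidified c ε t M → 𝒬 t M →
      ∃! g : SchemeHomOver t D.toBase, LB.Iso (P.pullback (baseChangeSnd c g)) M)
    (hzero : (P.pullback (baseChangeSnd c
      (⟨D.zeroSection, D.zeroSection_toBase⟩ : SchemeHomOver (𝟙 _) D.toBase))).IsTrivial)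
    [LocallyOfFiniteType D.toBase]
    (g : ℕ) (hg : ∀ L : LB C, (g : ℤ) ≤ L.deg → ∃ s : L.H0, s ≠ 0)
    (ε₀ : C) (hε₀ : ε₀ ≠ genericPoint C)
    {W : Scheme.{u}} (w : W ⟶ Spec (CommRingCat.of k)) [IsProper w] [ConnectedSpace W]
    (M : LB (pullback c w)) (hMrig : LBRigidified c ε w M) (hM𝒬 : 𝒬 w M)
    (hW : ∀ p : Fin g → {z : C // z ≠ genericPoint C},
      ∃ y : SchemeHomOver (𝟙 (Spec (CommRingCat.of k))) w,
        PicGroup.mk ((M.pullback (baseChangeSnd c y)).pullback (toFibre c)) =
          ∑ i, ptClsCurve c (p i).1 - g • ptClsCurve c ε₀) :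
    IsProper D.toBase ∧ ConnectedSpace D.P := by
  haveI : IsSeparated D.toBase :=
    isSeparated_of_represents c ε D 𝒬 h𝒬pb h𝒬div P hrig hP huniv hzero
  -- every pull-back of `P` is rigidified
  have hrigP : ∀ {T : Scheme.{u}} {t : T ⟶ Spec (CommRingCat.of k)} (g : SchemeHomOver t D.toBase),
      PicGroup.map (rigSection c t ε) (cls c P g) = 0 := fun g =>
    rig_map c ε g _ ((rig_iff c ε D.toBase P).mp hrig)
  -- uniqueness of classifying maps
  have huniq : ∀ {T : Scheme.{u}} {t : T ⟶ Spec (CommRingCat.of k)} (g g' : SchemeHomOver t D.toBase),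
      cls c P g = cls c P g' → g = g' := by
    intro T t g g' h
    have hM : LBRigidified c ε t (P.pullback (baseChangeSnd c g')) :=
      (rig_iff c ε t _).mpr (hrigP g')
    obtain ⟨g₀, -, hg₀⟩ := huniv t (P.pullback (baseChangeSnd c g')) hM (h𝒬pb g' hP)
    rw [hg₀ g ((PicGroup.mk_eq_mk_iff _ _).mp h), hg₀ g' (LB.Iso.refl _)]
  -- the classifying map of the family
  obtain ⟨φ, hφ, -⟩ := huniv w M hMrig hM𝒬
  have hφcls : cls c P φ = PicGroup.mk M := (PicGroup.mk_eq_mk_iff _ _).mpr hφ
  -- it hits every `k`-point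
  have hpts : ∀ x : Spec (CommRingCat.of k) ⟶ D.P, x ≫ D.toBase = 𝟙 _ →
      ∃ y : Spec (CommRingCat.of k) ⟶ W, y ≫ φ.1 = x := by
    intro x hx
    let X' : SchemeHomOver (𝟙 (Spec (CommRingCat.of k))) D.toBase := ⟨x, hx⟩
    have hdeg := h𝒬deg _ (h𝒬pb X' hP)
    obtain ⟨p, hp⟩ := exists_points_curve c g hg ε₀ hε₀ _ hdeg
    obtain ⟨y, hy⟩ := hW p
    refine ⟨y.1, ?_⟩
    have h1 : cls c P X' = PicGroup.mk (M.pullback (baseChangeSnd c y)) := by
      apply map_toFibre_injective c
      rw [cls, PicGroup.map_mk, PicGroup.map_mk, hp, hy]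
    have h2 : cls c P (postComp φ y) = PicGroup.mk (M.pullback (baseChangeSnd c y)) := by
      rw [cls_postComp, hφcls, PicGroup.map_mk]
    have h3 : postComp φ y = X' := huniq _ _ (h2.trans h1.symm)
    exact congrArg Subtype.val h3
  haveI : Surjective φ.1 := surjective_of_forall_kPoint w D.toBase φ.1 φ.2 hpts
  exact ⟨isProper_of_surjective w D.toBase φ.1 φ.2, connectedSpace_of_surjective φ.1⟩

end Top

end

end Fermat.Agent.JAC.J6
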