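/-
PROJECT JAC (S25) — (AJ2), helper6: **the class of the fibre of a graph bundle over a `k`-point.**
On the curve `c : C ⟶ Spec k`: if `(L, σ)` is lead's `IsGraphPair` of the `k`-point `x` on
`Y = C ×ₖ Spec k` and `i` is a section of `p₁`, then `PicGroup.mk (L.pullback i) = ptClsCurve c z`
(`z` the image of `x`; `= PicGroup.mk (pointDiv_curve c z hz).Q`).
* `AJ2.mk_pullback_of_isGraphPair`, `AJ2.mk_pullback_toFibre_of_isGraphPair`.
-/
import Mathlib
import Fermat.Agent.JAC.AJ_helper6_Fibre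
import Fermat.Agent.JAC.J6_helper6_ProperTop

set_option autoImplicit false
set_option linter.style.haveILetI false
set_option linter.unusedSectionVars false

open AlgebraicGeometry CategoryTheory CategoryTheory.Limits Opposite TopologicalSpace

universe u

namespace Fermat.Agent.JAC.AJ2

open Fermat.Agent.AV Fermat.Agent.AV.LB Fermat.Agent.AV.CP Fermat.Agent.JAC

noncomputable section

variable {k : Type u} [Field k] [IsAlgClosed k] {C : Scheme.{u}} [IsIntegral C] [IsNoetherian C]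
  (c : C ⟶ Spec (CommRingCat.of k)) [IsProper c] [SmoothOfRelativeDimension 1 c]

/-- **the class of the fibre of a graph bundle over a `k`-point `x` is the class of `O(x)`**:
if `(L, σ)` is a graph pair of the `k`-point `x` on `Y = C ×ₖ Spec k` and `i` is a section of
`p₁ : Y ⟶ C`, then `i^* L ≅ O(z)`, `z` the image of `x`. -/
theorem mk_pullback_of_isGraphPair {Y : Scheme.{u}} {p₁ : Y ⟶ C}
    {p₂ : Y ⟶ Spec (CommRingCat.of k)} (H : IsPullback p₁ p₂ c (𝟙 (Spec (CommRingCat.of k))))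
    (i : C ⟶ Y) (hi : i ≫ p₁ = 𝟙 C) {U : C.Opens} (hU : IsAffineOpen U)
    (x : Spec (CommRingCat.of k) ⟶ C) (hx : x ≫ c = 𝟙 _) (hxU : x ⁻¹ᵁ U = ⊤)
    (t₀ : Spec (CommRingCat.of k)) {L : LB Y} {σ : L.H0}
    (h : letI : KScheme k C := ⟨c⟩
      letI : KScheme k (Spec (CommRingCat.of k)) := ⟨𝟙 _⟩
      IsGraphPair (K := k) H hU x hx hxU L σ) :
    PicGroup.mk (L.pullback i) = J6.ptClsCurve c (x t₀) := by
  have hcl := isClosed_singleton_kPoint c x hx t₀
  have hz : x t₀ ≠ genericPoint C := (isClosed_singleton_iff c (x t₀)).1 hcl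
  have h2 := isGraphPair_pullback_pointDiv_of_kPoint c H hU x hx hxU t₀
    (pointDiv_curve c (x t₀) hz)
  have h3 : LB.Iso L ((pointDiv_curve c (x t₀) hz).Q.pullback p₁) := by
    letI : KScheme k C := ⟨c⟩
    letI : KScheme k (Spec (CommRingCat.of k)) := ⟨𝟙 _⟩
    exact IsGraphPair.iso h h2
  have h4 : PicGroup.mk L = PicGroup.map p₁ (PicGroup.mk (pointDiv_curve c (x t₀) hz).Q) :=
    (PicGroup.mk_eq_mk_iff _ _).2 h3
  rw [← PicGroup.map_mk, h4, ← PicGroup.map_comp, hi, PicGroup.map_id]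
  rfl

/-- the same for the canonical square `C ×ₖ Spec k = pullback c (𝟙 _)` and `i = J6.toFibre c`. -/
theorem mk_pullback_toFibre_of_isGraphPair {U : C.Opens} (hU : IsAffineOpen U)
    (x : Spec (CommRingCat.of k) ⟶ C) (hx : x ≫ c = 𝟙 _) (hxU : x ⁻¹ᵁ U = ⊤)
    (t₀ : Spec (CommRingCat.of k)) {L : LB (pullback c (𝟙 (Spec (CommRingCat.of k))))}
    {σ : L.H0}
    (h : letI : KScheme k C := ⟨c⟩
      letI : KScheme k (Spec (CommRingCat.of k)) := ⟨𝟙 _⟩
      IsGraphPair (K := k) (IsPullback.of_hasPullback c (𝟙 (Spec (CommRingCat.of k)))) hU x hx hxU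
        L σ) :
    PicGroup.mk (L.pullback (J6.toFibre c)) = J6.ptClsCurve c (x t₀) :=
  mk_pullback_of_isGraphPair c (IsPullback.of_hasPullback c (𝟙 _)) (J6.toFibre c)
    (J6.toFibre_fst c) hU x hx hxU t₀ h

end

end Fermat.Agent.JAC.AJ2
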