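/-
PROJECT JAC (S25/S27) — (GI), helper4: geometric connectedness / integrality over an
algebraically closed field.

* `connectedSpace_of_isPullback_field`: `k` algebraically closed, `X` connected and locally of
  finite type over `k`, `K` ANY field over `k` ⇒ `X_K` is connected (`X_K → X` is open and
  surjective, and its fibre over a `k`-rational point is a single point).
* `geometricallyConnected_of_connectedSpace`, `geometricallyIntegral_of_smooth_of_connectedSpace`.
* `geometricallyIntegral_of_smooth_of_geometricallyConnected` (any base field).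
-/
import Mathlib
import Fermat.Agent.AV.AV0_helper4_NormalScheme
import Fermat.Agent.AV.AV1_helper6_ProdConn

set_option autoImplicit false
set_option linter.style.haveILetI false
open CategoryTheory CategoryTheory.Limits AlgebraicGeometry
universe u

namespace Fermat.Agent.JAC

open Fermat.Agent.AV

section GeomConn

variable {k : Type u} [Field k] {X Y : Scheme.{u}} (iX : X ⟶ Spec (CommRingCat.of k))

/-- **(GI-1)** a smooth geometrically connected scheme over a field is geometrically integral. -/
theorem geometricallyIntegral_of_smooth_of_geometricallyConnected [Smooth iX]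
    [GeometricallyConnected iX] : GeometricallyIntegral iX := by
  refine ⟨fun K _ y Z fst snd h => ?_⟩
  haveI : Smooth snd := MorphismProperty.of_isPullback h ‹_›
  haveI : ConnectedSpace Z :=
    GeometricallyConnected.geometrically_connectedSpace (f := iX) y fst snd h
  exact isIntegral_of_smooth_of_connected snd

variable [IsAlgClosed k]

/-- **(GI-2)** base change of a connected scheme locally of finite type over an algebraically
closed field `k` to ANY field `K` over `k` is connected. -/
theorem connectedSpace_of_isPullback_field [LocallyOfFiniteType iX] [ConnectedSpace X]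
    {K : Type u} [Field K] (y : Spec (CommRingCat.of K) ⟶ Spec (CommRingCat.of k))
    (p₁ : Y ⟶ X) (p₂ : Y ⟶ Spec (CommRingCat.of K)) (H : IsPullback p₁ p₂ iX y) :
    ConnectedSpace Y := by
  have hopen : UniversallyOpen p₁ := MorphismProperty.of_isPullback H.flip inferInstance
  have hsurjy : Surjective y := ⟨fun z => ⟨default, Subsingleton.elim _ _⟩⟩
  have hsurj : Surjective p₁ := MorphismProperty.of_isPullback H.flip hsurjy
  have hne : Nonempty Y := by
    obtain ⟨x⟩ := (inferInstance : Nonempty X)
    obtain ⟨z, -⟩ := hsurj.surj x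
    exact ⟨z⟩
  have hpre : PreconnectedSpace Y := by
    rw [preconnectedSpace_iff_clopen]
    intro s hs
    by_contra hcon
    rw [not_or] at hcon
    obtain ⟨a₀, ha₀⟩ := Set.nonempty_iff_ne_empty.mpr hcon.1
    obtain ⟨b₀, hb₀⟩ := (Set.ne_univ_iff_exists_notMem s).mp hcon.2
    -- the images of `s` and its complement are open and cover `X`
    have ho1 : IsOpen (p₁ '' s) := p₁.isOpenMap _ hs.isOpen
    have ho2 : IsOpen (p₁ '' sᶜ) := p₁.isOpenMap _ hs.compl.isOpen
    have hcov : (Set.univ : Set X) ⊆ p₁ '' s ∪ p₁ '' sᶜ := by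
      intro x _
      obtain ⟨z, rfl⟩ := hsurj.surj x
      by_cases hz : z ∈ s
      · exact Or.inl ⟨z, hz, rfl⟩
      · exact Or.inr ⟨z, hz, rfl⟩
    obtain ⟨x₁, -, hx₁⟩ := isPreconnected_univ (α := X) _ _ ho1 ho2 hcov
      ⟨p₁ a₀, trivial, ⟨a₀, ha₀, rfl⟩⟩ ⟨p₁ b₀, trivial, ⟨b₀, hb₀, rfl⟩⟩
    -- a `k`-point in the intersection
    let W : X.Opens := ⟨p₁ '' s ∩ p₁ '' sᶜ, ho1.inter ho2⟩
    haveI : Nonempty W := ⟨⟨x₁, hx₁⟩⟩
    obtain ⟨x, hx⟩ := exists_kPoint_of_nonempty (W.ι ≫ iX)
    let pt : Spec (CommRingCat.of k) := default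
    have hxW : (x ≫ W.ι) pt ∈ p₁ '' s ∩ p₁ '' sᶜ := by
      rw [Scheme.Hom.comp_apply]
      exact (x pt).2
    obtain ⟨⟨a, has, ha⟩, ⟨b, hbs, hb⟩⟩ := hxW
    -- the fibre over the `k`-point is `Spec K`: a single point
    have hP : IsPullback (pullback.fst (x ≫ W.ι) p₁) (pullback.snd (x ≫ W.ι) p₁ ≫ p₂)
        ((x ≫ W.ι) ≫ iX) y :=
      (IsPullback.of_hasPullback (x ≫ W.ι) p₁).paste_vert H
    have hid : (x ≫ W.ι) ≫ iX = 𝟙 _ := by rw [Category.assoc, hx]
    haveI : IsIso ((x ≫ W.ι) ≫ iX) := by rw [hid]; infer_instance
    haveI : IsIso (pullback.snd (x ≫ W.ι) p₁ ≫ p₂) := hP.isIso_snd_of_isIso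
    haveI : Subsingleton ↥(pullback (x ≫ W.ι) p₁) :=
      (asIso (pullback.snd (x ≫ W.ι) p₁ ≫ p₂)).hom.homeomorph.subsingleton
    obtain ⟨za, -, hza⟩ := Scheme.Pullback.exists_preimage_pullback (f := x ≫ W.ι) (g := p₁)
      pt a ha.symm
    obtain ⟨zb, -, hzb⟩ := Scheme.Pullback.exists_preimage_pullback (f := x ≫ W.ι) (g := p₁)
      pt b hb.symm
    rw [Subsingleton.elim zb za, hza] at hzb
    exact hbs (hzb ▸ has)
  exact ConnectedSpace.mk hne

/-- a connected scheme locally of finite type over an algebraically closed field is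
geometrically connected. -/
theorem geometricallyConnected_of_connectedSpace [LocallyOfFiniteType iX] [ConnectedSpace X] :
    GeometricallyConnected iX :=
  ⟨fun _ _ y _ fst snd h => connectedSpace_of_isPullback_field iX y fst snd h⟩

/-- a smooth connected scheme over an algebraically closed field is geometrically integral. -/
theorem geometricallyIntegral_of_smooth_of_connectedSpace [Smooth iX] [ConnectedSpace X] :
    GeometricallyIntegral iX := by
  haveI := geometricallyConnected_of_connectedSpace iX
  exact geometricallyIntegral_of_smooth_of_geometricallyConnected iX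

/-- base change of a smooth connected scheme over an algebraically closed field `k` to any
field over `k` is integral. -/
theorem isIntegral_of_isPullback_field [Smooth iX] [ConnectedSpace X]
    {K : Type u} [Field K] (y : Spec (CommRingCat.of K) ⟶ Spec (CommRingCat.of k))
    (p₁ : Y ⟶ X) (p₂ : Y ⟶ Spec (CommRingCat.of K)) (H : IsPullback p₁ p₂ iX y) :
    IsIntegral Y :=
  (geometricallyIntegral_of_smooth_of_connectedSpace iX).geometrically_isIntegral y p₁ p₂ H

end GeomConn

end Fermat.Agent.JAC
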