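/-
PROJECT JAC (S25/S27) — (GI), helper4: the geometric fibres of `C ×ₖ T → T`.

For `c : C ⟶ Spec k` (`k` algebraically closed, `C` connected, `c` proper smooth of relative
dimension `n`), `t : T ⟶ Spec k`, `k'` any field and `s : Spec k' ⟶ T`, the Prelude's fibre
`fibreAt c t s : pullback (pullback.snd c t) s ⟶ Spec k'` is a base change of `c` (along `s ≫ t`),
hence proper, smooth of relative dimension `n`, with INTEGRAL total space.
The same for an arbitrary cartesian square `IsPullback p₁ p₂ c y`.
-/
import Mathlib
import Fermat.Prelude.Def_AlgebraicGeometry_RelPicardAlgEquivZeroCut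
import Fermat.Agent.JAC.GI_helper4_GeomConn

set_option autoImplicit false
set_option linter.style.haveILetI false
open CategoryTheory CategoryTheory.Limits AlgebraicGeometry AlgebraicGeometry.RelPicard
universe u

namespace Fermat.Agent.JAC

section BaseChange

variable {k : Type u} [Field k] {C Y : Scheme.{u}} (c : C ⟶ Spec (CommRingCat.of k))
  {K : Type u} [Field K] (y : Spec (CommRingCat.of K) ⟶ Spec (CommRingCat.of k))
  (p₁ : Y ⟶ C) (p₂ : Y ⟶ Spec (CommRingCat.of K)) (H : IsPullback p₁ p₂ c y)

include H in
theorem isProper_of_isPullback_field [IsProper c] : IsProper p₂ :=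
  MorphismProperty.of_isPullback H ‹_›

include H in
theorem smoothOfRelativeDimension_of_isPullback_field (n : ℕ) [SmoothOfRelativeDimension n c] :
    SmoothOfRelativeDimension n p₂ :=
  haveI := smoothOfRelativeDimension_isStableUnderBaseChange n
  MorphismProperty.of_isPullback H ‹_›

include H in
theorem smooth_of_isPullback_field [Smooth c] : Smooth p₂ :=
  MorphismProperty.of_isPullback H ‹_›

end BaseChange

section Fibre

variable {k : Type u} [Field k] {C T : Scheme.{u}} (c : C ⟶ Spec (CommRingCat.of k))
  (t : T ⟶ Spec (CommRingCat.of k)) {k' : Type u} [Field k'] (s : Spec (CommRingCat.of k') ⟶ T)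

/-- the Prelude's fibre is the base change of `c` along `s ≫ t`. -/
theorem isPullback_fibreAt :
    IsPullback (pullback.fst (pullback.snd c t) s ≫ pullback.fst c t) (fibreAt c t s) c (s ≫ t) :=
  (IsPullback.of_hasPullback (pullback.snd c t) s).paste_horiz (IsPullback.of_hasPullback c t)

instance isProper_fibreAt [IsProper c] : IsProper (fibreAt c t s) :=
  isProper_of_isPullback_field c _ _ _ (isPullback_fibreAt c t s)

theorem smoothOfRelativeDimension_fibreAt (n : ℕ) [SmoothOfRelativeDimension n c] :
    SmoothOfRelativeDimension n (fibreAt c t s) :=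
  smoothOfRelativeDimension_of_isPullback_field c _ _ _ (isPullback_fibreAt c t s) n

instance smooth_fibreAt [Smooth c] : Smooth (fibreAt c t s) :=
  smooth_of_isPullback_field c _ _ _ (isPullback_fibreAt c t s)

/-- **the geometric fibres of `C ×ₖ T → T` are integral** (`k` algebraically closed, `C` smooth
and connected over `k`; `k'` ANY field). -/
theorem isIntegral_fibreAt [IsAlgClosed k] [Smooth c] [ConnectedSpace C] :
    IsIntegral (pullback (pullback.snd c t) s) :=
  isIntegral_of_isPullback_field c (s ≫ t) _ _ (isPullback_fibreAt c t s)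

end Fibre

end Fermat.Agent.JAC
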