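/-
PROJECT JAC (S25) — (J8b), helper4: upper semicontinuity of `h⁰` in families `X ×_K T → T`
at `K`-points, for `X` proper smooth integral over an algebraically closed field `K` and `T`
locally of finite type — from helper8's `H⁰`-presentations (AV producer) and helper7's minors.

* `LB.h0 iX L : ℕ` — the dimension of `H⁰(X, L)` over the base field;
* `h0_pullback_fibreIncl` — `h⁰(L_t) = dim ker d(t)` for a presentation;
* `exists_opens_h0_le` — every `K`-point `t₀` of `T` has an open neighbourhood on whose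
  `K`-points `h⁰(L_t) ≤ h⁰(L_{t₀})`.
-/
import Mathlib
import Fermat.Agent.AV.SEESAW_helper1_Main
import Fermat.Agent.AV.CP_helper8_Final

set_option autoImplicit false
set_option linter.style.haveILetI false
open CategoryTheory CategoryTheory.Limits AlgebraicGeometry
universe u

namespace Fermat.Agent.JAC

open Fermat.Agent.AV

noncomputable section

variable {K : Type u} [Field K]

/-- the dimension over the base field of the space of global sections of a line bundle. -/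
def LB.h0 {X : Scheme.{u}} (iX : X ⟶ Spec (CommRingCat.of K)) (L : LB X) : ℕ :=
  letI : Module K L.H0 := Module.compHom L.H0 (CP.constMap iX)
  Module.finrank K L.H0

/-- `h⁰` through a semilinear additive equivalence with a `K`-vector space. -/
theorem LB.h0_eq_finrank {X : Scheme.{u}} (iX : X ⟶ Spec (CommRingCat.of K)) (L : LB X)
    {V : Type*} [AddCommGroup V] [Module K V] (e : L.H0 ≃+ V)
    (he : ∀ (c : K) (s : L.H0), e (CP.constMap iX c • s) = c • e s) :
    LB.h0 iX L = Module.finrank K V := by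
  letI : Module K L.H0 := Module.compHom L.H0 (CP.constMap iX)
  let e' : L.H0 ≃ₗ[K] V := { e with map_smul' := fun c s => he c s }
  exact e'.finrank_eq

variable {X : Scheme.{u}} {iX : X ⟶ Spec (CommRingCat.of K)}
  {T Y : Scheme.{u}} {f : T ⟶ Spec (CommRingCat.of K)} {g : Y ⟶ X} {iY : Y ⟶ T}

/-- `h⁰` of the fibre of a family with a presentation is the dimension of the fibre kernel. -/
theorem h0_pullback_fibreIncl (H : IsPullback g iY iX f) {L : LB Y}
    (P : CP.H0Presentation iX g iY L) (t : Spec (CommRingCat.of K) ⟶ T) (ht : t ≫ f = 𝟙 _) :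
    LB.h0 iX (L.pullback (fibreIncl H t ht)) = Module.finrank K (fibKer P.d (CP.evalAt t)) :=
  LB.h0_eq_finrank iX _
    (P.eFib t (fibreIncl H t ht) (fibreIncl_fst H t ht) (fibreIncl_snd H t ht))
    (fun c s => P.eFib_smul t _ _ _ c s)

/-- semicontinuity of the fibre kernel of a matrix: a minor of maximal size at `φ₀`. -/
theorem exists_minor_finrank_fibKer_le {B : Type*} [CommRing B] {n₁ n₀ : ℕ}
    (d : Matrix (Fin n₁) (Fin n₀) B) (φ₀ : B →+* K) :
    ∃ m : B, φ₀ m ≠ 0 ∧ ∀ φ : B →+* K, φ m ≠ 0 →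
      Module.finrank K (fibKer d φ) ≤ Module.finrank K (fibKer d φ₀) := by
  obtain ⟨r, c, hrc⟩ := exists_minor_ne_zero_of_le_rank (d.map φ₀) le_rfl
  rw [map_minor] at hrc
  refine ⟨(d.submatrix r c).det, hrc, fun φ hφ => ?_⟩
  have h1 : (d.map φ₀).rank ≤ (d.map φ).rank :=
    le_rank_of_minor_ne_zero (d.map φ) r c (by rw [map_minor]; exact hφ)
  rw [finrank_fibKer, finrank_fibKer]
  omega

/-- **semicontinuity, affine base.** -/
theorem exists_opens_h0_le_of_isAffine (hX : CP.HasH0Presentations iX)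
    (H : IsPullback g iY iX f) [IsAffine T] (L : LB Y)
    (t₀ : Spec (CommRingCat.of K) ⟶ T) (ht₀ : t₀ ≫ f = 𝟙 _) :
    ∃ V : T.Opens, t₀ (ptK K) ∈ V ∧ ∀ (t : Spec (CommRingCat.of K) ⟶ T) (ht : t ≫ f = 𝟙 _),
      t (ptK K) ∈ V →
      LB.h0 iX (L.pullback (fibreIncl H t ht)) ≤ LB.h0 iX (L.pullback (fibreIncl H t₀ ht₀)) := by
  obtain ⟨P⟩ := hX f g iY H inferInstance L
  obtain ⟨m, hm₀, hm⟩ := exists_minor_finrank_fibKer_le P.d (CP.evalAt t₀)
  refine ⟨T.basicOpen m, (evalAt_ne_zero_iff t₀ m).mp hm₀, fun t ht htV => ?_⟩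
  rw [h0_pullback_fibreIncl H P t ht, h0_pullback_fibreIncl H P t₀ ht₀]
  exact hm _ ((evalAt_ne_zero_iff t m).mpr htV)

/-- **semicontinuity of `h⁰` at `K`-points**, arbitrary base. -/
theorem exists_opens_h0_le (hX : CP.HasH0Presentations iX)
    (H : IsPullback g iY iX f) (L : LB Y)
    (t₀ : Spec (CommRingCat.of K) ⟶ T) (ht₀ : t₀ ≫ f = 𝟙 _) :
    ∃ V : T.Opens, t₀ (ptK K) ∈ V ∧ ∀ (t : Spec (CommRingCat.of K) ⟶ T) (ht : t ≫ f = 𝟙 _),
      t (ptK K) ∈ V →
      LB.h0 iX (L.pullback (fibreIncl H t ht)) ≤ LB.h0 iX (L.pullback (fibreIncl H t₀ ht₀)) := by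
  obtain ⟨V₀, hV₀, hxV₀⟩ := exists_isAffineOpen_mem T (t₀ (ptK K))
  haveI : IsAffine V₀.toScheme := hV₀
  obtain ⟨t₀', rfl⟩ := exists_kpoint_lift V₀ t₀ hxV₀
  have ht₀' : t₀' ≫ V₀.ι ≫ f = 𝟙 _ := by rw [← Category.assoc]; exact ht₀
  obtain ⟨V', hV'mem, hV'⟩ := exists_opens_h0_le_of_isAffine hX (isPullback_restrict H V₀)
    (L.pullback (iY ⁻¹ᵁ V₀).ι) t₀' ht₀'
  have key : ∀ (t' : Spec (CommRingCat.of K) ⟶ V₀.toScheme) (ht' : t' ≫ V₀.ι ≫ f = 𝟙 _),
      (L.pullback (iY ⁻¹ᵁ V₀).ι).pullback (fibreIncl (isPullback_restrict H V₀) t' ht') =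
        L.pullback (fibreIncl H (t' ≫ V₀.ι) (by rw [Category.assoc]; exact ht')) := by
    intro t' ht'
    rw [LB.pullback_comp, LB.pullback_congr L (fibreIncl_restrict H V₀ t' ht')]
  refine ⟨V₀.ι ''ᵁ V', ⟨t₀' (ptK K), hV'mem, rfl⟩, fun t ht htV => ?_⟩
  have hle : V₀.ι ''ᵁ V' ≤ V₀ := by
    have := V₀.ι.image_le_opensRange V'
    rwa [Scheme.Opens.opensRange_ι] at this
  obtain ⟨t', rfl⟩ := exists_kpoint_lift V₀ t (hle htV)
  have ht' : t' ≫ V₀.ι ≫ f = 𝟙 _ := by rw [← Category.assoc]; exact ht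
  have htV' : t' (ptK K) ∈ V' := by
    obtain ⟨z, hz, hzeq⟩ := htV
    have : z = t' (ptK K) := V₀.ι.isOpenEmbedding.injective hzeq
    rwa [← this]
  have h := hV' t' ht' htV'
  rw [key t' ht', key t₀' ht₀'] at h
  exact h

end

end Fermat.Agent.JAC
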