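/-
PROJECT JAC (S25) — (J8c), helper4: the degree of the fibres `M_t` of a line bundle `M` on
`X ×_K T` is CONSTANT on the `K`-points of a connected `T` locally of finite type over `K`
(`K` algebraically closed, `X` a proper smooth integral curve over `K` with Riemann's theorem
`RiemannData`).

Proof: upper semicontinuity of `h⁰` (`exists_opens_h0_le`) applied to `M(N)` and `M⁻¹(N)`,
`N ≫ 0`, + Riemann (`deg + 1 - g ≤ h⁰`, equality for `deg > 2g - 2`) ⇒ `t ↦ deg M_t` is locally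
constant on `K`-points; `T` is Jacobson and connected.
-/
import Mathlib
import Fermat.Agent.JAC.J8_helper4_Semicont
import Fermat.Agent.JAC.DIV_helper5_Degree

set_option autoImplicit false
set_option linter.style.haveILetI false
open CategoryTheory CategoryTheory.Limits AlgebraicGeometry
universe u

namespace Fermat.Agent.JAC

open Fermat.Agent.AV

noncomputable section

variable {K : Type u} [Field K]

/-- **Riemann's theorem** for a curve `iX : X ⟶ Spec K`, as a hypothesis package (to be supplied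
by (RR)). -/
structure RiemannData {X : Scheme.{u}} [IsIntegral X] [IsNoetherian X]
    (iX : X ⟶ Spec (CommRingCat.of K)) where
  /-- the genus -/
  genus : ℕ
  principalDegZero : PrincipalDegZero X
  /-- Riemann's inequality -/
  le_h0 : ∀ L : LB X, L.deg + 1 - genus ≤ (LB.h0 iX L : ℤ)
  /-- Riemann's theorem: no `H¹` in large degree -/
  h0_eq : ∀ L : LB X, 2 * (genus : ℤ) - 2 < L.deg → (LB.h0 iX L : ℤ) = L.deg + 1 - genus
  /-- there is a line bundle of degree one (e.g. `O(p)`) -/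
  exists_deg_one : ∃ E : LB X, E.deg = 1

section LocallyConstant

variable {T : Scheme.{u}} (f : T ⟶ Spec (CommRingCat.of K))

/-- a function on the `K`-points of a connected scheme locally of finite type over an
algebraically closed field which is locally constant (for the Zariski topology) is constant. -/
theorem eq_of_locally_constant_kpoints [IsAlgClosed K] [LocallyOfFiniteType f]
    [ConnectedSpace T] {α : Type*}
    (φ : ∀ t : Spec (CommRingCat.of K) ⟶ T, t ≫ f = 𝟙 _ → α)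
    (hφ : ∀ (t₀ : Spec (CommRingCat.of K) ⟶ T) (ht₀ : t₀ ≫ f = 𝟙 _), ∃ V : T.Opens,
      t₀ (ptK K) ∈ V ∧ ∀ (t : Spec (CommRingCat.of K) ⟶ T) (ht : t ≫ f = 𝟙 _),
        t (ptK K) ∈ V → φ t ht = φ t₀ ht₀)
    (t₀ t₁ : Spec (CommRingCat.of K) ⟶ T) (ht₀ : t₀ ≫ f = 𝟙 _) (ht₁ : t₁ ≫ f = 𝟙 _) :
    φ t₁ ht₁ = φ t₀ ht₀ := by
  classical
  have hJ : JacobsonSpace T := LocallyOfFiniteType.jacobsonSpace f
  -- the two open sets
  let U₁ : Set T := ⋃ V ∈ {V : T.Opens | ∀ (t : Spec (CommRingCat.of K) ⟶ T)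
    (ht : t ≫ f = 𝟙 _), t (ptK K) ∈ V → φ t ht = φ t₀ ht₀}, (V : Set T)
  let U₂ : Set T := ⋃ V ∈ {V : T.Opens | ∀ (t : Spec (CommRingCat.of K) ⟶ T)
    (ht : t ≫ f = 𝟙 _), t (ptK K) ∈ V → φ t ht ≠ φ t₀ ht₀}, (V : Set T)
  have hU₁ : IsOpen U₁ := isOpen_biUnion fun V _ => V.2
  have hU₂ : IsOpen U₂ := isOpen_biUnion fun V _ => V.2
  -- every point lies in one of them
  have hcov : (Set.univ : Set T) ⊆ U₁ ∪ U₂ := by
    intro x _
    obtain ⟨z, hzx, hz⟩ := nonempty_inter_closedPoints (X := T)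
      (Z := closure {x}) ⟨x, subset_closure rfl⟩ isClosed_closure.isLocallyClosed
    let tz := pointOfClosedPoint f z hz
    have htz : tz ≫ f = 𝟙 _ := pointOfClosedPoint_comp f z hz
    have htz_pt : tz (ptK K) = z := pointOfClosedPoint_apply f z hz (ptK K)
    obtain ⟨V, hzV, hV⟩ := hφ tz htz
    rw [htz_pt] at hzV
    have hxV : x ∈ V := by
      obtain ⟨y, hy1, hy2⟩ := mem_closure_iff.mp hzx V V.2 hzV
      rw [Set.mem_singleton_iff] at hy2
      rwa [← hy2]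
    by_cases hc : φ tz htz = φ t₀ ht₀
    · refine Or.inl (Set.mem_biUnion (x := V) ?_ hxV)
      intro t ht htV
      rw [hV t ht htV, hc]
    · refine Or.inr (Set.mem_biUnion (x := V) ?_ hxV)
      intro t ht htV
      rw [hV t ht htV]
      exact hc
  -- they are disjoint
  have hdisj : U₁ ∩ U₂ = ∅ := by
    by_contra hne
    obtain ⟨x, hx₁, hx₂⟩ := Set.nonempty_iff_ne_empty.mpr hne
    obtain ⟨V₁, hV₁, hxV₁⟩ := Set.mem_iUnion₂.mp hx₁
    obtain ⟨V₂, hV₂, hxV₂⟩ := Set.mem_iUnion₂.mp hx₂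
    obtain ⟨z, ⟨hzV₁, hzV₂⟩, hz⟩ := nonempty_inter_closedPoints (X := T)
      (Z := (V₁ : Set T) ∩ V₂) ⟨x, hxV₁, hxV₂⟩ (V₁.2.inter V₂.2).isLocallyClosed
    let tz := pointOfClosedPoint f z hz
    have htz : tz ≫ f = 𝟙 _ := pointOfClosedPoint_comp f z hz
    have htz_pt : tz (ptK K) = z := pointOfClosedPoint_apply f z hz (ptK K)
    exact hV₂ tz htz (by rw [htz_pt]; exact hzV₂) (hV₁ tz htz (by rw [htz_pt]; exact hzV₁))
  -- connectedness
  have ht₀U : t₀ (ptK K) ∈ U₁ := by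
    obtain ⟨V, hV₀, hV⟩ := hφ t₀ ht₀
    exact Set.mem_biUnion (x := V) hV hV₀
  have hpre := isPreconnected_univ (α := T)
  have ht₁U : t₁ (ptK K) ∈ U₁ := by
    by_contra hnot
    have h2 : t₁ (ptK K) ∈ U₂ := (hcov (Set.mem_univ _)).resolve_left hnot
    obtain ⟨y, -, hy⟩ := hpre U₁ U₂ hU₁ hU₂ hcov ⟨_, trivial, ht₀U⟩ ⟨_, trivial, h2⟩
    rw [hdisj] at hy
    exact hy
  obtain ⟨V, hV, ht₁V⟩ := Set.mem_iUnion₂.mp ht₁U
  exact hV t₁ ht₁ ht₁V

end LocallyConstant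

section Degree

variable {X : Scheme.{u}} [IsIntegral X] [IsNoetherian X] {iX : X ⟶ Spec (CommRingCat.of K)}
  {T Y : Scheme.{u}} {f : T ⟶ Spec (CommRingCat.of K)} {g : Y ⟶ X} {iY : Y ⟶ T}

/-- the degree of the fibre over a `K`-point, as a homomorphism on `Pic (X × T)`. -/
def fibreDeg (h0 : PrincipalDegZero X) (H : IsPullback g iY iX f)
    (t : Spec (CommRingCat.of K) ⟶ T) (ht : t ≫ f = 𝟙 _) : PicGroup Y →+ ℤ :=
  (degHom h0).comp (PicGroup.map (fibreIncl H t ht))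

theorem fibreDeg_mk (h0 : PrincipalDegZero X) (H : IsPullback g iY iX f)
    (t : Spec (CommRingCat.of K) ⟶ T) (ht : t ≫ f = 𝟙 _) (M : LB Y) :
    fibreDeg h0 H t ht (PicGroup.mk M) = (M.pullback (fibreIncl H t ht)).deg := rfl

theorem fibreDeg_map (h0 : PrincipalDegZero X) (H : IsPullback g iY iX f)
    (t : Spec (CommRingCat.of K) ⟶ T) (ht : t ≫ f = 𝟙 _) (x : PicGroup X) :
    fibreDeg h0 H t ht (PicGroup.map g x) = degHom h0 x := by
  show degHom h0 (PicGroup.map (fibreIncl H t ht) (PicGroup.map g x)) = _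
  rw [← PicGroup.map_comp, fibreIncl_fst, PicGroup.map_id]

variable [IsAlgClosed K] [IsProper iX] [Smooth iX]

/-- local upper bound for the fibre degree. -/
theorem exists_opens_fibreDeg_le (R : RiemannData iX) (H : IsPullback g iY iX f)
    (y : PicGroup Y) (t₀ : Spec (CommRingCat.of K) ⟶ T) (ht₀ : t₀ ≫ f = 𝟙 _) :
    ∃ V : T.Opens, t₀ (ptK K) ∈ V ∧ ∀ (t : Spec (CommRingCat.of K) ⟶ T) (ht : t ≫ f = 𝟙 _),
      t (ptK K) ∈ V → fibreDeg R.principalDegZero H t ht y ≤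
        fibreDeg R.principalDegZero H t₀ ht₀ y := by
  have h0 := R.principalDegZero
  obtain ⟨M, rfl⟩ := PicGroup.mk_surjective y
  obtain ⟨E, hE⟩ := R.exists_deg_one
  -- twist to large degree
  let N : ℕ := (2 * (R.genus : ℤ) - 1 - fibreDeg h0 H t₀ ht₀ (PicGroup.mk M)).toNat
  have hN : 2 * (R.genus : ℤ) - 2 < fibreDeg h0 H t₀ ht₀ (PicGroup.mk M) + N := by
    have := Int.self_le_toNat (2 * (R.genus : ℤ) - 1 - fibreDeg h0 H t₀ ht₀ (PicGroup.mk M))
    omega
  let M' : LB Y := M.tensor ((E.pow N).pullback g)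
  have hM' : ∀ (t : Spec (CommRingCat.of K) ⟶ T) (ht : t ≫ f = 𝟙 _),
      (M'.pullback (fibreIncl H t ht)).deg = fibreDeg h0 H t ht (PicGroup.mk M) + N := by
    intro t ht
    rw [← fibreDeg_mk h0 H t ht M', PicGroup.mk_tensor, map_add, ← PicGroup.map_mk,
      fibreDeg_map, degHom_mk, LB.deg_pow h0, hE, mul_one]
  obtain ⟨V, hV₀, hV⟩ := exists_opens_h0_le (CP.hasH0Presentations_of_isProper_of_smooth iX)
    H M' t₀ ht₀
  refine ⟨V, hV₀, fun t ht htV => ?_⟩
  have h1 := R.le_h0 (M'.pullback (fibreIncl H t ht))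
  have h2 := R.h0_eq (M'.pullback (fibreIncl H t₀ ht₀)) (by rw [hM' t₀ ht₀]; exact hN)
  have h3 : (LB.h0 iX (M'.pullback (fibreIncl H t ht)) : ℤ) ≤
      LB.h0 iX (M'.pullback (fibreIncl H t₀ ht₀)) := by exact_mod_cast hV t ht htV
  rw [hM' t ht] at h1
  rw [hM' t₀ ht₀] at h2
  omega

/-- **the fibre degree is constant on the `K`-points of a connected base.** -/
theorem fibreDeg_eq (R : RiemannData iX) (H : IsPullback g iY iX f) [LocallyOfFiniteType f]
    [ConnectedSpace T] (y : PicGroup Y) (t₀ t₁ : Spec (CommRingCat.of K) ⟶ T)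
    (ht₀ : t₀ ≫ f = 𝟙 _) (ht₁ : t₁ ≫ f = 𝟙 _) :
    fibreDeg R.principalDegZero H t₁ ht₁ y = fibreDeg R.principalDegZero H t₀ ht₀ y := by
  refine eq_of_locally_constant_kpoints f
    (fun t ht => fibreDeg R.principalDegZero H t ht y) (fun s₀ hs₀ => ?_) t₀ t₁ ht₀ ht₁
  obtain ⟨V, hV₀, hV⟩ := exists_opens_fibreDeg_le R H y s₀ hs₀
  obtain ⟨V', hV₀', hV'⟩ := exists_opens_fibreDeg_le R H (-y) s₀ hs₀
  refine ⟨V ⊓ V', ⟨hV₀, hV₀'⟩, fun t ht htV => ?_⟩
  have h1 := hV t ht htV.1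
  have h2 := hV' t ht htV.2
  rw [map_neg, map_neg] at h2
  omega

/-- **constancy of the degree in connected families** (line-bundle form). -/
theorem deg_pullback_fibreIncl_eq (R : RiemannData iX) (H : IsPullback g iY iX f)
    [LocallyOfFiniteType f] [ConnectedSpace T] (M : LB Y)
    (t₀ t₁ : Spec (CommRingCat.of K) ⟶ T) (ht₀ : t₀ ≫ f = 𝟙 _) (ht₁ : t₁ ≫ f = 𝟙 _) :
    (M.pullback (fibreIncl H t₁ ht₁)).deg = (M.pullback (fibreIncl H t₀ ht₀)).deg :=
  fibreDeg_eq R H (PicGroup.mk M) t₀ t₁ ht₀ ht₁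

end Degree

end

end Fermat.Agent.JAC
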