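/-
PROJECT JAC (S25) — (J8a), helper4: the Poincaré bundle is fibrewise algebraically equivalent
to zero, FORMALLY from its `zero` property.

Let `k` be algebraically closed, `j : J ⟶ Spec k` smooth with `J` connected (so `j` is
geometrically integral by (GI)) with a section `0`, and `P` a line bundle on `C ×ₖ J` whose
restriction to `C × 0` is trivial.  Then for every geometric point `s : Spec k' ⟶ J` the fibre
`P_s` on `C_{k'}` is algebraically equivalent to zero: the connecting family is `T' := J_{k'}`
itself with `M := ` the pull-back of `P`, `t₀ := 0`, `t₁ := s`.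
No degree theory, no universal property.
-/
import Mathlib
import Fermat.Agent.JAC.TOP_helper9_Bridge
import Fermat.Agent.JAC.GI_helper4_GeomConn

set_option autoImplicit false
set_option linter.style.haveILetI false
open CategoryTheory CategoryTheory.Limits AlgebraicGeometry AlgebraicGeometry.RelPicard
  NeronModelInfra GoodReductionJacobian
universe u

namespace Fermat.Agent.JAC

open Fermat.Agent.AV

/-- pull-back of a trivial line bundle is trivial. -/
theorem LB.isTrivial_pullback {X Y : Scheme.{u}} (φ : Y ⟶ X) {M : LB X} (h : M.IsTrivial) :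
    (M.pullback φ).IsTrivial := by
  rw [← PicGroup.mk_eq_zero_iff] at h ⊢
  rw [← PicGroup.map_mk, h, map_zero]

/-- pull-back along a composite. -/
theorem LB.iso_pullback_comp {X Y Z : Scheme.{u}} (φ : Z ⟶ Y) (ψ : Y ⟶ X) (M : LB X) :
    LB.Iso (M.pullback (φ ≫ ψ)) ((M.pullback ψ).pullback φ) :=
  ⟨LB.IsoData.pullbackComp φ ψ M⟩

/-- pull-back along equal morphisms. -/
theorem LB.iso_pullback_of_eq {X Y : Scheme.{u}} {φ ψ : Y ⟶ X} (h : φ = ψ) (M : LB X) :
    LB.Iso (M.pullback φ) (M.pullback ψ) := by
  subst h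
  exact LB.Iso.refl _

/-- pull-backs along the two ways around a commutative square. -/
theorem LB.iso_pullback_of_comm {X Y Y' Z : Scheme.{u}} {φ : Z ⟶ Y} {ψ : Y ⟶ X} {φ' : Z ⟶ Y'}
    {ψ' : Y' ⟶ X} (h : φ ≫ ψ = φ' ≫ ψ') (M : LB X) :
    LB.Iso ((M.pullback ψ).pullback φ) ((M.pullback ψ').pullback φ') :=
  ((LB.iso_pullback_comp φ ψ M).symm.trans (LB.iso_pullback_of_eq h M)).trans
    (LB.iso_pullback_comp φ' ψ' M)

section Poincare

variable {k : Type u} [Field k] [IsAlgClosed k] {C J : Scheme.{u}}
  (c : C ⟶ Spec (CommRingCat.of k)) (j : J ⟶ Spec (CommRingCat.of k))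
  (z : Spec (CommRingCat.of k) ⟶ J) (hz : z ≫ j = 𝟙 _) (P : LB (pullback c j))

/-- **(J8a)**, general form: for `j : J ⟶ Spec k` smooth with `J` connected and a `k`-point `z`,
and a line bundle `P` on `C × J` trivial along `C × z`, every fibre `P_s` (`s : Spec k' ⟶ J`,
`k'` any field) is algebraically equivalent to zero on `C_{k'}`. -/
theorem lbIsAlgEquivZero_fibre_of_isTrivial [Smooth j] [ConnectedSpace J]
    (hzero : (P.pullback (baseChangeSnd c (⟨z, hz⟩ : SchemeHomOver (𝟙 _) j))).IsTrivial)
    {k' : Type u} [Field k'] (s : Spec (CommRingCat.of k') ⟶ J) :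
    LBIsAlgEquivZero (fibreAt c j s) (P.pullback (pullback.fst (pullback.snd c j) s)) := by
  haveI : GeometricallyIntegral j := geometricallyIntegral_of_smooth_of_connectedSpace j
  have haπ : pullback.fst (pullback.snd c j) s ≫ pullback.snd c j = fibreAt c j s ≫ s :=
    pullback.condition
  have hcj : pullback.fst c j ≫ c = pullback.snd c j ≫ j := pullback.condition
  have hjy : pullback.fst j (s ≫ j) ≫ j = pullback.snd j (s ≫ j) ≫ s ≫ j := pullback.condition
  -- the map `A ×_{k'} J_{k'} ⟶ C × J`
  have hρ : (pullback.fst (fibreAt c j s) (pullback.snd j (s ≫ j)) ≫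
        pullback.fst (pullback.snd c j) s ≫ pullback.fst c j) ≫ c =
      (pullback.snd (fibreAt c j s) (pullback.snd j (s ≫ j)) ≫ pullback.fst j (s ≫ j)) ≫ j := by
    have h1 : pullback.fst (fibreAt c j s) (pullback.snd j (s ≫ j)) ≫ fibreAt c j s =
      pullback.snd (fibreAt c j s) (pullback.snd j (s ≫ j)) ≫ pullback.snd j (s ≫ j) :=
      pullback.condition
    simp only [Category.assoc]
    rw [hcj, reassoc_of% haπ, reassoc_of% h1, hjy]
  -- the two points
  have ht₀ : (s ≫ j ≫ z) ≫ j = 𝟙 _ ≫ s ≫ j := by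
    rw [Category.assoc, Category.assoc, hz, Category.comp_id, Category.id_comp]
  have ht₁ : s ≫ j = 𝟙 _ ≫ s ≫ j := by rw [Category.id_comp]
  refine ⟨pullback j (s ≫ j), pullback.snd j (s ≫ j), inferInstance, inferInstance,
    P.pullback (pullback.lift _ _ hρ),
    ⟨pullback.lift (s ≫ j ≫ z) (𝟙 _) ht₀, pullback.lift_snd _ _ _⟩,
    ⟨pullback.lift s (𝟙 _) ht₁, pullback.lift_snd _ _ _⟩, ?_, ?_⟩
  · -- over `t₀` the bundle is pulled back from `C × z`
    have hγ : (pullback.fst (fibreAt c j s) (𝟙 (Spec (CommRingCat.of k'))) ≫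
          pullback.fst (pullback.snd c j) s ≫ pullback.fst c j) ≫ c =
        (pullback.snd (fibreAt c j s) (𝟙 (Spec (CommRingCat.of k'))) ≫ s ≫ j) ≫ 𝟙 _ := by
      have h1 : pullback.fst (fibreAt c j s) (𝟙 (Spec (CommRingCat.of k'))) ≫ fibreAt c j s =
        pullback.snd (fibreAt c j s) (𝟙 _) ≫ 𝟙 _ := pullback.condition
      simp only [Category.assoc, Category.comp_id]
      rw [hcj, reassoc_of% haπ, reassoc_of% h1]
    have hcomm : baseChangeSnd (fibreAt c j s)
          (⟨pullback.lift (s ≫ j ≫ z) (𝟙 _) ht₀, pullback.lift_snd _ _ _⟩ :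
            SchemeHomOver (𝟙 _) (pullback.snd j (s ≫ j))) ≫ pullback.lift _ _ hρ =
        pullback.lift _ _ hγ ≫ baseChangeSnd c (⟨z, hz⟩ : SchemeHomOver (𝟙 _) j) := by
      apply pullback.hom_ext
      · simp only [baseChangeSnd, Category.assoc, pullback.lift_fst,
          pullback.lift_fst_assoc, Category.comp_id]
      · simp only [baseChangeSnd, Category.assoc, pullback.lift_snd,
          pullback.lift_snd_assoc, pullback.lift_fst]
    have hiso := LB.iso_pullback_of_comm hcomm P
    have htriv := LB.isTrivial_pullback (pullback.lift _ _ hγ) hzero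
    rw [← PicGroup.mk_eq_zero_iff] at htriv ⊢
    rw [← htriv]
    exact (PicGroup.mk_eq_mk_iff _ _).mpr hiso
  · -- over `t₁` the bundle is the fibre `P_s`
    have hcomm : baseChangeSnd (fibreAt c j s)
          (⟨pullback.lift s (𝟙 _) ht₁, pullback.lift_snd _ _ _⟩ :
            SchemeHomOver (𝟙 _) (pullback.snd j (s ≫ j))) ≫ pullback.lift _ _ hρ =
        pullback.fst (fibreAt c j s) (𝟙 (Spec (CommRingCat.of k'))) ≫
          pullback.fst (pullback.snd c j) s := by
      apply pullback.hom_ext
      · simp only [baseChangeSnd, Category.assoc, pullback.lift_fst,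
          pullback.lift_fst_assoc, Category.comp_id]
      · have h1 : pullback.fst (fibreAt c j s) (𝟙 (Spec (CommRingCat.of k'))) ≫ fibreAt c j s =
          pullback.snd (fibreAt c j s) (𝟙 _) ≫ 𝟙 _ := pullback.condition
        simp only [baseChangeSnd, Category.assoc, pullback.lift_snd,
          pullback.lift_snd_assoc, pullback.lift_fst]
        rw [haπ, reassoc_of% h1]
    exact LB.iso_pullback_of_comm hcomm P

/-- **(J8a)** the `ae0` field of `LBRepresentsAE0`, from `zero`, smoothness and connectedness. -/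
theorem lbFibrewiseAE0_of_zero (D : RelativePic0Designation k c) (P : LB (pullback c D.toBase))
    [Smooth D.toBase] [ConnectedSpace D.P]
    (hzero : (P.pullback (baseChangeSnd c
      (⟨D.zeroSection, D.zeroSection_toBase⟩ : SchemeHomOver (𝟙 _) D.toBase))).IsTrivial) :
    LBFibrewiseAE0 c D.toBase P := fun _ _ _ s =>
  lbIsAlgEquivZero_fibre_of_isTrivial c D.toBase D.zeroSection D.zeroSection_toBase P hzero s

end Poincare

end Fermat.Agent.JAC
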