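/-
PROJECT JAC (S25) — (J8d), helper4: algebraic equivalence to zero implies degree zero, and the
definition of the fibrewise-degree-zero cut.

* `deg_eq_zero_of_lbIsAlgEquivZero` : on a proper smooth integral curve `a : A ⟶ Spec k'` over an
  algebraically closed field with Riemann's theorem, `LBIsAlgEquivZero a L → L.deg = 0`;
* `LBFibrewiseDegZero c t M` : `M` has degree `0` on ALL the fibre squares of `C ×ₖ T → T` over
  all geometric points of `T`;
* `LBRepresentsDeg0 c ε D` : LB-level representability of the functor of rigidified line bundles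
  of fibrewise degree `0`.
(The properties of `LBFibrewiseDegZero` and the assembly of S25 are in `J8_helper4_DegZero`.)
-/
import Mathlib
import Fermat.Agent.JAC.J8_helper4_DegConst
import Fermat.Agent.JAC.J8_helper4_Poincare
import Fermat.Agent.JAC.GI_helper4_Fibre

set_option autoImplicit false
set_option linter.style.haveILetI false
open CategoryTheory CategoryTheory.Limits AlgebraicGeometry AlgebraicGeometry.RelPicard
  NeronModelInfra GoodReductionJacobian
universe u

namespace Fermat.Agent.JAC

open Fermat.Agent.AV

noncomputable section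

/-- a proper scheme locally of finite type over a field is noetherian. -/
theorem isNoetherian_of_isProper_field {K : Type u} [Field K] {X : Scheme.{u}}
    (f : X ⟶ Spec (CommRingCat.of K)) [IsProper f] : IsNoetherian X := by
  haveI : IsLocallyNoetherian X := LocallyOfFiniteType.isLocallyNoetherian f
  haveI : CompactSpace X := by
    have h : QuasiCompact f := inferInstance
    exact (quasiCompact_iff_compactSpace (f := f)).mp h
  exact { }

section AE0

variable {k' : Type u} [Field k'] [IsAlgClosed k'] {A : Scheme.{u}} [IsIntegral A]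
  [IsNoetherian A] (a : A ⟶ Spec (CommRingCat.of k')) [IsProper a] [Smooth a]

/-- **(J8) algebraically equivalent to zero ⇒ degree zero.** -/
theorem deg_eq_zero_of_lbIsAlgEquivZero (R : RiemannData a) (L : LB A)
    (h : LBIsAlgEquivZero a L) : L.deg = 0 := by
  obtain ⟨T', h, hft, hgi, M, t₀, t₁, htriv, hiso⟩ := h
  have h0 := R.principalDegZero
  haveI : IsIntegral T' := GeometricallyIntegral.isIntegral_of_subsingleton h
  haveI : ConnectedSpace T' := inferInstance
  have H : IsPullback (pullback.fst a h) (pullback.snd a h) a h := IsPullback.of_hasPullback a h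
  let i : A ⟶ pullback a (𝟙 (Spec (CommRingCat.of k'))) :=
    pullback.lift (𝟙 A) a (by rw [Category.id_comp, Category.comp_id])
  have hi : ∀ t : SchemeHomOver (𝟙 (Spec (CommRingCat.of k'))) h,
      i ≫ baseChangeSnd a t = fibreIncl H t.1 t.2 := by
    intro t
    apply H.hom_ext
    · rw [fibreIncl_fst]
      simp only [i, baseChangeSnd, Category.assoc, pullback.lift_fst, Category.comp_id]
    · rw [fibreIncl_snd]
      simp only [i, baseChangeSnd, Category.assoc, pullback.lift_snd, pullback.lift_snd_assoc]
  -- the fibre over `t₀` is trivial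
  have e₀ : (M.pullback (fibreIncl H t₀.1 t₀.2)).deg = 0 := by
    rw [← hi t₀]
    exact LB.deg_of_isTrivial h0 (LB.isTrivial_pullback i htriv)
  -- the fibre over `t₁` is `L`
  have e₁ : (M.pullback (fibreIncl H t₁.1 t₁.2)).deg = L.deg := by
    rw [← hi t₁]
    have hfst : i ≫ pullback.fst a (𝟙 (Spec (CommRingCat.of k'))) = 𝟙 A := pullback.lift_fst _ _ _
    have h1 : LB.Iso ((M.pullback (baseChangeSnd a t₁)).pullback i)
        ((L.pullback (pullback.fst a (𝟙 _))).pullback i) := ⟨hiso.some.pullback i⟩
    have h2 : LB.Iso ((L.pullback (pullback.fst a (𝟙 (Spec (CommRingCat.of k'))))).pullback i) L := by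
      show LB.Iso (L.pullback (i ≫ pullback.fst a (𝟙 _))) L
      rw [hfst]
      exact ⟨LB.IsoData.pullbackId L⟩
    exact LB.deg_eq_of_iso h0 (h1.trans h2)
  rw [← e₁, deg_pullback_fibreIncl_eq R H M t₀.1 t₁.1 t₀.2 t₁.2, e₀]

end AE0

section Fibrewise

variable {k : Type u} [Field k] {C : Scheme.{u}} (c : C ⟶ Spec (CommRingCat.of k))

/-- the total space of a geometric fibre of `C ×ₖ T → T` is noetherian. -/
theorem isNoetherian_fibreAt [IsProper c] {T : Scheme.{u}} (t : T ⟶ Spec (CommRingCat.of k))
    {k' : Type u} [Field k'] (s : Spec (CommRingCat.of k') ⟶ T) :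
    IsNoetherian (pullback (pullback.snd c t) s) :=
  isNoetherian_of_isProper_field (fibreAt c t s)

/-- **fibrewise degree zero**: `M` has degree `0` on every fibre square
```
A ──p──▶ C ×ₖ T
│a          │
Spec k' ─s─▶ T
```
of `C ×ₖ T → T` over every geometric point `s` of `T` (`A` integral and noetherian, so that the
degree makes sense; for `c` a proper smooth connected curve over an algebraically closed field
`A` is automatically a proper smooth integral curve over `k'`, and the Prelude's fibre
`pullback (pullback.snd c t) s` is one such square). -/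
def LBFibrewiseDegZero {T : Scheme.{u}} (t : T ⟶ Spec (CommRingCat.of k))
    (M : LB (pullback c t)) : Prop :=
  ∀ (k' : Type u) [Field k'] [IsAlgClosed k'] (s : Spec (CommRingCat.of k') ⟶ T)
    (A : Scheme.{u}) [IsIntegral A] [IsNoetherian A] (p : A ⟶ pullback c t)
    (a : A ⟶ Spec (CommRingCat.of k')), IsPullback p a (pullback.snd c t) s →
    (M.pullback p).deg = 0

variable (ε : SchemeHomOver (𝟙 (Spec (CommRingCat.of k))) c)

/-- LB-level representability of the functor of rigidified line bundles of fibrewise degree `0`
(the output of (REP) + (P) + (H)). -/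
structure LBRepresentsDeg0 (D : RelativePic0Designation k c) : Type (u + 1) where
  P : LB (pullback c D.toBase)
  rig : LBRigidified c ε D.toBase P
  mem : LBFibrewiseDegZero c D.toBase P
  univ : ∀ {T : Scheme.{u}} (t : T ⟶ Spec (CommRingCat.of k)) (M : LB (pullback c t)),
    LBRigidified c ε t M → LBFibrewiseDegZero c t M →
    ∃! g : SchemeHomOver t D.toBase, LB.Iso (P.pullback (baseChangeSnd c g)) M
  zero : (P.pullback (baseChangeSnd c
    (⟨D.zeroSection, D.zeroSection_toBase⟩ : SchemeHomOver (𝟙 _) D.toBase))).IsTrivial

end Fibrewise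

end

end Fermat.Agent.JAC
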