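/-
PROJECT JAC (S25) — (J8e), helper4: `RiemannData` for every proper smooth integral curve over an
algebraically closed field (adapter of helper2's `exists_genus_LB`, `principalDegZero_curve`,
`exists_LB_deg`).
-/
import Mathlib
import Fermat.Agent.JAC.J8_helper4_AE0
import Fermat.Agent.JAC.CURVE_helper2_RRLB

set_option autoImplicit false
set_option linter.style.haveILetI false
open CategoryTheory CategoryTheory.Limits AlgebraicGeometry AlgebraicGeometry.RelPicard
  NeronModelInfra GoodReductionJacobian
universe u

namespace Fermat.Agent.JAC

open Fermat.Agent.AV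

noncomputable section

/-- **Riemann's theorem in the shape of `RiemannData`**, for a proper smooth integral curve over
an algebraically closed field. -/
theorem nonempty_riemannData {K : Type u} [Field K] [IsAlgClosed K] {C : Scheme.{u}}
    [IsIntegral C] [IsNoetherian C] (c : C ⟶ Spec (CommRingCat.of K)) [IsProper c]
    [SmoothOfRelativeDimension 1 c] : Nonempty (RiemannData c) := by
  obtain ⟨g, hg⟩ := exists_genus_LB c
  have key : ∀ L : LB C, L.deg + 1 - g ≤ (LB.h0 c L : ℤ) ∧
      (2 * (g : ℤ) - 2 < L.deg → (LB.h0 c L : ℤ) = L.deg + 1 - g) := by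
    intro L
    letI : Module K L.H0 := Module.compHom L.H0 (CP.constMap c)
    have hsmul : ∀ (a : K) (τ : L.H0), a • τ = sectionsStrMap c ⊤ a • τ := by
      intro a τ
      rw [sectionsStrMap_top]
      rfl
    obtain ⟨-, h1, h2, -⟩ := hg L hsmul
    exact ⟨h1, h2⟩
  exact ⟨{ genus := g
           principalDegZero := principalDegZero_curve c
           le_h0 := fun L => (key L).1
           h0_eq := fun L => (key L).2
           exists_deg_one := exists_LB_deg c 1 }⟩

end

end Fermat.Agent.JAC
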