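/-
PROJECT JAC (S25) — (J8h), helper4: invariance of `h⁰`, of the genus and of the DEGREE under
extension of the algebraically closed base field (and under isomorphisms of curves).

For a proper smooth integral curve `iX : X ⟶ Spec K` over an algebraically closed field and ANY
cartesian square `IsPullback q a iX y` with `y : Spec K' ⟶ Spec K` (`K'` algebraically closed,
`A` integral noetherian):
* `h0_pullback_of_univ` : `h⁰` of a fibre of a family with a universal presentation, at an
  arbitrary field-valued point and on an arbitrary fibre square, is `dim ker d(z)`;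
* `h0_pullback_of_isPullback_field` : `h⁰(A, q^*L) = h⁰(X, L)`;
* `genus_eq_of_isPullback_field`, **`deg_pullback_of_isPullback_field` : `(q^*L).deg = L.deg`**
  (no manipulation of Weil divisors: `h⁰`-invariance + Riemann on both curves).
-/
import Mathlib
import Fermat.Agent.JAC.J8_helper4_Riemann

set_option autoImplicit false
set_option linter.style.haveILetI false
open CategoryTheory CategoryTheory.Limits AlgebraicGeometry
universe u

namespace Fermat.Agent.JAC

open Fermat.Agent.AV

noncomputable section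

section MatrixRank

variable {B : Type*} [CommRing B] {K₁ K₂ : Type*} [Field K₁] [Field K₂] {n₁ n₀ : ℕ}

/-- the rank of a specialised matrix only depends on the kernel of the specialisation. -/
theorem rank_map_eq_of_ker_eq (d : Matrix (Fin n₁) (Fin n₀) B) (φ₁ : B →+* K₁) (φ₂ : B →+* K₂)
    (h : RingHom.ker φ₁ = RingHom.ker φ₂) : (d.map φ₁).rank = (d.map φ₂).rank := by
  have key : ∀ s : ℕ, (d.map φ₁).rank < s ↔ (d.map φ₂).rank < s := fun s => by
    rw [rank_map_lt_iff, rank_map_lt_iff, h]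
  apply le_antisymm
  · exact Nat.lt_succ_iff.mp ((key _).mpr (Nat.lt_succ_self _))
  · exact Nat.lt_succ_iff.mp ((key _).mp (Nat.lt_succ_self _))

theorem finrank_fibKer_eq_of_ker_eq (d : Matrix (Fin n₁) (Fin n₀) B) (φ₁ : B →+* K₁)
    (φ₂ : B →+* K₂) (h : RingHom.ker φ₁ = RingHom.ker φ₂) :
    Module.finrank K₁ (fibKer d φ₁) = Module.finrank K₂ (fibKer d φ₂) := by
  rw [finrank_fibKer, finrank_fibKer, rank_map_eq_of_ker_eq d φ₁ φ₂ h]

/-- upper semicontinuity of the fibre kernel, between different fields. -/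
theorem exists_minor_finrank_fibKer_le' (d : Matrix (Fin n₁) (Fin n₀) B) (φ₀ : B →+* K₁) :
    ∃ m : B, φ₀ m ≠ 0 ∧ ∀ (K₂ : Type u) [Field K₂] (φ : B →+* K₂), φ m ≠ 0 →
      Module.finrank K₂ (fibKer d φ) ≤ Module.finrank K₁ (fibKer d φ₀) := by
  obtain ⟨r, c, hrc⟩ := exists_minor_ne_zero_of_le_rank (d.map φ₀) le_rfl
  rw [map_minor] at hrc
  refine ⟨(d.submatrix r c).det, hrc, fun K₂ _ φ hφ => ?_⟩
  have h1 : (d.map φ₀).rank ≤ (d.map φ).rank :=
    le_rank_of_minor_ne_zero (d.map φ) r c (by rw [map_minor]; exact hφ)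
  rw [finrank_fibKer, finrank_fibKer]
  omega

end MatrixRank

section Univ

variable {K' : Type u} [Field K'] {T Y A : Scheme.{u}} {p₂ : Y ⟶ T} {L : LB Y}

/-- **`h⁰` of a fibre at an arbitrary field-valued point**, on an arbitrary fibre square, for a
family with a universal presentation. -/
theorem h0_pullback_of_univ (PU : CP.H0UnivPresentation p₂ L)
    (z : Spec (CommRingCat.of K') ⟶ T) (ψ : A ⟶ Y) (a : A ⟶ Spec (CommRingCat.of K'))
    (H' : IsPullback ψ a p₂ z) :
    LB.h0 a (L.pullback ψ) = Module.finrank K' (fibKer PU.d (CP.evalAt z)) := by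
  refine LB.h0_eq_finrank a _ ((PU.e z a ψ inferInstance H').trans
    ((CP.kerMapEquiv (CP.ΓSpecEquiv K') _).trans (CP.kerCongr (by ext i j; rfl)))) ?_
  intro c s
  apply Subtype.ext
  funext i
  have h := PU.e_smul z a ψ inferInstance H'
    ((Scheme.ΓSpecIso (CommRingCat.of K')).inv.hom c) s
  have h' := congrFun h i
  simp only [AddEquiv.trans_apply]
  show CP.ΓSpecEquiv K' ((PU.e z a ψ inferInstance H'
    (a.appTop.hom ((Scheme.ΓSpecIso (CommRingCat.of K')).inv.hom c) • s) :
      Fin PU.n₀ → Γ(Spec (CommRingCat.of K'), ⊤)) i) = _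
  rw [h']
  simp only [Pi.smul_apply, smul_eq_mul, map_mul]
  congr 1
  exact (CP.ΓSpecEquiv K').apply_symm_apply c

/-- evaluation at a point of the spectrum of a field is injective. -/
theorem ker_evalAt_eq_bot {K : Type u} [Field K] (z : Spec (CommRingCat.of K') ⟶
    Spec (CommRingCat.of K)) : RingHom.ker (CP.evalAt z) = ⊥ := by
  rw [Submodule.eq_bot_iff]
  intro x hx
  rw [RingHom.mem_ker] at hx
  let φ : K →+* K' := (CP.evalAt z).comp (CP.ΓSpecEquiv K).symm.toRingHom
  have h1 : φ (CP.ΓSpecEquiv K x) = 0 := by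
    show CP.evalAt z ((CP.ΓSpecEquiv K).symm (CP.ΓSpecEquiv K x)) = 0
    rw [RingEquiv.symm_apply_apply, hx]
  have h2 : CP.ΓSpecEquiv K x = 0 := by
    rw [← map_zero φ] at h1
    exact φ.injective h1
  rw [← map_zero (CP.ΓSpecEquiv K)] at h2
  exact (CP.ΓSpecEquiv K).injective h2

end Univ

section H0

variable {K : Type u} [Field K] [IsAlgClosed K] {X : Scheme.{u}} [IsIntegral X]
  (iX : X ⟶ Spec (CommRingCat.of K)) [IsProper iX]

/-- **`h⁰` is invariant under extension of the base field** (any fibre square). -/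
theorem h0_pullback_of_isPullback_field [Smooth iX] {K' : Type u} [Field K']
    (y : Spec (CommRingCat.of K') ⟶ Spec (CommRingCat.of K)) {A : Scheme.{u}} (q : A ⟶ X)
    (a : A ⟶ Spec (CommRingCat.of K')) (H : IsPullback q a iX y) (L : LB X) :
    LB.h0 a (L.pullback q) = LB.h0 iX L := by
  obtain ⟨PU⟩ := CP.hasH0UnivPresentations_of_isProper_of_smooth iX (𝟙 _) (𝟙 X) iX
    (IsPullback.id_horiz iX) inferInstance L
  have h1 := h0_pullback_of_univ PU y q a H
  have h2 := h0_pullback_of_univ PU (𝟙 _) (𝟙 X) iX (IsPullback.id_horiz iX)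
  have h3 : LB.h0 iX (L.pullback (𝟙 X)) = LB.h0 iX L := rfl
  rw [h1, ← h3, h2]
  exact finrank_fibKer_eq_of_ker_eq _ _ _ (by rw [ker_evalAt_eq_bot, ker_evalAt_eq_bot])

/-- a trivial line bundle on a proper integral scheme over an algebraically closed field has a
one-dimensional space of sections. -/
theorem h0_eq_one_of_isTrivial {L : LB X} (h : L.IsTrivial) : LB.h0 iX L = 1 := by
  obtain ⟨τ, hτ⟩ := h
  letI : Module K L.H0 := Module.compHom L.H0 (CP.constMap iX)
  show Module.finrank K L.H0 = 1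
  have hτ0 : τ ≠ 0 := LB.ne_zero_of_isUnit τ hτ
  refine finrank_eq_one τ hτ0 (fun w => ?_)
  obtain ⟨r, hr⟩ := LB.exists_smul_eq_of_isUnit τ hτ w
  obtain ⟨c, rfl⟩ := constMap_surjective (iX := iX) r
  exact ⟨c, hr.symm⟩

/-- on a proper smooth curve, a line bundle of degree `≤ 0` has at most one section. -/
theorem h0_le_one_of_deg_nonpos [IsNoetherian X] [SmoothOfRelativeDimension 1 iX] (L : LB X)
    (hL : L.deg ≤ 0) : LB.h0 iX L ≤ 1 := by
  have h0 := principalDegZero_curve iX
  by_cases h : ∃ s : L.H0, s ≠ 0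
  · obtain ⟨s, hs⟩ := h
    have hd : L.deg = 0 := le_antisymm hL (LB.deg_nonneg_of_section h0 L s hs)
    have := LB.isTrivial_of_deg_eq_zero_of_section h0 (hartogsProp_curve iX) L s hs hd
    rw [h0_eq_one_of_isTrivial iX this]
  · have h : ∀ s : L.H0, s = 0 := fun s => by_contra fun hs => h ⟨s, hs⟩
    letI : Module K L.H0 := Module.compHom L.H0 (CP.constMap iX)
    haveI : Subsingleton L.H0 := ⟨fun a b => by rw [h a, h b]⟩
    show Module.finrank K L.H0 ≤ 1
    rw [Module.finrank_zero_of_subsingleton]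
    exact zero_le_one

end H0

section BaseChange

variable {K : Type u} [Field K] [IsAlgClosed K] {X : Scheme.{u}} [IsIntegral X] [IsNoetherian X]
  (iX : X ⟶ Spec (CommRingCat.of K)) [IsProper iX] [SmoothOfRelativeDimension 1 iX]
  {K' : Type u} [Field K'] [IsAlgClosed K']
  (y : Spec (CommRingCat.of K') ⟶ Spec (CommRingCat.of K)) {A : Scheme.{u}} [IsIntegral A]
  [IsNoetherian A] (q : A ⟶ X) (a : A ⟶ Spec (CommRingCat.of K')) (H : IsPullback q a iX y)

include H in
/-- **the genus and the degree are invariant under extension of the algebraically closed base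
field**, for arbitrary Riemann data on both sides. -/
theorem genus_eq_and_deg_pullback_eq (R : RiemannData iX) (R' : RiemannData a) :
    R'.genus = R.genus ∧ ∀ L : LB X, (L.pullback q).deg = L.deg := by
  haveI : Smooth iX := SmoothOfRelativeDimension.smooth 1 iX
  haveI : IsProper a := isProper_of_isPullback_field iX y q a H
  haveI : SmoothOfRelativeDimension 1 a :=
    smoothOfRelativeDimension_of_isPullback_field iX y q a H 1
  have h0 := R.principalDegZero
  have h0' := R'.principalDegZero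
  obtain ⟨E, hE⟩ := R.exists_deg_one
  -- the pulled-back degree, as a homomorphism
  let δ' : PicGroup X →+ ℤ := (degHom h0').comp (PicGroup.map q)
  have hδ' : ∀ L : LB X, δ' (PicGroup.mk L) = (L.pullback q).deg := fun L => rfl
  obtain ⟨d, hd⟩ : ∃ d : ℤ, d = δ' (PicGroup.mk E) := ⟨_, rfl⟩
  obtain ⟨g, hg⟩ : ∃ g : ℤ, g = (R.genus : ℤ) := ⟨_, rfl⟩
  obtain ⟨g', hg'⟩ : ∃ g' : ℤ, g' = (R'.genus : ℤ) := ⟨_, rfl⟩
  have hg0 : 0 ≤ g := by rw [hg]; exact Int.natCast_nonneg _
  have hg0' : 0 ≤ g' := by rw [hg']; exact Int.natCast_nonneg _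
  -- degrees of the twists
  have htw : ∀ (L : LB X) (N : ℕ), (L.tensor (E.pow N)).deg = L.deg + N := by
    intro L N
    rw [LB.deg_tensor h0, LB.deg_pow h0, hE, mul_one]
  have htw' : ∀ (L : LB X) (N : ℕ),
      ((L.tensor (E.pow N)).pullback q).deg = (L.pullback q).deg + N * d := by
    intro L N
    rw [← hδ', ← hδ', PicGroup.mk_tensor, map_add, LB.mk_pow, map_nsmul, nsmul_eq_mul, hd]
  have hh : ∀ M : LB X, LB.h0 a (M.pullback q) = LB.h0 iX M :=
    h0_pullback_of_isPullback_field iX y q a H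
  -- Riemann on both sides for the twists of `L`
  have hX : ∀ (L : LB X) (N : ℕ), 2 * g - 2 < L.deg + N →
      (LB.h0 iX (L.tensor (E.pow N)) : ℤ) = L.deg + N + 1 - g := by
    intro L N hN
    rw [hg] at hN ⊢
    rw [R.h0_eq _ (by rw [htw]; exact hN), htw]
  have hA_le : ∀ (L : LB X) (N : ℕ),
      (L.pullback q).deg + N * d + 1 - g' ≤ (LB.h0 iX (L.tensor (E.pow N)) : ℤ) := by
    intro L N
    rw [hg', ← hh, ← htw']
    exact R'.le_h0 _
  have hA_eq : ∀ (L : LB X) (N : ℕ), 2 * g' - 2 < (L.pullback q).deg + N * d →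
      (LB.h0 iX (L.tensor (E.pow N)) : ℤ) = (L.pullback q).deg + N * d + 1 - g' := by
    intro L N hN
    rw [hg'] at hN ⊢
    rw [← hh, R'.h0_eq _ (by rw [htw']; exact hN), htw']
  have htriv : ((LB.trivial X).pullback q).deg = 0 := by
    rw [← hδ', PicGroup.mk_trivial, map_zero]
  have htriv0 : (LB.trivial X).deg = 0 := LB.deg_trivial h0
  -- `d ≥ 1`
  have hd1 : 1 ≤ d := by
    by_contra hlt
    have hd0 : d ≤ 0 := by omega
    obtain ⟨N, hN⟩ : ∃ N : ℕ, (N : ℤ) = 2 * g + 1 := ⟨(2 * g + 1).toNat, by omega⟩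
    have h1 := hX (LB.trivial X) N (by rw [htriv0]; omega)
    have h2 : (((LB.trivial X).tensor (E.pow N)).pullback q).deg ≤ 0 := by
      rw [htw', htriv]
      have : (N : ℤ) * d ≤ 0 := mul_nonpos_of_nonneg_of_nonpos (Int.natCast_nonneg _) hd0
      omega
    have h3 := h0_le_one_of_deg_nonpos a _ h2
    rw [hh] at h3
    have h3' : (LB.h0 iX ((LB.trivial X).tensor (E.pow N)) : ℤ) ≤ 1 := by exact_mod_cast h3
    rw [h1, htriv0] at h3'
    omega
  -- `d ≤ 1`
  have hd2 : d ≤ 1 := by
    by_contra hlt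
    have hd2 : 2 ≤ d := by omega
    obtain ⟨N, hN⟩ : ∃ N : ℕ, (N : ℤ) = 2 * g + 1 + g' := ⟨(2 * g + 1 + g').toNat, by omega⟩
    have h1 := hX (LB.trivial X) N (by rw [htriv0]; omega)
    have h2 := hA_le (LB.trivial X) N
    rw [h1, htriv, htriv0] at h2
    have : (N : ℤ) * 2 ≤ N * d := mul_le_mul_of_nonneg_left hd2 (Int.natCast_nonneg _)
    omega
  have hd_eq : d = 1 := le_antisymm hd2 hd1
  subst hd_eq
  -- the genus
  have hgen : g' = g := by
    obtain ⟨N, hN⟩ : ∃ N : ℕ, (N : ℤ) = 2 * g + 2 * g' + 1 :=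
      ⟨(2 * g + 2 * g' + 1).toNat, by omega⟩
    have h1 := hX (LB.trivial X) N (by rw [htriv0]; omega)
    have h2 := hA_eq (LB.trivial X) N (by rw [htriv]; omega)
    rw [h1, htriv, htriv0] at h2
    omega
  refine ⟨by exact_mod_cast (hg'.symm.trans (hgen.trans hg)), fun L => ?_⟩
  obtain ⟨N, hN⟩ : ∃ N : ℕ, (N : ℤ) = 2 * g + 1 + |L.deg| + |(L.pullback q).deg| :=
    ⟨(2 * g + 1 + |L.deg| + |(L.pullback q).deg|).toNat, by
      have := abs_nonneg L.deg
      have := abs_nonneg (L.pullback q).deg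
      omega⟩
  have ha1 := neg_abs_le L.deg
  have ha2 := neg_abs_le (L.pullback q).deg
  have ha3 := abs_nonneg L.deg
  have ha4 := abs_nonneg (L.pullback q).deg
  have h1 := hX L N (by omega)
  have h2 := hA_eq L N (by omega)
  rw [h1] at h2
  omega

include H in
/-- **(A1) invariance of the degree** under extension of the algebraically closed base field and
under isomorphisms: for ANY cartesian square `IsPullback q a iX y`. -/
theorem deg_pullback_of_isPullback_field (L : LB X) : (L.pullback q).deg = L.deg := by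
  haveI : IsProper a := isProper_of_isPullback_field iX y q a H
  haveI : SmoothOfRelativeDimension 1 a :=
    smoothOfRelativeDimension_of_isPullback_field iX y q a H 1
  obtain ⟨R⟩ := nonempty_riemannData iX
  obtain ⟨R'⟩ := nonempty_riemannData a
  exact (genus_eq_and_deg_pullback_eq iX y q a H R R').2 L

include H in
theorem genus_eq_of_isPullback_field (R : RiemannData iX) (R' : RiemannData a) :
    R'.genus = R.genus :=
  (genus_eq_and_deg_pullback_eq iX y q a H R R').1

end BaseChange

end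

end Fermat.Agent.JAC
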