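/-
PROJECT JAC (S25) — (J8i), helper4: the degree of the fibres of a line bundle `M` on `C ×ₖ T` is
LOCALLY CONSTANT on `T`, at ALL geometric points and on ALL fibre squares (`T` an arbitrary
`k`-scheme; `c : C ⟶ Spec k` a proper smooth integral curve over an algebraically closed field).

* `deg_pullback_fst_of_fibreSquare` : bundles pulled back from `C` keep their degree on every
  geometric fibre square;
* `exists_opens_squareDeg_le`, `exists_opens_squareDeg_eq` : semicontinuity / local constancy;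
* `degZeroLocus c t M : T.Opens`, `mem_degZeroLocus_iff` (for ANY fibre square over `s`:
  `s(pt) ∈ degZeroLocus ↔ deg = 0`), `isClosed_degZeroLocus`,
  `lbFibrewiseDegZero_degZeroLocus` (the restriction of `M` to the locus lies in the cut);
* `lbFibrewiseDegZero_of_connectedSpace` : on a connected base, degree zero on ONE fibre square
  implies `LBFibrewiseDegZero`; `lbFibrewiseDegZero_of_connectedSpace_of_kpoint`.
-/
import Mathlib
import Fermat.Agent.JAC.J8_helper4_DegBC
import Fermat.Agent.JAC.J8_helper4_DegZero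

set_option autoImplicit false
set_option linter.style.haveILetI false
open CategoryTheory CategoryTheory.Limits AlgebraicGeometry AlgebraicGeometry.RelPicard
  NeronModelInfra GoodReductionJacobian TopologicalSpace
universe u

namespace Fermat.Agent.JAC

open Fermat.Agent.AV

noncomputable section

variable {k : Type u} [Field k] [IsAlgClosed k] {C : Scheme.{u}} [IsIntegral C]
  (c : C ⟶ Spec (CommRingCat.of k)) [IsProper c] [SmoothOfRelativeDimension 1 c]

section Square

variable {T : Scheme.{u}} {t : T ⟶ Spec (CommRingCat.of k)} {k' : Type u} [Field k']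
  [IsAlgClosed k'] {s : Spec (CommRingCat.of k') ⟶ T} {A : Scheme.{u}} [IsIntegral A]
  [IsNoetherian A] {p : A ⟶ pullback c t} {a : A ⟶ Spec (CommRingCat.of k')}

section

variable [IsNoetherian C]

/-- line bundles pulled back from `C` keep their degree on every geometric fibre square. -/
theorem deg_pullback_fst_of_fibreSquare (H : IsPullback p a (pullback.snd c t) s) (E : LB C) :
    ((E.pullback (pullback.fst c t)).pullback p).deg = E.deg :=
  deg_pullback_of_isPullback_field c (s ≫ t) (p ≫ pullback.fst c t) a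
    (isPullback_of_fibreSquare c H) E

/-- the genus of every geometric fibre is the genus of `C`. -/
theorem genus_eq_of_fibreSquare (H : IsPullback p a (pullback.snd c t) s)
    (R : RiemannData c) (RA : RiemannData a) : RA.genus = R.genus :=
  genus_eq_of_isPullback_field c (s ≫ t) (p ≫ pullback.fst c t) a
    (isPullback_of_fibreSquare c H) R RA

end

omit [IsAlgClosed k] [IsIntegral C] in
theorem deg_pullback_inv_of_fibreSquare (H : IsPullback p a (pullback.snd c t) s)
    (M : LB (pullback c t)) : (M.inv.pullback p).deg = -(M.pullback p).deg := by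
  rw [← squareDeg_mk c H, ← squareDeg_mk c H, PicGroup.mk_inv, map_neg]

end Square

section Semicont

/-- **semicontinuity of the fibre degree, affine base.** -/
theorem exists_opens_squareDeg_le_of_isAffine {T : Scheme.{u}} [IsAffine T]
    (t : T ⟶ Spec (CommRingCat.of k)) (M : LB (pullback c t))
    {k₀ : Type u} [Field k₀] [IsAlgClosed k₀] (s₀ : Spec (CommRingCat.of k₀) ⟶ T)
    {A₀ : Scheme.{u}} [IsIntegral A₀] [IsNoetherian A₀] (p₀ : A₀ ⟶ pullback c t)
    (a₀ : A₀ ⟶ Spec (CommRingCat.of k₀)) (H₀ : IsPullback p₀ a₀ (pullback.snd c t) s₀) :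
    ∃ V : T.Opens, s₀ (ptK k₀) ∈ V ∧
      ∀ (k' : Type u) [Field k'] [IsAlgClosed k'] (s : Spec (CommRingCat.of k') ⟶ T)
        (A : Scheme.{u}) [IsIntegral A] [IsNoetherian A] (p : A ⟶ pullback c t)
        (a : A ⟶ Spec (CommRingCat.of k')), IsPullback p a (pullback.snd c t) s →
        s (ptK k') ∈ V → (M.pullback p).deg ≤ (M.pullback p₀).deg := by
  haveI : IsNoetherian C := isNoetherian_of_isProper_field c
  haveI : Smooth c := SmoothOfRelativeDimension.smooth 1 c
  obtain ⟨R⟩ := nonempty_riemannData c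
  obtain ⟨E, hE⟩ := R.exists_deg_one
  -- twist to large degree
  let N : ℕ := (2 * (R.genus : ℤ) - 1 - (M.pullback p₀).deg).toNat
  have hN : 2 * (R.genus : ℤ) - 2 < (M.pullback p₀).deg + N := by
    have := Int.self_le_toNat (2 * (R.genus : ℤ) - 1 - (M.pullback p₀).deg)
    omega
  let M' : LB (pullback c t) := M.tensor ((E.pow N).pullback (pullback.fst c t))
  have hM' : ∀ (k' : Type u) [Field k'] [IsAlgClosed k'] (s : Spec (CommRingCat.of k') ⟶ T)
      (A : Scheme.{u}) [IsIntegral A] [IsNoetherian A] (p : A ⟶ pullback c t)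
      (a : A ⟶ Spec (CommRingCat.of k')), IsPullback p a (pullback.snd c t) s →
      (M'.pullback p).deg = (M.pullback p).deg + N := by
    intro k' _ _ s A _ _ p a H
    rw [← squareDeg_mk c H M', PicGroup.mk_tensor, map_add, squareDeg_mk, squareDeg_mk,
      deg_pullback_fst_of_fibreSquare c H, LB.deg_pow R.principalDegZero, hE, mul_one]
  obtain ⟨PU⟩ := CP.hasH0UnivPresentations_of_isProper_of_smooth c t (pullback.fst c t)
    (pullback.snd c t) (IsPullback.of_hasPullback c t) inferInstance M'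
  obtain ⟨m, hm₀, hm⟩ := exists_minor_finrank_fibKer_le' PU.d (CP.evalAt s₀)
  refine ⟨T.basicOpen m, (evalAt_ne_zero_iff s₀ m).mp hm₀, ?_⟩
  intro k' _ _ s A _ _ p a H hsV
  haveI := isProper_of_fibreSquare c H
  haveI := smoothOfRelativeDimension_of_fibreSquare c H
  haveI := isProper_of_fibreSquare c H₀
  haveI := smoothOfRelativeDimension_of_fibreSquare c H₀
  obtain ⟨RA⟩ := nonempty_riemannData a
  obtain ⟨RA₀⟩ := nonempty_riemannData a₀
  have hgA : RA.genus = R.genus := genus_eq_of_fibreSquare c H R RA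
  have hgA₀ : RA₀.genus = R.genus := genus_eq_of_fibreSquare c H₀ R RA₀
  have h1 := RA.le_h0 (M'.pullback p)
  have h2 := RA₀.h0_eq (M'.pullback p₀) (by rw [hM' k₀ s₀ A₀ p₀ a₀ H₀, hgA₀]; exact hN)
  have h3 : LB.h0 a (M'.pullback p) ≤ LB.h0 a₀ (M'.pullback p₀) := by
    rw [h0_pullback_of_univ PU s p a H, h0_pullback_of_univ PU s₀ p₀ a₀ H₀]
    exact hm k' (CP.evalAt s) ((evalAt_ne_zero_iff s m).mpr hsV)
  rw [hM' k' s A p a H, hgA] at h1
  rw [hM' k₀ s₀ A₀ p₀ a₀ H₀, hgA₀] at h2
  have h3' : (LB.h0 a (M'.pullback p) : ℤ) ≤ LB.h0 a₀ (M'.pullback p₀) := by exact_mod_cast h3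
  omega

/-- **semicontinuity of the fibre degree** at all geometric points, arbitrary base. -/
theorem exists_opens_squareDeg_le {T : Scheme.{u}}
    (t : T ⟶ Spec (CommRingCat.of k)) (M : LB (pullback c t))
    {k₀ : Type u} [Field k₀] [IsAlgClosed k₀] (s₀ : Spec (CommRingCat.of k₀) ⟶ T)
    {A₀ : Scheme.{u}} [IsIntegral A₀] [IsNoetherian A₀] (p₀ : A₀ ⟶ pullback c t)
    (a₀ : A₀ ⟶ Spec (CommRingCat.of k₀)) (H₀ : IsPullback p₀ a₀ (pullback.snd c t) s₀) :
    ∃ V : T.Opens, s₀ (ptK k₀) ∈ V ∧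
      ∀ (k' : Type u) [Field k'] [IsAlgClosed k'] (s : Spec (CommRingCat.of k') ⟶ T)
        (A : Scheme.{u}) [IsIntegral A] [IsNoetherian A] (p : A ⟶ pullback c t)
        (a : A ⟶ Spec (CommRingCat.of k')), IsPullback p a (pullback.snd c t) s →
        s (ptK k') ∈ V → (M.pullback p).deg ≤ (M.pullback p₀).deg := by
  obtain ⟨V₀, hV₀, hxV₀⟩ := exists_isAffineOpen_mem T (s₀ (ptK k₀))
  haveI : IsAffine V₀.toScheme := hV₀
  let ψ : SchemeHomOver (V₀.ι ≫ t) t := ⟨V₀.ι, rfl⟩
  obtain ⟨s₀', hs₀'⟩ := exists_kpoint_lift V₀ s₀ hxV₀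
  obtain ⟨p₀', hp₀', H₀'⟩ := exists_lift_fibreSquare c ψ s₀' hs₀' H₀
  obtain ⟨V', hV'mem, hV'⟩ := exists_opens_squareDeg_le_of_isAffine c (V₀.ι ≫ t)
    (M.pullback (baseChangeSnd c ψ)) s₀' p₀' a₀ H₀'
  have key : ∀ {A : Scheme.{u}} (p' : A ⟶ pullback c (V₀.ι ≫ t)) (p : A ⟶ pullback c t),
      p' ≫ baseChangeSnd c ψ = p →
      (M.pullback (baseChangeSnd c ψ)).pullback p' = M.pullback p := by
    intro A p' p hp
    show M.pullback (p' ≫ baseChangeSnd c ψ) = M.pullback p
    rw [hp]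
  refine ⟨V₀.ι ''ᵁ V', ⟨s₀' (ptK k₀), hV'mem, by rw [← hs₀']; rfl⟩, ?_⟩
  intro k' _ _ s A _ _ p a H hsV
  have hle : V₀.ι ''ᵁ V' ≤ V₀ := by
    have := V₀.ι.image_le_opensRange V'
    rwa [Scheme.Opens.opensRange_ι] at this
  obtain ⟨s', hs'⟩ := exists_kpoint_lift V₀ s (hle hsV)
  obtain ⟨p', hp', H'⟩ := exists_lift_fibreSquare c ψ s' hs' H
  have hs'V : s' (ptK k') ∈ V' := by
    obtain ⟨z, hz, hzeq⟩ := hsV
    have h1 : V₀.ι (s' (ptK k')) = s (ptK k') := by rw [← hs']; rfl
    have : z = s' (ptK k') := V₀.ι.isOpenEmbedding.injective (hzeq.trans h1.symm)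
    rwa [← this]
  have h := hV' k' s' A p' a H' hs'V
  rw [key p' p hp', key p₀' p₀ hp₀'] at h
  exact h

/-- **local constancy of the fibre degree** at all geometric points and on all fibre squares. -/
theorem exists_opens_squareDeg_eq {T : Scheme.{u}}
    (t : T ⟶ Spec (CommRingCat.of k)) (M : LB (pullback c t))
    {k₀ : Type u} [Field k₀] [IsAlgClosed k₀] (s₀ : Spec (CommRingCat.of k₀) ⟶ T)
    {A₀ : Scheme.{u}} [IsIntegral A₀] [IsNoetherian A₀] (p₀ : A₀ ⟶ pullback c t)
    (a₀ : A₀ ⟶ Spec (CommRingCat.of k₀)) (H₀ : IsPullback p₀ a₀ (pullback.snd c t) s₀) :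
    ∃ V : T.Opens, s₀ (ptK k₀) ∈ V ∧
      ∀ (k' : Type u) [Field k'] [IsAlgClosed k'] (s : Spec (CommRingCat.of k') ⟶ T)
        (A : Scheme.{u}) [IsIntegral A] [IsNoetherian A] (p : A ⟶ pullback c t)
        (a : A ⟶ Spec (CommRingCat.of k')), IsPullback p a (pullback.snd c t) s →
        s (ptK k') ∈ V → (M.pullback p).deg = (M.pullback p₀).deg := by
  obtain ⟨V, hV₀, hV⟩ := exists_opens_squareDeg_le c t M s₀ p₀ a₀ H₀
  obtain ⟨V', hV₀', hV'⟩ := exists_opens_squareDeg_le c t M.inv s₀ p₀ a₀ H₀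
  refine ⟨V ⊓ V', ⟨hV₀, hV₀'⟩, ?_⟩
  intro k' _ _ s A _ _ p a H hsV
  have h1 := hV k' s A p a H hsV.1
  have h2 := hV' k' s A p a H hsV.2
  rw [deg_pullback_inv_of_fibreSquare c H, deg_pullback_inv_of_fibreSquare c H₀] at h2
  omega

end Semicont

section Locus

variable {T : Scheme.{u}} (t : T ⟶ Spec (CommRingCat.of k)) (M : LB (pullback c t))

/-- **the degree-zero locus**: the largest open of `T` over which all the geometric fibres of `M`
have degree zero. -/
def degZeroLocus : T.Opens :=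
  sSup {V : T.Opens | ∀ (k' : Type u) [Field k'] [IsAlgClosed k']
    (s : Spec (CommRingCat.of k') ⟶ T) (A : Scheme.{u}) [IsIntegral A] [IsNoetherian A]
    (p : A ⟶ pullback c t) (a : A ⟶ Spec (CommRingCat.of k')),
    IsPullback p a (pullback.snd c t) s → s (ptK k') ∈ V → (M.pullback p).deg = 0}

/-- **a geometric point lies in the degree-zero locus iff `M` has degree zero on ONE (equivalently
EVERY) fibre square over it.** -/
theorem mem_degZeroLocus_iff {k' : Type u} [Field k'] [IsAlgClosed k']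
    {s : Spec (CommRingCat.of k') ⟶ T} {A : Scheme.{u}} [IsIntegral A] [IsNoetherian A]
    {p : A ⟶ pullback c t} {a : A ⟶ Spec (CommRingCat.of k')}
    (H : IsPullback p a (pullback.snd c t) s) :
    s (ptK k') ∈ degZeroLocus c t M ↔ (M.pullback p).deg = 0 := by
  constructor
  · intro h
    obtain ⟨V, hV, hsV⟩ := Opens.mem_sSup.mp h
    exact hV k' s A p a H hsV
  · intro h
    obtain ⟨V, hsV, hV⟩ := exists_opens_squareDeg_eq c t M s p a H
    refine Opens.mem_sSup.mpr ⟨V, ?_, hsV⟩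
    intro k'' _ _ s'' A'' _ _ p'' a'' H'' hs''
    rw [hV k'' s'' A'' p'' a'' H'' hs'', h]

/-- every point of `T` carries a geometric point with a fibre square. -/
theorem exists_fibreSquare_over (x : T) :
    ∃ (k' : Type u) (_ : Field k') (_ : IsAlgClosed k') (s : Spec (CommRingCat.of k') ⟶ T)
      (A : Scheme.{u}) (_ : IsIntegral A) (_ : IsNoetherian A) (p : A ⟶ pullback c t)
      (a : A ⟶ Spec (CommRingCat.of k')), IsPullback p a (pullback.snd c t) s ∧
        s (ptK k') = x := by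
  haveI : Smooth c := SmoothOfRelativeDimension.smooth 1 c
  let κ := T.residueField x
  let k' := AlgebraicClosure κ
  let s : Spec (CommRingCat.of k') ⟶ T :=
    Spec.map (CommRingCat.ofHom (algebraMap κ k')) ≫ T.fromSpecResidueField x
  refine ⟨k', inferInstance, inferInstance, s, pullback (pullback.snd c t) s,
    isIntegral_fibreAt c t s, isNoetherian_fibreAt c t s, pullback.fst _ _, pullback.snd _ _,
    IsPullback.of_hasPullback _ _, ?_⟩
  have h : s (ptK k') ∈ Set.range (T.fromSpecResidueField x) := ⟨_, rfl⟩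
  rw [Scheme.range_fromSpecResidueField] at h
  exact h

/-- the degree-zero locus is closed. -/
theorem isClosed_degZeroLocus : IsClosed (degZeroLocus c t M : Set T) := by
  rw [← isOpen_compl_iff, isOpen_iff_forall_mem_open]
  intro x hx
  obtain ⟨k₀, _, _, s₀, A₀, _, _, p₀, a₀, H₀, hs₀⟩ := exists_fibreSquare_over c t x
  obtain ⟨V, hsV, hV⟩ := exists_opens_squareDeg_eq c t M s₀ p₀ a₀ H₀
  refine ⟨V, ?_, V.2, hs₀ ▸ hsV⟩
  intro y hyV hyU
  obtain ⟨k₁, _, _, s₁, A₁, _, _, p₁, a₁, H₁, hs₁⟩ := exists_fibreSquare_over c t y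
  have h1 := hV k₁ s₁ A₁ p₁ a₁ H₁ (hs₁ ▸ hyV)
  have h2 : (M.pullback p₁).deg = 0 := (mem_degZeroLocus_iff c t M H₁).mp (hs₁ ▸ hyU)
  apply hx
  rw [← hs₀]
  exact (mem_degZeroLocus_iff c t M H₀).mpr (by rw [← h1, h2])

omit [IsAlgClosed k] [IsIntegral C] [IsProper c] [SmoothOfRelativeDimension 1 c] in
/-- the restriction of `M` to an open `U` of `T` all of whose geometric fibres have degree zero
lies in the cut. -/
theorem lbFibrewiseDegZero_restrict (U : T.Opens)
    (hU : ∀ (k' : Type u) [Field k'] [IsAlgClosed k'] (s : Spec (CommRingCat.of k') ⟶ T)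
      (A : Scheme.{u}) [IsIntegral A] [IsNoetherian A] (p : A ⟶ pullback c t)
      (a : A ⟶ Spec (CommRingCat.of k')), IsPullback p a (pullback.snd c t) s →
      s (ptK k') ∈ U → (M.pullback p).deg = 0) :
    LBFibrewiseDegZero c (U.ι ≫ t)
      (M.pullback (baseChangeSnd c (⟨U.ι, rfl⟩ : SchemeHomOver (U.ι ≫ t) t))) := by
  intro k' _ _ s' A _ _ p a H
  have h := hU k' (s' ≫ U.ι) A (p ≫ baseChangeSnd c (⟨U.ι, rfl⟩ : SchemeHomOver (U.ι ≫ t) t)) a
    (H.paste_horiz (isPullback_baseChangeSnd c (⟨U.ι, rfl⟩ : SchemeHomOver (U.ι ≫ t) t)))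
    (s' (ptK k')).2
  exact h

/-- **the restriction of `M` to its degree-zero locus lies in the cut.** -/
theorem lbFibrewiseDegZero_degZeroLocus :
    LBFibrewiseDegZero c ((degZeroLocus c t M).ι ≫ t)
      (M.pullback (baseChangeSnd c
        (⟨(degZeroLocus c t M).ι, rfl⟩ : SchemeHomOver ((degZeroLocus c t M).ι ≫ t) t))) :=
  lbFibrewiseDegZero_restrict c t M _ fun _ _ _ _ _ _ _ _ _ H hs =>
    (mem_degZeroLocus_iff c t M H).mp hs

/-- the cut is the condition `degZeroLocus = ⊤`. -/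
theorem lbFibrewiseDegZero_iff_degZeroLocus_eq_top :
    LBFibrewiseDegZero c t M ↔ degZeroLocus c t M = ⊤ := by
  constructor
  · intro h
    rw [eq_top_iff]
    intro x _
    obtain ⟨k₀, _, _, s₀, A₀, _, _, p₀, a₀, H₀, hs₀⟩ := exists_fibreSquare_over c t x
    rw [← hs₀]
    exact (mem_degZeroLocus_iff c t M H₀).mpr (h k₀ s₀ A₀ p₀ a₀ H₀)
  · intro h k' _ _ s A _ _ p a H
    exact (mem_degZeroLocus_iff c t M H).mp (by rw [h]; trivial)

/-- **on a connected base, degree zero on one geometric fibre square implies the cut.** -/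
theorem lbFibrewiseDegZero_of_connectedSpace [ConnectedSpace T]
    {k₀ : Type u} [Field k₀] [IsAlgClosed k₀] {s₀ : Spec (CommRingCat.of k₀) ⟶ T}
    {A₀ : Scheme.{u}} [IsIntegral A₀] [IsNoetherian A₀] {p₀ : A₀ ⟶ pullback c t}
    {a₀ : A₀ ⟶ Spec (CommRingCat.of k₀)} (H₀ : IsPullback p₀ a₀ (pullback.snd c t) s₀)
    (h₀ : (M.pullback p₀).deg = 0) : LBFibrewiseDegZero c t M := by
  rw [lbFibrewiseDegZero_iff_degZeroLocus_eq_top]
  have hclopen : IsClopen (degZeroLocus c t M : Set T) :=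
    ⟨isClosed_degZeroLocus c t M, (degZeroLocus c t M).2⟩
  have hne : (degZeroLocus c t M : Set T).Nonempty :=
    ⟨_, (mem_degZeroLocus_iff c t M H₀).mpr h₀⟩
  exact SetLike.coe_injective (hclopen.eq_univ hne)

/-- the same, the fibre being taken at a `k`-point `y` of `T` and identified with `C` through a
section `i` of `C ×ₖ Spec k ⟶ C` (e.g. helper6's `J6.toFibre c`). -/
theorem lbFibrewiseDegZero_of_connectedSpace_of_kpoint [IsNoetherian C] [ConnectedSpace T]
    (y : SchemeHomOver (𝟙 (Spec (CommRingCat.of k))) t)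
    (i : C ⟶ pullback c (𝟙 (Spec (CommRingCat.of k))))
    (hi : i ≫ pullback.fst c (𝟙 _) = 𝟙 C)
    (h₀ : ((M.pullback (baseChangeSnd c y)).pullback i).deg = 0) :
    LBFibrewiseDegZero c t M := by
  have hsnd : i ≫ pullback.snd c (𝟙 _) = c := by
    have := pullback.condition (f := c) (g := 𝟙 (Spec (CommRingCat.of k)))
    rw [Category.comp_id] at this
    rw [← this, ← Category.assoc, hi, Category.id_comp]
  haveI : IsIso (i ≫ pullback.fst c (𝟙 (Spec (CommRingCat.of k)))) := by
    rw [hi]; infer_instance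
  haveI : IsIso i := IsIso.of_isIso_comp_right i (pullback.fst c (𝟙 _))
  have H : IsPullback i c (pullback.snd c (𝟙 (Spec (CommRingCat.of k)))) (𝟙 _) :=
    IsPullback.of_horiz_isIso ⟨by rw [hsnd, Category.comp_id]⟩
  have H' := H.paste_horiz (isPullback_baseChangeSnd c y)
  rw [Category.id_comp] at H'
  exact lbFibrewiseDegZero_of_connectedSpace c t M H' h₀

end Locus

end

end Fermat.Agent.JAC
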