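/-
PROJECT JAC (S25) — (J8j), helper4: the degree-zero cut for the Abel–Jacobi family (lead's (E)).

* `instance : (LBCond.degZero c).IsTwistInvariant` (helper1's mixin: twists by cocycles from the
  base do not change the cut);
* `connectedSpace_opens_of_isIntegral` : non-empty opens of an integral scheme are connected;
* `lbFibrewiseDegZero_tensor_pullback_fst_of_kpoint` : on a connected base `T`, the family
  `L ⊗ pr₁^* N` lies in the cut as soon as ONE `k`-fibre of `L` has degree `- deg N`;
* `degHom_ptClsCurve` : the class of `O(z)` has degree one;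
* `lbFibrewiseDegZero_tensor_pullback_fst_of_mk_eq` : the same with the fibre given as a class
  `ptClsCurve c z` (the shape of helper1's `picFunctor.exists_AJ_of_local`, hypothesis `hQ`).
-/
import Mathlib
import Fermat.Agent.JAC.J8_helper4_DegOpen
import Fermat.Agent.JAC.SH_helper1_AbelJacobi
import Fermat.Agent.JAC.J6_helper6_Points

set_option autoImplicit false
set_option linter.style.haveILetI false
open CategoryTheory CategoryTheory.Limits AlgebraicGeometry AlgebraicGeometry.RelPicard
  NeronModelInfra GoodReductionJacobian TopologicalSpace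
universe u

namespace Fermat.Agent.JAC

open Fermat.Agent.AV

noncomputable section

section Twist

variable {k : Type u} [Field k] {C : Scheme.{u}} (c : C ⟶ Spec (CommRingCat.of k))
  [IsProper c] [SmoothOfRelativeDimension 1 c]

instance LBCond.degZero_isTwistInvariant : (LBCond.degZero c).IsTwistInvariant where
  twist t M N hM := by
    intro k' _ _ s A _ _ p a H
    rw [← hM k' s A p a H]
    exact LB.deg_eq_of_iso (principalDegZero_of_fibreSquare c H)
      (iso_pullback_tensor_pullback_of_field t M N p a s H.w)

end Twist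

/-- non-empty opens of an integral scheme are connected. -/
theorem connectedSpace_opens_of_isIntegral {X : Scheme.{u}} [IsIntegral X] (U : X.Opens)
    [Nonempty U] : ConnectedSpace U.toScheme := by
  haveI : Nonempty U.toScheme := ‹Nonempty U›
  haveI : IsIntegral U.toScheme := isIntegral_of_isOpenImmersion U.ι
  infer_instance

section AJ

variable {k : Type u} [Field k] [IsAlgClosed k] {C : Scheme.{u}} [IsIntegral C] [IsNoetherian C]
  (c : C ⟶ Spec (CommRingCat.of k)) [IsProper c] [SmoothOfRelativeDimension 1 c]

/-- **(E)**: on a connected base, the family `L ⊗ pr₁^* N` is fibrewise of degree zero as soon as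
one `k`-fibre of `L` has degree `- deg N`. -/
theorem lbFibrewiseDegZero_tensor_pullback_fst_of_kpoint {T : Scheme.{u}}
    (t : T ⟶ Spec (CommRingCat.of k)) [ConnectedSpace T] (L : LB (pullback c t)) (N : LB C)
    (y : SchemeHomOver (𝟙 (Spec (CommRingCat.of k))) t)
    (φ : C ⟶ pullback c (𝟙 (Spec (CommRingCat.of k))))
    (hφ : φ ≫ pullback.fst c (𝟙 _) = 𝟙 C)
    (h : ((L.pullback (baseChangeSnd c y)).pullback φ).deg + N.deg = 0) :
    LBFibrewiseDegZero c t (L.tensor (N.pullback (pullback.fst c t))) := by
  have h0 := principalDegZero_curve c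
  refine lbFibrewiseDegZero_of_connectedSpace_of_kpoint c t _ y φ hφ ?_
  rw [← degHom_mk h0, mk_pullback_tensor_fst_pullback c L N y φ hφ, map_add, degHom_mk,
    degHom_mk]
  exact h

/-- the class of `O(z)` has degree one. -/
theorem degHom_ptClsCurve (z : C) (hz : z ≠ genericPoint C) :
    degHom (principalDegZero_curve c) (J6.ptClsCurve c z) = 1 := by
  rw [J6.ptClsCurve_eq, degHom_mk,
    deg_LBofWeil _ _ (principalDegZero_curve c), divDeg_single z ((coheight_eq_one_iff c z).2 hz)]

/-- **(E), class form**: if one `k`-fibre of `L` is `O(z)` and `N` has degree `-1`, the family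
`L ⊗ pr₁^* N` on `C × T` (`T` connected) lies in the degree-zero cut. -/
theorem lbFibrewiseDegZero_tensor_pullback_fst_of_mk_eq {T : Scheme.{u}}
    (t : T ⟶ Spec (CommRingCat.of k)) [ConnectedSpace T] (L : LB (pullback c t)) (N : LB C)
    (hN : N.deg = -1) (y : SchemeHomOver (𝟙 (Spec (CommRingCat.of k))) t)
    (φ : C ⟶ pullback c (𝟙 (Spec (CommRingCat.of k))))
    (hφ : φ ≫ pullback.fst c (𝟙 _) = 𝟙 C) (z : C) (hz : z ≠ genericPoint C)
    (h : PicGroup.mk ((L.pullback (baseChangeSnd c y)).pullback φ) = J6.ptClsCurve c z) :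
    (LBCond.degZero c).P t (L.tensor (N.pullback (pullback.fst c t))) := by
  refine lbFibrewiseDegZero_tensor_pullback_fst_of_kpoint c t L N y φ hφ ?_
  rw [← degHom_mk (principalDegZero_curve c), h, degHom_ptClsCurve c z hz, hN]
  norm_num

/-- a line bundle of degree `-1` with class `- [O(ε₀)]`. -/
theorem exists_LB_mk_eq_neg_ptClsCurve (ε₀ : C) (hε₀ : ε₀ ≠ genericPoint C) :
    ∃ N : LB C, N.deg = -1 ∧ PicGroup.mk N = - J6.ptClsCurve c ε₀ := by
  obtain ⟨M, hM⟩ := PicGroup.mk_surjective (J6.ptClsCurve c ε₀)
  refine ⟨M.inv, ?_, by rw [PicGroup.mk_inv, hM]⟩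
  rw [LB.deg_inv (principalDegZero_curve c), ← degHom_mk (principalDegZero_curve c), hM,
    degHom_ptClsCurve c ε₀ hε₀]

end AJ

end

end Fermat.Agent.JAC
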