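/-
PROJECT JAC — (AJ-FINAL) (helper1) — **the Abel–Jacobi class of a proper smooth curve**, input (ii)
of helper4's `s25_of_chartData`.

`exists_abelJacobi_class c ε ε₀ hε₀` : there is `x ∈ picFunctor c ε (LBCond.degZero c) (C)` whose
pull-back along (a `k`-point at) every closed point `z` of `C` is `O(z) ⊗ O(ε₀)⁻¹`.

Composition of `picFunctor.exists_AJ` (`AJ_helper1_Glue`) with helper6's fibre class of a graph
pair (`AJ_helper6_FibreCls`) and helper4's degree bookkeeping (`J8_helper4_AJDeg`).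
-/
import Mathlib
import Fermat.Agent.JAC.AJ_helper1_Glue
import Fermat.Agent.JAC.AJ_helper6_FibreCls
import Fermat.Agent.JAC.J8_helper4_AJDeg

set_option autoImplicit false
set_option linter.style.haveILetI false

open AlgebraicGeometry CategoryTheory CategoryTheory.Limits Opposite TopologicalSpace
  AlgebraicGeometry.RelPicard NeronModelInfra GoodReductionJacobian

universe u

namespace Fermat.Agent.JAC

open Fermat.Agent.AV Fermat.Agent.AV.CP

noncomputable section

variable {k : Type u} [Field k] [IsAlgClosed k] {C : Scheme.{u}} [IsIntegral C] [IsNoetherian C]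
  (c : C ⟶ Spec (CommRingCat.of k)) [IsProper c] [SmoothOfRelativeDimension 1 c]

omit [AlgebraicGeometry.IsNoetherian C] in
/-- a closed point of the curve in an open `U` is the image of a `k`-point of `U`. -/
theorem exists_kPoint_of_closedPoint (z : C) (hz : z ≠ genericPoint C) (U : C.Opens)
    (hzU : z ∈ U) :
    ∃ (y : Spec (CommRingCat.of k) ⟶ C) (_ : y ≫ c = 𝟙 (Spec (CommRingCat.of k)))
      (_ : y ⁻¹ᵁ U = ⊤), ∀ t₀ : Spec (CommRingCat.of k), y t₀ = z := by
  haveI : Smooth c := SmoothOfRelativeDimension.smooth 1 c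
  haveI : LocallyOfFiniteType c := inferInstance
  have hcl : IsClosed ({z} : Set C) := (isClosed_singleton_iff c z).2 hz
  refine ⟨pointOfClosedPoint c z hcl, pointOfClosedPoint_comp c z hcl, ?_,
    fun t₀ => pointOfClosedPoint_apply c z hcl t₀⟩
  rw [eq_top_iff]
  intro w _
  show (pointOfClosedPoint c z hcl) w ∈ U
  rw [pointOfClosedPoint_apply]
  exact hzU

variable (ε : SchemeHomOver (𝟙 (Spec (CommRingCat.of k))) c)

/-- **the Abel–Jacobi class**: for a closed point `ε₀` of the proper smooth curve `C` there is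
`x ∈ picFunctor c ε (LBCond.degZero c) (C)` whose pull-back along a `k`-point at the closed point
`z` has class `O(z) ⊗ O(ε₀)⁻¹`. -/
theorem exists_abelJacobi_class (ε₀ : C) (hε₀ : ε₀ ≠ genericPoint C) :
    ∃ x : (picFunctor c ε (LBCond.degZero c)).obj (op (Over.mk c)),
      ∀ z : C, z ≠ genericPoint C →
        ∃ y : Over.mk (𝟙 (Spec (CommRingCat.of k))) ⟶ Over.mk c,
          PicGroup.map (J6.toFibre c)
            (PicObj.cls ((picFunctor c ε (LBCond.degZero c)).map y.op x)) =
            J6.ptClsCurve c z - J6.ptClsCurve c ε₀ := by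
  obtain ⟨N, hNdeg, hN⟩ := exists_LB_mk_eq_neg_ptClsCurve c ε₀ hε₀
  obtain ⟨t₀⟩ : Nonempty (Spec (CommRingCat.of k)) := inferInstance
  -- (E): the family `L ⊗ pr₁^* N` is in the degree-zero cut
  have hQ : ∀ (U : C.Opens) (hU : IsAffineOpen U) (_ : Nonempty U)
      (L : LB (pullback c (U.ι ≫ c))) (σ : L.H0),
      @IsGraphPairOver k _ C c U (U.ι ≫ c) hU U hU U.ι rfl (Scheme.Opens.ι_preimage_self U) L σ →
      (LBCond.degZero c).P (U.ι ≫ c) (L.tensor (N.pullback (pullback.fst c (U.ι ≫ c)))) := by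
    intro U hU hne L σ hpair
    haveI : Nonempty U := hne
    haveI : ConnectedSpace U.toScheme := connectedSpace_opens_of_isIntegral U
    have hgood : IsCurveAffineOpen c U := isCurveAffineOpen_of_curve c hU
    obtain ⟨z, hzU, hz⟩ := exists_closedPoint_mem c U hne
    obtain ⟨y, hy, hyU, hyz⟩ := exists_kPoint_of_closedPoint c z hz U hzU
    -- the `k`-point factors through `U`
    have hrange : Set.range y ⊆ Set.range U.ι := by
      rintro _ ⟨w, rfl⟩
      rw [Scheme.Opens.range_ι, hyz w]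
      exact hzU
    obtain ⟨yU, hfac⟩ : ∃ yU : Spec (CommRingCat.of k) ⟶ (U : Scheme.{u}), yU ≫ U.ι = y :=
      ⟨IsOpenImmersion.lift U.ι y hrange, IsOpenImmersion.lift_fac _ _ _⟩
    have hover : yU ≫ U.ι ≫ c = 𝟙 (Spec (CommRingCat.of k)) := by
      rw [← Category.assoc, hfac, hy]
    haveI : IsAffine (U : Scheme.{u}) := hU
    have h1 := IsGraphPairOver.pullback
      (⟨yU, hover⟩ : SchemeHomOver (𝟙 (Spec (CommRingCat.of k))) (U.ι ≫ c))
      hgood hpair y hfac hy hyU
    have h2 := AJ2.mk_pullback_toFibre_of_isGraphPair c hU y hy hyU t₀ h1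
    rw [hyz t₀] at h2
    exact lbFibrewiseDegZero_tensor_pullback_fst_of_mk_eq c (U.ι ≫ c) L N hNdeg
      ⟨yU, hover⟩ (J6.toFibre c) (J6.toFibre_fst c) z hz h2
  -- (C): the fibre of a graph pair of a `k`-point at `z` is `O(z)`
  have hC : ∀ z : C, z ≠ genericPoint C → ∃ (U : C.Opens) (hU : IsAffineOpen U)
      (y : Spec (CommRingCat.of k) ⟶ C) (hy : y ≫ c = 𝟙 (Spec (CommRingCat.of k)))
      (hyU : y ⁻¹ᵁ U = ⊤),
      ∀ (L' : LB (pullback c (𝟙 (Spec (CommRingCat.of k))))) (σ' : L'.H0),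
        IsGraphPairOver c (𝟙 (Spec (CommRingCat.of k))) hU y hy hyU L' σ' →
        PicGroup.mk (L'.pullback (J6.toFibre c)) = J6.ptClsCurve c z := by
    intro z hz
    obtain ⟨U, hU, hzU, -⟩ := exists_isAffineOpen_mem_and_subset (x := z) (U := ⊤) trivial
    obtain ⟨y, hy, hyU, hyz⟩ := exists_kPoint_of_closedPoint c z hz U hzU
    refine ⟨U, hU, y, hy, hyU, fun L' σ' h => ?_⟩
    have h2 := AJ2.mk_pullback_toFibre_of_isGraphPair c hU y hy hyU t₀ h
    rw [hyz t₀] at h2
    exact h2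
  obtain ⟨x, hx⟩ := picFunctor.exists_AJ c ε (LBCond.degZero c) N hQ (J6.toFibre c)
    (J6.toFibre_fst c) (J6.ptClsCurve c) (fun z => z ≠ genericPoint C) hC
  refine ⟨x, fun z hz => ?_⟩
  obtain ⟨y, hy⟩ := hx z hz
  exact ⟨y, by rw [hy, hN, sub_eq_add_neg]⟩

end

end Fermat.Agent.JAC
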