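/-
PROJECT JAC (S25) — (AJ2), helper6: **the fibre of the graph bundle over a `K`-point is `O(z)`**:
for a `K`-point `τ : Spec K ⟶ C` with image `z` and ANY point divisor `P : TW.PointDiv C z`, the
pair `(P.Q.pullback p₁, p₁^* P.s)` on `Y = C ×_K Spec K` is lead's `IsGraphPair` of `τ`
(w.r.t. any affine open `U ∋ z`).

* transport along an isomorphism `φ`: `AJ2.isRegSection_pullback_of_isIso`,
  `AJ2.app_mem_zeroIdeal_pullback_iff`;
* `AJ2.isRegSection_pointDiv`, `AJ2.mem_zeroIdeal_pointDiv_iff` (zero ideal of `s_z` on `U ∋ z` =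
  functions vanishing at `z`);
* `AJ2.isField_Γ_Spec_field`, `AJ2.evalHom`, `AJ2.evalHom_eq_zero_iff`;
* `AJ2.isRegSection_pullback_pointDiv`, `AJ2.zeroIdeal_pullback_pointDiv`,
  `AJ2.exists_unit_off_pullback_pointDiv` (the three fields, for any `KScheme K (Spec K)` whose
  structure map is an isomorphism);
* **`AJ2.isGraphPair_pullback_pointDiv`**, **`AJ2.isGraphPair_pullback_pointDiv_of_kPoint`**.
-/
import Mathlib
import Fermat.Agent.JAC.AJ_lead_Graph
import Fermat.Agent.JAC.D3_helper2_PointDiv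

set_option autoImplicit false
set_option linter.style.haveILetI false
set_option linter.unusedSectionVars false

open AlgebraicGeometry CategoryTheory CategoryTheory.Limits Opposite TopologicalSpace
  TensorProduct

universe u

namespace Fermat.Agent.JAC.AJ2

open Fermat.Agent.AV Fermat.Agent.AV.LB Fermat.Agent.AV.CP Fermat.Agent.JAC

noncomputable section

/-! ### Transport of regular sections and zero ideals along an isomorphism -/

section Iso

variable {X Y : Scheme.{u}} (φ : Y ⟶ X) [IsIso φ]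

theorem app_bijective (V : X.Opens) : Function.Bijective (φ.app V).hom :=
  ConcreteCategory.bijective_of_isIso (φ.app V)

/-- every open of the source of an isomorphism is a preimage. -/
theorem exists_eq_preimage (V' : Y.Opens) : ∃ V : X.Opens, V' = φ ⁻¹ᵁ V := by
  refine ⟨(inv φ) ⁻¹ᵁ V', ?_⟩
  rw [← Scheme.Hom.comp_preimage, IsIso.hom_inv_id, Scheme.Hom.id_preimage]

theorem preimage_le_preimage_iff (V W : X.Opens) : φ ⁻¹ᵁ V ≤ φ ⁻¹ᵁ W ↔ V ≤ W := by
  constructor
  · intro h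
    have h2 : (inv φ) ⁻¹ᵁ (φ ⁻¹ᵁ V) ≤ (inv φ) ⁻¹ᵁ (φ ⁻¹ᵁ W) := (inv φ).preimage_mono h
    rwa [← Scheme.Hom.comp_preimage, ← Scheme.Hom.comp_preimage, IsIso.inv_hom_id,
      Scheme.Hom.id_preimage, Scheme.Hom.id_preimage] at h2
  · exact fun h => φ.preimage_mono h

theorem isRegSection_pullback_of_isIso (M : LB X) (s : M.H0) (h : M.IsRegSection s) :
    (M.pullback φ).IsRegSection (M.pullbackSection φ s) := by
  intro i V' hV' b hb
  obtain ⟨V, rfl⟩ := exists_eq_preimage φ V'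
  have hV : V ≤ M.U i := (preimage_le_preimage_iff φ V (M.U i)).1 hV'
  obtain ⟨b', rfl⟩ := (app_bijective φ V).2 b
  have h1 : (φ.app V).hom (res V hV (s.1 i) * b') = 0 := by
    rw [map_mul, app_res]
    exact hb
  have h2 : res V hV (s.1 i) * b' = 0 :=
    (app_bijective φ V).1 (h1.trans (map_zero _).symm)
  rw [h i V hV b' h2, map_zero]

theorem app_mem_zeroIdeal_pullback_iff (M : LB X) (s : M.H0) (V : X.Opens) (a : Γ(X, V)) :
    (φ.app V).hom a ∈ (M.pullback φ).zeroIdeal (M.pullbackSection φ s) (φ ⁻¹ᵁ V) ↔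
      a ∈ M.zeroIdeal s V := by
  constructor
  · intro h i
    obtain ⟨a'', ha''⟩ := h i
    obtain ⟨a', rfl⟩ := (app_bijective φ (M.U i ⊓ V)).2 a''
    refine ⟨a', (app_bijective φ (M.U i ⊓ V)).1 ?_⟩
    rw [map_mul, app_res, app_res]
    exact ha''
  · intro h i
    obtain ⟨a', ha'⟩ := h i
    refine ⟨(φ.app (M.U i ⊓ V)).hom a', ?_⟩
    have h1 := congrArg (φ.app (M.U i ⊓ V)).hom ha'
    rw [map_mul, app_res, app_res] at h1
    exact h1

end Iso

/-! ### The zero ideal of a point divisor -/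

section Point

variable {X : Scheme.{u}} {z : X} (P : TW.PointDiv X z)

theorem isRegSection_pointDiv : P.Q.IsRegSection P.s := fun i V hV b hb => P.nzd i V hV b hb

theorem mem_zeroIdeal_pointDiv_iff {U : X.Opens} (hz : z ∈ U) (f : Γ(X, U)) :
    f ∈ P.Q.zeroIdeal P.s U ↔ TW.VanAt z f := by
  constructor
  · intro h
    obtain ⟨i, hi⟩ := Opens.mem_iSup.mp (show z ∈ ⨆ i, P.Q.U i by rw [P.Q.iSup_U]; trivial)
    obtain ⟨a, ha⟩ := h i
    have h1 : TW.VanAt z (res (P.Q.U i ⊓ U) inf_le_right f) := by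
      rw [ha]
      exact ((P.van i).restrict inf_le_left).mul_left a
    exact (TW.vanAt_res_iff inf_le_right ⟨hi, hz⟩ f).1 h1
  · intro h i
    obtain ⟨c, hc⟩ := P.dvd i (P.Q.U i ⊓ U) inf_le_left (res (P.Q.U i ⊓ U) inf_le_right f)
      (h.restrict inf_le_right)
    exact ⟨c, by rw [hc, mul_comm]⟩

end Point

/-! ### Sections over the spectrum of a field -/

section FieldPoint

variable {K : Type u} [Field K]

theorem isField_Γ_Spec_field : IsField Γ(Spec (CommRingCat.of K), ⊤) :=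
  (Scheme.ΓSpecIso (CommRingCat.of K)).commRingCatIsoToRingEquiv.toMulEquiv.isField
    (Field.toIsField K)

/-- a global function on `Spec K` vanishes iff its basic open misses the point. -/
theorem eq_zero_iff_notMem_basicOpen (g : Γ(Spec (CommRingCat.of K), ⊤))
    (t₀ : Spec (CommRingCat.of K)) : g = 0 ↔ t₀ ∉ (Spec (CommRingCat.of K)).basicOpen g := by
  constructor
  · rintro rfl
    rw [Scheme.basicOpen_zero]
    exact fun h => h
  · intro h
    by_contra hg
    obtain ⟨g', hg'⟩ := (isField_Γ_Spec_field (K := K)).mul_inv_cancel hg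
    have hu : IsUnit g := IsUnit.of_mul_eq_one g' hg'
    rw [Scheme.basicOpen_of_isUnit _ hu] at h
    exact h trivial

variable {C : Scheme.{u}} (τ : Spec (CommRingCat.of K) ⟶ C) {U : C.Opens}
  (hτU : τ ⁻¹ᵁ U = ⊤)

/-- evaluation of functions on `U` at the `K`-point `τ`. -/
def evalHom : Γ(C, U) →+* Γ(Spec (CommRingCat.of K), ⊤) :=
  (τ.appLE U ⊤ (le_of_eq hτU.symm)).hom

theorem evalHom_eq_zero_iff (t₀ : Spec (CommRingCat.of K)) (a : Γ(C, U)) :
    evalHom τ hτU a = 0 ↔ TW.VanAt (τ t₀) a := by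
  rw [eq_zero_iff_notMem_basicOpen _ t₀, evalHom, Scheme.basicOpen_appLE]
  unfold TW.VanAt
  constructor
  · intro h h2
    exact h ⟨trivial, h2⟩
  · intro h h2
    exact h h2.2

end FieldPoint

/-! ### The fibre of a point divisor over the point is the graph pair of the point -/

section Main

variable {K : Type u} [Field K] {C Y : Scheme.{u}} [KScheme K C]
  [KScheme K (Spec (CommRingCat.of K))]
  [IsIso (KScheme.str (K := K) (X := Spec (CommRingCat.of K)))]
  {p₁ : Y ⟶ C} {p₂ : Y ⟶ Spec (CommRingCat.of K)}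
  (H : IsPullback p₁ p₂ (KScheme.str (K := K)) (KScheme.str (K := K)))
  {U : C.Opens} (hU : IsAffineOpen U)

include H in
theorem isIso_fst_of_isPullback : IsIso p₁ := H.isIso_fst_of_isIso

theorem algebraMap_Γ_Spec_surjective :
    Function.Surjective (algebraMap K Γ(Spec (CommRingCat.of K), ⊤)) := by
  have h1 : Function.Bijective ((KScheme.str (K := K) (X := Spec (CommRingCat.of K))).appLE ⊤ ⊤
      (le_preimage_top _ ⊤)).hom := by
    have : (KScheme.str (K := K) (X := Spec (CommRingCat.of K))).appLE ⊤ ⊤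
        (le_preimage_top _ ⊤) = (KScheme.str (K := K) (X := Spec (CommRingCat.of K))).app ⊤ :=
      Scheme.Hom.appLE_eq_app _
    rw [this]
    exact ConcreteCategory.bijective_of_isIso
      ((KScheme.str (K := K) (X := Spec (CommRingCat.of K))).app ⊤)
  have h2 : Function.Bijective (Scheme.ΓSpecIso (CommRingCat.of K)).inv.hom :=
    ConcreteCategory.bijective_of_isIso (Scheme.ΓSpecIso (CommRingCat.of K)).inv
  exact h1.2.comp h2.2

theorem exists_one_tmul {A : Type u} [CommRing A] [Algebra K A]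
    (t : Γ(Spec (CommRingCat.of K), ⊤) ⊗[K] A) : ∃ a : A, t = 1 ⊗ₜ[K] a := by
  induction t with
  | zero => exact ⟨0, (TensorProduct.tmul_zero _ _).symm⟩
  | tmul b a =>
    obtain ⟨β, rfl⟩ := algebraMap_Γ_Spec_surjective (K := K) b
    refine ⟨β • a, ?_⟩
    rw [Algebra.algebraMap_eq_smul_one, TensorProduct.smul_tmul]
  | add x y hx hy =>
    obtain ⟨a, rfl⟩ := hx
    obtain ⟨a', rfl⟩ := hy
    exact ⟨a + a', (TensorProduct.tmul_add _ _ _).symm⟩

variable (τ : Spec (CommRingCat.of K) ⟶ C) (hτU : τ ⁻¹ᵁ U = ⊤) (t₀ : Spec (CommRingCat.of K))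
  (P : TW.PointDiv C (τ t₀))

include H in
/-- **(AJ2), regularity.** -/
theorem isRegSection_pullback_pointDiv :
    (P.Q.pullback p₁).IsRegSection (P.Q.pullbackSection p₁ P.s) := by
  haveI := isIso_fst_of_isPullback H
  exact isRegSection_pullback_of_isIso p₁ P.Q P.s (isRegSection_pointDiv P)

include H hU hτU in
/-- **(AJ2), the zero ideal**: the zero ideal of the pulled-back canonical section of `O(z)` on
`p₁⁻¹U` is the Künneth image of the kernel of `b ⊗ a ↦ b · a(z)`. -/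
theorem zeroIdeal_pullback_pointDiv
    (I : Ideal (Γ(Spec (CommRingCat.of K), ⊤) ⊗[K] Γ(C, U)))
    (m : Γ(Spec (CommRingCat.of K), ⊤) ⊗[K] Γ(C, U) →+* Γ(Spec (CommRingCat.of K), ⊤))
    (hm : ∀ b a, m (b ⊗ₜ[K] a) = b * evalHom τ hτU a) (hI : I = RingHom.ker m) :
    (P.Q.pullback p₁).zeroIdeal (P.Q.pullbackSection p₁ P.s) (p₁ ⁻¹ᵁ U) = kunIdeal H hU I := by
  haveI := isIso_fst_of_isPullback H
  have hzU : τ t₀ ∈ U := by
    have : t₀ ∈ τ ⁻¹ᵁ U := by rw [hτU]; trivial
    exact this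
  ext r
  rw [mem_kunIdeal_iff]
  obtain ⟨a, ha⟩ := exists_one_tmul ((kunneth H hU).symm r)
  have hr : r = (p₁.app U).hom a := by
    have h1 : r = kunneth H hU (1 ⊗ₜ[K] a) := by
      rw [← ha, RingEquiv.apply_symm_apply]
    rw [h1, kunneth_one_tmul]
    rfl
  rw [ha, hI, RingHom.mem_ker, hm, one_mul, evalHom_eq_zero_iff τ hτU t₀,
    ← mem_zeroIdeal_pointDiv_iff P hzU, hr]
  exact app_mem_zeroIdeal_pullback_iff p₁ P.Q P.s U a

/-- **(AJ2), unit off `p₁⁻¹U`.** -/
theorem exists_unit_off_pullback_pointDiv (hzU : τ t₀ ∈ U) (hcl : IsClosed ({τ t₀} : Set C)) :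
    ∃ W' : Y.Opens, p₁ ⁻¹ᵁ U ⊔ W' = ⊤ ∧
      ∀ i, IsUnit (res ((P.Q.pullback p₁).U i ⊓ W') inf_le_left
        ((P.Q.pullbackSection p₁ P.s).1 i)) := by
  let W₀ : C.Opens := ⟨({τ t₀} : Set C)ᶜ, hcl.isOpen_compl⟩
  refine ⟨p₁ ⁻¹ᵁ W₀, ?_, fun i => ?_⟩
  · rw [eq_top_iff]
    intro y _
    by_cases hy : p₁ y = τ t₀
    · left
      show p₁ y ∈ U
      rw [hy]
      exact hzU
    · right
      exact hy
  · have h1 := pointDiv_isUnit_res_of_notMem P i (P.Q.U i ⊓ W₀) inf_le_left (fun h => h.2 rfl)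
    have h2 := h1.map (p₁.app (P.Q.U i ⊓ W₀)).hom
    rw [app_res] at h2
    exact h2

end Main

/-! ### (AJ2): the graph pair of a `K`-point -/

section GraphPair

open HilbAlg

variable {K : Type u} [Field K] {C Y : Scheme.{u}} [KScheme K C]
  [KScheme K (Spec (CommRingCat.of K))]
  [IsIso (KScheme.str (K := K) (X := Spec (CommRingCat.of K)))]
  {p₁ : Y ⟶ C} {p₂ : Y ⟶ Spec (CommRingCat.of K)}
  (H : IsPullback p₁ p₂ (KScheme.str (K := K)) (KScheme.str (K := K)))
  {U : C.Opens} (hU : IsAffineOpen U)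
  (τ : Spec (CommRingCat.of K) ⟶ C) (hτ : τ ≫ KScheme.str (K := K) = KScheme.str)
  (hτU : τ ⁻¹ᵁ U = ⊤) (t₀ : Spec (CommRingCat.of K)) (P : TW.PointDiv C (τ t₀))

/-- **(AJ2)**: for a `K`-point `τ` of `C` with image `z`, a point divisor `(O(z), s_z)` pulled back
to `C ×_K Spec K` is the graph pair of `τ`. -/
theorem isGraphPair_pullback_pointDiv (hcl : IsClosed ({τ t₀} : Set C)) :
    IsGraphPair H hU τ hτ hτU (P.Q.pullback p₁) (P.Q.pullbackSection p₁ P.s) := by
  have hzU : τ t₀ ∈ U := by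
    have : t₀ ∈ τ ⁻¹ᵁ U := by rw [hτU]; trivial
    exact this
  refine ⟨isRegSection_pullback_pointDiv H τ t₀ P, ?_,
    exists_unit_off_pullback_pointDiv τ t₀ P hzU hcl⟩
  refine zeroIdeal_pullback_pointDiv H hU τ hτU t₀ P _
    (graphMul (graphAlgHom τ hτ hτU)).toRingHom (fun b a => ?_) ?_
  · exact graphMul_tmul (graphAlgHom τ hτ hτU) b a
  · ext x
    rw [mem_graphIdeal, RingHom.mem_ker]
    rfl

/-- the image of a `k`-point is a closed point. -/
theorem isClosed_singleton_kPoint {k : Type u} [Field k] {C : Scheme.{u}}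
    (c : C ⟶ Spec (CommRingCat.of k)) (x : Spec (CommRingCat.of k) ⟶ C) (hx : x ≫ c = 𝟙 _)
    (t₀ : Spec (CommRingCat.of k)) : IsClosed ({x t₀} : Set C) := by
  have := isClosedImmersion_of_comp_eq_id c x hx
  have h := x.isClosedEmbedding.isClosed_range
  rwa [Set.range_eq_singleton] at h
  exact fun y => congr(x $(Subsingleton.elim _ _))

/-- **(AJ2)** for the standard structures `KScheme k C := ⟨c⟩`, `KScheme k (Spec k) := ⟨𝟙 _⟩`. -/
theorem isGraphPair_pullback_pointDiv_of_kPoint {k : Type u} [Field k] {C Y : Scheme.{u}}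
    (c : C ⟶ Spec (CommRingCat.of k)) {p₁ : Y ⟶ C} {p₂ : Y ⟶ Spec (CommRingCat.of k)}
    (H : IsPullback p₁ p₂ c (𝟙 (Spec (CommRingCat.of k)))) {U : C.Opens} (hU : IsAffineOpen U)
    (x : Spec (CommRingCat.of k) ⟶ C) (hx : x ≫ c = 𝟙 _) (hxU : x ⁻¹ᵁ U = ⊤)
    (t₀ : Spec (CommRingCat.of k)) (P : TW.PointDiv C (x t₀)) :
    letI : KScheme k C := ⟨c⟩
    letI : KScheme k (Spec (CommRingCat.of k)) := ⟨𝟙 _⟩
    IsGraphPair (K := k) H hU x hx hxU (P.Q.pullback p₁) (P.Q.pullbackSection p₁ P.s) := by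
  letI : KScheme k C := ⟨c⟩
  letI : KScheme k (Spec (CommRingCat.of k)) := ⟨𝟙 _⟩
  haveI : IsIso (KScheme.str (K := k) (X := Spec (CommRingCat.of k))) :=
    (inferInstance : IsIso (𝟙 (Spec (CommRingCat.of k))))
  exact isGraphPair_pullback_pointDiv (K := k) H hU x hx hxU t₀ P
    (isClosed_singleton_kPoint c x hx t₀)

end GraphPair

end

end Fermat.Agent.JAC.AJ2
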