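/-
PROJECT JAC — brick (SMALL)+(SHEAF) (helper1) — **the adapter from (REP) to the LB-level
representability statement**, generic in the condition `Q : LBCond c`.

* `LBRepresentsCond c ε Q D` : LB-level representability of the functor of rigidified cocycles
  satisfying `Q` by the designation `D` (fields `P`, `rig`, `mem`, `univ`, `zero`);
* `REP.Representation.designation R hone` : the designation attached to a representation `R` of
  `picFunctor c ε Q` (`P := R.J.left`, `toBase := R.J.hom`, the zero section classifies the
  trivial cocycle);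
* `REP.Representation.lbRepresentsCond R hone : Nonempty (LBRepresentsCond c ε Q (R.designation hone))`.
-/
import Mathlib
import Fermat.Agent.JAC.SH_helper1_Functor
import Fermat.Agent.JAC.REP_helper9_Iface

set_option autoImplicit false

open AlgebraicGeometry CategoryTheory CategoryTheory.Limits Opposite TopologicalSpace
  AlgebraicGeometry.RelPicard NeronModelInfra GoodReductionJacobian

universe u

namespace Fermat.Agent.JAC

open Fermat.Agent.AV

noncomputable section

variable {k : Type u} [CommRing k] {C : Scheme.{u}} (c : C ⟶ Spec (CommRingCat.of k))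
  (ε : SchemeHomOver (𝟙 (Spec (CommRingCat.of k))) c) (Q : LBCond c)

/-- LB-level representability of the functor of rigidified cocycles satisfying `Q`. -/
structure LBRepresentsCond (D : RelativePic0Designation k c) : Type (u + 1) where
  /-- the universal cocycle -/
  P : LB (pullback c D.toBase)
  rig : LBRigidified c ε D.toBase P
  mem : Q.P D.toBase P
  univ : ∀ {T : Scheme.{u}} (t : T ⟶ Spec (CommRingCat.of k)) (M : LB (pullback c t)),
    LBRigidified c ε t M → Q.P t M →
    ∃! g : SchemeHomOver t D.toBase, LB.Iso (P.pullback (baseChangeSnd c g)) M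
  zero : (P.pullback (baseChangeSnd c
    (⟨D.zeroSection, D.zeroSection_toBase⟩ : SchemeHomOver (𝟙 _) D.toBase))).IsTrivial

variable {c ε Q}

theorem LB.isTrivial_trivialLB (X : Scheme.{u}) : (LB.trivial X).IsTrivial :=
  (LB.isTrivial_iff_iso_trivial _).mpr (LB.Iso.refl _)

theorem LBRigidified.trivial {T : Scheme.{u}} (t : T ⟶ Spec (CommRingCat.of k)) :
    LBRigidified c ε t (LB.trivial _) :=
  LB.isTrivial_pullback_of_isTrivial _ (LB.isTrivial_trivialLB _)

/-- the trivial class over the base. -/
def picFunctor.one (hone : Q.P (𝟙 (Spec (CommRingCat.of k))) (LB.trivial _)) :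
    (picFunctor c ε Q).obj (op (Over.mk (𝟙 (Spec (CommRingCat.of k))))) :=
  picFunctor.mk (T := Over.mk (𝟙 (Spec (CommRingCat.of k)))) (LB.trivial _)
    (LBRigidified.trivial _) hone

namespace REP.Representation

variable {D : REP.ChartData (picFunctor c ε Q)} (R : REP.Representation (picFunctor c ε Q) D)
  (hone : Q.P (𝟙 (Spec (CommRingCat.of k))) (LB.trivial _))

/-- the classifying map of the trivial class. -/
def zeroHom : Over.mk (𝟙 (Spec (CommRingCat.of k))) ⟶ R.J :=
  (R.univ _ (picFunctor.one hone)).choose

theorem map_zeroHom :
    (picFunctor c ε Q).map (R.zeroHom hone).op R.ξ = picFunctor.one hone :=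
  (R.univ _ (picFunctor.one hone)).choose_spec.1

/-- the designation attached to a representation of the rigidified Picard functor. -/
def designation : RelativePic0Designation k c where
  P := R.J.left
  toBase := R.J.hom
  zeroSection := (R.zeroHom hone).left
  zeroSection_toBase := Over.w (R.zeroHom hone)

@[simp] theorem designation_P : (R.designation hone).P = R.J.left := rfl

@[simp] theorem designation_toBase : (R.designation hone).toBase = R.J.hom := rfl

/-- **the adapter**: a representation of `picFunctor c ε Q` gives the LB-level representability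
statement. -/
theorem lbRepresentsCond : Nonempty (LBRepresentsCond c ε Q (R.designation hone)) := by
  obtain ⟨M₀, hrig₀, hQ₀, hξ⟩ := picFunctor.exists_rep R.ξ
  refine ⟨{
    P := M₀
    rig := hrig₀
    mem := hQ₀
    univ := ?_
    zero := ?_ }⟩
  · intro T t M hrig hQ
    -- the class of `M` over `Over.mk t`
    let η : (picFunctor c ε Q).obj (op (Over.mk t)) := picFunctor.mk (T := Over.mk t) M hrig hQ
    obtain ⟨g, hg, hguniq⟩ := R.univ (Over.mk t) η
    have key : ∀ g' : Over.mk t ⟶ R.J,
        (picFunctor c ε Q).map g'.op R.ξ = η ↔
          LB.Iso (M₀.pullback (baseChangeSnd c (overHom g'))) M := by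
      intro g'
      rw [hξ]
      have h1 := picFunctor.map_mk g' M₀ hrig₀ hQ₀
      constructor
      · intro h
        exact (picFunctor.mk_eq_mk_iff _ _ _ _).mp (h1.symm.trans h)
      · intro h
        exact h1.trans ((picFunctor.mk_eq_mk_iff _ _ _ _).mpr h)
    refine ⟨overHom g, (key g).mp hg, ?_⟩
    intro g' hg'
    have h2 : Over.homMk (U := Over.mk t) (V := R.J) g'.1 g'.2 = g :=
      hguniq _ ((key _).mpr hg')
    rw [← h2]
    rfl
  · have h := R.map_zeroHom hone
    rw [hξ] at h
    have h1 := picFunctor.map_mk (R.zeroHom hone) M₀ hrig₀ hQ₀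
    have h2 : LB.Iso (M₀.pullback (baseChangeSnd c (overHom (R.zeroHom hone)))) (LB.trivial _) :=
      (picFunctor.mk_eq_mk_iff _ _ _ _).mp (h1.symm.trans h)
    exact (LB.isTrivial_iff_iso_trivial _).mpr h2.symm

end REP.Representation

end

end Fermat.Agent.JAC
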