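/-
PROJECT JAC — brick (SMALL)+(SHEAF) (helper1) — **the group structure on the rigidified Picard
functor.**

* `class LBCond.IsMul Q` : the condition `Q` holds for the trivial cocycle and is stable under
  tensor products and inverses;
* `picSubgroup c ε Q t : AddSubgroup (PicGroup (pullback c t))` : the classes which are trivial
  along `ε` and satisfy `Q`;
* `instance : CommGroup (PicObj c ε Q T)` with `PicObj.mk_mul_mk`, `PicObj.mk_inv`, `PicObj.one_eq`;
* `picGrpFunctor c ε Q : (Over S)ᵒᵖ ⥤ GrpCat.{u}` and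
  `picGrpFunctorIso c ε Q : picGrpFunctor c ε Q ⋙ forget GrpCat ≅ picFunctor c ε Q`.
-/
import Mathlib
import Fermat.Agent.JAC.SH_helper1_Functor

set_option autoImplicit false

open AlgebraicGeometry CategoryTheory CategoryTheory.Limits Opposite TopologicalSpace
  AlgebraicGeometry.RelPicard NeronModelInfra

universe u

namespace Fermat.Agent.JAC

open Fermat.Agent.AV

noncomputable section

variable {k : Type u} [CommRing k] {C : Scheme.{u}} {c : C ⟶ Spec (CommRingCat.of k)}

/-- the condition holds for the trivial cocycle and is stable under tensor products and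
inverses. -/
class LBCond.IsMul (Q : LBCond c) : Prop where
  one : ∀ {T : Scheme.{u}} (t : T ⟶ Spec (CommRingCat.of k)), Q.P t (LB.trivial _)
  mul : ∀ {T : Scheme.{u}} (t : T ⟶ Spec (CommRingCat.of k)) (M N : LB (pullback c t)),
    Q.P t M → Q.P t N → Q.P t (M.tensor N)
  inv : ∀ {T : Scheme.{u}} (t : T ⟶ Spec (CommRingCat.of k)) (M : LB (pullback c t)),
    Q.P t M → Q.P t M.inv

instance : (LBCond.top c).IsMul where
  one _ := trivial
  mul _ _ _ _ _ := trivial
  inv _ _ _ := trivial

variable (ε : SchemeHomOver (𝟙 (Spec (CommRingCat.of k))) c) (Q : LBCond c)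

section Rigidified

variable {ε}

theorem lbRigidified_iff_map_eq_zero {T : Scheme.{u}} (t : T ⟶ Spec (CommRingCat.of k))
    (M : LB (pullback c t)) :
    LBRigidified c ε t M ↔ PicGroup.map (rigSection c t ε) (PicGroup.mk M) = 0 := by
  rw [PicGroup.map_mk, PicGroup.mk_eq_zero_iff]
  rfl

theorem LBRigidified.one {T : Scheme.{u}} (t : T ⟶ Spec (CommRingCat.of k)) :
    LBRigidified c ε t (LB.trivial _) := by
  rw [lbRigidified_iff_map_eq_zero, PicGroup.mk_trivial, map_zero]

theorem LBRigidified.tensor {T : Scheme.{u}} {t : T ⟶ Spec (CommRingCat.of k)}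
    {M N : LB (Limits.pullback c t)} (hM : LBRigidified c ε t M) (hN : LBRigidified c ε t N) :
    LBRigidified c ε t (M.tensor N) := by
  rw [lbRigidified_iff_map_eq_zero] at hM hN ⊢
  rw [PicGroup.mk_tensor, map_add, hM, hN, add_zero]

theorem LBRigidified.inv {T : Scheme.{u}} {t : T ⟶ Spec (CommRingCat.of k)}
    {M : LB (Limits.pullback c t)} (hM : LBRigidified c ε t M) : LBRigidified c ε t M.inv := by
  rw [lbRigidified_iff_map_eq_zero] at hM ⊢
  rw [PicGroup.mk_inv, map_neg, hM, neg_zero]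

end Rigidified

variable [Q.IsMul]

/-- the subgroup of the Picard group of `C ×ₛ T` cut out by the rigidification and `Q`. -/
def picSubgroup {T : Scheme.{u}} (t : T ⟶ Spec (CommRingCat.of k)) :
    AddSubgroup (PicGroup (pullback c t)) where
  carrier := {x | PicCut c ε Q t x}
  zero_mem' := ⟨LB.trivial _, rfl, LBRigidified.one t, LBCond.IsMul.one t⟩
  add_mem' := by
    rintro _ _ ⟨M, rfl, hr, hq⟩ ⟨N, rfl, hr', hq'⟩
    exact ⟨M.tensor N, rfl, hr.tensor hr', LBCond.IsMul.mul t M N hq hq'⟩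
  neg_mem' := by
    rintro _ ⟨M, rfl, hr, hq⟩
    exact ⟨M.inv, rfl, hr.inv, LBCond.IsMul.inv t M hq⟩

theorem mem_picSubgroup {T : Scheme.{u}} (t : T ⟶ Spec (CommRingCat.of k))
    (x : PicGroup (pullback c t)) : x ∈ picSubgroup ε Q t ↔ PicCut c ε Q t x := Iff.rfl

variable {ε Q}

/-- the values of the functor, as the elements of the subgroup. -/
def PicObj.equivSubgroup (T : Over (Spec (CommRingCat.of k))) :
    PicObj c ε Q T ≃ picSubgroup ε Q T.hom where
  toFun x := ⟨x.cls, (mem_picSubgroup ε Q T.hom _).mpr x.cls_cut⟩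
  invFun y := PicObj.ofCls y.1 ((mem_picSubgroup ε Q T.hom _).mp y.2)
  left_inv _ := PicObj.ext (PicObj.cls_ofCls _ _)
  right_inv _ := Subtype.ext (PicObj.cls_ofCls _ _)

instance PicObj.commGroup (T : Over (Spec (CommRingCat.of k))) : CommGroup (PicObj c ε Q T) :=
  ((PicObj.equivSubgroup T).trans Multiplicative.ofAdd).commGroup

theorem PicObj.cls_mul {T : Over (Spec (CommRingCat.of k))} (x y : PicObj c ε Q T) :
    (x * y).cls = x.cls + y.cls := by
  have hmem : PicCut c ε Q T.hom (x.cls + y.cls) :=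
    (mem_picSubgroup ε Q T.hom _).mp ((picSubgroup ε Q T.hom).add_mem
      ((mem_picSubgroup ε Q T.hom _).mpr x.cls_cut) ((mem_picSubgroup ε Q T.hom _).mpr y.cls_cut))
  have h : x * y = PicObj.ofCls (x.cls + y.cls) hmem := rfl
  rw [h]
  exact PicObj.cls_ofCls _ _

theorem PicObj.cls_one {T : Over (Spec (CommRingCat.of k))} :
    (1 : PicObj c ε Q T).cls = 0 := by
  have hmem : PicCut c ε Q T.hom 0 :=
    (mem_picSubgroup ε Q T.hom _).mp (picSubgroup ε Q T.hom).zero_mem
  have h : (1 : PicObj c ε Q T) = PicObj.ofCls 0 hmem := rfl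
  rw [h]
  exact PicObj.cls_ofCls _ _

theorem PicObj.cls_inv {T : Over (Spec (CommRingCat.of k))} (x : PicObj c ε Q T) :
    (x⁻¹).cls = - x.cls := by
  have hmem : PicCut c ε Q T.hom (- x.cls) :=
    (mem_picSubgroup ε Q T.hom _).mp ((picSubgroup ε Q T.hom).neg_mem
      ((mem_picSubgroup ε Q T.hom _).mpr x.cls_cut))
  have h : x⁻¹ = PicObj.ofCls (- x.cls) hmem := rfl
  rw [h]
  exact PicObj.cls_ofCls _ _

theorem PicObj.mk_mul_mk {T : Over (Spec (CommRingCat.of k))} {M N : LB (pullback c T.hom)}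
    (hrM : LBRigidified c ε T.hom M) (hqM : Q.P T.hom M)
    (hrN : LBRigidified c ε T.hom N) (hqN : Q.P T.hom N) :
    (PicObj.mk M hrM hqM : PicObj c ε Q T) * PicObj.mk N hrN hqN =
      PicObj.mk (M.tensor N) (hrM.tensor hrN) (LBCond.IsMul.mul T.hom M N hqM hqN) := by
  apply PicObj.ext
  rw [PicObj.cls_mul, PicObj.cls_mk, PicObj.cls_mk, PicObj.cls_mk, PicGroup.mk_tensor]

theorem PicObj.mk_inv {T : Over (Spec (CommRingCat.of k))} {M : LB (pullback c T.hom)}
    (hrM : LBRigidified c ε T.hom M) (hqM : Q.P T.hom M) :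
    (PicObj.mk M hrM hqM : PicObj c ε Q T)⁻¹ =
      PicObj.mk M.inv hrM.inv (LBCond.IsMul.inv T.hom M hqM) := by
  apply PicObj.ext
  rw [PicObj.cls_inv, PicObj.cls_mk, PicObj.cls_mk, PicGroup.mk_inv]

theorem PicObj.one_eq {T : Over (Spec (CommRingCat.of k))} :
    (1 : PicObj c ε Q T) =
      PicObj.mk (LB.trivial _) (LBRigidified.one T.hom) (LBCond.IsMul.one T.hom) := by
  apply PicObj.ext
  rw [PicObj.cls_one, PicObj.cls_mk, PicGroup.mk_trivial]

/-- the transition maps are group homomorphisms. -/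
def PicObj.mapHom {T' T : Over (Spec (CommRingCat.of k))} (f : T' ⟶ T) :
    PicObj c ε Q T →* PicObj c ε Q T' where
  toFun := PicObj.map f
  map_one' := by
    apply PicObj.ext
    rw [PicObj.cls_map, PicObj.cls_one, PicObj.cls_one, map_zero]
  map_mul' x y := by
    apply PicObj.ext
    rw [PicObj.cls_map, PicObj.cls_mul, PicObj.cls_mul, PicObj.cls_map, PicObj.cls_map, map_add]

@[simp]
theorem PicObj.mapHom_apply {T' T : Over (Spec (CommRingCat.of k))} (f : T' ⟶ T)
    (x : PicObj c ε Q T) : PicObj.mapHom f x = PicObj.map f x := rfl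

variable (c ε Q)

/-- **the rigidified Picard functor with values in groups.** -/
def picGrpFunctor : (Over (Spec (CommRingCat.of k)))ᵒᵖ ⥤ GrpCat.{u} where
  obj T := GrpCat.of (PicObj c ε Q T.unop)
  map {T T'} f := GrpCat.ofHom (PicObj.mapHom f.unop)
  map_id T := by
    ext x
    exact congrArg (fun φ => (ConcreteCategory.hom φ) x) ((picFunctor c ε Q).map_id T)
  map_comp {T T' T''} f g := by
    ext x
    exact congrArg (fun φ => (ConcreteCategory.hom φ) x) ((picFunctor c ε Q).map_comp f g)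

/-- the underlying functor of `picGrpFunctor` is `picFunctor`. -/
def picGrpFunctorIso : picGrpFunctor c ε Q ⋙ forget GrpCat ≅ picFunctor c ε Q :=
  NatIso.ofComponents (fun _ => Iso.refl _) (by
    intro T T' f
    rfl)

end

end Fermat.Agent.JAC
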