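/-
PROJECT JAC / S27 — brick (GRP) (helper1) — **the relative group law on the Jacobian.**

From an LB-level representability statement `h : LBRepresentsCond c ε Q D` for a multiplicative
condition `Q` (`[Q.IsMul]`):

* `LBRepresentsCond.equiv h t : SchemeHomOver t D.toBase ≃ PicObj c ε Q (Over.mk t)`
  (`g ↦` class of `g^* P`), natural in `t` (`equiv_comp`);
* `LBRepresentsCond.groupLaw h : RelativeGroupLaw k D.toBase` (transport of the group structure
  of the rigidified Picard functor), `groupLaw_isCommutative`;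
* `equiv_mul`, `equiv_one`, `equiv_inv`, `equiv_nsmul`, `isTorsionPoint_iff`;
* `abelianSchemePropertyBundle` : smooth + proper + connected ⇒ the Prelude's
  `AbelianSchemePropertyBundle k D.toBase`.
-/
import Mathlib
import Fermat.Prelude.Def_GoodReductionJacobian_RelativeGroupLawKernel
import Fermat.Agent.JAC.SH_helper1_Adapter
import Fermat.Agent.JAC.SH_helper1_Group

set_option autoImplicit false

open AlgebraicGeometry CategoryTheory CategoryTheory.Limits Opposite TopologicalSpace
  AlgebraicGeometry.RelPicard NeronModelInfra GoodReductionJacobian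

universe u

namespace Fermat.Agent.JAC

open Fermat.Agent.AV

noncomputable section

variable {k : Type u} [CommRing k] {C : Scheme.{u}} {c : C ⟶ Spec (CommRingCat.of k)}
  {ε : SchemeHomOver (𝟙 (Spec (CommRingCat.of k))) c} {Q : LBCond c}
  {D : RelativePic0Designation k c}

namespace LBRepresentsCond

variable (h : LBRepresentsCond c ε Q D)

/-- the class of the pull-back of the universal cocycle along a `T`-point. -/
def cls {T : Scheme.{u}} (t : T ⟶ Spec (CommRingCat.of k)) (g : SchemeHomOver t D.toBase) :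
    PicObj c ε Q (Over.mk t) :=
  PicObj.mk (T := Over.mk t) (h.P.pullback (baseChangeSnd c g))
    (LBRigidified.pullback ε g h.rig) (Q.baseChange g h.P h.mem)

theorem cls_eq_mk_iff {T : Scheme.{u}} (t : T ⟶ Spec (CommRingCat.of k))
    (g : SchemeHomOver t D.toBase) (M : LB (pullback c t)) (hr : LBRigidified c ε t M)
    (hq : Q.P t M) :
    h.cls t g = PicObj.mk (T := Over.mk t) M hr hq ↔
      LB.Iso (h.P.pullback (baseChangeSnd c g)) M :=
  PicObj.mk_eq_mk_iff (T := Over.mk t) _ _ _ _

theorem cls_bijective {T : Scheme.{u}} (t : T ⟶ Spec (CommRingCat.of k)) :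
    Function.Bijective (h.cls t) := by
  constructor
  · intro g g' hgg'
    have h1 : LB.Iso (h.P.pullback (baseChangeSnd c g)) (h.P.pullback (baseChangeSnd c g')) :=
      (h.cls_eq_mk_iff t g _ _ _).mp hgg'
    obtain ⟨g₀, -, huniq⟩ := h.univ t (h.P.pullback (baseChangeSnd c g'))
      (LBRigidified.pullback ε g' h.rig) (Q.baseChange g' h.P h.mem)
    rw [huniq g h1, huniq g' (LB.Iso.refl _)]
  · intro x
    obtain ⟨M, hr, hq, rfl⟩ := PicObj.exists_rep (T := Over.mk t) x
    obtain ⟨g, hg, -⟩ := h.univ t M hr hq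
    exact ⟨g, (h.cls_eq_mk_iff t g M hr hq).mpr hg⟩

/-- `T`-points of `J` are the rigidified classes on `C ×ₛ T` satisfying `Q`. -/
def equiv {T : Scheme.{u}} (t : T ⟶ Spec (CommRingCat.of k)) :
    SchemeHomOver t D.toBase ≃ PicObj c ε Q (Over.mk t) :=
  Equiv.ofBijective (h.cls t) (h.cls_bijective t)

@[simp] theorem equiv_apply {T : Scheme.{u}} (t : T ⟶ Spec (CommRingCat.of k))
    (g : SchemeHomOver t D.toBase) : h.equiv t g = h.cls t g := rfl

/-- naturality of the identification. -/
theorem cls_comp {T T' : Scheme.{u}} (t : T ⟶ Spec (CommRingCat.of k))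
    (t' : T' ⟶ Spec (CommRingCat.of k)) (ψ : T' ⟶ T) (hψ : ψ ≫ t = t')
    (x : SchemeHomOver t D.toBase) :
    h.cls t' (schemeHomOverComp ψ hψ x) =
      PicObj.map (Over.homMk (U := Over.mk t') (V := Over.mk t) ψ hψ) (h.cls t x) := by
  rw [cls, cls, PicObj.map_mk]
  apply (PicObj.mk_eq_mk_iff (T := Over.mk t') _ _ _ _).mpr
  have h1 : baseChangeSnd c (schemeHomOverComp ψ hψ x) =
      baseChangeSnd c (overHom (Over.homMk (U := Over.mk t') (V := Over.mk t) ψ hψ)) ≫
        baseChangeSnd c x :=
    (baseChangeSnd_comp c x (overHom (Over.homMk (U := Over.mk t') (V := Over.mk t) ψ hψ))).symm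
  rw [h1]
  exact LB.Iso.refl _

variable [Q.IsMul]

/-- **the relative group law on `J`.** -/
def groupLaw : RelativeGroupLaw k D.toBase where
  mul t x y := (h.equiv t).symm (h.equiv t x * h.equiv t y)
  one t := (h.equiv t).symm 1
  inv t x := (h.equiv t).symm (h.equiv t x)⁻¹
  mul_assoc t x y z := by
    simp only [Equiv.apply_symm_apply, mul_assoc]
  one_mul t x := by
    simp only [Equiv.apply_symm_apply, one_mul, Equiv.symm_apply_apply]
  mul_one t x := by
    simp only [Equiv.apply_symm_apply, mul_one, Equiv.symm_apply_apply]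
  inv_mul_cancel t x := by
    simp only [Equiv.apply_symm_apply, inv_mul_cancel]
  mul_natural t t' ψ hψ x y := by
    apply (h.equiv t').injective
    simp only [Equiv.apply_symm_apply, equiv_apply]
    rw [h.cls_comp t t' ψ hψ, h.cls_comp t t' ψ hψ x, h.cls_comp t t' ψ hψ y,
      ← PicObj.mapHom_apply, ← PicObj.mapHom_apply, ← PicObj.mapHom_apply, ← map_mul]
    congr 1
    exact (h.equiv t).apply_symm_apply _

theorem equiv_mul {T : Scheme.{u}} (t : T ⟶ Spec (CommRingCat.of k))
    (x y : SchemeHomOver t D.toBase) :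
    h.equiv t (h.groupLaw.mul t x y) = h.equiv t x * h.equiv t y :=
  (h.equiv t).apply_symm_apply _

theorem equiv_one {T : Scheme.{u}} (t : T ⟶ Spec (CommRingCat.of k)) :
    h.equiv t (h.groupLaw.one t) = 1 :=
  (h.equiv t).apply_symm_apply _

theorem equiv_inv {T : Scheme.{u}} (t : T ⟶ Spec (CommRingCat.of k))
    (x : SchemeHomOver t D.toBase) :
    h.equiv t (h.groupLaw.inv t x) = (h.equiv t x)⁻¹ :=
  (h.equiv t).apply_symm_apply _

theorem groupLaw_isCommutative : h.groupLaw.IsCommutative := by
  intro T t x y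
  apply (h.equiv t).injective
  rw [equiv_mul, equiv_mul, mul_comm]

theorem equiv_nsmul {T : Scheme.{u}} (t : T ⟶ Spec (CommRingCat.of k)) (n : ℕ)
    (x : SchemeHomOver t D.toBase) :
    h.equiv t (h.groupLaw.nsmul t n x) = (h.equiv t x) ^ n := by
  induction n with
  | zero => rw [RelativeGroupLaw.nsmul_zero, equiv_one, pow_zero]
  | succ n ih => rw [RelativeGroupLaw.nsmul_succ, equiv_mul, ih, pow_succ]

theorem isTorsionPoint_iff {T : Scheme.{u}} (t : T ⟶ Spec (CommRingCat.of k)) (n : ℕ)
    (x : SchemeHomOver t D.toBase) :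
    h.groupLaw.IsTorsionPoint t n x ↔ (h.equiv t x) ^ n = 1 := by
  rw [RelativeGroupLaw.isTorsionPoint_def, ← h.equiv_nsmul, ← h.equiv_one]
  exact (h.equiv t).injective.eq_iff.symm

/-- the torsion points, as classes. -/
def torsionEquiv {T : Scheme.{u}} (t : T ⟶ Spec (CommRingCat.of k)) (n : ℕ) :
    {x : SchemeHomOver t D.toBase // h.groupLaw.IsTorsionPoint t n x} ≃
      {y : PicObj c ε Q (Over.mk t) // y ^ n = 1} :=
  (h.equiv t).subtypeEquiv (fun x => h.isTorsionPoint_iff t n x)

end LBRepresentsCond

/-- smooth + proper + connected + a group law gives the Prelude's abelian scheme bundle over a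
field. -/
theorem abelianSchemePropertyBundle_of_connectedSpace {K : Type u} [Field K] {A : Scheme.{u}}
    (f : A ⟶ Spec (CommRingCat.of K)) [Smooth f] [IsProper f] [ConnectedSpace A]
    (L : RelativeGroupLaw K f) : AbelianSchemePropertyBundle K f where
  smooth := inferInstance
  proper := inferInstance
  connectedFibres s := by
    have hs : (f.base ⁻¹' {s} : Set A) = Set.univ := by
      have : Subsingleton (Spec (CommRingCat.of K)) :=
        inferInstanceAs (Subsingleton (PrimeSpectrum K))
      ext x
      simp only [Set.mem_preimage, Set.mem_singleton_iff, Set.mem_univ, iff_true]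
      exact Subsingleton.elim _ _
    rw [hs]
    exact isConnected_univ
  hasGroupLaw := ⟨L⟩

end

end Fermat.Agent.JAC
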