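/-
PROJECT JAC / S27 — brick (GRP) (helper1) — **the rational points of the Jacobian.**

Over a field `K` : the `K`-points of `J` (with the group law of `GRP_helper1_GroupLaw`) are the
classes in `PicGroup C` satisfying the condition `Q` (the rigidification is automatic over a
field).

* `fibreIso c : pullback c (𝟙 S) ≅ C`, `picFibreEquiv c : PicGroup C ≃+ PicGroup (pullback c (𝟙 S))`;
* `LBCond.curveSubgroup Q : AddSubgroup (PicGroup C)`;
* `LBRepresentsCond.pointsEquiv h : SchemeHomOver (𝟙 S) D.toBase ≃ Q.curveSubgroup`,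
  `pointsEquiv_mul`, `pointsEquiv_one`, `pointsEquiv_inv`, `pointsEquiv_nsmul`,
  `torsionPointsEquiv h n : {x // IsTorsionPoint (𝟙 S) n x} ≃ {y : Q.curveSubgroup // n • y = 0}`.
-/
import Mathlib
import Fermat.Agent.JAC.GRP_helper1_GroupLaw

set_option autoImplicit false

open AlgebraicGeometry CategoryTheory CategoryTheory.Limits Opposite TopologicalSpace
  AlgebraicGeometry.RelPicard NeronModelInfra GoodReductionJacobian

universe u

namespace Fermat.Agent.JAC

open Fermat.Agent.AV

noncomputable section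

variable {K : Type u} [Field K] {C : Scheme.{u}} (c : C ⟶ Spec (CommRingCat.of K))

/-- the section `C ⟶ C ×ₛ S`. -/
def fibreSec : C ⟶ pullback c (𝟙 (Spec (CommRingCat.of K))) :=
  pullback.lift (𝟙 C) c (by rw [Category.id_comp, Category.comp_id])

@[simp, reassoc]
theorem fibreSec_fst : fibreSec c ≫ pullback.fst c (𝟙 (Spec (CommRingCat.of K))) = 𝟙 C :=
  pullback.lift_fst _ _ _

@[simp, reassoc]
theorem fst_fibreSec :
    pullback.fst c (𝟙 (Spec (CommRingCat.of K))) ≫ fibreSec c = 𝟙 _ := by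
  apply pullback.hom_ext
  · rw [Category.assoc, fibreSec_fst, Category.comp_id, Category.id_comp]
  · rw [Category.assoc, Category.id_comp]
    unfold fibreSec
    rw [pullback.lift_snd, pullback.condition, Category.comp_id]

/-- `C ×ₛ S ≅ C`. -/
def fibreIso : pullback c (𝟙 (Spec (CommRingCat.of K))) ≅ C where
  hom := pullback.fst c (𝟙 _)
  inv := fibreSec c
  hom_inv_id := fst_fibreSec c
  inv_hom_id := fibreSec_fst c

/-- the Picard groups of `C` and of `C ×ₛ S`. -/
def picFibreEquiv : PicGroup C ≃+ PicGroup (pullback c (𝟙 (Spec (CommRingCat.of K)))) where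
  toFun := PicGroup.map (pullback.fst c (𝟙 _))
  invFun := PicGroup.map (fibreSec c)
  left_inv x := by
    rw [← PicGroup.map_comp, fibreSec_fst, PicGroup.map_id]
  right_inv x := by
    rw [← PicGroup.map_comp, fst_fibreSec, PicGroup.map_id]
  map_add' := map_add _

@[simp] theorem picFibreEquiv_mk (M : LB C) :
    picFibreEquiv c (PicGroup.mk M) = PicGroup.mk (M.pullback (pullback.fst c (𝟙 _))) := rfl

@[simp] theorem picFibreEquiv_symm_mk (N : LB (pullback c (𝟙 (Spec (CommRingCat.of K))))) :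
    (picFibreEquiv c).symm (PicGroup.mk N) = PicGroup.mk (N.pullback (fibreSec c)) := rfl

variable {c}

/-- over a field, every cocycle on `C ×ₛ S` is rigidified. -/
theorem lbRigidified_of_field (ε : SchemeHomOver (𝟙 (Spec (CommRingCat.of K))) c)
    (M : LB (pullback c (𝟙 (Spec (CommRingCat.of K))))) :
    LBRigidified c ε (𝟙 (Spec (CommRingCat.of K))) M := by
  unfold LBRigidified
  rw [← PicGroup.mk_eq_zero_iff]
  exact PicGroup.eq_zero_of_field K _

variable (ε : SchemeHomOver (𝟙 (Spec (CommRingCat.of K))) c) (Q : LBCond c) [Q.IsMul]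

/-- the classes on the curve satisfying `Q`. -/
def LBCond.curveSubgroup : AddSubgroup (PicGroup C) :=
  (picSubgroup ε Q (𝟙 (Spec (CommRingCat.of K)))).comap (picFibreEquiv c).toAddMonoidHom

theorem LBCond.mem_curveSubgroup_mk (M : LB C) :
    PicGroup.mk M ∈ Q.curveSubgroup ε ↔
      Q.P (𝟙 (Spec (CommRingCat.of K))) (M.pullback (pullback.fst c (𝟙 _))) := by
  show PicCut c ε Q (𝟙 _) (PicGroup.mk (M.pullback (pullback.fst c (𝟙 _)))) ↔ _
  rw [picCut_mk_iff]
  exact ⟨fun h => h.2, fun h => ⟨lbRigidified_of_field ε _, h⟩⟩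

variable {ε Q}

/-- the classes over the base point, as classes on the curve. -/
def picObjBaseEquiv :
    PicObj c ε Q (Over.mk (𝟙 (Spec (CommRingCat.of K)))) ≃ Q.curveSubgroup ε :=
  (PicObj.equivSubgroup (Over.mk (𝟙 (Spec (CommRingCat.of K))))).trans
    { toFun := fun y => ⟨(picFibreEquiv c).symm y.1, by
        show (picFibreEquiv c) ((picFibreEquiv c).symm y.1) ∈ picSubgroup ε Q _
        rw [AddEquiv.apply_symm_apply]
        exact y.2⟩
      invFun := fun x => ⟨picFibreEquiv c x.1, x.2⟩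
      left_inv := fun y => Subtype.ext ((picFibreEquiv c).apply_symm_apply _)
      right_inv := fun x => Subtype.ext ((picFibreEquiv c).symm_apply_apply _) }

theorem picObjBaseEquiv_coe (y : PicObj c ε Q (Over.mk (𝟙 (Spec (CommRingCat.of K))))) :
    ((picObjBaseEquiv y : Q.curveSubgroup ε) : PicGroup C) = (picFibreEquiv c).symm y.cls := rfl

theorem picObjBaseEquiv_mul (x y : PicObj c ε Q (Over.mk (𝟙 (Spec (CommRingCat.of K))))) :
    picObjBaseEquiv (x * y) = picObjBaseEquiv x + picObjBaseEquiv y := by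
  apply Subtype.ext
  rw [AddSubgroup.coe_add, picObjBaseEquiv_coe, picObjBaseEquiv_coe, picObjBaseEquiv_coe,
    PicObj.cls_mul, map_add]

theorem picObjBaseEquiv_one :
    picObjBaseEquiv (1 : PicObj c ε Q (Over.mk (𝟙 (Spec (CommRingCat.of K))))) = 0 := by
  apply Subtype.ext
  rw [AddSubgroup.coe_zero, picObjBaseEquiv_coe, PicObj.cls_one, map_zero]

theorem picObjBaseEquiv_inv (x : PicObj c ε Q (Over.mk (𝟙 (Spec (CommRingCat.of K))))) :
    picObjBaseEquiv x⁻¹ = - picObjBaseEquiv x := by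
  apply Subtype.ext
  rw [AddSubgroup.coe_neg, picObjBaseEquiv_coe, picObjBaseEquiv_coe, PicObj.cls_inv, map_neg]

theorem picObjBaseEquiv_pow (x : PicObj c ε Q (Over.mk (𝟙 (Spec (CommRingCat.of K))))) (n : ℕ) :
    picObjBaseEquiv (x ^ n) = n • picObjBaseEquiv x := by
  induction n with
  | zero => rw [pow_zero, zero_smul, picObjBaseEquiv_one]
  | succ n ih => rw [pow_succ, picObjBaseEquiv_mul, ih, succ_nsmul]

namespace LBRepresentsCond

variable {D : RelativePic0Designation K c} (h : LBRepresentsCond c ε Q D)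

/-- **the rational points of `J`** are the classes on the curve satisfying `Q`. -/
def pointsEquiv :
    SchemeHomOver (𝟙 (Spec (CommRingCat.of K))) D.toBase ≃ Q.curveSubgroup ε :=
  (h.equiv (𝟙 _)).trans picObjBaseEquiv

theorem pointsEquiv_coe (x : SchemeHomOver (𝟙 (Spec (CommRingCat.of K))) D.toBase) :
    ((h.pointsEquiv x : Q.curveSubgroup ε) : PicGroup C) =
      PicGroup.mk ((h.P.pullback (baseChangeSnd c x)).pullback (fibreSec c)) := by
  show (picFibreEquiv c).symm (h.cls (𝟙 _) x).cls = _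
  rw [cls, PicObj.cls_mk, picFibreEquiv_symm_mk]

theorem pointsEquiv_mul (x y : SchemeHomOver (𝟙 (Spec (CommRingCat.of K))) D.toBase) :
    h.pointsEquiv (h.groupLaw.mul (𝟙 _) x y) = h.pointsEquiv x + h.pointsEquiv y := by
  show picObjBaseEquiv (h.equiv (𝟙 _) _) = _
  rw [h.equiv_mul, picObjBaseEquiv_mul]
  rfl

theorem pointsEquiv_one : h.pointsEquiv (h.groupLaw.one (𝟙 _)) = 0 := by
  show picObjBaseEquiv (h.equiv (𝟙 _) _) = _
  rw [h.equiv_one, picObjBaseEquiv_one]

theorem pointsEquiv_inv (x : SchemeHomOver (𝟙 (Spec (CommRingCat.of K))) D.toBase) :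
    h.pointsEquiv (h.groupLaw.inv (𝟙 _) x) = - h.pointsEquiv x := by
  show picObjBaseEquiv (h.equiv (𝟙 _) _) = _
  rw [h.equiv_inv, picObjBaseEquiv_inv]
  rfl

theorem pointsEquiv_nsmul (n : ℕ) (x : SchemeHomOver (𝟙 (Spec (CommRingCat.of K))) D.toBase) :
    h.pointsEquiv (h.groupLaw.nsmul (𝟙 _) n x) = n • h.pointsEquiv x := by
  show picObjBaseEquiv (h.equiv (𝟙 _) _) = _
  rw [h.equiv_nsmul, picObjBaseEquiv_pow]
  rfl

theorem isTorsionPoint_iff_nsmul (n : ℕ)
    (x : SchemeHomOver (𝟙 (Spec (CommRingCat.of K))) D.toBase) :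
    h.groupLaw.IsTorsionPoint (𝟙 _) n x ↔ n • h.pointsEquiv x = 0 := by
  rw [RelativeGroupLaw.isTorsionPoint_def, ← h.pointsEquiv_nsmul, ← h.pointsEquiv_one]
  exact h.pointsEquiv.injective.eq_iff.symm

/-- **the `n`-torsion rational points of `J`** are the `n`-torsion classes on the curve
satisfying `Q`. -/
def torsionPointsEquiv (n : ℕ) :
    {x : SchemeHomOver (𝟙 (Spec (CommRingCat.of K))) D.toBase //
        h.groupLaw.IsTorsionPoint (𝟙 _) n x} ≃
      {y : Q.curveSubgroup ε // n • y = 0} :=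
  h.pointsEquiv.subtypeEquiv (fun x => h.isTorsionPoint_iff_nsmul n x)

end LBRepresentsCond

end

end Fermat.Agent.JAC
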