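/-
PROJECT JAC (S25) — helper3 — [ČECH-IDEAL] **coefficient systems**: ideal-valued sub-presheaves
`N(W) ⊆ Γ(X, W)` of the structure sheaf which are local and quasi-coherent, e.g. `⊤` (the structure
sheaf itself) and the kernel of `O_X → j_* O_{X₀}` for a quasi-compact morphism `j : X₀ ⟶ X`.
-/
import Mathlib
import Fermat.Agent.AV.LB_helper5_Core
import Fermat.Agent.AV.CECH_lead_Affine

set_option autoImplicit false

open AlgebraicGeometry CategoryTheory Limits Opposite TopologicalSpace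

universe u

namespace Fermat.Agent.JAC

open Fermat.Agent.AV

noncomputable section

/-- an ideal-valued coefficient system on a scheme: a quasi-coherent sheaf of ideals, given by its
sections over all opens. -/
structure Coef (X : Scheme.{u}) where
  /-- the sections over `W` -/
  N : ∀ W : X.Opens, Ideal Γ(X, W)
  res_mem : ∀ {W W' : X.Opens} (h : W' ≤ W) {a : Γ(X, W)}, a ∈ N W → res W' h a ∈ N W'
  mem_of_cover₂ : ∀ {W W₁ W₂ : X.Opens} (h₁ : W₁ ≤ W) (h₂ : W₂ ≤ W) (_ : W ≤ W₁ ⊔ W₂)
    (a : Γ(X, W)), res W₁ h₁ a ∈ N W₁ → res W₂ h₂ a ∈ N W₂ → a ∈ N W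
  ext_mem : ∀ {W : X.Opens}, IsAffineOpen W → ∀ (f : Γ(X, W)) (E : X.Opens)
    (_ : E = X.basicOpen f) (hEW : E ≤ W) (a : Γ(X, E)), a ∈ N E →
    ∃ (n : ℕ) (b : Γ(X, W)), b ∈ N W ∧ res E hEW b = (res E hEW f) ^ n * a

namespace Coef

variable {X : Scheme.{u}}

/-- the structure sheaf itself as a coefficient system. -/
def top (X : Scheme.{u}) : Coef X where
  N := fun _ => ⊤
  res_mem := fun _ _ _ => trivial
  mem_of_cover₂ := fun _ _ _ _ _ _ => trivial
  ext_mem := fun hW f E hE hEW a _ => by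
    obtain ⟨n, y, hy⟩ := CechAffine.exists_numerator hW f E hE hEW a
    exact ⟨n, y, trivial, hy⟩

/-- the kernel of `O_X → j_* O_{X₀}` as a coefficient system. -/
def ker {X₀ : Scheme.{u}} (j : X₀ ⟶ X) [QuasiCompact j] : Coef X where
  N := fun W => RingHom.ker (j.app W).hom
  res_mem := fun {W W'} h {a} ha => by
    rw [RingHom.mem_ker] at ha ⊢
    rw [app_res, ha, map_zero]
  mem_of_cover₂ := fun {W W₁ W₂} h₁ h₂ hcov a ha₁ ha₂ => by
    rw [RingHom.mem_ker] at ha₁ ha₂ ⊢
    rw [app_res] at ha₁ ha₂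
    refine eq_of_res_eq (fun b : Bool => if b then j ⁻¹ᵁ W₁ else j ⁻¹ᵁ W₂)
      (fun b => by
        cases b
        · exact (Opens.map j.base).monotone h₂
        · exact (Opens.map j.base).monotone h₁) ?_ _ _ ?_
    · intro x hx
      have hx' : j.base x ∈ W₁ ⊔ W₂ := hcov hx
      rcases hx' with hx' | hx'
      · exact Opens.mem_iSup.2 ⟨true, hx'⟩
      · exact Opens.mem_iSup.2 ⟨false, hx'⟩
    · intro b
      cases b
      · simpa using ha₂
      · simpa using ha₁
  ext_mem := fun {W} hW f E hE hEW a ha => by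
    subst hE
    rw [RingHom.mem_ker] at ha
    obtain ⟨n, y, hy⟩ := CechAffine.exists_numerator hW f _ rfl hEW a
    -- `j^♯ y` vanishes on the basic open of `j^♯ f`
    have hcpt : IsCompact (j ⁻¹ᵁ W : Set X₀) :=
      QuasiCompact.isCompact_preimage (f := j) _ W.2 hW.isCompact
    have hb : j ⁻¹ᵁ (X.basicOpen f) = X₀.basicOpen ((j.app W).hom f) :=
      Scheme.preimage_basicOpen j f
    have hz : res (X₀.basicOpen ((j.app W).hom f)) (X₀.basicOpen_le _) ((j.app W).hom y) = 0 := by
      have h1 := congrArg (j.app (X.basicOpen f)).hom hy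
      rw [map_mul, ha, mul_zero] at h1
      have h2 := app_res j (X.basicOpen_le f) y
      rw [h2] at h1
      -- transport along `hb`
      have h3 : res (X₀.basicOpen ((j.app W).hom f)) (X₀.basicOpen_le _) ((j.app W).hom y) =
          res (X₀.basicOpen ((j.app W).hom f)) (le_of_eq hb.symm)
            (res (j ⁻¹ᵁ (X.basicOpen f)) ((Opens.map j.base).monotone (X.basicOpen_le f))
              ((j.app W).hom y)) := by
        rw [res_res]
      rw [h3, h1, map_zero]
    obtain ⟨m, hm⟩ := exists_pow_mul_eq_zero_of_res_basicOpen_eq_zero_of_isCompact X₀ hcpt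
      ((j.app W).hom y) ((j.app W).hom f) hz
    refine ⟨m + n, f ^ m * y, ?_, ?_⟩
    · rw [RingHom.mem_ker, map_mul, map_pow, hm]
    · rw [map_mul, map_pow, pow_add, mul_assoc]
      congr 1

theorem mem_ker_iff {X₀ : Scheme.{u}} (j : X₀ ⟶ X) [QuasiCompact j] (W : X.Opens)
    (a : Γ(X, W)) : a ∈ (ker j).N W ↔ (j.app W).hom a = 0 := Iff.rfl

end Coef

end

end Fermat.Agent.JAC
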