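/-
PROJECT JAC (S25) — helper3 — [ČECH-IDEAL (a)] **Čech `H¹` and `H²` of a quasi-coherent sheaf of
ideals vanish on affine opens**, for finite covers by basic opens: `Coef.exists_cobdry₁`,
`Coef.exists_cobdry₂`.  Proof: after multiplication by a power of `f n` the cocycle is the
coboundary of its contraction with the index `n` (one level of denominators), then a partition of
unity.
-/
import Mathlib
import Fermat.Agent.JAC.CECH_helper3_Coef

set_option autoImplicit false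

open AlgebraicGeometry CategoryTheory Limits Opposite TopologicalSpace

universe u

namespace Fermat.Agent.JAC

open Fermat.Agent.AV

noncomputable section

namespace Coef

variable {X : Scheme.{u}} (𝒩 : Coef X)

/-- extension of sections of `N` from `W ⊓ D(g)` to the affine open `W`, after multiplication by a
power of `g`. -/
theorem exists_ext {V W E : X.Opens} (g : Γ(X, V)) (hW : IsAffineOpen W) (hWV : W ≤ V)
    (hE : E = W ⊓ X.basicOpen g) (hEW : E ≤ W) (a : Γ(X, E)) (ha : a ∈ 𝒩.N E) :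
    ∃ (n : ℕ) (b : Γ(X, W)), b ∈ 𝒩.N W ∧
      res E hEW b = (res E (hEW.trans hWV) g) ^ n * a := by
  have hE' : E = X.basicOpen (res W hWV g) := by
    rw [hE]; exact (Scheme.basicOpen_res X g (homOfLE hWV).op).symm
  obtain ⟨n, b, hb, h⟩ := 𝒩.ext_mem hW (res W hWV g) E hE' hEW a ha
  refine ⟨n, b, hb, ?_⟩
  rw [h, res_res]

/-- a section over the affine open `W` vanishing on `W ⊓ D(g)` is killed by a power of `g`. -/
theorem exists_pow_mul_eq_zero_of_res_eq_zero {V W E : X.Opens} (g : Γ(X, V))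
    (hW : IsAffineOpen W) (hWV : W ≤ V) (hE : E = W ⊓ X.basicOpen g) (hEW : E ≤ W)
    (s : Γ(X, W)) (hs : res E hEW s = 0) : ∃ n : ℕ, (res W hWV g) ^ n * s = 0 := by
  have hE' : E = X.basicOpen (res W hWV g) := by
    rw [hE]; exact (Scheme.basicOpen_res X g (homOfLE hWV).op).symm
  exact CechAffine.exists_pow_mul_eq_zero hW (res W hWV g) s E hE' hEW hs

section cover

variable {V : X.Opens} {κ : Type*} (f : κ → Γ(X, V)) (D : κ → X.Opens)

theorem D_le (hD : ∀ k, D k = X.basicOpen (f k)) (k : κ) : D k ≤ V := by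
  rw [hD k]; exact X.basicOpen_le _

theorem isAffineOpen_D₁ (hV : IsAffineOpen V) (hD : ∀ k, D k = X.basicOpen (f k)) (k : κ) :
    IsAffineOpen (D k) := by
  rw [hD k]; exact hV.basicOpen _

theorem isAffineOpen_D₂ (hV : IsAffineOpen V) (hD : ∀ k, D k = X.basicOpen (f k)) (k l : κ) :
    IsAffineOpen (D k ⊓ D l) := by
  rw [hD k, hD l, ← X.basicOpen_mul]; exact hV.basicOpen _

theorem isAffineOpen_D₃ (hV : IsAffineOpen V) (hD : ∀ k, D k = X.basicOpen (f k)) (k l m : κ) :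
    IsAffineOpen (D k ⊓ D l ⊓ D m) := by
  rw [hD k, hD l, hD m, ← X.basicOpen_mul, ← X.basicOpen_mul]; exact hV.basicOpen _

variable [Fintype κ]

/-- **local form, degree 1**: after multiplication by a power of `f n`, a `1`-cocycle is the
coboundary of an `N`-valued `0`-cochain. -/
theorem exists_local_cobdry₁ (hV : IsAffineOpen V) (hD : ∀ k, D k = X.basicOpen (f k)) (n : κ)
    (α : ∀ k l, Γ(X, D k ⊓ D l)) (hαN : ∀ k l, α k l ∈ 𝒩.N (D k ⊓ D l))
    (hα : ∀ k l m (O : X.Opens) (hk : O ≤ D k) (hl : O ≤ D l) (hm : O ≤ D m),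
      res O (le_inf hk hl) (α k l) + res O (le_inf hl hm) (α l m) =
        res O (le_inf hk hm) (α k m)) :
    ∃ (N : ℕ) (β : ∀ k, Γ(X, D k)), (∀ k, β k ∈ 𝒩.N (D k)) ∧ ∀ k l,
      (res (D k ⊓ D l) (inf_le_left.trans (D_le f D hD k)) (f n)) ^ N * α k l =
        res (D k ⊓ D l) inf_le_left (β k) - res (D k ⊓ D l) inf_le_right (β l) := by
  classical
  have hDV := D_le f D hD
  -- Step A: extend `f n ^ N * α k n` from `D k ⊓ D n` to `D k`
  have hA : ∀ k, ∃ (N : ℕ) (b : Γ(X, D k)), b ∈ 𝒩.N (D k) ∧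
      res (D k ⊓ D n) inf_le_left b =
        (res (D k ⊓ D n) (inf_le_left.trans (hDV k)) (f n)) ^ N * α k n := fun k =>
    𝒩.exists_ext (f n) (isAffineOpen_D₁ f D hV hD k) (hDV k) (by rw [hD n]) inf_le_left
      (α k n) (hαN k n)
  choose N0 b0 hb0N hb0 using hA
  obtain ⟨N, hN⟩ : ∃ N : ℕ, ∀ k, N0 k ≤ N :=
    ⟨Finset.univ.sup N0, fun k => Finset.le_sup (Finset.mem_univ k)⟩
  let b : ∀ k, Γ(X, D k) := fun k => (res (D k) (hDV k) (f n)) ^ (N - N0 k) * b0 k
  have hbN : ∀ k, b k ∈ 𝒩.N (D k) := fun k => Ideal.mul_mem_left _ _ (hb0N k)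
  have hb : ∀ k, res (D k ⊓ D n) inf_le_left (b k) =
      (res (D k ⊓ D n) (inf_le_left.trans (hDV k)) (f n)) ^ N * α k n := by
    intro k
    simp only [b, map_mul, map_pow, res_res, hb0 k]
    rw [← mul_assoc, ← pow_add, Nat.sub_add_cancel (hN k)]
  -- Step B: the defect is killed by a power of `f n`
  have hB : ∀ k l, ∃ P : ℕ,
      (res (D k ⊓ D l) (inf_le_left.trans (hDV k)) (f n)) ^ P *
        (res (D k ⊓ D l) inf_le_left (b k) - res (D k ⊓ D l) inf_le_right (b l) -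
          (res (D k ⊓ D l) (inf_le_left.trans (hDV k)) (f n)) ^ N * α k l) = 0 := by
    intro k l
    refine exists_pow_mul_eq_zero_of_res_eq_zero (E := D k ⊓ D l ⊓ D n) (f n)
      (isAffineOpen_D₂ f D hV hD k l) (inf_le_left.trans (hDV k)) (by rw [hD n]) inf_le_left _ ?_
    set E : X.Opens := D k ⊓ D l ⊓ D n with hE
    have hEk : E ≤ D k := inf_le_left.trans inf_le_left
    have hEl : E ≤ D l := inf_le_left.trans inf_le_right
    have hEn : E ≤ D n := inf_le_right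
    have h1 := congrArg (res E (le_inf hEk hEn)) (hb k)
    have h2 := congrArg (res E (le_inf hEl hEn)) (hb l)
    simp only [map_mul, map_pow, res_res] at h1 h2
    simp only [map_sub, map_mul, map_pow, res_res]
    rw [h1, h2]
    have hc := hα k l n E hEk hEl hEn
    linear_combination (-(res E (hEk.trans (hDV k)) (f n)) ^ N) * hc
  choose P0 hP0 using hB
  obtain ⟨P, hP⟩ : ∃ P : ℕ, ∀ k l, P0 k l ≤ P :=
    ⟨Finset.univ.sup (fun q : κ × κ => P0 q.1 q.2), fun k l =>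
      Finset.le_sup (f := fun q : κ × κ => P0 q.1 q.2) (Finset.mem_univ (k, l))⟩
  refine ⟨P + N, fun k => (res (D k) (hDV k) (f n)) ^ P * b k,
    fun k => Ideal.mul_mem_left _ _ (hbN k), fun k l => ?_⟩
  have h0 := hP0 k l
  have h1 : (res (D k ⊓ D l) (inf_le_left.trans (hDV k)) (f n)) ^ P *
      (res (D k ⊓ D l) inf_le_left (b k) - res (D k ⊓ D l) inf_le_right (b l) -
        (res (D k ⊓ D l) (inf_le_left.trans (hDV k)) (f n)) ^ N * α k l) = 0 := by
    rw [← Nat.sub_add_cancel (hP k l), pow_add, mul_assoc, h0, mul_zero]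
  simp only [map_mul, map_pow, res_res]
  rw [pow_add]
  linear_combination (-1 : Γ(X, D k ⊓ D l)) * h1

/-- **local form, degree 2**: after multiplication by a power of `f n`, a `2`-cocycle is the
coboundary of an `N`-valued `1`-cochain. -/
theorem exists_local_cobdry₂ (hV : IsAffineOpen V) (hD : ∀ k, D k = X.basicOpen (f k)) (n : κ)
    (c : ∀ k l m, Γ(X, D k ⊓ D l ⊓ D m)) (hcN : ∀ k l m, c k l m ∈ 𝒩.N (D k ⊓ D l ⊓ D m))
    (hc : ∀ k l m p (O : X.Opens) (hk : O ≤ D k) (hl : O ≤ D l) (hm : O ≤ D m) (hp : O ≤ D p),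
      res O (le_inf (le_inf hl hm) hp) (c l m p) - res O (le_inf (le_inf hk hm) hp) (c k m p) +
        res O (le_inf (le_inf hk hl) hp) (c k l p) - res O (le_inf (le_inf hk hl) hm) (c k l m)
        = 0) :
    ∃ (N : ℕ) (a : ∀ k l, Γ(X, D k ⊓ D l)), (∀ k l, a k l ∈ 𝒩.N (D k ⊓ D l)) ∧ ∀ k l m,
      (res (D k ⊓ D l ⊓ D m) ((inf_le_left.trans inf_le_left).trans (D_le f D hD k)) (f n)) ^ N *
          c k l m =
        res (D k ⊓ D l ⊓ D m) inf_le_left (a k l) +
          res (D k ⊓ D l ⊓ D m) (le_inf (inf_le_left.trans inf_le_right) inf_le_right) (a l m) -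
          res (D k ⊓ D l ⊓ D m) (le_inf (inf_le_left.trans inf_le_left) inf_le_right) (a k m) := by
  classical
  have hDV := D_le f D hD
  have hDV2 : ∀ k l, D k ⊓ D l ≤ V := fun k l => inf_le_left.trans (hDV k)
  have hDV3 : ∀ k l m, D k ⊓ D l ⊓ D m ≤ V := fun k l m => inf_le_left.trans (hDV2 k l)
  -- Step A: extend `f n ^ N * c n k l` from `D k ⊓ D l ⊓ D n` to `D k ⊓ D l`
  have hA : ∀ k l, ∃ (N : ℕ) (b : Γ(X, D k ⊓ D l)), b ∈ 𝒩.N (D k ⊓ D l) ∧
      res (D k ⊓ D l ⊓ D n) inf_le_left b =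
        (res (D k ⊓ D l ⊓ D n) (hDV3 k l n) (f n)) ^ N *
          res (D k ⊓ D l ⊓ D n)
            (le_inf (le_inf inf_le_right (inf_le_left.trans inf_le_left))
              (inf_le_left.trans inf_le_right)) (c n k l) := fun k l =>
    𝒩.exists_ext (f n) (isAffineOpen_D₂ f D hV hD k l) (hDV2 k l) (by rw [hD n]) inf_le_left
      _ (𝒩.res_mem _ (hcN n k l))
  choose N0 b0 hb0N hb0 using hA
  obtain ⟨N, hN⟩ : ∃ N : ℕ, ∀ k l, N0 k l ≤ N :=
    ⟨Finset.univ.sup (fun q : κ × κ => N0 q.1 q.2), fun k l =>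
      Finset.le_sup (f := fun q : κ × κ => N0 q.1 q.2) (Finset.mem_univ (k, l))⟩
  let b : ∀ k l, Γ(X, D k ⊓ D l) := fun k l =>
    (res (D k ⊓ D l) (hDV2 k l) (f n)) ^ (N - N0 k l) * b0 k l
  have hbN : ∀ k l, b k l ∈ 𝒩.N (D k ⊓ D l) := fun k l => Ideal.mul_mem_left _ _ (hb0N k l)
  have hb : ∀ k l, res (D k ⊓ D l ⊓ D n) inf_le_left (b k l) =
      (res (D k ⊓ D l ⊓ D n) (hDV3 k l n) (f n)) ^ N *
        res (D k ⊓ D l ⊓ D n)
          (le_inf (le_inf inf_le_right (inf_le_left.trans inf_le_left))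
            (inf_le_left.trans inf_le_right)) (c n k l) := by
    intro k l
    simp only [b, map_mul, map_pow, res_res, hb0 k l]
    rw [← mul_assoc, ← pow_add, Nat.sub_add_cancel (hN k l)]
  -- the same on any smaller open
  have hb' : ∀ k l (O : X.Opens) (hk : O ≤ D k) (hl : O ≤ D l) (hn : O ≤ D n),
      res O (le_inf hk hl) (b k l) =
        (res O (hk.trans (hDV k)) (f n)) ^ N * res O (le_inf (le_inf hn hk) hl) (c n k l) := by
    intro k l O hk hl hn
    have h := congrArg (res O (le_inf (le_inf hk hl) hn)) (hb k l)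
    simp only [map_mul, map_pow, res_res] at h
    exact h
  -- Step B: the defect is killed by a power of `f n`
  have hB : ∀ k l m, ∃ P : ℕ,
      (res (D k ⊓ D l ⊓ D m) (hDV3 k l m) (f n)) ^ P *
        (res (D k ⊓ D l ⊓ D m) inf_le_left (b k l) +
          res (D k ⊓ D l ⊓ D m) (le_inf (inf_le_left.trans inf_le_right) inf_le_right) (b l m) -
          res (D k ⊓ D l ⊓ D m) (le_inf (inf_le_left.trans inf_le_left) inf_le_right) (b k m) -
          (res (D k ⊓ D l ⊓ D m) (hDV3 k l m) (f n)) ^ N * c k l m) = 0 := by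
    intro k l m
    refine exists_pow_mul_eq_zero_of_res_eq_zero (E := D k ⊓ D l ⊓ D m ⊓ D n) (f n)
      (isAffineOpen_D₃ f D hV hD k l m) (hDV3 k l m) (by rw [hD n]) inf_le_left _ ?_
    set E : X.Opens := D k ⊓ D l ⊓ D m ⊓ D n with hE
    have hEk : E ≤ D k := (inf_le_left.trans inf_le_left).trans inf_le_left
    have hEl : E ≤ D l := (inf_le_left.trans inf_le_left).trans inf_le_right
    have hEm : E ≤ D m := inf_le_left.trans inf_le_right
    have hEn : E ≤ D n := inf_le_right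
    simp only [map_sub, map_add, map_mul, map_pow, res_res]
    rw [hb' k l E hEk hEl hEn, hb' l m E hEl hEm hEn, hb' k m E hEk hEm hEn]
    have hcc := hc n k l m E hEn hEk hEl hEm
    linear_combination (-(res E (hEk.trans (hDV k)) (f n)) ^ N) * hcc
  choose P0 hP0 using hB
  obtain ⟨P, hP⟩ : ∃ P : ℕ, ∀ k l m, P0 k l m ≤ P :=
    ⟨Finset.univ.sup (fun q : κ × κ × κ => P0 q.1 q.2.1 q.2.2), fun k l m =>
      Finset.le_sup (f := fun q : κ × κ × κ => P0 q.1 q.2.1 q.2.2) (Finset.mem_univ (k, l, m))⟩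
  refine ⟨P + N, fun k l => (res (D k ⊓ D l) (hDV2 k l) (f n)) ^ P * b k l,
    fun k l => Ideal.mul_mem_left _ _ (hbN k l), fun k l m => ?_⟩
  have h0 := hP0 k l m
  have h1 : (res (D k ⊓ D l ⊓ D m) (hDV3 k l m) (f n)) ^ P *
      (res (D k ⊓ D l ⊓ D m) inf_le_left (b k l) +
        res (D k ⊓ D l ⊓ D m) (le_inf (inf_le_left.trans inf_le_right) inf_le_right) (b l m) -
        res (D k ⊓ D l ⊓ D m) (le_inf (inf_le_left.trans inf_le_left) inf_le_right) (b k m) -
        (res (D k ⊓ D l ⊓ D m) (hDV3 k l m) (f n)) ^ N * c k l m) = 0 := by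
    rw [← Nat.sub_add_cancel (hP k l m), pow_add, mul_assoc, h0, mul_zero]
  simp only [map_mul, map_pow, res_res]
  rw [pow_add]
  linear_combination (-1 : Γ(X, D k ⊓ D l ⊓ D m)) * h1

omit [Fintype κ] in
/-- partition of unity with exponents. -/
theorem exists_partition_pow [Fintype κ] (hspan : Ideal.span (Set.range f) = ⊤) (M : ℕ) :
    ∃ c : κ → Γ(X, V), ∑ n, c n * f n ^ M = 1 := by
  have hspanN : Ideal.span (Set.range fun m => f m ^ M) = ⊤ := by
    have := Ideal.span_pow_eq_top (Set.range f) hspan M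
    rwa [← Set.range_comp] at this
  have h1mem : (1 : Γ(X, V)) ∈ Ideal.span (Set.range fun m => f m ^ M) := by
    rw [hspanN]; trivial
  exact (Ideal.mem_span_range_iff_exists_fun).1 h1mem

/-- **Čech `H¹` of a quasi-coherent sheaf of ideals vanishes** on a finite cover of an affine
open by basic opens. -/
theorem exists_cobdry₁ (hV : IsAffineOpen V) (hspan : Ideal.span (Set.range f) = ⊤)
    (hD : ∀ k, D k = X.basicOpen (f k))
    (α : ∀ k l, Γ(X, D k ⊓ D l)) (hαN : ∀ k l, α k l ∈ 𝒩.N (D k ⊓ D l))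
    (hα : ∀ k l m (O : X.Opens) (hk : O ≤ D k) (hl : O ≤ D l) (hm : O ≤ D m),
      res O (le_inf hk hl) (α k l) + res O (le_inf hl hm) (α l m) =
        res O (le_inf hk hm) (α k m)) :
    ∃ β : ∀ k, Γ(X, D k), (∀ k, β k ∈ 𝒩.N (D k)) ∧ ∀ k l,
      α k l = res (D k ⊓ D l) inf_le_left (β k) - res (D k ⊓ D l) inf_le_right (β l) := by
  classical
  have hDV := D_le f D hD
  choose N0 β0 hβ0N hβ0 using fun n => exists_local_cobdry₁ 𝒩 f D hV hD n α hαN hα
  obtain ⟨M, hM⟩ : ∃ M : ℕ, ∀ n, N0 n ≤ M :=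
    ⟨Finset.univ.sup N0, fun n => Finset.le_sup (Finset.mem_univ n)⟩
  obtain ⟨c, hc⟩ := exists_partition_pow f hspan M
  refine ⟨fun k => ∑ n, res (D k) (hDV k) (c n * f n ^ (M - N0 n)) * β0 n k,
    fun k => Ideal.sum_mem _ (fun n _ => Ideal.mul_mem_left _ _ (hβ0N n k)), fun k l => ?_⟩
  have hE : D k ⊓ D l ≤ V := inf_le_left.trans (hDV k)
  simp only [map_sum, map_mul, map_pow, res_res]
  rw [← Finset.sum_sub_distrib]
  have hterm : ∀ n ∈ (Finset.univ : Finset κ),
      res (D k ⊓ D l) hE (c n) * res (D k ⊓ D l) hE (f n) ^ (M - N0 n) *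
          res (D k ⊓ D l) inf_le_left (β0 n k) -
        res (D k ⊓ D l) hE (c n) * res (D k ⊓ D l) hE (f n) ^ (M - N0 n) *
          res (D k ⊓ D l) inf_le_right (β0 n l) =
      res (D k ⊓ D l) hE (c n) * res (D k ⊓ D l) hE (f n) ^ M * α k l := by
    intro n _
    have h := hβ0 n k l
    have hpow : res (D k ⊓ D l) hE (f n) ^ M =
        res (D k ⊓ D l) hE (f n) ^ (M - N0 n) * res (D k ⊓ D l) hE (f n) ^ N0 n := by
      rw [← pow_add, Nat.sub_add_cancel (hM n)]
    rw [hpow]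
    linear_combination (-(res (D k ⊓ D l) hE (c n) * res (D k ⊓ D l) hE (f n) ^ (M - N0 n))) * h
  rw [Finset.sum_congr rfl hterm, ← Finset.sum_mul]
  have h1 := congrArg (res (D k ⊓ D l) hE) hc
  simp only [map_sum, map_mul, map_pow, map_one] at h1
  rw [h1, one_mul]

/-- **Čech `H²` of a quasi-coherent sheaf of ideals vanishes** on a finite cover of an affine
open by basic opens. -/
theorem exists_cobdry₂ (hV : IsAffineOpen V) (hspan : Ideal.span (Set.range f) = ⊤)
    (hD : ∀ k, D k = X.basicOpen (f k))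
    (c : ∀ k l m, Γ(X, D k ⊓ D l ⊓ D m)) (hcN : ∀ k l m, c k l m ∈ 𝒩.N (D k ⊓ D l ⊓ D m))
    (hc : ∀ k l m p (O : X.Opens) (hk : O ≤ D k) (hl : O ≤ D l) (hm : O ≤ D m) (hp : O ≤ D p),
      res O (le_inf (le_inf hl hm) hp) (c l m p) - res O (le_inf (le_inf hk hm) hp) (c k m p) +
        res O (le_inf (le_inf hk hl) hp) (c k l p) - res O (le_inf (le_inf hk hl) hm) (c k l m)
        = 0) :
    ∃ a : ∀ k l, Γ(X, D k ⊓ D l), (∀ k l, a k l ∈ 𝒩.N (D k ⊓ D l)) ∧ ∀ k l m,
      c k l m =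
        res (D k ⊓ D l ⊓ D m) inf_le_left (a k l) +
          res (D k ⊓ D l ⊓ D m) (le_inf (inf_le_left.trans inf_le_right) inf_le_right) (a l m) -
          res (D k ⊓ D l ⊓ D m) (le_inf (inf_le_left.trans inf_le_left) inf_le_right) (a k m) := by
  classical
  have hDV := D_le f D hD
  have hDV2 : ∀ k l, D k ⊓ D l ≤ V := fun k l => inf_le_left.trans (hDV k)
  choose N0 a0 ha0N ha0 using fun n => exists_local_cobdry₂ 𝒩 f D hV hD n c hcN hc
  obtain ⟨M, hM⟩ : ∃ M : ℕ, ∀ n, N0 n ≤ M :=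
    ⟨Finset.univ.sup N0, fun n => Finset.le_sup (Finset.mem_univ n)⟩
  obtain ⟨e, he⟩ := exists_partition_pow f hspan M
  refine ⟨fun k l => ∑ n, res (D k ⊓ D l) (hDV2 k l) (e n * f n ^ (M - N0 n)) * a0 n k l,
    fun k l => Ideal.sum_mem _ (fun n _ => Ideal.mul_mem_left _ _ (ha0N n k l)), fun k l m => ?_⟩
  have hE : D k ⊓ D l ⊓ D m ≤ V := inf_le_left.trans (hDV2 k l)
  simp only [map_sum, map_mul, map_pow, res_res]
  rw [← Finset.sum_add_distrib, ← Finset.sum_sub_distrib]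
  have hterm : ∀ n ∈ (Finset.univ : Finset κ),
      res (D k ⊓ D l ⊓ D m) hE (e n) * res (D k ⊓ D l ⊓ D m) hE (f n) ^ (M - N0 n) *
          res (D k ⊓ D l ⊓ D m) inf_le_left (a0 n k l) +
        res (D k ⊓ D l ⊓ D m) hE (e n) * res (D k ⊓ D l ⊓ D m) hE (f n) ^ (M - N0 n) *
          res (D k ⊓ D l ⊓ D m) (le_inf (inf_le_left.trans inf_le_right) inf_le_right)
            (a0 n l m) -
        res (D k ⊓ D l ⊓ D m) hE (e n) * res (D k ⊓ D l ⊓ D m) hE (f n) ^ (M - N0 n) *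
          res (D k ⊓ D l ⊓ D m) (le_inf (inf_le_left.trans inf_le_left) inf_le_right)
            (a0 n k m) =
      res (D k ⊓ D l ⊓ D m) hE (e n) * res (D k ⊓ D l ⊓ D m) hE (f n) ^ M * c k l m := by
    intro n _
    have h := ha0 n k l m
    have hpow : res (D k ⊓ D l ⊓ D m) hE (f n) ^ M =
        res (D k ⊓ D l ⊓ D m) hE (f n) ^ (M - N0 n) *
          res (D k ⊓ D l ⊓ D m) hE (f n) ^ N0 n := by
      rw [← pow_add, Nat.sub_add_cancel (hM n)]
    rw [hpow]
    linear_combination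
      (-(res (D k ⊓ D l ⊓ D m) hE (e n) * res (D k ⊓ D l ⊓ D m) hE (f n) ^ (M - N0 n))) * h
  rw [Finset.sum_congr rfl hterm, ← Finset.sum_mul]
  have h1 := congrArg (res (D k ⊓ D l ⊓ D m) hE) he
  simp only [map_sum, map_mul, map_pow, map_one] at h1
  rw [h1, one_mul]

end cover

end Coef

end

end Fermat.Agent.JAC
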