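/-
PROJECT JAC (S25) — helper3 — [J7] **`Pic X → Pic X₀` is injective for square-zero thickenings of
affine schemes**: a line bundle on an affine scheme `X` whose restriction to `X₀` is trivial is
trivial (`isTrivial_of_pullback_isTrivial`).  Used to re-rigidify lifted line bundles.
-/
import Mathlib
import Fermat.Agent.JAC.CECH_helper3_Affine
import Fermat.Agent.AV.LB_helper5_Pic
import Fermat.Agent.AV.THK_lead_Lift

set_option autoImplicit false

open AlgebraicGeometry CategoryTheory Limits Opposite TopologicalSpace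

universe u

namespace Fermat.Agent.JAC

open Fermat.Agent.AV

noncomputable section

namespace TrivAlg

variable {R : Type*} [CommRing R]

theorem cocycle_of_ratio (Glk Gml Gmk ul um tk tl : R) (hc : Gml * Glk = Gmk) (hl : ul * tl = 1)
    (h0 : (Glk * ul * tk - 1) * (Gml * um * tl - 1) = 0) :
    (Glk * ul * tk - 1) + (Gml * um * tl - 1) = Gmk * um * tk - 1 := by
  linear_combination (-1 : R) * h0 + (Glk * Gml * um * tk) * hl + (um * tk) * hc

theorem section_of_correction (Gkl Glk ul tk tl βk βl : R) (hkl : Gkl * Glk = 1)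
    (hl : ul * tl = 1) (hn : Glk * ul * tk - 1 = βk - βl) (h1 : (Glk * ul * tk - 1) * βk = 0) :
    tk * (1 - βk) = Gkl * (tl * (1 - βl)) := by
  linear_combination (-(1 - βk) * tk * ul * tl) * hkl + (-(1 - βk) * tk) * hl - (Gkl * tl) * h1 +
    (Gkl * tl) * hn

end TrivAlg

variable {X₀ X : Scheme.{u}}

/-- **`Pic X → Pic X₀` is injective** for a square-zero thickening `j : X₀ ⟶ X` of an affine
scheme `X`. -/
theorem isTrivial_of_pullback_isTrivial (j : X₀ ⟶ X) [QuasiCompact j] [IsAffine X]
    (hsurj : ∀ W : X.Opens, IsAffineOpen W → Function.Surjective (j.app W).hom)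
    (hsq : ∀ (W : X.Opens) (a b : Γ(X, W)), (j.app W).hom a = 0 → (j.app W).hom b = 0 → a * b = 0)
    (L : LB X) (h : (L.pullback j).IsTrivial) : L.IsTrivial := by
  classical
  obtain ⟨s₀, hs₀⟩ := h
  have hX : IsAffineOpen (⊤ : X.Opens) := isAffineOpen_top X
  obtain ⟨t, ht1, ht2⟩ := CechAffine.exists_finite_basicOpen_refinement hX L.U
    (by rw [L.iSup_U])
  let κ : Type u := ↥t
  let f : κ → Γ(X, ⊤) := fun k => k.1.1
  let idx : κ → L.ι := fun k => k.1.2
  let D : κ → X.Opens := fun k => X.basicOpen (f k)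
  have hD : ∀ k : κ, D k ≤ L.U (idx k) := fun k => ht1 k.1 k.2
  have hDaff : ∀ k, IsAffineOpen (D k) := fun k => hX.basicOpen (f k)
  have hcov : (⊤ : X.Opens) ≤ ⨆ k : κ, D k := by
    intro x hx
    obtain ⟨q, hq, hxq⟩ := ht2 x hx
    exact Opens.mem_iSup.2 ⟨⟨q, hq⟩, hxq⟩
  have hspan : Ideal.span (Set.range f) = ⊤ := by
    rw [← IsAffineOpen.iSup_basicOpen_eq_self_iff hX]
    refine le_antisymm (iSup_le fun g => X.basicOpen_le _) ?_
    refine hcov.trans (iSup_le fun k => ?_)
    exact le_iSup (fun g : Set.range f => X.basicOpen (g : Γ(X, ⊤))) ⟨f k, k, rfl⟩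
  have hnil : ∀ (O : X.Opens) (r : Γ(X, O)), (j.app O).hom r = 0 → IsNilpotent r :=
    fun O r hr => ⟨2, by rw [pow_two]; exact hsq O r r hr hr⟩
  -- lift the trivialising section on the refined cover
  have hlift : ∀ k, ∃ τ : Γ(X, D k), (j.app (D k)).hom τ =
      res (j ⁻¹ᵁ D k) ((Opens.map j.base).monotone (hD k)) (s₀.1 (idx k)) :=
    fun k => hsurj _ (hDaff k) _
  choose τ hτ using hlift
  have hτu : ∀ k, IsUnit (τ k) := fun k =>
    ThkLift.isUnit_of_map_of_nil_kernel (j.app (D k)).hom (hsurj _ (hDaff k)) (hnil _) (τ k)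
      (by rw [hτ]; exact (hs₀ (idx k)).map _)
  have hinv : ∀ k, ∃ u : Γ(X, D k), u * τ k = 1 := fun k => (hτu k).exists_left_inv
  choose u hu using hinv
  -- transition functions on the refined cover
  let G : ∀ k l : κ, Γ(X, D k ⊓ D l) := fun k l =>
    res (D k ⊓ D l) (le_inf (inf_le_left.trans (hD k)) (inf_le_right.trans (hD l)))
      (L.g (idx k) (idx l))
  have hG : ∀ k l m (O : X.Opens) (hk : O ≤ D k) (hl : O ≤ D l) (hm : O ≤ D m),
      res O (le_inf hk hl) (G k l) * res O (le_inf hl hm) (G l m) =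
        res O (le_inf hk hm) (G k m) := by
    intro k l m O hk hl hm
    simp only [G, res_res]
    exact L.cocycle' (idx k) (idx l) (idx m) O (hk.trans (hD k)) (hl.trans (hD l))
      (hm.trans (hD m))
  have hGself : ∀ k (O : X.Opens) (hk : O ≤ D k), res O (le_inf hk hk) (G k k) = 1 := by
    intro k O hk
    simp only [G, res_res]
    rw [L.g_self, map_one]
  have hu' : ∀ k (O : X.Opens) (hk : O ≤ D k), res O hk (u k) * res O hk (τ k) = 1 := by
    intro k O hk
    rw [← map_mul, hu, map_one]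
  -- the ratio cocycle
  let n : ∀ k l : κ, Γ(X, D k ⊓ D l) := fun k l =>
    res (D k ⊓ D l) (le_inf inf_le_right inf_le_left) (G l k) * res (D k ⊓ D l) inf_le_right (u l) *
      res (D k ⊓ D l) inf_le_left (τ k) - 1
  have hn' : ∀ k l (O : X.Opens) (hk : O ≤ D k) (hl : O ≤ D l),
      res O (le_inf hk hl) (n k l) =
        res O (le_inf hl hk) (G l k) * res O hl (u l) * res O hk (τ k) - 1 := by
    intro k l O hk hl
    simp only [n, map_sub, map_mul, map_one, res_res]
  have hnN : ∀ k l, n k l ∈ (Coef.ker j).N (D k ⊓ D l) := by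
    intro k l
    rw [Coef.mem_ker_iff]
    set E : X.Opens := D k ⊓ D l with hE
    have hOk : j ⁻¹ᵁ E ≤ (L.pullback j).U (idx k) :=
      ((Opens.map j.base).monotone inf_le_left).trans ((Opens.map j.base).monotone (hD k))
    have hOl : j ⁻¹ᵁ E ≤ (L.pullback j).U (idx l) :=
      ((Opens.map j.base).monotone inf_le_right).trans ((Opens.map j.base).monotone (hD l))
    have e1 : (j.app E).hom (res E inf_le_left (τ k)) = res (j ⁻¹ᵁ E) hOk (s₀.1 (idx k)) := by
      rw [app_res, hτ]
      exact res_res _ _ _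
    have e2 : (j.app E).hom (res E inf_le_right (τ l)) = res (j ⁻¹ᵁ E) hOl (s₀.1 (idx l)) := by
      rw [app_res, hτ]
      exact res_res _ _ _
    have e3 : (j.app E).hom (res E (le_inf inf_le_right inf_le_left) (G l k)) =
        res (j ⁻¹ᵁ E) (le_inf hOl hOk) ((L.pullback j).g (idx l) (idx k)) := by
      simp only [G, res_res]
      rw [app_res]
      rfl
    have e4 : (j.app E).hom (res E inf_le_right (u l)) *
        res (j ⁻¹ᵁ E) hOl (s₀.1 (idx l)) = 1 := by
      rw [← e2, ← map_mul, ← map_mul, hu, map_one, map_one]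
    have hsec := congrArg (res (j ⁻¹ᵁ E) (le_inf hOl hOk)) (s₀.2 (idx l) (idx k))
    simp only [map_mul, res_res] at hsec
    simp only [n, map_sub, map_mul, map_one]
    rw [e1, e3, mul_right_comm, ← hsec, mul_comm, e4, sub_self]
  have hnker : ∀ k l (O : X.Opens) (hk : O ≤ D k) (hl : O ≤ D l),
      (j.app O).hom (res O (le_inf hk hl) (n k l)) = 0 := fun k l O hk hl =>
    (Coef.ker j).res_mem _ (hnN k l)
  -- `n` is a `1`-cocycle
  have hncoc : ∀ k l m (O : X.Opens) (hk : O ≤ D k) (hl : O ≤ D l) (hm : O ≤ D m),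
      res O (le_inf hk hl) (n k l) + res O (le_inf hl hm) (n l m) =
        res O (le_inf hk hm) (n k m) := by
    intro k l m O hk hl hm
    have h0 := hsq O _ _ (hnker k l O hk hl) (hnker l m O hl hm)
    rw [hn' k l O hk hl, hn' l m O hl hm] at h0
    rw [hn' k l O hk hl, hn' l m O hl hm, hn' k m O hk hm]
    exact TrivAlg.cocycle_of_ratio _ _ _ _ _ _ _ (hG m l k O hm hl hk) (hu' l O hl) h0
  obtain ⟨β, hβN, hβ⟩ := (Coef.ker j).exists_cobdry₁ f D hX hspan (fun _ => rfl) n hnN hncoc
  -- the corrected frames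
  let τ' : ∀ k, Γ(X, D k) := fun k => τ k * (1 - β k)
  have hτ'u : ∀ k, IsUnit (τ' k) := by
    intro k
    refine (hτu k).mul (IsUnit.of_mul_eq_one (1 + β k) ?_)
    have h0 := hsq _ (β k) (β k) (hβN k) (hβN k)
    linear_combination (-1 : Γ(X, D k)) * h0
  have hτ' : ∀ k l (O : X.Opens) (hk : O ≤ D k) (hl : O ≤ D l),
      res O hk (τ' k) = res O (le_inf hk hl) (G k l) * res O hl (τ' l) := by
    intro k l O hk hl
    simp only [τ', map_mul, map_sub, map_one]
    have hβ' : res O (le_inf hl hk) (G l k) * res O hl (u l) * res O hk (τ k) - 1 =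
        res O hk (β k) - res O hl (β l) := by
      have h := congrArg (res O (le_inf hk hl)) (hβ k l)
      rw [hn' k l O hk hl, map_sub] at h
      rw [h]
      congr 1 <;> exact res_res _ _ _
    have hβker : (j.app O).hom (res O hk (β k)) = 0 := (Coef.ker j).res_mem _ (hβN k)
    have h1 := hsq O _ _ (hnker k l O hk hl) hβker
    rw [hn' k l O hk hl] at h1
    have hkl : res O (le_inf hk hl) (G k l) * res O (le_inf hl hk) (G l k) = 1 := by
      rw [hG k l k O hk hl hk, hGself k O hk]
    exact TrivAlg.section_of_correction _ _ _ _ _ _ _ hkl (hu' l O hl) hβ' h1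
  -- glue to a section of `L`
  have hglue : ∀ i, ∃! σ : Γ(X, L.U i), ∀ k : κ,
      res (L.U i ⊓ D k) inf_le_left σ =
        res (L.U i ⊓ D k) (le_inf inf_le_left (inf_le_right.trans (hD k))) (L.g i (idx k)) *
          res (L.U i ⊓ D k) inf_le_right (τ' k) := by
    intro i
    refine exists_glue (fun k : κ => L.U i ⊓ D k) (fun k => inf_le_left) ?_ _ ?_
    · intro x hx
      obtain ⟨k, hk⟩ := Opens.mem_iSup.1 (hcov (Set.mem_univ x))
      exact Opens.mem_iSup.2 ⟨k, ⟨hx, hk⟩⟩
    · intro k l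
      simp only [map_mul, res_res]
      set O : X.Opens := (L.U i ⊓ D k) ⊓ (L.U i ⊓ D l) with hO
      have hOi : O ≤ L.U i := inf_le_left.trans inf_le_left
      have hOk : O ≤ D k := inf_le_left.trans inf_le_right
      have hOl : O ≤ D l := inf_le_right.trans inf_le_right
      rw [hτ' k l O hOk hOl]
      have hc := L.cocycle' i (idx k) (idx l) O hOi (hOk.trans (hD k)) (hOl.trans (hD l))
      simp only [G, res_res]
      rw [← mul_assoc, hc]
  choose σ hσ _ using hglue
  have hσ' : ∀ i (k : κ) (O : X.Opens) (hi : O ≤ L.U i) (hk : O ≤ D k),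
      res O hi (σ i) = res O (le_inf hi (hk.trans (hD k))) (L.g i (idx k)) * res O hk (τ' k) := by
    intro i k O hi hk
    have h := congrArg (res O (le_inf hi hk)) (hσ i k)
    simp only [map_mul, res_res] at h
    exact h
  refine ⟨⟨σ, fun i i' => ?_⟩, fun i => ?_⟩
  · -- section property, checked on the cover by the `D k`
    refine eq_of_res_eq (fun k : κ => L.U i ⊓ L.U i' ⊓ D k) (fun k => inf_le_left) ?_ _ _ ?_
    · intro x hx
      obtain ⟨k, hk⟩ := Opens.mem_iSup.1 (hcov (Set.mem_univ x))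
      exact Opens.mem_iSup.2 ⟨k, ⟨hx, hk⟩⟩
    · intro k
      simp only [map_mul, res_res]
      set O : X.Opens := L.U i ⊓ L.U i' ⊓ D k with hO
      have hOi : O ≤ L.U i := inf_le_left.trans inf_le_left
      have hOi' : O ≤ L.U i' := inf_le_left.trans inf_le_right
      have hOk : O ≤ D k := inf_le_right
      rw [hσ' i k O hOi hOk, hσ' i' k O hOi' hOk, ← mul_assoc,
        L.cocycle' i i' (idx k) O hOi hOi' (hOk.trans (hD k))]
  · -- unit, checked on the cover by the `D k`
    refine LB.isUnit_of_cover (fun k : κ => L.U i ⊓ D k) (fun k => inf_le_left) ?_ _ ?_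
    · intro x hx
      obtain ⟨k, hk⟩ := Opens.mem_iSup.1 (hcov (Set.mem_univ x))
      exact Opens.mem_iSup.2 ⟨k, ⟨hx, hk⟩⟩
    · intro k
      rw [hσ' i k _ inf_le_left inf_le_right]
      exact ((L.isUnit_g i (idx k)).map _).mul ((hτ'u k).map _)

end

end Fermat.Agent.JAC
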