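/-
PROJECT JAC (S25) — helper3 — [J7] **the infinitesimal lifting criterion for smoothness**: a morphism
`p : J ⟶ Spec A` locally of finite presentation such that every `A`-morphism `Spec (B ⧸ I) ⟶ J`
(`I² = 0`) lifts to `Spec B ⟶ J` is smooth.  (Mathlib-only.)
-/
import Mathlib

set_option autoImplicit false

open AlgebraicGeometry CategoryTheory Limits Opposite TopologicalSpace

universe u

namespace Fermat.Agent.JAC

/-- the spectrum of a quotient by a nilpotent ideal surjects onto the spectrum. -/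
theorem specMap_quotient_surjective_of_sq_zero {B : Type u} [CommRing B] (I : Ideal B)
    (hI : I ^ 2 = ⊥) :
    Function.Surjective (Spec.map (CommRingCat.ofHom (Ideal.Quotient.mk I))).base := by
  intro x
  -- `x` is a prime of `B`; it contains `I`
  let 𝔭 : PrimeSpectrum B := x
  have hle : I ≤ 𝔭.asIdeal := by
    intro a ha
    have h2 : a ^ 2 ∈ I ^ 2 := Ideal.pow_mem_pow ha 2
    rw [hI] at h2
    have h0 : a ^ 2 = 0 := h2
    exact 𝔭.isPrime.mem_of_pow_mem 2 (h0 ▸ 𝔭.asIdeal.zero_mem)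
  have hmem : 𝔭 ∈ Set.range (PrimeSpectrum.comap (Ideal.Quotient.mk I)) := by
    rw [_root_.range_comap_of_surjective _ _ Ideal.Quotient.mk_surjective]
    rw [PrimeSpectrum.mem_zeroLocus, Ideal.mk_ker]
    exact hle
  obtain ⟨y, hy⟩ := hmem
  exact ⟨y, hy⟩

set_option backward.isDefEq.respectTransparency.types false in
/-- **infinitesimal lifting criterion**: a morphism to an affine scheme which is locally of finite
presentation and satisfies the infinitesimal lifting property for square-zero thickenings of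
affine schemes is smooth. -/
theorem smooth_of_infinitesimal_lifting {A : CommRingCat.{u}} {J : Scheme.{u}} (p : J ⟶ Spec A)
    [LocallyOfFinitePresentation p]
    (hlift : ∀ (B : CommRingCat.{u}) (I : Ideal B), I ^ 2 = ⊥ → ∀ (b : A ⟶ B)
      (g₀ : Spec (CommRingCat.of (B ⧸ I)) ⟶ J),
      g₀ ≫ p = Spec.map (b ≫ CommRingCat.ofHom (Ideal.Quotient.mk I)) →
      ∃ g : Spec B ⟶ J, g ≫ p = Spec.map b ∧
        Spec.map (CommRingCat.ofHom (Ideal.Quotient.mk I)) ≫ g = g₀) :
    Smooth p := by
  let 𝒰 := J.affineOpenCover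
  rw [IsZariskiLocalAtSource.iff_of_openCover (P := @Smooth) 𝒰.openCover]
  intro i
  obtain ⟨φ, hφ⟩ : ∃ φ : A ⟶ 𝒰.X i, 𝒰.f i ≫ p = Spec.map φ :=
    ⟨Spec.preimage _, (Spec.map_preimage _).symm⟩
  show Smooth (𝒰.f i ≫ p)
  have hfp : φ.hom.FinitePresentation := by
    have h : LocallyOfFinitePresentation (𝒰.f i ≫ p) := inferInstance
    rw [hφ, LocallyOfFinitePresentation.SpecMap_iff] at h
    exact h
  rw [hφ, HasRingHomProperty.Spec_iff (P := @Smooth), RingHom.smooth_def]
  refine ⟨?_, hfp⟩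
  let _ : Algebra A (𝒰.X i) := φ.hom.toAlgebra
  show Algebra.FormallySmooth A (𝒰.X i)
  refine Algebra.FormallySmooth.of_comp_surjective fun B _ _ I hI f => ?_
  -- the morphism `Spec (B ⧸ I) ⟶ J`
  let fr : 𝒰.X i ⟶ CommRingCat.of (B ⧸ I) := CommRingCat.ofHom f.toRingHom
  let b : A ⟶ CommRingCat.of B := CommRingCat.ofHom (algebraMap A B)
  let q : CommRingCat.of B ⟶ CommRingCat.of (B ⧸ I) := CommRingCat.ofHom (Ideal.Quotient.mk I)
  have hfr : φ ≫ fr = b ≫ q := by
    ext a
    exact (f.commutes a).trans (IsScalarTower.algebraMap_apply A B (B ⧸ I) a)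
  obtain ⟨g, hg1, hg2⟩ := hlift (CommRingCat.of B) I hI b (Spec.map fr ≫ 𝒰.f i) (by
    rw [Category.assoc, hφ, ← Spec.map_comp, hfr])
  -- `g` factors through the chart
  have hrange : Set.range g.base ⊆ Set.range (𝒰.f i).base := by
    rintro _ ⟨x, rfl⟩
    obtain ⟨y, rfl⟩ := specMap_quotient_surjective_of_sq_zero I hI x
    refine ⟨(Spec.map fr).base y, ?_⟩
    have h := congrArg (fun m => m.base y) hg2
    simpa using h.symm
  let l : Spec (CommRingCat.of B) ⟶ Spec (𝒰.X i) := IsOpenImmersion.lift (𝒰.f i) g hrange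
  have hl : l ≫ 𝒰.f i = g := IsOpenImmersion.lift_fac _ _ _
  let h : 𝒰.X i ⟶ CommRingCat.of B := Spec.preimage l
  have hh : Spec.map h = l := Spec.map_preimage l
  -- `h` is an `A`-algebra map
  have h1 : φ ≫ h = b := by
    apply Spec.map_injective
    rw [Spec.map_comp, hh, ← hφ, ← Category.assoc, hl, hg1]
  -- `h` lifts `f`
  have h2 : h ≫ q = fr := by
    apply Spec.map_injective
    rw [Spec.map_comp, hh]
    apply (cancel_mono (𝒰.f i)).1
    rw [Category.assoc, hl, hg2]
  refine ⟨{ h.hom with commutes' := fun a => ?_ }, ?_⟩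
  · exact congrArg (fun m => m.hom a) h1
  · ext x
    exact congrArg (fun m => m.hom x) h2

end Fermat.Agent.JAC
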