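/-
PROJECT JAC (S25) — helper3 — [ČECH-IDEAL (c)] **lifting line bundles through a square-zero
thickening**: for `j : X₀ ⟶ X` a homeomorphism, surjective on sections over affine opens, whose
ideal has square zero, with `X = U₀ ∪ U₁` two affine opens and `U₀ ⊓ U₁` a basic open of both,
every line bundle on `X₀` is the restriction of a line bundle on `X`
(`exists_lift_of_sq_zero`).  This is the formal smoothness of the Picard functor of a curve.
-/
import Mathlib
import Fermat.Agent.JAC.CECH_helper3_TwoAffine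
import Fermat.Agent.AV.LB_helper5_Pic
import Fermat.Agent.AV.THK_lead_Lift

set_option autoImplicit false

open AlgebraicGeometry CategoryTheory Limits Opposite TopologicalSpace

universe u

namespace Fermat.Agent.JAC

open Fermat.Agent.AV

noncomputable section

namespace LiftAlg

variable {R : Type*} [CommRing R]

/-- the defect of a lifted cocycle is a `2`-cocycle. -/
theorem cocycle_of_defect (Gkl Glm Gmp Gkm Glp Ukm Ulp Ukp : R)
    (hkm : Ukm * Gkm = 1) (hlp : Ulp * Glp = 1)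
    (h1 : (Ukp * Gkm * Gmp - 1) * (Ukm * Gkl * Glm - 1) = 0)
    (h2 : (Ukp * Gkl * Glp - 1) * (Ulp * Glm * Gmp - 1) = 0) :
    (Ulp * Glm * Gmp - 1) - (Ukp * Gkm * Gmp - 1) + (Ukp * Gkl * Glp - 1) -
      (Ukm * Gkl * Glm - 1) = 0 := by
  linear_combination h1 - h2 + (Ukp * Gkl * Glm * Gmp) * hlp - (Ukp * Gkl * Glm * Gmp) * hkm

/-- correcting a lifted cocycle by a primitive of its defect gives a cocycle. -/
theorem cocycle_of_correction (Gkl Glm Gkm Ukm Akl Alm Akm : R) (hkm : Ukm * Gkm = 1)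
    (hC : Ukm * Gkl * Glm - 1 = Akl + Alm - Akm) (h1 : Akl * Alm = 0)
    (h2 : (Ukm * Gkl * Glm - 1) * Akl = 0) (h3 : (Ukm * Gkl * Glm - 1) * Alm = 0) :
    Gkl * (1 - Akl) * (Glm * (1 - Alm)) = Gkm * (1 - Akm) := by
  linear_combination Gkm * hC - Gkm * h2 - Gkm * h3 - (Gkl * Glm * (1 - Akl - Alm)) * hkm +
    Gkl * Glm * h1

end LiftAlg

variable {X₀ X : Scheme.{u}}

/-- **lifting a multiplicative cocycle** through a square-zero thickening, on a finite cover of
`X = U₀ ∪ U₁` by basic opens of `U₀` or `U₁`. -/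
theorem exists_lift_cocycle (j : X₀ ⟶ X) [QuasiCompact j]
    (hsurj : ∀ W : X.Opens, IsAffineOpen W → Function.Surjective (j.app W).hom)
    (hsq : ∀ (W : X.Opens) (a b : Γ(X, W)), (j.app W).hom a = 0 → (j.app W).hom b = 0 → a * b = 0)
    (haff : ∀ U U' : X.Opens, IsAffineOpen U → IsAffineOpen U' → IsAffineOpen (U ⊓ U'))
    {U₀ U₁ : X.Opens} (h₀ : IsAffineOpen U₀) (h₁ : IsAffineOpen U₁) (hU : U₀ ⊔ U₁ = ⊤)
    (x₀ : Γ(X, U₀)) (x₁ : Γ(X, U₁)) (hx₀ : U₀ ⊓ U₁ = X.basicOpen x₀)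
    (hx₁ : U₀ ⊓ U₁ = X.basicOpen x₁)
    {κ : Type*} [Fintype κ] (W : κ → X.Opens)
    (hW : ∀ k, (∃ f : Γ(X, U₀), W k = X.basicOpen f) ∨ (∃ f : Γ(X, U₁), W k = X.basicOpen f))
    (hWcov : ⨆ k, W k = ⊤)
    (g₀ : ∀ k l, Γ(X₀, j ⁻¹ᵁ (W k ⊓ W l))) (hg₀u : ∀ k l, IsUnit (g₀ k l))
    (hg₀ : ∀ k l m,
      res (j ⁻¹ᵁ (W k ⊓ W l ⊓ W m)) ((Opens.map j.base).monotone inf_le_left) (g₀ k l) *
        res (j ⁻¹ᵁ (W k ⊓ W l ⊓ W m)) ((Opens.map j.base).monotone
          (le_inf (inf_le_left.trans inf_le_right) inf_le_right)) (g₀ l m) =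
      res (j ⁻¹ᵁ (W k ⊓ W l ⊓ W m)) ((Opens.map j.base).monotone
          (le_inf (inf_le_left.trans inf_le_left) inf_le_right)) (g₀ k m)) :
    ∃ g : ∀ k l, Γ(X, W k ⊓ W l), (∀ k l, (j.app (W k ⊓ W l)).hom (g k l) = g₀ k l) ∧
      (∀ k l, IsUnit (g k l)) ∧
      ∀ k l m, res (W k ⊓ W l ⊓ W m) inf_le_left (g k l) *
          res (W k ⊓ W l ⊓ W m) (le_inf (inf_le_left.trans inf_le_right) inf_le_right) (g l m) =
        res (W k ⊓ W l ⊓ W m) (le_inf (inf_le_left.trans inf_le_left) inf_le_right) (g k m) := by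
  classical
  have hWaff : ∀ k, IsAffineOpen (W k) := by
    intro k
    rcases hW k with ⟨f, hf⟩ | ⟨f, hf⟩
    · rw [hf]; exact h₀.basicOpen f
    · rw [hf]; exact h₁.basicOpen f
  have hW2aff : ∀ k l, IsAffineOpen (W k ⊓ W l) := fun k l => haff _ _ (hWaff k) (hWaff l)
  have hnil : ∀ (O : X.Opens) (r : Γ(X, O)), (j.app O).hom r = 0 → IsNilpotent r :=
    fun O r hr => ⟨2, by rw [pow_two]; exact hsq O r r hr hr⟩
  -- lift the transition functions
  have hlift : ∀ k l, ∃ g : Γ(X, W k ⊓ W l), (j.app (W k ⊓ W l)).hom g = g₀ k l :=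
    fun k l => hsurj _ (hW2aff k l) _
  choose g hg using hlift
  have hgu : ∀ k l, IsUnit (g k l) := fun k l =>
    ThkLift.isUnit_of_map_of_nil_kernel (j.app (W k ⊓ W l)).hom (hsurj _ (hW2aff k l)) (hnil _)
      (g k l) (by rw [hg]; exact hg₀u k l)
  have hinv : ∀ k l, ∃ u : Γ(X, W k ⊓ W l), u * g k l = 1 := fun k l =>
    (hgu k l).exists_left_inv
  choose u hu using hinv
  -- the defect
  let c : ∀ k l m, Γ(X, W k ⊓ W l ⊓ W m) := fun k l m =>
    res (W k ⊓ W l ⊓ W m) (le_inf (inf_le_left.trans inf_le_left) inf_le_right) (u k m) *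
      res (W k ⊓ W l ⊓ W m) inf_le_left (g k l) *
      res (W k ⊓ W l ⊓ W m) (le_inf (inf_le_left.trans inf_le_right) inf_le_right) (g l m) - 1
  have hcN : ∀ k l m, c k l m ∈ (Coef.ker j).N (W k ⊓ W l ⊓ W m) := by
    intro k l m
    rw [Coef.mem_ker_iff]
    simp only [c, map_sub, map_mul, map_one, app_res, hg]
    rw [mul_assoc, hg₀ k l m, ← hg k m, ← map_mul, ← map_mul, hu, map_one, map_one, sub_self]
  have hc' : ∀ k l m (O : X.Opens) (hk : O ≤ W k) (hl : O ≤ W l) (hm : O ≤ W m),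
      res O (le_inf (le_inf hk hl) hm) (c k l m) =
        res O (le_inf hk hm) (u k m) * res O (le_inf hk hl) (g k l) *
          res O (le_inf hl hm) (g l m) - 1 := by
    intro k l m O hk hl hm
    simp only [c, map_sub, map_mul, map_one, res_res]
  have hcker : ∀ k l m (O : X.Opens) (hk : O ≤ W k) (hl : O ≤ W l) (hm : O ≤ W m),
      (j.app O).hom (res O (le_inf (le_inf hk hl) hm) (c k l m)) = 0 := fun k l m O hk hl hm =>
    (Coef.ker j).res_mem _ (hcN k l m)
  have hu' : ∀ k l (O : X.Opens) (hk : O ≤ W k) (hl : O ≤ W l),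
      res O (le_inf hk hl) (u k l) * res O (le_inf hk hl) (g k l) = 1 := by
    intro k l O hk hl
    rw [← map_mul, hu, map_one]
  have hc : ∀ k l m p (O : X.Opens) (hk : O ≤ W k) (hl : O ≤ W l) (hm : O ≤ W m) (hp : O ≤ W p),
      res O (le_inf (le_inf hl hm) hp) (c l m p) - res O (le_inf (le_inf hk hm) hp) (c k m p) +
        res O (le_inf (le_inf hk hl) hp) (c k l p) - res O (le_inf (le_inf hk hl) hm) (c k l m)
        = 0 := by
    intro k l m p O hk hl hm hp
    have h1 := hsq O _ _ (hcker k m p O hk hm hp) (hcker k l m O hk hl hm)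
    have h2 := hsq O _ _ (hcker k l p O hk hl hp) (hcker l m p O hl hm hp)
    rw [hc' k m p O hk hm hp, hc' k l m O hk hl hm] at h1
    rw [hc' k l p O hk hl hp, hc' l m p O hl hm hp] at h2
    rw [hc' l m p O hl hm hp, hc' k m p O hk hm hp, hc' k l p O hk hl hp, hc' k l m O hk hl hm]
    exact LiftAlg.cocycle_of_defect _ _ _ _ _ _ _ _ (hu' k m O hk hm) (hu' l p O hl hp) h1 h2
  -- the defect is a coboundary
  obtain ⟨a, haN, ha⟩ := (Coef.ker j).exists_cobdry₂_of_two_affine h₀ h₁ hU x₀ x₁ hx₀ hx₁ W hW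
    hWcov c hcN hc
  have haker : ∀ k l (O : X.Opens) (hk : O ≤ W k) (hl : O ≤ W l),
      (j.app O).hom (res O (le_inf hk hl) (a k l)) = 0 := fun k l O hk hl =>
    (Coef.ker j).res_mem _ (haN k l)
  refine ⟨fun k l => g k l * (1 - a k l), fun k l => ?_, fun k l => ?_, fun k l m => ?_⟩
  · have h0 : (j.app (W k ⊓ W l)).hom (a k l) = 0 := haN k l
    rw [map_mul, map_sub, map_one, h0, sub_zero, mul_one, hg]
  · refine (hgu k l).mul (IsUnit.of_mul_eq_one (1 + a k l) ?_)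
    have h0 := hsq _ (a k l) (a k l) (haN k l) (haN k l)
    linear_combination (-1 : Γ(X, W k ⊓ W l)) * h0
  · set O : X.Opens := W k ⊓ W l ⊓ W m with hO
    have hk : O ≤ W k := inf_le_left.trans inf_le_left
    have hl : O ≤ W l := inf_le_left.trans inf_le_right
    have hm : O ≤ W m := inf_le_right
    simp only [map_mul, map_sub, map_one]
    refine LiftAlg.cocycle_of_correction _ _ _ (res O (le_inf hk hm) (u k m)) _ _ _
      (hu' k m O hk hm) ?_ ?_ ?_ ?_
    · have h := ha k l m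
      have h' := hc' k l m O hk hl hm
      rw [res_self] at h'
      rw [← h', h]
    · exact hsq O _ _ (haker k l O hk hl) (haker l m O hl hm)
    · have h' := hc' k l m O hk hl hm
      rw [← h']
      exact hsq O _ _ (hcker k l m O hk hl hm) (haker k l O hk hl)
    · have h' := hc' k l m O hk hl hm
      rw [← h']
      exact hsq O _ _ (hcker k l m O hk hl hm) (haker l m O hl hm)

/-- **(c) formal smoothness of the Picard functor**: every line bundle on `X₀` lifts to `X`, for a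
square-zero thickening `j : X₀ ⟶ X` of a scheme covered by two affine opens whose intersection is
a basic open of both. -/
theorem exists_lift_of_sq_zero (j : X₀ ⟶ X) [QuasiCompact j] (hhomeo : IsHomeomorph j.base)
    (hsurj : ∀ W : X.Opens, IsAffineOpen W → Function.Surjective (j.app W).hom)
    (hsq : ∀ (W : X.Opens) (a b : Γ(X, W)), (j.app W).hom a = 0 → (j.app W).hom b = 0 → a * b = 0)
    (haff : ∀ U U' : X.Opens, IsAffineOpen U → IsAffineOpen U' → IsAffineOpen (U ⊓ U'))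
    {U₀ U₁ : X.Opens} (h₀ : IsAffineOpen U₀) (h₁ : IsAffineOpen U₁) (hU : U₀ ⊔ U₁ = ⊤)
    (x₀ : Γ(X, U₀)) (x₁ : Γ(X, U₁)) (hx₀ : U₀ ⊓ U₁ = X.basicOpen x₀)
    (hx₁ : U₀ ⊓ U₁ = X.basicOpen x₁) (L₀ : LB X₀) :
    ∃ L : LB X, LB.Iso L₀ (L.pullback j) := by
  classical
  -- the images of the charts of `L₀`
  let V : L₀.ι → X.Opens := fun i =>
    ⟨j.base '' (L₀.U i : Set X₀), hhomeo.isOpenMap _ (L₀.U i).2⟩
  have hV : ∀ i, j ⁻¹ᵁ V i = L₀.U i := by
    intro i
    ext x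
    exact hhomeo.injective.mem_set_image
  have hVcov : ⨆ i, V i = ⊤ := by
    rw [eq_top_iff]
    intro x _
    obtain ⟨y, rfl⟩ := hhomeo.surjective x
    have hy : y ∈ (⨆ i, L₀.U i : X₀.Opens) := by rw [L₀.iSup_U]; trivial
    obtain ⟨i, hi⟩ := Opens.mem_iSup.1 hy
    exact Opens.mem_iSup.2 ⟨i, ⟨y, hi, rfl⟩⟩
  obtain ⟨t₀, ht₀, ht₀'⟩ := CechAffine.exists_finite_basicOpen_refinement h₀ V
    (by rw [hVcov]; exact le_top)
  obtain ⟨t₁, ht₁, ht₁'⟩ := CechAffine.exists_finite_basicOpen_refinement h₁ V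
    (by rw [hVcov]; exact le_top)
  let κ : Type u := ↥t₀ ⊕ ↥t₁
  let W : κ → X.Opens := Sum.elim (fun q => X.basicOpen q.1.1) (fun q => X.basicOpen q.1.1)
  let idx : κ → L₀.ι := Sum.elim (fun q => q.1.2) (fun q => q.1.2)
  have hW : ∀ k, (∃ f : Γ(X, U₀), W k = X.basicOpen f) ∨
      (∃ f : Γ(X, U₁), W k = X.basicOpen f) := by
    rintro (q | q)
    · exact Or.inl ⟨q.1.1, rfl⟩
    · exact Or.inr ⟨q.1.1, rfl⟩
  have hWV : ∀ k, W k ≤ V (idx k) := by
    rintro (q | q)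
    · exact ht₀ q.1 q.2
    · exact ht₁ q.1 q.2
  have hWcov : ⨆ k, W k = ⊤ := by
    rw [eq_top_iff]
    intro x _
    have hx : x ∈ U₀ ⊔ U₁ := by rw [hU]; trivial
    rcases hx with hx | hx
    · obtain ⟨q, hq, hxq⟩ := ht₀' x hx
      exact Opens.mem_iSup.2 ⟨Sum.inl ⟨q, hq⟩, hxq⟩
    · obtain ⟨q, hq, hxq⟩ := ht₁' x hx
      exact Opens.mem_iSup.2 ⟨Sum.inr ⟨q, hq⟩, hxq⟩
  have hW₀ : ∀ k, j ⁻¹ᵁ W k ≤ L₀.U (idx k) := fun k => by
    rw [← hV]; exact (Opens.map j.base).monotone (hWV k)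
  -- the cocycle of `L₀` on the refined cover
  let g₀ : ∀ k l, Γ(X₀, j ⁻¹ᵁ (W k ⊓ W l)) := fun k l =>
    res _ (le_inf (((Opens.map j.base).monotone inf_le_left).trans (hW₀ k))
      (((Opens.map j.base).monotone inf_le_right).trans (hW₀ l))) (L₀.g (idx k) (idx l))
  obtain ⟨g, hg, hgu, hgc⟩ := exists_lift_cocycle j hsurj hsq haff h₀ h₁ hU x₀ x₁ hx₀ hx₁ W hW
    hWcov g₀ (fun k l => (L₀.isUnit_g _ _).map _) (fun k l m => by
      simp only [g₀, res_res]
      exact L₀.cocycle' (idx k) (idx l) (idx m) (j ⁻¹ᵁ (W k ⊓ W l ⊓ W m))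
        (((Opens.map j.base).monotone (inf_le_left.trans inf_le_left)).trans (hW₀ k))
        (((Opens.map j.base).monotone (inf_le_left.trans inf_le_right)).trans (hW₀ l))
        (((Opens.map j.base).monotone inf_le_right).trans (hW₀ m)))
  have hgself : ∀ k, g k k = 1 := by
    intro k
    have h := hgc k k k
    have hu : IsUnit (res (W k ⊓ W k ⊓ W k) inf_le_left (g k k)) := (hgu k k).map _
    have h1 : res (W k ⊓ W k ⊓ W k) inf_le_left (g k k) = 1 := by
      have h' : res (W k ⊓ W k ⊓ W k) inf_le_left (g k k) *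
          res (W k ⊓ W k ⊓ W k) inf_le_left (g k k) =
          res (W k ⊓ W k ⊓ W k) inf_le_left (g k k) * 1 := by
        rw [mul_one]; exact h
      exact hu.mul_left_cancel h'
    have h2 := congrArg (res (W k ⊓ W k) (le_inf le_rfl inf_le_left)) h1
    rw [res_res, map_one] at h2
    rw [← h2]
    exact (res_self _).symm
  let L : LB X :=
    { ι := κ
      U := W
      iSup_U := hWcov
      g := g
      g_self := hgself
      cocycle := hgc }
  refine ⟨L, ⟨{
    κ := κ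
    W := fun k => j ⁻¹ᵁ W k
    iSup_W := by
      have h := congrArg (fun O => j ⁻¹ᵁ O) hWcov
      simp only [Opens.map_iSup] at h
      exact h
    α := idx
    β := id
    hα := hW₀
    hβ := fun _ => le_rfl
    f := fun _ => 1
    fi := fun _ => 1
    f_mul_fi := fun _ => mul_one 1
    compat := fun k l => ?_ }⟩⟩
  simp only [map_one, one_mul, mul_one]
  show _ = res _ _ ((j.app (W k ⊓ W l)).hom (g k l))
  rw [hg k l]
  exact (res_res _ _ _).symm

/-- the square-zero condition may be checked on affine opens. -/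
theorem sq_zero_of_isAffineOpen (j : X₀ ⟶ X)
    (hsq : ∀ (W : X.Opens), IsAffineOpen W → ∀ a b : Γ(X, W),
      (j.app W).hom a = 0 → (j.app W).hom b = 0 → a * b = 0)
    (W : X.Opens) (a b : Γ(X, W)) (ha : (j.app W).hom a = 0) (hb : (j.app W).hom b = 0) :
    a * b = 0 := by
  refine eq_of_res_eq (fun V : {V : X.Opens // IsAffineOpen V ∧ V ≤ W} => V.1)
    (fun V => V.2.2) ?_ _ _ ?_
  · intro x hx
    obtain ⟨V, hV, hxV, hVW⟩ := (Opens.isBasis_iff_nbhd.mp X.isBasis_affineOpens) hx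
    exact Opens.mem_iSup.mpr ⟨⟨V, hV, hVW⟩, hxV⟩
  · intro V
    rw [map_mul, map_zero]
    refine hsq V.1 V.2.1 _ _ ?_ ?_
    · rw [app_res, ha, map_zero]
    · rw [app_res, hb, map_zero]

/-- **(c)** for closed immersions: a surjective closed immersion `j : X₀ ⟶ X` with square-zero
ideal into a separated scheme `X = U₀ ∪ U₁` (two affine opens, `U₀ ⊓ U₁` basic in both): every line
bundle on `X₀` lifts to `X`. -/
theorem exists_lift_of_isClosedImmersion (j : X₀ ⟶ X) [IsClosedImmersion j] [X.IsSeparated]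
    (hsurjb : Function.Surjective j.base)
    (hsq : ∀ (W : X.Opens), IsAffineOpen W → ∀ a b : Γ(X, W),
      (j.app W).hom a = 0 → (j.app W).hom b = 0 → a * b = 0)
    {U₀ U₁ : X.Opens} (h₀ : IsAffineOpen U₀) (h₁ : IsAffineOpen U₁) (hU : U₀ ⊔ U₁ = ⊤)
    (x₀ : Γ(X, U₀)) (x₁ : Γ(X, U₁)) (hx₀ : U₀ ⊓ U₁ = X.basicOpen x₀)
    (hx₁ : U₀ ⊓ U₁ = X.basicOpen x₁) (L₀ : LB X₀) :
    ∃ L : LB X, LB.Iso L₀ (L.pullback j) :=
  exists_lift_of_sq_zero j (isHomeomorph_iff_isEmbedding_surjective.2 ⟨j.isEmbedding, hsurjb⟩)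
    (fun W hW => j.app_surjective W hW) (sq_zero_of_isAffineOpen j hsq)
    (fun _ _ hU hU' => hU.inf hU') h₀ h₁ hU x₀ x₁ hx₀ hx₁ L₀

end

end Fermat.Agent.JAC
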