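/-
PROJECT JAC (S25) — helper3 — [J7] **lifting line bundles from `C × S₀` to `C × S`** for a
square-zero thickening `S₀ ⟶ S` of affine `k`-schemes and a separated `k`-scheme `C` covered by two
affine opens whose intersection is a basic open of both: the hypotheses of
`exists_lift_of_isClosedImmersion` for the base change `j : C × S₀ ⟶ C × S`.
-/
import Mathlib
import Fermat.Agent.JAC.CECH_helper3_Lift

set_option autoImplicit false

open AlgebraicGeometry CategoryTheory Limits Opposite TopologicalSpace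

universe u

namespace Fermat.Agent.JAC

open Fermat.Agent.AV

noncomputable section

theorem appLE_top_top {X Y : Scheme.{u}} (f : X ⟶ Y) (e : (⊤ : X.Opens) ≤ f ⁻¹ᵁ ⊤)
    (r : Γ(Y, ⊤)) : (f.appLE ⊤ ⊤ e).hom r = f.appTop.hom r := by
  show res (⊤ : X.Opens) (le_refl _) (f.appTop.hom r) = _
  exact res_self _

theorem appLE_self {X Y : Scheme.{u}} (f : X ⟶ Y) (U : Y.Opens) (a : Γ(Y, U)) :
    (f.appLE U (f ⁻¹ᵁ U) le_rfl).hom a = (f.app U).hom a := by
  rw [← Scheme.Hom.app_eq_appLE]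

/-- in a pushout of commutative rings `A ← R → R'` with `R → R'` surjective, the kernel of
`A → P` is generated by the kernel of `R → R'`. -/
theorem mem_map_ker_of_isPushout {R R' A P : CommRingCat.{u}} {f : R ⟶ A} {g : R ⟶ R'}
    {inl : A ⟶ P} {inr : R' ⟶ P} (h : IsPushout f g inl inr) (hg : Function.Surjective g.hom)
    (a : A) (ha : inl.hom a = 0) : a ∈ Ideal.map f.hom (RingHom.ker g.hom) := by
  set 𝔞 : Ideal A := Ideal.map f.hom (RingHom.ker g.hom) with h𝔞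
  let φ : R →+* A ⧸ 𝔞 := (Ideal.Quotient.mk 𝔞).comp f.hom
  have hφ : RingHom.ker g.hom ≤ RingHom.ker φ := by
    intro r hr
    rw [RingHom.mem_ker, RingHom.comp_apply, Ideal.Quotient.eq_zero_iff_mem]
    exact Ideal.mem_map_of_mem _ hr
  let k : R' →+* A ⧸ 𝔞 := g.hom.liftOfSurjective hg ⟨φ, hφ⟩
  have hk : k.comp g.hom = φ := g.hom.liftOfRightInverse_comp _ _ ⟨φ, hφ⟩
  let d : P ⟶ CommRingCat.of (A ⧸ 𝔞) :=
    h.desc (CommRingCat.ofHom (Ideal.Quotient.mk 𝔞)) (CommRingCat.ofHom k) (by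
      ext r
      exact (congrArg (fun m => m r) hk).symm)
  have hd : inl ≫ d = CommRingCat.ofHom (Ideal.Quotient.mk 𝔞) := h.inl_desc _ _ _
  have h1 := congrArg (fun m => m.hom a) hd
  simp only [CommRingCat.hom_comp, RingHom.comp_apply, CommRingCat.hom_ofHom] at h1
  rw [ha, map_zero] at h1
  exact Ideal.Quotient.eq_zero_iff_mem.1 h1.symm

/-- the ideal of a base change of a square-zero closed immersion of affine schemes has square
zero on affine opens. -/
theorem sq_zero_of_isPullback {X X₀ S S₀ : Scheme.{u}} [IsAffine S] [IsAffine S₀]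
    {j : X₀ ⟶ X} {qS₀ : X₀ ⟶ S₀} {qS : X ⟶ S} {π : S₀ ⟶ S} (H : IsPullback j qS₀ qS π)
    (hπsurj : Function.Surjective π.appTop.hom)
    (hπsq : ∀ a b : Γ(S, ⊤), π.appTop.hom a = 0 → π.appTop.hom b = 0 → a * b = 0)
    (W : X.Opens) (hW : IsAffineOpen W) (a b : Γ(X, W))
    (ha : (j.app W).hom a = 0) (hb : (j.app W).hom b = 0) : a * b = 0 := by
  have hUST : (⊤ : S₀.Opens) ≤ π ⁻¹ᵁ ⊤ := le_top
  have hUSX : W ≤ qS ⁻¹ᵁ ⊤ := le_top
  have hUY : j ⁻¹ᵁ W = j ⁻¹ᵁ W ⊓ qS₀ ⁻¹ᵁ ⊤ := by simp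
  have hiso := isIso_pushoutSection_of_isAffineOpen H hUST hUSX hUY (isAffineOpen_top S)
    (isAffineOpen_top S₀) hW
  have hpo := (isIso_pushoutSection_iff H hUST hUSX hUY).mp hiso
  have hsurj' : Function.Surjective (π.appLE ⊤ ⊤ hUST).hom := by
    intro y
    obtain ⟨x, hx⟩ := hπsurj y
    exact ⟨x, (appLE_top_top π _ x).trans hx⟩
  have hker : ∀ r : Γ(S, ⊤), r ∈ RingHom.ker (π.appLE ⊤ ⊤ hUST).hom → π.appTop.hom r = 0 := by
    intro r hr
    rw [← appLE_top_top π hUST r]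
    exact hr
  have hmem : ∀ x : Γ(X, W), (j.app W).hom x = 0 →
      x ∈ Ideal.map (qS.appLE ⊤ W hUSX).hom (RingHom.ker (π.appLE ⊤ ⊤ hUST).hom) := by
    intro x hx
    refine mem_map_ker_of_isPushout hpo hsurj' x ?_
    rw [← appLE_self] at hx
    exact hx
  have hI : RingHom.ker (π.appLE ⊤ ⊤ hUST).hom * RingHom.ker (π.appLE ⊤ ⊤ hUST).hom = ⊥ := by
    rw [eq_bot_iff, Ideal.mul_le]
    intro r hr r' hr'
    rw [Ideal.mem_bot]
    exact hπsq r r' (hker r hr) (hker r' hr')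
  have hab := Ideal.mul_mem_mul (hmem a ha) (hmem b hb)
  rw [← Ideal.map_mul, hI, Ideal.map_bot, Ideal.mem_bot] at hab
  exact hab

/-- **lifting line bundles through `C × S₀ ⟶ C × S`** for a square-zero thickening `π : S₀ ⟶ S` of
affine `k`-schemes, `C` separated over `k` with a two-affine cover. -/
theorem exists_lift_of_base_change {K : Type u} [Field K] {C X X₀ S S₀ : Scheme.{u}}
    (c : C ⟶ Spec (CommRingCat.of K)) [IsSeparated c]
    (s : S ⟶ Spec (CommRingCat.of K)) (s₀ : S₀ ⟶ Spec (CommRingCat.of K))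
    [IsAffine S] [IsAffine S₀] (π : S₀ ⟶ S) (hπ : π ≫ s = s₀) [IsClosedImmersion π]
    [Surjective π]
    (hπsq : ∀ a b : Γ(S, ⊤), π.appTop.hom a = 0 → π.appTop.hom b = 0 → a * b = 0)
    {qC : X ⟶ C} {qS : X ⟶ S} (HX : IsPullback qC qS c s)
    {qC₀ : X₀ ⟶ C} {qS₀ : X₀ ⟶ S₀} (HX₀ : IsPullback qC₀ qS₀ c s₀)
    (j : X₀ ⟶ X) (hj1 : j ≫ qC = qC₀) (hj2 : j ≫ qS = qS₀ ≫ π)
    {V₀ V₁ : C.Opens} (hV₀ : IsAffineOpen V₀) (hV₁ : IsAffineOpen V₁) (hV : V₀ ⊔ V₁ = ⊤)
    (y₀ : Γ(C, V₀)) (y₁ : Γ(C, V₁)) (hy₀ : V₀ ⊓ V₁ = C.basicOpen y₀)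
    (hy₁ : V₀ ⊓ V₁ = C.basicOpen y₁) (L₀ : LB X₀) :
    ∃ L : LB X, LB.Iso L₀ (L.pullback j) := by
  subst hj1 hπ
  -- the left square is cartesian
  have H : IsPullback j qS₀ qS π := IsPullback.of_right HX₀ hj2 HX
  have : IsClosedImmersion j := MorphismProperty.of_isPullback H.flip ‹_›
  have : Surjective j := MorphismProperty.of_isPullback H.flip ‹_›
  have : X.IsSeparated := by
    have h1 : IsSeparated qS := MorphismProperty.of_isPullback HX ‹_›
    have e : terminal.from X = qS ≫ terminal.from S := Subsingleton.elim _ _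
    constructor
    rw [e]; infer_instance
  have : IsAffineHom qC := by
    have : IsAffineHom s := inferInstance
    exact MorphismProperty.of_isPullback HX.flip this
  have hπsurj : Function.Surjective π.appTop.hom := fun y => by
    obtain ⟨x, hx⟩ := π.app_surjective ⊤ (isAffineOpen_top S) y
    exact ⟨x, hx⟩
  refine exists_lift_of_isClosedImmersion j (Surjective.surj (f := j))
    (sq_zero_of_isPullback H hπsurj hπsq) (U₀ := qC ⁻¹ᵁ V₀) (U₁ := qC ⁻¹ᵁ V₁)
    (hV₀.preimage qC) (hV₁.preimage qC) ?_ ((qC.app V₀).hom y₀) ((qC.app V₁).hom y₁) ?_ ?_ L₀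
  · exact congrArg (fun O => qC ⁻¹ᵁ O) hV
  · have h := congrArg (fun O => qC ⁻¹ᵁ O) hy₀
    simp only [Scheme.preimage_basicOpen] at h
    exact h
  · have h := congrArg (fun O => qC ⁻¹ᵁ O) hy₁
    simp only [Scheme.preimage_basicOpen] at h
    exact h

end

end Fermat.Agent.JAC
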