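/-
PROJECT JAC (S25) — helper3 — [J7-top] **smoothness of the representing scheme.**

`LBRepresentsAE0 c ε D` (helper9's LB-level form of `RepresentsRelSubPic c ε (algEquivZeroCut c ε) D`)
over a field `k`, with `D.toBase` locally of finite type and `C` separated with a two-affine cover,
implies `Smooth D.toBase`: infinitesimal lifting criterion + lifting of line bundles through
square-zero thickenings + re-rigidification.

Also: base-change stability of the LB-level notions (`LBRigidified`, `LBIsAlgEquivZero`,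
`LBFibrewiseAE0`), in `PicGroup` language.
-/
import Mathlib
import Fermat.Agent.JAC.TOP_helper9_Bridge
import Fermat.Agent.JAC.SMOOTH_helper3_Criterion
import Fermat.Agent.JAC.SMOOTH_helper3_Thicken
import Fermat.Agent.JAC.CECH_helper3_Triv

set_option autoImplicit false

open AlgebraicGeometry CategoryTheory Limits Opposite TopologicalSpace
  AlgebraicGeometry.RelPicard NeronModelInfra GoodReductionJacobian

universe u

namespace Fermat.Agent.JAC

open Fermat.Agent.AV

noncomputable section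

namespace SmoothTop

/-! ### `PicGroup` reformulations -/

theorem iso_iff_mk_eq {X : Scheme.{u}} (M N : LB X) : LB.Iso M N ↔ PicGroup.mk M = PicGroup.mk N :=
  (PicGroup.mk_eq_mk_iff M N).symm

theorem mk_pullback {X Y : Scheme.{u}} (φ : Y ⟶ X) (M : LB X) :
    PicGroup.mk (M.pullback φ) = PicGroup.map φ (PicGroup.mk M) := rfl

theorem map_map {X Y Z : Scheme.{u}} (φ : Z ⟶ Y) (ψ : Y ⟶ X) (x : PicGroup X) :
    PicGroup.map φ (PicGroup.map ψ x) = PicGroup.map (φ ≫ ψ) x :=
  (PicGroup.map_comp φ ψ x).symm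

theorem isTrivial_iff_mk_eq_zero {X : Scheme.{u}} (M : LB X) : M.IsTrivial ↔ PicGroup.mk M = 0 :=
  (PicGroup.mk_eq_zero_iff M).symm

/-! ### stability of the LB-level notions -/

section general

theorem lbIsAlgEquivZero_of_iso {k : Type u} [Field k] {A : Scheme.{u}}
    {a : A ⟶ Spec (CommRingCat.of k)} {L L' : LB A} (e : LB.Iso L L')
    (hL : LBIsAlgEquivZero a L) : LBIsAlgEquivZero a L' := by
  obtain ⟨T', h, hft, hgi, M, t₀, t₁, e₀, e₁⟩ := hL
  refine ⟨T', h, hft, hgi, M, t₀, t₁, e₀, ?_⟩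
  rw [iso_iff_mk_eq] at e e₁ ⊢
  rw [e₁, mk_pullback, mk_pullback, e]

theorem lbIsAlgEquivZero_pullback {k : Type u} [Field k] {A A' : Scheme.{u}}
    {a : A ⟶ Spec (CommRingCat.of k)} {a' : A' ⟶ Spec (CommRingCat.of k)} (e : A' ⟶ A)
    (he : e ≫ a = a') {L : LB A} (hL : LBIsAlgEquivZero a L) :
    LBIsAlgEquivZero a' (L.pullback e) := by
  obtain ⟨T', h, hft, hgi, M, t₀, t₁, e₀, e₁⟩ := hL
  let eT : Limits.pullback a' h ⟶ Limits.pullback a h :=
    pullback.map a' h a h e (𝟙 T') (𝟙 _) (by rw [Category.comp_id, he]) (by simp)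
  let e1 : Limits.pullback a' (𝟙 (Spec (CommRingCat.of k))) ⟶
      Limits.pullback a (𝟙 (Spec (CommRingCat.of k))) :=
    pullback.map a' (𝟙 _) a (𝟙 _) e (𝟙 _) (𝟙 _) (by rw [Category.comp_id, he]) (by simp)
  have hsq : ∀ tt : SchemeHomOver (𝟙 (Spec (CommRingCat.of k))) h,
      baseChangeSnd a' tt ≫ eT = e1 ≫ baseChangeSnd a tt := by
    intro tt
    apply pullback.hom_ext <;>
      simp only [eT, e1, baseChangeSnd, Category.assoc, pullback.lift_fst, pullback.lift_snd,
        pullback.lift_fst_assoc, pullback.lift_snd_assoc, Category.comp_id]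
  have hfst : e1 ≫ pullback.fst a (𝟙 _) = pullback.fst a' (𝟙 _) ≫ e := by
    simp only [e1, pullback.lift_fst]
  refine ⟨T', h, hft, hgi, M.pullback eT, t₀, t₁, ?_, ?_⟩
  · rw [isTrivial_iff_mk_eq_zero] at e₀ ⊢
    rw [mk_pullback, mk_pullback, map_map, hsq t₀, ← map_map, ← mk_pullback, e₀, map_zero]
  · rw [iso_iff_mk_eq] at e₁ ⊢
    rw [mk_pullback, mk_pullback, map_map, hsq t₁, ← map_map, ← mk_pullback, e₁, mk_pullback,
      mk_pullback, mk_pullback, map_map, map_map, hfst]

variable {R : Type u} [CommRing R] {C : Scheme.{u}} {c : C ⟶ Spec (CommRingCat.of R)}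
  {ε : SchemeHomOver (𝟙 (Spec (CommRingCat.of R))) c}

theorem lbRigidified_of_iso {T : Scheme.{u}} {t : T ⟶ Spec (CommRingCat.of R)}
    {M M' : LB (pullback c t)} (e : LB.Iso M M') (hM : LBRigidified c ε t M) :
    LBRigidified c ε t M' := by
  unfold LBRigidified at hM ⊢
  rw [isTrivial_iff_mk_eq_zero] at hM ⊢
  rw [iso_iff_mk_eq] at e
  rw [mk_pullback, ← e, ← mk_pullback, hM]

theorem lbRigidified_pullback {T T' : Scheme.{u}} {t : T ⟶ Spec (CommRingCat.of R)}
    {t' : T' ⟶ Spec (CommRingCat.of R)} (ψ : SchemeHomOver t' t) {M : LB (pullback c t)}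
    (hM : LBRigidified c ε t M) : LBRigidified c ε t' (M.pullback (baseChangeSnd c ψ)) := by
  unfold LBRigidified at hM ⊢
  rw [isTrivial_iff_mk_eq_zero] at hM ⊢
  rw [mk_pullback, mk_pullback, map_map, rigSection_baseChangeSnd, ← map_map, ← mk_pullback, hM,
    map_zero]

theorem lbFibrewiseAE0_of_iso {T : Scheme.{u}} {t : T ⟶ Spec (CommRingCat.of R)}
    {M M' : LB (pullback c t)} (e : LB.Iso M M') (hM : LBFibrewiseAE0 c t M) :
    LBFibrewiseAE0 c t M' := by
  intro k _ _ s
  refine lbIsAlgEquivZero_of_iso ?_ (hM k s)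
  rw [iso_iff_mk_eq] at e ⊢
  rw [mk_pullback, mk_pullback, e]

theorem lbFibrewiseAE0_pullback {T T' : Scheme.{u}} {t : T ⟶ Spec (CommRingCat.of R)}
    {t' : T' ⟶ Spec (CommRingCat.of R)} (ψ : SchemeHomOver t' t) {M : LB (pullback c t)}
    (hM : LBFibrewiseAE0 c t M) : LBFibrewiseAE0 c t' (M.pullback (baseChangeSnd c ψ)) := by
  intro k _ _ s'
  have hψ : pullback.snd c t' ≫ ψ.1 = baseChangeSnd c ψ ≫ pullback.snd c t := by
    simp only [baseChangeSnd, pullback.lift_snd]
  let e : Limits.pullback (pullback.snd c t') s' ⟶ Limits.pullback (pullback.snd c t) (s' ≫ ψ.1) :=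
    pullback.map _ _ _ _ (baseChangeSnd c ψ) (𝟙 _) ψ.1 hψ (by simp)
  have he : e ≫ fibreAt c t (s' ≫ ψ.1) = fibreAt c t' s' := by
    simp only [e, fibreAt, pullback.lift_snd, Category.comp_id]
  have hfst : e ≫ pullback.fst (pullback.snd c t) (s' ≫ ψ.1) =
      pullback.fst (pullback.snd c t') s' ≫ baseChangeSnd c ψ := by
    simp only [e, pullback.lift_fst]
  refine lbIsAlgEquivZero_of_iso ?_ (lbIsAlgEquivZero_pullback e he (hM k (s' ≫ ψ.1)))
  rw [iso_iff_mk_eq, mk_pullback, mk_pullback, mk_pullback, mk_pullback, map_map, map_map, hfst]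

/-- the converse direction at a point: if the pull-back of `M` to `T'` is algebraically equivalent
to zero on the fibre at `s'`, then `M` is so on the fibre at `s' ≫ ψ`. -/
theorem lbIsAlgEquivZero_fibre_of_pullback {T T' : Scheme.{u}} {t : T ⟶ Spec (CommRingCat.of R)}
    {t' : T' ⟶ Spec (CommRingCat.of R)} (ψ : SchemeHomOver t' t) (M : LB (pullback c t))
    {k : Type u} [Field k] (s' : Spec (CommRingCat.of k) ⟶ T')
    (hM : LBIsAlgEquivZero (fibreAt c t' s')
      ((M.pullback (baseChangeSnd c ψ)).pullback (pullback.fst (pullback.snd c t') s'))) :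
    LBIsAlgEquivZero (fibreAt c t (s' ≫ ψ.1))
      (M.pullback (pullback.fst (pullback.snd c t) (s' ≫ ψ.1))) := by
  -- the canonical map from the fibre over `s' ≫ ψ` to the fibre over `s'`
  let e₁ : Limits.pullback (pullback.snd c t) (s' ≫ ψ.1) ⟶ pullback c t' :=
    pullback.lift (pullback.fst _ _ ≫ pullback.fst c t) (pullback.snd _ _ ≫ s') (by
      rw [Category.assoc, pullback.condition, ← Category.assoc, pullback.condition, Category.assoc,
        Category.assoc, Category.assoc, ψ.2])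
  let e : Limits.pullback (pullback.snd c t) (s' ≫ ψ.1) ⟶ Limits.pullback (pullback.snd c t') s' :=
    pullback.lift e₁ (pullback.snd _ _) (by simp only [e₁, pullback.lift_snd])
  have he : e ≫ fibreAt c t' s' = fibreAt c t (s' ≫ ψ.1) := by
    simp only [e, fibreAt, pullback.lift_snd]
  have hfst : e ≫ pullback.fst (pullback.snd c t') s' ≫ baseChangeSnd c ψ =
      pullback.fst (pullback.snd c t) (s' ≫ ψ.1) := by
    apply pullback.hom_ext
    · simp only [e, e₁, baseChangeSnd, Category.assoc, pullback.lift_fst, pullback.lift_fst_assoc,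
        Category.comp_id]
    · simp only [e, e₁, baseChangeSnd, Category.assoc, pullback.lift_snd, pullback.lift_fst_assoc,
        pullback.lift_snd_assoc]
      rw [pullback.condition]
  refine lbIsAlgEquivZero_of_iso ?_ (lbIsAlgEquivZero_pullback e he hM)
  rw [iso_iff_mk_eq, mk_pullback, mk_pullback, mk_pullback, mk_pullback, map_map, map_map,
    Category.assoc, hfst]

end general

/-! ### affine square-zero thickenings -/

section thickening

variable {B : CommRingCat.{u}} (I : Ideal B)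

/-- the thickening `Spec (B ⧸ I) ⟶ Spec B`. -/
abbrev thk : Spec (CommRingCat.of (B ⧸ I)) ⟶ Spec B :=
  Spec.map (CommRingCat.ofHom (Ideal.Quotient.mk I))

theorem thk_appTop_sq_zero (hI : I ^ 2 = ⊥) (a b : Γ(Spec B, ⊤))
    (ha : (thk I).appTop.hom a = 0) (hb : (thk I).appTop.hom b = 0) : a * b = 0 := by
  have hnat := Scheme.ΓSpecIso_naturality (CommRingCat.ofHom (Ideal.Quotient.mk I))
  have hmem : ∀ r : Γ(Spec B, ⊤), (thk I).appTop.hom r = 0 → (Scheme.ΓSpecIso B).hom.hom r ∈ I := by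
    intro r hr
    have h1 := congrArg (fun φ => φ.hom r) hnat
    simp only [CommRingCat.hom_comp, RingHom.comp_apply, CommRingCat.hom_ofHom] at h1
    rw [hr, map_zero] at h1
    exact Ideal.Quotient.eq_zero_iff_mem.1 h1.symm
  have hab : (Scheme.ΓSpecIso B).hom.hom (a * b) ∈ I ^ 2 := by
    rw [map_mul, pow_two]
    exact Ideal.mul_mem_mul (hmem a ha) (hmem b hb)
  rw [hI, Ideal.mem_bot] at hab
  have hinj : Function.Injective (Scheme.ΓSpecIso B).hom.hom :=
    ((ConcreteCategory.bijective_of_isIso (Scheme.ΓSpecIso B).hom)).1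
  exact hinj (hab.trans (map_zero _).symm)

/-- field-valued points factor through a nilpotent thickening. -/
theorem exists_factor_thk (hI : I ^ 2 = ⊥) {K : Type u} [Field K]
    (x : Spec (CommRingCat.of K) ⟶ Spec B) :
    ∃ x₀ : Spec (CommRingCat.of K) ⟶ Spec (CommRingCat.of (B ⧸ I)), x₀ ≫ thk I = x := by
  let f : B ⟶ CommRingCat.of K := Spec.preimage x
  have hf : ∀ a ∈ I, f.hom a = 0 := by
    intro a ha
    have h2 : a ^ 2 ∈ I ^ 2 := Ideal.pow_mem_pow ha 2
    rw [hI, Ideal.mem_bot] at h2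
    have h3 : (f.hom a) ^ 2 = 0 := by rw [← map_pow, h2, map_zero]
    exact pow_eq_zero_iff (two_ne_zero) |>.1 h3
  refine ⟨Spec.map (CommRingCat.ofHom (Ideal.Quotient.lift I f.hom hf)), ?_⟩
  rw [← Spec.map_comp]
  have : CommRingCat.ofHom (Ideal.Quotient.mk I) ≫
      CommRingCat.ofHom (Ideal.Quotient.lift I f.hom hf) = f := by
    ext a
    simp
  rw [this, Spec.map_preimage]

end thickening

/-! ### the main theorem -/

section main

variable {k : Type u} [Field k] {C : Scheme.{u}} (c : C ⟶ Spec (CommRingCat.of k))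
  (ε : SchemeHomOver (𝟙 (Spec (CommRingCat.of k))) c)

instance thk_isClosedImmersion {B : CommRingCat.{u}} (I : Ideal B) : IsClosedImmersion (thk I) :=
  IsClosedImmersion.spec_of_surjective _ Ideal.Quotient.mk_surjective

/-- **re-rigidification**: a line bundle on `C × Spec B` whose restriction to `C × Spec (B ⧸ I)`,
`I² = 0`, is rigidified, is rigidified. -/
theorem lbRigidified_of_thk {B : CommRingCat.{u}} (I : Ideal B) (hI : I ^ 2 = ⊥)
    (s : Spec B ⟶ Spec (CommRingCat.of k))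
    (s₀ : Spec (CommRingCat.of (B ⧸ I)) ⟶ Spec (CommRingCat.of k)) (hπ : thk I ≫ s = s₀)
    (L : LB (pullback c s))
    (hL : LBRigidified c ε s₀
      (L.pullback (baseChangeSnd c (⟨thk I, hπ⟩ : SchemeHomOver s₀ s)))) :
    LBRigidified c ε s L := by
  unfold LBRigidified at hL ⊢
  have hπsurj : Function.Surjective (thk I).appTop.hom := fun y => by
    obtain ⟨x, hx⟩ := (thk I).app_surjective ⊤ (isAffineOpen_top _) y
    exact ⟨x, hx⟩
  refine isTrivial_of_pullback_isTrivial (thk I) (fun W hW => (thk I).app_surjective W hW)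
    (sq_zero_of_isAffineOpen (thk I) (fun W hW a b ha hb =>
      sq_zero_of_isPullback (IsPullback.id_vert (thk I)) hπsurj (thk_appTop_sq_zero I hI)
        W hW a b ha hb)) _ ?_
  rw [isTrivial_iff_mk_eq_zero] at hL ⊢
  have hcomm := rigSection_baseChangeSnd c ε (⟨thk I, hπ⟩ : SchemeHomOver s₀ s)
  rw [mk_pullback, mk_pullback, map_map] at hL ⊢
  rw [hcomm] at hL
  exact hL

/-- **[J7-top], generic form**: let `𝒬` be a condition on line bundles on the `C × T` which is
invariant under isomorphisms, stable under base change and insensitive to square-zero thickenings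
of affine bases.  If `(D.P, P)` represents the functor of rigidified line bundles satisfying `𝒬`
and `D.toBase` is locally of finite type, then `D.toBase` is smooth (`k` a field, `C` separated
with a two-affine cover). -/
theorem smooth_of_represents [IsSeparated c]
    {V₀ V₁ : C.Opens} (hV₀ : IsAffineOpen V₀) (hV₁ : IsAffineOpen V₁) (hV : V₀ ⊔ V₁ = ⊤)
    (y₀ : Γ(C, V₀)) (y₁ : Γ(C, V₁)) (hy₀ : V₀ ⊓ V₁ = C.basicOpen y₀)
    (hy₁ : V₀ ⊓ V₁ = C.basicOpen y₁)
    (D : RelativePic0Designation k c) [LocallyOfFiniteType D.toBase]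
    (𝒬 : ∀ {T : Scheme.{u}} (t : T ⟶ Spec (CommRingCat.of k)), LB (pullback c t) → Prop)
    (h𝒬iso : ∀ {T : Scheme.{u}} {t : T ⟶ Spec (CommRingCat.of k)} {M M' : LB (pullback c t)},
      LB.Iso M M' → 𝒬 t M → 𝒬 t M')
    (h𝒬pb : ∀ {T T' : Scheme.{u}} {t : T ⟶ Spec (CommRingCat.of k)}
      {t' : T' ⟶ Spec (CommRingCat.of k)} (ψ : SchemeHomOver t' t) {M : LB (pullback c t)},
      𝒬 t M → 𝒬 t' (M.pullback (baseChangeSnd c ψ)))
    (h𝒬thk : ∀ (B : CommRingCat.{u}) (I : Ideal B), I ^ 2 = ⊥ →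
      ∀ (s : Spec B ⟶ Spec (CommRingCat.of k))
        (s₀ : Spec (CommRingCat.of (B ⧸ I)) ⟶ Spec (CommRingCat.of k)) (hπ : thk I ≫ s = s₀)
        (L : LB (pullback c s)),
        𝒬 s₀ (L.pullback (baseChangeSnd c (⟨thk I, hπ⟩ : SchemeHomOver s₀ s))) → 𝒬 s L)
    (P : LB (pullback c D.toBase)) (hrig : LBRigidified c ε D.toBase P) (hP : 𝒬 D.toBase P)
    (huniv : ∀ {T : Scheme.{u}} (t : T ⟶ Spec (CommRingCat.of k)) (M : LB (pullback c t)),
      LBRigidified c ε t M → 𝒬 t M →
      ∃! g : SchemeHomOver t D.toBase, LB.Iso (P.pullback (baseChangeSnd c g)) M) :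
    Smooth D.toBase := by
  refine smooth_of_infinitesimal_lifting D.toBase ?_
  intro B I hI b g₀ hg₀
  have hπ : thk I ≫ Spec.map b = Spec.map (b ≫ CommRingCat.ofHom (Ideal.Quotient.mk I)) :=
    (Spec.map_comp _ _).symm
  generalize Spec.map (b ≫ CommRingCat.ofHom (Ideal.Quotient.mk I)) = s₀ at hg₀ hπ
  generalize Spec.map b = s at hπ
  let πo : SchemeHomOver s₀ s := ⟨thk I, hπ⟩
  let G₀ : SchemeHomOver s₀ D.toBase := ⟨g₀, hg₀⟩
  let M₀ : LB (pullback c s₀) := P.pullback (baseChangeSnd c G₀)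
  have hM₀rig : LBRigidified c ε s₀ M₀ := lbRigidified_pullback G₀ hrig
  have hM₀𝒬 : 𝒬 s₀ M₀ := h𝒬pb G₀ hP
  have : Surjective (thk I) := ⟨specMap_quotient_surjective_of_sq_zero I hI⟩
  obtain ⟨L, hL⟩ := exists_lift_of_base_change c s s₀ (thk I) hπ (thk_appTop_sq_zero I hI)
    (IsPullback.of_hasPullback c s) (IsPullback.of_hasPullback c s₀) (baseChangeSnd c πo)
    (by simp only [baseChangeSnd, pullback.lift_fst, Category.comp_id])
    (by simp only [baseChangeSnd, pullback.lift_snd, πo])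
    hV₀ hV₁ hV y₀ y₁ hy₀ hy₁ M₀
  -- `L` is rigidified and satisfies `𝒬`
  have hLrig : LBRigidified c ε s L :=
    lbRigidified_of_thk c ε I hI s s₀ hπ L (lbRigidified_of_iso hL hM₀rig)
  have hL𝒬 : 𝒬 s L := h𝒬thk B I hI s s₀ hπ L (h𝒬iso hL hM₀𝒬)
  obtain ⟨G, hG, -⟩ := huniv s L hLrig hL𝒬
  refine ⟨G.1, G.2, ?_⟩
  -- uniqueness over `s₀`
  obtain ⟨G', -, huniq⟩ := huniv s₀ M₀ hM₀rig hM₀𝒬
  have h1 : G₀ = G' := huniq G₀ (LB.Iso.refl _)
  have h2 : postComp G πo = G' := by
    refine huniq _ ?_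
    rw [iso_iff_mk_eq] at hG hL ⊢
    rw [hL, mk_pullback, mk_pullback, ← hG, mk_pullback, map_map, baseChangeSnd_comp]
  have h3 := congrArg Subtype.val (h2.trans h1.symm)
  exact h3

/-- fibrewise algebraic equivalence to zero is insensitive to square-zero thickenings. -/
theorem lbFibrewiseAE0_of_thk {B : CommRingCat.{u}} (I : Ideal B) (hI : I ^ 2 = ⊥)
    (s : Spec B ⟶ Spec (CommRingCat.of k))
    (s₀ : Spec (CommRingCat.of (B ⧸ I)) ⟶ Spec (CommRingCat.of k)) (hπ : thk I ≫ s = s₀)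
    (L : LB (pullback c s))
    (hL : LBFibrewiseAE0 c s₀
      (L.pullback (baseChangeSnd c (⟨thk I, hπ⟩ : SchemeHomOver s₀ s)))) :
    LBFibrewiseAE0 c s L := by
  intro K _ _ x
  obtain ⟨x₀, rfl⟩ := exists_factor_thk I hI x
  exact lbIsAlgEquivZero_fibre_of_pullback (⟨thk I, hπ⟩ : SchemeHomOver s₀ s) L x₀ (hL K x₀)

/-- **[J7-top]** the scheme representing the (LB-level) rigidified, fibrewise algebraically trivial
relative Picard functor of a separated `k`-scheme `C` with a two-affine cover is smooth over `k`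
as soon as it is locally of finite type. -/
theorem smooth_of_lbRepresentsAE0 [IsSeparated c]
    {V₀ V₁ : C.Opens} (hV₀ : IsAffineOpen V₀) (hV₁ : IsAffineOpen V₁) (hV : V₀ ⊔ V₁ = ⊤)
    (y₀ : Γ(C, V₀)) (y₁ : Γ(C, V₁)) (hy₀ : V₀ ⊓ V₁ = C.basicOpen y₀)
    (hy₁ : V₀ ⊓ V₁ = C.basicOpen y₁)
    (D : RelativePic0Designation k c) [LocallyOfFiniteType D.toBase]
    (h : LBRepresentsAE0 c ε D) : Smooth D.toBase :=
  smooth_of_represents c ε hV₀ hV₁ hV y₀ y₁ hy₀ hy₁ D (fun t M => LBFibrewiseAE0 c t M)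
    (fun e hM => lbFibrewiseAE0_of_iso e hM) (fun ψ _ hM => lbFibrewiseAE0_pullback ψ hM)
    (fun _ I hI s s₀ hπ L hL => lbFibrewiseAE0_of_thk c I hI s s₀ hπ L hL)
    h.P h.rig h.ae0 (fun t M => h.univ t M)

end main

end SmoothTop

end

end Fermat.Agent.JAC
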