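/-
PROJECT JAC (S25) — (J8f), helper4: the fibrewise-degree-zero cut `LBFibrewiseDegZero`.

* `isPullback_baseChangeSnd`, `exists_lift_fibreSquare` : the square of `baseChangeSnd c ψ` is
  cartesian, and fibre squares descend along it;
* `LBFibrewiseDegZero.of_iso / .baseChange / .of_forall_factor / .isLocal / .of_thk` and the group
  closure `.trivial / .tensor / .inv / .inv_tensor`;
* `LBCond.degZero c : LBCond c` (helper1's structure), so that
  `picFunctor c ε (LBCond.degZero c)` is a Zariski sheaf;
* `lbFibrewiseDegZero_of_ae0` (algebraically equivalent to zero ⇒ degree zero, on all squares);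
* `lbRepresentsAE0_of_deg0`, `smooth_of_lbRepresentsDeg0` (helper3's generic smoothness theorem
  at the degree-zero cut) and the assembly `s25_of_lbRepresentsDeg0`.
-/
import Mathlib
import Fermat.Agent.JAC.J8_helper4_Riemann
import Fermat.Agent.JAC.SMOOTH_helper3_Top
import Fermat.Agent.JAC.SH_helper1_Functor
import Fermat.Agent.JAC.CURVE_helper2_Cover

set_option autoImplicit false
set_option linter.style.haveILetI false
open CategoryTheory CategoryTheory.Limits AlgebraicGeometry AlgebraicGeometry.RelPicard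
  NeronModelInfra GoodReductionJacobian TopologicalSpace
universe u

namespace Fermat.Agent.JAC

open Fermat.Agent.AV

noncomputable section

section Squares

variable {k : Type u} [Field k] {C : Scheme.{u}} (c : C ⟶ Spec (CommRingCat.of k))

/-- the square of `baseChangeSnd c ψ` is cartesian. -/
theorem isPullback_baseChangeSnd {T T' : Scheme.{u}} {t : T ⟶ Spec (CommRingCat.of k)}
    {t' : T' ⟶ Spec (CommRingCat.of k)} (ψ : SchemeHomOver t' t) :
    IsPullback (baseChangeSnd c ψ) (pullback.snd c t') (pullback.snd c t) ψ.1 := by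
  have hfst : baseChangeSnd c ψ ≫ pullback.fst c t = pullback.fst c t' := by
    simp only [baseChangeSnd, pullback.lift_fst, Category.comp_id]
  have hsnd : baseChangeSnd c ψ ≫ pullback.snd c t = pullback.snd c t' ≫ ψ.1 := by
    simp only [baseChangeSnd, pullback.lift_snd]
  refine IsPullback.of_right (t := IsPullback.of_hasPullback c t) ?_ hsnd
  rw [hfst, ψ.2]
  exact IsPullback.of_hasPullback c t'

/-- fibre squares descend along base change: if the point `s` of `T` factors through
`ψ : T' ⟶ T`, a fibre square over `s` lifts to a fibre square of `C ×ₖ T'`. -/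
theorem exists_lift_fibreSquare {T T' : Scheme.{u}} {t : T ⟶ Spec (CommRingCat.of k)}
    {t' : T' ⟶ Spec (CommRingCat.of k)} (ψ : SchemeHomOver t' t) {S A : Scheme.{u}}
    {s : S ⟶ T} (s' : S ⟶ T') (hs : s' ≫ ψ.1 = s) {p : A ⟶ pullback c t} {a : A ⟶ S}
    (H : IsPullback p a (pullback.snd c t) s) :
    ∃ p' : A ⟶ pullback c t', p' ≫ baseChangeSnd c ψ = p ∧
      IsPullback p' a (pullback.snd c t') s' := by
  have hB := isPullback_baseChangeSnd c ψ
  have hw : p ≫ pullback.snd c t = (a ≫ s') ≫ ψ.1 := by rw [Category.assoc, hs, H.w]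
  refine ⟨hB.lift p (a ≫ s') hw, hB.lift_fst _ _ _, ?_⟩
  refine IsPullback.of_right (t := hB) ?_ (hB.lift_snd _ _ _)
  rw [hB.lift_fst, hs]
  exact H

/-- **descent of the cut**: if every geometric point of `T` factors through some `ψ : T' ⟶ T` over
which the pull-back of `M` is fibrewise of degree zero, then `M` is fibrewise of degree zero. -/
theorem LBFibrewiseDegZero.of_forall_factor {T : Scheme.{u}} (t : T ⟶ Spec (CommRingCat.of k))
    (M : LB (pullback c t))
    (h : ∀ (k' : Type u) [Field k'] [IsAlgClosed k'] (s : Spec (CommRingCat.of k') ⟶ T),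
      ∃ (T' : Scheme.{u}) (t' : T' ⟶ Spec (CommRingCat.of k)) (ψ : SchemeHomOver t' t)
        (s' : Spec (CommRingCat.of k') ⟶ T'), s' ≫ ψ.1 = s ∧
          LBFibrewiseDegZero c t' (M.pullback (baseChangeSnd c ψ))) :
    LBFibrewiseDegZero c t M := by
  intro k' _ _ s A _ _ p a H
  obtain ⟨T', t', ψ, s', hs, hM⟩ := h k' s
  obtain ⟨p', hp', H'⟩ := exists_lift_fibreSquare c ψ s' hs H
  have h0 := hM k' s' A p' a H'
  have e : (M.pullback (baseChangeSnd c ψ)).pullback p' = M.pullback p := by
    show M.pullback (p' ≫ baseChangeSnd c ψ) = M.pullback p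
    rw [hp']
  rw [← e]
  exact h0

/-- the cut is stable under base change. -/
theorem LBFibrewiseDegZero.baseChange {T T' : Scheme.{u}} {t : T ⟶ Spec (CommRingCat.of k)}
    {t' : T' ⟶ Spec (CommRingCat.of k)} (ψ : SchemeHomOver t' t) {M : LB (pullback c t)}
    (h : LBFibrewiseDegZero c t M) :
    LBFibrewiseDegZero c t' (M.pullback (baseChangeSnd c ψ)) := by
  intro k' _ _ s' A _ _ p a H
  have h0 := h k' (s' ≫ ψ.1) A (p ≫ baseChangeSnd c ψ) a
    (H.paste_horiz (isPullback_baseChangeSnd c ψ))
  exact h0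

/-- the cut is local on the base. -/
theorem LBFibrewiseDegZero.isLocal {T : Scheme.{u}} (t : T ⟶ Spec (CommRingCat.of k))
    (M : LB (pullback c t)) (𝒰 : Set T.Opens) (h𝒰 : sSup 𝒰 = ⊤)
    (h : ∀ U ∈ 𝒰, LBFibrewiseDegZero c (U.ι ≫ t)
      (M.pullback (baseChangeSnd c (⟨U.ι, rfl⟩ : SchemeHomOver (U.ι ≫ t) t)))) :
    LBFibrewiseDegZero c t M := by
  refine LBFibrewiseDegZero.of_forall_factor c t M ?_
  intro k' _ _ s
  have : Subsingleton (Spec (CommRingCat.of k')) :=
    inferInstanceAs (Subsingleton (PrimeSpectrum k'))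
  have : Nonempty (Spec (CommRingCat.of k')) :=
    inferInstanceAs (Nonempty (PrimeSpectrum k'))
  let y₀ : Spec (CommRingCat.of k') := Classical.arbitrary _
  have hx : s y₀ ∈ (⊤ : T.Opens) := trivial
  rw [← h𝒰] at hx
  obtain ⟨U, hU, hxU⟩ : ∃ U : T.Opens, U ∈ 𝒰 ∧ s y₀ ∈ U := Opens.mem_sSup.mp hx
  have hrange : Set.range s ⊆ Set.range U.ι := by
    rintro _ ⟨y, rfl⟩
    rw [Subsingleton.elim y y₀, Scheme.Opens.range_ι]
    exact hxU
  exact ⟨U.toScheme, U.ι ≫ t, ⟨U.ι, rfl⟩, IsOpenImmersion.lift U.ι s hrange,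
    IsOpenImmersion.lift_fac U.ι s hrange, h U hU⟩

/-- the cut is insensitive to square-zero thickenings of affine bases. -/
theorem LBFibrewiseDegZero.of_thk {B : CommRingCat.{u}} (I : Ideal B) (hI : I ^ 2 = ⊥)
    (s : Spec B ⟶ Spec (CommRingCat.of k))
    (s₀ : Spec (CommRingCat.of (B ⧸ I)) ⟶ Spec (CommRingCat.of k))
    (hπ : SmoothTop.thk I ≫ s = s₀) (L : LB (pullback c s))
    (hL : LBFibrewiseDegZero c s₀
      (L.pullback (baseChangeSnd c (⟨SmoothTop.thk I, hπ⟩ : SchemeHomOver s₀ s)))) :
    LBFibrewiseDegZero c s L := by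
  refine LBFibrewiseDegZero.of_forall_factor c s L ?_
  intro k' _ _ x
  obtain ⟨x₀, hx₀⟩ := SmoothTop.exists_factor_thk I hI x
  exact ⟨_, s₀, ⟨SmoothTop.thk I, hπ⟩, x₀, hx₀, hL⟩

end Squares

section Curve

variable {k : Type u} [Field k] {C : Scheme.{u}} (c : C ⟶ Spec (CommRingCat.of k))
  [IsProper c] [SmoothOfRelativeDimension 1 c]

section

variable {T : Scheme.{u}} {t : T ⟶ Spec (CommRingCat.of k)} {k' : Type u} [Field k']
  {s : Spec (CommRingCat.of k') ⟶ T} {A : Scheme.{u}} {p : A ⟶ pullback c t}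
  {a : A ⟶ Spec (CommRingCat.of k')}

omit [IsProper c] [SmoothOfRelativeDimension 1 c] in
/-- a fibre square exhibits `A` as the base change of `C` to `k'`. -/
theorem isPullback_of_fibreSquare (H : IsPullback p a (pullback.snd c t) s) :
    IsPullback (p ≫ pullback.fst c t) a c (s ≫ t) :=
  H.paste_horiz (IsPullback.of_hasPullback c t)

omit [SmoothOfRelativeDimension 1 c] in
theorem isProper_of_fibreSquare (H : IsPullback p a (pullback.snd c t) s) : IsProper a :=
  isProper_of_isPullback_field c _ _ _ (isPullback_of_fibreSquare c H)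

omit [IsProper c] in
theorem smoothOfRelativeDimension_of_fibreSquare (H : IsPullback p a (pullback.snd c t) s) :
    SmoothOfRelativeDimension 1 a :=
  smoothOfRelativeDimension_of_isPullback_field c _ _ _ (isPullback_of_fibreSquare c H) 1

/-- principal divisors have degree zero on the total space of a geometric fibre square. -/
theorem principalDegZero_of_fibreSquare [IsAlgClosed k'] [IsIntegral A] [IsNoetherian A]
    (H : IsPullback p a (pullback.snd c t) s) : PrincipalDegZero A := by
  haveI := isProper_of_fibreSquare c H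
  haveI := smoothOfRelativeDimension_of_fibreSquare c H
  exact principalDegZero_curve a

/-- the degree on a geometric fibre square, as a homomorphism on `Pic (C ×ₖ T)`. -/
def squareDeg [IsAlgClosed k'] [IsIntegral A] [IsNoetherian A]
    (H : IsPullback p a (pullback.snd c t) s) : PicGroup (pullback c t) →+ ℤ :=
  (degHom (principalDegZero_of_fibreSquare c H)).comp (PicGroup.map p)

theorem squareDeg_mk [IsAlgClosed k'] [IsIntegral A] [IsNoetherian A]
    (H : IsPullback p a (pullback.snd c t) s) (M : LB (pullback c t)) :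
    squareDeg c H (PicGroup.mk M) = (M.pullback p).deg := rfl

end

variable {c}

theorem lbFibrewiseDegZero_iff {T : Scheme.{u}} {t : T ⟶ Spec (CommRingCat.of k)}
    {M : LB (pullback c t)} : LBFibrewiseDegZero c t M ↔
      ∀ (k' : Type u) [Field k'] [IsAlgClosed k'] (s : Spec (CommRingCat.of k') ⟶ T)
        (A : Scheme.{u}) [IsIntegral A] [IsNoetherian A] (p : A ⟶ pullback c t)
        (a : A ⟶ Spec (CommRingCat.of k')) (H : IsPullback p a (pullback.snd c t) s),
        squareDeg c H (PicGroup.mk M) = 0 :=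
  Iff.rfl

/-- the cut only depends on the class in the Picard group. -/
theorem LBFibrewiseDegZero.of_mk_eq {T : Scheme.{u}} {t : T ⟶ Spec (CommRingCat.of k)}
    {M M' : LB (pullback c t)} (e : PicGroup.mk M = PicGroup.mk M')
    (h : LBFibrewiseDegZero c t M) : LBFibrewiseDegZero c t M' := by
  rw [lbFibrewiseDegZero_iff] at h ⊢
  intro k' _ _ s A _ _ p a H
  rw [← e]
  exact h k' s A p a H

/-- the cut is invariant under isomorphism. -/
theorem LBFibrewiseDegZero.of_iso {T : Scheme.{u}} {t : T ⟶ Spec (CommRingCat.of k)}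
    {M M' : LB (pullback c t)} (e : LB.Iso M M') (h : LBFibrewiseDegZero c t M) :
    LBFibrewiseDegZero c t M' :=
  h.of_mk_eq ((PicGroup.mk_eq_mk_iff _ _).mpr e)

theorem LBFibrewiseDegZero.trivial {T : Scheme.{u}} (t : T ⟶ Spec (CommRingCat.of k)) :
    LBFibrewiseDegZero c t (LB.trivial _) := by
  rw [lbFibrewiseDegZero_iff]
  intro k' _ _ s A _ _ p a H
  rw [PicGroup.mk_trivial, map_zero]

theorem LBFibrewiseDegZero.of_isTrivial {T : Scheme.{u}} {t : T ⟶ Spec (CommRingCat.of k)}
    {M : LB (pullback c t)} (h : M.IsTrivial) : LBFibrewiseDegZero c t M := by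
  rw [lbFibrewiseDegZero_iff]
  intro k' _ _ s A _ _ p a H
  rw [(PicGroup.mk_eq_zero_iff M).mpr h, map_zero]

theorem LBFibrewiseDegZero.tensor {T : Scheme.{u}} {t : T ⟶ Spec (CommRingCat.of k)}
    {M N : LB (pullback c t)} (hM : LBFibrewiseDegZero c t M) (hN : LBFibrewiseDegZero c t N) :
    LBFibrewiseDegZero c t (M.tensor N) := by
  rw [lbFibrewiseDegZero_iff] at hM hN ⊢
  intro k' _ _ s A _ _ p a H
  rw [PicGroup.mk_tensor, map_add, hM k' s A p a H, hN k' s A p a H, add_zero]

theorem LBFibrewiseDegZero.inv {T : Scheme.{u}} {t : T ⟶ Spec (CommRingCat.of k)}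
    {M : LB (pullback c t)} (hM : LBFibrewiseDegZero c t M) :
    LBFibrewiseDegZero c t M.inv := by
  rw [lbFibrewiseDegZero_iff] at hM ⊢
  intro k' _ _ s A _ _ p a H
  rw [PicGroup.mk_inv, map_neg, hM k' s A p a H, neg_zero]

theorem LBFibrewiseDegZero.inv_tensor {T : Scheme.{u}} {t : T ⟶ Spec (CommRingCat.of k)}
    {M N : LB (pullback c t)} (hM : LBFibrewiseDegZero c t M) (hN : LBFibrewiseDegZero c t N) :
    LBFibrewiseDegZero c t (M.inv.tensor N) :=
  hM.inv.tensor hN

variable (c)

/-- **the fibrewise-degree-zero cut as a `LBCond`.** -/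
def LBCond.degZero : LBCond c where
  P t M := LBFibrewiseDegZero c t M
  iso _ _ _ e h := h.of_iso e
  baseChange ψ _ h := LBFibrewiseDegZero.baseChange c ψ h
  isLocal t M 𝒰 h𝒰 h := LBFibrewiseDegZero.isLocal c t M 𝒰 h𝒰 h

@[simp] theorem LBCond.degZero_P {T : Scheme.{u}} (t : T ⟶ Spec (CommRingCat.of k))
    (M : LB (pullback c t)) : (LBCond.degZero c).P t M ↔ LBFibrewiseDegZero c t M := Iff.rfl

end Curve

section Assembly

variable {k : Type u} [Field k] [IsAlgClosed k] {C : Scheme.{u}}
  (c : C ⟶ Spec (CommRingCat.of k)) [IsProper c] [SmoothOfRelativeDimension 1 c] [IsIntegral C]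
  (ε : SchemeHomOver (𝟙 (Spec (CommRingCat.of k))) c)

omit [IsAlgClosed k] [IsIntegral C] in
/-- **algebraically equivalent to zero ⇒ degree zero**, fibrewise. -/
theorem lbFibrewiseDegZero_of_ae0 {T : Scheme.{u}} (t : T ⟶ Spec (CommRingCat.of k))
    (M : LB (pullback c t)) (h : LBFibrewiseAE0 c t M) : LBFibrewiseDegZero c t M := by
  intro k' _ _ s A _ _ p a H
  haveI := isProper_of_fibreSquare c H
  haveI := smoothOfRelativeDimension_of_fibreSquare c H
  haveI : Smooth a := SmoothOfRelativeDimension.smooth 1 a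
  obtain ⟨R⟩ := nonempty_riemannData a
  let e : A ⟶ pullback (pullback.snd c t) s := pullback.lift p a H.w
  have he : e ≫ fibreAt c t s = a := pullback.lift_snd _ _ _
  have hfst : e ≫ pullback.fst (pullback.snd c t) s = p := pullback.lift_fst _ _ _
  have h1 := SmoothTop.lbIsAlgEquivZero_pullback e he (h k' s)
  have e2 : (M.pullback (pullback.fst (pullback.snd c t) s)).pullback e = M.pullback p := by
    show M.pullback (e ≫ pullback.fst (pullback.snd c t) s) = M.pullback p
    rw [hfst]
  rw [e2] at h1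
  exact deg_eq_zero_of_lbIsAlgEquivZero a R _ h1

variable {c ε}

/-- **assembly**: representability of the degree-zero functor by a smooth connected `J` gives
helper9's `LBRepresentsAE0`. -/
def lbRepresentsAE0_of_deg0 {D : RelativePic0Designation k c}
    [Smooth D.toBase] [ConnectedSpace D.P] (h : LBRepresentsDeg0 c ε D) :
    LBRepresentsAE0 c ε D :=
  haveI : Smooth c := SmoothOfRelativeDimension.smooth 1 c
  { P := h.P
    rig := h.rig
    ae0 := lbFibrewiseAE0_of_zero c D h.P h.zero
    univ := fun t M hrig hae => h.univ t M hrig (lbFibrewiseDegZero_of_ae0 c t M hae)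
    zero := h.zero }

/-- **smoothness of the representing scheme** (helper3's generic [J7-top] at the degree-zero
cut; the two-affine cover is helper2's). -/
theorem smooth_of_lbRepresentsDeg0 {D : RelativePic0Designation k c}
    [LocallyOfFiniteType D.toBase] (h : LBRepresentsDeg0 c ε D) : Smooth D.toBase := by
  obtain ⟨U₀, U₁, x, y, hU₀, hU₁, hU, hx, hy, -⟩ := exists_two_affine_cover c
  exact SmoothTop.smooth_of_represents c ε hU₀ hU₁ hU x y hx.symm hy.symm D
    (fun t M => LBFibrewiseDegZero c t M)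
    (fun e hM => hM.of_iso e) (fun ψ _ hM => LBFibrewiseDegZero.baseChange c ψ hM)
    (fun _ I hI s s₀ hπ L hL => LBFibrewiseDegZero.of_thk c I hI s s₀ hπ L hL)
    h.P h.rig h.mem (fun t M => h.univ t M)

/-- **S25 from LB-level representability of the fibrewise-degree-zero functor** by a proper
connected `J`. -/
theorem exists_representsRelSubPic_of_lbRepresentsDeg0 (Br : ModBridge.{u})
    (D : RelativePic0Designation k c) [IsProper D.toBase] [ConnectedSpace D.P]
    (h : LBRepresentsDeg0 c ε D) :
    ∃ D : RelativePic0Designation k c,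
      Nonempty (RepresentsRelSubPic c ε (algEquivZeroCut c ε) D) ∧
        Smooth D.toBase ∧ IsProper D.toBase ∧ GeometricallyConnected D.toBase := by
  haveI : Smooth D.toBase := smooth_of_lbRepresentsDeg0 h
  exact ⟨D, representsRelSubPic_of_lb Br (lbRepresentsAE0_of_deg0 h), inferInstance, inferInstance,
    geometricallyConnected_of_connectedSpace D.toBase⟩

end Assembly

/-- **S25 from the LB-level inputs**, with the hypotheses of the frozen statement. -/
theorem s25_of_lbRepresentsDeg0 (k : Type u) [Field k] [IsAlgClosed k] {C : Scheme.{u}}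
    (c : C ⟶ Spec (CommRingCat.of k)) [IsProper c] [SmoothOfRelativeDimension 1 c] [IsIntegral C]
    (ε : SchemeHomOver (𝟙 (Spec (CommRingCat.of k))) c) (Br : ModBridge.{u})
    (D : RelativePic0Designation k c) [IsProper D.toBase] [ConnectedSpace D.P]
    (h : LBRepresentsDeg0 c ε D) :
    ∃ D : RelativePic0Designation k c,
      Nonempty (RepresentsRelSubPic c ε (algEquivZeroCut c ε) D) ∧
        Smooth D.toBase ∧ IsProper D.toBase ∧ GeometricallyConnected D.toBase :=
  exists_representsRelSubPic_of_lbRepresentsDeg0 Br D h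

end

end Fermat.Agent.JAC
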