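/-
PROJECT JAC (S25) — (J8g), helper4: the degree-zero cut in helper1's interfaces.

* `instance : (LBCond.degZero c).IsMul` (helper1's mixin: trivial, tensor, inverse);
* `LBRepresentsCond.toDeg0` / `LBRepresentsDeg0.toCond` : helper1's generic `LBRepresentsCond` at
  `Q := LBCond.degZero c` is my `LBRepresentsDeg0`;
* `LBFibrewiseDegZero.deg_pullback_of_section` : over `T = Spec k` the cut implies degree zero on
  `C` itself (helper6's `h𝒬deg`).
-/
import Mathlib
import Fermat.Agent.JAC.J8_helper4_DegZero
import Fermat.Agent.JAC.SH_helper1_Adapter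
import Fermat.Agent.JAC.SH_helper1_Group

set_option autoImplicit false
set_option linter.style.haveILetI false
open CategoryTheory CategoryTheory.Limits AlgebraicGeometry AlgebraicGeometry.RelPicard
  NeronModelInfra GoodReductionJacobian TopologicalSpace
universe u

namespace Fermat.Agent.JAC

open Fermat.Agent.AV

noncomputable section

variable {k : Type u} [Field k] {C : Scheme.{u}} (c : C ⟶ Spec (CommRingCat.of k))
  [IsProper c] [SmoothOfRelativeDimension 1 c]
  (ε : SchemeHomOver (𝟙 (Spec (CommRingCat.of k))) c)

instance LBCond.degZero_isMul : (LBCond.degZero c).IsMul where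
  one t := LBFibrewiseDegZero.trivial t
  mul _ _ _ hM hN := LBFibrewiseDegZero.tensor hM hN
  inv _ _ hM := LBFibrewiseDegZero.inv hM

variable {c ε}

/-- helper1's generic LB-level representability at the degree-zero cut is `LBRepresentsDeg0`. -/
def LBRepresentsCond.toDeg0 {D : RelativePic0Designation k c}
    (h : LBRepresentsCond c ε (LBCond.degZero c) D) : LBRepresentsDeg0 c ε D where
  P := h.P
  rig := h.rig
  mem := h.mem
  univ := fun t M hrig hM => h.univ t M hrig hM
  zero := h.zero

/-- and conversely. -/
def LBRepresentsDeg0.toCond {D : RelativePic0Designation k c}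
    (h : LBRepresentsDeg0 c ε D) : LBRepresentsCond c ε (LBCond.degZero c) D where
  P := h.P
  rig := h.rig
  mem := h.mem
  univ := fun t M hrig hM => h.univ t M hrig hM
  zero := h.zero

omit [IsProper c] [SmoothOfRelativeDimension 1 c] in
/-- **over `T = Spec k` the cut says degree zero on `C` itself** (`k` algebraically closed):
for any section `i` of the first projection `C ×ₖ Spec k ⟶ C` (e.g. helper6's `J6.toFibre c`). -/
theorem LBFibrewiseDegZero.deg_pullback_of_section [IsAlgClosed k] [IsIntegral C]
    [IsNoetherian C] {N : LB (pullback c (𝟙 (Spec (CommRingCat.of k))))}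
    (h : LBFibrewiseDegZero c (𝟙 _) N) (i : C ⟶ pullback c (𝟙 (Spec (CommRingCat.of k))))
    (hi : i ≫ pullback.fst c (𝟙 _) = 𝟙 C) : (N.pullback i).deg = 0 := by
  have hsnd : i ≫ pullback.snd c (𝟙 _) = c := by
    have := pullback.condition (f := c) (g := 𝟙 (Spec (CommRingCat.of k)))
    rw [Category.comp_id] at this
    rw [← this, ← Category.assoc, hi, Category.id_comp]
  haveI : IsIso (i ≫ pullback.fst c (𝟙 (Spec (CommRingCat.of k)))) := by
    rw [hi]; infer_instance
  haveI : IsIso i := IsIso.of_isIso_comp_right i (pullback.fst c (𝟙 _))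
  have H : IsPullback i c (pullback.snd c (𝟙 (Spec (CommRingCat.of k)))) (𝟙 _) :=
    IsPullback.of_horiz_isIso ⟨by rw [hsnd, Category.comp_id]⟩
  exact h k (𝟙 _) C i c H

end

end Fermat.Agent.JAC
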