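/-
PROJECT JAC (S27) — (PTS), helper6: **over an algebraically closed constant field, all places of a
function field in one variable have degree one** (any characteristic, no separability).

Self-contained (Mathlib + the Prelude definitions only): this is the abstract part of the landed
`JA/DEGK_helper8` re-proved under fresh names, so that the S27 closure does not import the J-A
project.  If `F / k(x₀)` is algebraic and `Q` is a place of `F / k`, the residue field of `Q` is
algebraic over `k`: if the class of `x ∈ O_Q` were transcendental, all nonzero `p(x)` would be units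
of `O_Q`, so `k(x) ⊆ O_Q`; `F` is algebraic over `k(x)` by exchange and `O_Q` is integrally closed,
so `O_Q = F`.
-/
import Mathlib
import Fermat.Prelude.Def_AlgebraicCurve_IsCurveOver

set_option autoImplicit false
set_option linter.style.haveILetI false

namespace Fermat.Agent.JAC.PTS

open AlgebraicCurve IntermediateField Polynomial Cardinal

universe u v

variable {k : Type u} {F : Type v} [Field k] [Field F] [Algebra k F]

open scoped IntermediateField.algebraAdjoinAdjoin in
/-- exchange in transcendence degree one. -/
theorem isAlgebraic_adjoin_simple_of_transcendental {x₀ x : F}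
    (halg : Algebra.IsAlgebraic k⟮x₀⟯ F) (hx : Transcendental k x) :
    Algebra.IsAlgebraic k⟮x⟯ F := by
  haveI h1 : Algebra.IsAlgebraic (Algebra.adjoin k ({x₀} : Set F)) F :=
    (IsFractionRing.comap_isAlgebraic_iff (A := Algebra.adjoin k ({x₀} : Set F))
      (K := k⟮x₀⟯) (C := F)).mpr halg
  have h2 : Algebra.trdeg k F ≤ #(({x₀} : Set F)) :=
    Algebra.IsAlgebraic.trdeg_le_cardinalMk k ({x₀} : Set F)
  have hind : AlgebraicIndependent k (fun _ : PUnit.{v+1} => x) :=
    algebraicIndependent_unique_type_iff.mpr hx
  have hb : IsTranscendenceBasis k (fun _ : PUnit.{v+1} => x) :=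
    hind.isTranscendenceBasis_of_trdeg_le_of_finite (by simpa using h2)
  have h3 := hb.isAlgebraic_field
  have hr : Set.range (fun _ : PUnit.{v+1} => x) = {x} := by
    ext y; simp [eq_comm]
  rwa [hr] at h3

/-- if all nonzero polynomials in `x ∈ O_Q` are units and `F / k(x)` is algebraic, then
`O_Q = F`: impossible. -/
theorem false_of_forall_isUnit_aeval (Q : Place k F) (x : Q.toValuationSubring)
    (hx : ∀ p : k[X], p ≠ 0 → IsUnit (aeval x p))
    (halg : Algebra.IsAlgebraic k⟮(x : F)⟯ F) : False := by
  have hcoe : ∀ p : k[X], aeval (x : F) p = ((aeval x p : Q.toValuationSubring) : F) := by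
    intro p
    exact aeval_algebraMap_apply F x p
  have hsub : ∀ y ∈ k⟮(x : F)⟯, y ∈ Q.toValuationSubring := by
    intro y hy
    obtain ⟨r, s, rfl⟩ := (mem_adjoin_simple_iff k y).mp hy
    by_cases hs : s = 0
    · subst hs
      simp
    · obtain ⟨w, hw⟩ := hx s hs
      have hinv : (aeval (x : F) s)⁻¹ = ((w⁻¹ : (Q.toValuationSubring)ˣ) :
          Q.toValuationSubring) := by
        rw [hcoe, ← hw]
        apply inv_eq_of_mul_eq_one_right
        rw [← MulMemClass.coe_mul, Units.mul_inv]
        rfl
      rw [div_eq_mul_inv, hinv, hcoe]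
      exact Q.toValuationSubring.mul_mem _ _ (SetLike.coe_mem _) (SetLike.coe_mem _)
  apply Q.ne_top'
  refine SetLike.ext fun y => ⟨fun _ => ValuationSubring.mem_top y, fun _ => ?_⟩
  let ι : k⟮(x : F)⟯ →+* Q.toValuationSubring :=
    (algebraMap k⟮(x : F)⟯ F).codRestrict Q.toValuationSubring.toSubring
      (fun z => hsub _ z.2)
  letI : Algebra k⟮(x : F)⟯ Q.toValuationSubring := ι.toAlgebra
  haveI : IsScalarTower k⟮(x : F)⟯ Q.toValuationSubring F :=
    IsScalarTower.of_algebraMap_eq (fun _ => rfl)
  have hy : IsIntegral k⟮(x : F)⟯ y := (halg.isAlgebraic y).isIntegral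
  have hy' : IsIntegral Q.toValuationSubring y := hy.tower_top
  obtain ⟨z, hz⟩ := IsIntegrallyClosed.isIntegral_iff.mp hy'
  rw [← hz]
  exact z.2

/-- the residue field of a place of `F / k` is algebraic over `k` as soon as `F` is algebraic over
some `k(x₀)`. -/
theorem isAlgebraic_residueField_of_isAlgebraic (x₀ : F) (halg : Algebra.IsAlgebraic k⟮x₀⟯ F)
    (Q : Place k F) : Algebra.IsAlgebraic k Q.ResidueField := by
  constructor
  intro z
  obtain ⟨x, rfl⟩ := IsLocalRing.residue_surjective z
  by_contra hz
  have hres : ∀ p : k[X], aeval (IsLocalRing.residue Q.toValuationSubring x) p =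
      IsLocalRing.residue Q.toValuationSubring (aeval x p) := by
    intro p
    exact aeval_algebraMap_apply Q.ResidueField x p
  have hunit : ∀ p : k[X], p ≠ 0 → IsUnit (aeval x p) := by
    intro p hp
    by_contra hnu
    apply hz
    refine ⟨p, hp, ?_⟩
    rw [hres]
    exact (IsLocalRing.residue_eq_zero_iff _).mpr ((IsLocalRing.mem_maximalIdeal _).mpr hnu)
  have htr : Transcendental k (x : F) := by
    rintro ⟨p, hp, h0⟩
    have hcoe : aeval (x : F) p = ((aeval x p : Q.toValuationSubring) : F) :=
      aeval_algebraMap_apply F x p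
    rw [hcoe] at h0
    have h1 : aeval x p = 0 := Subtype.ext h0
    have := hunit p hp
    rw [h1] at this
    exact not_isUnit_zero this
  exact false_of_forall_isUnit_aeval Q x hunit
    (isAlgebraic_adjoin_simple_of_transcendental halg htr)

/-- **over an algebraically closed constant field, all places of a function field in one variable
have degree one** (any characteristic, no separability). -/
theorem place_deg_eq_one_of_isAlgebraic [IsAlgClosed k] (x₀ : F)
    (halg : Algebra.IsAlgebraic k⟮x₀⟯ F) (Q : Place k F) : Q.deg = 1 := by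
  haveI := isAlgebraic_residueField_of_isAlgebraic x₀ halg Q
  haveI : Algebra.IsIntegral k Q.ResidueField := Algebra.IsAlgebraic.isIntegral
  have hbij : Function.Bijective (algebraMap k Q.ResidueField) :=
    IsAlgClosed.algebraMap_bijective_of_isIntegral
  haveI : Module.Finite k Q.ResidueField :=
    Module.Finite.of_surjective (Algebra.linearMap k Q.ResidueField) hbij.2
  exact Q.deg_eq_one_of_isAlgClosed_of_finite

end Fermat.Agent.JAC.PTS
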