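/-
PROJECT JAC (S27) — (PTS-2), helper6: **`Pic⁰` of the function field of a smooth proper curve over
an algebraically closed field is the group of classes of line bundles of degree zero.**

Generic (`X` integral noetherian, codimension-one points closed with DVR stalks, Hartogs,
`e : {z : X // coheight z = 1} ≃ Place K K(X)`), ns `Fermat.Agent.JAC.PTS`:
* `weilOf e D : X → ℤ` (the Weil divisor of a divisor on places), `divisorOf e E hE` (converse),
  `clsHom : Divisor K K(X) →+ PicGroup X` (`D ↦ [O(D)]`), `clsHom_surjective`,
  `degHom_clsHom` (all places of degree one), `clsHom_eq_zero_iff` (kernel = principal divisors,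
  when `e` is compatible with the orders of vanishing);
* `clsHom₀ : Divisor.degZero →+ (degHom h0).ker`, `ker_clsHom₀`, `clsHom₀_surjective`,
  **`pic0Equiv : Pic0 K K(X) ≃+ (degHom h0).ker`**, `pic0Equiv_mk`, `torsionEquiv`.
On the curve (`letI := ffAlgebra c`): `place_deg_eq_one_curve`, `placeEquivCurve`,
`ord_placeEquivCurve`, **`pic0EquivCurve c : Pic0 K K(C) ≃+ (degHom (principalDegZero_curve c)).ker`**,
`pic0EquivCurve_mk`, `torsionEquivCurve`.
-/
import Mathlib
import Fermat.Agent.JAC.J6_helper6_Points
import Fermat.Agent.JAC.CURVE_helper2_PlaceEquiv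
import Fermat.Agent.JAC.PTS_helper6_DegOne

set_option autoImplicit false
set_option linter.style.haveILetI false
set_option linter.unusedSectionVars false

open AlgebraicGeometry CategoryTheory Opposite TopologicalSpace Order AlgebraicCurve

universe u

namespace Fermat.Agent.JAC.PTS

open Fermat.Agent.AV Fermat.Agent.AV.LB Fermat.Agent.JAC Fermat.Agent.JAC.J6

noncomputable section

open scoped Classical

section Generic

variable {K : Type u} [Field K] {X : Scheme.{u}} [IsIntegral X] [IsNoetherian X]
  [Algebra K X.functionField]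
  (hDVR : ∀ z : X, coheight z = 1 → IsDiscreteValuationRing (X.presheaf.stalk z))
  (hcl : ∀ z : X, coheight z = 1 → IsClosed ({z} : Set X))
  (hH : HartogsProp X)
  (e : {z : X // coheight z = 1} ≃ Place K X.functionField)

/-- the Weil divisor on `X` of a divisor on the places. -/
def weilOf (D : Divisor K X.functionField) : X → ℤ :=
  fun z => if h : coheight z = 1 then D (e ⟨z, h⟩) else 0

theorem weilOf_apply (D : Divisor K X.functionField) (p : {z : X // coheight z = 1}) :
    weilOf e D p.1 = D (e p) := by
  unfold weilOf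
  rw [dif_pos p.2]

theorem weilOf_of_coheight (D : Divisor K X.functionField) {z : X} (hz : coheight z = 1) :
    weilOf e D z = D (e ⟨z, hz⟩) := weilOf_apply e D ⟨z, hz⟩

theorem finite_weilOf (D : Divisor K X.functionField) :
    {z : X | coheight z = 1 ∧ weilOf e D z ≠ 0}.Finite := by
  refine (D.support.finite_toSet.image (fun v => (e.symm v).1)).subset ?_
  rintro z ⟨hz, hne⟩
  refine ⟨e ⟨z, hz⟩, ?_, by simp⟩
  rw [weilOf_of_coheight e D hz] at hne
  simpa using hne

theorem weilOf_add (D E : Divisor K X.functionField) :
    weilOf e (D + E) = weilOf e D + weilOf e E := by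
  funext z
  unfold weilOf
  by_cases h : coheight z = 1
  · simp [h]
  · simp [h]

theorem weilOf_zero : weilOf e (0 : Divisor K X.functionField) = 0 := by
  funext z
  unfold weilOf
  by_cases h : coheight z = 1 <;> simp [h]

/-- the class of `O(D)`, additively in `D`. -/
def clsHom : Divisor K X.functionField →+ PicGroup X where
  toFun D := weilCls hDVR hcl hH (weilOf e D) (finite_weilOf e D)
  map_zero' := by
    refine (weilCls_congr hDVR hcl hH _ 0 _ finite_zero (fun z _ => by rw [weilOf_zero])).trans ?_
    exact weilCls_zero hDVR hcl hH _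
  map_add' D E := by
    refine (weilCls_congr hDVR hcl hH _ (weilOf e D + weilOf e E) _
      (finite_add (finite_weilOf e D) (finite_weilOf e E))
      (fun z _ => by rw [weilOf_add])).trans ?_
    exact weilCls_add hDVR hcl hH _ _ _ _ _

theorem clsHom_apply (D : Divisor K X.functionField) :
    clsHom hDVR hcl hH e D = PicGroup.mk (LBofWeil hDVR hcl hH (weilOf e D) (finite_weilOf e D)) :=
  rfl

/-- the divisor on places of a Weil divisor with finite support. -/
def divisorOf (E : X → ℤ) (hE : {z : X | coheight z = 1 ∧ E z ≠ 0}.Finite) :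
    Divisor K X.functionField :=
  Finsupp.ofSupportFinite (fun v => E (e.symm v).1) (by
    refine ((finite_support_subtype hE).image e).subset ?_
    intro v hv
    exact ⟨e.symm v, hv, e.apply_symm_apply v⟩)

@[simp] theorem divisorOf_apply (E : X → ℤ) (hE : {z : X | coheight z = 1 ∧ E z ≠ 0}.Finite)
    (v : Place K X.functionField) : divisorOf e E hE v = E (e.symm v).1 := rfl

theorem weilOf_divisorOf (E : X → ℤ) (hE : {z : X | coheight z = 1 ∧ E z ≠ 0}.Finite)
    {z : X} (hz : coheight z = 1) : weilOf e (divisorOf e E hE) z = E z := by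
  rw [weilOf_of_coheight e _ hz, divisorOf_apply, e.symm_apply_apply]

/-- the sum of the coefficients of `D` is the degree of its Weil divisor. -/
theorem divDeg_weilOf (D : Divisor K X.functionField) :
    divDeg (weilOf e D) = D.sum fun _ n => n := by
  have h1 : (D.sum fun _ n => n) = ∑ᶠ v, D v := by
    rw [Finsupp.sum, finsum_eq_sum_of_support_subset]
    intro v hv
    simpa using hv
  rw [h1, divDeg, ← finsum_comp_equiv e]
  exact finsum_congr fun p => weilOf_apply e D p

theorem degree_eq_sum (hdeg : ∀ v : Place K X.functionField, v.deg = 1)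
    (D : Divisor K X.functionField) : Divisor.degree D = D.sum fun _ n => n := by
  unfold Divisor.degree
  rw [Finsupp.liftAddHom_apply]
  refine Finsupp.sum_congr fun v _ => ?_
  simp [hdeg v]

theorem divDeg_weilOf_eq_degree (hdeg : ∀ v : Place K X.functionField, v.deg = 1)
    (D : Divisor K X.functionField) : divDeg (weilOf e D) = Divisor.degree D := by
  rw [divDeg_weilOf, degree_eq_sum hdeg]

theorem degHom_clsHom (h0 : PrincipalDegZero X)
    (hdeg : ∀ v : Place K X.functionField, v.deg = 1) (D : Divisor K X.functionField) :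
    degHom h0 (clsHom hDVR hcl hH e D) = Divisor.degree D := by
  rw [clsHom_apply, degHom_mk, deg_LBofWeil hDVR hcl h0 hH, divDeg_weilOf_eq_degree e hdeg]

theorem clsHom_eq_zero_iff
    (he : ∀ (p : {z : X // coheight z = 1}) (f : X.functionField), f ≠ 0 →
      (e p).ord f = Scheme.ord f p.1)
    (D : Divisor K X.functionField) :
    clsHom hDVR hcl hH e D = 0 ↔ D ∈ Divisor.principal (K := K) (F := X.functionField) := by
  rw [← weilCls_zero hDVR hcl hH finite_zero, clsHom_apply, weilCls, PicGroup.mk_eq_mk_iff,
    Divisor.mem_principal]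
  constructor
  · intro h
    obtain ⟨φ, hφ0, hφ⟩ := exists_function_of_iso_LBofWeil hDVR hcl hH _ _ _ _ h
    refine ⟨φ, hφ0, fun v => ?_⟩
    have h1 := hφ (e.symm v).1 (e.symm v).2
    rw [weilOf_apply, e.apply_symm_apply, Pi.zero_apply, sub_zero] at h1
    rw [← h1, ← he (e.symm v) φ hφ0, e.apply_symm_apply]
  · rintro ⟨f, hf0, hf⟩
    refine iso_LBofWeil_of_principal hDVR hcl hH _ _ _ _ f hf0 (fun z hz => ?_)
    rw [weilOf_of_coheight e D hz, Pi.zero_apply, sub_zero, hf, he ⟨z, hz⟩ f hf0]

theorem clsHom_surjective : Function.Surjective (clsHom hDVR hcl hH e) := by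
  intro x
  obtain ⟨L, rfl⟩ := PicGroup.mk_surjective x
  refine ⟨divisorOf e L.canonicalRatSec.div (finite_ratSec_div_ne_zero _), ?_⟩
  rw [clsHom_apply]
  refine ((PicGroup.mk_eq_mk_iff _ _).2 ?_).symm
  refine LB.Iso.trans (iso_LBofWeil_div hDVR hcl hH L.canonicalRatSec) ?_
  exact iso_LBofWeil_of_eq hDVR hcl hH _ _ _ _
    (fun z hz => (weilOf_divisorOf e _ _ hz).symm)

variable (h0 : PrincipalDegZero X) (hdeg : ∀ v : Place K X.functionField, v.deg = 1)

/-- `D ↦ [O(D)]` on divisors of degree zero. -/
def clsHom₀ : Divisor.degZero (K := K) (F := X.functionField) →+ (degHom h0).ker :=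
  ((clsHom hDVR hcl hH e).comp (Divisor.degZero (K := K) (F := X.functionField)).subtype).codRestrict
    (degHom h0).ker (fun D => by
      rw [AddMonoidHom.mem_ker, AddMonoidHom.comp_apply, degHom_clsHom hDVR hcl hH e h0 hdeg]
      exact D.2)

theorem coe_clsHom₀ (D : Divisor.degZero (K := K) (F := X.functionField)) :
    (clsHom₀ hDVR hcl hH e h0 hdeg D : PicGroup X) = clsHom hDVR hcl hH e D.1 := rfl

theorem clsHom₀_surjective : Function.Surjective (clsHom₀ hDVR hcl hH e h0 hdeg) := by
  rintro ⟨x, hx⟩
  obtain ⟨D, rfl⟩ := clsHom_surjective hDVR hcl hH e x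
  refine ⟨⟨D, ?_⟩, Subtype.ext rfl⟩
  rw [Divisor.mem_degZero, ← degHom_clsHom hDVR hcl hH e h0 hdeg]
  exact hx

theorem ker_clsHom₀
    (he : ∀ (p : {z : X // coheight z = 1}) (f : X.functionField), f ≠ 0 →
      (e p).ord f = Scheme.ord f p.1) :
    (clsHom₀ hDVR hcl hH e h0 hdeg).ker =
      (Divisor.principal (K := K) (F := X.functionField)).addSubgroupOf
        (Divisor.degZero (K := K) (F := X.functionField)) := by
  ext D
  rw [AddMonoidHom.mem_ker, AddSubgroup.mem_addSubgroupOf, ← clsHom_eq_zero_iff hDVR hcl hH e he,
    ← coe_clsHom₀ hDVR hcl hH e h0 hdeg]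
  exact ⟨fun h => by rw [h]; rfl, fun h => Subtype.ext h⟩

/-- **`Pic⁰` of the function field is the group of line bundles of degree zero** (generic form). -/
def pic0Equiv
    (he : ∀ (p : {z : X // coheight z = 1}) (f : X.functionField), f ≠ 0 →
      (e p).ord f = Scheme.ord f p.1) :
    Pic0 K X.functionField ≃+ (degHom h0).ker :=
  (QuotientAddGroup.quotientAddEquivOfEq (ker_clsHom₀ hDVR hcl hH e h0 hdeg he).symm).trans
    (QuotientAddGroup.quotientKerEquivOfSurjective (clsHom₀ hDVR hcl hH e h0 hdeg)
      (clsHom₀_surjective hDVR hcl hH e h0 hdeg))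

theorem pic0Equiv_mk
    (he : ∀ (p : {z : X // coheight z = 1}) (f : X.functionField), f ≠ 0 →
      (e p).ord f = Scheme.ord f p.1)
    (D : Divisor.degZero (K := K) (F := X.functionField)) :
    (pic0Equiv hDVR hcl hH e h0 hdeg he (Pic0.mk D) : PicGroup X) =
      PicGroup.mk (LBofWeil hDVR hcl hH (weilOf e D.1) (finite_weilOf e D.1)) := rfl

/-- the `n`-torsion of `Pic⁰`, in terms of line bundles of degree zero. -/
def torsionEquiv
    (he : ∀ (p : {z : X // coheight z = 1}) (f : X.functionField), f ≠ 0 →
      (e p).ord f = Scheme.ord f p.1) (n : ℕ) :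
    Pic0.torsion K X.functionField n ≃ {y : (degHom h0).ker // n • y = 0} :=
  (pic0Equiv hDVR hcl hH e h0 hdeg he).toEquiv.subtypeEquiv (fun x => by
    rw [Pic0.mem_torsion, natCast_zsmul, AddEquiv.toEquiv_eq_coe, AddEquiv.coe_toEquiv,
      ← map_nsmul, AddEquiv.map_eq_zero_iff])

end Generic

section Curve

variable {K : Type u} [Field K] [IsAlgClosed K] {C : Scheme.{u}} [IsIntegral C] [IsNoetherian C]
  (c : C ⟶ Spec (.of K)) [IsProper c] [SmoothOfRelativeDimension 1 c]

/-- all places of the function field of a smooth proper curve over an algebraically closed field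
have degree one. -/
theorem place_deg_eq_one_curve :
    letI := ffAlgebra c
    ∀ v : Place K C.functionField, v.deg = 1 := by
  letI := ffAlgebra c
  have halg : ∀ a : K, algebraMap K C.functionField a = (functionFieldStrMap c).hom a :=
    fun _ => rfl
  haveI : Smooth c := SmoothOfRelativeDimension.smooth 1 c
  haveI := essFiniteType_functionField c halg
  obtain ⟨x, hx⟩ := exists_separating_coord K C.functionField (trdeg_functionField_eq_one c halg)
  intro v
  exact place_deg_eq_one_of_isAlgebraic x.x inferInstance v

/-- the place dictionary of the curve, on the subtype of codimension-one points. -/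
def placeEquivCurve :
    letI := ffAlgebra c
    {z : C // coheight z = 1} ≃ Place K C.functionField :=
  letI := ffAlgebra c
  placeEquiv c (isDiscreteValuationRing_stalk_curve c)
    (fun a ha z hz => scheme_ord_const_curve c a ha z hz) (fun _ => rfl)

theorem ord_placeEquivCurve (p : {z : C // coheight z = 1}) (f : C.functionField) (hf : f ≠ 0) :
    letI := ffAlgebra c
    (placeEquivCurve c p).ord f = Scheme.ord f p.1 := by
  letI := ffAlgebra c
  have h1 := ord_placeEquiv c (isDiscreteValuationRing_stalk_curve c)
    (fun a ha z hz => scheme_ord_const_curve c a ha z hz) (fun _ => rfl) p f hf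
  have h2 := schemePDS_ordZ C (isDiscreteValuationRing_stalk_curve c)
    (fun a ha z hz => scheme_ord_const_curve c a ha z hz) p hf
  exact h1.trans h2

/-- **(PTS-2)**: `Pic⁰` of the function field of a smooth proper curve over an algebraically closed
field is the group of classes of line bundles of degree zero. -/
def pic0EquivCurve :
    letI := ffAlgebra c
    Pic0 K C.functionField ≃+ (degHom (principalDegZero_curve c)).ker :=
  letI := ffAlgebra c
  pic0Equiv (isDiscreteValuationRing_stalk_curve c) (isClosed_singleton_curve c)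
    (hartogsProp_curve c) (placeEquivCurve c) (principalDegZero_curve c)
    (place_deg_eq_one_curve c) (ord_placeEquivCurve c)

theorem pic0EquivCurve_mk :
    letI := ffAlgebra c
    ∀ D : Divisor.degZero (K := K) (F := C.functionField),
      (pic0EquivCurve c (Pic0.mk D) : PicGroup C) =
        PicGroup.mk (LBofWeil (isDiscreteValuationRing_stalk_curve c) (isClosed_singleton_curve c)
          (hartogsProp_curve c) (weilOf (placeEquivCurve c) D.1)
          (finite_weilOf (placeEquivCurve c) D.1)) :=
  fun _ => rfl

/-- the `n`-torsion of `Pic⁰` of the function field of the curve, in terms of line bundles. -/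
def torsionEquivCurve (n : ℕ) :
    letI := ffAlgebra c
    Pic0.torsion K C.functionField n ≃
      {y : (degHom (principalDegZero_curve c)).ker // n • y = 0} :=
  letI := ffAlgebra c
  torsionEquiv (isDiscreteValuationRing_stalk_curve c) (isClosed_singleton_curve c)
    (hartogsProp_curve c) (placeEquivCurve c) (principalDegZero_curve c)
    (place_deg_eq_one_curve c) (ord_placeEquivCurve c) n

end Curve

end

end Fermat.Agent.JAC.PTS
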