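/-
PROJECT JAC (S27) — (PTS), helper6: **the rational points of the Jacobian are `Pic⁰` of the function
field**, compatibly with the group laws; hence the count of the `n`-torsion of `Pic⁰`.

Setting: `K` algebraically closed, `c : C ⟶ Spec K` proper smooth of relative dimension one, `C`
integral noetherian, `ε` a section, `h : LBRepresentsCond c ε (LBCond.degZero c) D`
(`letI := ffAlgebra c` for the `K`-structure of `K(C)`), ns `Fermat.Agent.JAC.PTS`:
* `curveSubgroup_degZero : (LBCond.degZero c).curveSubgroup ε = (degHom _).ker`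
  (helper1's subgroup for helper4's cut = classes of degree zero);
* `curveSubgroupEquiv`, **`pointsEquivPic0 c ε h : J(K) ≃ Pic0 K K(C)`**, `pointsEquivPic0_mul`,
  `_one`, `_nsmul`, `isTorsionPoint_iff_mem_torsion`, **`torsionPointsEquivPic0`**,
  **`natCard_torsion_eq`**, and with S26 **`natCard_torsion_eq_pow`**:
  `Nat.card (Pic0.torsion K K(C) n) = n ^ (2 * g)` for `g` the relative dimension of `J`.
-/
import Mathlib
import Fermat.Agent.JAC.PTS_helper6_Pic0
import Fermat.Agent.JAC.GRP_helper1_Points
import Fermat.Agent.JAC.J8_helper4_DegOpen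
import Fermat.Agent.JAC.J8_helper4_Cond
import Fermat.Agent.AV.AV6_helper4_Final

set_option autoImplicit false
set_option linter.style.haveILetI false
set_option linter.unusedSectionVars false

open AlgebraicGeometry CategoryTheory CategoryTheory.Limits Opposite TopologicalSpace Order
  AlgebraicCurve AlgebraicGeometry.RelPicard NeronModelInfra GoodReductionJacobian

universe u

namespace Fermat.Agent.JAC.PTS

open Fermat.Agent.AV Fermat.Agent.AV.LB Fermat.Agent.JAC

noncomputable section

variable {K : Type u} [Field K] [IsAlgClosed K] {C : Scheme.{u}} [IsIntegral C] [IsNoetherian C]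
  (c : C ⟶ Spec (CommRingCat.of K)) [IsProper c] [SmoothOfRelativeDimension 1 c]
  (ε : SchemeHomOver (𝟙 (Spec (CommRingCat.of K))) c)

/-- for the fibrewise-degree-zero cut, the classes on the curve satisfying the cut are the classes
of degree zero. -/
theorem curveSubgroup_degZero :
    (LBCond.degZero c).curveSubgroup ε = (degHom (principalDegZero_curve c)).ker := by
  ext x
  obtain ⟨M, rfl⟩ := PicGroup.mk_surjective x
  rw [LBCond.mem_curveSubgroup_mk, AddMonoidHom.mem_ker, degHom_mk, LBCond.degZero_P]
  constructor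
  · intro h
    have h1 := h.deg_pullback_of_section (fibreSec c) (fibreSec_fst c)
    rw [← h1]
    apply LB.deg_eq_of_iso (principalDegZero_curve c)
    rw [← PicGroup.mk_eq_mk_iff]
    exact ((picFibreEquiv c).symm_apply_apply (PicGroup.mk M)).symm
  · intro h
    rw [lbFibrewiseDegZero_iff]
    intro k' _ _ s A _ _ p a H
    rw [squareDeg_mk, deg_pullback_fst_of_fibreSquare c H M, h]

variable {D : RelativePic0Designation K c} (h : LBRepresentsCond c ε (LBCond.degZero c) D)

/-- the classes satisfying the cut, as `Pic⁰` of the function field. -/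
def curveSubgroupEquiv :
    letI := ffAlgebra c
    (LBCond.degZero c).curveSubgroup ε ≃+ Pic0 K C.functionField :=
  letI := ffAlgebra c
  (AddEquiv.addSubgroupCongr (curveSubgroup_degZero c ε)).trans (pic0EquivCurve c).symm

/-- **(PTS)**: the rational points of the Jacobian are `Pic⁰` of the function field. -/
def pointsEquivPic0 :
    letI := ffAlgebra c
    SchemeHomOver (𝟙 (Spec (CommRingCat.of K))) D.toBase ≃ Pic0 K C.functionField :=
  letI := ffAlgebra c
  h.pointsEquiv.trans (curveSubgroupEquiv c ε).toEquiv

theorem pointsEquivPic0_mul (x y : SchemeHomOver (𝟙 (Spec (CommRingCat.of K))) D.toBase) :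
    letI := ffAlgebra c
    pointsEquivPic0 c ε h (h.groupLaw.mul (𝟙 _) x y) =
      pointsEquivPic0 c ε h x + pointsEquivPic0 c ε h y := by
  letI := ffAlgebra c
  show (curveSubgroupEquiv c ε) (h.pointsEquiv _) = _
  rw [h.pointsEquiv_mul, map_add]
  rfl

theorem pointsEquivPic0_one :
    letI := ffAlgebra c
    pointsEquivPic0 c ε h (h.groupLaw.one (𝟙 _)) = 0 := by
  letI := ffAlgebra c
  show (curveSubgroupEquiv c ε) (h.pointsEquiv _) = _
  rw [h.pointsEquiv_one, map_zero]

theorem pointsEquivPic0_nsmul (n : ℕ)
    (x : SchemeHomOver (𝟙 (Spec (CommRingCat.of K))) D.toBase) :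
    letI := ffAlgebra c
    pointsEquivPic0 c ε h (h.groupLaw.nsmul (𝟙 _) n x) = n • pointsEquivPic0 c ε h x := by
  letI := ffAlgebra c
  show (curveSubgroupEquiv c ε) (h.pointsEquiv _) = _
  rw [h.pointsEquiv_nsmul, map_nsmul]
  rfl

theorem isTorsionPoint_iff_mem_torsion (n : ℕ)
    (x : SchemeHomOver (𝟙 (Spec (CommRingCat.of K))) D.toBase) :
    letI := ffAlgebra c
    h.groupLaw.IsTorsionPoint (𝟙 _) n x ↔
      pointsEquivPic0 c ε h x ∈ Pic0.torsion K C.functionField n := by
  letI := ffAlgebra c
  rw [Pic0.mem_torsion, natCast_zsmul, ← pointsEquivPic0_nsmul, ← pointsEquivPic0_one c ε h,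
    RelativeGroupLaw.isTorsionPoint_def]
  exact (pointsEquivPic0 c ε h).injective.eq_iff.symm

/-- **the `n`-torsion rational points of the Jacobian** are the `n`-torsion of `Pic⁰` of the
function field. -/
def torsionPointsEquivPic0 (n : ℕ) :
    letI := ffAlgebra c
    {x : SchemeHomOver (𝟙 (Spec (CommRingCat.of K))) D.toBase //
        h.groupLaw.IsTorsionPoint (𝟙 _) n x} ≃ Pic0.torsion K C.functionField n :=
  letI := ffAlgebra c
  (pointsEquivPic0 c ε h).subtypeEquiv (fun x => isTorsionPoint_iff_mem_torsion c ε h n x)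

theorem natCard_torsion_eq (n : ℕ) :
    letI := ffAlgebra c
    Nat.card (Pic0.torsion K C.functionField n) =
      Nat.card {x : SchemeHomOver (𝟙 (Spec (CommRingCat.of K))) D.toBase //
        h.groupLaw.IsTorsionPoint (𝟙 _) n x} := by
  letI := ffAlgebra c
  exact (Nat.card_congr (torsionPointsEquivPic0 c ε h n)).symm

/-- **the `n`-torsion of `Pic⁰` of the function field has `n ^ (2 g)` elements**, `g` the relative
dimension of the Jacobian (S26 for the Jacobian). -/
theorem natCard_torsion_eq_pow (hc : h.groupLaw.IsCommutative)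
    (hA : AbelianSchemePropertyBundle K D.toBase) (g : ℕ) [SmoothOfRelativeDimension g D.toBase]
    (n : ℕ) (hn : (n : K) ≠ 0) :
    letI := ffAlgebra c
    Nat.card (Pic0.torsion K C.functionField n) = n ^ (2 * g) := by
  letI := ffAlgebra c
  rw [natCard_torsion_eq c ε h n]
  exact Fermat.Agent.AV.s26Statement K D.toBase h.groupLaw hc hA g n hn

end

end Fermat.Agent.JAC.PTS
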