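/-
PROJECT JAC (S27) — (TRANSPORT), layer 1 (helper7): **transport of places along a semilinear
isomorphism of function fields.**

`σ : K ≃+* K'`, `φ : F ≃+* F'` field isomorphisms (ANY universes) with
`hφ : ∀ a, φ (algebraMap K F a) = algebraMap K' F' (σ a)`.
* `vsMap φ A` (image of a valuation subring), `vsMapEquiv φ A : A ≃+* vsMap φ A`;
* `placeMap σ φ hφ : Place K F → Place K' F'`, **`placeMapEquiv σ φ hφ : Place K F ≃ Place K' F'`**
  (inverse = `placeMap σ.symm φ.symm (symm_compat σ φ hφ)`);
* **`ord_placeMap : (placeMap σ φ hφ v).ord (φ f) = v.ord f`**, `ord_placeMap_symm`,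
  `adicValuation_placeMap`;
* `residueMapEquiv` (`σ`-semilinear: `residueMapEquiv_smul`), **`deg_placeMap`**,
  `finite_residueField_placeMap`; `finrank_eq_of_equiv_equiv` (finrank under semilinear bijections).
-/
import Mathlib
import Fermat.Prelude.Def_AlgebraicCurve_DivisorClassGroup
import Fermat.Prelude.Def_AlgebraicCurve_IsCurveOver
import Fermat.Prelude.Def_AlgebraicCurve_Repartitions

set_option autoImplicit false

open AlgebraicCurve IsDedekindDomain WithZero IsLocalRing

namespace Fermat.Agent.JAC.TR

noncomputable section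

variable {K F K' F' : Type*} [Field K] [Field F] [Algebra K F] [Field K'] [Field F']
  [Algebra K' F']

/-- the image of a valuation subring under a field isomorphism. -/
def vsMap (φ : F ≃+* F') (A : ValuationSubring F) : ValuationSubring F' :=
  A.comap (φ.symm : F' →+* F)

theorem mem_vsMap_iff (φ : F ≃+* F') (A : ValuationSubring F) (y : F') :
    y ∈ vsMap φ A ↔ φ.symm y ∈ A := Iff.rfl

theorem apply_mem_vsMap_iff (φ : F ≃+* F') (A : ValuationSubring F) (x : F) :
    φ x ∈ vsMap φ A ↔ x ∈ A := by
  rw [mem_vsMap_iff, RingEquiv.symm_apply_apply]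

/-- the induced isomorphism of the valuation rings. -/
def vsMapEquiv (φ : F ≃+* F') (A : ValuationSubring F) : A ≃+* vsMap φ A where
  toFun x := ⟨φ x, (apply_mem_vsMap_iff φ A x).mpr x.2⟩
  invFun y := ⟨φ.symm y, y.2⟩
  left_inv x := by ext; simp
  right_inv y := by ext; simp
  map_mul' x y := by ext; simp
  map_add' x y := by ext; simp

@[simp]
theorem coe_vsMapEquiv_apply (φ : F ≃+* F') (A : ValuationSubring F) (x : A) :
    ((vsMapEquiv φ A x : vsMap φ A) : F') = φ x := rfl

@[simp]
theorem coe_vsMapEquiv_symm_apply (φ : F ≃+* F') (A : ValuationSubring F) (y : vsMap φ A) :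
    (((vsMapEquiv φ A).symm y : A) : F) = φ.symm y := rfl

theorem vsMap_top (φ : F ≃+* F') : vsMap φ (⊤ : ValuationSubring F) = ⊤ := by
  ext y
  simp [mem_vsMap_iff, ValuationSubring.mem_top]

theorem vsMap_symm_vsMap (φ : F ≃+* F') (A : ValuationSubring F) :
    vsMap φ.symm (vsMap φ A) = A := by
  ext x
  simp [mem_vsMap_iff]

theorem vsMap_vsMap_symm (φ : F ≃+* F') (A : ValuationSubring F') :
    vsMap φ (vsMap φ.symm A) = A := by
  ext x
  simp [mem_vsMap_iff]

variable (σ : K ≃+* K') (φ : F ≃+* F')
  (hφ : ∀ a : K, φ (algebraMap K F a) = algebraMap K' F' (σ a))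

include hφ in
theorem symm_compat (a' : K') : φ.symm (algebraMap K' F' a') = algebraMap K F (σ.symm a') := by
  apply φ.injective
  rw [RingEquiv.apply_symm_apply, hφ, RingEquiv.apply_symm_apply]

/-- transport of a place along a semilinear isomorphism of function fields. -/
def placeMap (v : Place K F) : Place K' F' where
  toValuationSubring := vsMap φ v.toValuationSubring
  algebraMap_mem' a' := by
    rw [mem_vsMap_iff, symm_compat σ φ hφ]
    exact v.algebraMap_mem' _
  ne_top' h := v.ne_top' <| by
    have := congrArg (vsMap φ.symm) h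
    rwa [vsMap_symm_vsMap, vsMap_top] at this
  isPrincipalIdealRing' :=
    IsPrincipalIdealRing.of_surjective
      (vsMapEquiv φ v.toValuationSubring : _ ≃+* _)
      (vsMapEquiv φ v.toValuationSubring).surjective

@[simp]
theorem placeMap_toValuationSubring (v : Place K F) :
    (placeMap σ φ hφ v).toValuationSubring = vsMap φ v.toValuationSubring := rfl

/-- **transport of places**: `Place K F ≃ Place K' F'`. -/
def placeMapEquiv : Place K F ≃ Place K' F' where
  toFun := placeMap σ φ hφ
  invFun := placeMap σ.symm φ.symm (symm_compat σ φ hφ)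
  left_inv v := by
    ext1
    simp only [placeMap_toValuationSubring]
    exact vsMap_symm_vsMap φ _
  right_inv w := by
    ext1
    simp only [placeMap_toValuationSubring]
    exact vsMap_vsMap_symm φ _

@[simp]
theorem placeMapEquiv_apply (v : Place K F) :
    placeMapEquiv σ φ hφ v = placeMap σ φ hφ v := rfl

@[simp]
theorem placeMapEquiv_symm_apply (w : Place K' F') :
    (placeMapEquiv σ φ hφ).symm w = placeMap σ.symm φ.symm (symm_compat σ φ hφ) w := rfl

/-- **orders are transported.** -/
theorem ord_placeMap (v : Place K F) (f : F) : (placeMap σ φ hφ v).ord (φ f) = v.ord f := by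
  rcases eq_or_ne f 0 with rfl | hf
  · simp
  obtain ⟨π, hπ⟩ := IsDiscreteValuationRing.exists_irreducible v.toValuationSubring
  obtain ⟨u, hu⟩ := v.exists_unit_mul_zpow hf hπ
  set n := v.ord f with hn
  set e := vsMapEquiv φ v.toValuationSubring with he
  have hπ' : Irreducible (e π) := (MulEquiv.irreducible_iff e).mpr hπ
  have hu' : IsUnit (e (u : v.toValuationSubring)) := u.isUnit.map e
  have hcoeu : ((hu'.unit : ↥(vsMap φ v.toValuationSubring)) : F')
      = φ ((u : v.toValuationSubring) : F) := by
    rw [IsUnit.unit_spec]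
    rfl
  have hcoeπ : ((e π : ↥(vsMap φ v.toValuationSubring)) : F') = φ (π : F) := rfl
  have key : φ f = ((hu'.unit : ↥(vsMap φ v.toValuationSubring)) : F')
      * (((e π : ↥(vsMap φ v.toValuationSubring)) : F') ^ n) := by
    rw [hcoeu, hcoeπ, hu, map_mul, map_zpow₀]
  rw [key, (placeMap σ φ hφ v).ord_unit_smul_zpow hu'.unit hπ' n]

theorem ord_placeMap_symm (w : Place K' F') (f : F) :
    w.ord (φ f) = (placeMap σ.symm φ.symm (symm_compat σ φ hφ) w).ord f := by
  have h := ord_placeMap σ.symm φ.symm (symm_compat σ φ hφ) w (φ f)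
  rw [RingEquiv.symm_apply_apply] at h
  exact h.symm

/-- **adic valuations are transported.** -/
theorem adicValuation_placeMap (v : Place K F) (f : F) :
    (placeMap σ φ hφ v).adicValuation (φ f) = v.adicValuation f := by
  rcases eq_or_ne f 0 with rfl | hf
  · simp
  have hf' : φ f ≠ 0 := (map_ne_zero φ).mpr hf
  rw [Place.adicValuation_eq_exp_neg_ord _ hf', Place.adicValuation_eq_exp_neg_ord _ hf,
    ord_placeMap]

/-! ### Residue fields and degrees -/

/-- finrank is invariant under semilinear bijections (any universes). -/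
theorem finrank_eq_of_equiv_equiv {R R' M M' : Type*} [Semiring R] [Semiring R']
    [AddCommMonoid M] [AddCommMonoid M'] [Module R M] [Module R' M'] (i : R → R') (j : M ≃+ M')
    (hi : Function.Bijective i) (hc : ∀ (r : R) (m : M), j (r • m) = i r • j m) :
    Module.finrank R M = Module.finrank R' M' := by
  have h := lift_rank_eq_of_equiv_equiv i j hi hc
  have h2 := congrArg Cardinal.toNat h
  rw [Cardinal.toNat_lift, Cardinal.toNat_lift] at h2
  exact h2

/-- the isomorphism of residue fields. -/
def residueMapEquiv (v : Place K F) : v.ResidueField ≃+* (placeMap σ φ hφ v).ResidueField :=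
  IsLocalRing.ResidueField.mapEquiv (vsMapEquiv φ v.toValuationSubring)

theorem vsMapEquiv_algebraMap (v : Place K F) (a : K) :
    vsMapEquiv φ v.toValuationSubring (algebraMap K v.toValuationSubring a) =
      algebraMap K' (placeMap σ φ hφ v).toValuationSubring (σ a) := by
  apply Subtype.ext
  rw [coe_vsMapEquiv_apply, Place.coe_algebraMap, hφ]
  rfl

/-- the isomorphism of residue fields is `σ`-semilinear. -/
theorem residueMapEquiv_smul (v : Place K F) (a : K) (x : v.ResidueField) :
    residueMapEquiv σ φ hφ v (a • x) = σ a • residueMapEquiv σ φ hφ v x := by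
  rw [Algebra.smul_def, Algebra.smul_def, map_mul]
  congr 1
  show IsLocalRing.ResidueField.mapEquiv _ (IsLocalRing.residue _ _) = IsLocalRing.residue _ _
  rw [IsLocalRing.ResidueField.mapEquiv_apply, IsLocalRing.ResidueField.map_residue]
  exact congrArg _ (vsMapEquiv_algebraMap σ φ hφ v a)

/-- **degrees are transported.** -/
theorem deg_placeMap (v : Place K F) : (placeMap σ φ hφ v).deg = v.deg :=
  (finrank_eq_of_equiv_equiv σ (residueMapEquiv σ φ hφ v).toAddEquiv σ.bijective
    (residueMapEquiv_smul σ φ hφ v)).symm

/-- finiteness of residue fields is transported. -/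
theorem finite_residueField_placeMap (v : Place K F) [Module.Finite K v.ResidueField] :
    Module.Finite K' (placeMap σ φ hφ v).ResidueField := by
  classical
  obtain ⟨s, hs⟩ := (Module.finite_def.mp ‹Module.Finite K v.ResidueField›)
  refine ⟨⟨s.image (residueMapEquiv σ φ hφ v), ?_⟩⟩
  rw [eq_top_iff]
  rintro y -
  obtain ⟨x, rfl⟩ := (residueMapEquiv σ φ hφ v).surjective y
  have hx : x ∈ Submodule.span K (s : Set v.ResidueField) := by rw [hs]; trivial
  induction hx using Submodule.span_induction with
  | mem x hx =>
    exact Submodule.subset_span (by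
      rw [Finset.coe_image]
      exact ⟨x, hx, rfl⟩)
  | zero => rw [map_zero]; exact Submodule.zero_mem _
  | add x y _ _ hx hy => rw [map_add]; exact Submodule.add_mem _ hx hy
  | smul a x _ hx =>
    rw [residueMapEquiv_smul]
    exact Submodule.smul_mem _ _ hx

end

end Fermat.Agent.JAC.TR
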