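/-
PROJECT JAC (S27) — (TRANSPORT), layer 2 (helper7): **transport of divisors, principal divisors,
`Pic⁰` and its torsion** along `σ : K ≃+* K'`, `φ : F ≃+* F'`,
`hφ : ∀ a, φ (algebraMap K F a) = algebraMap K' F' (σ a)` (any universes).
* `divisorMapEquiv σ φ hφ : Divisor K F ≃+ Divisor K' F'` (`_apply`, `_apply_placeMap`, `_single`,
  `_symm_apply`), **`degree_divisorMapEquiv`**, **`isPrincipal_divisorMapEquiv_iff`**;
* `degZeroMapEquiv`, `map_principal_degZeroMapEquiv`, **`pic0MapEquiv : Pic0 K F ≃+ Pic0 K' F'`**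
  (`pic0MapEquiv_mk`), `torsionMapEquiv n`,
  **`natCard_torsion_eq σ φ hφ n : Nat.card (Pic0.torsion K F n) = Nat.card (Pic0.torsion K' F' n)`**.
-/
import Mathlib
import Fermat.Agent.JAC.TR_helper7_Place

set_option autoImplicit false

open AlgebraicCurve IsDedekindDomain WithZero IsLocalRing

namespace Fermat.Agent.JAC.TR

noncomputable section

variable {K F K' F' : Type*} [Field K] [Field F] [Algebra K F] [Field K'] [Field F']
  [Algebra K' F'] (σ : K ≃+* K') (φ : F ≃+* F')
  (hφ : ∀ a : K, φ (algebraMap K F a) = algebraMap K' F' (σ a))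

/-- **transport of divisors.** -/
def divisorMapEquiv : Divisor K F ≃+ Divisor K' F' :=
  Finsupp.domCongr (placeMapEquiv σ φ hφ)

theorem divisorMapEquiv_apply (D : Divisor K F) (w : Place K' F') :
    divisorMapEquiv σ φ hφ D w = D (placeMap σ.symm φ.symm (symm_compat σ φ hφ) w) := rfl

theorem divisorMapEquiv_apply_placeMap (D : Divisor K F) (v : Place K F) :
    divisorMapEquiv σ φ hφ D (placeMap σ φ hφ v) = D v := by
  rw [divisorMapEquiv_apply]
  exact congrArg D ((placeMapEquiv σ φ hφ).symm_apply_apply v)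

theorem divisorMapEquiv_single (v : Place K F) (n : ℤ) :
    divisorMapEquiv σ φ hφ (Finsupp.single v n) = Finsupp.single (placeMap σ φ hφ v) n := by
  show Finsupp.equivMapDomain (placeMapEquiv σ φ hφ) (Finsupp.single v n) = _
  rw [Finsupp.equivMapDomain_single]
  rfl

theorem divisorMapEquiv_symm_apply (D' : Divisor K' F') :
    (divisorMapEquiv σ φ hφ).symm D' =
      divisorMapEquiv σ.symm φ.symm (symm_compat σ φ hφ) D' := by
  ext v
  rfl

/-- **degrees of divisors are transported.** -/
theorem degree_divisorMapEquiv (D : Divisor K F) :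
    Divisor.degree (divisorMapEquiv σ φ hφ D) = Divisor.degree D := by
  induction D using Finsupp.induction with
  | zero => simp
  | single_add v n D _ _ ih =>
    rw [map_add, map_add, map_add, ih, divisorMapEquiv_single, Divisor.degree_single,
      Divisor.degree_single, deg_placeMap]

theorem isPrincipal_divisorMapEquiv {D : Divisor K F} (h : Divisor.IsPrincipal D) :
    Divisor.IsPrincipal (divisorMapEquiv σ φ hφ D) := by
  obtain ⟨f, hf, hD⟩ := h
  refine ⟨φ f, (map_ne_zero φ).mpr hf, fun w => ?_⟩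
  rw [divisorMapEquiv_apply, hD, ord_placeMap_symm σ φ hφ]

/-- **principal divisors are transported.** -/
theorem isPrincipal_divisorMapEquiv_iff (D : Divisor K F) :
    Divisor.IsPrincipal (divisorMapEquiv σ φ hφ D) ↔ Divisor.IsPrincipal D := by
  refine ⟨fun h => ?_, isPrincipal_divisorMapEquiv σ φ hφ⟩
  have h2 := isPrincipal_divisorMapEquiv σ.symm φ.symm (symm_compat σ φ hφ) h
  rw [← divisorMapEquiv_symm_apply σ φ hφ, AddEquiv.symm_apply_apply] at h2
  exact h2

/-- transport of divisors of degree zero. -/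
def degZeroMapEquiv :
    Divisor.degZero (K := K) (F := F) ≃+ Divisor.degZero (K := K') (F := F') where
  toFun D := ⟨divisorMapEquiv σ φ hφ D, by
    rw [Divisor.mem_degZero, degree_divisorMapEquiv]
    exact D.2⟩
  invFun D' := ⟨(divisorMapEquiv σ φ hφ).symm D', by
    rw [Divisor.mem_degZero, ← degree_divisorMapEquiv σ φ hφ, AddEquiv.apply_symm_apply]
    exact D'.2⟩
  left_inv D := Subtype.ext ((divisorMapEquiv σ φ hφ).symm_apply_apply D)
  right_inv D' := Subtype.ext ((divisorMapEquiv σ φ hφ).apply_symm_apply D')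
  map_add' D E := Subtype.ext
    (map_add (divisorMapEquiv σ φ hφ) (D : Divisor K F) (E : Divisor K F))

@[simp]
theorem coe_degZeroMapEquiv (D : Divisor.degZero (K := K) (F := F)) :
    (degZeroMapEquiv σ φ hφ D : Divisor K' F') = divisorMapEquiv σ φ hφ D := rfl

theorem map_principal_degZeroMapEquiv :
    ((Divisor.principal (K := K) (F := F)).addSubgroupOf
        (Divisor.degZero (K := K) (F := F))).map (degZeroMapEquiv σ φ hφ : _ →+ _) =
      (Divisor.principal (K := K') (F := F')).addSubgroupOf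
        (Divisor.degZero (K := K') (F := F')) := by
  ext D'
  simp only [AddSubgroup.mem_map, AddSubgroup.mem_addSubgroupOf]
  constructor
  · rintro ⟨D, hD, rfl⟩
    exact isPrincipal_divisorMapEquiv σ φ hφ hD
  · intro hD'
    refine ⟨(degZeroMapEquiv σ φ hφ).symm D', ?_, (degZeroMapEquiv σ φ hφ).apply_symm_apply D'⟩
    have h1 : Divisor.IsPrincipal (divisorMapEquiv σ φ hφ
        (((degZeroMapEquiv σ φ hφ).symm D' : Divisor.degZero (K := K) (F := F)) :
          Divisor K F)) := by
      rw [← coe_degZeroMapEquiv, AddEquiv.apply_symm_apply]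
      exact hD'
    exact (isPrincipal_divisorMapEquiv_iff σ φ hφ _).mp h1

/-- **transport of `Pic⁰`.** -/
def pic0MapEquiv : Pic0 K F ≃+ Pic0 K' F' :=
  QuotientAddGroup.congr _ _ (degZeroMapEquiv σ φ hφ) (map_principal_degZeroMapEquiv σ φ hφ)

@[simp]
theorem pic0MapEquiv_mk (D : Divisor.degZero (K := K) (F := F)) :
    pic0MapEquiv σ φ hφ (Pic0.mk D) = Pic0.mk (degZeroMapEquiv σ φ hφ D) := rfl

/-- the induced bijection on `n`-torsion. -/
def torsionMapEquiv (n : ℕ) : Pic0.torsion K F n ≃ Pic0.torsion K' F' n :=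
  (pic0MapEquiv σ φ hφ).toEquiv.subtypeEquiv fun x => by
    rw [Pic0.mem_torsion, Pic0.mem_torsion]
    show _ ↔ (n : ℤ) • pic0MapEquiv σ φ hφ x = 0
    rw [← map_zsmul, map_eq_zero_iff _ (pic0MapEquiv σ φ hφ).injective]

include σ φ hφ in
/-- **the `n`-torsion of `Pic⁰` has the same cardinality.** -/
theorem natCard_torsion_eq (n : ℕ) :
    Nat.card (Pic0.torsion K F n) = Nat.card (Pic0.torsion K' F' n) :=
  Nat.card_congr (torsionMapEquiv σ φ hφ n)

end

end Fermat.Agent.JAC.TR
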