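/-
PROJECT JAC (S27) — (TRANSPORT), layer 3 (helper7): **transport of repartitions, `H¹(D)` and the
genus** along `σ : K ≃+* K'`, `φ : F ≃+* F'`, `hφ : ∀ a, φ (algebraMap K F a) = algebraMap K' F' (σ a)`
(any universes).
* `funMapEquiv e φ : (Place K F → F) ≃+* (Place K' F' → F')`, `repartitionsMapEquiv'`;
* `repartitionsMapEquiv σ φ hφ : ↥(repartitions K F) ≃+* ↥(repartitions K' F')`, `σ`-semilinear
  (`repartitionsMapEquiv_smul`), compatible with `repartitionsOf` and `principalRepartitions`;
* `h1MapEquiv σ φ hφ (hD : D' = divisorMapEquiv σ φ hφ D) : H1 D ≃+ H1 D'` (`h1MapEquiv_smul`),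
  `finrank_h1_eq`, **`genusFF_eq σ φ hφ : genusFF K F = genusFF K' F'`**.
-/
import Mathlib
import Fermat.Agent.JAC.TR_helper7_Pic

set_option autoImplicit false

open AlgebraicCurve IsDedekindDomain WithZero IsLocalRing

namespace Fermat.Agent.JAC.TR

noncomputable section

variable {K F K' F' : Type*} [Field K] [Field F] [Algebra K F] [Field K'] [Field F']
  [Algebra K' F']

section Fun

variable (e : Place K F ≃ Place K' F') (φ : F ≃+* F')

/-- transport of families indexed by places. -/
def funMapEquiv : (Place K F → F) ≃+* (Place K' F' → F') where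
  toFun α w := φ (α (e.symm w))
  invFun β v := φ.symm (β (e v))
  left_inv α := by
    funext v
    simp
  right_inv β := by
    funext w
    simp
  map_mul' α β := by
    funext w
    simp
  map_add' α β := by
    funext w
    simp

@[simp]
theorem funMapEquiv_apply (α : Place K F → F) (w : Place K' F') :
    funMapEquiv e φ α w = φ (α (e.symm w)) := rfl

@[simp]
theorem funMapEquiv_symm_apply (β : Place K' F' → F') (v : Place K F) :
    (funMapEquiv e φ).symm β v = φ.symm (β (e v)) := rfl

theorem funMapEquiv_symm_eq (β : Place K' F' → F') :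
    (funMapEquiv e φ).symm β = funMapEquiv e.symm φ.symm β := rfl

theorem funMapEquiv_algebraMap (f : F) :
    funMapEquiv e φ (algebraMap F (Place K F → F) f) = algebraMap F' (Place K' F' → F') (φ f) := by
  funext w
  simp [Pi.algebraMap_apply]

variable (hval : ∀ (v : Place K F) (f : F), (e v).adicValuation (φ f) = v.adicValuation f)

include hval in
theorem hval_symm (w : Place K' F') (f' : F') :
    (e.symm w).adicValuation (φ.symm f') = w.adicValuation f' := by
  have h := hval (e.symm w) (φ.symm f')
  rw [Equiv.apply_symm_apply, RingEquiv.apply_symm_apply] at h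
  exact h.symm

include hval in
/-- repartitions are transported. -/
theorem funMapEquiv_mem_repartitions {α : Place K F → F} (hα : α ∈ repartitions K F) :
    funMapEquiv e φ α ∈ repartitions K' F' := by
  unfold repartitions at hα
  induction hα using Algebra.adjoin_induction with
  | mem α hα =>
    refine mem_repartitions_of_finite ?_
    refine (hα.image e).subset ?_
    intro w hw
    refine ⟨e.symm w, ?_, Equiv.apply_symm_apply e w⟩
    show ¬ (e.symm w).adicValuation (α (e.symm w)) ≤ 1
    have h1 : w.adicValuation (funMapEquiv e φ α w) = (e.symm w).adicValuation (α (e.symm w)) := by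
      have h2 := hval (e.symm w) (α (e.symm w))
      rw [Equiv.apply_symm_apply] at h2
      exact h2
    rw [← h1]
    exact hw
  | algebraMap f =>
    rw [funMapEquiv_algebraMap]
    exact Subalgebra.algebraMap_mem _ _
  | add α β _ _ hα hβ =>
    rw [map_add]
    exact Subalgebra.add_mem _ hα hβ
  | mul α β _ _ hα hβ =>
    rw [map_mul]
    exact Subalgebra.mul_mem _ hα hβ

include hval in
theorem funMapEquiv_symm_mem_repartitions {β : Place K' F' → F'}
    (hβ : β ∈ repartitions K' F') : (funMapEquiv e φ).symm β ∈ repartitions K F := by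
  rw [funMapEquiv_symm_eq]
  exact funMapEquiv_mem_repartitions e.symm φ.symm (hval_symm e φ hval) hβ

/-- **transport of the ring of repartitions.** -/
def repartitionsMapEquiv' : ↥(repartitions K F) ≃+* ↥(repartitions K' F') where
  toFun α := ⟨funMapEquiv e φ α, funMapEquiv_mem_repartitions e φ hval α.2⟩
  invFun β := ⟨(funMapEquiv e φ).symm β, funMapEquiv_symm_mem_repartitions e φ hval β.2⟩
  left_inv α := Subtype.ext ((funMapEquiv e φ).symm_apply_apply α)
  right_inv β := Subtype.ext ((funMapEquiv e φ).apply_symm_apply β)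
  map_mul' α β := Subtype.ext (map_mul (funMapEquiv e φ) (α : Place K F → F) β)
  map_add' α β := Subtype.ext (map_add (funMapEquiv e φ) (α : Place K F → F) β)

end Fun

section Genus

variable (σ : K ≃+* K') (φ : F ≃+* F')
  (hφ : ∀ a : K, φ (algebraMap K F a) = algebraMap K' F' (σ a))

/-- **transport of the ring of repartitions** along `(σ, φ)`. -/
def repartitionsMapEquiv : ↥(repartitions K F) ≃+* ↥(repartitions K' F') :=
  repartitionsMapEquiv' (placeMapEquiv σ φ hφ) φ (fun v f => adicValuation_placeMap σ φ hφ v f)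

theorem coe_repartitionsMapEquiv_apply (α : ↥(repartitions K F)) (w : Place K' F') :
    (repartitionsMapEquiv σ φ hφ α : Place K' F' → F') w =
      φ ((α : Place K F → F) (placeMap σ.symm φ.symm (symm_compat σ φ hφ) w)) := rfl

theorem coe_repartitionsMapEquiv_apply_placeMap (α : ↥(repartitions K F)) (v : Place K F) :
    (repartitionsMapEquiv σ φ hφ α : Place K' F' → F') (placeMap σ φ hφ v) =
      φ ((α : Place K F → F) v) := by
  rw [coe_repartitionsMapEquiv_apply]
  exact congrArg (fun u => φ ((α : Place K F → F) u)) ((placeMapEquiv σ φ hφ).symm_apply_apply v)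

theorem coe_repartitionsMapEquiv_symm_apply (β : ↥(repartitions K' F')) (v : Place K F) :
    ((repartitionsMapEquiv σ φ hφ).symm β : Place K F → F) v =
      φ.symm ((β : Place K' F' → F') (placeMap σ φ hφ v)) := rfl

/-- `σ`-semilinearity. -/
theorem repartitionsMapEquiv_smul (c : K) (α : ↥(repartitions K F)) :
    repartitionsMapEquiv σ φ hφ (c • α) = σ c • repartitionsMapEquiv σ φ hφ α := by
  apply Subtype.ext
  funext w
  show φ (c • (α : Place K F → F) _) = σ c • φ ((α : Place K F → F) _)
  rw [Algebra.smul_def, Algebra.smul_def, map_mul, hφ]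

theorem repartitionsMapEquiv_symm_smul (c' : K') (β : ↥(repartitions K' F')) :
    (repartitionsMapEquiv σ φ hφ).symm (c' • β) =
      σ.symm c' • (repartitionsMapEquiv σ φ hφ).symm β := by
  apply (repartitionsMapEquiv σ φ hφ).injective
  rw [repartitionsMapEquiv_smul, RingEquiv.apply_symm_apply, RingEquiv.apply_symm_apply,
    RingEquiv.apply_symm_apply]

variable {D : Divisor K F} {D' : Divisor K' F'}

theorem repartitionsMapEquiv_mem_repartitionsOf_iff
    (hD : D' = divisorMapEquiv σ φ hφ D) (α : ↥(repartitions K F)) :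
    repartitionsMapEquiv σ φ hφ α ∈ repartitionsOf D' ↔ α ∈ repartitionsOf D := by
  subst hD
  constructor
  · intro h v
    have h1 := h (placeMap σ φ hφ v)
    rw [coe_repartitionsMapEquiv_apply_placeMap, adicValuation_placeMap,
      divisorMapEquiv_apply_placeMap] at h1
    exact h1
  · intro h w
    have h1 := h (placeMap σ.symm φ.symm (symm_compat σ φ hφ) w)
    rw [coe_repartitionsMapEquiv_apply, divisorMapEquiv_apply]
    have h2 := adicValuation_placeMap σ φ hφ (placeMap σ.symm φ.symm (symm_compat σ φ hφ) w)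
      ((α : Place K F → F) (placeMap σ.symm φ.symm (symm_compat σ φ hφ) w))
    have h3 : placeMap σ φ hφ (placeMap σ.symm φ.symm (symm_compat σ φ hφ) w) = w :=
      (placeMapEquiv σ φ hφ).apply_symm_apply w
    rw [h3] at h2
    rw [h2]
    exact h1

theorem repartitionsMapEquiv_mem_principalRepartitions_iff (α : ↥(repartitions K F)) :
    repartitionsMapEquiv σ φ hφ α ∈ principalRepartitions K' F' ↔
      α ∈ principalRepartitions K F := by
  rw [mem_principalRepartitions_iff, mem_principalRepartitions_iff]
  constructor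
  · rintro ⟨f', hf'⟩
    refine ⟨φ.symm f', ?_⟩
    funext v
    have h1 := congrFun hf' (placeMap σ φ hφ v)
    rw [coe_repartitionsMapEquiv_apply_placeMap] at h1
    rw [← h1, RingEquiv.symm_apply_apply]
  · rintro ⟨f, hf⟩
    refine ⟨φ f, ?_⟩
    funext w
    rw [coe_repartitionsMapEquiv_apply, hf]

theorem repartitionsMapEquiv_mem_sup_iff (hD : D' = divisorMapEquiv σ φ hφ D)
    (α : ↥(repartitions K F)) :
    repartitionsMapEquiv σ φ hφ α ∈ repartitionsOf D' ⊔ principalRepartitions K' F' ↔
      α ∈ repartitionsOf D ⊔ principalRepartitions K F := by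
  constructor
  · intro h
    obtain ⟨β, hβ, γ, hγ, hsum⟩ := Submodule.mem_sup.mp h
    refine Submodule.mem_sup.mpr ⟨(repartitionsMapEquiv σ φ hφ).symm β, ?_,
      (repartitionsMapEquiv σ φ hφ).symm γ, ?_, ?_⟩
    · rw [← repartitionsMapEquiv_mem_repartitionsOf_iff σ φ hφ hD, RingEquiv.apply_symm_apply]
      exact hβ
    · rw [← repartitionsMapEquiv_mem_principalRepartitions_iff σ φ hφ,
        RingEquiv.apply_symm_apply]
      exact hγ
    · rw [← map_add, hsum, RingEquiv.symm_apply_apply]
  · intro h
    obtain ⟨β, hβ, γ, hγ, hsum⟩ := Submodule.mem_sup.mp h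
    refine Submodule.mem_sup.mpr ⟨repartitionsMapEquiv σ φ hφ β,
      (repartitionsMapEquiv_mem_repartitionsOf_iff σ φ hφ hD β).mpr hβ,
      repartitionsMapEquiv σ φ hφ γ,
      (repartitionsMapEquiv_mem_principalRepartitions_iff σ φ hφ γ).mpr hγ, ?_⟩
    rw [← map_add, hsum]

/-- **transport of `H¹(D)`** (an additive, `σ`-semilinear isomorphism). -/
def h1MapEquiv (hD : D' = divisorMapEquiv σ φ hφ D) : H1 D ≃+ H1 D' :=
  QuotientAddGroup.congr
    (repartitionsOf D ⊔ principalRepartitions K F).toAddSubgroup
    (repartitionsOf D' ⊔ principalRepartitions K' F').toAddSubgroup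
    (repartitionsMapEquiv σ φ hφ).toAddEquiv (by
      ext β
      simp only [AddSubgroup.mem_map, Submodule.mem_toAddSubgroup]
      constructor
      · rintro ⟨α, hα, rfl⟩
        exact (repartitionsMapEquiv_mem_sup_iff σ φ hφ hD α).mpr hα
      · intro hβ
        refine ⟨(repartitionsMapEquiv σ φ hφ).symm β, ?_,
          (repartitionsMapEquiv σ φ hφ).apply_symm_apply β⟩
        rw [← repartitionsMapEquiv_mem_sup_iff σ φ hφ hD, RingEquiv.apply_symm_apply]
        exact hβ)

theorem h1MapEquiv_mk (hD : D' = divisorMapEquiv σ φ hφ D) (α : ↥(repartitions K F)) :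
    h1MapEquiv σ φ hφ hD (Submodule.Quotient.mk α) =
      Submodule.Quotient.mk (repartitionsMapEquiv σ φ hφ α) := rfl

theorem h1MapEquiv_smul (hD : D' = divisorMapEquiv σ φ hφ D) (c : K) (x : H1 D) :
    h1MapEquiv σ φ hφ hD (c • x) = σ c • h1MapEquiv σ φ hφ hD x := by
  obtain ⟨α, rfl⟩ := Submodule.Quotient.mk_surjective _ x
  rw [← Submodule.Quotient.mk_smul, h1MapEquiv_mk, h1MapEquiv_mk, repartitionsMapEquiv_smul,
    Submodule.Quotient.mk_smul]

/-- `dim H¹(D)` is transported. -/
theorem finrank_h1_eq (hD : D' = divisorMapEquiv σ φ hφ D) :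
    Module.finrank K (H1 D) = Module.finrank K' (H1 D') :=
  finrank_eq_of_equiv_equiv σ (h1MapEquiv σ φ hφ hD) σ.bijective (h1MapEquiv_smul σ φ hφ hD)

include σ φ hφ in
/-- **the genus is transported.** -/
theorem genusFF_eq : genusFF K F = genusFF K' F' :=
  finrank_h1_eq σ φ hφ (D := 0) (D' := 0) (map_zero _).symm

end Genus

end

end Fermat.Agent.JAC.TR
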