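/-
PROJECT JAC (S27) — helper4: **assembly of S27** (skeleton: the bricks still in progress are
explicit hypotheses in their announced shapes).

* `natCard_torsion_of_bricks` : for a curve `c : C ⟶ Spec K` (proper, smooth of relative dimension
  one, integral) with its Jacobian `h : LBRepresentsCond c ε (LBCond.degZero c) D` (J-LB) of
  relative dimension `g` (DIM), `g = genusFF K K(C)` (GENUS), and an isomorphism of the function
  field with `F` over `K` (MODEL): `Nat.card (Pic0.torsion K F n) = n ^ (2 * genusFF K F)`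
  — via helper6's `PTS.natCard_torsion_eq_pow` (PTS + S26) and helper7's (TRANSPORT);
* `natCard_torsion_pow_of_bricks` : the same in the frozen shape `ℓ ^ (2 * genusFF K F * k)` for
  `n = ℓ ^ k` in characteristic zero.
-/
import Mathlib
import Fermat.Agent.JAC.PTS_helper6_Bridge
import Fermat.Agent.JAC.GRP_helper1_GroupLaw
import Fermat.Agent.JAC.TR_helper7_Genus
import Fermat.Agent.JAC.TR_helper7_Pic

set_option autoImplicit false
set_option linter.style.haveILetI false
open CategoryTheory CategoryTheory.Limits AlgebraicGeometry AlgebraicGeometry.RelPicard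
  NeronModelInfra GoodReductionJacobian TopologicalSpace Opposite AlgebraicCurve
universe u

namespace Fermat.Agent.JAC

open Fermat.Agent.AV

noncomputable section

variable {K : Type u} [Field K] [IsAlgClosed K] {C : Scheme.{u}} [IsIntegral C] [IsNoetherian C]
  {c : C ⟶ Spec (CommRingCat.of K)} [IsProper c] [SmoothOfRelativeDimension 1 c]
  {ε : SchemeHomOver (𝟙 (Spec (CommRingCat.of K))) c}

/-- **S27 in one universe, from the bricks**: (J-LB) `h`, (DIM)+(GENUS) `hgen`, (MODEL) `φ`;
(PTS) + S26 = helper6's `PTS.natCard_torsion_eq_pow`, (TRANSPORT) = helper7. -/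
theorem natCard_torsion_of_bricks
    {F : Type u} [Field F] [Algebra K F]
    {D : RelativePic0Designation K c}
    (h : LBRepresentsCond c ε (LBCond.degZero c) D) [Smooth D.toBase] [IsProper D.toBase]
    [ConnectedSpace D.P] (g : ℕ) [SmoothOfRelativeDimension g D.toBase]
    (hgen : letI := ffAlgebra c
      genusFF K C.functionField = g)
    (φ : C.functionField ≃+* F)
    (hφ : ∀ a : K, φ ((functionFieldStrMap c).hom a) = algebraMap K F a)
    (n : ℕ) (hn : (n : K) ≠ 0) :
    Nat.card (Pic0.torsion K F n) = n ^ (2 * genusFF K F) := by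
  letI := ffAlgebra c
  have hφ' : ∀ a : K, φ (algebraMap K C.functionField a) = algebraMap K F (RingEquiv.refl K a) :=
    hφ
  rw [← TR.natCard_torsion_eq (RingEquiv.refl K) φ hφ' n,
    ← TR.genusFF_eq (RingEquiv.refl K) φ hφ', hgen]
  exact PTS.natCard_torsion_eq_pow c ε h h.groupLaw_isCommutative
    (abelianSchemePropertyBundle_of_connectedSpace D.toBase h.groupLaw) g n hn

/-- the frozen shape of S27 (one universe) from the bricks. -/
theorem natCard_torsion_pow_of_bricks [CharZero K]
    {F : Type u} [Field F] [Algebra K F]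
    {D : RelativePic0Designation K c}
    (h : LBRepresentsCond c ε (LBCond.degZero c) D) [Smooth D.toBase] [IsProper D.toBase]
    [ConnectedSpace D.P] (g : ℕ) [SmoothOfRelativeDimension g D.toBase]
    (hgen : letI := ffAlgebra c
      genusFF K C.functionField = g)
    (φ : C.functionField ≃+* F)
    (hφ : ∀ a : K, φ ((functionFieldStrMap c).hom a) = algebraMap K F a)
    (ℓ : ℕ) [Fact ℓ.Prime] (k : ℕ) :
    Nat.card (Pic0.torsion K F (ℓ ^ k)) = ℓ ^ (2 * genusFF K F * k) := by
  have hn : ((ℓ ^ k : ℕ) : K) ≠ 0 := by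
    have hℓ : ℓ ≠ 0 := (Fact.out : ℓ.Prime).ne_zero
    exact_mod_cast pow_ne_zero k hℓ
  rw [natCard_torsion_of_bricks h g hgen φ hφ (ℓ ^ k) hn, ← pow_mul]
  congr 1
  ring

end

end Fermat.Agent.JAC
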