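/-
PROJECT JAC (S27, DIM) — helper3 — **line bundles on a first-order thickening**.

Setting: `π : X ⟶ C`, `eps : Γ(X, ⊤)` with `eps² = 0` such that over every affine open `U` of `C`
the open `π⁻¹U` is affine and every function on it is uniquely `π^*a + eps·π^*b`
(`IsFirstOrder π eps`; think `X = C ×ₖ Spec k[ε]`), and a cover of `C` by two affine opens
`U₀`, `U₁` with affine intersection.

* `θ : Γ(C, U₀ ⊓ U₁) →+ PicGroup X`, `a ↦` the class of the bundle with the two charts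
  `π⁻¹U₀`, `π⁻¹U₁` and transition function `1 + eps·π^*a`;
* `θ_eq_zero_iff` : the kernel of `θ` is the group of coboundaries `cobdry U₀ U₁`;
* `map_eq_zero_iff_mem_range_θ` : for `i : X₀ ⟶ X` with `i^*eps = 0`, `i ≫ π` an isomorphism and
  `i` surjective, the range of `θ` is the kernel of `i^*` on Picard groups;
* `map_θ_of_scale` : the effect of a morphism `s` with `s^*eps = eps'·l`.
-/
import Mathlib
import Fermat.Agent.JAC.DIM_helper3_TwoFrame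

set_option autoImplicit false

open AlgebraicGeometry CategoryTheory Opposite TopologicalSpace

universe u

namespace Fermat.Agent.JAC.DIM

open Fermat.Agent.AV Fermat.Agent.AV.LB Fermat.Agent.AV.CP Fermat.Agent.JAC.CBC
  Fermat.Agent.JAC.TW

noncomputable section

/-! ### square-zero units -/

section SqZero

variable {R : Type*} [CommRing R]

/-- the unit `1 + e x` for `e² = 0`. -/
def sqZeroUnit (e : R) (he : e * e = 0) (x : R) : Rˣ :=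
  ⟨1 + e * x, 1 - e * x, by linear_combination (-(x * x)) * he,
    by linear_combination (-(x * x)) * he⟩

@[simp] theorem sqZeroUnit_val (e : R) (he : e * e = 0) (x : R) :
    ((sqZeroUnit e he x : Rˣ) : R) = 1 + e * x := rfl

theorem sqZeroUnit_add (e : R) (he : e * e = 0) (x y : R) :
    sqZeroUnit e he (x + y) = sqZeroUnit e he x * sqZeroUnit e he y := by
  apply Units.ext
  rw [Units.val_mul, sqZeroUnit_val, sqZeroUnit_val, sqZeroUnit_val]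
  linear_combination (-(x * y)) * he

theorem sqZeroUnit_zero (e : R) (he : e * e = 0) : sqZeroUnit e he 0 = 1 := by
  apply Units.ext
  rw [sqZeroUnit_val, mul_zero, add_zero, Units.val_one]

end SqZero

/-! ### lifting sections and frames -/

/-- lifting sections along a morphism which is surjective on functions over an affine open. -/
theorem exists_secOn_lift {X Y : Scheme.{u}} (φ : Y ⟶ X) {W : X.Opens} (hW : IsAffineOpen W)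
    (M : LB X) (hsurj : Function.Surjective (φ.app W).hom)
    (ebar : (M.pullback φ).SecOn (φ ⁻¹ᵁ W)) : ∃ e : M.SecOn W, e.pullback φ = ebar := by
  obtain ⟨N, m, τ, hsum⟩ := exists_partition_of_isAffineOpen M hW
  choose c hc using fun k => hsurj (pair (pullbackInv φ (τ k)) ebar)
  refine ⟨∑ k, c k • m k, ?_⟩
  have h1 : (∑ k, c k • m k).pullback φ = ∑ k, (φ.app W).hom (c k) • (m k).pullback φ := by
    rw [← pullbackHom_apply, map_sum]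
    refine Finset.sum_congr rfl fun k _ => ?_
    rw [pullbackHom_apply]
    exact SecOn.pullback_smul φ (c k) (m k)
  rw [h1]
  simp only [hc]
  have h2 : ∀ k, pair (pullbackInv φ (τ k)) ebar • (m k).pullback φ =
      (φ.app W).hom (pair (τ k) (m k)) • ebar := by
    intro k
    rw [pair_swap, pair_pullback]
  simp only [h2]
  rw [← Finset.sum_smul, ← map_sum, hsum, map_one, one_smul]

/-- units are detected after pull-back along a surjective morphism. -/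
theorem isUnit_of_isUnit_app {X Y : Scheme.{u}} (φ : Y ⟶ X) (hφ : Function.Surjective φ)
    {O : X.Opens} (f : Γ(X, O)) (h : IsUnit ((φ.app O).hom f)) : IsUnit f := by
  rw [isUnit_iff_le_basicOpen] at h ⊢
  intro x hx
  obtain ⟨y, rfl⟩ := hφ x
  have h1 : y ∈ Y.basicOpen ((φ.app O).hom f) := h hx
  rw [← Scheme.preimage_basicOpen] at h1
  exact h1

/-- frames are detected after pull-back along a surjective morphism. -/
theorem isFrame_of_pullback {X Y : Scheme.{u}} (φ : Y ⟶ X) (hφ : Function.Surjective φ)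
    {M : LB X} {W : X.Opens} (e : M.SecOn W) (h : IsFrame (e.pullback φ)) : IsFrame e := by
  intro a
  have h1 : IsUnit (appInf φ (M.U a) W (e.s a)) := h a
  exact isUnit_of_isUnit_app φ hφ _ h1

/-! ### first-order thickenings -/

section FirstOrder

variable {C X : Scheme.{u}} (π : X ⟶ C) (eps : Γ(X, ⊤))

/-- `X` is a first-order thickening of `C` with nilpotent `eps`, over the affine opens of `C`. -/
structure IsFirstOrder : Prop where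
  sq : eps * eps = 0
  affine : ∀ U : C.Opens, IsAffineOpen U → IsAffineOpen (π ⁻¹ᵁ U)
  decomp : ∀ U : C.Opens, IsAffineOpen U → ∀ f : Γ(X, π ⁻¹ᵁ U), ∃ a b : Γ(C, U),
    f = (π.app U).hom a + res (π ⁻¹ᵁ U) le_top eps * (π.app U).hom b
  inj : ∀ U : C.Opens, IsAffineOpen U → ∀ a b : Γ(C, U),
    (π.app U).hom a + res (π ⁻¹ᵁ U) le_top eps * (π.app U).hom b = 0 → a = 0 ∧ b = 0

variable {π eps}

theorem IsFirstOrder.res_sq (H : IsFirstOrder π eps) (W : X.Opens) :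
    res W le_top eps * res W le_top eps = 0 := by
  rw [← map_mul, H.sq, map_zero]

/-- uniqueness of the decomposition. -/
theorem IsFirstOrder.eq_of_decomp (H : IsFirstOrder π eps) {U : C.Opens} (hU : IsAffineOpen U)
    {a b a' b' : Γ(C, U)}
    (h : (π.app U).hom a + res (π ⁻¹ᵁ U) le_top eps * (π.app U).hom b =
      (π.app U).hom a' + res (π ⁻¹ᵁ U) le_top eps * (π.app U).hom b') : a = a' ∧ b = b' := by
  have h1 : (π.app U).hom (a - a') + res (π ⁻¹ᵁ U) le_top eps * (π.app U).hom (b - b') = 0 := by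
    rw [map_sub, map_sub]
    linear_combination h
  obtain ⟨h2, h3⟩ := H.inj U hU _ _ h1
  exact ⟨sub_eq_zero.mp h2, sub_eq_zero.mp h3⟩

/-- the constant term of a unit is a unit. -/
theorem IsFirstOrder.isUnit_of_decomp (H : IsFirstOrder π eps) {U : C.Opens}
    (hU : IsAffineOpen U) {a b : Γ(C, U)}
    (h : IsUnit ((π.app U).hom a + res (π ⁻¹ᵁ U) le_top eps * (π.app U).hom b)) : IsUnit a := by
  obtain ⟨w, hw⟩ := h.exists_right_inv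
  obtain ⟨a', b', rfl⟩ := H.decomp U hU w
  have he := H.res_sq (π ⁻¹ᵁ U)
  have h1 : (π.app U).hom (a * a') + res (π ⁻¹ᵁ U) le_top eps * (π.app U).hom (a * b' + b * a') =
      (π.app U).hom 1 + res (π ⁻¹ᵁ U) le_top eps * (π.app U).hom 0 := by
    rw [map_mul, map_add, map_mul, map_mul, map_one, map_zero, mul_zero, add_zero, ← hw]
    linear_combination (-((π.app U).hom b * (π.app U).hom b')) * he
  exact IsUnit.of_mul_eq_one _ (H.eq_of_decomp hU h1).1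

end FirstOrder

/-! ### the map `θ` -/

section Theta

variable {C X : Scheme.{u}} {π : X ⟶ C} {eps : Γ(X, ⊤)} {U₀ U₁ : C.Opens}

/-- `eps` on the overlap. -/
def e01 (π : X ⟶ C) (eps : Γ(X, ⊤)) (U₀ U₁ : C.Opens) : Γ(X, π ⁻¹ᵁ U₀ ⊓ π ⁻¹ᵁ U₁) :=
  res (π ⁻¹ᵁ U₀ ⊓ π ⁻¹ᵁ U₁) le_top eps

theorem e01_sq (hsq : eps * eps = 0) : e01 π eps U₀ U₁ * e01 π eps U₀ U₁ = 0 := by
  unfold e01
  rw [← map_mul, hsq, map_zero]

/-- the transition function `1 + eps·π^*a`. -/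
def expU (π : X ⟶ C) (eps : Γ(X, ⊤)) (hsq : eps * eps = 0) (a : Γ(C, U₀ ⊓ U₁)) :
    (Γ(X, π ⁻¹ᵁ U₀ ⊓ π ⁻¹ᵁ U₁))ˣ :=
  sqZeroUnit (e01 π eps U₀ U₁) (e01_sq hsq) (appInf π U₀ U₁ a)

theorem expU_val (hsq : eps * eps = 0) (a : Γ(C, U₀ ⊓ U₁)) :
    ((expU π eps hsq a : (Γ(X, π ⁻¹ᵁ U₀ ⊓ π ⁻¹ᵁ U₁))ˣ) : Γ(X, π ⁻¹ᵁ U₀ ⊓ π ⁻¹ᵁ U₁)) =
      1 + e01 π eps U₀ U₁ * appInf π U₀ U₁ a := rfl

theorem expU_add (hsq : eps * eps = 0) (a b : Γ(C, U₀ ⊓ U₁)) :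
    expU π eps hsq (a + b) = expU π eps hsq a * expU π eps hsq b := by
  unfold expU
  rw [map_add, sqZeroUnit_add]

theorem expU_zero (hsq : eps * eps = 0) : expU π eps hsq (0 : Γ(C, U₀ ⊓ U₁)) = 1 := by
  unfold expU
  rw [map_zero, sqZeroUnit_zero]

/-- `a ↦` the class of the bundle with transition function `1 + eps·π^*a`. -/
def θ (π : X ⟶ C) (eps : Γ(X, ⊤)) (hsq : eps * eps = 0) (hcov : U₀ ⊔ U₁ = ⊤) :
    Γ(C, U₀ ⊓ U₁) →+ PicGroup X where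
  toFun a := Θ (preimage_cover π hcov) (expU π eps hsq a)
  map_zero' := by rw [expU_zero, Θ_one]
  map_add' a b := by rw [expU_add, Θ_mul]

theorem θ_apply (hsq : eps * eps = 0) (hcov : U₀ ⊔ U₁ = ⊤) (a : Γ(C, U₀ ⊓ U₁)) :
    θ π eps hsq hcov a = Θ (preimage_cover π hcov) (expU π eps hsq a) := rfl

/-- the coboundaries `Γ(U₀) + Γ(U₁)` in `Γ(U₀ ⊓ U₁)`. -/
def cobdry (U₀ U₁ : C.Opens) : AddSubgroup Γ(C, U₀ ⊓ U₁) where
  carrier := {a | ∃ (r₀ : Γ(C, U₀)) (r₁ : Γ(C, U₁)),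
    a = res (U₀ ⊓ U₁) inf_le_left r₀ + res (U₀ ⊓ U₁) inf_le_right r₁}
  zero_mem' := ⟨0, 0, by rw [map_zero, map_zero, add_zero]⟩
  add_mem' := by
    rintro _ _ ⟨r₀, r₁, rfl⟩ ⟨s₀, s₁, rfl⟩
    exact ⟨r₀ + s₀, r₁ + s₁, by rw [map_add, map_add]; abel⟩
  neg_mem' := by
    rintro _ ⟨r₀, r₁, rfl⟩
    exact ⟨-r₀, -r₁, by rw [map_neg, map_neg]; abel⟩

theorem mem_cobdry {a : Γ(C, U₀ ⊓ U₁)} : a ∈ cobdry U₀ U₁ ↔
    ∃ (r₀ : Γ(C, U₀)) (r₁ : Γ(C, U₁)),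
      a = res (U₀ ⊓ U₁) inf_le_left r₀ + res (U₀ ⊓ U₁) inf_le_right r₁ := Iff.rfl

theorem IsFirstOrder.eq_of_decomp₀₁ (H : IsFirstOrder π eps) (h₀₁ : IsAffineOpen (U₀ ⊓ U₁))
    {a b a' b' : Γ(C, U₀ ⊓ U₁)}
    (h : appInf π U₀ U₁ a + e01 π eps U₀ U₁ * appInf π U₀ U₁ b =
      appInf π U₀ U₁ a' + e01 π eps U₀ U₁ * appInf π U₀ U₁ b') : a = a' ∧ b = b' :=
  H.eq_of_decomp h₀₁ h

theorem IsFirstOrder.decomp₀₁ (H : IsFirstOrder π eps) (h₀₁ : IsAffineOpen (U₀ ⊓ U₁))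
    (f : Γ(X, π ⁻¹ᵁ U₀ ⊓ π ⁻¹ᵁ U₁)) : ∃ a b : Γ(C, U₀ ⊓ U₁),
      f = appInf π U₀ U₁ a + e01 π eps U₀ U₁ * appInf π U₀ U₁ b :=
  H.decomp (U₀ ⊓ U₁) h₀₁ f

theorem res_decomp_left (α β : Γ(C, U₀)) :
    res (π ⁻¹ᵁ U₀ ⊓ π ⁻¹ᵁ U₁) inf_le_left
        ((π.app U₀).hom α + res (π ⁻¹ᵁ U₀) le_top eps * (π.app U₀).hom β) =
      appInf π U₀ U₁ (res (U₀ ⊓ U₁) inf_le_left α) +
        e01 π eps U₀ U₁ * appInf π U₀ U₁ (res (U₀ ⊓ U₁) inf_le_left β) := by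
  rw [map_add, map_mul, res_res, appInf_res_left, appInf_res_left]
  rfl

theorem res_decomp_right (α β : Γ(C, U₁)) :
    res (π ⁻¹ᵁ U₀ ⊓ π ⁻¹ᵁ U₁) inf_le_right
        ((π.app U₁).hom α + res (π ⁻¹ᵁ U₁) le_top eps * (π.app U₁).hom β) =
      appInf π U₀ U₁ (res (U₀ ⊓ U₁) inf_le_right α) +
        e01 π eps U₀ U₁ * appInf π U₀ U₁ (res (U₀ ⊓ U₁) inf_le_right β) := by
  rw [map_add, map_mul, res_res, appInf_res_right, appInf_res_right]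
  rfl

/-- **the kernel of `θ`** is the group of coboundaries. -/
theorem θ_eq_zero_iff (H : IsFirstOrder π eps) (hcov : U₀ ⊔ U₁ = ⊤) (h₀ : IsAffineOpen U₀)
    (h₁ : IsAffineOpen U₁) (h₀₁ : IsAffineOpen (U₀ ⊓ U₁)) (a : Γ(C, U₀ ⊓ U₁)) :
    θ π eps H.sq hcov a = 0 ↔ a ∈ cobdry U₀ U₁ := by
  have he := e01_sq (U₀ := U₀) (U₁ := U₁) (π := π) H.sq
  rw [θ_apply, Θ_eq_zero_iff, mem_cobdry, expU_val]
  constructor
  · rintro ⟨v₀, v₁, hv₀, hv₁, hv⟩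
    obtain ⟨α₀, β₀, rfl⟩ := H.decomp U₀ h₀ v₀
    obtain ⟨α₁, β₁, rfl⟩ := H.decomp U₁ h₁ v₁
    have hα₀ := H.isUnit_of_decomp h₀ hv₀
    have hα₁ := H.isUnit_of_decomp h₁ hv₁
    rw [res_decomp_left, res_decomp_right] at hv
    have h2 : appInf π U₀ U₁ (res (U₀ ⊓ U₁) inf_le_left α₀) + e01 π eps U₀ U₁ *
        appInf π U₀ U₁ (res (U₀ ⊓ U₁) inf_le_left β₀ + res (U₀ ⊓ U₁) inf_le_left α₀ * a) =
        appInf π U₀ U₁ (res (U₀ ⊓ U₁) inf_le_right α₁) + e01 π eps U₀ U₁ *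
        appInf π U₀ U₁ (res (U₀ ⊓ U₁) inf_le_right β₁) := by
      rw [map_add, map_mul]
      linear_combination hv - (appInf π U₀ U₁ (res (U₀ ⊓ U₁) inf_le_left β₀) *
        appInf π U₀ U₁ a) * he
    obtain ⟨h3, h4⟩ := H.eq_of_decomp₀₁ h₀₁ h2
    obtain ⟨α₀', hα₀'⟩ := hα₀.exists_right_inv
    obtain ⟨α₁', hα₁'⟩ := hα₁.exists_right_inv
    refine ⟨-(α₀' * β₀), α₁' * β₁, ?_⟩
    have hu : IsUnit (res (U₀ ⊓ U₁) inf_le_left α₀) := hα₀.map _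
    apply hu.mul_left_cancel
    have e0 : res (U₀ ⊓ U₁) inf_le_left α₀ * res (U₀ ⊓ U₁) inf_le_left α₀' = 1 := by
      rw [← map_mul, hα₀', map_one]
    have e1 : res (U₀ ⊓ U₁) inf_le_right α₁ * res (U₀ ⊓ U₁) inf_le_right α₁' = 1 := by
      rw [← map_mul, hα₁', map_one]
    rw [map_neg, map_mul, map_mul]
    linear_combination h4 + res (U₀ ⊓ U₁) inf_le_left β₀ * e0 -
      res (U₀ ⊓ U₁) inf_le_right β₁ * res (U₀ ⊓ U₁) inf_le_right α₁' * h3 -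
      res (U₀ ⊓ U₁) inf_le_right β₁ * e1
  · rintro ⟨r₀, r₁, rfl⟩
    refine ⟨(π.app U₀).hom 1 + res (π ⁻¹ᵁ U₀) le_top eps * (π.app U₀).hom (-r₀),
      (π.app U₁).hom 1 + res (π ⁻¹ᵁ U₁) le_top eps * (π.app U₁).hom r₁, ?_, ?_, ?_⟩
    · rw [map_one]
      exact (sqZeroUnit _ (H.res_sq _) _).isUnit
    · rw [map_one]
      exact (sqZeroUnit _ (H.res_sq _) _).isUnit
    · rw [res_decomp_left, res_decomp_right]
      simp only [map_one, map_neg, map_add]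
      linear_combination (-(appInf π U₀ U₁ (res (U₀ ⊓ U₁) inf_le_left r₀) *
        (appInf π U₀ U₁ (res (U₀ ⊓ U₁) inf_le_left r₀) +
          appInf π U₀ U₁ (res (U₀ ⊓ U₁) inf_le_right r₁)))) * he

end Theta

/-! ### the range of `θ` -/

section Range

variable {C X X₀ : Scheme.{u}} {π : X ⟶ C} {eps : Γ(X, ⊤)} {U₀ U₁ : C.Opens}

theorem appInf_e01 (i : X₀ ⟶ X) (hi : i.appTop.hom eps = 0) :
    appInf i (π ⁻¹ᵁ U₀) (π ⁻¹ᵁ U₁) (e01 π eps U₀ U₁) = 0 := by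
  have h := app_res i (le_top : π ⁻¹ᵁ U₀ ⊓ π ⁻¹ᵁ U₁ ≤ ⊤) eps
  have h2 : (i.app ⊤).hom eps = 0 := hi
  rw [h2, map_zero] at h
  exact h

/-- the bundles `θ a` are trivial along `i`. -/
theorem map_θ_eq_zero (i : X₀ ⟶ X) (hi : i.appTop.hom eps = 0) (hsq : eps * eps = 0)
    (hcov : U₀ ⊔ U₁ = ⊤) (a : Γ(C, U₀ ⊓ U₁)) : PicGroup.map i (θ π eps hsq hcov a) = 0 := by
  rw [θ_apply, map_Θ]
  have h : Units.map ((appInf i (π ⁻¹ᵁ U₀) (π ⁻¹ᵁ U₁) : Γ(X, π ⁻¹ᵁ U₀ ⊓ π ⁻¹ᵁ U₁) →+*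
      Γ(X₀, i ⁻¹ᵁ π ⁻¹ᵁ U₀ ⊓ i ⁻¹ᵁ π ⁻¹ᵁ U₁)) : Γ(X, π ⁻¹ᵁ U₀ ⊓ π ⁻¹ᵁ U₁) →*
      Γ(X₀, i ⁻¹ᵁ π ⁻¹ᵁ U₀ ⊓ i ⁻¹ᵁ π ⁻¹ᵁ U₁)) (expU π eps hsq a) = 1 := by
    apply Units.ext
    rw [Units.coe_map, expU_val, Units.val_one]
    show appInf i (π ⁻¹ᵁ U₀) (π ⁻¹ᵁ U₁) (1 + e01 π eps U₀ U₁ * appInf π U₀ U₁ a) = 1
    rw [map_add, map_mul, map_one, appInf_e01 i hi, zero_mul, add_zero]
  rw [h, Θ_one]

/-- **the range of `θ`**: every class which is trivial along `i` is a `θ a`. -/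
theorem exists_θ_eq_of_map_eq_zero (H : IsFirstOrder π eps) (hcov : U₀ ⊔ U₁ = ⊤)
    (h₀ : IsAffineOpen U₀) (h₁ : IsAffineOpen U₁) (h₀₁ : IsAffineOpen (U₀ ⊓ U₁)) (i : X₀ ⟶ X)
    [IsIso (i ≫ π)] (hi : i.appTop.hom eps = 0) (hsurj : Function.Surjective i)
    (x : PicGroup X) (hx : PicGroup.map i x = 0) : ∃ a, θ π eps H.sq hcov a = x := by
  obtain ⟨M, rfl⟩ := PicGroup.mk_surjective x
  rw [PicGroup.map_mk, PicGroup.mk_eq_zero_iff, ← isTrivialOn_top_iff] at hx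
  obtain ⟨σ, hσ⟩ := hx
  have hσ' : IsFrame σ := hσ
  have hsf : ∀ U : C.Opens, Function.Surjective (i.app (π ⁻¹ᵁ U)).hom := by
    intro U f
    have hb : Function.Bijective ((i ≫ π).app U).hom :=
      ConcreteCategory.bijective_of_isIso ((i ≫ π).app U)
    obtain ⟨a, ha⟩ := hb.2 f
    refine ⟨(π.app U).hom a, ?_⟩
    rw [← ha, Scheme.Hom.comp_app]
    rfl
  obtain ⟨e₀, he₀⟩ := exists_secOn_lift i (H.affine U₀ h₀) M (hsf U₀) (σ.restrict le_top)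
  obtain ⟨e₁, he₁⟩ := exists_secOn_lift i (H.affine U₁ h₁) M (hsf U₁) (σ.restrict le_top)
  have hf₀ : IsFrame e₀ := isFrame_of_pullback i hsurj e₀ (by
    rw [he₀]
    exact hσ'.restrict le_top)
  have hf₁ : IsFrame e₁ := isFrame_of_pullback i hsurj e₁ (by
    rw [he₁]
    exact hσ'.restrict le_top)
  obtain ⟨u, hu, -⟩ := SecOn.exists_ratio
    (e₁.restrict (inf_le_right : π ⁻¹ᵁ U₀ ⊓ π ⁻¹ᵁ U₁ ≤ π ⁻¹ᵁ U₁)) (hf₁.restrict inf_le_right)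
    (e₀.restrict (inf_le_left : π ⁻¹ᵁ U₀ ⊓ π ⁻¹ᵁ U₁ ≤ π ⁻¹ᵁ U₀))
  let F : TwoFrame M (π ⁻¹ᵁ U₀) (π ⁻¹ᵁ U₁) u := ⟨e₀, e₁, hf₀, hf₁, hu⟩
  have hrel : (e₀.pullback i).restrict inf_le_left =
      appInf i (π ⁻¹ᵁ U₀) (π ⁻¹ᵁ U₁) u • (e₁.pullback i).restrict inf_le_right :=
    (F.pullback i).rel
  rw [he₀, he₁, SecOn.restrict_restrict, SecOn.restrict_restrict] at hrel
  have h1 : appInf i (π ⁻¹ᵁ U₀) (π ⁻¹ᵁ U₁) u = 1 := by
    have hone : σ.restrict (le_top : i ⁻¹ᵁ π ⁻¹ᵁ U₀ ⊓ i ⁻¹ᵁ π ⁻¹ᵁ U₁ ≤ ⊤) =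
        (1 : Γ(X₀, i ⁻¹ᵁ π ⁻¹ᵁ U₀ ⊓ i ⁻¹ᵁ π ⁻¹ᵁ U₁)) • σ.restrict le_top :=
      (one_smul _ _).symm
    exact (SecOn.exists_ratio _ (hσ'.restrict le_top) _).unique hrel hone
  obtain ⟨a', a, hua⟩ := H.decomp₀₁ h₀₁ u
  have h2 : a' = 1 := by
    have hb : Function.Injective ((i ≫ π).app (U₀ ⊓ U₁)).hom :=
      (ConcreteCategory.bijective_of_isIso ((i ≫ π).app (U₀ ⊓ U₁))).1
    apply hb
    rw [map_one]
    have h3 : appInf i (π ⁻¹ᵁ U₀) (π ⁻¹ᵁ U₁) u =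
        appInf i (π ⁻¹ᵁ U₀) (π ⁻¹ᵁ U₁) (appInf π U₀ U₁ a') := by
      rw [hua, map_add, map_mul, appInf_e01 i hi, zero_mul, add_zero]
    rw [h1] at h3
    rw [Scheme.Hom.comp_app]
    exact h3.symm
  subst h2
  refine ⟨a, ?_⟩
  rw [θ_apply]
  symm
  refine TwoFrame.mk_eq_Θ (preimage_cover π hcov) (expU π eps H.sq a) (F.cast ?_)
  rw [expU_val, hua, map_one]

/-- the range of `θ` is the kernel of `i^*`. -/
theorem map_eq_zero_iff_mem_range_θ (H : IsFirstOrder π eps) (hcov : U₀ ⊔ U₁ = ⊤)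
    (h₀ : IsAffineOpen U₀) (h₁ : IsAffineOpen U₁) (h₀₁ : IsAffineOpen (U₀ ⊓ U₁)) (i : X₀ ⟶ X)
    [IsIso (i ≫ π)] (hi : i.appTop.hom eps = 0) (hsurj : Function.Surjective i)
    (x : PicGroup X) : PicGroup.map i x = 0 ↔ ∃ a, θ π eps H.sq hcov a = x :=
  ⟨exists_θ_eq_of_map_eq_zero H hcov h₀ h₁ h₀₁ i hi hsurj x, fun ⟨a, ha⟩ => by
    rw [← ha]
    exact map_θ_eq_zero i hi H.sq hcov a⟩

end Range

/-! ### scaling -/

section Scale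

variable {C X X' : Scheme.{u}} {π : X ⟶ C} {eps : Γ(X, ⊤)} {U₀ U₁ : C.Opens}

theorem sqZero_scale_alg {R S A : Type*} [CommRing R] [CommRing S] [CommRing A] (f : R →+* A)
    (g : S →+* A) (p : S →+* R) (e : R) (e' : A) (l a : S) (h1 : f e = e' * g l)
    (h2 : ∀ x, f (p x) = g x) : f (1 + e * p a) = 1 + e' * g (l * a) := by
  rw [map_add, map_mul, map_one, h1, h2, map_mul]
  ring

theorem map_θ_of_scale_aux (s : X' ⟶ X) (eps' : Γ(X', ⊤)) (hsq : eps * eps = 0)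
    (hsq' : eps' * eps' = 0) (hcov : U₀ ⊔ U₁ = ⊤) (l : Γ(C, ⊤))
    (hs : s.appTop.hom eps = eps' * (s ≫ π).appTop.hom l) (a : Γ(C, U₀ ⊓ U₁)) :
    PicGroup.map s (θ π eps hsq hcov a) =
      θ (s ≫ π) eps' hsq' hcov (res (U₀ ⊓ U₁) le_top l * a) := by
  rw [θ_apply, θ_apply, map_Θ]
  refine congrArg (Θ (preimage_cover (s ≫ π) hcov)) (Units.ext ?_)
  have h1 : appInf s (π ⁻¹ᵁ U₀) (π ⁻¹ᵁ U₁) (e01 π eps U₀ U₁) =
      e01 (s ≫ π) eps' U₀ U₁ * appInf (s ≫ π) U₀ U₁ (res (U₀ ⊓ U₁) le_top l) := by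
    have h := app_res s (le_top : π ⁻¹ᵁ U₀ ⊓ π ⁻¹ᵁ U₁ ≤ ⊤) eps
    have h2 : (s.app ⊤).hom eps = eps' * (s ≫ π).appTop.hom l := hs
    have h3 := app_res (s ≫ π) (le_top : U₀ ⊓ U₁ ≤ ⊤) l
    refine h.trans ((congrArg _ h2).trans ((map_mul _ _ _).trans ?_))
    congr 1
    exact h3.symm
  have h4 : ∀ x, appInf s (π ⁻¹ᵁ U₀) (π ⁻¹ᵁ U₁) (appInf π U₀ U₁ x) =
      appInf (s ≫ π) U₀ U₁ x := by
    intro x
    show (s.app _).hom ((π.app _).hom x) = ((s ≫ π).app _).hom x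
    rw [Scheme.Hom.comp_app]
    rfl
  exact sqZero_scale_alg (appInf s (π ⁻¹ᵁ U₀) (π ⁻¹ᵁ U₁)) (appInf (s ≫ π) U₀ U₁)
    (appInf π U₀ U₁) (e01 π eps U₀ U₁) (e01 (s ≫ π) eps' U₀ U₁) (res (U₀ ⊓ U₁) le_top l) a h1 h4

/-- the effect on `θ` of a morphism `s` over `C` with `s^*eps = eps'·l`. -/
theorem map_θ_of_scale (s : X' ⟶ X) (π' : X' ⟶ C) (hπ : s ≫ π = π') (eps' : Γ(X', ⊤))
    (hsq : eps * eps = 0) (hsq' : eps' * eps' = 0) (hcov : U₀ ⊔ U₁ = ⊤) (l : Γ(C, ⊤))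
    (hs : s.appTop.hom eps = eps' * π'.appTop.hom l) (a : Γ(C, U₀ ⊓ U₁)) :
    PicGroup.map s (θ π eps hsq hcov a) =
      θ π' eps' hsq' hcov (res (U₀ ⊓ U₁) le_top l * a) := by
  subst hπ
  exact map_θ_of_scale_aux s eps' hsq hsq' hcov l hs a

end Scale

end

end Fermat.Agent.JAC.DIM
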