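/-
PROJECT JAC / S27 — (TAN), helper8.

`TAN_helper8_Alg`: algebra of first-order points.  For a `K`-algebra `B` with a `K`-point
`χ : B →ₐ[K] K` and a `K`-module `M`, the lifts of `χ` to `TrivSqZeroExt K M` are the
`χ`-derivations `B → M`; functoriality in `M`; the Eckmann–Hilton argument (a natural unital
multiplication on lifts is the addition of derivations); dimension of the tangent space when `B`
is standard smooth of relative dimension `n`.
-/
import Mathlib

set_option autoImplicit false

open KaehlerDifferential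

namespace Fermat.Agent.JAC.TAN

variable {K : Type*} [CommRing K] {B : Type*} [CommRing B] [Algebra K B] (χ : B →ₐ[K] K)

section Der

/-- `χ`-derivations with values in `M`, as a submodule of the linear maps -/
def chiDer (M : Type*) [AddCommGroup M] [Module K M] : Submodule K (B →ₗ[K] M) where
  carrier := {D | ∀ a b, D (a * b) = χ a • D b + χ b • D a}
  add_mem' := by
    intro D D' hD hD' a b
    simp only [LinearMap.add_apply, hD a b, hD' a b, smul_add]
    abel
  zero_mem' := by
    intro a b
    simp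
  smul_mem' := by
    intro c D hD a b
    simp only [LinearMap.smul_apply, hD a b, smul_add]
    rw [smul_comm c (χ a), smul_comm c (χ b)]

lemma mem_chiDer {M : Type*} [AddCommGroup M] [Module K M] {D : B →ₗ[K] M} :
    D ∈ chiDer χ M ↔ ∀ a b, D (a * b) = χ a • D b + χ b • D a := Iff.rfl

variable {χ}

lemma chiDer_map_one {M : Type*} [AddCommGroup M] [Module K M] (D : chiDer χ M) : D.1 1 = 0 := by
  have h := D.2 1 1
  simp only [mul_one, map_one, one_smul] at h
  exact left_eq_add.mp h

lemma chiDer_map_algebraMap {M : Type*} [AddCommGroup M] [Module K M] (D : chiDer χ M) (c : K) :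
    D.1 (algebraMap K B c) = 0 := by
  rw [Algebra.algebraMap_eq_smul_one, map_smul, chiDer_map_one, smul_zero]

end Der

section Lift

variable (M : Type*) [AddCommGroup M] [Module K M] [Module Kᵐᵒᵖ M] [IsCentralScalar K M]

/-- lifts of the point `χ` to the square-zero extension `K ⊕ M` -/
def Lift : Type _ :=
  {φ : B →ₐ[K] TrivSqZeroExt K M // (TrivSqZeroExt.fstHom K K M).comp φ = χ}

variable {M} {χ}

lemma Lift.fst_apply (φ : Lift χ M) (b : B) : (φ.1 b).fst = χ b :=
  congrArg (fun f : B →ₐ[K] K => f b) φ.2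

/-- the derivation of a lift -/
def Lift.der (φ : Lift χ M) : chiDer χ M :=
  ⟨(TrivSqZeroExt.sndHom K M).comp φ.1.toLinearMap, by
    intro a b
    show (φ.1 (a * b)).snd = χ a • (φ.1 b).snd + χ b • (φ.1 a).snd
    rw [map_mul, TrivSqZeroExt.snd_mul, φ.fst_apply, φ.fst_apply, op_smul_eq_smul]⟩

lemma Lift.der_apply (φ : Lift χ M) (b : B) : (φ.der.1 b) = (φ.1 b).snd := rfl

lemma Lift.ext_der {φ ψ : Lift χ M} (h : φ.der = ψ.der) : φ = ψ := by
  apply Subtype.ext
  apply AlgHom.ext
  intro b
  apply TrivSqZeroExt.ext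
  · rw [φ.fst_apply, ψ.fst_apply]
  · exact congrArg (fun D : chiDer χ M => D.1 b) h

lemma Lift.ext_der_apply {φ ψ : Lift χ M} (h : ∀ b, φ.der.1 b = ψ.der.1 b) : φ = ψ :=
  Lift.ext_der (Subtype.ext (LinearMap.ext h))

/-- the lift of a derivation -/
def Lift.ofDer (D : chiDer χ M) : Lift χ M :=
  ⟨{ toFun := fun b => TrivSqZeroExt.inl (χ b) + TrivSqZeroExt.inr (D.1 b)
     map_one' := by
       rw [chiDer_map_one, map_one, TrivSqZeroExt.inr_zero, add_zero]
       rfl
     map_mul' := by
       intro a b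
       apply TrivSqZeroExt.ext
       · simp
       · simp only [TrivSqZeroExt.snd_add, TrivSqZeroExt.snd_inl, TrivSqZeroExt.snd_inr, zero_add,
           TrivSqZeroExt.snd_mul, TrivSqZeroExt.fst_add, TrivSqZeroExt.fst_inl,
           TrivSqZeroExt.fst_inr, add_zero, op_smul_eq_smul]
         exact D.2 a b
     map_zero' := by simp
     map_add' := by
       intro a b
       apply TrivSqZeroExt.ext
       · simp
       · simp
     commutes' := by
       intro c
       apply TrivSqZeroExt.ext
       · simp [TrivSqZeroExt.algebraMap_eq_inl]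
       · simp [TrivSqZeroExt.algebraMap_eq_inl, chiDer_map_algebraMap] }, by
    apply AlgHom.ext
    intro b
    show (TrivSqZeroExt.inl (χ b) + TrivSqZeroExt.inr (D.1 b) : TrivSqZeroExt K M).fst = χ b
    simp⟩

lemma Lift.der_ofDer (D : chiDer χ M) : (Lift.ofDer D).der = D := by
  apply Subtype.ext
  apply LinearMap.ext
  intro b
  show (TrivSqZeroExt.inl (χ b) + TrivSqZeroExt.inr (D.1 b) : TrivSqZeroExt K M).snd = D.1 b
  simp

/-- lifts of `χ` are `χ`-derivations -/
def Lift.derEquiv : Lift χ M ≃ chiDer χ M where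
  toFun := Lift.der
  invFun := Lift.ofDer
  left_inv _ := Lift.ext_der (Lift.der_ofDer _)
  right_inv := Lift.der_ofDer

lemma Lift.derEquiv_apply (φ : Lift χ M) : Lift.derEquiv φ = φ.der := rfl

variable {N : Type*} [AddCommGroup N] [Module K N] [Module Kᵐᵒᵖ N] [IsCentralScalar K N]

/-- functoriality of lifts in the module -/
def Lift.map (f : M →ₗ[K] N) (φ : Lift χ M) : Lift χ N :=
  ⟨(TrivSqZeroExt.map f).comp φ.1, by
    rw [← AlgHom.comp_assoc, TrivSqZeroExt.fstHom_comp_map]
    exact φ.2⟩

lemma Lift.map_coe (f : M →ₗ[K] N) (φ : Lift χ M) :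
    (φ.map f).1 = (TrivSqZeroExt.map f).comp φ.1 := rfl

lemma Lift.der_map (f : M →ₗ[K] N) (φ : Lift χ M) (b : B) :
    (φ.map f).der.1 b = f (φ.der.1 b) := by
  show ((TrivSqZeroExt.map f) (φ.1 b)).snd = f (φ.1 b).snd
  rw [TrivSqZeroExt.snd_map]

variable (χ M)

/-- the constant lift -/
def Lift.zero : Lift χ M :=
  ⟨(TrivSqZeroExt.inlAlgHom K K M).comp χ, by
    apply AlgHom.ext
    intro b
    rfl⟩

variable {χ M}

lemma Lift.zero_coe : (Lift.zero χ M).1 = (TrivSqZeroExt.inlAlgHom K K M).comp χ := rfl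

lemma Lift.der_zero (b : B) : (Lift.zero χ M).der.1 b = 0 := rfl

lemma Lift.eq_zero_of_der {φ : Lift χ M} (h : ∀ b, φ.der.1 b = 0) : φ = Lift.zero χ M :=
  Lift.ext_der_apply (fun b => (h b).trans (Lift.der_zero b).symm)

/-- the lift to `M × N` with given components -/
def Lift.prod (φ : Lift χ M) (ψ : Lift χ N) : Lift χ (M × N) :=
  Lift.ofDer ⟨φ.der.1.prod ψ.der.1, by
    intro a b
    apply Prod.ext
    · simp only [LinearMap.prod_apply, Prod.fst_add, Prod.smul_fst]
      exact φ.der.2 a b
    · simp only [LinearMap.prod_apply, Prod.snd_add, Prod.smul_snd]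
      exact ψ.der.2 a b⟩

lemma Lift.der_prod (φ : Lift χ M) (ψ : Lift χ N) (b : B) :
    (φ.prod ψ).der.1 b = (φ.der.1 b, ψ.der.1 b) := by
  unfold Lift.prod
  rw [Lift.der_ofDer]
  rfl

/-- **Eckmann–Hilton**: a unital multiplication on the lifts to `K[ε]` which extends to a
multiplication on the lifts to `K ⊕ (K × K)`, naturally with respect to linear maps `K × K → K`,
is the addition of derivations. -/
theorem Lift.der_mul_of_natural
    (μ₁ : Lift χ K → Lift χ K → Lift χ K)
    (μ₂ : Lift χ (K × K) → Lift χ (K × K) → Lift χ (K × K))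
    (hnat : ∀ (f : K × K →ₗ[K] K) (x y : Lift χ (K × K)),
      (μ₂ x y).map f = μ₁ (x.map f) (y.map f))
    (hone_left : ∀ x, μ₁ (Lift.zero χ K) x = x) (hone_right : ∀ x, μ₁ x (Lift.zero χ K) = x)
    (φ ψ : Lift χ K) : (μ₁ φ ψ).der = φ.der + ψ.der := by
  set θ := φ.prod ψ with hθ
  set θ₁ := θ.map ((LinearMap.inl K K K).comp (LinearMap.fst K K K)) with hθ₁
  set θ₂ := θ.map ((LinearMap.inr K K K).comp (LinearMap.snd K K K)) with hθ₂
  set ζ := μ₂ θ₁ θ₂ with hζ
  have h11 : θ₁.map (LinearMap.fst K K K) = φ := by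
    apply Lift.ext_der_apply
    intro b
    rw [Lift.der_map, hθ₁, Lift.der_map, hθ, Lift.der_prod]
    rfl
  have h12 : θ₁.map (LinearMap.snd K K K) = Lift.zero χ K := by
    apply Lift.eq_zero_of_der
    intro b
    rw [Lift.der_map, hθ₁, Lift.der_map, hθ, Lift.der_prod]
    rfl
  have h21 : θ₂.map (LinearMap.fst K K K) = Lift.zero χ K := by
    apply Lift.eq_zero_of_der
    intro b
    rw [Lift.der_map, hθ₂, Lift.der_map, hθ, Lift.der_prod]
    rfl
  have h22 : θ₂.map (LinearMap.snd K K K) = ψ := by
    apply Lift.ext_der_apply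
    intro b
    rw [Lift.der_map, hθ₂, Lift.der_map, hθ, Lift.der_prod]
    rfl
  have h1s : θ₁.map (LinearMap.fst K K K + LinearMap.snd K K K) = φ := by
    apply Lift.ext_der_apply
    intro b
    rw [Lift.der_map, hθ₁, Lift.der_map, hθ, Lift.der_prod]
    simp
  have h2s : θ₂.map (LinearMap.fst K K K + LinearMap.snd K K K) = ψ := by
    apply Lift.ext_der_apply
    intro b
    rw [Lift.der_map, hθ₂, Lift.der_map, hθ, Lift.der_prod]
    simp
  have e1 : ζ.map (LinearMap.fst K K K) = φ := by
    rw [hζ, hnat, h11, h21, hone_right]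
  have e2 : ζ.map (LinearMap.snd K K K) = ψ := by
    rw [hζ, hnat, h12, h22, hone_left]
  have es : ζ.map (LinearMap.fst K K K + LinearMap.snd K K K) = μ₁ φ ψ := by
    rw [hζ, hnat, h1s, h2s]
  apply Subtype.ext
  apply LinearMap.ext
  intro b
  rw [← es, Lift.der_map]
  show (ζ.der.1 b).1 + (ζ.der.1 b).2 = φ.der.1 b + ψ.der.1 b
  rw [← e1, ← e2, Lift.der_map, Lift.der_map]
  rfl

/-- scaling the module scales the derivation -/
lemma Lift.der_map_smul (a : K) (φ : Lift χ M) :
    (φ.map (a • (LinearMap.id : M →ₗ[K] M))).der = a • φ.der := by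
  apply Subtype.ext
  apply LinearMap.ext
  intro b
  rw [Lift.der_map]
  rfl

end Lift

section Dim

variable {K : Type*} [Field K] {B : Type*} [CommRing B] [Algebra K B] (χ : B →ₐ[K] K)

/-- the tangent space at a `K`-point of a standard smooth algebra of relative dimension `n` is
`Kⁿ` -/
theorem nonempty_chiDer_linearEquiv (n : ℕ) [Algebra.IsStandardSmoothOfRelativeDimension n K B] :
    Nonempty (chiDer χ K ≃ₗ[K] (Fin n → K)) := by
  classical
  have hss : Algebra.IsStandardSmooth K B :=
    Algebra.IsStandardSmoothOfRelativeDimension.isStandardSmooth n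
  have hnt : Nontrivial B := χ.toRingHom.domain_nontrivial
  have hr := Algebra.IsStandardSmoothOfRelativeDimension.rank_kaehlerDifferential
    (R := K) (S := B) n
  have hfr : Module.finrank B Ω[B⁄K] = n := Module.finrank_eq_of_rank_eq hr
  let b : Module.Basis (Fin n) B Ω[B⁄K] := Module.finBasisOfFinrankEq B _ hfr
  let _ : Module B K := Module.compHom K χ.toRingHom
  have hsm : ∀ (a : B) (x : K), a • x = χ a * x := fun _ _ => rfl
  have : IsScalarTower K B K := ⟨fun k a x => by
    rw [hsm, hsm, map_smul, smul_eq_mul, smul_eq_mul, mul_assoc]⟩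
  have : SMulCommClass B K K := ⟨fun a k x => by
    rw [hsm, hsm, smul_eq_mul, smul_eq_mul, mul_left_comm]⟩
  let Φ : (Ω[B⁄K] →ₗ[B] K) →ₗ[K] chiDer χ K :=
    { toFun := fun f => ⟨(f.restrictScalars K).comp (KaehlerDifferential.D K B).toLinearMap, by
          intro a a'
          show f (KaehlerDifferential.D K B (a * a')) =
            χ a • f (KaehlerDifferential.D K B a') + χ a' • f (KaehlerDifferential.D K B a)
          rw [Derivation.leibniz, map_add, map_smul, map_smul]
          rfl⟩
      map_add' := fun f g => rfl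
      map_smul' := fun k f => rfl }
  have hinj : Function.Injective Φ := by
    intro f g h
    apply LinearMap.ext_on_range (KaehlerDifferential.span_range_derivation K B)
    intro a
    exact congrArg (fun D : chiDer χ K => D.1 a) h
  have hsurj : Function.Surjective Φ := by
    intro D
    let d : Derivation K B K :=
      { toLinearMap := D.1
        map_one_eq_zero' := chiDer_map_one D
        leibniz' := fun a a' => D.2 a a' }
    refine ⟨d.liftKaehlerDifferential, ?_⟩
    apply Subtype.ext
    apply LinearMap.ext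
    intro a
    exact Derivation.liftKaehlerDifferential_comp_D d a
  exact ⟨((b.constr K).trans (LinearEquiv.ofBijective Φ ⟨hinj, hsurj⟩)).symm⟩

end Dim

end Fermat.Agent.JAC.TAN
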