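/-
PROJECT JAC / S27 — (TAN), helper8.

`TAN_helper8_Group`: for a relative group law `G` on a `K`-scheme `J` and an affine chart
`ι : Spec B ⟶ J` through which the unit section factors (`χ : B →ₐ[K] K`), the first-order
points of `J` over the unit section are the lifts of `χ`; the group law on them is the addition of
derivations (Eckmann–Hilton).
-/
import Mathlib
import Fermat.Prelude.Def_AlgebraicGeometry_RelativeGroupLaw
import Fermat.Agent.JAC.TAN_helper8_Alg
import Fermat.Agent.JAC.TAN_helper8_Points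

set_option autoImplicit false

open AlgebraicGeometry CategoryTheory NeronModelInfra GoodReductionJacobian

universe u

namespace Fermat.Agent.JAC.TAN

noncomputable section

variable {K : Type u} [Field K] {J : Scheme.{u}} {j : J ⟶ Spec (CommRingCat.of K)}
  (G : RelativeGroupLaw K j)
  {B : Type u} [CommRing B] [Algebra K B] (ι : Spec (CommRingCat.of B) ⟶ J) [IsOpenImmersion ι]
  (hι : ι ≫ j = specStr K B) (χ : B →ₐ[K] K) (hχ : specMap χ ≫ ι = (G.one (𝟙 _)).1)
  {M N : Type u} [AddCommGroup M] [Module K M] [Module Kᵐᵒᵖ M] [IsCentralScalar K M]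
  [AddCommGroup N] [Module K N] [Module Kᵐᵒᵖ N] [IsCentralScalar K N]

/-- the reduction of a point with values in `K ⊕ M` -/
def redPt (X : SchemeHomOver (specStr K (TrivSqZeroExt K M)) j) : SchemeHomOver (𝟙 _) j :=
  schemeHomOverComp (redT K M) (redT_specStr K M) X

lemma redPt_coe (X : SchemeHomOver (specStr K (TrivSqZeroExt K M)) j) :
    (redPt X).1 = redT K M ≫ X.1 := rfl

lemma redPt_mul (X Y : SchemeHomOver (specStr K (TrivSqZeroExt K M)) j) :
    redPt (G.mul _ X Y) = G.mul _ (redPt X) (redPt Y) :=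
  G.mul_natural _ _ _ _ X Y

/-- the point of a lift -/
def Lift.pt (φ : Lift χ M) : SchemeHomOver (specStr K (TrivSqZeroExt K M)) j :=
  algPt j ι hι φ.1

omit [IsOpenImmersion ι] in
include hχ in
lemma Lift.redPt_pt (φ : Lift χ M) : redPt (φ.pt ι hι) = G.one (𝟙 _) := by
  apply Subtype.ext
  show specMap (TrivSqZeroExt.fstHom K K M) ≫ specMap φ.1 ≫ ι = _
  rw [← Category.assoc, ← specMap_comp, φ.2, hχ]

lemma Lift.pt_injective : Function.Injective (Lift.pt ι hι (χ := χ) (j := j) (M := M)) := by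
  intro φ ψ h
  exact Subtype.ext (algPt_injective j ι hι h)

omit [IsOpenImmersion ι] in
lemma Lift.pt_map (f : M →ₗ[K] N) (φ : Lift χ M) :
    (φ.map f).pt ι hι = schemeHomOverComp (specMap (TrivSqZeroExt.map f))
      (specMap_specStr _) (φ.pt ι hι) :=
  algPt_comp j ι hι φ.1 (TrivSqZeroExt.map f)

include hχ in
lemma Lift.exists_pt_eq (X : SchemeHomOver (specStr K (TrivSqZeroExt K M)) j)
    (hX : redPt X = G.one (𝟙 _)) : ∃ φ : Lift χ M, φ.pt ι hι = X := by
  have hrange : Set.range X.1 ⊆ Set.range ι := by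
    rintro y ⟨z, rfl⟩
    obtain ⟨w, rfl⟩ := redT_surjective K M z
    have h1 : (redT K M ≫ X.1) w = (specMap χ ≫ ι) w := by
      rw [hχ, ← hX]
      rfl
    refine ⟨specMap χ w, ?_⟩
    exact h1.symm
  obtain ⟨φ, hφ⟩ := exists_algHom_of_range_subset j ι hι X.1 X.2 hrange
  refine ⟨⟨φ, ?_⟩, Subtype.ext hφ⟩
  apply specMap_injective
  rw [← cancel_mono ι, specMap_comp, Category.assoc, hφ, hχ, ← hX]
  rfl

omit [IsOpenImmersion ι] in
include hχ in
lemma Lift.pt_zero : (Lift.zero χ M).pt ι hι = G.one (specStr K (TrivSqZeroExt K M)) := by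
  have h1 : specMap (TrivSqZeroExt.inlAlgHom K K M) = specStr K (TrivSqZeroExt K M) := rfl
  have h2 : specMap (TrivSqZeroExt.inlAlgHom K K M) ≫ 𝟙 _ = specStr K (TrivSqZeroExt K M) := by
    rw [Category.comp_id, h1]
  rw [← G.one_natural (𝟙 _) _ (specMap (TrivSqZeroExt.inlAlgHom K K M)) h2]
  apply Subtype.ext
  show specMap ((TrivSqZeroExt.inlAlgHom K K M).comp χ) ≫ ι = _ ≫ (G.one (𝟙 _)).1
  rw [specMap_comp, Category.assoc, hχ]

include hχ in
lemma exists_lift_mul (φ ψ : Lift χ M) :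
    ∃ θ : Lift χ M, θ.pt ι hι = G.mul _ (φ.pt ι hι) (ψ.pt ι hι) := by
  apply Lift.exists_pt_eq G ι hι χ hχ
  rw [redPt_mul, Lift.redPt_pt G ι hι χ hχ, Lift.redPt_pt G ι hι χ hχ, G.one_mul]

/-- the group law transported to lifts -/
def Lift.gmul (φ ψ : Lift χ M) : Lift χ M := (exists_lift_mul G ι hι χ hχ φ ψ).choose

lemma Lift.pt_gmul (φ ψ : Lift χ M) :
    (Lift.gmul G ι hι χ hχ φ ψ).pt ι hι = G.mul _ (φ.pt ι hι) (ψ.pt ι hι) :=
  (exists_lift_mul G ι hι χ hχ φ ψ).choose_spec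

lemma Lift.gmul_map (f : M →ₗ[K] N) (φ ψ : Lift χ M) :
    (Lift.gmul G ι hι χ hχ φ ψ).map f = Lift.gmul G ι hι χ hχ (φ.map f) (ψ.map f) := by
  apply Lift.pt_injective ι hι
  rw [Lift.pt_map, Lift.pt_gmul, Lift.pt_gmul, G.mul_natural, Lift.pt_map, Lift.pt_map]

lemma Lift.zero_gmul (φ : Lift χ M) : Lift.gmul G ι hι χ hχ (Lift.zero χ M) φ = φ := by
  apply Lift.pt_injective ι hι
  rw [Lift.pt_gmul, Lift.pt_zero G ι hι χ hχ, G.one_mul]

lemma Lift.gmul_zero (φ : Lift χ M) : Lift.gmul G ι hι χ hχ φ (Lift.zero χ M) = φ := by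
  apply Lift.pt_injective ι hι
  rw [Lift.pt_gmul, Lift.pt_zero G ι hι χ hχ, G.mul_one]

/-- the group law on first-order points is the addition of derivations -/
theorem Lift.der_gmul (φ ψ : Lift χ K) :
    (Lift.gmul G ι hι χ hχ φ ψ).der = φ.der + ψ.der :=
  Lift.der_mul_of_natural (Lift.gmul G ι hι χ hχ) (Lift.gmul G ι hι χ hχ)
    (fun f x y => Lift.gmul_map G ι hι χ hχ f x y)
    (Lift.zero_gmul G ι hι χ hχ) (Lift.gmul_zero G ι hι χ hχ) φ ψ

end

end Fermat.Agent.JAC.TAN
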