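/-
PROJECT JAC / S27 — (TAN), helper8.

`TAN_helper8_RelDim`: a smooth connected scheme over a field is smooth of a constant relative
dimension; the relative dimension of any standard smooth chart is that number.
-/
import Mathlib

set_option autoImplicit false

open AlgebraicGeometry CategoryTheory Opposite TopologicalSpace

universe u

namespace Fermat.Agent.JAC.TAN

variable {K : Type u} [Field K] {J : Scheme.{u}} (j : J ⟶ Spec (CommRingCat.of K))

/-- a nonempty open of the spectrum of a field is everything -/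
lemma opens_spec_field_eq_top (U : (Spec (CommRingCat.of K)).Opens) (y : Spec (CommRingCat.of K))
    (hy : y ∈ U) : U = ⊤ := by
  ext z
  simp only [Opens.coe_top, Set.mem_univ, iff_true]
  have : z = y := Subsingleton.elim (α := PrimeSpectrum K) z y
  rw [this]
  exact hy

/-- every open lies in the preimage of `⊤` -/
lemma le_preimage_top' (V : J.Opens) : V ≤ j ⁻¹ᵁ ⊤ := fun _ _ => trivial

/-- `x` lies in an affine chart which is standard smooth of relative dimension `n` over `K` -/
def HasChartDim (n : ℕ) (x : J) : Prop :=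
  ∃ (V : J.Opens) (_ : IsAffineOpen V) (_ : x ∈ V),
    (j.appLE ⊤ V (le_preimage_top' j V)).hom.IsStandardSmoothOfRelativeDimension n

lemma hasChartDim_of_mem {n : ℕ} {V : J.Opens} (hV : IsAffineOpen V)
    (h : (j.appLE ⊤ V (le_preimage_top' j V)).hom.IsStandardSmoothOfRelativeDimension n) {y : J} (hy : y ∈ V) :
    HasChartDim j n y := ⟨V, hV, hy, h⟩

lemma isOpen_hasChartDim (n : ℕ) : IsOpen {x | HasChartDim j n x} := by
  rw [isOpen_iff_forall_mem_open]
  rintro x ⟨V, hV, hx, h⟩
  exact ⟨V, fun y hy => ⟨V, hV, hy, h⟩, V.isOpen, hx⟩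

lemma exists_hasChartDim [Smooth j] (x : J) : ∃ n, HasChartDim j n x := by
  obtain ⟨U, hU, V, hV, hx, e, h⟩ := Smooth.exists_isStandardSmooth j x
  have hUtop : U = ⊤ := opens_spec_field_eq_top U (j.base x) (e hx)
  subst hUtop
  have h' : @Algebra.IsStandardSmooth _ _ _ _ (j.appLE ⊤ V e).hom.toAlgebra := h
  let _ := (j.appLE ⊤ V e).hom.toAlgebra
  obtain ⟨ι, σ, hσ, hι, ⟨P⟩⟩ := h'
  exact ⟨P.dimension, V, hV, hx, ⟨ι, σ, hσ, hι, P, rfl⟩⟩

lemma hasChartDim_unique {n m : ℕ} {x : J} (hn : HasChartDim j n x) (hm : HasChartDim j m x) :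
    n = m := by
  obtain ⟨V, hV, hx, h⟩ := hn
  obtain ⟨V', hV', hx', h'⟩ := hm
  obtain ⟨f, g, hfg, hxf⟩ := exists_basicOpen_le_affine_inter hV hV' x ⟨hx, hx'⟩
  have hloc := hV.isLocalization_basicOpen f
  have hloc' := hV'.isLocalization_basicOpen g
  have h1 := (RingHom.isStandardSmoothOfRelativeDimension_stableUnderCompositionWithLocalizationAway
    n).2 Γ(J, J.basicOpen f) f _ h
  have h2 := (RingHom.isStandardSmoothOfRelativeDimension_stableUnderCompositionWithLocalizationAway
    m).2 Γ(J, J.basicOpen g) g _ h'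
  have e1 : (algebraMap Γ(J, V) Γ(J, J.basicOpen f)).comp (j.appLE ⊤ V (le_preimage_top' j V)).hom =
      (j.appLE ⊤ (J.basicOpen f) (le_preimage_top' j _)).hom := by
    rw [RingHom.algebraMap_toAlgebra, ← CommRingCat.hom_comp, Scheme.Hom.appLE_map]
  have e2 : (algebraMap Γ(J, V') Γ(J, J.basicOpen g)).comp (j.appLE ⊤ V' (le_preimage_top' j V')).hom =
      (j.appLE ⊤ (J.basicOpen g) (le_preimage_top' j _)).hom := by
    rw [RingHom.algebraMap_toAlgebra, ← CommRingCat.hom_comp, Scheme.Hom.appLE_map]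
  rw [e1] at h1
  rw [e2] at h2
  have h3 : (j.appLE ⊤ (J.basicOpen f) (le_preimage_top' j _)).hom.IsStandardSmoothOfRelativeDimension m := by
    have : J.basicOpen g = J.basicOpen f := hfg.symm
    rw [this] at h2
    exact h2
  have hnt : Nontrivial Γ(J, J.basicOpen f) :=
    (J.presheaf.germ (J.basicOpen f) x hxf).hom.domain_nontrivial
  let _ := (j.appLE ⊤ (J.basicOpen f) (le_preimage_top' j _)).hom.toAlgebra
  have r1 := @Algebra.IsStandardSmoothOfRelativeDimension.rank_kaehlerDifferential _ _ _ _ _ hnt n h1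
  have r2 := @Algebra.IsStandardSmoothOfRelativeDimension.rank_kaehlerDifferential _ _ _ _ _ hnt m h3
  exact Nat.cast_injective (R := Cardinal) (r1.symm.trans r2)

/-- **A smooth connected scheme over a field has a constant relative dimension.** -/
theorem exists_smoothOfRelativeDimension [Smooth j] [ConnectedSpace J] :
    ∃ n : ℕ, SmoothOfRelativeDimension n j ∧ ∀ x, HasChartDim j n x := by
  obtain ⟨x₀⟩ : Nonempty J := inferInstance
  obtain ⟨n, hn⟩ := exists_hasChartDim j x₀
  have hclopen : IsClopen {x | HasChartDim j n x} := by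
    refine ⟨?_, isOpen_hasChartDim j n⟩
    rw [← isOpen_compl_iff]
    have : {x | HasChartDim j n x}ᶜ = ⋃ m ∈ {m : ℕ | m ≠ n}, {x | HasChartDim j m x} := by
      ext x
      simp only [Set.mem_compl_iff, Set.mem_ofPred_eq, Set.mem_iUnion, exists_prop]
      constructor
      · intro hx
        obtain ⟨m, hm⟩ := exists_hasChartDim j x
        exact ⟨m, fun h => hx (h ▸ hm), hm⟩
      · rintro ⟨m, hmn, hm⟩ hx
        exact hmn (hasChartDim_unique j hm hx)
    rw [this]
    exact isOpen_biUnion fun m _ => isOpen_hasChartDim j m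
  have huniv : {x | HasChartDim j n x} = Set.univ := hclopen.eq_univ ⟨x₀, hn⟩
  have hall : ∀ x, HasChartDim j n x := fun x => by
    have : x ∈ {x | HasChartDim j n x} := huniv ▸ Set.mem_univ x
    exact this
  refine ⟨n, ⟨fun x => ?_⟩, hall⟩
  obtain ⟨V, hV, hx, h⟩ := hall x
  exact ⟨⊤, isAffineOpen_top _, V, hV, hx, le_preimage_top' j V, h⟩

end Fermat.Agent.JAC.TAN
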