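/-
PROJECT JAC / S27 — (TAN), helper8.

`TAN_helper8_Main`: the tangent space at the unit section of a smooth connected group scheme over
a field `K`: the `K[ε]`-points over the unit section, with the group law and the scaling action,
are `Kⁿ` with addition and scalar multiplication, `n` being the relative dimension.
-/
import Mathlib
import Fermat.Prelude.Def_AlgebraicGeometry_RelativeGroupLaw
import Fermat.Agent.JAC.TAN_helper8_RelDim
import Fermat.Agent.JAC.TAN_helper8_Alg
import Fermat.Agent.JAC.TAN_helper8_Points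
import Fermat.Agent.JAC.TAN_helper8_Group

set_option autoImplicit false

open AlgebraicGeometry CategoryTheory NeronModelInfra GoodReductionJacobian

universe u

namespace Fermat.Agent.JAC.TAN

noncomputable section

section Dual

variable (K : Type u) [Field K]

/-- the structure morphism of `Spec K[ε]` -/
def dualStr : Spec (CommRingCat.of (TrivSqZeroExt K K)) ⟶ Spec (CommRingCat.of K) :=
  specStr K (TrivSqZeroExt K K)

/-- the closed point `ε ↦ 0` of `Spec K[ε]` -/
def dualPt : Spec (CommRingCat.of K) ⟶ Spec (CommRingCat.of (TrivSqZeroExt K K)) :=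
  redT K K

/-- the endomorphism `ε ↦ a ε` of `Spec K[ε]` -/
def dualScale (a : K) :
    Spec (CommRingCat.of (TrivSqZeroExt K K)) ⟶ Spec (CommRingCat.of (TrivSqZeroExt K K)) :=
  specMap (TrivSqZeroExt.map (a • (LinearMap.id : K →ₗ[K] K)))

lemma dualStr_eq : dualStr K = Spec.map (CommRingCat.ofHom (algebraMap K (TrivSqZeroExt K K))) :=
  rfl

lemma dualPt_eq :
    dualPt K = Spec.map (CommRingCat.ofHom (TrivSqZeroExt.fstHom K K K).toRingHom) := rfl

lemma dualScale_eq (a : K) : dualScale K a = Spec.map (CommRingCat.ofHom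
    (TrivSqZeroExt.map (a • (LinearMap.id : K →ₗ[K] K))).toRingHom) := rfl

lemma dualPt_dualStr : dualPt K ≫ dualStr K = 𝟙 _ := redT_specStr K K

lemma dualScale_dualStr (a : K) : dualScale K a ≫ dualStr K = dualStr K := specMap_specStr _

lemma dualPt_dualScale (a : K) : dualPt K ≫ dualScale K a = dualPt K := by
  unfold dualPt dualScale redT
  rw [← specMap_comp, TrivSqZeroExt.fstHom_comp_map]

end Dual

variable {K : Type u} [Field K] {J : Scheme.{u}} (j : J ⟶ Spec (CommRingCat.of K))
  (G : RelativeGroupLaw K j)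

/-- the tangent space of `J` at the unit section: `K[ε]`-points of `J` reducing to the unit -/
def TangentPt : Type u :=
  {x : SchemeHomOver (dualStr K) j //
    schemeHomOverComp (dualPt K) (dualPt_dualStr K) x = G.one (𝟙 _)}

variable {j G}

/-- the group law on the tangent space -/
def TangentPt.mul (x y : TangentPt j G) : TangentPt j G :=
  ⟨G.mul (dualStr K) x.1 y.1, by
    rw [G.mul_natural, x.2, y.2, G.one_mul]⟩

/-- the scaling action on the tangent space -/
def TangentPt.scale (a : K) (x : TangentPt j G) : TangentPt j G :=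
  ⟨schemeHomOverComp (dualScale K a) (dualScale_dualStr K a) x.1, by
    apply Subtype.ext
    show dualPt K ≫ dualScale K a ≫ x.1.1 = _
    rw [← Category.assoc, dualPt_dualScale]
    exact congrArg Subtype.val x.2⟩

lemma TangentPt.mul_coe (x y : TangentPt j G) : (x.mul y).1 = G.mul (dualStr K) x.1 y.1 := rfl

lemma TangentPt.scale_coe (a : K) (x : TangentPt j G) :
    (x.scale a).1 = schemeHomOverComp (dualScale K a) (dualScale_dualStr K a) x.1 := rfl

/-- the tangent space in a chart -/
theorem exists_tangent_coordinates_of_chart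
    {B : Type u} [CommRing B] [Algebra K B] (ι : Spec (CommRingCat.of B) ⟶ J) [IsOpenImmersion ι]
    (hι : ι ≫ j = specStr K B) (χ : B →ₐ[K] K) (hχ : specMap χ ≫ ι = (G.one (𝟙 _)).1)
    (n : ℕ) [Algebra.IsStandardSmoothOfRelativeDimension n K B] :
    ∃ e : TangentPt j G ≃ (Fin n → K),
      (∀ x y, e (x.mul y) = e x + e y) ∧ (∀ a x, e (x.scale a) = a • e x) := by
  obtain ⟨L⟩ := nonempty_chiDer_linearEquiv χ n
  let E : Lift χ K ≃ TangentPt j G :=
    Equiv.ofBijective (fun φ => ⟨φ.pt ι hι, Lift.redPt_pt G ι hι χ hχ φ⟩)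
      ⟨fun φ ψ h => Lift.pt_injective ι hι χ (congrArg Subtype.val h),
       fun x => by
        obtain ⟨φ, hφ⟩ := Lift.exists_pt_eq G ι hι χ hχ x.1 x.2
        exact ⟨φ, Subtype.ext hφ⟩⟩
  have hE : ∀ φ, (E φ).1 = φ.pt ι hι := fun _ => rfl
  refine ⟨E.symm.trans (Lift.derEquiv.trans L.toEquiv), ?_, ?_⟩
  · intro x y
    obtain ⟨φ, rfl⟩ := E.surjective x
    obtain ⟨ψ, rfl⟩ := E.surjective y
    have h1 : (E φ).mul (E ψ) = E (Lift.gmul G ι hι χ hχ φ ψ) :=
      Subtype.ext (Lift.pt_gmul G ι hι χ hχ φ ψ).symm
    rw [h1]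
    simp only [Equiv.trans_apply, Equiv.symm_apply_apply, Lift.derEquiv_apply,
      LinearEquiv.coe_toEquiv]
    rw [Lift.der_gmul, map_add]
  · intro a x
    obtain ⟨φ, rfl⟩ := E.surjective x
    have h1 : (E φ).scale a = E (φ.map (a • (LinearMap.id : K →ₗ[K] K))) :=
      Subtype.ext (Lift.pt_map ι hι χ _ φ).symm
    rw [h1]
    simp only [Equiv.trans_apply, Equiv.symm_apply_apply, Lift.derEquiv_apply,
      LinearEquiv.coe_toEquiv]
    rw [Lift.der_map_smul, map_smul]

section ChartAlg

variable (j)

/-- the `K`-algebra structure on the sections over an open of a `K`-scheme -/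
def chartAlgebraMap (V : J.Opens) : K →+* Γ(J, V) :=
  ((Scheme.ΓSpecIso (CommRingCat.of K)).inv ≫ j.appLE ⊤ V (le_preimage_top' j V)).hom

lemma fromSpec_comp_eq {V : J.Opens} (hV : IsAffineOpen V) :
    hV.fromSpec ≫ j = Spec.map (CommRingCat.ofHom (chartAlgebraMap j V)) := by
  have h := IsAffineOpen.SpecMap_appLE_fromSpec j (isAffineOpen_top _) hV (le_preimage_top' j V)
  rw [← h, IsAffineOpen.fromSpec_top, Scheme.isoSpec_Spec_inv, ← Spec.map_comp]
  rfl

lemma chartAlgebraMap_isStandardSmooth {V : J.Opens} {n : ℕ}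
    (h : (j.appLE ⊤ V (le_preimage_top' j V)).hom.IsStandardSmoothOfRelativeDimension n) :
    (chartAlgebraMap j V).IsStandardSmoothOfRelativeDimension n := by
  exact ((RingHom.isStandardSmoothOfRelativeDimension_respectsIso (n := n)).cancel_left_isIso
    (Scheme.ΓSpecIso (CommRingCat.of K)).inv (j.appLE ⊤ V (le_preimage_top' j V))).mpr h

end ChartAlg

/-- **(TAN)** The tangent space at the unit section of a smooth connected group scheme over a
field: `J` is smooth of some relative dimension `n`, and the `K[ε]`-points over the unit section,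
with the group law and the scaling action, are `Kⁿ` with addition and scalar multiplication. -/
theorem exists_tangent_coordinates (K : Type u) [Field K] {J : Scheme.{u}}
    (j : J ⟶ Spec (CommRingCat.of K)) [Smooth j] [ConnectedSpace J] (G : RelativeGroupLaw K j) :
    ∃ n : ℕ, SmoothOfRelativeDimension n j ∧ ∃ e : TangentPt j G ≃ (Fin n → K),
      (∀ x y, e (x.mul y) = e x + e y) ∧ (∀ a x, e (x.scale a) = a • e x) := by
  obtain ⟨n, hn, hch⟩ := exists_smoothOfRelativeDimension j
  refine ⟨n, hn, ?_⟩
  obtain ⟨pt⟩ : Nonempty (Spec (CommRingCat.of K)) := inferInstance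
  obtain ⟨V, hV, hxV, hstd⟩ := hch ((G.one (𝟙 _)).1 pt)
  let _ : Algebra K Γ(J, V) := (chartAlgebraMap j V).toAlgebra
  have hstd' : Algebra.IsStandardSmoothOfRelativeDimension n K Γ(J, V) :=
    chartAlgebraMap_isStandardSmooth j hstd
  have hι : hV.fromSpec ≫ j = specStr K Γ(J, V) := fromSpec_comp_eq j hV
  have hx₀ : (G.one (𝟙 _)).1 ≫ j = specStr K K := by
    rw [specStr_self]
    exact (G.one (𝟙 _)).2
  have hrange : Set.range (G.one (𝟙 _)).1 ⊆ Set.range hV.fromSpec := by
    rw [hV.range_fromSpec]
    rintro y ⟨z, rfl⟩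
    have hz : z = pt := Subsingleton.elim (α := PrimeSpectrum K) z pt
    rw [hz]
    exact hxV
  obtain ⟨χ, hχ⟩ := exists_algHom_of_range_subset j hV.fromSpec hι (G.one (𝟙 _)).1 hx₀ hrange
  exact exists_tangent_coordinates_of_chart hV.fromSpec hι χ hχ n


/-- **(TAN), consumer form**: any identification of the tangent space at the unit section with a
`K`-vector space `H`, turning the group law into `+` and the scaling into `•`, computes the
relative dimension: `J` is smooth of relative dimension `finrank K H`. -/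
theorem smoothOfRelativeDimension_finrank (K : Type u) [Field K] {J : Scheme.{u}}
    (j : J ⟶ Spec (CommRingCat.of K)) [Smooth j] [ConnectedSpace J] (G : RelativeGroupLaw K j)
    {H : Type*} [AddCommGroup H] [Module K H] (e' : TangentPt j G ≃ H)
    (hadd : ∀ x y, e' (x.mul y) = e' x + e' y) (hsm : ∀ a x, e' (x.scale a) = a • e' x) :
    SmoothOfRelativeDimension (Module.finrank K H) j := by
  obtain ⟨n, hn, e, he_add, he_sm⟩ := exists_tangent_coordinates K j G
  let L : (Fin n → K) ≃ₗ[K] H :=
    { (e.symm.trans e') with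
      map_add' := by
        intro v w
        obtain ⟨x, rfl⟩ := e.surjective v
        obtain ⟨y, rfl⟩ := e.surjective w
        show e' (e.symm (e x + e y)) = e' (e.symm (e x)) + e' (e.symm (e y))
        rw [← he_add, Equiv.symm_apply_apply, Equiv.symm_apply_apply, Equiv.symm_apply_apply, hadd]
      map_smul' := by
        intro a v
        obtain ⟨x, rfl⟩ := e.surjective v
        show e' (e.symm (a • e x)) = a • e' (e.symm (e x))
        rw [← he_sm, Equiv.symm_apply_apply, Equiv.symm_apply_apply, hsm] }
  have h : Module.finrank K H = n := by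
    rw [← L.finrank_eq, Module.finrank_fin_fun]
  rw [h]
  exact hn

end

end Fermat.Agent.JAC.TAN
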