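/-
PROJECT JAC (S27, DIM) — helper3 — **the first-order thickening `C[ε] = C ×ₖ Spec k[ε]`: objects
and the list of facts (`DualFacts`) which the Picard-side computation of the tangent space
consumes.**

With helper8's `dualStr K`, `dualPt K`, `dualScale K a` (`TAN_helper8_Main`):

* `dX c := pullback c (dualStr K)`, `dπ c : dX c ⟶ C`, `dq c : dX c ⟶ Spec K[ε]`;
* `dEps c : Γ(dX c, ⊤)` the pull-back of `ε`;
* `dI c : pullback c (𝟙 _) ⟶ dX c` the base change of `dualPt K` (the closed fibre);
* `dS c a : dX c ⟶ dX c` the base change of `dualScale K a`;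
* `structure DualFacts c : Prop` : `IsFirstOrder (dπ c) (dEps c)`, `IsIso (dI c ≫ dπ c)`,
  `(dI c)^* (dEps c) = 0`, `dI c` surjective, `dS c a ≫ dπ c = dπ c`,
  `(dS c a)^* (dEps c) = dEps c * (dπ c)^* a`.
-/
import Mathlib
import Fermat.Agent.JAC.DIM_helper3_FirstOrder
import Fermat.Agent.JAC.TAN_helper8_Main
import Fermat.Agent.AV.AV4_helper5_FinDim
import Fermat.Prelude.Def_AlgebraicGeometry_RelativePicardFunctor

set_option autoImplicit false

open AlgebraicGeometry CategoryTheory CategoryTheory.Limits Opposite TopologicalSpace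
  AlgebraicGeometry.RelPicard NeronModelInfra GoodReductionJacobian

universe u

namespace Fermat.Agent.JAC.DIM

open Fermat.Agent.AV Fermat.Agent.JAC.TAN

noncomputable section

variable {K : Type u} [Field K] {C : Scheme.{u}} (c : C ⟶ Spec (CommRingCat.of K))

/-- `C[ε] = C ×ₖ Spec K[ε]`. -/
abbrev dX : Scheme.{u} := pullback c (dualStr K)

/-- the projection `C[ε] ⟶ C`. -/
abbrev dπ : dX c ⟶ C := pullback.fst c (dualStr K)

/-- the projection `C[ε] ⟶ Spec K[ε]`. -/
abbrev dq : dX c ⟶ Spec (CommRingCat.of (TrivSqZeroExt K K)) := pullback.snd c (dualStr K)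

/-- `ε` as a global function on `Spec K[ε]`. -/
def dEps₀ (K : Type u) [Field K] : Γ(Spec (CommRingCat.of (TrivSqZeroExt K K)), ⊤) :=
  (Scheme.ΓSpecIso (CommRingCat.of (TrivSqZeroExt K K))).inv.hom (TrivSqZeroExt.inr 1)

/-- `ε` as a global function on `C[ε]`. -/
def dEps : Γ(dX c, ⊤) := (dq c).appTop.hom (dEps₀ K)

/-- the closed point of `Spec K[ε]`, as a morphism over `Spec K`. -/
def dualPtOver (K : Type u) [Field K] :
    SchemeHomOver (𝟙 (Spec (CommRingCat.of K))) (dualStr K) :=
  ⟨dualPt K, dualPt_dualStr K⟩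

/-- the scaling `ε ↦ a ε`, as a morphism over `Spec K`. -/
def dualScaleOver (K : Type u) [Field K] (a : K) : SchemeHomOver (dualStr K) (dualStr K) :=
  ⟨dualScale K a, dualScale_dualStr K a⟩

/-- the closed fibre `C ⟶ C[ε]`. -/
def dI : pullback c (𝟙 (Spec (CommRingCat.of K))) ⟶ dX c := baseChangeSnd c (dualPtOver K)

/-- the scaling on `C[ε]`. -/
def dS (a : K) : dX c ⟶ dX c := baseChangeSnd c (dualScaleOver K a)

/-- the facts about `C[ε]` consumed by the computation of the tangent space. -/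
structure DualFacts : Prop where
  firstOrder : IsFirstOrder (dπ c) (dEps c)
  isIso : IsIso (dI c ≫ dπ c)
  eps_dI : (dI c).appTop.hom (dEps c) = 0
  surj : Function.Surjective (dI c)
  dS_dπ : ∀ a : K, dS c a ≫ dπ c = dπ c
  eps_dS : ∀ a : K, (dS c a).appTop.hom (dEps c) =
    dEps c * (dπ c).appTop.hom (sectionsStrMap c ⊤ a)

end

end Fermat.Agent.JAC.DIM
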