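/-
PROJECT JAC (S27, DIM) — helper3 — **the facts about `C[ε] = C ×ₖ Spec K[ε]`** (`dualFacts c`):
it is a first-order thickening of `C` in the sense of `IsFirstOrder` (Künneth over `K[ε]`), the
closed fibre `dI c` is a surjective section killing `ε`, and the scaling `dS c a` multiplies `ε`
by `a`.
-/
import Mathlib
import Fermat.Agent.JAC.DIM_helper3_Dual
import Fermat.Agent.JAC.J8_helper4_DegZero

set_option autoImplicit false

open AlgebraicGeometry CategoryTheory CategoryTheory.Limits Opposite TopologicalSpace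
  AlgebraicGeometry.RelPicard NeronModelInfra GoodReductionJacobian

open scoped TensorProduct

universe u

namespace Fermat.Agent.JAC.DIM

open Fermat.Agent.AV Fermat.Agent.AV.CP Fermat.Agent.JAC Fermat.Agent.JAC.TAN

noncomputable section

/-! ### algebra: tensoring with a free algebra of rank two -/

section Algebra

variable {K R A : Type*} [CommRing K] [CommRing R] [Algebra K R] [CommRing A] [Algebra K A]
  (e : R) (p₁ p₂ : R →ₗ[K] K)

theorem exists_tmul_decomp (hR : ∀ x : R, x = p₁ x • (1 : R) + p₂ x • e) (t : R ⊗[K] A) :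
    ∃ a b : A, t = (1 : R) ⊗ₜ[K] a + e ⊗ₜ[K] b := by
  induction t using TensorProduct.induction_on with
  | zero => exact ⟨0, 0, by rw [TensorProduct.tmul_zero, TensorProduct.tmul_zero, add_zero]⟩
  | tmul x r =>
    refine ⟨p₁ x • r, p₂ x • r, ?_⟩
    conv_lhs => rw [hR x]
    rw [TensorProduct.add_tmul, TensorProduct.smul_tmul, TensorProduct.smul_tmul]
  | add t t' ht ht' =>
    obtain ⟨a, b, rfl⟩ := ht
    obtain ⟨a', b', rfl⟩ := ht'
    refine ⟨a + a', b + b', ?_⟩
    rw [TensorProduct.tmul_add, TensorProduct.tmul_add]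
    abel

theorem eq_zero_of_tmul_decomp (h11 : p₁ 1 = 1) (h1e : p₁ e = 0) (h21 : p₂ 1 = 0)
    (h2e : p₂ e = 1) (a b : A) (h : (1 : R) ⊗ₜ[K] a + e ⊗ₜ[K] b = 0) : a = 0 ∧ b = 0 := by
  have key : ∀ p : R →ₗ[K] K, p 1 • a + p e • b = 0 := by
    intro p
    have h1 := congrArg (fun t => TensorProduct.lid K A (LinearMap.rTensor A p t)) h
    simp only [map_add, LinearMap.rTensor_tmul, TensorProduct.lid_tmul, map_zero] at h1
    exact h1
  have k1 := key p₁
  have k2 := key p₂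
  rw [h11, h1e, one_smul, zero_smul, add_zero] at k1
  rw [h21, h2e, one_smul, zero_smul, zero_add] at k2
  exact ⟨k1, k2⟩

end Algebra

/-! ### functions on `Spec K[ε]` -/

section Base

variable (K : Type u) [Field K]

/-- `Spec K[ε]`. -/
abbrev dT : Scheme.{u} := Spec (CommRingCat.of (TrivSqZeroExt K K))

/-- the `K`-scheme structure of `Spec K[ε]`. -/
abbrev dTKScheme : KScheme K (dT K) := ⟨dualStr K⟩

/-- `K[ε] → Γ(Spec K[ε], ⊤)`. -/
def dγ : TrivSqZeroExt K K →+* Γ(dT K, ⊤) :=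
  (Scheme.ΓSpecIso (CommRingCat.of (TrivSqZeroExt K K))).inv.hom

/-- `Γ(Spec K[ε], ⊤) → K[ε]`. -/
def dγinv : Γ(dT K, ⊤) →+* TrivSqZeroExt K K :=
  (Scheme.ΓSpecIso (CommRingCat.of (TrivSqZeroExt K K))).hom.hom

theorem dγ_dγinv (b : Γ(dT K, ⊤)) : dγ K (dγinv K b) = b := by
  unfold dγ dγinv
  rw [← CommRingCat.comp_apply, Iso.hom_inv_id]
  rfl

theorem dγinv_dγ (x : TrivSqZeroExt K K) : dγinv K (dγ K x) = x := by
  unfold dγ dγinv
  rw [← CommRingCat.comp_apply, Iso.inv_hom_id]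
  rfl

theorem dEps₀_eq : dEps₀ K = dγ K (TrivSqZeroExt.inr 1) := rfl

theorem dγ_algebraMap (a : K) :
    dγ K (algebraMap K (TrivSqZeroExt K K) a) = @kToΓ K _ (dT K) (dTKScheme K) ⊤ a := by
  have h := Scheme.ΓSpecIso_inv_naturality
    (CommRingCat.ofHom (algebraMap K (TrivSqZeroExt K K)))
  have h2 := congrArg (fun f => f.hom a) h
  beta_reduce at h2
  simp only [kToΓ, RingHom.comp_apply]
  have h3 : (dualStr K).appLE ⊤ ⊤ (le_preimage_top _ ⊤) = (dualStr K).appTop := by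
    rw [Scheme.Hom.appTop, Scheme.Hom.app_eq_appLE]
    rfl
  show _ = ((dualStr K).appLE ⊤ ⊤ (le_preimage_top _ ⊤)).hom _
  rw [h3]
  exact h2

attribute [local instance] dTKScheme

theorem dγinv_kToΓ (a : K) : dγinv K (kToΓ K (dT K) ⊤ a) = TrivSqZeroExt.inl a := by
  rw [← dγ_algebraMap, dγinv_dγ, TrivSqZeroExt.algebraMap_eq_inl]

/-- the constant coefficient. -/
def dP₁ : Γ(dT K, ⊤) →ₗ[K] K where
  toFun b := (dγinv K b).fst
  map_add' b b' := by rw [map_add, TrivSqZeroExt.fst_add]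
  map_smul' a b := by
    rw [Algebra.smul_def, algebraMap_Γ_eq, map_mul, dγinv_kToΓ, TrivSqZeroExt.fst_mul,
      TrivSqZeroExt.fst_inl]
    rfl

/-- the coefficient of `ε`. -/
def dP₂ : Γ(dT K, ⊤) →ₗ[K] K where
  toFun b := (dγinv K b).snd
  map_add' b b' := by rw [map_add, TrivSqZeroExt.snd_add]
  map_smul' a b := by
    rw [Algebra.smul_def, algebraMap_Γ_eq, map_mul, dγinv_kToΓ, TrivSqZeroExt.snd_mul,
      TrivSqZeroExt.fst_inl, TrivSqZeroExt.snd_inl, smul_zero, add_zero]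
    rfl

theorem dP₁_one : dP₁ K 1 = 1 := by
  show (dγinv K 1).fst = 1
  rw [map_one, TrivSqZeroExt.fst_one]

theorem dP₂_one : dP₂ K 1 = 0 := by
  show (dγinv K 1).snd = 0
  rw [map_one, TrivSqZeroExt.snd_one]

theorem dP₁_eps : dP₁ K (dEps₀ K) = 0 := by
  show (dγinv K (dEps₀ K)).fst = 0
  rw [dEps₀_eq, dγinv_dγ, TrivSqZeroExt.fst_inr]

theorem dP₂_eps : dP₂ K (dEps₀ K) = 1 := by
  show (dγinv K (dEps₀ K)).snd = 1
  rw [dEps₀_eq, dγinv_dγ, TrivSqZeroExt.snd_inr]

theorem dEps₀_sq : dEps₀ K * dEps₀ K = 0 := by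
  rw [dEps₀_eq, ← map_mul, TrivSqZeroExt.inr_mul_inr, map_zero]

theorem eq_dP_smul (b : Γ(dT K, ⊤)) : b = dP₁ K b • (1 : Γ(dT K, ⊤)) + dP₂ K b • dEps₀ K := by
  have h1 : dγinv K b = TrivSqZeroExt.inl (dγinv K b).fst + TrivSqZeroExt.inr (dγinv K b).snd :=
    (TrivSqZeroExt.inl_fst_add_inr_snd_eq _).symm
  have h2 : (TrivSqZeroExt.inr (dγinv K b).snd : TrivSqZeroExt K K) =
      TrivSqZeroExt.inl (dγinv K b).snd * TrivSqZeroExt.inr 1 := by
    rw [TrivSqZeroExt.inl_mul_inr, smul_eq_mul, mul_one]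
  rw [Algebra.smul_def, Algebra.smul_def, mul_one, algebraMap_Γ_eq, algebraMap_Γ_eq,
    ← dγ_algebraMap, ← dγ_algebraMap, dEps₀_eq, ← map_mul, ← map_add,
    TrivSqZeroExt.algebraMap_eq_inl]
  show b = dγ K (TrivSqZeroExt.inl (dγinv K b).fst +
    TrivSqZeroExt.inl (dγinv K b).snd * TrivSqZeroExt.inr 1)
  rw [← h2, ← h1, dγ_dγinv]

end Base

/-! ### Künneth over `K[ε]` -/

section Kunneth

variable {K : Type u} [Field K] {C : Scheme.{u}} (c : C ⟶ Spec (CommRingCat.of K))

attribute [local instance] dTKScheme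

/-- the `K`-scheme structure of `C`. -/
abbrev cKScheme : KScheme K C := ⟨c⟩

theorem dual_isPullback :
    IsPullback (dπ c) (dq c) (@KScheme.str K _ C (cKScheme c)) (@KScheme.str K _ (dT K) _) :=
  IsPullback.of_hasPullback c (dualStr K)

theorem kunβ_dEps₀ (U : C.Opens) :
    @kunβ C (dT K) (dX c) (dπ c) (dq c) U (dEps₀ K) = res (dπ c ⁻¹ᵁ U) le_top (dEps c) := by
  unfold kunβ dEps res Scheme.Hom.appLE Scheme.Hom.appTop
  rfl

theorem isAffineHom_dπ : IsAffineHom (dπ c) :=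
  MorphismProperty.IsStableUnderBaseChange.of_isPullback (P := @IsAffineHom)
    (IsPullback.of_hasPullback c (dualStr K)).flip inferInstance

theorem isFirstOrder_dual : IsFirstOrder (dπ c) (dEps c) where
  sq := by
    unfold dEps
    rw [← map_mul, dEps₀_sq, map_zero]
  affine U hU := by
    have := isAffineHom_dπ c
    exact hU.preimage (dπ c)
  decomp U hU f := by
    let _ := cKScheme c
    obtain ⟨a, b, hab⟩ := exists_tmul_decomp (A := Γ(C, U)) (dEps₀ K) (dP₁ K) (dP₂ K)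
      (eq_dP_smul K) ((kunneth (dual_isPullback c) hU).symm f)
    refine ⟨a, b, ?_⟩
    have h1 := congrArg (kunneth (dual_isPullback c) hU) hab
    rw [RingEquiv.apply_symm_apply, map_add, kunneth_one_tmul, kunneth_tmul, kunβ_dEps₀] at h1
    exact h1
  inj U hU a b hab := by
    let _ := cKScheme c
    apply eq_zero_of_tmul_decomp (A := Γ(C, U)) (dEps₀ K) (dP₁ K) (dP₂ K) (dP₁_one K)
      (dP₁_eps K) (dP₂_one K) (dP₂_eps K) a b
    apply (kunneth (dual_isPullback c) hU).injective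
    rw [map_add, kunneth_one_tmul, kunneth_tmul, kunβ_dEps₀, map_zero]
    exact hab

end Kunneth

/-! ### the closed fibre and the scaling -/

section Facts

variable {K : Type u} [Field K] {C : Scheme.{u}} (c : C ⟶ Spec (CommRingCat.of K))

attribute [local instance] dTKScheme

theorem dI_dπ : dI c ≫ dπ c = pullback.fst c (𝟙 _) := by
  simp only [dI, baseChangeSnd, pullback.lift_fst, Category.comp_id]

theorem dI_dq : dI c ≫ dq c = pullback.snd c (𝟙 _) ≫ dualPt K := by
  simp only [dI, baseChangeSnd, pullback.lift_snd]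
  rfl

theorem dS_dπ (a : K) : dS c a ≫ dπ c = dπ c := by
  simp only [dS, baseChangeSnd, pullback.lift_fst, Category.comp_id]

theorem dS_dq (a : K) : dS c a ≫ dq c = dq c ≫ dualScale K a := by
  simp only [dS, baseChangeSnd, pullback.lift_snd]
  rfl

theorem isIso_dI_dπ : IsIso (dI c ≫ dπ c) := by
  rw [dI_dπ]
  infer_instance

theorem appTop_dualPt_dEps₀ : (dualPt K).appTop.hom (dEps₀ K) = 0 := by
  rw [dEps₀_eq, dualPt_eq]
  have h := Scheme.ΓSpecIso_inv_naturality
    (CommRingCat.ofHom (TrivSqZeroExt.fstHom K K K).toRingHom)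
  have h2 := congrArg (fun f => f.hom (TrivSqZeroExt.inr (1 : K))) h
  beta_reduce at h2
  rw [CommRingCat.comp_apply, CommRingCat.comp_apply] at h2
  refine h2.symm.trans ?_
  have h3 : (CommRingCat.ofHom (TrivSqZeroExt.fstHom K K K).toRingHom).hom
      (TrivSqZeroExt.inr (1 : K)) = 0 := TrivSqZeroExt.fst_inr K (1 : K)
  rw [h3, map_zero]

theorem appTop_dualScale_dEps₀ (a : K) :
    (dualScale K a).appTop.hom (dEps₀ K) = kToΓ K (dT K) ⊤ a * dEps₀ K := by
  rw [dEps₀_eq, dualScale_eq, ← dγ_algebraMap, ← map_mul]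
  have h := Scheme.ΓSpecIso_inv_naturality
    (CommRingCat.ofHom (TrivSqZeroExt.map (a • (LinearMap.id : K →ₗ[K] K))).toRingHom)
  have h2 := congrArg (fun f => f.hom (TrivSqZeroExt.inr (1 : K))) h
  beta_reduce at h2
  rw [CommRingCat.comp_apply, CommRingCat.comp_apply] at h2
  refine h2.symm.trans ?_
  have h3 : (CommRingCat.ofHom (TrivSqZeroExt.map (a • (LinearMap.id : K →ₗ[K] K))).toRingHom).hom
      (TrivSqZeroExt.inr (1 : K)) =
      algebraMap K (TrivSqZeroExt K K) a * TrivSqZeroExt.inr 1 := by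
    show TrivSqZeroExt.map (a • (LinearMap.id : K →ₗ[K] K)) (TrivSqZeroExt.inr (1 : K)) = _
    rw [TrivSqZeroExt.map_inr, TrivSqZeroExt.algebraMap_eq_inl, TrivSqZeroExt.inl_mul_inr]
    rfl
  rw [h3]
  rfl

theorem eps_dI : (dI c).appTop.hom (dEps c) = 0 := by
  unfold dEps
  rw [← CommRingCat.comp_apply, ← Scheme.Hom.comp_appTop, dI_dq, Scheme.Hom.comp_appTop,
    CommRingCat.comp_apply, appTop_dualPt_dEps₀, map_zero]

theorem surjective_dI : Function.Surjective (dI c) := by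
  have hpb : IsPullback (dI c) (pullback.snd c (𝟙 _)) (dq c) (dualPt K) :=
    isPullback_baseChangeSnd c (dualPtOver K)
  have h1 : Surjective (dualPt K) := ⟨redT_surjective K K⟩
  have h2 : Surjective (dI c) :=
    MorphismProperty.IsStableUnderBaseChange.of_isPullback (P := @Surjective) hpb.flip h1
  exact h2.surj

theorem dq_kToΓ (a : K) :
    (dq c).appTop.hom (kToΓ K (dT K) ⊤ a) = (dπ c).appTop.hom (sectionsStrMap c ⊤ a) := by
  let _ : KScheme K C := cKScheme c
  let _ : KScheme K (dX c) := ⟨dπ c ≫ c⟩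
  have h1 := app_kToΓ (K := K) (dq c) (pullback.condition (f := c) (g := dualStr K)).symm ⊤ a
  have h2 := app_kToΓ (K := K) (dπ c) rfl ⊤ a
  exact h1.trans h2.symm

theorem eps_dS (a : K) : (dS c a).appTop.hom (dEps c) =
    dEps c * (dπ c).appTop.hom (sectionsStrMap c ⊤ a) := by
  unfold dEps
  rw [← CommRingCat.comp_apply, ← Scheme.Hom.comp_appTop, dS_dq, Scheme.Hom.comp_appTop,
    CommRingCat.comp_apply, appTop_dualScale_dEps₀, map_mul, dq_kToΓ, mul_comm]

/-- **the facts about `C[ε]`.** -/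
theorem dualFacts : DualFacts c where
  firstOrder := isFirstOrder_dual c
  isIso := isIso_dI_dπ c
  eps_dI := eps_dI c
  surj := surjective_dI c
  dS_dπ := dS_dπ c
  eps_dS := eps_dS c

end Facts

end

end Fermat.Agent.JAC.DIM
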