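/-
PROJECT JAC (S27, DIM) — helper3 — **the tangent space of the Jacobian, on the Picard side.**

For `h : LBRepresentsCond c ε (LBCond.degZero c) D`:

* `isTrivial_of_isLocalRing` : cocycles on the spectrum of a local ring are trivial;
* `exists_factor_dualPt` : field-valued points of `Spec K[ε]` factor through the closed point;
* `picCut_of_map_dI_eq_zero` : classes on `C[ε]` which are trivial on `C` are rigidified and
  fibrewise of degree zero;
* `tanCls h x : PicGroup (dX c)` : the class on `C[ε]` attached to a tangent vector `x` of `J` at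
  the origin, with `map_dI_tanCls`, `tanCls_injective`, `exists_tanCls_eq`, `tanCls_mul`,
  `tanCls_scale`.
-/
import Mathlib
import Fermat.Agent.JAC.DIM_helper3_Dual
import Fermat.Agent.JAC.GRP_helper1_GroupLaw
import Fermat.Agent.JAC.J8_helper4_Cond

set_option autoImplicit false

open AlgebraicGeometry CategoryTheory CategoryTheory.Limits Opposite TopologicalSpace
  AlgebraicGeometry.RelPicard NeronModelInfra GoodReductionJacobian

universe u

namespace Fermat.Agent.JAC.DIM

open Fermat.Agent.AV Fermat.Agent.JAC Fermat.Agent.JAC.TAN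

noncomputable section

/-- cocycles on the spectrum of a local ring are trivial. -/
theorem isTrivial_of_isLocalRing {R : Type u} [CommRing R] [IsLocalRing R]
    (N : LB (Spec (CommRingCat.of R))) : N.IsTrivial := by
  have hx : (IsLocalRing.closedPoint R : Spec (CommRingCat.of R)) ∈
      (⊤ : (Spec (CommRingCat.of R)).Opens) := trivial
  rw [← N.iSup_U] at hx
  obtain ⟨j, hj⟩ := Opens.mem_iSup.mp hx
  exact N.isTrivial_of_chart_eq_top j (IsLocalRing.closed_point_mem_iff.mp hj)

variable {K : Type u} [Field K]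

/-- field-valued points of `Spec K[ε]` factor through the closed point. -/
theorem exists_factor_dualPt (k' : Type u) [Field k']
    (s : Spec (CommRingCat.of k') ⟶ Spec (CommRingCat.of (TrivSqZeroExt K K))) :
    ∃ s' : Spec (CommRingCat.of k') ⟶ Spec (CommRingCat.of K), s' ≫ dualPt K = s := by
  let φ : TrivSqZeroExt K K →+* k' := (Spec.preimage s).hom
  have hφ : ∀ x : TrivSqZeroExt K K, φ (TrivSqZeroExt.inl x.fst) = φ x := by
    intro x
    have h1 : x = TrivSqZeroExt.inl x.fst + TrivSqZeroExt.inr x.snd :=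
      (TrivSqZeroExt.inl_fst_add_inr_snd_eq x).symm
    have h2 : φ (TrivSqZeroExt.inr x.snd) = 0 := by
      have h3 : φ (TrivSqZeroExt.inr x.snd) * φ (TrivSqZeroExt.inr x.snd) = 0 := by
        rw [← map_mul, TrivSqZeroExt.inr_mul_inr, map_zero]
      exact mul_self_eq_zero.mp h3
    conv_rhs => rw [h1, map_add, h2, add_zero]
  refine ⟨Spec.map (CommRingCat.ofHom (φ.comp (TrivSqZeroExt.inlHom K K))), ?_⟩
  rw [dualPt_eq, ← Spec.map_comp, ← CommRingCat.ofHom_comp]
  have h4 : (φ.comp (TrivSqZeroExt.inlHom K K)).comp (TrivSqZeroExt.fstHom K K K).toRingHom =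
      φ := RingHom.ext fun x => hφ x
  rw [h4]
  exact Spec.map_preimage s

variable {C : Scheme.{u}} (c : C ⟶ Spec (CommRingCat.of K)) [IsProper c]
  [SmoothOfRelativeDimension 1 c] (ε : SchemeHomOver (𝟙 (Spec (CommRingCat.of K))) c)

/-- classes on `C[ε]` which are trivial on `C` lie in the cut. -/
theorem picCut_of_map_dI_eq_zero (y : PicGroup (dX c)) (hy : PicGroup.map (dI c) y = 0) :
    PicCut c ε (LBCond.degZero c) (dualStr K) y := by
  obtain ⟨M, rfl⟩ := PicGroup.mk_surjective y
  rw [picCut_mk_iff]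
  refine ⟨isTrivial_of_isLocalRing _, ?_⟩
  refine LBFibrewiseDegZero.of_forall_factor c (dualStr K) M ?_
  intro k' _ _ s
  obtain ⟨s', hs'⟩ := exists_factor_dualPt k' s
  refine ⟨Spec (CommRingCat.of K), 𝟙 _, dualPtOver K, s', hs', ?_⟩
  apply LBFibrewiseDegZero.of_isTrivial
  rw [PicGroup.map_mk, PicGroup.mk_eq_zero_iff] at hy
  exact hy

variable {c ε} {D : RelativePic0Designation K c}
  (h : LBRepresentsCond c ε (LBCond.degZero c) D)

/-- the class on `C[ε]` of a tangent vector of `J` at the origin. -/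
def tanCls (x : TangentPt D.toBase h.groupLaw) : PicGroup (dX c) :=
  (h.cls (dualStr K) x.1).cls

theorem map_dI_tanCls (x : TangentPt D.toBase h.groupLaw) :
    PicGroup.map (dI c) (tanCls h x) = 0 := by
  have h1 := h.cls_comp (dualStr K) (𝟙 _) (dualPt K) (dualPt_dualStr K) x.1
  rw [x.2] at h1
  have h2 : h.cls (𝟙 _) (h.groupLaw.one (𝟙 _)) = 1 := h.equiv_one (𝟙 _)
  rw [h2] at h1
  have h3 := congrArg PicObj.cls h1
  rw [PicObj.cls_one, PicObj.cls_map] at h3
  exact h3.symm

theorem tanCls_injective : Function.Injective (tanCls h) := by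
  intro x y hxy
  apply Subtype.ext
  apply (h.cls_bijective (dualStr K)).1
  exact PicObj.ext hxy

theorem exists_tanCls_eq (y : PicGroup (dX c)) (hy : PicGroup.map (dI c) y = 0) :
    ∃ x : TangentPt D.toBase h.groupLaw, tanCls h x = y := by
  have hcut := picCut_of_map_dI_eq_zero c ε y hy
  obtain ⟨g, hg⟩ := (h.cls_bijective (dualStr K)).2
    (PicObj.ofCls (T := Over.mk (dualStr K)) y hcut)
  refine ⟨⟨g, ?_⟩, ?_⟩
  · apply (h.equiv (𝟙 _)).injective
    rw [h.equiv_one, h.equiv_apply, h.cls_comp (dualStr K) (𝟙 _) (dualPt K) (dualPt_dualStr K) g,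
      hg]
    apply PicObj.ext
    rw [PicObj.cls_map, PicObj.cls_ofCls, PicObj.cls_one]
    exact hy
  · show (h.cls (dualStr K) g).cls = y
    rw [hg, PicObj.cls_ofCls]

theorem tanCls_mul (x y : TangentPt D.toBase h.groupLaw) :
    tanCls h (x.mul y) = tanCls h x + tanCls h y := by
  show (h.cls (dualStr K) (h.groupLaw.mul (dualStr K) x.1 y.1)).cls = _
  have h1 := h.equiv_mul (dualStr K) x.1 y.1
  rw [h.equiv_apply, h.equiv_apply, h.equiv_apply] at h1
  rw [h1, PicObj.cls_mul]
  rfl

theorem tanCls_scale (a : K) (x : TangentPt D.toBase h.groupLaw) :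
    tanCls h (x.scale a) = PicGroup.map (dS c a) (tanCls h x) := by
  show (h.cls (dualStr K)
    (schemeHomOverComp (dualScale K a) (dualScale_dualStr K a) x.1)).cls = _
  rw [h.cls_comp (dualStr K) (dualStr K) (dualScale K a) (dualScale_dualStr K a) x.1,
    PicObj.cls_map]
  rfl

end

end Fermat.Agent.JAC.DIM
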