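/-
PROJECT JAC (S27, DIM) — helper3 — **the tangent space of the Jacobian at the origin is the Čech
`H¹(C, O)` of a two-affine cover**, and the relative dimension of the Jacobian.

For `h : LBRepresentsCond c ε (LBCond.degZero c) D`, the facts `hD : DualFacts c` about `C[ε]`,
a cover `U₀ ⊔ U₁ = ⊤` of `C` by affine opens with affine intersection, and
`B = Γ(U₀)| + Γ(U₁)| ⊆ Γ(U₀ ⊓ U₁)`:

* `tanEquiv : TangentPt D.toBase h.groupLaw ≃ Γ(C, U₀ ⊓ U₁) ⧸ B`, with `tanEquiv_mul`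
  (group law ↦ `+`) and `tanEquiv_scale` (`ε ↦ aε` ↦ `a • ·`);
* **`smoothOfRelativeDimension_finrank_cech`** :
  `SmoothOfRelativeDimension (finrank K (Γ(C, U₀ ⊓ U₁) ⧸ B)) D.toBase`.
-/
import Mathlib
import Fermat.Agent.JAC.DIM_helper3_PicSide

set_option autoImplicit false

open AlgebraicGeometry CategoryTheory CategoryTheory.Limits Opposite TopologicalSpace
  AlgebraicGeometry.RelPicard NeronModelInfra GoodReductionJacobian

universe u

namespace Fermat.Agent.JAC.DIM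

open Fermat.Agent.AV Fermat.Agent.JAC Fermat.Agent.JAC.TAN

noncomputable section

variable {K : Type u} [Field K] {C : Scheme.{u}} {c : C ⟶ Spec (CommRingCat.of K)} [IsProper c]
  [SmoothOfRelativeDimension 1 c] {ε : SchemeHomOver (𝟙 (Spec (CommRingCat.of K))) c}
  {D : RelativePic0Designation K c} (h : LBRepresentsCond c ε (LBCond.degZero c) D)
  (hD : DualFacts c) {U₀ U₁ : C.Opens} (hcov : U₀ ⊔ U₁ = ⊤) (h₀ : IsAffineOpen U₀)
  (h₁ : IsAffineOpen U₁) (h₀₁ : IsAffineOpen (U₀ ⊓ U₁))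

omit [IsProper c] [SmoothOfRelativeDimension 1 c] in
/-- restriction of constants. -/
theorem res_sectionsStrMap_const {U W : C.Opens} (hWU : W ≤ U) (k : K) :
    res W hWU (sectionsStrMap c U k) = sectionsStrMap c W k := by
  simp only [sectionsStrMap, RingHom.comp_apply]
  have := Scheme.Hom.appLE_map c (U := ⊤) (V := U) (V' := W) (fun _ _ => trivial) (homOfLE hWU).op
  exact congr($(this).hom _)

omit [IsProper c] [SmoothOfRelativeDimension 1 c] in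
/-- the map `θ` for `C[ε]`. -/
def dθ : Γ(C, U₀ ⊓ U₁) →+ PicGroup (dX c) := θ (dπ c) (dEps c) hD.firstOrder.sq hcov

include h₀ h₁ h₀₁ in
theorem exists_dθ_eq_tanCls (x : TangentPt D.toBase h.groupLaw) :
    ∃ a, dθ hD hcov a = tanCls h x := by
  have := hD.isIso
  exact (map_eq_zero_iff_mem_range_θ hD.firstOrder hcov h₀ h₁ h₀₁ (dI c) hD.eps_dI hD.surj _).mp
    (map_dI_tanCls h x)

/-- a Čech cocycle representing a tangent vector. -/
def tanCoord (x : TangentPt D.toBase h.groupLaw) : Γ(C, U₀ ⊓ U₁) :=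
  (exists_dθ_eq_tanCls h hD hcov h₀ h₁ h₀₁ x).choose

theorem dθ_tanCoord (x : TangentPt D.toBase h.groupLaw) :
    dθ hD hcov (tanCoord h hD hcov h₀ h₁ h₀₁ x) = tanCls h x :=
  (exists_dθ_eq_tanCls h hD hcov h₀ h₁ h₀₁ x).choose_spec

variable [Module K Γ(C, U₀ ⊓ U₁)]
  (hsmul : ∀ (a : K) (r : Γ(C, U₀ ⊓ U₁)), a • r = sectionsStrMap c (U₀ ⊓ U₁) a * r)
  (B : Submodule K Γ(C, U₀ ⊓ U₁))
  (hB : ∀ r, r ∈ B ↔ ∃ (r₀ : Γ(C, U₀)) (r₁ : Γ(C, U₁)),
    r = res (U₀ ⊓ U₁) inf_le_left r₀ + res (U₀ ⊓ U₁) inf_le_right r₁)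

omit [IsProper c] [SmoothOfRelativeDimension 1 c] in
include h₀ h₁ h₀₁ hB in
theorem mk_eq_mk_iff_dθ (a b : Γ(C, U₀ ⊓ U₁)) :
    (Submodule.Quotient.mk a : Γ(C, U₀ ⊓ U₁) ⧸ B) = Submodule.Quotient.mk b ↔
      dθ hD hcov a = dθ hD hcov b := by
  rw [Submodule.Quotient.eq, hB, ← mem_cobdry,
    ← θ_eq_zero_iff hD.firstOrder hcov h₀ h₁ h₀₁, map_sub, sub_eq_zero]
  rfl

/-- the coordinate of a tangent vector in the Čech `H¹`. -/
def tanFun (x : TangentPt D.toBase h.groupLaw) : Γ(C, U₀ ⊓ U₁) ⧸ B :=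
  Submodule.Quotient.mk (tanCoord h hD hcov h₀ h₁ h₀₁ x)

include hB in
theorem tanFun_eq_of (x : TangentPt D.toBase h.groupLaw) (a : Γ(C, U₀ ⊓ U₁))
    (ha : dθ hD hcov a = tanCls h x) :
    tanFun h hD hcov h₀ h₁ h₀₁ B x = Submodule.Quotient.mk a := by
  unfold tanFun
  rw [mk_eq_mk_iff_dθ hD hcov h₀ h₁ h₀₁ B hB, dθ_tanCoord, ha]

include hB in
theorem tanFun_bijective : Function.Bijective (tanFun h hD hcov h₀ h₁ h₀₁ B) := by
  constructor
  · intro x y hxy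
    unfold tanFun at hxy
    rw [mk_eq_mk_iff_dθ hD hcov h₀ h₁ h₀₁ B hB, dθ_tanCoord, dθ_tanCoord] at hxy
    exact tanCls_injective h hxy
  · intro q
    obtain ⟨a, rfl⟩ := Submodule.Quotient.mk_surjective B q
    have := hD.isIso
    obtain ⟨x, hx⟩ := exists_tanCls_eq h (dθ hD hcov a)
      (map_θ_eq_zero (dI c) hD.eps_dI hD.firstOrder.sq hcov a)
    exact ⟨x, tanFun_eq_of h hD hcov h₀ h₁ h₀₁ B hB x a hx.symm⟩

/-- **the tangent space of the Jacobian at the origin is the Čech `H¹(C, O)`.** -/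
def tanEquiv : TangentPt D.toBase h.groupLaw ≃ (Γ(C, U₀ ⊓ U₁) ⧸ B) :=
  Equiv.ofBijective (tanFun h hD hcov h₀ h₁ h₀₁ B) (tanFun_bijective h hD hcov h₀ h₁ h₀₁ B hB)

theorem tanEquiv_apply (x : TangentPt D.toBase h.groupLaw) :
    tanEquiv h hD hcov h₀ h₁ h₀₁ B hB x = tanFun h hD hcov h₀ h₁ h₀₁ B x := rfl

theorem tanEquiv_mul (x y : TangentPt D.toBase h.groupLaw) :
    tanEquiv h hD hcov h₀ h₁ h₀₁ B hB (x.mul y) =
      tanEquiv h hD hcov h₀ h₁ h₀₁ B hB x + tanEquiv h hD hcov h₀ h₁ h₀₁ B hB y := by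
  rw [tanEquiv_apply, tanEquiv_apply, tanEquiv_apply]
  rw [tanFun_eq_of h hD hcov h₀ h₁ h₀₁ B hB (x.mul y)
    (tanCoord h hD hcov h₀ h₁ h₀₁ x + tanCoord h hD hcov h₀ h₁ h₀₁ y)
    (by rw [map_add, dθ_tanCoord, dθ_tanCoord, tanCls_mul])]
  rfl

include hsmul in
theorem tanEquiv_scale (a : K) (x : TangentPt D.toBase h.groupLaw) :
    tanEquiv h hD hcov h₀ h₁ h₀₁ B hB (x.scale a) =
      a • tanEquiv h hD hcov h₀ h₁ h₀₁ B hB x := by
  rw [tanEquiv_apply, tanEquiv_apply]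
  rw [tanFun_eq_of h hD hcov h₀ h₁ h₀₁ B hB (x.scale a)
    (a • tanCoord h hD hcov h₀ h₁ h₀₁ x) ?_]
  · rfl
  · rw [tanCls_scale, ← dθ_tanCoord h hD hcov h₀ h₁ h₀₁ x, hsmul,
      ← res_sectionsStrMap_const (c := c) (le_top : U₀ ⊓ U₁ ≤ ⊤) a]
    exact (map_θ_of_scale (dS c a) (dπ c) (hD.dS_dπ a) (dEps c) hD.firstOrder.sq
      hD.firstOrder.sq hcov (sectionsStrMap c ⊤ a) (hD.eps_dS a) _).symm

include hsmul hB h hD hcov h₀ h₁ h₀₁ in
/-- **(DIM)**: the Jacobian is smooth of relative dimension `dim_K H¹(C, O)` (Čech, for a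
two-affine cover). -/
theorem smoothOfRelativeDimension_finrank_cech [Smooth D.toBase] [ConnectedSpace D.P] :
    SmoothOfRelativeDimension (Module.finrank K (Γ(C, U₀ ⊓ U₁) ⧸ B)) D.toBase :=
  TAN.smoothOfRelativeDimension_finrank K D.toBase h.groupLaw
    (tanEquiv h hD hcov h₀ h₁ h₀₁ B hB) (tanEquiv_mul h hD hcov h₀ h₁ h₀₁ B hB)
    (tanEquiv_scale h hD hcov h₀ h₁ h₀₁ hsmul B hB)

end

end Fermat.Agent.JAC.DIM
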