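/-
PROJECT JAC (S25) — helper2: **Mittag-Leffler at one point from Riemann–Roch** on a prime divisor
system with Riemann–Roch data (`PDS.RRData`), `K` algebraically closed.

* `RRData.RRSpace_sup_eq` : for `deg D > 2g - 2` and effective `A`, `B` with disjoint supports,
  `L(D + A) + L(D + B) = L(D + A + B)` (dimension count from Riemann's theorem);
* **`RRData.exists_mittagLeffler`** : for `deg D > 2g - 2`, a point `p` and ANY `f : F` there is
  `a : F` with `ord_q a ≥ -D q` for all `q ≠ p` and `ord_p (f - a) ≥ -D p`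
  (= vanishing of the Čech `H¹` of `O(D)` for the cover `{X ∖ p, any neighbourhood of p}`);
* **`RRData.exists_strongApprox`** : strong approximation = vanishing of the adelic `H¹(D)` for
  `deg D > 2g - 2`.
-/
import Mathlib
import Fermat.Agent.JAC.CURVE_helper2_RRAbs

set_option autoImplicit false
set_option linter.style.haveILetI false
set_option linter.unusedSectionVars false

open Module

universe u v w

namespace Fermat.Agent.AV

namespace PDS

namespace RRData

variable {K : Type u} {F : Type v} [Field K] [Field F] [Algebra K F] {S : PDS.{u, v, w} K F}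
  [IsAlgClosed K] (R : S.RRData)

include R in
/-- for `deg D > 2g - 2` and effective divisors `A`, `B` with disjoint supports,
`L(D + A) + L(D + B) = L(D + A + B)`. -/
theorem RRSpace_sup_eq {D A B : S.ι → ℤ} (hD : (Function.support D).Finite)
    (hA : (Function.support A).Finite) (hB : (Function.support B).Finite)
    (hA0 : ∀ q, 0 ≤ A q) (hB0 : ∀ q, 0 ≤ B q) (hdisj : ∀ q, A q = 0 ∨ B q = 0)
    (hdeg : 2 * (R.g : ℤ) - 2 < S.deg D) :
    S.RRSpace (D + A) ⊔ S.RRSpace (D + B) = S.RRSpace (D + A + B) := by
  have hDA := S.support_add_finite hD hA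
  have hDB := S.support_add_finite hD hB
  have hDAB := S.support_add_finite hDA hB
  haveI := R.finite _ hD
  haveI := R.finite _ hDA
  haveI := R.finite _ hDB
  haveI := R.finite _ hDAB
  have dA : 0 ≤ S.deg A := deg_nonneg hA0
  have dB : 0 ≤ S.deg B := deg_nonneg hB0
  have e0 := R.ell_eq_of_lt_deg hD hdeg
  have e1 := R.ell_eq_of_lt_deg hDA (by rw [S.deg_add hD hA]; linarith)
  have e2 := R.ell_eq_of_lt_deg hDB (by rw [S.deg_add hD hB]; linarith)
  have e3 := R.ell_eq_of_lt_deg hDAB (by rw [S.deg_add hDA hB, S.deg_add hD hA]; linarith)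
  rw [S.deg_add hD hA] at e1
  rw [S.deg_add hD hB] at e2
  rw [S.deg_add hDA hB, S.deg_add hD hA] at e3
  have hle : S.RRSpace (D + A) ⊔ S.RRSpace (D + B) ≤ S.RRSpace (D + A + B) := by
    refine sup_le (S.RRSpace_mono fun q => ?_) (S.RRSpace_mono fun q => ?_)
    · simp only [Pi.add_apply]; linarith [hB0 q]
    · simp only [Pi.add_apply]; linarith [hA0 q]
  have hinf : S.RRSpace (D + A) ⊓ S.RRSpace (D + B) ≤ S.RRSpace D := by
    rintro x ⟨h1, h2⟩ q
    rcases hdisj q with h | h
    · have := h1 q
      simpa only [Pi.add_apply, h, add_zero] using this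
    · have := h2 q
      simpa only [Pi.add_apply, h, add_zero] using this
  have hdim := Submodule.finrank_sup_add_finrank_inf_eq (S.RRSpace (D + A)) (S.RRSpace (D + B))
  have hinf' : finrank K ↥(S.RRSpace (D + A) ⊓ S.RRSpace (D + B)) ≤ S.ell D :=
    Submodule.finrank_mono hinf
  refine Submodule.eq_of_le_of_finrank_le hle ?_
  have hdim' : (finrank K ↥(S.RRSpace (D + A) ⊔ S.RRSpace (D + B)) : ℤ) +
      finrank K ↥(S.RRSpace (D + A) ⊓ S.RRSpace (D + B)) =
      (S.ell (D + A) : ℤ) + S.ell (D + B) := by exact_mod_cast hdim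
  have hinf'' : (finrank K ↥(S.RRSpace (D + A) ⊓ S.RRSpace (D + B)) : ℤ) ≤ S.ell D := by
    exact_mod_cast hinf'
  have : (finrank K ↥(S.RRSpace (D + A + B)) : ℤ) ≤
      finrank K ↥(S.RRSpace (D + A) ⊔ S.RRSpace (D + B)) := by
    have e3' : (finrank K ↥(S.RRSpace (D + A + B)) : ℤ) = S.deg D + S.deg A + S.deg B + 1 - R.g :=
      e3
    linarith
  exact_mod_cast this

open Classical in
include R in
/-- **Mittag-Leffler at one point**: for `deg D > 2g - 2`, every function `f` is, up to a function
`a` which is `D`-regular away from `p`, `D`-regular at `p`. -/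
theorem exists_mittagLeffler {D : S.ι → ℤ} (hD : (Function.support D).Finite)
    (hdeg : 2 * (R.g : ℤ) - 2 < S.deg D) (p : S.ι) (f : F) :
    ∃ a : F, (∀ q, q ≠ p → ((-(D q) : ℤ) : WithTop ℤ) ≤ S.ord q a) ∧
      ((-(D p) : ℤ) : WithTop ℤ) ≤ S.ord p (f - a) := by
  by_cases hf : f = 0
  · refine ⟨0, fun q _ => ?_, ?_⟩
    · rw [(S.ord q).map_zero]; exact le_top
    · rw [hf, sub_zero, (S.ord p).map_zero]; exact le_top
  set A : S.ι → ℤ := fun q => if q = p then max 0 (-(D q) - S.ordZ q f) else 0 with hAdef
  set B : S.ι → ℤ := fun q => if q = p then 0 else max 0 (-(D q) - S.ordZ q f) with hBdef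
  have hA : (Function.support A).Finite := by
    refine (Set.finite_singleton p).subset fun q hq => ?_
    by_contra hne
    exact hq (if_neg hne)
  have hB : (Function.support B).Finite := by
    refine (hD.union (S.finite_support_divOf hf)).subset fun q hq => ?_
    by_contra hnot
    rw [Set.mem_union, not_or, Function.mem_support, Function.mem_support, not_not, not_not,
      divOf_apply] at hnot
    apply hq
    simp only [hBdef]
    split_ifs
    · rfl
    · rw [hnot.1, hnot.2]; simp
  have hA0 : ∀ q, 0 ≤ A q := fun q => by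
    simp only [hAdef]; split_ifs
    · exact le_max_left _ _
    · exact le_rfl
  have hB0 : ∀ q, 0 ≤ B q := fun q => by
    simp only [hBdef]; split_ifs
    · exact le_rfl
    · exact le_max_left _ _
  have hdisj : ∀ q, A q = 0 ∨ B q = 0 := fun q => by
    by_cases hq : q = p
    · right; simp only [hBdef]; exact if_pos hq
    · left; simp only [hAdef]; exact if_neg hq
  have hfE : f ∈ S.RRSpace (D + A + B) := by
    rw [mem_RRSpace_iff_ordZ hf]
    intro q
    simp only [Pi.add_apply, hAdef, hBdef]
    split_ifs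
    · have := le_max_right 0 (-(D q) - S.ordZ q f); linarith
    · have := le_max_right 0 (-(D q) - S.ordZ q f); linarith
  rw [← R.RRSpace_sup_eq hD hA hB hA0 hB0 hdisj hdeg] at hfE
  obtain ⟨a, ha, b, hb, hab⟩ := Submodule.mem_sup.1 hfE
  refine ⟨a, fun q hq => ?_, ?_⟩
  · have h := ha q
    have hAq : A q = 0 := if_neg hq
    simpa only [Pi.add_apply, hAq, add_zero] using h
  · have h := hb p
    have hBp : B p = 0 := if_pos rfl
    have hfa : f - a = b := by rw [← hab]; ring
    rw [hfa]
    simpa only [Pi.add_apply, hBp, add_zero] using h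

open Classical in
include R in
/-- **strong approximation** (vanishing of the adelic `H¹(D)`) for `deg D > 2g - 2`: prescribed
principal parts `β q` (relative to `D`) at finitely many points, `D`-regular elsewhere. -/
theorem exists_strongApprox {D : S.ι → ℤ} (hD : (Function.support D).Finite)
    (hdeg : 2 * (R.g : ℤ) - 2 < S.deg D) (T : Finset S.ι) (β : S.ι → F) :
    ∃ f : F, (∀ q ∈ T, ((-(D q) : ℤ) : WithTop ℤ) ≤ S.ord q (f - β q)) ∧
      (∀ q, q ∉ T → ((-(D q) : ℤ) : WithTop ℤ) ≤ S.ord q f) := by
  induction T using Finset.induction_on with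
  | empty =>
    refine ⟨0, fun q hq => absurd hq (Finset.notMem_empty q), fun q _ => ?_⟩
    rw [(S.ord q).map_zero]; exact le_top
  | insert p T' hp ih =>
    obtain ⟨f', h1, h2⟩ := ih
    obtain ⟨a, ha1, ha2⟩ := R.exists_mittagLeffler hD hdeg p (β p - f')
    refine ⟨f' + a, fun q hq => ?_, fun q hq => ?_⟩
    · rcases Finset.mem_insert.1 hq with rfl | hq'
      · have e1 : f' + a - β q = -(β q - f' - a) := by ring
        rw [e1, (S.ord q).map_neg]
        exact ha2
      · have hne : q ≠ p := fun h => hp (h ▸ hq')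
        have e1 : f' + a - β q = (f' - β q) + a := by ring
        rw [e1]
        exact (S.ord q).map_le_add (h1 q hq') (ha1 q hne)
    · rw [Finset.mem_insert, not_or] at hq
      exact (S.ord q).map_le_add (h2 q hq.2) (ha1 q hq.1)

end RRData

end PDS

end Fermat.Agent.AV
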