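/-
PROJECT JAC (S27, brick GENUS) — helper2: **the adelic `H¹(0)` of the Prelude is the Čech `H¹` of
any two-set cover**, on a prime divisor system with Riemann–Roch data whose prime divisors are the
places (`K` algebraically closed).

`S : PDS K F`, `e : S.ι ≃ Place K F` with `(e p).ord f = S.ordZ p f` (the hypotheses of
`PDS.nonempty_rrData_of_equiv`; on a curve: `placeEquiv`), `R : S.RRData`.
* `PDS.regOff Z : Submodule K F` : the functions without poles outside `Z`;
* `finite_poles_of_mem_repartitions` : a repartition has finitely many poles;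
* `adeleL e Z hZ : F →ₗ[K] repartitions K F` : `r ↦ (r at the places of Z, 0 elsewhere)`;
* **`nonempty_regOff_quotient_equiv_H1`** : for finite disjoint nonempty `Z₀`, `Z₁`,
  `regOff (Z₀ ∪ Z₁) ⧸ (regOff Z₀ + regOff Z₁) ≃ₗ[K] H1 (0 : Divisor K F)`;
* **`genusFF_eq_finrank_regOff`**.
Surjectivity is strong approximation (`RRData.exists_strongApprox`, from Riemann–Roch).
-/
import Mathlib
import Fermat.Agent.JAC.CURVE_helper2_ML
import Fermat.Agent.JAC.CURVE_helper2_RRTransfer

set_option autoImplicit false
set_option linter.style.haveILetI false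
set_option linter.unusedSectionVars false

open AlgebraicCurve Module

universe u v w

namespace Fermat.Agent.AV

namespace PDS

variable {K : Type u} {F : Type v} [Field K] [Field F] [Algebra K F] (S : PDS.{u, v, w} K F)

/-- the functions without poles outside the set `Z` of prime divisors. -/
def regOff (Z : Set S.ι) : Submodule K F where
  carrier := {f | ∀ p, p ∉ Z → 0 ≤ S.ord p f}
  add_mem' := fun ha hb p hp => (S.ord p).map_le_add (ha p hp) (hb p hp)
  zero_mem' := fun p _ => by rw [(S.ord p).map_zero]; exact le_top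
  smul_mem' := by
    intro c f hf p hp
    by_cases hc : c = 0
    · subst hc
      rw [zero_smul, (S.ord p).map_zero]
      exact le_top
    · rw [Algebra.smul_def, (S.ord p).map_mul, S.ord_algebraMap p c hc, zero_add]
      exact hf p hp

theorem mem_regOff {Z : Set S.ι} {f : F} : f ∈ S.regOff Z ↔ ∀ p, p ∉ Z → 0 ≤ S.ord p f := Iff.rfl

theorem regOff_mono {Z Z' : Set S.ι} (h : Z ⊆ Z') : S.regOff Z ≤ S.regOff Z' :=
  fun _ hf p hp => hf p (fun hpZ => hp (h hpZ))

variable {S} (e : S.ι ≃ Place K F)
  (he : ∀ (p : S.ι) (f : F), f ≠ 0 → (e p).ord f = S.ordZ p f)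

include he in
/-- regularity at a place, in the two languages. -/
theorem adicValuation_le_one_iff_of_equiv (p : S.ι) (f : F) :
    (e p).adicValuation f ≤ 1 ↔ 0 ≤ S.ord p f := by
  by_cases hf : f = 0
  · subst hf
    simp [(S.ord p).map_zero]
  · rw [(e p).adicValuation_le_one_iff, or_iff_right hf, he p f hf, S.ord_eq_coe_ordZ p hf]
    exact_mod_cast Iff.rfl

include he in
theorem adicValuation_le_one_iff_of_equiv' (v : Place K F) (f : F) :
    v.adicValuation f ≤ 1 ↔ 0 ≤ S.ord (e.symm v) f := by
  rw [← adicValuation_le_one_iff_of_equiv e he, e.apply_symm_apply]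

include he in
/-- a function has finitely many poles. -/
theorem finite_poles_of_equiv (f : F) : {v : Place K F | ¬ v.adicValuation f ≤ 1}.Finite := by
  by_cases hf : f = 0
  · subst hf
    simp
  · refine ((S.finite_support f hf).image e).subset ?_
    intro v hv
    refine ⟨e.symm v, ?_, e.apply_symm_apply v⟩
    intro h0
    apply hv
    rw [adicValuation_le_one_iff_of_equiv' e he, h0]

include he in
/-- **a repartition has finitely many poles.** -/
theorem finite_poles_of_mem_repartitions {α : Place K F → F} (hα : α ∈ repartitions K F) :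
    {v : Place K F | ¬ v.adicValuation (α v) ≤ 1}.Finite := by
  induction hα using Algebra.adjoin_induction with
  | mem x hx => exact hx
  | algebraMap f => exact finite_poles_of_equiv e he f
  | add x y _ _ hx hy =>
    refine (hx.union hy).subset ?_
    intro v hv
    by_contra h
    rw [Set.mem_union, not_or, Set.mem_ofPred_eq, Set.mem_ofPred_eq, not_not, not_not] at h
    exact hv ((Valuation.map_add _ _ _).trans (max_le h.1 h.2))
  | mul x y _ _ hx hy =>
    refine (hx.union hy).subset ?_
    intro v hv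
    by_contra h
    rw [Set.mem_union, not_or, Set.mem_ofPred_eq, Set.mem_ofPred_eq, not_not, not_not] at h
    apply hv
    show v.adicValuation (x v * y v) ≤ 1
    rw [map_mul]
    exact mul_le_one' h.1 h.2

open Classical in
/-- the repartition equal to `r` at the places of `Z` and to `0` elsewhere. -/
noncomputable def adeleFun (Z : Set S.ι) (r : F) : Place K F → F := fun v => if e.symm v ∈ Z then r else 0

theorem adeleFun_of_mem {Z : Set S.ι} (r : F) {v : Place K F} (h : e.symm v ∈ Z) :
    adeleFun e Z r v = r := if_pos h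

theorem adeleFun_of_notMem {Z : Set S.ι} (r : F) {v : Place K F} (h : e.symm v ∉ Z) :
    adeleFun e Z r v = 0 := if_neg h

theorem adeleFun_mem_repartitions {Z : Set S.ι} (hZ : Z.Finite) (r : F) :
    adeleFun e Z r ∈ repartitions K F := by
  refine mem_repartitions_of_finite ((hZ.image e).subset ?_)
  intro v hv
  by_contra hne
  apply hv
  have h : e.symm v ∉ Z := fun h => hne ⟨e.symm v, h, e.apply_symm_apply v⟩
  show v.adicValuation (adeleFun e Z r v) ≤ 1
  rw [adeleFun_of_notMem e r h, map_zero]
  exact zero_le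

/-- `r ↦ (r at the places of Z, 0 elsewhere)`, as a `K`-linear map into the repartitions. -/
noncomputable def adeleL {Z : Set S.ι} (hZ : Z.Finite) : F →ₗ[K] ↥(repartitions K F) where
  toFun r := ⟨adeleFun e Z r, adeleFun_mem_repartitions e hZ r⟩
  map_add' r r' := by
    apply Subtype.ext
    funext v
    show adeleFun e Z (r + r') v = adeleFun e Z r v + adeleFun e Z r' v
    by_cases h : e.symm v ∈ Z
    · rw [adeleFun_of_mem e _ h, adeleFun_of_mem e _ h, adeleFun_of_mem e _ h]
    · rw [adeleFun_of_notMem e _ h, adeleFun_of_notMem e _ h, adeleFun_of_notMem e _ h, add_zero]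
  map_smul' c r := by
    apply Subtype.ext
    funext v
    show adeleFun e Z (c • r) v = c • adeleFun e Z r v
    by_cases h : e.symm v ∈ Z
    · rw [adeleFun_of_mem e _ h, adeleFun_of_mem e _ h]
    · rw [adeleFun_of_notMem e _ h, adeleFun_of_notMem e _ h, smul_zero]

@[simp] theorem adeleL_apply_coe {Z : Set S.ι} (hZ : Z.Finite) (r : F) :
    ((adeleL e hZ r : ↥(repartitions K F)) : Place K F → F) = adeleFun e Z r := rfl

/-- membership in `A(0) + F`, unfolded. -/
theorem mem_repartitionsOf_zero_sup_principal_iff (α : ↥(repartitions K F)) :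
    α ∈ repartitionsOf (0 : Divisor K F) ⊔ principalRepartitions K F ↔
      ∃ f : F, ∀ v : Place K F, v.adicValuation ((α : Place K F → F) v - f) ≤ 1 := by
  rw [Submodule.mem_sup]
  constructor
  · rintro ⟨β, hβ, γ, hγ, rfl⟩
    obtain ⟨f, hf⟩ := mem_principalRepartitions_iff.1 hγ
    refine ⟨f, fun v => ?_⟩
    have h1 : ((β + γ : ↥(repartitions K F)) : Place K F → F) v - f = (β : Place K F → F) v := by
      show (β : Place K F → F) v + (γ : Place K F → F) v - f = _
      rw [hf]
      ring
    rw [h1]
    have := hβ v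
    simpa using this
  · rintro ⟨f, hf⟩
    refine ⟨α - algebraMap F _ f, fun v => ?_, algebraMap F _ f,
      mem_principalRepartitions_iff.2 ⟨f, rfl⟩, sub_add_cancel _ _⟩
    have := hf v
    simpa using this

variable [IsAlgClosed K] (R : S.RRData)

open Classical in
include he R in
/-- **the adelic `H¹(0)` is the Čech `H¹` of a two-set cover.** -/
theorem nonempty_regOff_quotient_equiv_H1 {Z₀ Z₁ : Set S.ι} (hZ₀ : Z₀.Finite)
    (hdisj : Disjoint Z₀ Z₁) (hne₀ : Z₀.Nonempty) (hne₁ : Z₁.Nonempty) :
    Nonempty ((↥(S.regOff (Z₀ ∪ Z₁)) ⧸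
      (S.regOff Z₀ ⊔ S.regOff Z₁).submoduleOf (S.regOff (Z₀ ∪ Z₁))) ≃ₗ[K]
        H1 (0 : Divisor K F)) := by
  set V := S.regOff (Z₀ ∪ Z₁) with hV
  set N : Submodule K ↥(repartitions K F) :=
    repartitionsOf (0 : Divisor K F) ⊔ principalRepartitions K F with hN
  -- the map
  let Φ : ↥V →ₗ[K] H1 (0 : Divisor K F) := (N.mkQ.comp (adeleL e hZ₀)).comp V.subtype
  -- regularity away from `Z`, in terms of places
  have key : ∀ (p : S.ι) (f : F), (e p).adicValuation f ≤ 1 ↔ 0 ≤ S.ord p f :=
    adicValuation_le_one_iff_of_equiv e he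
  -- the kernel
  have hker : LinearMap.ker Φ = (S.regOff Z₀ ⊔ S.regOff Z₁).submoduleOf V := by
    ext ⟨r, hr⟩
    rw [LinearMap.mem_ker, Submodule.submoduleOf, Submodule.mem_comap]
    show N.mkQ (adeleL e hZ₀ r) = 0 ↔ r ∈ S.regOff Z₀ ⊔ S.regOff Z₁
    rw [Submodule.mkQ_apply, Submodule.Quotient.mk_eq_zero, hN,
      mem_repartitionsOf_zero_sup_principal_iff, Submodule.mem_sup]
    constructor
    · rintro ⟨f, hf⟩
      have hf0 : f ∈ S.regOff Z₀ := by
        intro p hp
        have h := hf (e p)
        rw [adeleL_apply_coe, adeleFun_of_notMem e r (by rwa [e.symm_apply_apply]), zero_sub,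
          Valuation.map_neg, key] at h
        exact h
      have hf1 : r - f ∈ S.regOff Z₁ := by
        intro p hp
        by_cases hp0 : p ∈ Z₀
        · have h := hf (e p)
          rw [adeleL_apply_coe, adeleFun_of_mem e r (by rwa [e.symm_apply_apply]), key] at h
          exact h
        · exact (S.ord p).map_le_sub (hr p (fun h => h.elim hp0 hp)) (hf0 p hp0)
      exact ⟨f, hf0, r - f, hf1, by ring⟩
    · rintro ⟨f, hf0, h, hh1, rfl⟩
      refine ⟨f, fun v => ?_⟩
      rw [adeleL_apply_coe]
      by_cases hv : e.symm v ∈ Z₀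
      · rw [adeleFun_of_mem e _ hv, add_sub_cancel_left, adicValuation_le_one_iff_of_equiv' e he]
        exact hh1 _ (fun h1 => Set.disjoint_left.1 hdisj hv h1)
      · rw [adeleFun_of_notMem e _ hv, zero_sub, Valuation.map_neg,
          adicValuation_le_one_iff_of_equiv' e he]
        exact hf0 _ hv
  -- surjectivity: strong approximation
  have hsurj : Function.Surjective Φ := by
    intro x
    obtain ⟨α, rfl⟩ := Submodule.Quotient.mk_surjective _ x
    have hfin := finite_poles_of_mem_repartitions e he α.2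
    obtain ⟨p₀, hp₀⟩ := hne₀
    obtain ⟨p₁, hp₁⟩ := hne₁
    have hsingle : ∀ p : S.ι, (Function.support (Pi.single p (2 * (R.g : ℤ)) : S.ι → ℤ)).Finite :=
      fun p => (Set.finite_singleton p).subset (by
        intro q hq
        by_contra hne
        exact hq (Pi.single_eq_of_ne hne _))
    have hdeg : ∀ p : S.ι, 2 * (R.g : ℤ) - 2 < S.deg (Pi.single p (2 * (R.g : ℤ)) : S.ι → ℤ) :=
      fun p => by rw [S.deg_single]; linarith
    -- step 1: kill the poles outside `Z₀`
    set T : Finset S.ι := (hfin.image e.symm).toFinset.filter (fun q => q ∉ Z₀) with hT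
    obtain ⟨f₁, hf₁T, hf₁⟩ := R.exists_strongApprox (hsingle p₀) (hdeg p₀) T
      (fun q => (α : Place K F → F) (e q))
    have h1 : ∀ q, q ∉ Z₀ → 0 ≤ S.ord q ((α : Place K F → F) (e q) - f₁) := by
      intro q hq
      have hq0 : q ≠ p₀ := fun h => hq (h ▸ hp₀)
      by_cases hqT : q ∈ T
      · have h := hf₁T q hqT
        rw [Pi.single_eq_of_ne hq0, neg_zero, (S.ord q).map_sub_swap] at h
        exact_mod_cast h
      · have h := hf₁ q hqT
        rw [Pi.single_eq_of_ne hq0, neg_zero] at h
        have hα : 0 ≤ S.ord q ((α : Place K F → F) (e q)) := by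
          rw [← key]
          by_contra hpole
          apply hqT
          rw [hT, Finset.mem_filter, Set.Finite.mem_toFinset]
          exact ⟨⟨e q, hpole, e.symm_apply_apply q⟩, hq⟩
        exact (S.ord q).map_le_sub hα (by exact_mod_cast h)
    -- step 2: approximate at `Z₀` by a function regular outside `Z₀ ∪ Z₁`
    obtain ⟨r, hrT, hr⟩ := R.exists_strongApprox (hsingle p₁) (hdeg p₁) hZ₀.toFinset
      (fun q => (α : Place K F → F) (e q) - f₁)
    have hrV : r ∈ V := by
      intro q hq
      have hq1 : q ≠ p₁ := fun h => hq (Or.inr (h ▸ hp₁))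
      have h := hr q (by rw [Set.Finite.mem_toFinset]; exact fun h => hq (Or.inl h))
      rw [Pi.single_eq_of_ne hq1, neg_zero] at h
      exact_mod_cast h
    have h2 : ∀ q, q ∈ Z₀ → 0 ≤ S.ord q (r - ((α : Place K F → F) (e q) - f₁)) := by
      intro q hq
      have hq1 : q ≠ p₁ := fun h => Set.disjoint_left.1 hdisj hq (h ▸ hp₁)
      have h := hrT q (by rw [Set.Finite.mem_toFinset]; exact hq)
      rw [Pi.single_eq_of_ne hq1, neg_zero] at h
      exact_mod_cast h
    refine ⟨⟨r, hrV⟩, ?_⟩
    show N.mkQ (adeleL e hZ₀ r) = Submodule.Quotient.mk α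
    rw [Submodule.mkQ_apply, Submodule.Quotient.eq, hN, mem_repartitionsOf_zero_sup_principal_iff]
    refine ⟨-f₁, fun v => ?_⟩
    show v.adicValuation (adeleFun e Z₀ r v - (α : Place K F → F) v - -f₁) ≤ 1
    rw [adicValuation_le_one_iff_of_equiv' e he]
    by_cases hv : e.symm v ∈ Z₀
    · rw [adeleFun_of_mem e _ hv]
      have h := h2 _ hv
      rw [e.apply_symm_apply] at h
      have e1 : r - (α : Place K F → F) v - -f₁ = r - ((α : Place K F → F) v - f₁) := by ring
      rw [e1]
      exact h
    · rw [adeleFun_of_notMem e _ hv]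
      have h := h1 _ hv
      rw [e.apply_symm_apply] at h
      have e1 : 0 - (α : Place K F → F) v - -f₁ = -((α : Place K F → F) v - f₁) := by ring
      rw [e1, (S.ord _).map_neg]
      exact h
  exact ⟨(Submodule.quotEquivOfEq _ _ hker.symm).trans
    (LinearMap.quotKerEquivOfSurjective Φ hsurj)⟩

include he R in
/-- **the genus of the Prelude (`dim H¹(0)` of repartitions) is the dimension of the Čech `H¹` of
any two-set cover.** -/
theorem genusFF_eq_finrank_regOff {Z₀ Z₁ : Set S.ι} (hZ₀ : Z₀.Finite)
    (hdisj : Disjoint Z₀ Z₁) (hne₀ : Z₀.Nonempty) (hne₁ : Z₁.Nonempty) :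
    genusFF K F = finrank K (↥(S.regOff (Z₀ ∪ Z₁)) ⧸
      (S.regOff Z₀ ⊔ S.regOff Z₁).submoduleOf (S.regOff (Z₀ ∪ Z₁))) := by
  obtain ⟨E⟩ := nonempty_regOff_quotient_equiv_H1 e he R hZ₀ hdisj hne₀ hne₁
  exact E.finrank_eq.symm

end PDS

end Fermat.Agent.AV
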