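/-
PROJECT JAC (S27, brick GENUS) — helper2: **the genus of the Prelude (`genusFF`, adelic `H¹(0)`) of
the function field of a smooth proper curve is the dimension of the Čech `H¹(C, O)`** of any cover
by two proper open subsets (e.g. two affine opens).

`c : C ⟶ Spec K` proper, smooth of relative dimension one, `C` integral, `K` algebraically closed;
`[Algebra K C.functionField]` any structure with `halg : algebraMap = functionFieldStrMap c`.
* `primesOff U` : the closed points outside `U`, as prime divisors of `schemePDS`; `finite_primesOff`;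
* `mem_regOff_primesOff_iff` : `regOff (primesOff U) = regOn U` (Hartogs);
* **`genusFF_eq_finrank_cech`** : for `U₀ ⊔ U₁ = ⊤`, `U₀ ≠ ⊤`, `U₁ ≠ ⊤`, every `K`-module structure on
  `Γ(C, U₀ ⊓ U₁)` restricting the ring structure along `sectionsStrMap c _`, and every submodule `B`
  whose elements are the sums `r₀|_{U₀₁} + r₁|_{U₀₁}`:
  `genusFF K C.functionField = finrank K (Γ(C, U₀ ⊓ U₁) ⧸ B)`;
* `ne_top_of_isAffineOpen` : an affine open of a proper curve is not everything.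
-/
import Mathlib
import Fermat.Agent.JAC.GENUS_helper2_Adele
import Fermat.Agent.JAC.CURVE_helper2_RRLB

set_option autoImplicit false
set_option linter.style.haveILetI false
set_option linter.unusedSectionVars false

open AlgebraicGeometry CategoryTheory Opposite TopologicalSpace Order AlgebraicCurve Module

universe u

namespace Fermat.Agent.JAC

open Fermat.Agent.AV Fermat.Agent.AV.LB

noncomputable section

open scoped Classical

section PDSside

variable {K : Type u} [Field K] {C : Scheme.{u}} [IsIntegral C] [IsNoetherian C]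
  [Algebra K C.functionField]
  (hDVR : ∀ z : C, coheight z = 1 → IsDiscreteValuationRing (C.presheaf.stalk z))
  (hK : ∀ a : K, a ≠ 0 → ∀ z : C, coheight z = 1 →
    Scheme.ord (algebraMap K C.functionField a) z = 0)

/-- the codimension-one points outside the open `U`, as prime divisors. -/
def primesOff (U : C.Opens) : Set (schemePDS C hDVR hK).ι := {z | z.1 ∉ U}

theorem mem_primesOff {U : C.Opens} {z : (schemePDS C hDVR hK).ι} :
    z ∈ primesOff hDVR hK U ↔ z.1 ∉ U := Iff.rfl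

theorem finite_primesOff (U : C.Opens) [hU : Nonempty U] : (primesOff hDVR hK U).Finite := by
  have hη : genericPoint C ∉ ((U : Set C)ᶜ) := fun h => h (genericPoint_mem_of_mem hU.some.2)
  have hfin := finite_coheight_one_of_isClosed C ((U : Set C)ᶜ) U.isOpen.isClosed_compl hη
  refine (hfin.preimage Subtype.val_injective.injOn).subset ?_
  intro z hz
  exact ⟨hz, z.2⟩

theorem primesOff_inf (U₀ U₁ : C.Opens) :
    primesOff hDVR hK (U₀ ⊓ U₁) = primesOff hDVR hK U₀ ∪ primesOff hDVR hK U₁ := by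
  ext z
  simp only [mem_primesOff, Set.mem_union]
  constructor
  · intro h
    by_contra hne
    rw [not_or, not_not, not_not] at hne
    exact h ⟨hne.1, hne.2⟩
  · rintro (h | h) hz
    · exact h hz.1
    · exact h hz.2

theorem disjoint_primesOff {U₀ U₁ : C.Opens} (hcov : U₀ ⊔ U₁ = ⊤) :
    Disjoint (primesOff hDVR hK U₀) (primesOff hDVR hK U₁) := by
  rw [Set.disjoint_left]
  intro z h0 h1
  have hz : z.1 ∈ U₀ ⊔ U₁ := by rw [hcov]; trivial
  rcases hz with h | h
  · exact h0 h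
  · exact h1 h

/-- **Hartogs**: the functions without poles outside `C ∖ U` are the functions regular on `U`. -/
theorem mem_regOff_primesOff_iff (hH : HartogsProp C) (U : C.Opens) (f : C.functionField) :
    f ∈ (schemePDS C hDVR hK).regOff (primesOff hDVR hK U) ↔ f ∈ regOn U := by
  by_cases hf : f = 0
  · subst hf
    exact ⟨fun _ => Subring.zero_mem _, fun _ => Submodule.zero_mem _⟩
  rw [mem_regOn_iff_ord hH U hf, PDS.mem_regOff]
  constructor
  · intro h z hzU hz
    have h1 := h ⟨z, hz⟩ (fun hn => hn hzU)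
    rw [schemePDS_ord_apply C hDVR hK _ hf] at h1
    exact_mod_cast h1
  · intro h p hp
    rw [mem_primesOff, not_not] at hp
    rw [schemePDS_ord_apply C hDVR hK _ hf]
    exact_mod_cast h p.1 hp p.2

end PDSside

section Curve

variable {K : Type u} [Field K] {C : Scheme.{u}} [IsIntegral C] (c : C ⟶ Spec (.of K))
  [Algebra K C.functionField]
  (halg : ∀ a : K, algebraMap K C.functionField a = (functionFieldStrMap c).hom a)
  [SmoothOfRelativeDimension 1 c] [IsAlgClosed K] [IsProper c] [IsNoetherian C]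

include halg in
/-- **the genus of the Prelude is the dimension of the Čech `H¹(C, O)` of a two-set cover.** -/
theorem genusFF_eq_finrank_cech (U₀ U₁ : C.Opens) (hcov : U₀ ⊔ U₁ = ⊤) (h₀ : U₀ ≠ ⊤)
    (h₁ : U₁ ≠ ⊤) [Module K Γ(C, U₀ ⊓ U₁)]
    (hsmul : ∀ (a : K) (r : Γ(C, U₀ ⊓ U₁)), a • r = sectionsStrMap c (U₀ ⊓ U₁) a * r)
    (B : Submodule K Γ(C, U₀ ⊓ U₁))
    (hB : ∀ r, r ∈ B ↔ ∃ (r₀ : Γ(C, U₀)) (r₁ : Γ(C, U₁)),
      r = res (U₀ ⊓ U₁) inf_le_left r₀ + res (U₀ ⊓ U₁) inf_le_right r₁) :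
    genusFF K C.functionField = finrank K (Γ(C, U₀ ⊓ U₁) ⧸ B) := by
  have hDVR := isDiscreteValuationRing_stalk_curve c
  have hK : ∀ a : K, a ≠ 0 → ∀ z : C, coheight z = 1 →
      Scheme.ord (algebraMap K C.functionField a) z = 0 :=
    fun a ha z hz => by rw [halg]; exact scheme_ord_const_curve c a ha z hz
  have hH : HartogsProp C := hartogsProp_curve c
  obtain ⟨R⟩ := nonempty_rrData c halg hDVR hK
  set S := schemePDS C hDVR hK with hS
  -- points
  obtain ⟨z₀, hz₀⟩ : ∃ z : C, z ∉ U₀ := by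
    by_contra h
    rw [not_exists] at h
    exact h₀ (eq_top_iff.2 fun z _ => not_not.1 (h z))
  obtain ⟨z₁, hz₁⟩ : ∃ z : C, z ∉ U₁ := by
    by_contra h
    rw [not_exists] at h
    exact h₁ (eq_top_iff.2 fun z _ => not_not.1 (h z))
  have hz₀1 : z₀ ∈ U₁ := by
    have hz : z₀ ∈ U₀ ⊔ U₁ := by rw [hcov]; trivial
    exact hz.resolve_left hz₀
  have hz₁0 : z₁ ∈ U₀ := by
    have hz : z₁ ∈ U₀ ⊔ U₁ := by rw [hcov]; trivial
    exact hz.resolve_right hz₁
  haveI hne0 : Nonempty U₀ := ⟨⟨z₁, hz₁0⟩⟩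
  haveI hne1 : Nonempty U₁ := ⟨⟨z₀, hz₀1⟩⟩
  have hη0 : genericPoint C ∈ U₀ := genericPoint_mem_of_mem hz₁0
  have hη1 : genericPoint C ∈ U₁ := genericPoint_mem_of_mem hz₀1
  haveI hne01 : Nonempty (U₀ ⊓ U₁ : C.Opens) := ⟨⟨genericPoint C, hη0, hη1⟩⟩
  have hc0 : coheight z₀ = 1 := (coheight_eq_one_iff c z₀).2 (fun h => hz₀ (h ▸ hη0))
  have hc1 : coheight z₁ = 1 := (coheight_eq_one_iff c z₁).2 (fun h => hz₁ (h ▸ hη1))
  -- the abstract statement
  have hgen := PDS.genusFF_eq_finrank_regOff (placeEquiv c hDVR hK halg)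
    (fun p f hf => ord_placeEquiv c hDVR hK halg p f hf) R (finite_primesOff hDVR hK U₀)
    (disjoint_primesOff hDVR hK hcov) ⟨⟨z₀, hc0⟩, hz₀⟩ ⟨⟨z₁, hc1⟩, hz₁⟩
  rw [hgen, ← primesOff_inf]
  -- the comparison
  set V := S.regOff (primesOff hDVR hK (U₀ ⊓ U₁)) with hV
  have hgerm : ∀ r : Γ(C, U₀ ⊓ U₁), germOf (U₀ ⊓ U₁) r ∈ V := fun r =>
    (mem_regOff_primesOff_iff hDVR hK hH _ _).2 (germOf_mem_regOn _ r)
  let G : Γ(C, U₀ ⊓ U₁) →ₗ[K] ↥V :=
    { toFun := fun r => ⟨germOf (U₀ ⊓ U₁) r, hgerm r⟩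
      map_add' := fun r r' => Subtype.ext (germOf_map_add _ r r')
      map_smul' := fun a r => Subtype.ext (by
        show germOf (U₀ ⊓ U₁) (a • r) = a • germOf (U₀ ⊓ U₁) r
        rw [hsmul, germOf_map_mul, germOf_sectionsStrMap, ← halg, Algebra.smul_def]) }
  have hGbij : Function.Bijective G := by
    constructor
    · intro r r' h
      exact germOf_injective _ (congrArg Subtype.val h)
    · rintro ⟨f, hf⟩
      obtain ⟨r, hr⟩ := (mem_regOn_iff_exists (U₀ ⊓ U₁)).1
        ((mem_regOff_primesOff_iff hDVR hK hH _ _).1 hf)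
      exact ⟨r, Subtype.ext hr⟩
  let E : Γ(C, U₀ ⊓ U₁) ≃ₗ[K] ↥V := LinearEquiv.ofBijective G hGbij
  have hmap : B.map (E : Γ(C, U₀ ⊓ U₁) →ₗ[K] ↥V) =
      (S.regOff (primesOff hDVR hK U₀) ⊔ S.regOff (primesOff hDVR hK U₁)).submoduleOf V := by
    ext ⟨f, hf⟩
    rw [Submodule.mem_map, Submodule.submoduleOf, Submodule.mem_comap, Submodule.mem_sup]
    constructor
    · rintro ⟨r, hr, hrf⟩
      obtain ⟨r₀, r₁, rfl⟩ := (hB r).1 hr
      have hval : germOf (U₀ ⊓ U₁) (res (U₀ ⊓ U₁) inf_le_left r₀ +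
          res (U₀ ⊓ U₁) inf_le_right r₁) = f := congrArg Subtype.val hrf
      rw [germOf_map_add, germOf_res', germOf_res'] at hval
      exact ⟨germOf U₀ r₀, (mem_regOff_primesOff_iff hDVR hK hH _ _).2 (germOf_mem_regOn _ r₀),
        germOf U₁ r₁, (mem_regOff_primesOff_iff hDVR hK hH _ _).2 (germOf_mem_regOn _ r₁), hval⟩
    · rintro ⟨f₀, hf₀, f₁, hf₁, hsum⟩
      obtain ⟨r₀, hr₀⟩ := (mem_regOn_iff_exists U₀).1
        ((mem_regOff_primesOff_iff hDVR hK hH _ _).1 hf₀)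
      obtain ⟨r₁, hr₁⟩ := (mem_regOn_iff_exists U₁).1
        ((mem_regOff_primesOff_iff hDVR hK hH _ _).1 hf₁)
      refine ⟨res (U₀ ⊓ U₁) inf_le_left r₀ + res (U₀ ⊓ U₁) inf_le_right r₁,
        (hB _).2 ⟨r₀, r₁, rfl⟩, Subtype.ext ?_⟩
      show germOf (U₀ ⊓ U₁) (res (U₀ ⊓ U₁) inf_le_left r₀ + res (U₀ ⊓ U₁) inf_le_right r₁) = f
      rw [germOf_map_add, germOf_res', germOf_res', hr₀, hr₁]
      exact hsum
  exact (Submodule.Quotient.equiv B _ E hmap).finrank_eq.symm

omit [Algebra K C.functionField] [IsAlgClosed K] [AlgebraicGeometry.IsNoetherian C] in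
include c in
/-- an affine open of a proper curve is not the whole curve. -/
theorem ne_top_of_isAffineOpen {U : C.Opens} (hU : IsAffineOpen U) : U ≠ ⊤ := by
  rintro rfl
  haveI : Nonempty (⊤ : C.Opens) := ⟨⟨genericPoint C, trivial⟩⟩
  exact not_isField_sections c hU (isField_of_universallyClosed K c)

include halg in
/-- the same for a cover by two affine opens. -/
theorem genusFF_eq_finrank_cech_of_isAffineOpen (U₀ U₁ : C.Opens) (hcov : U₀ ⊔ U₁ = ⊤)
    (h₀ : IsAffineOpen U₀) (h₁ : IsAffineOpen U₁) [Module K Γ(C, U₀ ⊓ U₁)]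
    (hsmul : ∀ (a : K) (r : Γ(C, U₀ ⊓ U₁)), a • r = sectionsStrMap c (U₀ ⊓ U₁) a * r)
    (B : Submodule K Γ(C, U₀ ⊓ U₁))
    (hB : ∀ r, r ∈ B ↔ ∃ (r₀ : Γ(C, U₀)) (r₁ : Γ(C, U₁)),
      r = res (U₀ ⊓ U₁) inf_le_left r₀ + res (U₀ ⊓ U₁) inf_le_right r₁) :
    genusFF K C.functionField = finrank K (Γ(C, U₀ ⊓ U₁) ⧸ B) :=
  genusFF_eq_finrank_cech c halg U₀ U₁ hcov (ne_top_of_isAffineOpen c h₀)
    (ne_top_of_isAffineOpen c h₁) hsmul B hB

end Curve

end

end Fermat.Agent.JAC
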