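/-
PROJECT JAC (S27, DIM) — helper3 — **(DIM): the Jacobian of a smooth proper curve is smooth of
relative dimension the genus.**

* `smoothOfRelativeDimension_finrank_cech'` : `SmoothOfRelativeDimension (finrank K H¹) D.toBase`
  for the Čech `H¹ = Γ(U₀ ⊓ U₁) ⧸ (Γ(U₀)| + Γ(U₁)|)` of a two-affine cover (no `DualFacts` input);
* **`smoothOfRelativeDimension_genusFF`** : with helper2's (GENUS),
  `SmoothOfRelativeDimension (genusFF K C.functionField) D.toBase`.
-/
import Mathlib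
import Fermat.Agent.JAC.DIM_helper3_Main
import Fermat.Agent.JAC.DIM_helper3_DualFacts
import Fermat.Agent.JAC.GENUS_helper2_Cech

set_option autoImplicit false
set_option linter.style.haveILetI false

open AlgebraicGeometry CategoryTheory CategoryTheory.Limits Opposite TopologicalSpace
  AlgebraicGeometry.RelPicard NeronModelInfra GoodReductionJacobian AlgebraicCurve

universe u

namespace Fermat.Agent.JAC.DIM

open Fermat.Agent.AV Fermat.Agent.JAC Fermat.Agent.JAC.TAN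

noncomputable section

variable {K : Type u} [Field K] {C : Scheme.{u}} {c : C ⟶ Spec (CommRingCat.of K)} [IsProper c]
  [SmoothOfRelativeDimension 1 c] {ε : SchemeHomOver (𝟙 (Spec (CommRingCat.of K))) c}
  {D : RelativePic0Designation K c}

/-- **(DIM), Čech form.** -/
theorem smoothOfRelativeDimension_finrank_cech'
    (h : LBRepresentsCond c ε (LBCond.degZero c) D) [Smooth D.toBase] [ConnectedSpace D.P]
    {U₀ U₁ : C.Opens} (hcov : U₀ ⊔ U₁ = ⊤) (h₀ : IsAffineOpen U₀) (h₁ : IsAffineOpen U₁)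
    (h₀₁ : IsAffineOpen (U₀ ⊓ U₁)) [Module K Γ(C, U₀ ⊓ U₁)]
    (hsmul : ∀ (a : K) (r : Γ(C, U₀ ⊓ U₁)), a • r = sectionsStrMap c (U₀ ⊓ U₁) a * r)
    (B : Submodule K Γ(C, U₀ ⊓ U₁))
    (hB : ∀ r, r ∈ B ↔ ∃ (r₀ : Γ(C, U₀)) (r₁ : Γ(C, U₁)),
      r = res (U₀ ⊓ U₁) inf_le_left r₀ + res (U₀ ⊓ U₁) inf_le_right r₁) :
    SmoothOfRelativeDimension (Module.finrank K (Γ(C, U₀ ⊓ U₁) ⧸ B)) D.toBase :=
  smoothOfRelativeDimension_finrank_cech h (dualFacts c) hcov h₀ h₁ h₀₁ hsmul B hB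

/-- the coboundaries as a `K`-submodule. -/
def cobdrySubmodule (c : C ⟶ Spec (CommRingCat.of K)) (U₀ U₁ : C.Opens) :
    letI : Module K Γ(C, U₀ ⊓ U₁) := Module.compHom _ (sectionsStrMap c (U₀ ⊓ U₁))
    Submodule K Γ(C, U₀ ⊓ U₁) :=
  letI : Module K Γ(C, U₀ ⊓ U₁) := Module.compHom _ (sectionsStrMap c (U₀ ⊓ U₁))
  { (cobdry U₀ U₁) with
    smul_mem' := by
      rintro a _ ⟨r₀, r₁, rfl⟩
      refine ⟨sectionsStrMap c U₀ a * r₀, sectionsStrMap c U₁ a * r₁, ?_⟩
      show sectionsStrMap c (U₀ ⊓ U₁) a * _ = _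
      rw [map_mul, map_mul, res_sectionsStrMap_const, res_sectionsStrMap_const, mul_add] }

/-- **(DIM)**: the Jacobian of a smooth proper curve over an algebraically closed field is smooth
of relative dimension the genus of the function field. -/
theorem smoothOfRelativeDimension_genusFF [IsAlgClosed K] [IsIntegral C] [IsNoetherian C]
    [Algebra K C.functionField]
    (halg : ∀ a : K, algebraMap K C.functionField a = (functionFieldStrMap c).hom a)
    (h : LBRepresentsCond c ε (LBCond.degZero c) D) [Smooth D.toBase] [ConnectedSpace D.P] :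
    SmoothOfRelativeDimension (genusFF K C.functionField) D.toBase := by
  obtain ⟨U₀, U₁, x, y, hU₀, hU₁, hU, hx, -⟩ := exists_two_affine_cover c
  have h₀₁ : IsAffineOpen (U₀ ⊓ U₁) := by
    rw [← hx]
    exact hU₀.basicOpen x
  letI : Module K Γ(C, U₀ ⊓ U₁) := Module.compHom _ (sectionsStrMap c (U₀ ⊓ U₁))
  have hsmul : ∀ (a : K) (r : Γ(C, U₀ ⊓ U₁)), a • r = sectionsStrMap c (U₀ ⊓ U₁) a * r :=
    fun _ _ => rfl
  have hB : ∀ r, r ∈ cobdrySubmodule c U₀ U₁ ↔ ∃ (r₀ : Γ(C, U₀)) (r₁ : Γ(C, U₁)),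
      r = res (U₀ ⊓ U₁) inf_le_left r₀ + res (U₀ ⊓ U₁) inf_le_right r₁ := fun _ => Iff.rfl
  rw [genusFF_eq_finrank_cech_of_isAffineOpen c halg U₀ U₁ hU hU₀ hU₁ hsmul
    (cobdrySubmodule c U₀ U₁) hB]
  exact smoothOfRelativeDimension_finrank_cech' h hU hU₀ hU₁ h₀₁ hsmul (cobdrySubmodule c U₀ U₁) hB

end

end Fermat.Agent.JAC.DIM
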