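/-
PROJECT JAC — brick J0 (helper1) — **the dictionary invertible `𝒪_X`-modules ↔ cocycles `LB X`.**

Summary of the bridge (all for Prelude's `Scheme.Modules.IsInvertible`, Mathlib's
`Scheme.Modules.pullback`, and the cocycle model `LB` of `AV/LB_helper5_Core`):

* (a) `LB.toModules M : X.Modules`, `LB.isInvertible_toModules M`;
* (b) `exists_LB_of_isInvertible L hL : ∃ M, Nonempty (toModules M ≅ L)`;
* (c) `LB.iso_iff_nonempty_iso M N : LB.Iso M N ↔ Nonempty (toModules M ≅ toModules N)`;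
* (d) `LB.pullbackIso φ M : (pullback φ).obj (toModules M) ≅ toModules (M.pullback φ)` (ANY `φ`);
* (e) `LB.toModulesTrivialIso X : toModules (LB.trivial X) ≅ 𝒪_X`,
      `LB.isTrivial_iff_nonempty_iso M : M.IsTrivial ↔ Nonempty (toModules M ≅ 𝒪_X)`.

This file packages a choice `LB.ofInvertible L hL : LB X` of cocycle for an invertible module, with
its compatibilities (`ofInvertible_congr`, `ofInvertible_pullback`, `ofInvertible_toModules`,
`isTrivial_ofInvertible_iff`).
-/
import Mathlib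
import Fermat.Agent.JAC.BR_helper1_Iso

set_option autoImplicit false

open AlgebraicGeometry CategoryTheory Opposite TopologicalSpace

universe u

namespace Fermat.Agent.JAC

open Fermat.Agent.AV

noncomputable section

variable {X Y : Scheme.{u}}

/-- a cocycle representing an invertible module. -/
def LB.ofInvertible (L : X.Modules) (hL : Scheme.Modules.IsInvertible L) : LB X :=
  (exists_LB_of_isInvertible L hL).choose

/-- the sheaf of sections of the chosen cocycle is the module. -/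
def LB.ofInvertibleIso (L : X.Modules) (hL : Scheme.Modules.IsInvertible L) :
    LB.toModules (LB.ofInvertible L hL) ≅ L :=
  (exists_LB_of_isInvertible L hL).choose_spec.some

/-- a cocycle represents `L` iff it is isomorphic to the chosen one. -/
theorem LB.iso_ofInvertible_iff (L : X.Modules) (hL : Scheme.Modules.IsInvertible L) (M : LB X) :
    LB.Iso M (LB.ofInvertible L hL) ↔ Nonempty (LB.toModules M ≅ L) := by
  rw [LB.iso_iff_nonempty_iso]
  exact ⟨fun ⟨θ⟩ => ⟨θ ≪≫ LB.ofInvertibleIso L hL⟩,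
    fun ⟨θ⟩ => ⟨θ ≪≫ (LB.ofInvertibleIso L hL).symm⟩⟩

theorem LB.ofInvertible_congr {L L' : X.Modules} (hL : Scheme.Modules.IsInvertible L)
    (hL' : Scheme.Modules.IsInvertible L') (θ : L ≅ L') :
    LB.Iso (LB.ofInvertible L hL) (LB.ofInvertible L' hL') :=
  (LB.iso_ofInvertible_iff L' hL' _).mpr ⟨LB.ofInvertibleIso L hL ≪≫ θ⟩

theorem LB.ofInvertible_congr_iff {L L' : X.Modules} (hL : Scheme.Modules.IsInvertible L)
    (hL' : Scheme.Modules.IsInvertible L') :
    LB.Iso (LB.ofInvertible L hL) (LB.ofInvertible L' hL') ↔ Nonempty (L ≅ L') := by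
  rw [LB.iso_ofInvertible_iff]
  exact ⟨fun ⟨θ⟩ => ⟨(LB.ofInvertibleIso L hL).symm ≪≫ θ⟩,
    fun ⟨θ⟩ => ⟨LB.ofInvertibleIso L hL ≪≫ θ⟩⟩

theorem LB.ofInvertible_toModules (M : LB X) :
    LB.Iso (LB.ofInvertible (LB.toModules M) (LB.isInvertible_toModules M)) M :=
  ((LB.iso_ofInvertible_iff _ _ M).mpr ⟨Iso.refl _⟩).symm

/-- the pullback of an invertible module whose cocycle is `M` has cocycle `M.pullback φ`. -/
def LB.pullbackIsoOfIso (φ : Y ⟶ X) {L : X.Modules} {M : LB X} (θ : LB.toModules M ≅ L) :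
    LB.toModules (M.pullback φ) ≅ (Scheme.Modules.pullback φ).obj L :=
  (LB.pullbackIso φ M).symm ≪≫ (Scheme.Modules.pullback φ).mapIso θ

theorem LB.ofInvertible_pullback (φ : Y ⟶ X) (L : X.Modules)
    (hL : Scheme.Modules.IsInvertible L) :
    LB.Iso (LB.ofInvertible ((Scheme.Modules.pullback φ).obj L) (hL.pullback φ))
      ((LB.ofInvertible L hL).pullback φ) :=
  ((LB.iso_ofInvertible_iff _ _ _).mpr
    ⟨LB.pullbackIsoOfIso φ (LB.ofInvertibleIso L hL)⟩).symm

theorem LB.isTrivial_ofInvertible_iff (L : X.Modules) (hL : Scheme.Modules.IsInvertible L) :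
    (LB.ofInvertible L hL).IsTrivial ↔ Nonempty (L ≅ unitMod X) := by
  rw [LB.isTrivial_iff_nonempty_iso]
  exact ⟨fun ⟨θ⟩ => ⟨(LB.ofInvertibleIso L hL).symm ≪≫ θ⟩,
    fun ⟨θ⟩ => ⟨LB.ofInvertibleIso L hL ≪≫ θ⟩⟩

/-- pulling back the sheaf of sections of isomorphic cocycles. -/
theorem LB.nonempty_pullback_iso_iff (φ : Y ⟶ X) (M : LB X) (N : LB Y) :
    Nonempty ((Scheme.Modules.pullback φ).obj (LB.toModules M) ≅ LB.toModules N) ↔
      LB.Iso (M.pullback φ) N := by
  rw [LB.iso_iff_nonempty_iso]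
  exact ⟨fun ⟨θ⟩ => ⟨(LB.pullbackIso φ M).symm ≪≫ θ⟩, fun ⟨θ⟩ => ⟨LB.pullbackIso φ M ≪≫ θ⟩⟩

end

end Fermat.Agent.JAC
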