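/-
PROJECT JAC — brick J0 (helper1) — the instance `modBridge` of helper9's hypothesis structure
`ModBridge` (`JAC/TOP_helper9_Bridge`), from the bridge `BR_helper1_*`.
-/
import Mathlib
import Fermat.Agent.JAC.BR_helper1_Main
import Fermat.Agent.JAC.TOP_helper9_Bridge

set_option autoImplicit false

open AlgebraicGeometry CategoryTheory Opposite TopologicalSpace

universe u

namespace Fermat.Agent.JAC

open Fermat.Agent.AV

/-- the J0 bridge, packaged for helper9's translation layer. -/
noncomputable def modBridge : ModBridge.{u} where
  toMod M := LB.toModules M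
  isInvertible M := LB.isInvertible_toModules M
  exists_lb N hN := exists_LB_of_isInvertible N hN
  iso_iff M M' := (LB.iso_iff_nonempty_iso M M').symm
  pullback_iso φ M := ⟨LB.pullbackIso φ M⟩
  unit_iff M := (LB.isTrivial_iff_nonempty_iso M).symm

end Fermat.Agent.JAC
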