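/-
PROJECT JAC (S25) — (J6)/(PROPER-POW), helper6: **properness and connectedness of the Jacobian from
a ONE-point family** `(W₁, M₁)` (e.g. `W₁ = C`, `M₁ = O(Δ) ⊗ pr₁^*O(−ε₀)` rigidified).

* `J6.powObj w₁ n : Over (Spec k)` (the `n`-fold power of `W₁`, iterated fibre product), `powFst`,
  `powSnd`, `isPullback_powObj`, `isProper_powObj`, `locallyOfFiniteType_powObj`,
  `connectedSpace_powObj`, `powPt w₁ n y` (the `k`-point with coordinates `y`);
* `J6.powLB c w₁ M₁ n` := `⊗ᵢ (1 × prᵢ)^* M₁` on `C × W₁ⁿ`, `map_powPt_powLB` (its fibres),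
  `lbRigidified_powLB`, `cond_powLB`;
* **`J6.isProper_and_connectedSpace_of_family`**.
-/
import Mathlib
import Fermat.Agent.JAC.J6_helper6_ProperTop
import Fermat.Agent.AV.AV1_helper6_ProdConn

set_option autoImplicit false
set_option linter.style.haveILetI false
open CategoryTheory CategoryTheory.Limits AlgebraicGeometry AlgebraicGeometry.RelPicard
  NeronModelInfra GoodReductionJacobian
universe u

namespace Fermat.Agent.JAC.J6

open Fermat.Agent.AV Fermat.Agent.JAC

noncomputable section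

section Power

variable {k : Type u} [Field k] {C : Scheme.{u}} (c : C ⟶ Spec (CommRingCat.of k))
  {W₁ : Scheme.{u}} (w₁ : W₁ ⟶ Spec (CommRingCat.of k))

/-- the `n`-fold power of `W₁` over `k` (iterated fibre product, `W₁⁰ = Spec k`). -/
def powObj : ℕ → Over (Spec (CommRingCat.of k))
  | 0 => Over.mk (𝟙 _)
  | n + 1 => Over.mk (pullback.fst (powObj n).hom w₁ ≫ (powObj n).hom)

/-- the projection `W₁ⁿ⁺¹ ⟶ W₁ⁿ`. -/
def powFst (n : ℕ) : SchemeHomOver (powObj w₁ (n + 1)).hom (powObj w₁ n).hom :=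
  ⟨pullback.fst (powObj w₁ n).hom w₁, rfl⟩

/-- the last projection `W₁ⁿ⁺¹ ⟶ W₁`. -/
def powSnd (n : ℕ) : SchemeHomOver (powObj w₁ (n + 1)).hom w₁ :=
  ⟨pullback.snd (powObj w₁ n).hom w₁, pullback.condition.symm⟩

theorem isPullback_powObj (n : ℕ) :
    IsPullback (powFst w₁ n).1 (powSnd w₁ n).1 (powObj w₁ n).hom w₁ :=
  IsPullback.of_hasPullback _ _

theorem powObj_succ_hom (n : ℕ) :
    (powObj w₁ (n + 1)).hom = (powFst w₁ n).1 ≫ (powObj w₁ n).hom := rfl

theorem isProper_powObj [IsProper w₁] (n : ℕ) : IsProper (powObj w₁ n).hom := by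
  induction n with
  | zero => exact (inferInstance : IsProper (𝟙 (Spec (CommRingCat.of k))))
  | succ n ih =>
    rw [powObj_succ_hom]
    exact isProper_comp_of_isPullback _ w₁ _ _ (isPullback_powObj w₁ n)

theorem locallyOfFiniteType_powObj [LocallyOfFiniteType w₁] (n : ℕ) :
    LocallyOfFiniteType (powObj w₁ n).hom := by
  induction n with
  | zero => exact (inferInstance : LocallyOfFiniteType (𝟙 (Spec (CommRingCat.of k))))
  | succ n ih =>
    rw [powObj_succ_hom]
    exact locallyOfFiniteType_comp_of_isPullback _ w₁ _ _ (isPullback_powObj w₁ n)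

theorem connectedSpace_powObj [IsAlgClosed k] [LocallyOfFiniteType w₁] [ConnectedSpace W₁]
    (n : ℕ) : ConnectedSpace (powObj w₁ n).left := by
  induction n with
  | zero => exact (inferInstance : ConnectedSpace (Spec (CommRingCat.of k)))
  | succ n ih =>
    haveI := locallyOfFiniteType_powObj w₁ n
    exact connectedSpace_of_isPullback (powObj w₁ n).hom w₁ _ _ (isPullback_powObj w₁ n)

/-- the `k`-point of `W₁ⁿ` with given coordinates. -/
def powPt : ∀ n : ℕ, (Fin n → SchemeHomOver (𝟙 (Spec (CommRingCat.of k))) w₁) →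
    SchemeHomOver (𝟙 (Spec (CommRingCat.of k))) (powObj w₁ n).hom
  | 0, _ => ⟨𝟙 _, Category.id_comp _⟩
  | n + 1, y => ⟨pullback.lift (powPt n (fun i => y i.castSucc)).1 (y (Fin.last n)).1
      ((powPt n (fun i => y i.castSucc)).2.trans (y (Fin.last n)).2.symm), by
        show pullback.lift _ _ _ ≫ pullback.fst (powObj w₁ n).hom w₁ ≫ (powObj w₁ n).hom = _
        rw [pullback.lift_fst_assoc]
        exact (powPt n (fun i => y i.castSucc)).2⟩

theorem postComp_powFst_powPt (n : ℕ)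
    (y : Fin (n + 1) → SchemeHomOver (𝟙 (Spec (CommRingCat.of k))) w₁) :
    postComp (powFst w₁ n) (powPt w₁ (n + 1) y) = powPt w₁ n (fun i => y i.castSucc) :=
  Subtype.ext (pullback.lift_fst _ _ _)

theorem postComp_powSnd_powPt (n : ℕ)
    (y : Fin (n + 1) → SchemeHomOver (𝟙 (Spec (CommRingCat.of k))) w₁) :
    postComp (powSnd w₁ n) (powPt w₁ (n + 1) y) = y (Fin.last n) :=
  Subtype.ext (pullback.lift_snd _ _ _)

variable (M₁ : LB (pullback c w₁))

/-- the family `⊗ᵢ (1 × prᵢ)^* M₁` on `C × W₁ⁿ`. -/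
def powLB : ∀ n : ℕ, LB (pullback c (powObj w₁ n).hom)
  | 0 => LB.trivial _
  | n + 1 => ((powLB n).pullback (baseChangeSnd c (powFst w₁ n))).tensor
      (M₁.pullback (baseChangeSnd c (powSnd w₁ n)))

theorem mk_powLB_zero : PicGroup.mk (powLB c w₁ M₁ 0) = 0 := rfl

theorem mk_powLB_succ (n : ℕ) :
    PicGroup.mk (powLB c w₁ M₁ (n + 1)) =
      PicGroup.map (baseChangeSnd c (powFst w₁ n)) (PicGroup.mk (powLB c w₁ M₁ n)) +
        PicGroup.map (baseChangeSnd c (powSnd w₁ n)) (PicGroup.mk M₁) := rfl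

/-- the fibre of the power family over a `k`-point is the sum of the fibres. -/
theorem map_powPt_powLB (n : ℕ) (y : Fin n → SchemeHomOver (𝟙 (Spec (CommRingCat.of k))) w₁) :
    PicGroup.map (baseChangeSnd c (powPt w₁ n y)) (PicGroup.mk (powLB c w₁ M₁ n)) =
      ∑ i, PicGroup.map (baseChangeSnd c (y i)) (PicGroup.mk M₁) := by
  induction n with
  | zero =>
    rw [mk_powLB_zero, map_zero, Finset.univ_eq_empty, Finset.sum_empty]
  | succ n ih =>
    rw [mk_powLB_succ, map_add, ← PicGroup.map_comp, ← PicGroup.map_comp, baseChangeSnd_comp,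
      baseChangeSnd_comp, postComp_powFst_powPt, postComp_powSnd_powPt, ih,
      Fin.sum_univ_castSucc]

variable (ε : SchemeHomOver (𝟙 (Spec (CommRingCat.of k))) c)

theorem lbRigidified_powLB (hM₁ : LBRigidified c ε w₁ M₁) (n : ℕ) :
    LBRigidified c ε (powObj w₁ n).hom (powLB c w₁ M₁ n) := by
  induction n with
  | zero =>
    rw [rig_iff, mk_powLB_zero, map_zero]
  | succ n ih =>
    rw [rig_iff, mk_powLB_succ, map_add,
      rig_map c ε (powFst w₁ n) _ ((rig_iff c ε _ _).mp ih),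
      rig_map c ε (powSnd w₁ n) _ ((rig_iff c ε _ _).mp hM₁), add_zero]

theorem cond_powLB
    (𝒬 : ∀ {T : Scheme.{u}} (t : T ⟶ Spec (CommRingCat.of k)), LB (pullback c t) → Prop)
    (h𝒬pb : ∀ {T T' : Scheme.{u}} {t : T ⟶ Spec (CommRingCat.of k)}
      {t' : T' ⟶ Spec (CommRingCat.of k)} (ψ : SchemeHomOver t' t) {M : LB (pullback c t)},
      𝒬 t M → 𝒬 t' (M.pullback (baseChangeSnd c ψ)))
    (h𝒬one : ∀ {T : Scheme.{u}} (t : T ⟶ Spec (CommRingCat.of k)), 𝒬 t (LB.trivial _))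
    (h𝒬mul : ∀ {T : Scheme.{u}} {t : T ⟶ Spec (CommRingCat.of k)} {M N : LB (pullback c t)},
      𝒬 t M → 𝒬 t N → 𝒬 t (M.tensor N))
    (hM₁ : 𝒬 w₁ M₁) (n : ℕ) : 𝒬 (powObj w₁ n).hom (powLB c w₁ M₁ n) := by
  induction n with
  | zero => exact h𝒬one _
  | succ n ih => exact h𝒬mul (h𝒬pb (powFst w₁ n) ih) (h𝒬pb (powSnd w₁ n) hM₁)

end Power

section Top

variable {k : Type u} [Field k] [IsAlgClosed k] {C : Scheme.{u}} [IsIntegral C] [IsNoetherian C]
  (c : C ⟶ Spec (CommRingCat.of k)) [IsProper c] [SmoothOfRelativeDimension 1 c]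
  (ε : SchemeHomOver (𝟙 (Spec (CommRingCat.of k))) c)

/-- **(P2) properness and connectedness of the Jacobian from a ONE-point family**: if `(D.P, P)`
represents the functor of rigidified line bundles cut out by a condition `𝒬` (stable under base
change, `M⁻¹ ⊗ N`, `M ⊗ N`, containing the trivial bundle, and implying degree zero over `Spec k`),
`D.toBase` is locally of finite type, and there is a proper connected `W₁` with a rigidified
`𝒬`-family `M₁` on `C × W₁` whose fibres over `k`-points realise all the classes `O(z − ε₀)`,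
`z` a closed point of `C`, then `D.toBase` is proper and `D.P` is connected. -/
theorem isProper_and_connectedSpace_of_family (D : RelativePic0Designation k c)
    (𝒬 : ∀ {T : Scheme.{u}} (t : T ⟶ Spec (CommRingCat.of k)), LB (pullback c t) → Prop)
    (h𝒬pb : ∀ {T T' : Scheme.{u}} {t : T ⟶ Spec (CommRingCat.of k)}
      {t' : T' ⟶ Spec (CommRingCat.of k)} (ψ : SchemeHomOver t' t) {M : LB (pullback c t)},
      𝒬 t M → 𝒬 t' (M.pullback (baseChangeSnd c ψ)))
    (h𝒬div : ∀ {T : Scheme.{u}} {t : T ⟶ Spec (CommRingCat.of k)} {M N : LB (pullback c t)},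
      𝒬 t M → 𝒬 t N → 𝒬 t (M.inv.tensor N))
    (h𝒬one : ∀ {T : Scheme.{u}} (t : T ⟶ Spec (CommRingCat.of k)), 𝒬 t (LB.trivial _))
    (h𝒬mul : ∀ {T : Scheme.{u}} {t : T ⟶ Spec (CommRingCat.of k)} {M N : LB (pullback c t)},
      𝒬 t M → 𝒬 t N → 𝒬 t (M.tensor N))
    (h𝒬deg : ∀ N : LB (pullback c (𝟙 (Spec (CommRingCat.of k)))), 𝒬 (𝟙 _) N →
      (N.pullback (toFibre c)).deg = 0)
    (P : LB (pullback c D.toBase)) (hrig : LBRigidified c ε D.toBase P) (hP : 𝒬 D.toBase P)
    (huniv : ∀ {T : Scheme.{u}} (t : T ⟶ Spec (CommRingCat.of k)) (M : LB (pullback c t)),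
      LBRigidified c ε t M → 𝒬 t M →
      ∃! g : SchemeHomOver t D.toBase, LB.Iso (P.pullback (baseChangeSnd c g)) M)
    (hzero : (P.pullback (baseChangeSnd c
      (⟨D.zeroSection, D.zeroSection_toBase⟩ : SchemeHomOver (𝟙 _) D.toBase))).IsTrivial)
    [LocallyOfFiniteType D.toBase]
    (ε₀ : C) (hε₀ : ε₀ ≠ genericPoint C)
    {W₁ : Scheme.{u}} (w₁ : W₁ ⟶ Spec (CommRingCat.of k)) [IsProper w₁] [ConnectedSpace W₁]
    (M₁ : LB (pullback c w₁)) (hM₁rig : LBRigidified c ε w₁ M₁) (hM₁𝒬 : 𝒬 w₁ M₁)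
    (hpt : ∀ z : C, z ≠ genericPoint C →
      ∃ y : SchemeHomOver (𝟙 (Spec (CommRingCat.of k))) w₁,
        PicGroup.mk ((M₁.pullback (baseChangeSnd c y)).pullback (toFibre c)) =
          ptClsCurve c z - ptClsCurve c ε₀) :
    IsProper D.toBase ∧ ConnectedSpace D.P := by
  obtain ⟨g, hg⟩ := exists_genus_section c
  haveI := isProper_powObj w₁ g
  haveI := connectedSpace_powObj w₁ g
  refine isProper_and_connectedSpace_of_represents c ε D 𝒬 h𝒬pb h𝒬div h𝒬deg P hrig hP huniv hzero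
    g hg ε₀ hε₀ (powObj w₁ g).hom (powLB c w₁ M₁ g) (lbRigidified_powLB c w₁ M₁ ε hM₁rig g)
    (cond_powLB c w₁ M₁ 𝒬 h𝒬pb h𝒬one h𝒬mul hM₁𝒬 g) ?_
  intro p
  choose y hy using fun i : Fin g => hpt (p i).1 (p i).2
  refine ⟨powPt w₁ g y, ?_⟩
  rw [← PicGroup.map_mk, ← PicGroup.map_mk, map_powPt_powLB, map_sum]
  simp only [PicGroup.map_mk, hy]
  rw [Finset.sum_sub_distrib, Finset.sum_const, Finset.card_univ, Fintype.card_fin]

end Top

end

end Fermat.Agent.JAC.J6
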