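/-
PROJECT JAC (S25) — (J6), helper6: the J6 results in helper1's `LBCond`/`picFunctor` language.

* `J6.isSeparated_of_lbRepresentsCond`: `LBRepresentsCond c ε Q D` with `Q` multiplicative
  ⇒ `D.toBase` separated;
* **`J6.isProper_and_connectedSpace_of_AJ`**: `Q` multiplicative and implying degree zero over
  `Spec k`, `D` representing, locally of finite type, and an "Abel–Jacobi class"
  `x ∈ (picFunctor c ε Q)(C)` whose pull-back along the `k`-point `z` of `C` is `O(z − ε₀)`
  ⇒ `D.toBase` proper and `D.P` connected.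
-/
import Mathlib
import Fermat.Agent.JAC.J6_helper6_Power
import Fermat.Agent.JAC.SH_helper1_Adapter
import Fermat.Agent.JAC.SH_helper1_Group

set_option autoImplicit false
set_option linter.style.haveILetI false
set_option linter.unusedVariables false
open CategoryTheory CategoryTheory.Limits AlgebraicGeometry AlgebraicGeometry.RelPicard
  NeronModelInfra GoodReductionJacobian Opposite
universe u

namespace Fermat.Agent.JAC.J6

open Fermat.Agent.AV Fermat.Agent.JAC

noncomputable section

section Sep

variable {k : Type u} [Field k] {C : Scheme.{u}} (c : C ⟶ Spec (CommRingCat.of k))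
  (ε : SchemeHomOver (𝟙 (Spec (CommRingCat.of k))) c)

/-- **separatedness in `LBCond` language.** -/
theorem isSeparated_of_lbRepresentsCond (Q : LBCond c) [Q.IsMul]
    (D : RelativePic0Designation k c) (h : LBRepresentsCond c ε Q D) : IsSeparated D.toBase :=
  isSeparated_of_represents c ε D (fun t M => Q.P t M)
    (fun {T T'} {t t'} ψ {M} hM => Q.baseChange ψ M hM)
    (fun {T} {t} {M N} hM hN => LBCond.IsMul.mul t _ _ (LBCond.IsMul.inv t M hM) hN)
    h.P h.rig h.mem (fun t M => h.univ t M) h.zero

end Sep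

section AJ

variable {k : Type u} [Field k] [IsAlgClosed k] {C : Scheme.{u}} [IsIntegral C] [IsNoetherian C]
  (c : C ⟶ Spec (CommRingCat.of k)) [IsProper c] [SmoothOfRelativeDimension 1 c]
  (ε : SchemeHomOver (𝟙 (Spec (CommRingCat.of k))) c)

/-- **(P2) properness and connectedness of the Jacobian from the Abel–Jacobi class**: `Q` a
multiplicative condition implying degree zero over `Spec k`, `D` representing the functor of
rigidified cocycles satisfying `Q`, locally of finite type, and `x ∈ P_Q(C)` a class whose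
pull-back along the `k`-point `z` of `C` is `O(z − ε₀)`. -/
theorem isProper_and_connectedSpace_of_AJ (Q : LBCond c) [Q.IsMul]
    (hQdeg : ∀ N : LB (pullback c (𝟙 (Spec (CommRingCat.of k)))), Q.P (𝟙 _) N →
      (N.pullback (toFibre c)).deg = 0)
    (D : RelativePic0Designation k c) (h : LBRepresentsCond c ε Q D)
    [LocallyOfFiniteType D.toBase] (ε₀ : C) (hε₀ : ε₀ ≠ genericPoint C)
    (x : (picFunctor c ε Q).obj (op (Over.mk c)))
    (hx : ∀ z : C, z ≠ genericPoint C →
      ∃ y : Over.mk (𝟙 (Spec (CommRingCat.of k))) ⟶ Over.mk c,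
        PicGroup.map (toFibre c) (PicObj.cls ((picFunctor c ε Q).map y.op x)) =
          ptClsCurve c z - ptClsCurve c ε₀) :
    IsProper D.toBase ∧ ConnectedSpace D.P := by
  obtain ⟨M₁, hrig, hQ, rfl⟩ := picFunctor.exists_rep x
  refine isProper_and_connectedSpace_of_family c ε D (fun t M => Q.P t M)
    (fun {T T'} {t t'} ψ {M} hM => Q.baseChange ψ M hM)
    (fun {T} {t} {M N} hM hN => LBCond.IsMul.mul t _ _ (LBCond.IsMul.inv t M hM) hN)
    (fun t => LBCond.IsMul.one t) (fun {T} {t} {M N} hM hN => LBCond.IsMul.mul t M N hM hN)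
    hQdeg h.P h.rig h.mem (fun t M => h.univ t M) h.zero ε₀ hε₀ c M₁ hrig hQ ?_
  intro z hz
  obtain ⟨y, hy⟩ := hx z hz
  refine ⟨overHom y, ?_⟩
  rw [picFunctor.map_mk] at hy
  rw [← PicGroup.map_mk, ← hy]
  congr 1
  exact (PicObj.cls_mk (T := Over.mk (𝟙 (Spec (CommRingCat.of k)))) _ _ _).symm

end AJ

end

end Fermat.Agent.JAC.J6
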