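/-
PROJECT JAC (S25) — brick (REP), helper9: the total presheaf on all schemes and its sheaf property.
-/
import Fermat.Agent.JAC.REP_helper9_Iface

set_option autoImplicit false

universe u

open CategoryTheory CategoryTheory.Limits AlgebraicGeometry Opposite

namespace Fermat.Agent.JAC.REP

variable {S : Scheme.{u}} (F : (Over S)ᵒᵖ ⥤ Type u)

/-- a morphism of `S`-schemes given by a morphism of schemes and a structure map of the target. -/
abbrev ovHom {T T' : Scheme.{u}} (φ : T' ⟶ T) (t : T ⟶ S) : Over.mk (φ ≫ t) ⟶ Over.mk t :=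
  Over.homMk φ rfl

theorem map_map_apply {A B C : (Over S)ᵒᵖ} (f : A ⟶ B) (g : B ⟶ C) (a : F.obj A) :
    F.map g (F.map f a) = F.map (f ≫ g) a := by
  rw [F.map_comp]; rfl

theorem map_id_apply' {A : (Over S)ᵒᵖ} (a : F.obj A) : F.map (𝟙 A) a = a := by
  rw [F.map_id]; rfl

/-- transport along two morphisms with the same underlying morphism of schemes. -/
theorem map_congr_left {A B : Over S} (m m' : A ⟶ B) (h : m.left = m'.left) (a : F.obj (op B)) :
    F.map m.op a = F.map m'.op a := by
  have : m = m' := Over.OverMorphism.ext h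
  rw [this]

/-- the objects of the total presheaf. -/
abbrev TotObj (T : Scheme.{u}) : Type u := Σ t : T ⟶ S, F.obj (op (Over.mk t))

variable {F}

/-- pull-back in the total presheaf. -/
def TotObj.pull {T T' : Scheme.{u}} (φ : T' ⟶ T) (x : TotObj F T) : TotObj F T' :=
  ⟨φ ≫ x.1, F.map (ovHom φ x.1).op x.2⟩

/-- Key transport lemma: equal elements of the total presheaf have equal pull-backs to any common
`S`-scheme. -/
theorem TotObj.map_eq_of_eq {T : Scheme.{u}} {x y : TotObj F T} (h : x = y) (W : Over S)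
    (m : W ⟶ Over.mk x.1) (m' : W ⟶ Over.mk y.1) (hm : m.left = m'.left) :
    F.map m.op x.2 = F.map m'.op y.2 := by
  subst h
  exact map_congr_left F m m' hm x.2

theorem TotObj.ext' {T : Scheme.{u}} {x y : TotObj F T} (h₁ : x.1 = y.1)
    (h₂ : F.map (Over.homMk (𝟙 T) (by simp [h₁]) : Over.mk x.1 ⟶ Over.mk y.1).op y.2 = x.2) :
    x = y := by
  obtain ⟨t, a⟩ := x
  obtain ⟨t', b⟩ := y
  dsimp only at h₁
  subst h₁
  dsimp only at h₂
  have : (Over.homMk (𝟙 T) (by simp) : Over.mk t ⟶ Over.mk t) = 𝟙 _ := by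
    apply Over.OverMorphism.ext; rfl
  rw [this, op_id, map_id_apply'] at h₂
  rw [h₂]

theorem map_congr_unop {A B : (Over S)ᵒᵖ} (m m' : A ⟶ B) (h : m.unop.left = m'.unop.left)
    (a : F.obj A) : F.map m a = F.map m' a := by
  have : m = m' := Quiver.Hom.unop_inj (Over.OverMorphism.ext h)
  rw [this]

theorem TotObj.pull_id {T : Scheme.{u}} (x : TotObj F T) : TotObj.pull (𝟙 T) x = x := by
  apply TotObj.ext' (Category.id_comp _)
  exact map_congr_left F _ _ rfl x.2

theorem TotObj.pull_comp {T T' T'' : Scheme.{u}} (ψ : T'' ⟶ T') (φ : T' ⟶ T) (x : TotObj F T) :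
    TotObj.pull (ψ ≫ φ) x = TotObj.pull ψ (TotObj.pull φ x) := by
  apply TotObj.ext' (Category.assoc _ _ _)
  refine (congrArg _ (map_map_apply F (ovHom φ x.1).op (ovHom ψ (φ ≫ x.1)).op x.2)).trans ?_
  refine (map_map_apply F _ _ x.2).trans ?_
  apply map_congr_unop
  show (𝟙 T'' ≫ ψ) ≫ φ = ψ ≫ φ
  rw [Category.id_comp]

variable (F)

/-- The total presheaf `T ↦ Σ t : T ⟶ S, F (T, t)` on all schemes. -/
def total : Scheme.{u}ᵒᵖ ⥤ Type u where
  obj T := TotObj F T.unop
  map {T T'} φ := TypeCat.ofHom (fun x => TotObj.pull φ.unop x)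
  map_id T := by
    apply TypeCat.homEquiv.injective
    funext x
    exact TotObj.pull_id x
  map_comp {T T' T''} φ ψ := by
    apply TypeCat.homEquiv.injective
    funext x
    exact TotObj.pull_comp ψ.unop φ.unop x

@[simp]
theorem total_map_apply {T T' : Scheme.{u}ᵒᵖ} (φ : T ⟶ T') (x : (total F).obj T) :
    (total F).map φ x = TotObj.pull φ.unop x := rfl

end Fermat.Agent.JAC.REP
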