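/-
PROJECT JAC (S25) — brick (REP), helper9: the total presheaf is a Zariski sheaf on `Scheme`.
-/
import Fermat.Agent.JAC.REP_helper9_Total

set_option autoImplicit false

universe v u

open CategoryTheory CategoryTheory.Limits AlgebraicGeometry Opposite

namespace Fermat.Agent.JAC.REP

variable {S : Scheme.{u}} {F : (Over S)ᵒᵖ ⥤ Type u}

theorem resLE_resHom (T : Over S) {U V : T.left.Opens} (h : U ≤ V) :
    resLE T h ≫ resHom T V = resHom T U := by
  apply Over.OverMorphism.ext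
  exact Scheme.homOfLE_ι _ h

theorem resLE_resLE_resHom (T : Over S) {U V W : T.left.Opens} (h : U ≤ V) (h' : V ≤ W) :
    (resLE T h ≫ resLE T h') ≫ resHom T W = resHom T U := by
  rw [Category.assoc, resLE_resHom, resLE_resHom]

theorem resLE_refl (T : Over S) (U : T.left.Opens) : resLE T (le_refl U) = 𝟙 _ := by
  apply Over.OverMorphism.ext
  exact Scheme.homOfLE_rfl _ _

section cover

variable {Y : Scheme.{u}} (𝓤 : Scheme.OpenCover.{v} Y) (t : Y ⟶ S)

/-- the range of the `i`-th member of the cover, as an `S`-scheme, maps to the member. -/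
noncomputable def fromRange (i : 𝓤.I₀) (s : 𝓤.X i ⟶ S) (hs : 𝓤.f i ≫ t = s) :
    resOpen (Over.mk t) (𝓤.f i).opensRange ⟶ Over.mk s :=
  Over.homMk (𝓤.f i).isoOpensRange.inv (by
    show (𝓤.f i).isoOpensRange.inv ≫ s = (𝓤.f i).opensRange.ι ≫ t
    rw [← hs, ← Category.assoc, Scheme.Hom.isoOpensRange_inv_comp])

/-- the member of the cover maps isomorphically to its range, as `S`-schemes. -/
noncomputable def toRange (i : 𝓤.I₀) :
    Over.mk (𝓤.f i ≫ t) ⟶ resOpen (Over.mk t) (𝓤.f i).opensRange :=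
  Over.homMk (𝓤.f i).isoOpensRange.hom (by
    show (𝓤.f i).isoOpensRange.hom ≫ (𝓤.f i).opensRange.ι ≫ t = 𝓤.f i ≫ t
    rw [← Category.assoc, Scheme.Hom.isoOpensRange_hom_ι])

variable (x : ∀ i, (total F).obj (op (𝓤.X i)))
  (hx : Presieve.Arrows.Compatible (total F) 𝓤.f x) (ht : ∀ i, 𝓤.f i ≫ t = (x i).1)

/-- the family transported to the ranges. -/
noncomputable def yFam (i : 𝓤.I₀) : F.obj (op (resOpen (Over.mk t) (𝓤.f i).opensRange)) :=
  F.map (fromRange 𝓤 t i (x i).1 (ht i)).op (x i).2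

include hx in
/-- (C) compatibility of the transported family on any common `S`-scheme. -/
theorem yFam_compat (i j : 𝓤.I₀) (W : Over S)
    (p : W ⟶ resOpen (Over.mk t) (𝓤.f i).opensRange)
    (q : W ⟶ resOpen (Over.mk t) (𝓤.f j).opensRange)
    (hpq : p ≫ resHom (Over.mk t) (𝓤.f i).opensRange =
      q ≫ resHom (Over.mk t) (𝓤.f j).opensRange) :
    F.map p.op (yFam 𝓤 t x ht i) = F.map q.op (yFam 𝓤 t x ht j) := by
  set mi := fromRange 𝓤 t i (x i).1 (ht i)
  set mj := fromRange 𝓤 t j (x j).1 (ht j)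
  have hgi : (p ≫ mi).left ≫ 𝓤.f i = (q ≫ mj).left ≫ 𝓤.f j :=
    calc (p ≫ mi).left ≫ 𝓤.f i
        = p.left ≫ ((𝓤.f i).isoOpensRange.inv ≫ 𝓤.f i) := Category.assoc _ _ _
      _ = p.left ≫ (𝓤.f i).opensRange.ι :=
          congrArg (fun m => p.left ≫ m) (Scheme.Hom.isoOpensRange_inv_comp _)
      _ = q.left ≫ (𝓤.f j).opensRange.ι := congrArg (fun m => m.left) hpq
      _ = q.left ≫ ((𝓤.f j).isoOpensRange.inv ≫ 𝓤.f j) :=
          congrArg (fun m => q.left ≫ m) (Scheme.Hom.isoOpensRange_inv_comp _).symm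
      _ = (q ≫ mj).left ≫ 𝓤.f j := (Category.assoc _ _ _).symm
  have key : TotObj.pull (p ≫ mi).left (x i) = TotObj.pull (q ≫ mj).left (x j) :=
    hx i j W.left (p ≫ mi).left (q ≫ mj).left hgi
  have hwi : 𝟙 W.left ≫ (p ≫ mi).left ≫ (x i).1 = W.hom := by
    rw [Category.id_comp]; exact Over.w (p ≫ mi)
  have hwj : 𝟙 W.left ≫ (q ≫ mj).left ≫ (x j).1 = W.hom := by
    rw [Category.id_comp]; exact Over.w (q ≫ mj)
  have h := TotObj.map_eq_of_eq key W
    (Over.homMk (𝟙 W.left) hwi : W ⟶ Over.mk ((p ≫ mi).left ≫ (x i).1))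
    (Over.homMk (𝟙 W.left) hwj : W ⟶ Over.mk ((q ≫ mj).left ≫ (x j).1)) rfl
  calc F.map p.op (yFam 𝓤 t x ht i)
      = F.map (mi.op ≫ p.op) (x i).2 := map_map_apply F _ _ _
    _ = F.map ((ovHom (p ≫ mi).left (x i).1).op ≫
          (Over.homMk (𝟙 W.left) hwi : W ⟶ Over.mk ((p ≫ mi).left ≫ (x i).1)).op) (x i).2 := by
        apply map_congr_unop
        show (p ≫ mi).left = 𝟙 W.left ≫ (p ≫ mi).left
        rw [Category.id_comp]
    _ = _ := (map_map_apply F _ _ _).symm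
    _ = _ := h
    _ = F.map ((ovHom (q ≫ mj).left (x j).1).op ≫
          (Over.homMk (𝟙 W.left) hwj : W ⟶ Over.mk ((q ≫ mj).left ≫ (x j).1)).op) (x j).2 :=
        map_map_apply F _ _ _
    _ = F.map (mj.op ≫ q.op) (x j).2 := by
        apply map_congr_unop
        show 𝟙 W.left ≫ (q ≫ mj).left = (q ≫ mj).left
        rw [Category.id_comp]
    _ = F.map q.op (yFam 𝓤 t x ht j) := (map_map_apply F _ _ _).symm

/-- (A) being an amalgamation, in terms of the restrictions to the ranges. -/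
theorem pull_eq_iff (a : F.obj (op (Over.mk t))) (i : 𝓤.I₀) :
    TotObj.pull (𝓤.f i) (⟨t, a⟩ : TotObj F Y) = x i ↔
      F.map (resHom (Over.mk t) (𝓤.f i).opensRange).op a = yFam 𝓤 t x ht i := by
  constructor
  · intro h
    have h' := TotObj.map_eq_of_eq h (resOpen (Over.mk t) (𝓤.f i).opensRange)
      (fromRange 𝓤 t i (𝓤.f i ≫ t) rfl) (fromRange 𝓤 t i (x i).1 (ht i)) rfl
    refine Eq.trans ?_ h'
    refine Eq.trans ?_ (map_map_apply F _ _ _).symm
    apply map_congr_unop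
    show (𝓤.f i).opensRange.ι = (𝓤.f i).isoOpensRange.inv ≫ 𝓤.f i
    rw [Scheme.Hom.isoOpensRange_inv_comp]
  · intro h
    apply TotObj.ext' (ht i)
    have h' := congrArg (F.map (toRange 𝓤 t i).op) h
    show F.map _ (x i).2 = F.map (ovHom (𝓤.f i) t).op a
    refine Eq.trans ?_ (Eq.trans ((map_map_apply F _ _ _).symm.trans h'.symm) ?_)
    · apply map_congr_unop
      show 𝟙 _ = (𝓤.f i).isoOpensRange.hom ≫ (𝓤.f i).isoOpensRange.inv
      rw [Iso.hom_inv_id]
    · refine (map_map_apply F _ _ _).trans ?_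
      apply map_congr_unop
      show (𝓤.f i).isoOpensRange.hom ≫ (𝓤.f i).opensRange.ι = 𝓤.f i
      rw [Scheme.Hom.isoOpensRange_hom_ι]

end cover

/-- The sheaf condition of the total presheaf for a cover by open immersions. -/
theorem total_isSheafFor (hF : IsZariskiSheaf F) {Y : Scheme.{u}} (𝓤 : Scheme.OpenCover.{v} Y) :
    Presieve.IsSheafFor (total F) (Presieve.ofArrows 𝓤.X 𝓤.f) := by
  rw [Presieve.isSheafFor_arrows_iff]
  intro x hx
  -- glue the structure morphisms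
  have hcompat : ∀ i j, pullback.fst (𝓤.f i) (𝓤.f j) ≫ (x i).1 = pullback.snd _ _ ≫ (x j).1 := by
    intro i j
    have h := hx i j _ (pullback.fst (𝓤.f i) (𝓤.f j)) (pullback.snd _ _) pullback.condition
    exact congrArg Sigma.fst h
  obtain ⟨t, ht⟩ : ∃ t : Y ⟶ S, ∀ i, 𝓤.f i ≫ t = (x i).1 :=
    ⟨𝓤.glueMorphisms (fun i => (x i).1) hcompat, 𝓤.ι_glueMorphisms _ _⟩
  -- the cover by the ranges
  let T : Over S := Over.mk t
  let 𝒰 : Set T.left.Opens := Set.range fun i => (𝓤.f i).opensRange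
  have h𝒰 : sSup 𝒰 = ⊤ := by
    rw [sSup_range]; exact 𝓤.iSup_opensRange
  have hidx : ∀ U ∈ 𝒰, ∃ i, (𝓤.f i).opensRange = U := fun U hU => hU
  choose idx hidxU using hidx
  -- the family on the ranges
  let xU : ∀ U (hU : U ∈ 𝒰), F.obj (op (resOpen T U)) := fun U hU =>
    F.map (resLE T (le_of_eq (hidxU U hU).symm)).op (yFam 𝓤 t x ht (idx U hU))
  have hxU : ∀ U (hU : U ∈ 𝒰) (i : 𝓤.I₀) (hi : U ≤ (𝓤.f i).opensRange),
      xU U hU = F.map (resLE T hi).op (yFam 𝓤 t x ht i) := by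
    intro U hU i hi
    apply yFam_compat 𝓤 t x hx ht
    exact (resLE_resHom T _).trans (resLE_resHom T _).symm
  have hcompU : ∀ (U : T.left.Opens) (hU : U ∈ 𝒰) (V : T.left.Opens) (hV : V ∈ 𝒰),
      F.map (resLE T (inf_le_left : U ⊓ V ≤ U)).op (xU U hU) =
        F.map (resLE T (inf_le_right : U ⊓ V ≤ V)).op (xU V hV) := by
    intro U hU V hV
    refine (map_map_apply F _ _ _).trans (Eq.trans ?_ (map_map_apply F _ _ _).symm)
    apply yFam_compat 𝓤 t x hx ht
    exact (resLE_resLE_resHom T _ _).trans (resLE_resLE_resHom T _ _).symm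
  obtain ⟨a, ha⟩ := hF.glue T 𝒰 h𝒰 xU hcompU
  have hres : ∀ (b : F.obj (op T)) (i : 𝓤.I₀),
      F.map (resHom T (𝓤.f i).opensRange).op b = yFam 𝓤 t x ht i ↔
        F.map (resHom T (𝓤.f i).opensRange).op b = xU _ ⟨i, rfl⟩ := by
    intro b i
    have : xU _ ⟨i, rfl⟩ = yFam 𝓤 t x ht i := by
      rw [hxU _ ⟨i, rfl⟩ i le_rfl]
      rw [resLE_refl, op_id, map_id_apply']
    rw [this]
  refine ⟨⟨t, a⟩, fun i => ?_, ?_⟩
  · exact (pull_eq_iff 𝓤 t x ht a i).mpr ((hres a i).mpr (ha _ ⟨i, rfl⟩))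
  · rintro ⟨t', a'⟩ hz
    have htt' : t' = t := by
      apply 𝓤.hom_ext
      intro i
      rw [ht i]
      exact congrArg Sigma.fst (hz i)
    subst htt'
    congr 1
    apply hF.sep T 𝒰 h𝒰
    rintro U ⟨i, rfl⟩
    rw [ha _ ⟨i, rfl⟩]
    exact (hres a' i).mp ((pull_eq_iff 𝓤 t' x ht a' i).mp (hz i))

end Fermat.Agent.JAC.REP

namespace Fermat.Agent.JAC.REP

variable {S : Scheme.{u}} {F : (Over S)ᵒᵖ ⥤ Type u}

/-- The total presheaf of a Zariski sheaf (open-subset form) is a sheaf for Mathlib's big Zariski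
topology. -/
theorem total_isSheaf (hF : IsZariskiSheaf F) :
    Presieve.IsSheaf Scheme.zariskiTopology.{u} (total F) := by
  rw [Precoverage.isSheaf_toGrothendieck_iff_of_isStableUnderBaseChange]
  rintro Y R hR
  obtain ⟨(𝓤 : Scheme.OpenCover Y), rfl⟩ := Scheme.exists_cover_of_mem_pretopology hR
  exact total_isSheafFor hF 𝓤

/-- The total presheaf as a sheaf. -/
def totalSheaf (hF : IsZariskiSheaf F) : Sheaf Scheme.zariskiTopology.{u} (Type u) :=
  ⟨total F, (isSheaf_iff_isSheaf_of_type _ _).mpr (total_isSheaf hF)⟩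

end Fermat.Agent.JAC.REP
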