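/-
PROJECT JAC (S25) — brick (REP), helper9: charts.  Extension of `mono` and `W_spec` from affine test
objects to all schemes.
-/
import Fermat.Agent.JAC.REP_helper9_Sheaf

set_option autoImplicit false

universe u

open CategoryTheory CategoryTheory.Limits AlgebraicGeometry Opposite

namespace Fermat.Agent.JAC.REP

variable {S : Scheme.{u}} {F : (Over S)ᵒᵖ ⥤ Type u}

/-- two morphisms of `S`-schemes agreeing on an open cover of the source are equal. -/
theorem over_hom_ext_of_cover {T X : Over S} (𝓤 : Scheme.OpenCover.{u} T.left) (b b' : T ⟶ X)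
    (h : ∀ j, 𝓤.f j ≫ b.left = 𝓤.f j ≫ b'.left) : b = b' :=
  Over.OverMorphism.ext (𝓤.hom_ext _ _ h)

namespace ChartData

variable (D : ChartData F)

/-- (mono) for all `S`-schemes. -/
theorem mono_all (i : D.ι) (T : Over S) (b b' : T ⟶ D.X i)
    (h : F.map b.op (D.ξ i) = F.map b'.op (D.ξ i)) : b = b' := by
  apply over_hom_ext_of_cover T.left.affineCover
  intro j
  let Tj : Over S := Over.mk (T.left.affineCover.f j ≫ T.hom)
  let aj : Tj ⟶ T := Over.homMk (T.left.affineCover.f j) rfl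
  have haff : IsAffine Tj.left := by
    show IsAffine (T.left.affineCover.X j)
    infer_instance
  have h' : aj ≫ b = aj ≫ b' := by
    apply D.mono i Tj haff
    rw [op_comp, op_comp, ← map_map_apply, ← map_map_apply, h]
  exact congrArg (fun m => m.left) h'

variable (hF : IsZariskiSheaf F)

/-- the easy direction of (open), for all `S`-schemes. -/
theorem range_subset_W_of_exists (i : D.ι) (T : Over S) (η : F.obj (op T)) (T' : Over S)
    (a : T' ⟶ T) (h : ∃ b : T' ⟶ D.X i, F.map b.op (D.ξ i) = F.map a.op η) :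
    Set.range a.left.base ⊆ (D.W i T η : Set T.left) := by
  obtain ⟨b, hb⟩ := h
  rintro _ ⟨x, rfl⟩
  obtain ⟨j, y, hy⟩ := T'.left.affineCover.exists_eq x
  let Tj : Over S := Over.mk (T'.left.affineCover.f j ≫ T'.hom)
  let aj : Tj ⟶ T' := Over.homMk (T'.left.affineCover.f j) rfl
  have haff : IsAffine Tj.left := by
    show IsAffine (T'.left.affineCover.X j)
    infer_instance
  have hsub := (D.W_spec i T η Tj haff (aj ≫ a)).mpr ⟨aj ≫ b, by
    rw [op_comp, op_comp, ← map_map_apply, ← map_map_apply, hb]⟩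
  apply hsub
  refine ⟨y, ?_⟩
  rw [← hy]
  rfl

include hF in
/-- the hard direction of (open), for all `S`-schemes: gluing the classifying morphisms on an affine
open cover. -/
theorem exists_of_range_subset_W (i : D.ι) (T : Over S) (η : F.obj (op T)) (T' : Over S)
    (a : T' ⟶ T) (h : Set.range a.left.base ⊆ (D.W i T η : Set T.left)) :
    ∃ b : T' ⟶ D.X i, F.map b.op (D.ξ i) = F.map a.op η := by
  -- the affine opens of `T'`
  let 𝒰 : Set T'.left.Opens := T'.left.affineOpens
  have h𝒰 : sSup 𝒰 = ⊤ := by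
    rw [sSup_eq_iSup']
    exact iSup_affineOpens_eq_top T'.left
  -- local classifying morphisms
  have hloc : ∀ U : 𝒰, ∃ b : resOpen T' U.1 ⟶ D.X i,
      F.map b.op (D.ξ i) = F.map (resHom T' U.1 ≫ a).op η := by
    intro U
    have haff : IsAffine (resOpen T' U.1).left := U.2
    refine (D.W_spec i T η (resOpen T' U.1) haff (resHom T' U.1 ≫ a)).mp ?_
    rintro _ ⟨x, rfl⟩
    exact h ⟨(resHom T' U.1).left.base x, rfl⟩
  choose bU hbU using hloc
  -- glue them
  let 𝓥 : Scheme.OpenCover.{u} T'.left :=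
    T'.left.openCoverOfIsOpenCover (fun U : 𝒰 => U.1) (by
      show ⨆ U : 𝒰, U.1 = ⊤
      rw [← sSup_eq_iSup']; exact h𝒰)
  have hcompat : ∀ U V : 𝒰, pullback.fst (𝓥.f U) (𝓥.f V) ≫ (bU U).left =
      pullback.snd (𝓥.f U) (𝓥.f V) ≫ (bU V).left := by
    intro U V
    let P : Over S := Over.mk (pullback.fst (𝓥.f U) (𝓥.f V) ≫ U.1.ι ≫ T'.hom)
    let p1 : P ⟶ resOpen T' U.1 := Over.homMk (pullback.fst (𝓥.f U) (𝓥.f V)) rfl
    let p2 : P ⟶ resOpen T' V.1 := Over.homMk (pullback.snd (𝓥.f U) (𝓥.f V)) (by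
      exact (Category.assoc _ _ _).symm.trans
        ((congrArg (fun m => m ≫ T'.hom) pullback.condition.symm).trans (Category.assoc _ _ _)))
    have hp : p1 ≫ resHom T' U.1 = p2 ≫ resHom T' V.1 := by
      apply Over.OverMorphism.ext
      exact pullback.condition
    have key : p1 ≫ bU U = p2 ≫ bU V := by
      apply D.mono_all i P
      rw [op_comp, op_comp, ← map_map_apply, ← map_map_apply, hbU U, hbU V,
        map_map_apply, map_map_apply, ← op_comp, ← op_comp, ← Category.assoc, ← Category.assoc, hp]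
    exact congrArg (fun m => m.left) key
  let β : T'.left ⟶ (D.X i).left := 𝓥.glueMorphisms (fun U => (bU U).left) hcompat
  have hβ : ∀ U : 𝒰, U.1.ι ≫ β = (bU U).left := fun U => 𝓥.ι_glueMorphisms _ hcompat U
  have hβw : β ≫ (D.X i).hom = T'.hom := by
    apply 𝓥.hom_ext
    intro U
    show U.1.ι ≫ β ≫ (D.X i).hom = U.1.ι ≫ T'.hom
    rw [← Category.assoc, hβ U]
    exact Over.w (bU U)
  refine ⟨Over.homMk β hβw, ?_⟩
  apply hF.sep T' 𝒰 h𝒰
  intro U hU
  have hres : resHom T' U ≫ (Over.homMk β hβw : T' ⟶ D.X i) = bU ⟨U, hU⟩ := by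
    apply Over.OverMorphism.ext
    exact hβ ⟨U, hU⟩
  rw [map_map_apply, ← op_comp, hres, hbU ⟨U, hU⟩, op_comp, ← map_map_apply]

include hF in
/-- (open) for all `S`-schemes. -/
theorem W_spec_all (i : D.ι) (T : Over S) (η : F.obj (op T)) (T' : Over S) (a : T' ⟶ T) :
    Set.range a.left.base ⊆ (D.W i T η : Set T.left) ↔
      ∃ b : T' ⟶ D.X i, F.map b.op (D.ξ i) = F.map a.op η :=
  ⟨D.exists_of_range_subset_W hF i T η T' a, D.range_subset_W_of_exists i T η T' a⟩

end ChartData

end Fermat.Agent.JAC.REP
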