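/-
PROJECT JAC (S25) — brick (REP), helper9: the representability theorem `nonempty_representation`.
-/
import Fermat.Agent.JAC.REP_helper9_Charts

set_option autoImplicit false

universe u

open CategoryTheory CategoryTheory.Limits AlgebraicGeometry Opposite

namespace Fermat.Agent.JAC.REP

variable {S : Scheme.{u}} {F : (Over S)ᵒᵖ ⥤ Type u}

/-- the identity `Over.mk X.hom ⟶ X`. -/
def ovEta (X : Over S) : Over.mk X.hom ⟶ X := Over.homMk (𝟙 _) (Category.id_comp _)

/-- the identity `X ⟶ Over.mk X.hom`. -/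
def ovEtaInv (X : Over S) : X ⟶ Over.mk X.hom := Over.homMk (𝟙 _) (Category.id_comp _)

/-- an isomorphism of `S`-schemes induces an injection on `F`. -/
theorem map_injective_of_isIso_left {A B : Over S} (m : A ⟶ B) [hiso : IsIso m.left] :
    Function.Injective (F.map m.op) := by
  have hl : IsIso ((Over.forget S).map m) := (inferInstance : IsIso m.left)
  have : IsIso m := isIso_of_reflects_iso m (Over.forget S)
  intro a b h
  have h' := congrArg (F.map (inv m).op) h
  rw [map_map_apply, map_map_apply, ← op_comp, IsIso.inv_hom_id, op_id, map_id_apply',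
    map_id_apply'] at h'
  exact h'

/-- extensionality for the total presheaf through a common `S`-scheme. -/
theorem TotObj.ext_of_map {T' : Scheme.{u}} {y y' : TotObj F T'} (W : Over S)
    (m : W ⟶ Over.mk y.1) (m' : W ⟶ Over.mk y'.1) (_hiso : IsIso m.left) (hm : m.left = m'.left)
    (h : F.map m.op y.2 = F.map m'.op y'.2) : y = y' := by
  obtain ⟨t, a⟩ := y
  obtain ⟨t', a'⟩ := y'
  have ht : t = t' := by
    have h1 : m.left ≫ t = W.hom := Over.w m
    have h2 : m'.left ≫ t' = W.hom := Over.w m'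
    rw [← hm] at h2
    exact (cancel_epi m.left).mp (h1.trans h2.symm)
  subst ht
  have hmm : m = m' := Over.OverMorphism.ext hm
  subst hmm
  have := map_injective_of_isIso_left (F := F) m h
  dsimp only at this
  rw [this]

/-- pulling back an element of the total presheaf along a morphism of `S`-schemes. -/
theorem TotObj.pull_left {T : Scheme.{u}} (x : TotObj F T) {T' : Over S} (a : T' ⟶ Over.mk x.1) :
    TotObj.pull a.left x = ⟨T'.hom, F.map (ovEta T').op (F.map a.op x.2)⟩ := by
  have hw : 𝟙 T'.left ≫ a.left ≫ x.1 = T'.hom := by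
    rw [Category.id_comp]; exact Over.w a
  refine TotObj.ext_of_map T'
    (Over.homMk (𝟙 T'.left) hw : T' ⟶ Over.mk (a.left ≫ x.1)) (ovEtaInv T')
    (inferInstanceAs (IsIso (𝟙 T'.left))) rfl ?_
  show F.map _ (F.map (ovHom a.left x.1).op x.2) =
    F.map (ovEtaInv T').op (F.map (ovEta T').op (F.map a.op x.2))
  refine (map_map_apply F _ _ _).trans ?_
  refine Eq.trans ?_ ((congrArg _ (map_map_apply F _ _ _)).trans (map_map_apply F _ _ _)).symm
  apply map_congr_unop
  show 𝟙 T'.left ≫ a.left = 𝟙 T'.left ≫ 𝟙 _ ≫ a.left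
  simp

/-- two classes over the same `S`-scheme with the same image in the total presheaf are equal. -/
theorem TotObj.eq_of_mk_eq {T' : Over S} {u v : F.obj (op T')}
    (h : (⟨T'.hom, F.map (ovEta T').op u⟩ : TotObj F T'.left) = ⟨T'.hom, F.map (ovEta T').op v⟩) :
    u = v := by
  have h' := eq_of_heq (Sigma.mk.inj h).2
  exact map_injective_of_isIso_left (F := F) (ovEta T') (hiso := inferInstanceAs (IsIso (𝟙 T'.left))) h'

namespace ChartData

variable (D : ChartData F)

/-- the element of the total presheaf given by the `i`-th chart. -/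
def tot (i : D.ι) : TotObj F (D.X i).left := ⟨(D.X i).hom, F.map (ovEta (D.X i)).op (D.ξ i)⟩

/-- the `i`-th chart as a morphism of presheaves on `Scheme`. -/
def chartMap (i : D.ι) : yoneda.obj (D.X i).left ⟶ total F := yonedaEquiv.symm (D.tot i)

theorem chartMap_app_apply (i : D.ι) {T' : Scheme.{u}} (φ : T' ⟶ (D.X i).left) :
    (D.chartMap i).app (op T') φ = TotObj.pull φ (D.tot i) := rfl

/-- pulling back the chart class along a morphism of `S`-schemes. -/
theorem pull_tot (i : D.ι) {T' : Over S} (b : T' ⟶ D.X i) :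
    TotObj.pull b.left (D.tot i) = ⟨T'.hom, F.map (ovEta T').op (F.map b.op (D.ξ i))⟩ := by
  have hw : 𝟙 T'.left ≫ b.left ≫ (D.X i).hom = T'.hom := by
    rw [Category.id_comp]; exact Over.w b
  refine TotObj.ext_of_map T'
    (Over.homMk (𝟙 T'.left) hw : T' ⟶ Over.mk (b.left ≫ (D.X i).hom)) (ovEtaInv T')
    (inferInstanceAs (IsIso (𝟙 T'.left))) rfl ?_
  show F.map _ (F.map (ovHom b.left (D.X i).hom).op (F.map (ovEta (D.X i)).op (D.ξ i))) =
    F.map (ovEtaInv T').op (F.map (ovEta T').op (F.map b.op (D.ξ i)))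
  refine ((congrArg _ (map_map_apply F _ _ _)).trans (map_map_apply F _ _ _)).trans ?_
  refine Eq.trans ?_ ((congrArg _ (map_map_apply F _ _ _)).trans (map_map_apply F _ _ _)).symm
  apply map_congr_unop
  show 𝟙 T'.left ≫ b.left ≫ 𝟙 _ = 𝟙 T'.left ≫ 𝟙 _ ≫ b.left
  simp

section pullback

variable (hF : IsZariskiSheaf F) (i : D.ι) {T : Scheme.{u}} (x : TotObj F T)

/-- the open subscheme of `T` over which `x` comes from the `i`-th chart. -/
def Wx : (Over.mk x.1).left.Opens := D.W i (Over.mk x.1) x.2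

include hF in
theorem exists_bW : ∃ b : resOpen (Over.mk x.1) (D.Wx i x) ⟶ D.X i,
    F.map b.op (D.ξ i) = F.map (resHom (Over.mk x.1) (D.Wx i x)).op x.2 := by
  refine (D.W_spec_all hF i (Over.mk x.1) x.2 _ (resHom (Over.mk x.1) (D.Wx i x))).mp ?_
  rintro _ ⟨y, rfl⟩
  exact y.2

/-- (A) the square commutes. -/
theorem pull_bW (b : resOpen (Over.mk x.1) (D.Wx i x) ⟶ D.X i)
    (hb : F.map b.op (D.ξ i) = F.map (resHom (Over.mk x.1) (D.Wx i x)).op x.2) :
    TotObj.pull b.left (D.tot i) = TotObj.pull (D.Wx i x).ι x := by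
  refine (D.pull_tot i b).trans ?_
  refine Eq.trans ?_ (TotObj.pull_left x (resHom (Over.mk x.1) (D.Wx i x))).symm
  rw [hb]

/-- (C) the square is cartesian: existence. -/
theorem exists_lift_bW (b : resOpen (Over.mk x.1) (D.Wx i x) ⟶ D.X i)
    (hb : F.map b.op (D.ξ i) = F.map (resHom (Over.mk x.1) (D.Wx i x)).op x.2)
    {T' : Scheme.{u}} (φ : T' ⟶ (D.X i).left) (ψ : T' ⟶ T)
    (h : TotObj.pull φ (D.tot i) = TotObj.pull ψ x) :
    ∃ χ : T' ⟶ (D.Wx i x : Scheme.{u}), χ ≫ b.left = φ ∧ χ ≫ (D.Wx i x).ι = ψ := by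
  have h1 : φ ≫ (D.X i).hom = ψ ≫ x.1 := congrArg Sigma.fst h
  let T'' : Over S := Over.mk (ψ ≫ x.1)
  let a : T'' ⟶ Over.mk x.1 := ovHom ψ x.1
  let b' : T'' ⟶ D.X i := Over.homMk φ h1
  have hb' : F.map b'.op (D.ξ i) = F.map a.op x.2 := by
    apply TotObj.eq_of_mk_eq
    exact ((D.pull_tot i b').symm.trans h).trans (TotObj.pull_left x a)
  have hsub : Set.range ψ.base ⊆ ((D.Wx i x : (Over.mk x.1).left.Opens) : Set (Over.mk x.1).left) :=
    D.range_subset_W_of_exists i (Over.mk x.1) x.2 T'' a ⟨b', hb'⟩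
  have hsub' : Set.range ψ.base ⊆ Set.range (D.Wx i x).ι.base := by
    rw [Scheme.Opens.range_ι]; exact hsub
  let χ : T' ⟶ (D.Wx i x : Scheme.{u}) := IsOpenImmersion.lift (D.Wx i x).ι ψ hsub'
  have hχ : χ ≫ (D.Wx i x).ι = ψ := IsOpenImmersion.lift_fac _ _ _
  refine ⟨χ, ?_, hχ⟩
  let χo : T'' ⟶ resOpen (Over.mk x.1) (D.Wx i x) := Over.homMk χ (by
    show χ ≫ (D.Wx i x).ι ≫ x.1 = ψ ≫ x.1
    rw [← Category.assoc, hχ])
  have hχa : χo ≫ resHom (Over.mk x.1) (D.Wx i x) = a := Over.OverMorphism.ext hχ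
  have key : χo ≫ b = b' := by
    apply D.mono_all i T''
    rw [hb', op_comp, ← map_map_apply, hb, map_map_apply, ← op_comp, hχa]
  exact congrArg (fun m => m.left) key

end pullback

variable (hF : IsZariskiSheaf F)

include hF in
/-- the chart maps are relatively representable open immersions. -/
theorem chartMap_isOpenImmersion (i : D.ι) : IsOpenImmersion.presheaf (D.chartMap i) := by
  apply MorphismProperty.relative.of_exists
  intro T g
  obtain ⟨x, rfl⟩ := yonedaEquiv.symm.surjective g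
  obtain ⟨b, hb⟩ := D.exists_bW hF i x
  refine ⟨(D.Wx i x : Scheme.{u}), yoneda.map b.left, (D.Wx i x).ι, ?_,
    (inferInstance : IsOpenImmersion (D.Wx i x).ι)⟩
  apply IsPullback.of_forall_isPullback_app
  intro T'
  rw [Types.isPullback_iff]
  refine ⟨?_, ?_, ?_⟩
  · ext χ
    show TotObj.pull (χ ≫ b.left) (D.tot i) = TotObj.pull (χ ≫ (D.Wx i x).ι) x
    exact (TotObj.pull_comp _ _ _).trans
      ((congrArg (TotObj.pull _) (D.pull_bW i x b hb)).trans (TotObj.pull_comp _ _ _).symm)
  · rintro χ χ' ⟨-, h2⟩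
    exact (cancel_mono (D.Wx i x).ι).mp h2
  · intro φ ψ h
    exact D.exists_lift_bW i x b hb φ ψ h

end ChartData

namespace ChartData

variable (D : ChartData F) (hF : IsZariskiSheaf F)

include hF in
theorem chartMap_isLocallySurjective :
    Presheaf.IsLocallySurjective Scheme.zariskiTopology (Sigma.desc D.chartMap) := by
  constructor
  intro T x
  change TotObj F T at x
  rw [Scheme.zariskiTopology, Scheme.mem_grothendieckTopology_iff]
  let 𝓥 : Scheme.OpenCover.{u} T := T.openCoverOfIsOpenCover (fun i => D.Wx i x) (D.cover _ x.2)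
  refine ⟨𝓥, ?_⟩
  rintro T' _ ⟨i⟩
  obtain ⟨b, hb⟩ := D.exists_bW hF i x
  refine ⟨(Sigma.ι (fun i => yoneda.obj (D.X i).left) i).app _ b.left, ?_⟩
  have h1 : Sigma.ι _ i ≫ Sigma.desc D.chartMap = D.chartMap i := Sigma.ι_desc _ _
  have h2 := congrArg (fun m => m.app (op (D.Wx i x : Scheme.{u})) b.left) h1
  refine h2.trans ?_
  exact D.pull_bW i x b hb

end ChartData

/-- a representable total presheaf gives a representing `S`-scheme. -/
theorem exists_univ_of_representableBy {G : Scheme.{u}} (R : (total F).RepresentableBy G) :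
    ∃ (s : G ⟶ S) (Ξ : F.obj (op (Over.mk s))),
      (∀ {T' : Scheme.{u}} (g : T' ⟶ G), R.homEquiv g = TotObj.pull g (⟨s, Ξ⟩ : TotObj F G)) ∧
      ∀ (T : Over S) (η : F.obj (op T)), ∃! g : T ⟶ Over.mk s, F.map g.op Ξ = η := by
  generalize hu : R.homEquiv (𝟙 G) = u
  rcases u with ⟨s, Ξ⟩
  have hpull : ∀ {T' : Scheme.{u}} (g : T' ⟶ G),
      R.homEquiv g = TotObj.pull g (⟨s, Ξ⟩ : TotObj F G) := by
    intro T' g
    have := R.homEquiv_comp g (𝟙 G)
    rw [Category.comp_id, hu] at this
    exact this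
  refine ⟨s, Ξ, hpull, ?_⟩
  intro T η
  let y : TotObj F T.left := ⟨T.hom, F.map (ovEta T).op η⟩
  let g₀ : T.left ⟶ G := R.homEquiv.symm y
  have hg₀ : TotObj.pull g₀ (⟨s, Ξ⟩ : TotObj F G) = y :=
    (hpull g₀).symm.trans (R.homEquiv.apply_symm_apply y)
  have hw : g₀ ≫ s = T.hom := congrArg Sigma.fst hg₀
  refine ⟨Over.homMk g₀ hw, ?_, ?_⟩
  · apply TotObj.eq_of_mk_eq
    exact (TotObj.pull_left (⟨s, Ξ⟩ : TotObj F G) (Over.homMk g₀ hw : T ⟶ Over.mk s)).symm.trans hg₀
  · intro g' hg'
    apply Over.OverMorphism.ext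
    show g'.left = g₀
    apply R.homEquiv.injective
    rw [hpull, hpull, hg₀]
    refine (TotObj.pull_left (⟨s, Ξ⟩ : TotObj F G) g').trans ?_
    rw [hg']

open Scheme.LocalRepresentability in
/-- **(REP)** A Zariski sheaf on `S`-schemes covered by representable open subfunctors is
representable, by an `S`-scheme glued from the charts. -/
theorem nonempty_representation (hF : IsZariskiSheaf F) (D : ChartData F) :
    Nonempty (Representation F D) := by
  let f : ∀ i, yoneda.obj (D.X i).left ⟶ (totalSheaf hF).obj := D.chartMap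
  have hf : ∀ i, IsOpenImmersion.presheaf (f i) := D.chartMap_isOpenImmersion hF
  have : Presheaf.IsLocallySurjective Scheme.zariskiTopology (Sigma.desc f) :=
    D.chartMap_isLocallySurjective hF
  let R : (total F).RepresentableBy (glueData hf).glued := representableBy hf
  obtain ⟨s, Ξ, hpull, huniv⟩ := exists_univ_of_representableBy R
  have hj : ∀ i, TotObj.pull (toGlued hf i) (⟨s, Ξ⟩ : TotObj F _) = D.tot i := by
    intro i
    rw [← hpull]
    show (yonedaGluedToSheaf hf).hom.app (op (D.X i).left) (toGlued hf i) = _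
    rw [yonedaGluedToSheaf_app_toGlued]
    exact Equiv.apply_symm_apply _ _
  have hjw : ∀ i, toGlued hf i ≫ s = (D.X i).hom := fun i => congrArg Sigma.fst (hj i)
  refine ⟨{
    J := Over.mk s
    ξ := Ξ
    univ := huniv
    j := fun i => Over.homMk (toGlued hf i) (hjw i)
    j_open := fun i => inferInstanceAs (IsOpenImmersion (toGlued hf i))
    j_ξ := fun i => ?_
    j_cover := fun x => ?_ }⟩
  · apply TotObj.eq_of_mk_eq
    exact (TotObj.pull_left (⟨s, Ξ⟩ : TotObj F _)
      (Over.homMk (toGlued hf i) (hjw i) : D.X i ⟶ Over.mk s)).symm.trans (hj i)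
  · obtain ⟨i, y, hy⟩ := (glueData hf).ι_jointly_surjective x
    exact ⟨i, y, hy⟩

end Fermat.Agent.JAC.REP
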