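/-
PROJECT JAC (S25) — brick (SEP), helper9: a group scheme over a field is separated.
-/
import Mathlib

set_option autoImplicit false

universe u

open CategoryTheory CategoryTheory.Limits AlgebraicGeometry Opposite MonoidalCategory
  CartesianMonoidalCategory MonObj

namespace Fermat.Agent.JAC.GRP

section general

variable {C : Type*} [Category C] [CartesianMonoidalCategory C] (G : C) [GrpObj G]

/-- the diagonal of a group object is the pull-back of the unit section along the division map. -/
theorem isPullback_diag_of_grpObj :
    IsPullback (lift (𝟙 G) (𝟙 G)) (toUnit G) (fst G G / snd G G) η[G] := by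
  have hw : lift (𝟙 G) (𝟙 G) ≫ (fst G G / snd G G) = toUnit G ≫ η[G] := by
    rw [GrpObj.comp_div, lift_fst, lift_snd, div_self']
    rfl
  refine ⟨⟨hw⟩, ⟨PullbackCone.IsLimit.mk _ (fun s => s.fst ≫ fst G G) ?_ ?_ ?_⟩⟩
  · intro s
    have h := s.condition
    rw [GrpObj.comp_div] at h
    have h1 : s.snd ≫ η[G] = 1 := by
      rw [Hom.one_def]
      congr 1
      exact toUnit_unique _ _
    rw [h1, div_eq_one] at h
    apply CartesianMonoidalCategory.hom_ext
    · simp
    · simp [h]
  · intro s
    exact toUnit_unique _ _
  · intro s m hm _
    rw [← hm]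
    simp

end general

/-- **(SEP-1)** a group scheme over a field is separated. -/
theorem isSeparated_of_grpObj {K : Type u} [Field K] (G : Over (Spec (CommRingCat.of K)))
    [GrpObj G] : IsSeparated G.hom := by
  have h := (isPullback_diag_of_grpObj G).map (Over.forget (Spec (CommRingCat.of K)))
  have hη : IsClosedImmersion η[G].left := inferInstance
  have hd : IsClosedImmersion (lift (𝟙 G) (𝟙 G)).left :=
    MorphismProperty.of_isPullback (P := @IsClosedImmersion) h.flip hη
  exact ⟨hd⟩

end Fermat.Agent.JAC.GRP
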