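/-
PROJECT JAC (S25) — brick (REP), helper9: consequences of a `Representation`:
`RepresentableBy`, source-local properties from the charts, separatedness from a group structure.
-/
import Fermat.Agent.JAC.REP_helper9_Main
import Fermat.Agent.JAC.GRP_helper9_Separated

set_option autoImplicit false

universe u

open CategoryTheory CategoryTheory.Limits AlgebraicGeometry Opposite

namespace Fermat.Agent.JAC.REP

variable {S : Scheme.{u}} {F : (Over S)ᵒᵖ ⥤ Type u} {D : ChartData F}

namespace Representation

variable (R : Representation F D)

/-- the representing object represents `F` in Mathlib's sense. -/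
noncomputable def representableBy : F.RepresentableBy R.J where
  homEquiv {T} := Equiv.ofBijective (fun g : T ⟶ R.J => F.map g.op R.ξ) (by
    constructor
    · intro g g' h
      obtain ⟨g₀, -, huniq⟩ := R.univ T (F.map g'.op R.ξ)
      exact (huniq g h).trans (huniq g' rfl).symm
    · intro η
      obtain ⟨g, hg, -⟩ := R.univ T η
      exact ⟨g, hg⟩)
  homEquiv_comp {T T'} f g := by
    show F.map (f ≫ g).op R.ξ = F.map f.op (F.map g.op R.ξ)
    rw [op_comp, ← map_map_apply]

@[simp]
theorem representableBy_homEquiv_apply {T : Over S} (g : T ⟶ R.J) :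
    R.representableBy.homEquiv g = F.map g.op R.ξ := rfl

/-- the charts form an open cover of the representing scheme. -/
noncomputable def openCover : Scheme.OpenCover.{u} R.J.left :=
  Scheme.Cover.mkOfCovers D.ι (fun i => (D.X i).left) (fun i => (R.j i).left)
    (fun x => by
      obtain ⟨i, y, hy⟩ := R.j_cover x
      exact ⟨i, y, hy⟩)
    (fun i => R.j_open i)

/-- a source-local property of all the charts holds for the representing scheme. -/
theorem of_isZariskiLocalAtSource (P : MorphismProperty Scheme.{u}) [IsZariskiLocalAtSource P]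
    (h : ∀ i, P (D.X i).hom) : P R.J.hom := by
  rw [IsZariskiLocalAtSource.iff_of_openCover (P := P) R.openCover]
  intro i
  have : (R.j i).left ≫ R.J.hom = (D.X i).hom := Over.w (R.j i)
  show P ((R.j i).left ≫ R.J.hom)
  rw [this]
  exact h i

/-- **(LFT)** -/
theorem locallyOfFiniteType (h : ∀ i, LocallyOfFiniteType (D.X i).hom) :
    LocallyOfFiniteType R.J.hom :=
  haveI : IsZariskiLocalAtSource @LocallyOfFiniteType.{u} :=
    HasRingHomProperty.instIsZariskiLocalAtSource
  R.of_isZariskiLocalAtSource @LocallyOfFiniteType h

theorem smooth (h : ∀ i, Smooth (D.X i).hom) : Smooth R.J.hom :=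
  haveI : IsZariskiLocalAtSource @Smooth.{u} := HasRingHomProperty.instIsZariskiLocalAtSource
  R.of_isZariskiLocalAtSource @Smooth h

end Representation

/-- **(SEP-2)** if the represented functor is group-valued over a field, the representing scheme
is a group scheme. -/
@[instance_reducible]
noncomputable def Representation.grpObj {K : Type u} [Field K]
    {F : (Over (Spec (CommRingCat.of K)))ᵒᵖ ⥤ Type u} {D : ChartData F} (R : Representation F D)
    (Fg : (Over (Spec (CommRingCat.of K)))ᵒᵖ ⥤ GrpCat.{u}) (e : Fg ⋙ forget GrpCat ≅ F) :
    GrpObj R.J :=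
  GrpObj.ofRepresentableBy R.J Fg (R.representableBy.ofIso e.symm)

/-- **(SEP-2)** if the represented functor is group-valued over a field, the representing scheme
is separated. -/
theorem Representation.isSeparated {K : Type u} [Field K]
    {F : (Over (Spec (CommRingCat.of K)))ᵒᵖ ⥤ Type u} {D : ChartData F} (R : Representation F D)
    (Fg : (Over (Spec (CommRingCat.of K)))ᵒᵖ ⥤ GrpCat.{u}) (e : Fg ⋙ forget GrpCat ≅ F) :
    IsSeparated R.J.hom :=
  letI := R.grpObj Fg e
  GRP.isSeparated_of_grpObj R.J

end Fermat.Agent.JAC.REP
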