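/-
PROJECT JAC (S25) — helper4: **THE FINAL ASSEMBLY** of S25 (and the LB-level export (J-LB) for
S27) from the remaining inputs:

* `Dch : REP.ChartData (picFunctor c ε (LBCond.degZero c))` with charts locally of finite type
  [(P) + (D3) + (H)];
* the Abel–Jacobi class `x ∈ picFunctor c ε (LBCond.degZero c) (C)` with its fibres `O(z − ε₀)`
  [(AJ)].

Everything else is discharged here: Zariski sheaf [helper1], (REP) [helper9], adapter [helper1],
(LFT) [helper9], separated/proper/connected [helper6], smooth [helper3 + helper4], AE0 ⇔ degree 0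
and geometric connectedness [helper4], `ModBridge` [helper1], Riemann–Roch [helper2].
-/
import Mathlib
import Fermat.Agent.JAC.J8_helper4_Cond
import Fermat.Agent.JAC.J8_helper4_AJDeg
import Fermat.Agent.JAC.J6_helper6_AJ
import Fermat.Agent.JAC.REP_helper9_Main
import Fermat.Agent.JAC.REP_helper9_Props
import Fermat.Agent.JAC.SH_helper1_Sheaf
import Fermat.Agent.JAC.BR_helper1_ModBridge
import Fermat.Agent.JAC.AJ_helper1_Final

set_option autoImplicit false
set_option linter.style.haveILetI false
open CategoryTheory CategoryTheory.Limits AlgebraicGeometry AlgebraicGeometry.RelPicard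
  NeronModelInfra GoodReductionJacobian TopologicalSpace Opposite
universe u

namespace Fermat.Agent.JAC

open Fermat.Agent.AV

noncomputable section

variable (k : Type u) [Field k] [IsAlgClosed k] {C : Scheme.{u}}
  (c : C ⟶ Spec (CommRingCat.of k)) [IsProper c] [SmoothOfRelativeDimension 1 c] [IsIntegral C]
  (ε : SchemeHomOver (𝟙 (Spec (CommRingCat.of k))) c)

/-- **S25 and its LB-level refinement from the charts and the Abel–Jacobi class.** -/
theorem s25_of_chartData
    (Dch : REP.ChartData (picFunctor c ε (LBCond.degZero c)))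
    (hlft : ∀ i, LocallyOfFiniteType (Dch.X i).hom)
    (ε₀ : C) (hε₀ : ε₀ ≠ genericPoint C)
    (x : (picFunctor c ε (LBCond.degZero c)).obj (op (Over.mk c)))
    (hx : haveI : IsNoetherian C := isNoetherian_of_isProper_field c
      ∀ z : C, z ≠ genericPoint C →
      ∃ y : Over.mk (𝟙 (Spec (CommRingCat.of k))) ⟶ Over.mk c,
        PicGroup.map (J6.toFibre c)
          (PicObj.cls ((picFunctor c ε (LBCond.degZero c)).map y.op x)) =
          J6.ptClsCurve c z - J6.ptClsCurve c ε₀) :
    ∃ D : RelativePic0Designation k c,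
      Nonempty (LBRepresentsCond c ε (LBCond.degZero c) D) ∧
      Nonempty (RepresentsRelSubPic c ε (algEquivZeroCut c ε) D) ∧
        Smooth D.toBase ∧ IsProper D.toBase ∧ GeometricallyConnected D.toBase ∧
        ConnectedSpace D.P := by
  haveI : IsNoetherian C := isNoetherian_of_isProper_field c
  obtain ⟨R⟩ := REP.nonempty_representation
    (isZariskiSheaf_picFunctor (c := c) (ε := ε) (LBCond.degZero c)) Dch
  have hone : (LBCond.degZero c).P (𝟙 (Spec (CommRingCat.of k))) (LB.trivial _) :=
    LBCond.IsMul.one _
  obtain ⟨h⟩ := R.lbRepresentsCond hone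
  haveI : LocallyOfFiniteType (R.designation hone).toBase := R.locallyOfFiniteType hlft
  obtain ⟨hprop, hconn⟩ := J6.isProper_and_connectedSpace_of_AJ c ε (LBCond.degZero c)
    (fun N hN => LBFibrewiseDegZero.deg_pullback_of_section hN (J6.toFibre c) (J6.toFibre_fst c))
    (R.designation hone) h ε₀ hε₀ x hx
  haveI := hprop
  haveI := hconn
  have hsm : Smooth (R.designation hone).toBase := smooth_of_lbRepresentsDeg0 h.toDeg0
  haveI := hsm
  exact ⟨R.designation hone, ⟨h⟩,
    representsRelSubPic_of_lb modBridge (lbRepresentsAE0_of_deg0 h.toDeg0), hsm, hprop,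
    geometricallyConnected_of_connectedSpace (R.designation hone).toBase, hconn⟩

/-- **S25 and its LB-level refinement from the charts alone** (the Abel–Jacobi class is helper1's
`exists_abelJacobi_class`). -/
theorem s25_of_chartData'
    (Dch : REP.ChartData (picFunctor c ε (LBCond.degZero c)))
    (hlft : ∀ i, LocallyOfFiniteType (Dch.X i).hom) :
    ∃ D : RelativePic0Designation k c,
      Nonempty (LBRepresentsCond c ε (LBCond.degZero c) D) ∧
      Nonempty (RepresentsRelSubPic c ε (algEquivZeroCut c ε) D) ∧
        Smooth D.toBase ∧ IsProper D.toBase ∧ GeometricallyConnected D.toBase ∧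
        ConnectedSpace D.P := by
  haveI : IsNoetherian C := isNoetherian_of_isProper_field c
  obtain ⟨ε₀, -, hε₀⟩ := exists_closedPoint_mem c ⊤ ⟨⟨genericPoint C, trivial⟩⟩
  obtain ⟨x, hx⟩ := exists_abelJacobi_class c ε ε₀ hε₀
  exact s25_of_chartData k c ε Dch hlft ε₀ hε₀ x hx

end

end Fermat.Agent.JAC
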