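/-
PROJECT JAC / S27 — (MODEL), helper8.

`MFIN_helper8_Coord`: a finitely generated field extension `F/K` in characteristic zero whose
module of Kähler differentials has rank one has a separating coordinate: a transcendental `x`
with `F` finite over `K(x)`.
-/
import Mathlib

set_option autoImplicit false

open KaehlerDifferential TensorProduct IntermediateField

namespace Fermat.Agent.JAC.MFIN

section Rank

variable {K F : Type*} [Field K] [Field F] [Algebra K F] [CharZero K]

/-- in characteristic zero, the rank of the Kähler differentials is the transcendence degree -/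
theorem finrank_kaehler_eq_card {ι : Type*} [Fintype ι] (x : ι → F)
    (hx : IsTranscendenceBasis K x) : Module.finrank F Ω[F⁄K] = Fintype.card ι := by
  classical
  have hinj : Function.Injective (MvPolynomial.aeval x : MvPolynomial ι K →ₐ[K] F) :=
    algebraicIndependent_iff_injective_aeval.1 hx.1
  let _ : Algebra (MvPolynomial ι K) F := (MvPolynomial.aeval x).toRingHom.toAlgebra
  have hPF : ∀ p : MvPolynomial ι K, algebraMap (MvPolynomial ι K) F p = MvPolynomial.aeval x p :=
    fun _ => rfl
  have : IsScalarTower K (MvPolynomial ι K) F :=
    IsScalarTower.of_algebraMap_eq fun c => by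
      rw [hPF, MvPolynomial.algebraMap_eq, MvPolynomial.aeval_C]
  have hinj' : Function.Injective (algebraMap (MvPolynomial ι K) F) := hinj
  let _ : Algebra (FractionRing (MvPolynomial ι K)) F := (IsFractionRing.lift hinj').toAlgebra
  have : IsScalarTower (MvPolynomial ι K) (FractionRing (MvPolynomial ι K)) F :=
    IsScalarTower.of_algebraMap_eq fun p => (IsFractionRing.lift_algebraMap hinj' p).symm
  -- `F` is algebraic over the rational function field
  have halgP : Algebra.IsAlgebraic (MvPolynomial ι K) F := by
    have hmem : ∀ p : MvPolynomial ι K,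
        MvPolynomial.aeval x p ∈ Algebra.adjoin K (Set.range x) := fun p => by
      rw [Algebra.adjoin_range_eq_range_aeval]
      exact ⟨p, rfl⟩
    have := hx.isAlgebraic
    refine Algebra.IsAlgebraic.of_ringHom_of_comp_eq (S := Algebra.adjoin K (Set.range x)) (B := F)
      ((MvPolynomial.aeval x).codRestrict (Algebra.adjoin K (Set.range x)) hmem).toRingHom
      (RingHom.id F) ?_ Function.injective_id ?_
    · rintro ⟨y, hy⟩
      rw [Algebra.adjoin_range_eq_range_aeval] at hy
      obtain ⟨p, rfl⟩ := hy
      exact ⟨p, rfl⟩
    · ext p
      all_goals rfl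
  have halg : Algebra.IsAlgebraic (FractionRing (MvPolynomial ι K)) F :=
    Algebra.IsAlgebraic.extendScalars (R := MvPolynomial ι K)
      (IsFractionRing.injective (MvPolynomial ι K) (FractionRing (MvPolynomial ι K)))
  have hchar : CharZero (FractionRing (MvPolynomial ι K)) :=
    charZero_of_injective_algebraMap
      (IsFractionRing.injective (MvPolynomial ι K) (FractionRing (MvPolynomial ι K)))
  have hsep : Algebra.IsSeparable (FractionRing (MvPolynomial ι K)) F := inferInstance
  have het1 : Algebra.FormallyEtale (FractionRing (MvPolynomial ι K)) F :=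
    Algebra.FormallyEtale.of_isSeparable _ _
  have het2 : Algebra.FormallyEtale (MvPolynomial ι K) (FractionRing (MvPolynomial ι K)) :=
    Algebra.FormallyEtale.of_isLocalization (nonZeroDivisors (MvPolynomial ι K))
  have het : Algebra.FormallyEtale (MvPolynomial ι K) F :=
    Algebra.FormallyEtale.comp (MvPolynomial ι K) (FractionRing (MvPolynomial ι K)) F
  let e := KaehlerDifferential.tensorKaehlerEquivOfFormallyEtale K (MvPolynomial ι K) F
  let b := ((KaehlerDifferential.mvPolynomialBasis K ι).baseChange F).map e
  exact Module.finrank_eq_card_basis b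

end Rank

section Coord

variable (K F : Type*) [Field K] [Field F] [Algebra K F] [CharZero K] [Algebra.EssFiniteType K F]

/-- **(M-COORD)** a finitely generated field extension in characteristic zero with Kähler
differentials of rank one has a coordinate: a transcendental element `x` with `F` finite over
`K(x)`. -/
theorem exists_coord (hΩ : Module.finrank F Ω[F⁄K] = 1) :
    ∃ x : F, Transcendental K x ∧ FiniteDimensional K⟮x⟯ F := by
  classical
  obtain ⟨s, hs⟩ := exists_finset_isTranscendenceBasis K F
  have hcard : s.card = 1 := by
    have h := finrank_kaehler_eq_card (K := K) (F := F) ((↑) : s → F) hs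
    rw [hΩ, Fintype.card_coe] at h
    exact h.symm
  obtain ⟨x, rfl⟩ := Finset.card_eq_one.mp hcard
  refine ⟨x, ?_, ?_⟩
  · exact hs.1.transcendental ⟨x, Finset.mem_singleton_self x⟩
  · have halg := hs.isAlgebraic_field
    have hr : Set.range ((↑) : ({x} : Finset F) → F) = {x} := by
      rw [Subtype.range_coe_subtype]
      ext y
      simp
    rw [hr] at halg
    have : Algebra.EssFiniteType K⟮x⟯ F := Algebra.EssFiniteType.of_comp K K⟮x⟯ F
    exact Algebra.finite_of_essFiniteType_of_isAlgebraic (F := K⟮x⟯) (E := F)

end Coord

end Fermat.Agent.JAC.MFIN
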