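/-
PROJECT JAC (S27) — brick (MODEL), helper9: the affine coordinate ring `affRing c` of a function
field `F/K` with respect to a coordinate `c : Coord K F` (integral closure of `K[x]` in `F`, as a
`K`-subalgebra of `F`): Dedekind, finitely generated, not a field, fraction field `F`.
-/
import Mathlib
import Fermat.Agent.FF.Coord

set_option autoImplicit false
set_option linter.style.haveILetI false
set_option linter.unusedSectionVars false

open Polynomial IntermediateField

namespace Fermat.Agent.JAC.MODEL

open Fermat.Agent.FF

variable {K F : Type*} [Field K] [Field F] [Algebra K F] (c : Coord K F)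

/-- the integral closure of `K[x]` in `F`, as a `K`-subalgebra of `F`. -/
noncomputable def affRing : Subalgebra K F :=
  letI := c.algPoly
  haveI := c.tower2
  (integralClosure K[X] F).restrictScalars K

theorem mem_affRing_iff (y : F) :
    y ∈ affRing c ↔ (aeval c.x : K[X] →ₐ[K] F).toRingHom.IsIntegralElem y := Iff.rfl

/-- separability of `F / K(X)` for the `K(X)`-algebra structure of a separating coordinate. -/
theorem isSeparable_algRat (hsep : Algebra.IsSeparable K⟮c.x⟯ F) :
    @Algebra.IsSeparable (RatFunc K) F _ _ c.algRat := by
  letI := c.algRat
  exact Algebra.IsSeparable.of_equiv_equiv c.ratEquiv.symm (RingEquiv.refl F) (by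
    ext f
    simp only [RingHom.coe_comp, Function.comp_apply, RingEquiv.coe_toRingHom,
      RingEquiv.refl_apply]
    show c.ratEmb (c.ratEquiv.symm f) = (f : F)
    simp [Coord.ratEmb, Coord.ratEquiv])

variable (hsep : Algebra.IsSeparable K⟮c.x⟯ F)

include hsep in
theorem isDedekindDomain_affRing : IsDedekindDomain (affRing c) := by
  letI := c.algPoly
  letI := c.algRat
  haveI := c.tower1
  haveI := c.tower2
  haveI := c.tower3
  haveI : FiniteDimensional (RatFunc K) F := c.functionField
  haveI : Algebra.IsSeparable (RatFunc K) F := isSeparable_algRat c hsep
  exact integralClosure.isDedekindDomain K[X] (RatFunc K) F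

include hsep in
theorem finiteType_affRing : Algebra.FiniteType K (affRing c) := by
  letI := c.algPoly
  letI := c.algRat
  haveI := c.tower1
  haveI := c.tower2
  haveI := c.tower3
  haveI : FiniteDimensional (RatFunc K) F := c.functionField
  haveI : Algebra.IsSeparable (RatFunc K) F := isSeparable_algRat c hsep
  haveI : Module.Finite K[X] (integralClosure K[X] F) :=
    IsIntegralClosure.finite K[X] (RatFunc K) F (integralClosure K[X] F)
  haveI : Algebra.FiniteType K[X] (integralClosure K[X] F) := inferInstance
  exact Algebra.FiniteType.trans (R := K) (S := K[X]) (A := integralClosure K[X] F)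
    inferInstance inferInstance

include hsep in
theorem isFractionRing_affRing : IsFractionRing (affRing c) F := by
  letI := c.algPoly
  letI := c.algRat
  haveI := c.tower1
  haveI := c.tower2
  haveI := c.tower3
  haveI : FiniteDimensional (RatFunc K) F := c.functionField
  exact integralClosure.isFractionRing_of_finite_extension (RatFunc K) F

theorem not_isField_affRing : ¬ IsField (affRing c) := by
  letI := c.algPoly
  haveI := c.tower2
  intro h
  have hinj : Function.Injective (algebraMap K[X] (integralClosure K[X] F)) := by
    intro p q hpq
    have := congrArg Subtype.val hpq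
    exact (transcendental_iff_injective.mp c.trans) this
  have : IsField K[X] := by
    refine isField_of_isIntegral_of_isField (R := K[X]) (S := integralClosure K[X] F) hinj h
  exact Polynomial.not_isField K this

end Fermat.Agent.JAC.MODEL
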