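/-
PROJECT JAC (S27) — brick (MODEL), helper9: affine charts of a relative normalization
`ν.normalization` for `ν : Spec L ⟶ Y` factoring through an affine open `j : Spec R ⟶ Y`.
-/
import Mathlib

set_option autoImplicit false
set_option linter.style.haveILetI false
set_option linter.unusedSectionVars false

universe u

open CategoryTheory AlgebraicGeometry Opposite

namespace Fermat.Agent.JAC.MODEL

section transport

variable {R L R' L' : Type u} [CommRing R] [CommRing L] [CommRing R'] [CommRing L']
  (φ : R →+* L) (φ' : R' →+* L') (a : R ≃+* R') (b : L ≃+* L')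
  (h : ∀ r, b (φ r) = φ' (a r))

include h in
theorem isIntegral_transport_iff (y : L) :
    @IsIntegral R' L' _ _ φ'.toAlgebra (b y) ↔ @IsIntegral R L _ _ φ.toAlgebra y := by
  letI := φ.toAlgebra
  letI := φ'.toAlgebra
  constructor
  · intro hy
    have := IsIntegral.map_of_comp_eq (R := R') (S := L') (T := R) (U := L)
      a.symm.toRingHom b.symm.toRingHom (by
        ext r'
        show φ (a.symm r') = b.symm (φ' r')
        apply b.injective
        rw [h, RingEquiv.apply_symm_apply, RingEquiv.apply_symm_apply]) hy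
    simpa using this
  · intro hy
    exact IsIntegral.map_of_comp_eq (R := R) (S := L) (T := R') (U := L')
      a.toRingHom b.toRingHom (by
        ext r
        exact (h r).symm) hy

/-- transport of an integral closure along an isomorphism of the pair `(R → L)`. -/
noncomputable def integralClosureEquiv :
    @integralClosure R L _ _ φ.toAlgebra ≃+* @integralClosure R' L' _ _ φ'.toAlgebra :=
  letI := φ.toAlgebra
  letI := φ'.toAlgebra
  { toFun := fun y => ⟨b y.1, (isIntegral_transport_iff φ φ' a b h y.1).mpr y.2⟩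
    invFun := fun y => ⟨b.symm y.1, (isIntegral_transport_iff φ φ' a b h (b.symm y.1)).mp (by
      rw [RingEquiv.apply_symm_apply]; exact y.2)⟩
    left_inv := fun y => Subtype.ext (b.symm_apply_apply _)
    right_inv := fun y => Subtype.ext (b.apply_symm_apply _)
    map_mul' := fun y z => Subtype.ext (map_mul b _ _)
    map_add' := fun y z => Subtype.ext (map_add b _ _) }

theorem integralClosureEquiv_algebraMap (r : R) :
    letI := φ.toAlgebra
    letI := φ'.toAlgebra
    integralClosureEquiv φ φ' a b h (algebraMap R (integralClosure R L) r) =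
      algebraMap R' (integralClosure R' L') (a r) := by
  letI := φ.toAlgebra
  letI := φ'.toAlgebra
  apply Subtype.ext
  exact h r

end transport


theorem appLE_top_comp {X Y Z : Scheme.{u}} (f : X ⟶ Y) (g : Y ⟶ Z) (U : Z.Opens)
    (e : ⊤ ≤ (f ≫ g) ⁻¹ᵁ U) (e' : ⊤ ≤ g ⁻¹ᵁ U) :
    (f ≫ g).appLE U ⊤ e = g.appLE U ⊤ e' ≫ f.appTop := by
  have h2 : f.appLE ⊤ ⊤ (le_of_eq f.preimage_top.symm) = f.appTop :=
    Scheme.Hom.appLE_eq_app f (U := ⊤)
  have h3 := Scheme.Hom.appLE_comp_appLE f g U ⊤ ⊤ e' (le_of_eq f.preimage_top.symm)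
  exact h3.symm.trans (congrArg (g.appLE U ⊤ e' ≫ ·) h2)

section chart

variable {Y : Scheme.{u}} {R L : Type u} [CommRing R] [CommRing L]
  (j : Spec (.of R) ⟶ Y) [IsOpenImmersion j] (φ : R →+* L)
  (ν : Spec (.of L) ⟶ Y)
  (hν : ν = Spec.map (CommRingCat.ofHom φ) ≫ j)

include hν in
theorem preimage_opensRange_eq_top : ν ⁻¹ᵁ j.opensRange = ⊤ := by
  subst hν
  rw [Scheme.Hom.comp_preimage]
  simp

/-- the ring map `Γ(Y, range j) → R`. -/
noncomputable def chartA : Γ(Y, j.opensRange) ⟶ CommRingCat.of R :=
  j.appLE j.opensRange ⊤ (by simp) ≫ (Scheme.ΓSpecIso (.of R)).hom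

/-- the ring map `Γ(Spec L, ν⁻¹(range j)) → L`. -/
noncomputable def chartB : Γ(Spec (.of L), ν ⁻¹ᵁ j.opensRange) ⟶ CommRingCat.of L :=
  (Spec (.of L)).presheaf.map (eqToHom (preimage_opensRange_eq_top j φ ν hν).symm).op ≫
    (Scheme.ΓSpecIso (.of L)).hom

theorem chart_square :
    ν.app j.opensRange ≫ chartB j φ ν hν = chartA j ≫ CommRingCat.ofHom φ := by
  unfold chartA chartB
  subst hν
  simp only [Scheme.Hom.app_eq_appLE, Scheme.Hom.appLE_map_assoc, Category.assoc]
  rw [← Scheme.ΓSpecIso_naturality, appLE_top_comp _ _ _ _ (by simp), Category.assoc]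

end chart


section chart2

variable {Y : Scheme.{u}} {R L : Type u} [CommRing R] [CommRing L]
  (j : Spec (.of R) ⟶ Y) [IsOpenImmersion j] (φ : R →+* L)
  (ν : Spec (.of L) ⟶ Y)
  (hν : ν = Spec.map (CommRingCat.ofHom φ) ≫ j)

theorem SpecMap_chartA :
    Spec.map (chartA j) ≫ (isAffineOpen_opensRange j).fromSpec = j := by
  unfold chartA
  rw [Spec.map_comp, Category.assoc,
    IsAffineOpen.SpecMap_appLE_fromSpec j (isAffineOpen_opensRange j) (isAffineOpen_top _),
    IsAffineOpen.fromSpec_top, Scheme.isoSpec_Spec_inv, ← Spec.map_comp_assoc]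
  simp

instance isIso_chartA : IsIso (chartA j) := by
  have h : IsIso (Spec.map (chartA j)) := by
    have h1 := SpecMap_chartA j
    have h2 : Spec.map (chartA j) = (IsOpenImmersion.isoOfRangeEq j
        (isAffineOpen_opensRange j).fromSpec (by simp)).hom := by
      rw [← cancel_mono (isAffineOpen_opensRange j).fromSpec, h1,
        IsOpenImmersion.isoOfRangeEq_hom_fac]
    rw [h2]; infer_instance
  have h3 : IsIso (chartA j).op := by
    have : IsIso (Scheme.Spec.map (chartA j).op) := h
    exact isIso_of_reflects_iso _ Scheme.Spec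
  exact isIso_of_op _

instance isIso_chartB : IsIso (chartB j φ ν hν) := by
  unfold chartB; infer_instance

variable [QuasiCompact ν] [QuasiSeparated ν]

theorem chart_square_apply (r : Γ(Y, j.opensRange)) :
    (asIso (chartB j φ ν hν)).commRingCatIsoToRingEquiv ((ν.app j.opensRange).hom r) =
      φ ((asIso (chartA j)).commRingCatIsoToRingEquiv r) :=
  congrArg (fun f => f.hom r) (chart_square j φ ν hν)

/-- the ring isomorphism between Mathlib's chart ring of the normalization and the concrete
integral closure. -/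
noncomputable def chartRingEquiv :
    letI := φ.toAlgebra
    (ν.normalizationDiagram.obj (op j.opensRange)) ≃+* integralClosure R L :=
  integralClosureEquiv (ν.app j.opensRange).hom φ
    (asIso (chartA j)).commRingCatIsoToRingEquiv
    (asIso (chartB j φ ν hν)).commRingCatIsoToRingEquiv
    (chart_square_apply j φ ν hν)

/-- Mathlib's chart of the normalization over `range j`. -/
noncomputable def chart0 :
    Spec (ν.normalizationDiagram.obj (op j.opensRange)) ⟶ ν.normalization :=
  ν.normalizationOpenCover.f ⟨j.opensRange, isAffineOpen_opensRange j⟩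

instance isOpenImmersion_chart0 : IsOpenImmersion (chart0 j ν) :=
  ν.normalizationOpenCover.map_prop ⟨j.opensRange, isAffineOpen_opensRange j⟩

/-- the chart `Spec (integralClosure R L) ⟶ ν.normalization`. -/
noncomputable def chartMap :
    letI := φ.toAlgebra
    Spec (.of (integralClosure R L)) ⟶ ν.normalization :=
  letI := φ.toAlgebra
  Spec.map (CommRingCat.ofHom (chartRingEquiv j φ ν hν).toRingHom) ≫ chart0 j ν

instance isOpenImmersion_chartMap : IsOpenImmersion (chartMap j φ ν hν) := by
  let _ := φ.toAlgebra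
  have : IsIso (Spec.map (CommRingCat.ofHom (chartRingEquiv j φ ν hν).toRingHom)) := by
    have : IsIso (CommRingCat.ofHom (chartRingEquiv j φ ν hν).toRingHom) :=
      (chartRingEquiv j φ ν hν).toCommRingCatIso.isIso_hom
    infer_instance
  unfold chartMap
  infer_instance

theorem chart0_fromNormalization :
    chart0 j ν ≫ ν.fromNormalization =
      Spec.map (ν.normalizationDiagramMap.app (op j.opensRange)) ≫
        (isAffineOpen_opensRange j).fromSpec :=
  ν.ι_fromNormalization ⟨j.opensRange, isAffineOpen_opensRange j⟩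

theorem opensRange_chart0 :
    (chart0 j ν).opensRange = ν.fromNormalization ⁻¹ᵁ j.opensRange :=
  (ν.fromNormalization_preimage ⟨j.opensRange, isAffineOpen_opensRange j⟩).symm

theorem chartMap_fromNormalization :
    letI := φ.toAlgebra
    chartMap j φ ν hν ≫ ν.fromNormalization =
      Spec.map (CommRingCat.ofHom (algebraMap R (integralClosure R L))) ≫ j := by
  let _ := φ.toAlgebra
  unfold chartMap
  rw [Category.assoc, chart0_fromNormalization, ← Spec.map_comp_assoc]
  conv_rhs => rw [← SpecMap_chartA j, ← Spec.map_comp_assoc]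
  congr 2
  ext r
  refine congrArg Subtype.val ?_
  exact integralClosureEquiv_algebraMap (ν.app j.opensRange).hom φ
    (asIso (chartA j)).commRingCatIsoToRingEquiv
    (asIso (chartB j φ ν hν)).commRingCatIsoToRingEquiv (chart_square_apply j φ ν hν) r

theorem opensRange_chartMap :
    (chartMap j φ ν hν).opensRange = ν.fromNormalization ⁻¹ᵁ j.opensRange := by
  let _ := φ.toAlgebra
  have : IsIso (Spec.map (CommRingCat.ofHom (chartRingEquiv j φ ν hν).toRingHom)) := by
    have : IsIso (CommRingCat.ofHom (chartRingEquiv j φ ν hν).toRingHom) :=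
      (chartRingEquiv j φ ν hν).toCommRingCatIso.isIso_hom
    infer_instance
  rw [← opensRange_chart0]
  unfold chartMap
  exact Scheme.Hom.opensRange_comp_of_isIso _ _

include hν in
theorem isAffineOpen_preimage_opensRange : IsAffineOpen (ν ⁻¹ᵁ j.opensRange) := by
  rw [preimage_opensRange_eq_top j φ ν hν]; exact isAffineOpen_top _

theorem SpecMap_chartB :
    Spec.map (chartB j φ ν hν) ≫
      (isAffineOpen_preimage_opensRange j φ ν hν).fromSpec = 𝟙 _ := by
  unfold chartB
  rw [Spec.map_comp, Category.assoc, IsAffineOpen.map_fromSpec _ (isAffineOpen_top _),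
    IsAffineOpen.fromSpec_top, Scheme.isoSpec_Spec_inv, ← Spec.map_comp]
  simp

/-- the inclusion of Mathlib's chart ring into `Γ(X, f⁻¹ U)`. -/
noncomputable def normalizationVal {X Y : Scheme.{u}} (f : X ⟶ Y) (U : Y.Opens) :
    f.normalizationDiagram.obj (op U) ⟶ Γ(X, f ⁻¹ᵁ U) :=
  letI := (f.app U).hom.toAlgebra
  CommRingCat.ofHom (integralClosure Γ(Y, U) Γ(X, f ⁻¹ᵁ U)).val.toRingHom

/-- the inclusion of Mathlib's chart ring into `Γ(Spec L, ν⁻¹ (range j))`. -/
noncomputable def chartVal0 :
    ν.normalizationDiagram.obj (op j.opensRange) ⟶ Γ(Spec (.of L), ν ⁻¹ᵁ j.opensRange) :=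
  normalizationVal ν j.opensRange

theorem chartVal0_chart0 :
    Spec.map (chartVal0 j ν) ≫ chart0 j ν =
      (isAffineOpen_preimage_opensRange j φ ν hν).fromSpec ≫ ν.toNormalization := by
  have h1 := ν.ι_toNormalization ⟨j.opensRange, isAffineOpen_opensRange j⟩
  rw [← IsAffineOpen.isoSpec_inv_ι, Category.assoc]
  refine Eq.trans ?_ (congrArg ((isAffineOpen_preimage_opensRange j φ ν hν).isoSpec.inv ≫ ·) h1).symm
  rw [IsAffineOpen.isoSpec_inv_toSpecΓ_assoc]
  rfl

theorem chartRingEquiv_val :
    letI := φ.toAlgebra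
    CommRingCat.ofHom (chartRingEquiv j φ ν hν).toRingHom ≫
      CommRingCat.ofHom (integralClosure R L).val.toRingHom =
      chartVal0 j ν ≫ chartB j φ ν hν := by
  ext r
  rfl

theorem toNormalization_eq_chartMap :
    letI := φ.toAlgebra
    ν.toNormalization =
      Spec.map (CommRingCat.ofHom (integralClosure R L).val.toRingHom) ≫ chartMap j φ ν hν := by
  let _ := φ.toAlgebra
  unfold chartMap
  rw [← Spec.map_comp_assoc, chartRingEquiv_val, Spec.map_comp_assoc, chartVal0_chart0 j φ ν hν,
    ← Category.assoc, SpecMap_chartB, Category.id_comp]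

end chart2


section range

variable {R R' L : Type u} [CommRing R] [CommRing R'] [CommRing L]

theorem isIntegralElem_of_range_le (φ : R →+* L) (ψ : R' →+* L) (h : φ.range ≤ ψ.range)
    (y : L) (hy : φ.IsIntegralElem y) : ψ.IsIntegralElem y := by
  obtain ⟨p, hp, hpy⟩ := hy
  have hl : p.map φ ∈ Polynomial.lifts ψ := by
    rw [Polynomial.lifts_iff_coeff_lifts]
    intro n
    rw [Polynomial.coeff_map]
    exact h ⟨_, rfl⟩
  obtain ⟨q, hq, -, hqm⟩ := Polynomial.lifts_and_natDegree_eq_and_monic hl (hp.map φ)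
  refine ⟨q, hqm, ?_⟩
  rw [Polynomial.eval₂_eq_eval_map, hq, ← Polynomial.eval₂_eq_eval_map, hpy]

theorem isIntegralElem_iff_of_range_eq (φ : R →+* L) (ψ : R' →+* L) (h : φ.range = ψ.range)
    (y : L) : φ.IsIntegralElem y ↔ ψ.IsIntegralElem y :=
  ⟨isIntegralElem_of_range_le φ ψ h.le y, isIntegralElem_of_range_le ψ φ h.ge y⟩

end range


section chartB

variable {Y : Scheme.{u}} {R L : Type u} [CommRing R] [CommRing L]
  (j : Spec (.of R) ⟶ Y) [IsOpenImmersion j] (φ : R →+* L)
  (ν : Spec (.of L) ⟶ Y)
  (hν : ν = Spec.map (CommRingCat.ofHom φ) ≫ j)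
  [QuasiCompact ν] [QuasiSeparated ν]
  {B : Type u} [CommRing B] (β : B →+* L) (hβ : Function.Injective β)
  (hB : ∀ y : L, y ∈ β.range ↔ φ.IsIntegralElem y)

/-- a ring `B` embedded in `L` with image the integral closure of `R` is isomorphic to the
integral closure. -/
noncomputable def closureEquiv : B ≃+* @integralClosure R L _ _ φ.toAlgebra :=
  letI := φ.toAlgebra
  RingEquiv.ofBijective (β.codRestrict (integralClosure R L)
      (fun b => (hB (β b)).mp ⟨b, rfl⟩))
    ⟨fun a b h => hβ (congrArg Subtype.val h),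
     fun y => by
      obtain ⟨b, hb⟩ := (hB y.1).mpr y.2
      exact ⟨b, Subtype.ext hb⟩⟩

theorem closureEquiv_val (b : B) : ((closureEquiv φ β hβ hB b : @integralClosure R L _ _ φ.toAlgebra) : L) = β b := rfl

/-- the chart `Spec B ⟶ ν.normalization`. -/
noncomputable def chartMapB : Spec (.of B) ⟶ ν.normalization :=
  letI := φ.toAlgebra
  Spec.map (CommRingCat.ofHom (closureEquiv φ β hβ hB).symm.toRingHom) ≫ chartMap j φ ν hν

theorem isIso_SpecMap_closureEquiv_symm :
    letI := φ.toAlgebra
    IsIso (Spec.map (CommRingCat.ofHom (closureEquiv φ β hβ hB).symm.toRingHom)) := by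
  let _ := φ.toAlgebra
  have : IsIso (CommRingCat.ofHom (closureEquiv φ β hβ hB).symm.toRingHom) :=
    (closureEquiv φ β hβ hB).symm.toCommRingCatIso.isIso_hom
  infer_instance

instance isOpenImmersion_chartMapB : IsOpenImmersion (chartMapB j φ ν hν β hβ hB) := by
  let _ := φ.toAlgebra
  have := isIso_SpecMap_closureEquiv_symm φ β hβ hB
  unfold chartMapB
  infer_instance

theorem chartMapB_fromNormalization (α : R →+* B) (hα : β.comp α = φ) :
    chartMapB j φ ν hν β hβ hB ≫ ν.fromNormalization =
      Spec.map (CommRingCat.ofHom α) ≫ j := by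
  let _ := φ.toAlgebra
  unfold chartMapB
  rw [Category.assoc, chartMap_fromNormalization, ← Spec.map_comp_assoc]
  congr 2
  ext r
  show (closureEquiv φ β hβ hB).symm (algebraMap R (integralClosure R L) r) = α r
  rw [RingEquiv.symm_apply_eq]
  apply Subtype.ext
  rw [closureEquiv_val]
  exact (congrArg (fun f => f r) hα).symm

theorem opensRange_chartMapB :
    (chartMapB j φ ν hν β hβ hB).opensRange = ν.fromNormalization ⁻¹ᵁ j.opensRange := by
  let _ := φ.toAlgebra
  have := isIso_SpecMap_closureEquiv_symm φ β hβ hB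
  rw [← opensRange_chartMap j φ ν hν]
  unfold chartMapB
  exact Scheme.Hom.opensRange_comp_of_isIso _ _

theorem toNormalization_eq_chartMapB :
    ν.toNormalization = Spec.map (CommRingCat.ofHom β) ≫ chartMapB j φ ν hν β hβ hB := by
  let _ := φ.toAlgebra
  unfold chartMapB
  rw [toNormalization_eq_chartMap j φ ν hν, ← Spec.map_comp_assoc]
  congr 2
  ext y
  show (y : L) = β ((closureEquiv φ β hβ hB).symm y)
  rw [← closureEquiv_val φ β hβ hB, RingEquiv.apply_symm_apply]

end chartB


end Fermat.Agent.JAC.MODEL
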