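/-
PROJECT JAC (S27) — brick (MODEL), helper9: the projective line `P1 K = Proj K[X₀,X₁]` with its
proper structure morphism, its two standard charts, and the `F`-point `(1 : x)` for `x ≠ 0` in a
field extension `F/K`, with the coordinate ring maps of the charts at that point and their ranges
`K[x]`, `K[x⁻¹]`.
-/
import Mathlib

set_option autoImplicit false
set_option linter.unusedSectionVars false
universe u
open CategoryTheory AlgebraicGeometry Opposite MvPolynomial HomogeneousLocalization

namespace Fermat.Agent.JAC.MODEL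

attribute [local instance] MvPolynomial.gradedAlgebra

theorem aeval_mul_of_isHomogeneous {σ K F : Type*} [CommSemiring K] [CommSemiring F] [Algebra K F]
    {a : MvPolynomial σ K} {n : ℕ} (ha : a.IsHomogeneous n) (t : F) (p : σ → F) :
    aeval (fun i => t * p i) a = t ^ n * aeval p a := by
  conv_lhs => rw [a.as_sum]
  conv_rhs => rw [a.as_sum]
  simp only [map_sum, Finset.mul_sum, aeval_monomial]
  refine Finset.sum_congr rfl fun d hd => ?_
  have hdn := ha.degree_eq_sum_deg_support hd
  simp only [mul_pow, Finsupp.prod_mul]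
  have : (d.prod fun _ k => t ^ k) = t ^ n := by
    rw [Finsupp.prod, Finset.prod_pow_eq_pow_sum, hdn]
  rw [this]
  ring

variable (K : Type u) [Field K]

/-- the standard grading of `K[X₀, X₁]`. -/
noncomputable abbrev gr : ℕ → Submodule K (MvPolynomial (Fin 2) K) :=
  homogeneousSubmodule (Fin 2) K

/-- the projective line over `K`. -/
noncomputable abbrev P1 : Scheme.{u} := Proj (gr K)

instance isScalarTower_gr0 : IsScalarTower K (gr K 0) (MvPolynomial (Fin 2) K) :=
  IsScalarTower.of_algebraMap_eq (R := K) (S := gr K 0) (A := MvPolynomial (Fin 2) K)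
    (fun _ => rfl)

instance finiteType_gr0 : Algebra.FiniteType (gr K 0) (MvPolynomial (Fin 2) K) :=
  Algebra.FiniteType.of_restrictScalars_finiteType K (gr K 0) (MvPolynomial (Fin 2) K)

theorem bijective_algebraMap_gr0 : Function.Bijective (algebraMap K (gr K 0)) := by
  constructor
  · intro a b h
    have := congrArg Subtype.val h
    exact MvPolynomial.C_injective _ _ this
  · rintro ⟨y, hy⟩
    have hy' : y.IsHomogeneous 0 := hy
    refine ⟨coeff 0 y, Subtype.ext ?_⟩
    show C (coeff 0 y) = y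
    exact (totalDegree_eq_zero_iff_eq_C.mp
      ((totalDegree_zero_iff_isHomogeneous (Fin 2)).mpr hy')).symm

/-- the structure morphism of the projective line. -/
noncomputable def P1.str : P1 K ⟶ Spec (.of K) :=
  Proj.toSpecZero (gr K) ≫ Spec.map (CommRingCat.ofHom (algebraMap K (gr K 0)))

instance isProper_P1_str : IsProper (P1.str K) := by
  have : IsIso (CommRingCat.ofHom (algebraMap K (gr K 0))) :=
    (RingEquiv.ofBijective _ (bijective_algebraMap_gr0 K)).toCommRingCatIso.isIso_hom
  have h1 : IsIso (Spec.map (CommRingCat.ofHom (algebraMap K (gr K 0)))) := inferInstance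
  have h2 : IsProper (Spec.map (CommRingCat.ofHom (algebraMap K (gr K 0)))) := inferInstance
  have h3 : IsProper (Proj.toSpecZero (gr K)) := inferInstance
  unfold P1.str
  infer_instance

theorem X_mem_gr (i : Fin 2) : (X i : MvPolynomial (Fin 2) K) ∈ gr K 1 := isHomogeneous_X K i

theorem X01_mem_gr : (X 0 * X 1 : MvPolynomial (Fin 2) K) ∈ gr K (1 + 1) :=
  (isHomogeneous_X K 0).mul (isHomogeneous_X K 1)

/-- the standard affine charts of the projective line. -/
noncomputable def P1.chart (i : Fin 2) : Spec (.of (Away (gr K) (X i))) ⟶ P1 K :=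
  Proj.awayι (gr K) (X i) (X_mem_gr K i) one_pos

instance isOpenImmersion_P1_chart (i : Fin 2) : IsOpenImmersion (P1.chart K i) := by
  unfold P1.chart; infer_instance

/-- the `K`-algebra structure map of the chart rings. -/
noncomputable def P1.chartAlg (i : Fin 2) : K →+* Away (gr K) (X i : MvPolynomial (Fin 2) K) :=
  (fromZeroRingHom (gr K) _).comp (algebraMap K (gr K 0))

theorem P1.chart_str (i : Fin 2) :
    P1.chart K i ≫ P1.str K = Spec.map (CommRingCat.ofHom (P1.chartAlg K i)) := by
  unfold P1.chart P1.str P1.chartAlg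
  rw [Proj.awayι_toSpecZero_assoc, ← Spec.map_comp, ← CommRingCat.ofHom_comp]

theorem adjoin_gr0_range_X :
    Algebra.adjoin (gr K 0) (Set.range (X : Fin 2 → MvPolynomial (Fin 2) K)) = ⊤ := by
  rw [← top_le_iff]
  intro p _
  clear ‹p ∈ (⊤ : Subalgebra _ _)›
  have hp : p ∈ Algebra.adjoin K (Set.range (X : Fin 2 → MvPolynomial (Fin 2) K)) := by
    rw [MvPolynomial.adjoin_range_X]; trivial
  induction hp using Algebra.adjoin_induction with
  | mem y hy => exact Algebra.subset_adjoin hy
  | algebraMap r =>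
    exact Subalgebra.algebraMap_mem _ (algebraMap K (gr K 0) r)
  | add y z _ _ hy hz => exact add_mem hy hz
  | mul y z _ _ hy hz => exact mul_mem hy hz

theorem P1.iSup_opensRange_chart : ⨆ i, (P1.chart K i).opensRange = ⊤ := by
  have h := Proj.iSup_basicOpen_eq_top' (gr K) (X : Fin 2 → MvPolynomial (Fin 2) K)
    (fun i => ⟨1, X_mem_gr K i⟩) (adjoin_gr0_range_X K)
  rw [← h]
  congr 1
  funext i
  exact Proj.opensRange_awayι (gr K) (X i) (X_mem_gr K i) one_pos


section point

variable {F : Type u} [Field F] [Algebra K F] (x : F)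

/-- evaluation at `(1 : x)`. -/
noncomputable def ev : MvPolynomial (Fin 2) K →ₐ[K] F := aeval ![1, x]

@[simp] theorem ev_X0 : ev K x (X 0) = 1 := by simp [ev]
@[simp] theorem ev_X1 : ev K x (X 1) = x := by simp [ev]

/-- the ring map `A_(f) → F` induced by evaluation at `(1 : x)`, for `f(1,x)` a unit. -/
noncomputable def awayHom (f : MvPolynomial (Fin 2) K) (v : F) (hv : ev K x f * v = 1) :
    Away (gr K) f →+* F :=
  (Localization.awayLift (ev K x).toRingHom f (isUnit_iff_exists_inv.mpr ⟨v, hv⟩)).comp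
    (algebraMap (Away (gr K) f) (Localization.Away f))

theorem awayHom_mk (f : MvPolynomial (Fin 2) K) (v : F) (hv : ev K x f * v = 1)
    {d : ℕ} (hf : f ∈ gr K d) (n : ℕ) (a : MvPolynomial (Fin 2) K) (ha : a ∈ gr K (n • d)) :
    awayHom K x f v hv (Away.mk (gr K) hf n a ha) = ev K x a * v ^ n := by
  unfold awayHom
  rw [RingHom.comp_apply, HomogeneousLocalization.algebraMap_apply, Away.val_mk]
  exact Localization.awayLift_mk (ev K x).toRingHom f a v hv n

theorem awayHom_fromZeroRingHom (f : MvPolynomial (Fin 2) K) (v : F) (hv : ev K x f * v = 1)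
    (a : gr K 0) :
    awayHom K x f v hv (fromZeroRingHom (gr K) _ a) = ev K x a := by
  unfold awayHom
  rw [RingHom.comp_apply, HomogeneousLocalization.algebraMap_apply]
  show Localization.awayLift (ev K x).toRingHom f _ (Localization.mk (a : MvPolynomial (Fin 2) K) 1) = _
  rw [Localization.mk_one_eq_algebraMap]
  exact IsLocalization.Away.lift_eq _ _ _

theorem awayHom_comp_awayMap (f g : MvPolynomial (Fin 2) K) {e : ℕ} (hg : g ∈ gr K e)
    {y : MvPolynomial (Fin 2) K} (hy : y = f * g)
    (v w : F) (hv : ev K x f * v = 1) (hw : ev K x y * w = 1) :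
    (awayHom K x y w hw).comp (awayMap (gr K) hg hy) = awayHom K x f v hv := by
  ext a
  unfold awayHom
  simp only [RingHom.comp_apply, HomogeneousLocalization.algebraMap_apply, val_awayMap]
  generalize a.val = b
  have key : (Localization.awayLift (ev K x).toRingHom y
        (isUnit_iff_exists_inv.mpr ⟨w, hw⟩)).comp
      (Localization.awayLift (algebraMap (MvPolynomial (Fin 2) K) (Localization.Away y)) f
        (isUnit_of_dvd_unit (map_dvd _ ⟨_, hy⟩) (IsLocalization.Away.algebraMap_isUnit y))) =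
      Localization.awayLift (ev K x).toRingHom f (isUnit_iff_exists_inv.mpr ⟨v, hv⟩) := by
    apply IsLocalization.ringHom_ext (Submonoid.powers f)
    refine RingHom.ext fun c => ?_
    simp only [RingHom.comp_apply, Localization.awayLift, IsLocalization.Away.lift_eq]
  exact congrArg (fun h => h b) key

variable (hx : x ≠ 0)

/-- the `F`-point `(1 : x)` of the projective line. -/
noncomputable def P1.pt : Spec (.of F) ⟶ P1 K :=
  Spec.map (CommRingCat.ofHom (awayHom K x (X 0 * X 1) x⁻¹
    (by rw [map_mul, ev_X0, ev_X1, one_mul, mul_inv_cancel₀ hx]))) ≫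
    Proj.awayι (gr K) (X 0 * X 1) (X01_mem_gr K) (by norm_num)

/-- the coordinate ring map of the chart `X₀ ≠ 0` at the point `(1 : x)`. -/
noncomputable def P1.chartHom0 : Away (gr K) (X 0 : MvPolynomial (Fin 2) K) →+* F :=
  awayHom K x (X 0) 1 (by rw [ev_X0, one_mul])

/-- the coordinate ring map of the chart `X₁ ≠ 0` at the point `(1 : x)`. -/
noncomputable def P1.chartHom1 : Away (gr K) (X 1 : MvPolynomial (Fin 2) K) →+* F :=
  awayHom K x (X 1) x⁻¹ (by rw [ev_X1, mul_inv_cancel₀ hx])

theorem P1.pt_eq0 :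
    P1.pt K x hx = Spec.map (CommRingCat.ofHom (P1.chartHom0 K x)) ≫ P1.chart K 0 := by
  unfold P1.pt P1.chart P1.chartHom0
  rw [← Proj.SpecMap_awayMap_awayι (gr K) (X_mem_gr K 0) one_pos (X_mem_gr K 1) rfl,
    ← Spec.map_comp_assoc, ← CommRingCat.ofHom_comp, awayHom_comp_awayMap]

theorem P1.pt_eq1 :
    P1.pt K x hx = Spec.map (CommRingCat.ofHom (P1.chartHom1 K x hx)) ≫ P1.chart K 1 := by
  unfold P1.pt P1.chart P1.chartHom1
  rw [← Proj.SpecMap_awayMap_awayι (gr K) (X_mem_gr K 1) one_pos (X_mem_gr K 0)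
      (mul_comm (X 0) (X 1)),
    ← Spec.map_comp_assoc, ← CommRingCat.ofHom_comp, awayHom_comp_awayMap]

theorem P1.chartHom0_comp_chartAlg :
    (P1.chartHom0 K x).comp (P1.chartAlg K 0) = algebraMap K F := by
  ext c
  unfold P1.chartHom0 P1.chartAlg
  rw [RingHom.comp_apply, RingHom.comp_apply, awayHom_fromZeroRingHom]
  show ev K x (C c) = _
  simp [ev]

theorem P1.chartHom1_comp_chartAlg :
    (P1.chartHom1 K x hx).comp (P1.chartAlg K 1) = algebraMap K F := by
  ext c
  unfold P1.chartHom1 P1.chartAlg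
  rw [RingHom.comp_apply, RingHom.comp_apply, awayHom_fromZeroRingHom]
  show ev K x (C c) = _
  simp [ev]

theorem P1.pt_str :
    P1.pt K x hx ≫ P1.str K = Spec.map (CommRingCat.ofHom (algebraMap K F)) := by
  rw [P1.pt_eq0, Category.assoc, P1.chart_str, ← Spec.map_comp, ← CommRingCat.ofHom_comp,
    P1.chartHom0_comp_chartAlg]

theorem aeval_range_le_of_mem {S : Subring F} (hK : ∀ c : K, algebraMap K F c ∈ S) {t : F}
    (ht : t ∈ S) : (Polynomial.aeval t : Polynomial K →ₐ[K] F).toRingHom.range ≤ S := by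
  rintro _ ⟨p, rfl⟩
  show Polynomial.aeval t p ∈ S
  rw [Polynomial.aeval_eq_sum_range]
  refine Subring.sum_mem _ fun i _ => ?_
  rw [Algebra.smul_def]
  exact S.mul_mem (hK _) (S.pow_mem ht i)

theorem ev_eq_comp :
    ev K x = (Polynomial.aeval x : Polynomial K →ₐ[K] F).comp
      (aeval ![1, Polynomial.X]) := by
  apply MvPolynomial.algHom_ext
  intro i
  fin_cases i <;> simp [ev]

theorem aeval_inv_eq_comp :
    (aeval ![x⁻¹, 1] : MvPolynomial (Fin 2) K →ₐ[K] F) =
      (Polynomial.aeval x⁻¹ : Polynomial K →ₐ[K] F).comp (aeval ![Polynomial.X, 1]) := by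
  apply MvPolynomial.algHom_ext
  intro i
  fin_cases i <;> simp

theorem P1.chartHom0_mk (n : ℕ) (a : MvPolynomial (Fin 2) K) (ha : a ∈ gr K (n • 1)) :
    P1.chartHom0 K x (Away.mk (gr K) (X_mem_gr K 0) n a ha) = ev K x a := by
  unfold P1.chartHom0
  rw [awayHom_mk, one_pow, mul_one]

include hx in
theorem P1.chartHom1_mk (n : ℕ) (a : MvPolynomial (Fin 2) K) (ha : a ∈ gr K (n • 1)) :
    P1.chartHom1 K x hx (Away.mk (gr K) (X_mem_gr K 1) n a ha) = aeval ![x⁻¹, 1] a := by
  unfold P1.chartHom1
  rw [awayHom_mk]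
  have ha' : a.IsHomogeneous n := by simpa using ha
  have h := aeval_mul_of_isHomogeneous (F := F) ha' x⁻¹ ![1, x]
  have h2 : (fun i => x⁻¹ * ![1, x] i) = ![x⁻¹, 1] := by
    funext i
    fin_cases i <;> simp [inv_mul_cancel₀ hx]
  rw [h2] at h
  rw [h, mul_comm]
  rfl

theorem P1.range_chartHom0 :
    (P1.chartHom0 K x).range = (Polynomial.aeval x : Polynomial K →ₐ[K] F).toRingHom.range := by
  apply le_antisymm
  · rintro _ ⟨z, rfl⟩
    obtain ⟨n, a, ha, rfl⟩ := Away.mk_surjective (gr K) (X_mem_gr K 0) z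
    rw [P1.chartHom0_mk, ev_eq_comp]
    exact ⟨_, rfl⟩
  · apply aeval_range_le_of_mem
    · intro c
      exact ⟨P1.chartAlg K 0 c, congrArg (fun f => f c) (P1.chartHom0_comp_chartAlg K x)⟩
    · refine ⟨Away.mk (gr K) (X_mem_gr K 0) 1 (X 1) (by simpa using X_mem_gr K 1), ?_⟩
      rw [P1.chartHom0_mk, ev_X1]

theorem P1.range_chartHom1 :
    (P1.chartHom1 K x hx).range =
      (Polynomial.aeval x⁻¹ : Polynomial K →ₐ[K] F).toRingHom.range := by
  apply le_antisymm
  · rintro _ ⟨z, rfl⟩
    obtain ⟨n, a, ha, rfl⟩ := Away.mk_surjective (gr K) (X_mem_gr K 1) z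
    rw [P1.chartHom1_mk, aeval_inv_eq_comp]
    exact ⟨_, rfl⟩
  · apply aeval_range_le_of_mem
    · intro c
      exact ⟨P1.chartAlg K 1 c, congrArg (fun f => f c) (P1.chartHom1_comp_chartAlg K x hx)⟩
    · refine ⟨Away.mk (gr K) (X_mem_gr K 1) 1 (X 0) (by simpa using X_mem_gr K 0), ?_⟩
      rw [P1.chartHom1_mk]
      simp

end point

end Fermat.Agent.JAC.MODEL
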