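/-
PROJECT JAC (S27) — brick (MODEL), helper9: the curve `curve c` of a function field `F/K` with a
coordinate `c : Coord K F`, as the normalization of the projective line in `Spec F`; its two affine
charts `Spec (affRing c)`, `Spec (affRing c.inv)`, structure morphism and generic point.
-/
import Mathlib
import Fermat.Agent.JAC.MODEL_helper9_Chart
import Fermat.Agent.JAC.MODEL_helper9_P1
import Fermat.Agent.JAC.MODEL_helper9_Alg

set_option autoImplicit false
set_option linter.unusedSectionVars false
set_option linter.style.haveILetI false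
universe u
open CategoryTheory AlgebraicGeometry Opposite Polynomial

namespace Fermat.Agent.JAC.MODEL

open Fermat.Agent.FF

attribute [local instance] MvPolynomial.gradedAlgebra

variable {K F : Type u} [Field K] [Field F] [Algebra K F] (c : Coord K F)

theorem Coord_x_ne_zero : c.x ≠ 0 := by
  intro h
  apply c.trans
  rw [h]
  exact isAlgebraic_zero

/-- the generic point of the curve, as an `F`-point of the projective line. -/
noncomputable def curveNu : Spec (.of F) ⟶ P1 K := P1.pt K c.x (Coord_x_ne_zero c)

instance isAffineHom_curveNu : IsAffineHom (curveNu c) := by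
  have h : IsAffineHom (curveNu c ≫ P1.str K) := by
    unfold curveNu
    rw [P1.pt_str]
    infer_instance
  exact MorphismProperty.of_postcomp (W := @IsAffineHom) (W' := @IsSeparated) (curveNu c)
    (P1.str K) inferInstance h

/-- the curve: the normalization of the projective line in `F`. -/
noncomputable def curve : Scheme.{u} := (curveNu c).normalization

/-- the projection to the projective line. -/
noncomputable def curve.toP1 : curve c ⟶ P1 K := (curveNu c).fromNormalization

/-- the structure morphism of the curve. -/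
noncomputable def curve.str : curve c ⟶ Spec (.of K) := curve.toP1 c ≫ P1.str K

/-- the generic point. -/
noncomputable def curve.gen : Spec (.of F) ⟶ curve c := (curveNu c).toNormalization

instance isIntegral_curve : IsIntegral (curve c) :=
  inferInstanceAs (IsIntegral (curveNu c).normalization)

instance isIntegralHom_curve_toP1 : IsIntegralHom (curve.toP1 c) :=
  inferInstanceAs (IsIntegralHom (curveNu c).fromNormalization)

theorem curve.gen_toP1 : curve.gen c ≫ curve.toP1 c = curveNu c :=
  (curveNu c).toNormalization_fromNormalization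

theorem curve.gen_str :
    curve.gen c ≫ curve.str c = Spec.map (CommRingCat.ofHom (algebraMap K F)) := by
  unfold curve.str
  rw [← Category.assoc, curve.gen_toP1]
  exact P1.pt_str K c.x (Coord_x_ne_zero c)

/-! ### the two charts -/

theorem aeval_mem_affRing (p : K[X]) : aeval c.x p ∈ affRing c := by
  letI := c.algPoly
  exact isIntegral_algebraMap (R := K[X]) (A := F) (x := p)

theorem chartHom0_mem_affRing (z) : P1.chartHom0 K c.x z ∈ affRing c := by
  have : P1.chartHom0 K c.x z ∈ (P1.chartHom0 K c.x).range := ⟨z, rfl⟩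
  rw [P1.range_chartHom0] at this
  obtain ⟨p, hp⟩ := this
  rw [← hp]
  exact aeval_mem_affRing c p

theorem chartHom1_mem_affRing (z) :
    P1.chartHom1 K c.x (Coord_x_ne_zero c) z ∈ affRing c.inv := by
  have : P1.chartHom1 K c.x (Coord_x_ne_zero c) z ∈
      (P1.chartHom1 K c.x (Coord_x_ne_zero c)).range := ⟨z, rfl⟩
  rw [P1.range_chartHom1] at this
  obtain ⟨p, hp⟩ := this
  rw [← hp]
  exact aeval_mem_affRing c.inv p

theorem mem_range_val_affRing_iff0 (y : F) :
    y ∈ (affRing c).val.toRingHom.range ↔ (P1.chartHom0 K c.x).IsIntegralElem y := by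
  rw [isIntegralElem_iff_of_range_eq _ _ (P1.range_chartHom0 K c.x), ← mem_affRing_iff]
  constructor
  · rintro ⟨z, rfl⟩; exact z.2
  · intro h; exact ⟨⟨y, h⟩, rfl⟩

theorem mem_range_val_affRing_iff1 (y : F) :
    y ∈ (affRing c.inv).val.toRingHom.range ↔
      (P1.chartHom1 K c.x (Coord_x_ne_zero c)).IsIntegralElem y := by
  rw [isIntegralElem_iff_of_range_eq _ _ (P1.range_chartHom1 K c.x (Coord_x_ne_zero c)),
    ← Coord.inv_x, ← mem_affRing_iff]
  constructor
  · rintro ⟨z, rfl⟩; exact z.2
  · intro h; exact ⟨⟨y, h⟩, rfl⟩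

/-- the chart `x ≠ ∞`. -/
noncomputable def curve.chart0 : Spec (.of (affRing c)) ⟶ curve c :=
  chartMapB (P1.chart K 0) (P1.chartHom0 K c.x) (curveNu c) (P1.pt_eq0 K c.x (Coord_x_ne_zero c))
    (affRing c).val.toRingHom Subtype.val_injective (mem_range_val_affRing_iff0 c)

/-- the chart `x ≠ 0`. -/
noncomputable def curve.chart1 : Spec (.of (affRing c.inv)) ⟶ curve c :=
  chartMapB (P1.chart K 1) (P1.chartHom1 K c.x (Coord_x_ne_zero c)) (curveNu c)
    (P1.pt_eq1 K c.x (Coord_x_ne_zero c))
    (affRing c.inv).val.toRingHom Subtype.val_injective (mem_range_val_affRing_iff1 c)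

instance isOpenImmersion_curve_chart0 : IsOpenImmersion (curve.chart0 c) :=
  isOpenImmersion_chartMapB _ _ _ _ _ _ _

instance isOpenImmersion_curve_chart1 : IsOpenImmersion (curve.chart1 c) :=
  isOpenImmersion_chartMapB _ _ _ _ _ _ _

/-- the chart ring map `A_(X₀) → affRing c`. -/
noncomputable def chartAlpha0 :
    HomogeneousLocalization.Away (gr K) (MvPolynomial.X 0 : MvPolynomial (Fin 2) K) →+*
      affRing c :=
  (P1.chartHom0 K c.x).codRestrict (affRing c) (chartHom0_mem_affRing c)

/-- the chart ring map `A_(X₁) → affRing c.inv`. -/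
noncomputable def chartAlpha1 :
    HomogeneousLocalization.Away (gr K) (MvPolynomial.X 1 : MvPolynomial (Fin 2) K) →+*
      affRing c.inv :=
  (P1.chartHom1 K c.x (Coord_x_ne_zero c)).codRestrict (affRing c.inv) (chartHom1_mem_affRing c)

theorem curve.chart0_toP1 :
    curve.chart0 c ≫ curve.toP1 c =
      Spec.map (CommRingCat.ofHom (chartAlpha0 c)) ≫ P1.chart K 0 :=
  chartMapB_fromNormalization _ _ _ _ _ _ _ (chartAlpha0 c) rfl

theorem curve.chart1_toP1 :
    curve.chart1 c ≫ curve.toP1 c =
      Spec.map (CommRingCat.ofHom (chartAlpha1 c)) ≫ P1.chart K 1 :=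
  chartMapB_fromNormalization _ _ _ _ _ _ _ (chartAlpha1 c) rfl

theorem curve.chart0_str :
    curve.chart0 c ≫ curve.str c = Spec.map (CommRingCat.ofHom (algebraMap K (affRing c))) := by
  unfold curve.str
  rw [← Category.assoc, curve.chart0_toP1, Category.assoc, P1.chart_str, ← Spec.map_comp,
    ← CommRingCat.ofHom_comp]
  congr 2
  ext r
  exact congrArg (fun f => f r) (P1.chartHom0_comp_chartAlg K c.x)

theorem curve.chart1_str :
    curve.chart1 c ≫ curve.str c =
      Spec.map (CommRingCat.ofHom (algebraMap K (affRing c.inv))) := by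
  unfold curve.str
  rw [← Category.assoc, curve.chart1_toP1, Category.assoc, P1.chart_str, ← Spec.map_comp,
    ← CommRingCat.ofHom_comp]
  congr 2
  ext r
  exact congrArg (fun f => f r) (P1.chartHom1_comp_chartAlg K c.x (Coord_x_ne_zero c))

theorem curve.opensRange_chart0 :
    (curve.chart0 c).opensRange = curve.toP1 c ⁻¹ᵁ (P1.chart K 0).opensRange :=
  opensRange_chartMapB _ _ _ _ _ _ _

theorem curve.opensRange_chart1 :
    (curve.chart1 c).opensRange = curve.toP1 c ⁻¹ᵁ (P1.chart K 1).opensRange :=
  opensRange_chartMapB _ _ _ _ _ _ _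

theorem curve.opensRange_chart_sup :
    (curve.chart0 c).opensRange ⊔ (curve.chart1 c).opensRange = ⊤ := by
  rw [curve.opensRange_chart0, curve.opensRange_chart1, ← Scheme.Hom.preimage_sup]
  have : (P1.chart K 0).opensRange ⊔ (P1.chart K 1).opensRange = ⊤ := by
    rw [← P1.iSup_opensRange_chart K]
    apply le_antisymm
    · exact sup_le (le_iSup (fun i => (P1.chart K i).opensRange) 0)
        (le_iSup (fun i => (P1.chart K i).opensRange) 1)
    · refine iSup_le fun i => ?_
      fin_cases i
      · exact le_sup_left
      · exact le_sup_right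
  rw [this]
  rfl

theorem curve.gen_eq_chart0 :
    curve.gen c = Spec.map (CommRingCat.ofHom (affRing c).val.toRingHom) ≫ curve.chart0 c :=
  toNormalization_eq_chartMapB _ _ _ _ _ _ _

theorem curve.gen_eq_chart1 :
    curve.gen c = Spec.map (CommRingCat.ofHom (affRing c.inv).val.toRingHom) ≫ curve.chart1 c :=
  toNormalization_eq_chartMapB _ _ _ _ _ _ _

end Fermat.Agent.JAC.MODEL
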