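/-
PROJECT JAC (S27) — brick (MODEL), helper9: **the smooth proper curve model of a function field.**
For `K` algebraically closed and `F/K` a function field with a separating coordinate `c : Coord K F`
the scheme `curve c` (normalization of the projective line in `F`) is integral, proper and smooth of
relative dimension one over `K`, its function field is `F` (`K`-linearly), and it has a rational
point.  Packaged as `CurveModel K F` / `nonempty_curveModel`.
-/
import Mathlib
import Fermat.Agent.JAC.MODEL_helper9_Norm
import Fermat.Agent.JAC.MODEL_helper9_Etale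

set_option autoImplicit false
set_option linter.unusedSectionVars false
set_option linter.style.haveILetI false
universe u
open CategoryTheory AlgebraicGeometry Opposite Polynomial IntermediateField

namespace Fermat.Agent.JAC.MODEL

open Fermat.Agent.FF


section ff

variable {X : Scheme.{u}} [IsIntegral X] {B L : Type u} [CommRing B] [IsDomain B] [Field L]
  [Algebra B L] [IsFractionRing B L]
  (k : Spec (.of B) ⟶ X) [IsOpenImmersion k]

theorem nonempty_image_top : Nonempty (k ''ᵁ (⊤ : (Spec (.of B)).Opens) : X.Opens) := by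
  obtain ⟨p⟩ : Nonempty (PrimeSpectrum B) := inferInstance
  exact ⟨⟨k p, ⟨p, trivial, rfl⟩⟩⟩

/-- sections over the image of an affine chart. -/
noncomputable def chartSectionsEquiv : Γ(X, k ''ᵁ ⊤) ≃+* B :=
  ((k.appIso ⊤) ≪≫ Scheme.ΓSpecIso (.of B)).commRingCatIsoToRingEquiv

/-- the function field of an integral scheme with an affine chart `Spec B` is `Frac B`. -/
noncomputable def functionFieldEquiv : X.functionField ≃+* L :=
  haveI := nonempty_image_top k
  haveI := functionField_isFractionRing_of_isAffineOpen X (k ''ᵁ ⊤)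
    ((isAffineOpen_top _).image_of_isOpenImmersion k)
  IsFractionRing.ringEquivOfRingEquiv (chartSectionsEquiv k)

theorem functionFieldEquiv_germ (s : Γ(X, k ''ᵁ ⊤)) :
    haveI := nonempty_image_top k
    functionFieldEquiv (L := L) k (X.germToFunctionField (k ''ᵁ ⊤) s) =
      algebraMap B L (chartSectionsEquiv k s) := by
  haveI := nonempty_image_top k
  haveI := functionField_isFractionRing_of_isAffineOpen X (k ''ᵁ ⊤)
    ((isAffineOpen_top _).image_of_isOpenImmersion k)
  exact IsFractionRing.ringEquivOfRingEquiv_algebraMap (chartSectionsEquiv k) s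

theorem res_appIso_top :
    X.presheaf.map (homOfLE (le_top : k ''ᵁ ⊤ ≤ ⊤)).op ≫ (k.appIso ⊤).hom = k.appTop := by
  rw [Scheme.Hom.appIso_hom', Scheme.Hom.map_appLE]
  exact (Scheme.Hom.app_eq_appLE k).symm

theorem functionFieldEquiv_str {K : Type u} [Field K] [Algebra K B] [Algebra K L]
    [IsScalarTower K B L] (f : X ⟶ Spec (.of K))
    (hf : k ≫ f = Spec.map (CommRingCat.ofHom (algebraMap K B))) (a : K) :
    functionFieldEquiv (L := L) k
      (((Scheme.ΓSpecIso (.of K)).inv ≫ f.appTop ≫
        X.presheaf.germ ⊤ (genericPoint X) trivial).hom a) = algebraMap K L a := by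
  haveI := nonempty_image_top k
  have hη : genericPoint X ∈ k ''ᵁ (⊤ : (Spec (.of B)).Opens) :=
    ((genericPoint_spec X).mem_open_set_iff (k ''ᵁ ⊤).isOpen).mpr (by simpa using this)
  have h1 : X.presheaf.germ ⊤ (genericPoint X) trivial =
      X.presheaf.map (homOfLE (le_top : k ''ᵁ ⊤ ≤ ⊤)).op ≫ X.germToFunctionField (k ''ᵁ ⊤) :=
    (X.presheaf.germ_res (homOfLE (le_top : k ''ᵁ ⊤ ≤ ⊤)) (genericPoint X) hη).symm
  rw [h1]
  simp only [CommRingCat.hom_comp, RingHom.comp_apply]
  rw [functionFieldEquiv_germ, IsScalarTower.algebraMap_apply K B L]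
  congr 1
  -- the ring-level computation
  have h2 : (Scheme.ΓSpecIso (.of K)).inv ≫ f.appTop ≫
      X.presheaf.map (homOfLE (le_top : k ''ᵁ ⊤ ≤ ⊤)).op ≫ (k.appIso ⊤).hom ≫
        (Scheme.ΓSpecIso (.of B)).hom = CommRingCat.ofHom (algebraMap K B) := by
    rw [reassoc_of% res_appIso_top k, ← Scheme.Hom.comp_appTop_assoc, hf,
      Scheme.ΓSpecIso_naturality, Iso.inv_hom_id_assoc]
  exact congrArg (fun g => g.hom a) h2

end ff



/-- a nontrivial finitely generated algebra over an algebraically closed field has a rational
point. -/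
theorem nonempty_algHom_of_finiteType {K B : Type u} [Field K] [IsAlgClosed K] [CommRing B]
    [Nontrivial B] [Algebra K B] [Algebra.FiniteType K B] : Nonempty (B →ₐ[K] K) := by
  obtain ⟨m, hm⟩ := Ideal.exists_maximal B
  letI : Field (B ⧸ m) := Ideal.Quotient.field m
  haveI : Algebra.FiniteType K (B ⧸ m) :=
    Algebra.FiniteType.of_surjective (Ideal.Quotient.mkₐ K m) Ideal.Quotient.mk_surjective
  haveI : Module.Finite K (B ⧸ m) := finite_of_finite_type_of_isJacobsonRing K (B ⧸ m)
  haveI : Algebra.IsIntegral K (B ⧸ m) := Algebra.IsIntegral.of_finite K (B ⧸ m)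
  have hbij := IsAlgClosed.algebraMap_bijective_of_isIntegral (k := K) (K := B ⧸ m)
  let e : K ≃ₐ[K] (B ⧸ m) := AlgEquiv.ofBijective (Algebra.ofId K (B ⧸ m)) hbij
  exact ⟨(e.symm : (B ⧸ m) →ₐ[K] K).comp (Ideal.Quotient.mkₐ K m)⟩



theorem of_two_charts (P : MorphismProperty Scheme.{u}) [IsZariskiLocalAtSource P]
    {X Y X0 X1 : Scheme.{u}} (k0 : X0 ⟶ X) (k1 : X1 ⟶ X) [IsOpenImmersion k0] [IsOpenImmersion k1]
    (hcov : k0.opensRange ⊔ k1.opensRange = ⊤) (f : X ⟶ Y) (h0 : P (k0 ≫ f)) (h1 : P (k1 ≫ f)) :
    P f := by
  refine IsZariskiLocalAtSource.of_iSup_eq_top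
    (fun b : Bool => cond b k1.opensRange k0.opensRange) ?_ ?_
  · rw [iSup_bool_eq]
    simpa [sup_comm] using hcov
  · intro b
    cases b
    · show P (k0.opensRange.ι ≫ f)
      rw [← MorphismProperty.cancel_left_of_respectsIso P k0.isoOpensRange.hom, ← Category.assoc,
        Scheme.Hom.isoOpensRange_hom_ι]
      exact h0
    · show P (k1.opensRange.ι ≫ f)
      rw [← MorphismProperty.cancel_left_of_respectsIso P k1.isoOpensRange.hom, ← Category.assoc,
        Scheme.Hom.isoOpensRange_hom_ι]
      exact h1

variable {K F : Type u} [Field K] [Field F] [Algebra K F] (c : Coord K F)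

theorem isSeparable_inv (hsep : Algebra.IsSeparable K⟮c.x⟯ F) :
    Algebra.IsSeparable K⟮c.inv.x⟯ F := by
  have h : K⟮c.inv.x⟯ = K⟮c.x⟯ := Coord.adjoin_inv c.x
  rw [h]; exact hsep

variable [IsAlgClosed K] (hsep : Algebra.IsSeparable K⟮c.x⟯ F)

omit c in
theorem smooth_chart (c' : Coord K F) (hsep' : Algebra.IsSeparable K⟮c'.x⟯ F) :
    SmoothOfRelativeDimension 1
      (Spec.map (CommRingCat.ofHom (algebraMap K (affRing c')))) := by
  haveI := isDedekindDomain_affRing c' hsep'
  haveI := finiteType_affRing c' hsep'
  exact smoothOfRelativeDimension_one_specMap (not_isField_affRing c')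

include hsep in
theorem smoothOfRelativeDimension_curve_str : SmoothOfRelativeDimension 1 (curve.str c) := by
  haveI : IsZariskiLocalAtSource (@SmoothOfRelativeDimension.{u} 1) :=
    HasRingHomProperty.instIsZariskiLocalAtSource
  refine of_two_charts (@SmoothOfRelativeDimension.{u} 1) (curve.chart0 c) (curve.chart1 c)
    (curve.opensRange_chart_sup c) _ ?_ ?_
  · rw [curve.chart0_str]; exact smooth_chart c hsep
  · rw [curve.chart1_str]; exact smooth_chart c.inv (isSeparable_inv c hsep)

include hsep in
theorem isProper_curve_str : IsProper (curve.str c) := by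
  haveI := smoothOfRelativeDimension_curve_str c hsep
  haveI : Smooth (curve.str c) := SmoothOfRelativeDimension.smooth 1 _
  haveI : LocallyOfFiniteType (curve.str c) := inferInstance
  haveI : IsSeparated (curve.str c) := by unfold curve.str; infer_instance
  haveI : UniversallyClosed (curve.str c) := by unfold curve.str; infer_instance
  exact {}



/-! ### the function field and a rational point of `curve c` -/

include hsep in
/-- the function field of `curve c` is `F`. -/
theorem exists_functionFieldEquiv :
    ∃ e : (curve c).functionField ≃+* F, ∀ a : K,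
      e (((Scheme.ΓSpecIso (.of K)).inv ≫ (curve.str c).appTop ≫
        (curve c).presheaf.germ ⊤ (genericPoint (curve c)) trivial).hom a) = algebraMap K F a := by
  haveI := isFractionRing_affRing c hsep
  exact ⟨functionFieldEquiv (L := F) (curve.chart0 c),
    functionFieldEquiv_str (L := F) (curve.chart0 c) (curve.str c) (curve.chart0_str c)⟩

include hsep in
/-- `curve c` has a `K`-rational point. -/
theorem exists_section : ∃ ε : Spec (.of K) ⟶ curve c, ε ≫ curve.str c = 𝟙 _ := by
  haveI := finiteType_affRing c hsep
  obtain ⟨ev⟩ := nonempty_algHom_of_finiteType (K := K) (B := affRing c)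
  refine ⟨Spec.map (CommRingCat.ofHom ev.toRingHom) ≫ curve.chart0 c, ?_⟩
  rw [Category.assoc, curve.chart0_str, ← Spec.map_comp, ← CommRingCat.ofHom_comp]
  have : ev.toRingHom.comp (algebraMap K (affRing c)) = RingHom.id K := by
    ext a; exact ev.commutes a
  rw [this]
  exact Spec.map_id _

/-- **A smooth proper curve model** of a function field `F/K`. -/
structure CurveModel (K F : Type u) [Field K] [Field F] [Algebra K F] where
  /-- the curve -/
  C : Scheme.{u}
  /-- its structure morphism -/
  str : C ⟶ Spec (.of K)
  isIntegral : IsIntegral C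
  isProper : IsProper str
  smooth : SmoothOfRelativeDimension 1 str
  /-- the identification of the function field -/
  ffEquiv : C.functionField ≃+* F
  ffEquiv_str : ∀ a : K,
    ffEquiv (((Scheme.ΓSpecIso (.of K)).inv ≫ str.appTop ≫
      C.presheaf.germ ⊤ (genericPoint C) trivial).hom a) = algebraMap K F a
  /-- a rational point -/
  sec : Spec (.of K) ⟶ C
  sec_str : sec ≫ str = 𝟙 _

include hsep in
/-- **(MODEL)**: a function field with a separating coordinate over an algebraically closed field
has a smooth proper curve model. -/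
theorem nonempty_curveModel_of_coord : Nonempty (CurveModel K F) := by
  obtain ⟨e, he⟩ := exists_functionFieldEquiv c hsep
  obtain ⟨ε, hε⟩ := exists_section c hsep
  exact ⟨{ C := curve c, str := curve.str c, isIntegral := inferInstance
           isProper := isProper_curve_str c hsep
           smooth := smoothOfRelativeDimension_curve_str c hsep
           ffEquiv := e, ffEquiv_str := he, sec := ε, sec_str := hε }⟩

end Fermat.Agent.JAC.MODEL
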