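/-
PROJECT JAC (S27) — brick (MODEL), helper9: the final wrapper.  A finitely generated field
extension `F/K` of an algebraically closed field of characteristic zero with Kähler differentials
of rank one has a smooth proper curve model (`CurveModel K F`).
Uses helper8's `MFIN.exists_coord` (existence of a coordinate).
-/
import Mathlib
import Fermat.Agent.JAC.MODEL_helper9_Main
import Fermat.Agent.JAC.MFIN_helper8_Coord

set_option autoImplicit false
universe u
open KaehlerDifferential IntermediateField

namespace Fermat.Agent.JAC.MODEL

open Fermat.Agent.FF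

/-- **(MODEL), final form**: the hypotheses are those of S27 (`IsCurveOver K F` gives `hΩ`). -/
theorem nonempty_curveModel {K F : Type u} [Field K] [Field F] [Algebra K F] [IsAlgClosed K]
    [CharZero K] [Algebra.EssFiniteType K F] (hΩ : Module.finrank F Ω[F⁄K] = 1) :
    Nonempty (CurveModel K F) := by
  obtain ⟨x, htr, hfin⟩ := Fermat.Agent.JAC.MFIN.exists_coord K F hΩ
  let c : Coord K F := ⟨x, htr, hfin⟩
  haveI : FiniteDimensional K⟮c.x⟯ F := hfin
  haveI : CharZero K⟮c.x⟯ := charZero_of_injective_algebraMap (algebraMap K K⟮c.x⟯).injective
  have hsep : Algebra.IsSeparable K⟮c.x⟯ F := inferInstance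
  exact nonempty_curveModel_of_coord c hsep

end Fermat.Agent.JAC.MODEL
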