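/-
PROJECT JAC (S27) — helper4: **S27 for fields in one universe**, assembled from
(MODEL) [helper9: `MODEL.nonempty_curveModel`], (P) [helper5: `exists_chartData`] + the S25 assembly
[`s25_of_chartData'`], (DIM)+(GENUS) [helper3/helper2/helper8: `DIM.smoothOfRelativeDimension_genusFF`],
(PTS)+S26 [helper6], (GRP) [helper1], (TRANSPORT) [helper7] through `natCard_torsion_pow_of_bricks`.
-/
import Mathlib
import Fermat.Agent.JAC.ASM_helper4_S27
import Fermat.Agent.JAC.J8_helper4_Assembly
import Fermat.Agent.JAC.P_helper5_Final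
import Fermat.Agent.JAC.MODEL_helper9_Final
import Fermat.Agent.JAC.DIM_helper3_Final

set_option autoImplicit false
set_option linter.style.haveILetI false
open CategoryTheory CategoryTheory.Limits AlgebraicGeometry AlgebraicGeometry.RelPicard
  NeronModelInfra GoodReductionJacobian TopologicalSpace Opposite AlgebraicCurve
universe u

namespace Fermat.Agent.JAC

open Fermat.Agent.AV

/-- **S27 for `K F : Type u`** (the frozen statement restricted to one universe). -/
theorem s27_sameUniverse (K F : Type u) [Field K] [Field F] [Algebra K F] [IsAlgClosed K]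
    [CharZero K] [IsCurveOver K F] [Algebra.EssFiniteType K F]
    (ℓ : ℕ) [Fact ℓ.Prime] (k : ℕ) :
    Nat.card (Pic0.torsion K F (ℓ ^ k)) = ℓ ^ (2 * genusFF K F * k) := by
  -- (MODEL)
  obtain ⟨M⟩ := MODEL.nonempty_curveModel (K := K) (F := F)
    (IsCurveOver.kaehler_free_rank_one (K := K) (F := F)).2
  haveI := M.isIntegral
  haveI := M.isProper
  haveI := M.smooth
  haveI : IsNoetherian M.C := isNoetherian_of_isProper_field M.str
  let ε : SchemeHomOver (𝟙 (Spec (CommRingCat.of K))) M.str := ⟨M.sec, M.sec_str⟩
  -- (P) + the S25 assembly: the Jacobian at LB level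
  obtain ⟨Dch, hlft⟩ := exists_chartData M.str ε
  obtain ⟨D, ⟨h⟩, -, hsm, hpr, -, hconn⟩ := s25_of_chartData' K M.str ε Dch hlft
  haveI := hsm
  haveI := hpr
  haveI := hconn
  -- (DIM) + (GENUS)
  letI := ffAlgebra M.str
  haveI : SmoothOfRelativeDimension (genusFF K M.C.functionField) D.toBase :=
    DIM.smoothOfRelativeDimension_genusFF (fun _ => rfl) h
  exact natCard_torsion_pow_of_bricks h (genusFF K M.C.functionField) rfl M.ffEquiv
    M.ffEquiv_str ℓ k

end Fermat.Agent.JAC
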