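/-
PROJECT JAC — brick J0 (helper1) — **morphisms out of the sheaf of a cocycle line bundle.**

* `pres P h` : restriction of sections of an `𝒪_X`-module `P`, with `pres_pres`, `pres_smul`,
  locality `eq_of_pres_eq` and gluing `exists_glue_pres`;
* `LB.Fam M P` : families `p i ∈ Γ(P, U i)` with `p j = g i j • p i` on the overlaps;
* `LB.homEquiv M P : (LB.toModules M ⟶ P) ≃ LB.Fam M P` (evaluation on the chart frames), natural
  in `P`.
-/
import Mathlib
import Fermat.Agent.JAC.BR_helper1_Sheaf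
import Fermat.Agent.AV.CUBE_helper1_Thick

set_option autoImplicit false

open AlgebraicGeometry CategoryTheory Opposite TopologicalSpace

universe u

namespace Fermat.Agent.JAC

open Fermat.Agent.AV

noncomputable section

variable {X : Scheme.{u}}

/-- restriction of sections of an `𝒪_X`-module. -/
abbrev pres (P : X.Modules) {U V : X.Opens} (h : V ≤ U) : Γ(P, U) →+ Γ(P, V) :=
  (P.presheaf.map (homOfLE h).op).hom

theorem pres_pres (P : X.Modules) {U V W : X.Opens} (h₁ : V ≤ U) (h₂ : W ≤ V) (x : Γ(P, U)) :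
    pres P h₂ (pres P h₁ x) = pres P (h₂.trans h₁) x := by
  simp only [pres]
  rw [← AddCommGrpCat.comp_apply, ← Functor.map_comp]
  rfl

theorem pres_self (P : X.Modules) {U : X.Opens} (x : Γ(P, U)) : pres P le_rfl x = x := by
  simp only [pres]
  have : (homOfLE (le_refl U)).op = 𝟙 (op U) := rfl
  rw [this, P.presheaf.map_id]
  rfl

theorem pres_smul (P : X.Modules) {U V : X.Opens} (h : V ≤ U) (r : Γ(X, U)) (x : Γ(P, U)) :
    pres P h (r • x) = res V h r • pres P h x :=
  Scheme.Modules.map_smul P (homOfLE h) r x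

/-- locality for sections of an `𝒪_X`-module. -/
theorem eq_of_pres_eq (P : X.Modules) {ι : Type*} {V : X.Opens} (U : ι → X.Opens)
    (hU : ∀ i, U i ≤ V) (hcover : V ≤ ⨆ i, U i) (a b : Γ(P, V))
    (h : ∀ i, pres P (hU i) a = pres P (hU i) b) : a = b :=
  TopCat.Sheaf.eq_of_locally_eq' (⟨P.presheaf, P.isSheaf⟩ : TopCat.Sheaf Ab X) U V
    (fun i => homOfLE (hU i)) hcover a b h

/-- gluing for sections of an `𝒪_X`-module. -/
theorem exists_glue_pres (P : X.Modules) {ι : Type u} {V : X.Opens} (U : ι → X.Opens)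
    (hU : ∀ i, U i ≤ V) (hcover : V ≤ ⨆ i, U i) (sf : ∀ i, Γ(P, U i))
    (h : ∀ i j, pres P (inf_le_left : U i ⊓ U j ≤ U i) (sf i) =
      pres P (inf_le_right : U i ⊓ U j ≤ U j) (sf j)) :
    ∃! s : Γ(P, V), ∀ i, pres P (hU i) s = sf i :=
  TopCat.Sheaf.existsUnique_gluing' (⟨P.presheaf, P.isSheaf⟩ : TopCat.Sheaf Ab X) U V
    (fun i => homOfLE (hU i)) hcover sf h

theorem pres_ofSecOn (M : LB X) {U V : X.Opens} (h : V ≤ U) (σ : M.SecOn U) :
    pres (LB.toModules M) h (LB.ofSecOn M σ) = LB.ofSecOn M (σ.restrict h) := rfl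

theorem toSecOn_pres (M : LB X) {U V : X.Opens} (h : V ≤ U) (x : Γ(LB.toModules M, U)) :
    LB.toSecOn M (pres (LB.toModules M) h x) = (LB.toSecOn M x).restrict h := rfl

/-- families of sections of `P` over the charts of `M`, transforming like the chart frames. -/
structure LB.Fam (M : LB X) (P : X.Modules) where
  /-- the image of the `i`-th chart frame -/
  p : ∀ i, Γ(P, M.U i)
  compat : ∀ i j, pres P (inf_le_right : M.U i ⊓ M.U j ≤ M.U j) (p j) =
    M.g i j • pres P (inf_le_left : M.U i ⊓ M.U j ≤ M.U i) (p i)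

namespace LB.Fam

variable {M : LB X} {P : X.Modules}

@[ext]
theorem ext {F G : LB.Fam M P} (h : ∀ i, F.p i = G.p i) : F = G := by
  cases F; cases G; congr; funext i; exact h i

theorem compat' (F : LB.Fam M P) (i j : M.ι) (O : X.Opens) (hi : O ≤ M.U i) (hj : O ≤ M.U j) :
    pres P hj (F.p j) = res O (le_inf hi hj) (M.g i j) • pres P hi (F.p i) := by
  have h := congrArg (pres P (le_inf hi hj)) (F.compat i j)
  rw [pres_smul, pres_pres, pres_pres] at h
  exact h

/-- the local pieces of the image of a section. -/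
def piece (F : LB.Fam M P) {U : X.Opens} (σ : M.SecOn U) (i : M.ι) : Γ(P, M.U i ⊓ U) :=
  σ.s i • pres P (inf_le_left : M.U i ⊓ U ≤ M.U i) (F.p i)

theorem piece_compat (F : LB.Fam M P) {U : X.Opens} (σ : M.SecOn U) (i j : M.ι) :
    pres P (inf_le_left : (M.U i ⊓ U) ⊓ (M.U j ⊓ U) ≤ M.U i ⊓ U) (F.piece σ i) =
      pres P (inf_le_right : (M.U i ⊓ U) ⊓ (M.U j ⊓ U) ≤ M.U j ⊓ U) (F.piece σ j) := by
  set O := (M.U i ⊓ U) ⊓ (M.U j ⊓ U) with hO
  have hi : O ≤ M.U i := inf_le_left.trans inf_le_left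
  have hj : O ≤ M.U j := inf_le_right.trans inf_le_left
  have hU : O ≤ U := inf_le_left.trans inf_le_right
  simp only [piece]
  rw [pres_smul, pres_smul, pres_pres, pres_pres, F.compat' i j O hi hj, smul_smul,
    σ.compat' i j O hi hj hU]
  congr 1
  ring

theorem exists_image (F : LB.Fam M P) {U : X.Opens} (σ : M.SecOn U) :
    ∃! t : Γ(P, U), ∀ i, pres P (inf_le_right : M.U i ⊓ U ≤ U) t = F.piece σ i :=
  exists_glue_pres P (fun i => M.U i ⊓ U) (fun _ => inf_le_right) (CP.cover_inf M U)
    (fun i => F.piece σ i) (F.piece_compat σ)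

/-- the image of a section under the morphism defined by the family `F`. -/
def image (F : LB.Fam M P) {U : X.Opens} (σ : M.SecOn U) : Γ(P, U) := (F.exists_image σ).choose

theorem pres_image (F : LB.Fam M P) {U : X.Opens} (σ : M.SecOn U) (i : M.ι) :
    pres P (inf_le_right : M.U i ⊓ U ≤ U) (F.image σ) = F.piece σ i :=
  (F.exists_image σ).choose_spec.1 i

theorem image_eq_of (F : LB.Fam M P) {U : X.Opens} (σ : M.SecOn U) (t : Γ(P, U))
    (ht : ∀ i, pres P (inf_le_right : M.U i ⊓ U ≤ U) t = F.piece σ i) : F.image σ = t :=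
  ((F.exists_image σ).choose_spec.2 t ht).symm

theorem piece_add (F : LB.Fam M P) {U : X.Opens} (σ τ : M.SecOn U) (i : M.ι) :
    F.piece (σ + τ) i = F.piece σ i + F.piece τ i := by
  simp only [piece, CP.add_s, add_smul]

theorem piece_smul (F : LB.Fam M P) {U : X.Opens} (r : Γ(X, U)) (σ : M.SecOn U) (i : M.ι) :
    F.piece (r • σ) i = res (M.U i ⊓ U) inf_le_right r • F.piece σ i := by
  simp only [piece, CP.smul_s', mul_smul]

theorem piece_restrict (F : LB.Fam M P) {U V : X.Opens} (h : V ≤ U) (σ : M.SecOn U) (i : M.ι) :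
    F.piece (σ.restrict h) i = pres P (inf_le_inf_left _ h) (F.piece σ i) := by
  simp only [piece, LB.SecOn.restrict_s, pres_smul, pres_pres]

theorem image_add (F : LB.Fam M P) {U : X.Opens} (σ τ : M.SecOn U) :
    F.image (σ + τ) = F.image σ + F.image τ := by
  refine F.image_eq_of _ _ fun i => ?_
  rw [map_add, pres_image, pres_image, piece_add]

theorem image_smul (F : LB.Fam M P) {U : X.Opens} (r : Γ(X, U)) (σ : M.SecOn U) :
    F.image (r • σ) = r • F.image σ := by
  refine F.image_eq_of _ _ fun i => ?_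
  rw [pres_smul, pres_image, piece_smul]

theorem image_restrict (F : LB.Fam M P) {U V : X.Opens} (h : V ≤ U) (σ : M.SecOn U) :
    F.image (σ.restrict h) = pres P h (F.image σ) := by
  refine F.image_eq_of _ _ fun i => ?_
  rw [pres_pres, piece_restrict, ← pres_image, pres_pres]

/-- the morphism of abelian presheaves defined by a family. -/
def toPresheafHom (F : LB.Fam M P) : LB.secPresheaf M ⟶ P.presheaf where
  app U := AddCommGrpCat.ofHom (AddMonoidHom.mk' (fun σ : M.SecOn U.unop => F.image σ)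
    (fun σ τ => F.image_add σ τ))
  naturality U V f := by
    refine AddCommGrpCat.hom_ext (AddMonoidHom.ext fun σ => ?_)
    exact F.image_restrict (leOfHom f.unop) σ

/-- the morphism `toModules M ⟶ P` defined by a family. -/
def toHom (F : LB.Fam M P) : LB.toModules M ⟶ P :=
  ⟨PresheafOfModules.homMk (M₁ := (LB.toModules M).val) (M₂ := P.val) F.toPresheafHom
    (fun U r σ => F.image_smul (U := U.unop) r σ)⟩

theorem toHom_app (F : LB.Fam M P) (U : X.Opens) (x : Γ(LB.toModules M, U)) :
    (F.toHom.app U).hom x = F.image (LB.toSecOn M x) := rfl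

theorem toHom_app_ofSecOn (F : LB.Fam M P) (U : X.Opens) (σ : M.SecOn U) :
    (F.toHom.app U).hom (LB.ofSecOn M σ) = F.image σ := rfl

end LB.Fam

/-- morphisms of modules commute with restriction. -/
theorem app_pres {A B : X.Modules} (f : A ⟶ B) {U V : X.Opens} (h : V ≤ U) (x : Γ(A, U)) :
    (f.app V).hom (pres A h x) = pres B h ((f.app U).hom x) :=
  PresheafOfModules.naturality_apply f.val (homOfLE h).op x

theorem app_smul' {A B : X.Modules} (f : A ⟶ B) {U : X.Opens} (r : Γ(X, U)) (x : Γ(A, U)) :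
    (f.app U).hom (r • x) = r • (f.app U).hom x :=
  Scheme.Modules.Hom.app_smul f r x

theorem chartFrame_restrict (M : LB X) (i : M.ι) {O O' : X.Opens} (hO : O ≤ M.U i) (h : O' ≤ O) :
    (M.chartFrame i hO).restrict h = M.chartFrame i (h.trans hO) := by
  ext k
  simp only [LB.SecOn.restrict_s, LB.chartFrame, res_res]

theorem chartFrame_eq_smul (M : LB X) (i j : M.ι) {O : X.Opens} (hi : O ≤ M.U i)
    (hj : O ≤ M.U j) :
    M.chartFrame j hj = (M.chartFrame i hi).smul (res O (le_inf hi hj) (M.g i j)) := by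
  ext k
  simp only [LB.SecOn.smul_s, LB.chartFrame, res_res]
  rw [mul_comm]
  exact (M.cocycle' k i j _ inf_le_left (inf_le_right.trans hi) (inf_le_right.trans hj)).symm

theorem restrict_eq_smul_chartFrame (M : LB X) {U : X.Opens} (σ : M.SecOn U) (i : M.ι) :
    σ.restrict (inf_le_right : M.U i ⊓ U ≤ U) =
      (M.chartFrame i (inf_le_left : M.U i ⊓ U ≤ M.U i)).smul (σ.s i) := by
  ext k
  simp only [LB.SecOn.restrict_s, LB.SecOn.smul_s, LB.chartFrame]
  rw [mul_comm]
  exact σ.compat' k i _ inf_le_left (inf_le_right.trans inf_le_left)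
    (inf_le_right.trans inf_le_right)

namespace LB.Fam

variable {M : LB X} {P : X.Modules}

/-- the family of images of the chart frames under a morphism. -/
def ofHom (f : LB.toModules M ⟶ P) : LB.Fam M P where
  p i := (f.app (M.U i)).hom (LB.ofSecOn M (M.chartFrame i le_rfl))
  compat i j := by
    rw [← app_pres, ← app_pres, ← app_smul', pres_ofSecOn, pres_ofSecOn, LB.smul_ofSecOn]
    congr 2
    rw [chartFrame_restrict, chartFrame_restrict,
      chartFrame_eq_smul M i j (inf_le_left : M.U i ⊓ M.U j ≤ M.U i) inf_le_right, res_self]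

theorem ofHom_p (f : LB.toModules M ⟶ P) (i : M.ι) :
    (ofHom f).p i = (f.app (M.U i)).hom (LB.ofSecOn M (M.chartFrame i le_rfl)) := rfl

theorem toHom_ofHom (f : LB.toModules M ⟶ P) : (ofHom f).toHom = f := by
  refine Scheme.Modules.hom_ext _ _ fun U => ?_
  refine AddCommGrpCat.hom_ext (AddMonoidHom.ext fun x => ?_)
  rw [toHom_app]
  refine (ofHom f).image_eq_of _ _ fun i => ?_
  rw [← app_pres, piece, ofHom_p, ← app_pres, ← app_smul', pres_ofSecOn, LB.smul_ofSecOn,
    chartFrame_restrict, ← restrict_eq_smul_chartFrame, ← toSecOn_pres, LB.ofSecOn_toSecOn]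

theorem ofHom_toHom (F : LB.Fam M P) : ofHom F.toHom = F := by
  ext i
  rw [ofHom_p, toHom_app_ofSecOn]
  refine F.image_eq_of _ _ fun j => ?_
  rw [piece]
  exact F.compat' j i _ inf_le_left inf_le_right

end LB.Fam

namespace LB.Fam

variable {M : LB X} {P Q : X.Modules}

/-- push a family forward along a morphism of modules. -/
def map (F : LB.Fam M P) (h : P ⟶ Q) : LB.Fam M Q where
  p i := (h.app (M.U i)).hom (F.p i)
  compat i j := by rw [← app_pres, ← app_pres, ← app_smul', F.compat]

@[simp]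
theorem map_p (F : LB.Fam M P) (h : P ⟶ Q) (i : M.ι) :
    (F.map h).p i = (h.app (M.U i)).hom (F.p i) := rfl

theorem ofHom_comp (f : LB.toModules M ⟶ P) (h : P ⟶ Q) :
    ofHom (f ≫ h) = (ofHom f).map h := rfl

theorem toHom_map (F : LB.Fam M P) (h : P ⟶ Q) : (F.map h).toHom = F.toHom ≫ h := by
  rw [← toHom_ofHom (F.toHom ≫ h), ofHom_comp, ofHom_toHom]

end LB.Fam

/-- **Lemma H**: morphisms `toModules M ⟶ P` are the families transforming like the chart
frames. -/
def LB.homEquiv (M : LB X) (P : X.Modules) : (LB.toModules M ⟶ P) ≃ LB.Fam M P where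
  toFun := LB.Fam.ofHom
  invFun := LB.Fam.toHom
  left_inv := LB.Fam.toHom_ofHom
  right_inv := LB.Fam.ofHom_toHom

end

end Fermat.Agent.JAC
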