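/-
PROJECT JAC — brick J0 (helper1) — **frames of `𝒪_X`-modules and isomorphisms out of `toModules M`.**

* `IsFrame P e` : the section `e ∈ Γ(P, U)` generates `P` freely over every open of `U`;
* `isFrame_chartFrame` : the chart frames of `toModules M` are frames;
* `LB.Fam.isIso_toHom` (**Lemma I**) : a family of frames defines an isomorphism `toModules M ≅ P`;
* `LB.Fam.isFrame_of_isIso` : conversely.
-/
import Mathlib
import Fermat.Agent.JAC.BR_helper1_Hom

set_option autoImplicit false

open AlgebraicGeometry CategoryTheory Opposite TopologicalSpace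

universe u

namespace Fermat.Agent.JAC

open Fermat.Agent.AV

noncomputable section

variable {X : Scheme.{u}}

/-- `e` generates `P` freely over every open contained in `U`. -/
def IsFrame (P : X.Modules) {U : X.Opens} (e : Γ(P, U)) : Prop :=
  ∀ (V : X.Opens) (h : V ≤ U), Function.Bijective (fun a : Γ(X, V) => a • pres P h e)

theorem IsFrame.pres {P : X.Modules} {U V : X.Opens} {e : Γ(P, U)} (he : IsFrame P e)
    (h : V ≤ U) : IsFrame P (pres P h e) := by
  intro W hW
  have := he W (hW.trans h)
  simp only [pres_pres]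
  exact this

theorem IsFrame.of_iso {P Q : X.Modules} (θ : P ≅ Q) {U : X.Opens} {e : Γ(P, U)}
    (he : IsFrame P e) : IsFrame Q ((θ.hom.app U).hom e) := by
  intro V h
  have hbij : Function.Bijective (θ.hom.app V).hom := by
    refine ⟨?_, ?_⟩
    · intro x y hxy
      have := congrArg (θ.inv.app V).hom hxy
      rw [← AddCommGrpCat.comp_apply, ← AddCommGrpCat.comp_apply,
        ← Scheme.Modules.Hom.comp_app, θ.hom_inv_id] at this
      exact this
    · intro y
      refine ⟨(θ.inv.app V).hom y, ?_⟩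
      rw [← AddCommGrpCat.comp_apply, ← Scheme.Modules.Hom.comp_app, θ.inv_hom_id]
      rfl
  have : (fun a : Γ(X, V) => a • JAC.pres Q h ((θ.hom.app U).hom e)) =
      (θ.hom.app V).hom ∘ (fun a : Γ(X, V) => a • JAC.pres P h e) := by
    funext a
    simp only [Function.comp_apply]
    rw [app_smul', app_pres]
  rw [this]
  exact hbij.comp (he V h)

theorem isFrame_chartFrame (M : LB X) (i : M.ι) {O : X.Opens} (hO : O ≤ M.U i) :
    IsFrame (LB.toModules M) (LB.ofSecOn M (M.chartFrame i hO)) := by
  intro V h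
  have hu := M.isUnit_chartFrame i (h.trans hO)
  have key : (fun a : Γ(X, V) => a • JAC.pres (LB.toModules M) h (LB.ofSecOn M (M.chartFrame i hO)))
      = fun a => LB.ofSecOn M ((M.chartFrame i (h.trans hO)).smul a) := by
    funext a
    rw [pres_ofSecOn, LB.smul_ofSecOn, chartFrame_restrict]
  rw [key]
  refine ⟨?_, ?_⟩
  · intro a b hab
    have hab' : (M.chartFrame i (h.trans hO)).smul a = (M.chartFrame i (h.trans hO)).smul b :=
      LB.ofSecOn_injective M hab
    obtain ⟨c, -, hc⟩ := LB.SecOn.exists_ratio _ hu ((M.chartFrame i (h.trans hO)).smul a)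
    rw [hc a rfl, hc b hab']
  · intro x
    obtain ⟨c, hc, -⟩ := LB.SecOn.exists_ratio _ hu (LB.toSecOn M x)
    refine ⟨c, ?_⟩
    show LB.ofSecOn M ((M.chartFrame i (h.trans hO)).smul c) = x
    rw [← hc, LB.ofSecOn_toSecOn]

namespace LB.Fam

variable {M : LB X} {P : X.Modules}

theorem image_injective (F : LB.Fam M P) (hF : ∀ i, IsFrame P (F.p i)) {U : X.Opens}
    (σ τ : M.SecOn U) (h : F.image σ = F.image τ) : σ = τ := by
  ext i
  have h1 := F.pres_image σ i
  have h2 := F.pres_image τ i
  rw [h] at h1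
  have h3 : F.piece σ i = F.piece τ i := h1.symm.trans h2
  exact (hF i (M.U i ⊓ U) inf_le_left).1 h3

theorem image_surjective (F : LB.Fam M P) (hF : ∀ i, IsFrame P (F.p i)) {U : X.Opens}
    (ℓ : Γ(P, U)) : ∃ σ : M.SecOn U, F.image σ = ℓ := by
  have hex : ∀ i, ∃ a : Γ(X, M.U i ⊓ U),
      a • pres P (inf_le_left : M.U i ⊓ U ≤ M.U i) (F.p i) =
        pres P (inf_le_right : M.U i ⊓ U ≤ U) ℓ := fun i =>
    (hF i (M.U i ⊓ U) inf_le_left).2 _
  choose a ha using hex
  refine ⟨⟨a, ?_⟩, ?_⟩
  · intro i j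
    set O := M.U i ⊓ M.U j ⊓ U with hO
    have hi : O ≤ M.U i := inf_le_left.trans inf_le_left
    have hj : O ≤ M.U j := inf_le_left.trans inf_le_right
    have hU : O ≤ U := inf_le_right
    refine (hF i O hi).1 ?_
    show res O (le_inf hi hU) (a i) • pres P hi (F.p i) =
      (res O inf_le_left (M.g i j) * res O (le_inf hj hU) (a j)) • pres P hi (F.p i)
    have h1 := congrArg (pres P (le_inf hi hU)) (ha i)
    have h2 := congrArg (pres P (le_inf hj hU)) (ha j)
    rw [pres_smul, pres_pres, pres_pres] at h1 h2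
    rw [h1, ← h2, F.compat' i j O hi hj, smul_smul, mul_comm]
  · refine F.image_eq_of _ _ fun i => ?_
    exact (ha i).symm

/-- **Lemma I**: a family of frames defines an isomorphism. -/
theorem isIso_toHom (F : LB.Fam M P) (hF : ∀ i, IsFrame P (F.p i)) : IsIso F.toHom := by
  rw [Scheme.Modules.Hom.isIso_iff_isIso_app]
  intro U
  rw [ConcreteCategory.isIso_iff_bijective]
  refine ⟨?_, ?_⟩
  · intro x y hxy
    have := F.image_injective hF (LB.toSecOn M x) (LB.toSecOn M y) hxy
    exact LB.toSecOn_injective M this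
  · intro ℓ
    obtain ⟨σ, hσ⟩ := F.image_surjective hF ℓ
    exact ⟨LB.ofSecOn M σ, hσ⟩

/-- the isomorphism defined by a family of frames. -/
def toIso (F : LB.Fam M P) (hF : ∀ i, IsFrame P (F.p i)) : LB.toModules M ≅ P :=
  haveI := F.isIso_toHom hF
  asIso F.toHom

@[simp]
theorem toIso_hom (F : LB.Fam M P) (hF : ∀ i, IsFrame P (F.p i)) :
    (F.toIso hF).hom = F.toHom := rfl

/-- conversely, the family of an isomorphism consists of frames. -/
theorem isFrame_ofHom_iso (θ : LB.toModules M ≅ P) (i : M.ι) :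
    IsFrame P ((LB.Fam.ofHom θ.hom).p i) :=
  (isFrame_chartFrame M i le_rfl).of_iso θ

end LB.Fam

end

end Fermat.Agent.JAC
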