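/-
PROJECT JAC — brick J0 (helper1) — **trivial line bundles and the structure sheaf.**

* `unitOf`, `ofUnit` : the identification `Γ(𝒪_X, U) = Γ(X, U)` for the unit module;
* `isFrame_unit_iff` : a function is a frame of the unit module iff it is a unit;
* `LB.isTrivial_iff_nonempty_iso` : `M.IsTrivial ↔ Nonempty (toModules M ≅ 𝒪_X)`;
* `LB.toModulesTrivialIso` : `toModules (LB.trivial X) ≅ 𝒪_X` (item (e)).
-/
import Mathlib
import Fermat.Agent.JAC.BR_helper1_Frame

set_option autoImplicit false

open AlgebraicGeometry CategoryTheory Opposite TopologicalSpace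

universe u

namespace Fermat.Agent.JAC

open Fermat.Agent.AV

noncomputable section

variable {X : Scheme.{u}}

/-- the unit module `𝒪_X`. -/
abbrev unitMod (X : Scheme.{u}) : X.Modules := SheafOfModules.unit X.ringCatSheaf

/-- a function, as a section of the unit module. -/
def unitOf {U : X.Opens} (a : Γ(X, U)) : Γ(unitMod X, U) := a

/-- a section of the unit module, as a function. -/
def ofUnit {U : X.Opens} (x : Γ(unitMod X, U)) : Γ(X, U) := x

@[simp] theorem ofUnit_unitOf {U : X.Opens} (a : Γ(X, U)) : ofUnit (unitOf a) = a := rfl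
@[simp] theorem unitOf_ofUnit {U : X.Opens} (x : Γ(unitMod X, U)) : unitOf (ofUnit x) = x := rfl

theorem unitOf_injective {U : X.Opens} : Function.Injective (unitOf (X := X) (U := U)) :=
  fun _ _ h => h

theorem pres_unitOf {U V : X.Opens} (h : V ≤ U) (a : Γ(X, U)) :
    pres (unitMod X) h (unitOf a) = unitOf (res V h a) := rfl

theorem smul_unitOf {U : X.Opens} (r a : Γ(X, U)) :
    r • unitOf a = unitOf (r * a) := rfl

theorem isFrame_unit_iff {U : X.Opens} (e : Γ(X, U)) :
    IsFrame (unitMod X) (unitOf e) ↔ IsUnit e := by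
  constructor
  · intro h
    obtain ⟨a, ha⟩ := (h U le_rfl).2 (unitOf 1)
    simp only [pres_self] at ha
    rw [smul_unitOf] at ha
    exact IsUnit.of_mul_eq_one a ((mul_comm e a).trans (unitOf_injective ha))
  · intro h V hV
    have hu : IsUnit (res V hV e) := isUnit_res _ h
    have key : (fun a : Γ(X, V) => a • JAC.pres (unitMod X) hV (unitOf e)) =
        fun a => unitOf (a * res V hV e) := by
      funext a
      rw [pres_unitOf, smul_unitOf]
    rw [key]
    refine ⟨?_, ?_⟩
    · intro a b hab
      exact hu.mul_left_injective (unitOf_injective hab)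
    · intro x
      obtain ⟨c, hc⟩ := hu.exists_left_inv
      refine ⟨ofUnit x * c, ?_⟩
      show unitOf (ofUnit x * c * res V hV e) = x
      rw [mul_assoc, hc, mul_one, unitOf_ofUnit]

/-- the family of inverses of a trivialising section. -/
def LB.famOfSection (M : LB X) (s : M.H0) (t : ∀ i, Γ(X, M.U i)) (hst : ∀ i, s.1 i * t i = 1) :
    LB.Fam M (unitMod X) where
  p i := unitOf (t i)
  compat i j := by
    rw [pres_unitOf, pres_unitOf, smul_unitOf]
    congr 1
    have h := s.2 i j
    have hi := congrArg (res (M.U i ⊓ M.U j) inf_le_left) (hst i)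
    have hj := congrArg (res (M.U i ⊓ M.U j) inf_le_right) (hst j)
    rw [map_mul, map_one] at hi hj
    calc res (M.U i ⊓ M.U j) inf_le_right (t j)
        = res (M.U i ⊓ M.U j) inf_le_right (t j) *
          (res (M.U i ⊓ M.U j) inf_le_left (s.1 i) * res (M.U i ⊓ M.U j) inf_le_left (t i)) := by
            rw [hi, mul_one]
      _ = M.g i j * (res (M.U i ⊓ M.U j) inf_le_right (s.1 j) *
            res (M.U i ⊓ M.U j) inf_le_right (t j)) *
            res (M.U i ⊓ M.U j) inf_le_left (t i) := by rw [h]; ring
      _ = M.g i j * res (M.U i ⊓ M.U j) inf_le_left (t i) := by rw [hj, mul_one]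

/-- a line bundle is trivial iff its sheaf of sections is isomorphic to the structure sheaf. -/
theorem LB.isTrivial_iff_nonempty_iso (M : LB X) :
    M.IsTrivial ↔ Nonempty (LB.toModules M ≅ unitMod X) := by
  constructor
  · rintro ⟨s, hs⟩
    have hex : ∀ i, ∃ t : Γ(X, M.U i), s.1 i * t = 1 := fun i => (hs i).exists_right_inv
    choose t ht using hex
    refine ⟨(LB.famOfSection M s t ht).toIso fun i => ?_⟩
    show IsFrame (unitMod X) (unitOf (t i))
    rw [isFrame_unit_iff]
    exact IsUnit.of_mul_eq_one (s.1 i) ((mul_comm _ _).trans (ht i))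
  · rintro ⟨θ⟩
    have hfr := LB.Fam.isFrame_ofHom_iso θ
    set F := LB.Fam.ofHom θ.hom with hF
    have hu : ∀ i, IsUnit (ofUnit (F.p i)) := fun i => by
      rw [← isFrame_unit_iff, unitOf_ofUnit]
      exact hfr i
    have hex : ∀ i, ∃ t : Γ(X, M.U i), ofUnit (F.p i) * t = 1 := fun i => (hu i).exists_right_inv
    choose t ht using hex
    refine ⟨⟨t, ?_⟩, fun i => IsUnit.of_mul_eq_one _ ((mul_comm _ _).trans (ht i))⟩
    intro i j
    have hc : res (M.U i ⊓ M.U j) inf_le_right (ofUnit (F.p j)) =
        M.g i j * res (M.U i ⊓ M.U j) inf_le_left (ofUnit (F.p i)) := by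
      have h := F.compat i j
      rw [← unitOf_ofUnit (F.p j), ← unitOf_ofUnit (F.p i), pres_unitOf, pres_unitOf,
        smul_unitOf] at h
      exact unitOf_injective h
    have hi := congrArg (res (M.U i ⊓ M.U j) inf_le_left) (ht i)
    have hj := congrArg (res (M.U i ⊓ M.U j) inf_le_right) (ht j)
    rw [map_mul, map_one] at hi hj
    calc res (M.U i ⊓ M.U j) inf_le_left (t i)
        = res (M.U i ⊓ M.U j) inf_le_left (t i) *
          (res (M.U i ⊓ M.U j) inf_le_right (ofUnit (F.p j)) *
            res (M.U i ⊓ M.U j) inf_le_right (t j)) := by rw [hj, mul_one]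
      _ = M.g i j * (res (M.U i ⊓ M.U j) inf_le_left (ofUnit (F.p i)) *
            res (M.U i ⊓ M.U j) inf_le_left (t i)) *
            res (M.U i ⊓ M.U j) inf_le_right (t j) := by rw [hc]; ring
      _ = M.g i j * res (M.U i ⊓ M.U j) inf_le_right (t j) := by rw [hi, mul_one]

theorem LB.isTrivial_trivial (X : Scheme.{u}) : (LB.trivial X).IsTrivial :=
  ⟨⟨fun _ => 1, fun _ _ => by
    show res _ _ (1 : Γ(X, ⊤)) = 1 * res _ _ (1 : Γ(X, ⊤))
    rw [map_one]
    exact (mul_one _).symm⟩, fun _ => isUnit_one⟩

/-- item (e): the sheaf of sections of the trivial line bundle is the structure sheaf. -/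
def LB.toModulesTrivialIso (X : Scheme.{u}) : LB.toModules (LB.trivial X) ≅ unitMod X :=
  ((LB.isTrivial_iff_nonempty_iso _).mp (LB.isTrivial_trivial X)).some

end

end Fermat.Agent.JAC
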