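/-
PROJECT JAC — brick J0 (helper1) — **pullback of modules versus pullback of cocycles** (item (d)).

* `LB.Fam.pushEquiv φ` : families of `M` in `φ_* N` are families of `M.pullback φ` in `N`;
* `LB.pullbackHomEquiv φ M N : (φ^* (toModules M) ⟶ N) ≃ (toModules (M.pullback φ) ⟶ N)`, natural in `N`;
* `LB.pullbackIso φ M : (Scheme.Modules.pullback φ).obj (toModules M) ≅ toModules (M.pullback φ)` for an
  ARBITRARY morphism `φ`.
-/
import Mathlib
import Fermat.Agent.JAC.BR_helper1_Unit

set_option autoImplicit false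

open AlgebraicGeometry CategoryTheory Opposite TopologicalSpace

universe u

namespace Fermat.Agent.JAC

open Fermat.Agent.AV

noncomputable section

/-- an isomorphism from a natural bijection of the co-represented functors. -/
def isoOfHomEquiv {C : Type*} [Category C] {A B : C} (E : ∀ N : C, (A ⟶ N) ≃ (B ⟶ N))
    (hE : ∀ {N N' : C} (f : A ⟶ N) (h : N ⟶ N'), E N' (f ≫ h) = E N f ≫ h) : A ≅ B where
  hom := (E B).symm (𝟙 B)
  inv := E A (𝟙 A)
  hom_inv_id := by
    apply (E A).injective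
    rw [hE, Equiv.apply_symm_apply, Category.id_comp]
  inv_hom_id := by
    rw [← hE, Category.id_comp, Equiv.apply_symm_apply]

variable {X Y : Scheme.{u}}

/-- a section of `N` over `φ⁻¹ U`, as a section of `φ_* N` over `U` (the identity map). -/
def pushOf (φ : Y ⟶ X) (N : Y.Modules) {U : X.Opens} (x : Γ(N, φ ⁻¹ᵁ U)) :
    Γ((Scheme.Modules.pushforward φ).obj N, U) := x

/-- a section of `φ_* N` over `U`, as a section of `N` over `φ⁻¹ U` (the identity map). -/
def ofPush (φ : Y ⟶ X) (N : Y.Modules) {U : X.Opens}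
    (x : Γ((Scheme.Modules.pushforward φ).obj N, U)) : Γ(N, φ ⁻¹ᵁ U) := x

@[simp] theorem ofPush_pushOf (φ : Y ⟶ X) (N : Y.Modules) {U : X.Opens} (x : Γ(N, φ ⁻¹ᵁ U)) :
    ofPush φ N (pushOf φ N x) = x := rfl

@[simp] theorem pushOf_ofPush (φ : Y ⟶ X) (N : Y.Modules) {U : X.Opens}
    (x : Γ((Scheme.Modules.pushforward φ).obj N, U)) : pushOf φ N (ofPush φ N x) = x := rfl

theorem ofPush_pres (φ : Y ⟶ X) (N : Y.Modules) {U V : X.Opens} (h : V ≤ U)
    (x : Γ((Scheme.Modules.pushforward φ).obj N, U)) :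
    ofPush φ N (pres _ h x) = pres N (φ.preimage_mono h) (ofPush φ N x) := rfl

theorem ofPush_smul (φ : Y ⟶ X) (N : Y.Modules) {U : X.Opens} (r : Γ(X, U))
    (x : Γ((Scheme.Modules.pushforward φ).obj N, U)) :
    ofPush φ N (r • x) = (φ.app U).hom r • ofPush φ N x := rfl

theorem pres_pushOf (φ : Y ⟶ X) (N : Y.Modules) {U V : X.Opens} (h : V ≤ U)
    (x : Γ(N, φ ⁻¹ᵁ U)) :
    pres _ h (pushOf φ N x) = pushOf φ N (pres N (φ.preimage_mono h) x) := rfl

theorem smul_pushOf (φ : Y ⟶ X) (N : Y.Modules) {U : X.Opens} (r : Γ(X, U))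
    (x : Γ(N, φ ⁻¹ᵁ U)) :
    r • pushOf φ N x = pushOf φ N ((φ.app U).hom r • x) := rfl

namespace LB.Fam

variable {M : LB X} (φ : Y ⟶ X) {N N' : Y.Modules}

/-- a family of `M` in `φ_* N`, as a family of `M.pullback φ` in `N`. -/
def ofPush (F : LB.Fam M ((Scheme.Modules.pushforward φ).obj N)) : LB.Fam (M.pullback φ) N where
  p i := JAC.ofPush φ N (F.p i)
  compat i j := F.compat i j

/-- a family of `M.pullback φ` in `N`, as a family of `M` in `φ_* N`. -/
def toPush (G : LB.Fam (M.pullback φ) N) : LB.Fam M ((Scheme.Modules.pushforward φ).obj N) where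
  p i := JAC.pushOf φ N (G.p i)
  compat i j := G.compat i j

/-- families of `M` in `φ_* N` are the families of `M.pullback φ` in `N`. -/
def pushEquiv (M : LB X) (N : Y.Modules) :
    LB.Fam M ((Scheme.Modules.pushforward φ).obj N) ≃ LB.Fam (M.pullback φ) N where
  toFun := ofPush φ
  invFun := toPush φ
  left_inv _ := rfl
  right_inv _ := rfl

theorem ofPush_map (F : LB.Fam M ((Scheme.Modules.pushforward φ).obj N)) (h : N ⟶ N') :
    ofPush φ (F.map ((Scheme.Modules.pushforward φ).map h)) = (ofPush φ F).map h := rfl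

end LB.Fam

/-- morphisms out of `φ^* (toModules M)` are morphisms out of `toModules (M.pullback φ)`. -/
def LB.pullbackHomEquiv (φ : Y ⟶ X) (M : LB X) (N : Y.Modules) :
    ((Scheme.Modules.pullback φ).obj (LB.toModules M) ⟶ N) ≃
      (LB.toModules (M.pullback φ) ⟶ N) :=
  ((Scheme.Modules.pullbackPushforwardAdjunction φ).homEquiv (LB.toModules M) N).trans
    ((LB.homEquiv M _).trans ((LB.Fam.pushEquiv φ M N).trans (LB.homEquiv (M.pullback φ) N).symm))

theorem LB.pullbackHomEquiv_comp (φ : Y ⟶ X) (M : LB X) {N N' : Y.Modules}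
    (f : (Scheme.Modules.pullback φ).obj (LB.toModules M) ⟶ N) (h : N ⟶ N') :
    LB.pullbackHomEquiv φ M N' (f ≫ h) = LB.pullbackHomEquiv φ M N f ≫ h := by
  simp only [LB.pullbackHomEquiv, Equiv.trans_apply]
  rw [Adjunction.homEquiv_naturality_right]
  show (LB.Fam.ofPush φ (LB.Fam.ofHom _)).toHom = (LB.Fam.ofPush φ (LB.Fam.ofHom _)).toHom ≫ h
  rw [LB.Fam.ofHom_comp, LB.Fam.ofPush_map, LB.Fam.toHom_map]

/-- item (d): the pullback of the sheaf of sections of `M` along an ARBITRARY morphism is the sheaf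
of sections of the pulled back cocycle. -/
def LB.pullbackIso (φ : Y ⟶ X) (M : LB X) :
    (Scheme.Modules.pullback φ).obj (LB.toModules M) ≅ LB.toModules (M.pullback φ) :=
  isoOfHomEquiv (LB.pullbackHomEquiv φ M) (fun f h => LB.pullbackHomEquiv_comp φ M f h)

end

end Fermat.Agent.JAC
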