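/-
PROJECT JAC — brick J0 (helper1) — **the sheaf of modules of a cocycle line bundle.**

* `LB.secPresheaf M` : the presheaf of abelian groups `U ↦ M.SecOn U`;
* `LB.toModules M : X.Modules` : the `𝒪_X`-module of sections of `M`
  (`Γ(M.toModules, U) = M.SecOn U` definitionally).
-/
import Mathlib
import Fermat.Agent.AV.LBS_helper1_SecOn
import Fermat.Agent.AV.CP_helper8_SecMod

set_option autoImplicit false

open AlgebraicGeometry CategoryTheory Opposite TopologicalSpace

universe u

namespace Fermat.Agent.JAC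

open Fermat.Agent.AV

noncomputable section

variable {X : Scheme.{u}}

/-- the presheaf of abelian groups `U ↦ M.SecOn U`. -/
def LB.secPresheaf (M : LB X) : (Opens X)ᵒᵖ ⥤ Ab.{u} where
  obj U := AddCommGrpCat.of (M.SecOn U.unop)
  map {U V} f := AddCommGrpCat.ofHom (CP.restrictHom (M := M) (leOfHom f.unop))
  map_id U := by
    refine AddCommGrpCat.hom_ext (AddMonoidHom.ext fun σ => ?_)
    exact LB.SecOn.restrict_self σ
  map_comp {U V W} f g := by
    refine AddCommGrpCat.hom_ext (AddMonoidHom.ext fun σ => ?_)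
    exact (LB.SecOn.restrict_restrict (leOfHom f.unop) (leOfHom g.unop) σ).symm

@[simp]
theorem LB.secPresheaf_map_apply (M : LB X) {U V : (Opens X)ᵒᵖ} (f : U ⟶ V)
    (σ : M.SecOn U.unop) :
    ((LB.secPresheaf M).map f).hom σ = σ.restrict (leOfHom f.unop) := rfl

instance LB.secPresheafModule (M : LB X) (U : (Opens X)ᵒᵖ) :
    Module (X.ringCatSheaf.obj.obj U) ((LB.secPresheaf M).obj U) :=
  inferInstanceAs (Module Γ(X, U.unop) (M.SecOn U.unop))

/-- the presheaf of modules `U ↦ M.SecOn U`. -/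
def LB.secPresheafOfModules (M : LB X) : X.PresheafOfModules :=
  PresheafOfModules.ofPresheaf (LB.secPresheaf M) (fun U V f r σ => by
    exact CP.restrict_smul' (M := M) (leOfHom f.unop) r σ)

theorem LB.isSheaf_secPresheaf (M : LB X) : TopCat.Presheaf.IsSheaf (LB.secPresheaf M) := by
  rw [TopCat.Presheaf.isSheaf_iff_isSheafUniqueGluing]
  intro ι U sf hsf
  obtain ⟨τ, hτ⟩ := LB.SecOn.exists_glue (M := M) (W := iSup U) U (fun i => le_iSup U i) le_rfl
    sf (fun a b => hsf a b)
  refine ⟨τ, fun i => hτ i, ?_⟩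
  intro τ' hτ'
  refine CP.secOn_ext_of_cover (M := M) U (fun i => le_iSup U i) le_rfl _ _ (fun a => ?_)
  exact (hτ' a).trans (hτ a).symm

/-- the `𝒪_X`-module of sections of the cocycle line bundle `M`. -/
def LB.toModules (M : LB X) : X.Modules where
  val := LB.secPresheafOfModules M
  isSheaf := LB.isSheaf_secPresheaf M

/-- a section of `M` over `U`, as a section of `toModules M` (the identity map). -/
def LB.ofSecOn (M : LB X) {U : X.Opens} (σ : M.SecOn U) : Γ(LB.toModules M, U) := σ

/-- a section of `toModules M` over `U`, as a section of `M` (the identity map). -/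
def LB.toSecOn (M : LB X) {U : X.Opens} (x : Γ(LB.toModules M, U)) : M.SecOn U := x

@[simp]
theorem LB.toSecOn_ofSecOn (M : LB X) {U : X.Opens} (σ : M.SecOn U) :
    LB.toSecOn M (LB.ofSecOn M σ) = σ := rfl

@[simp]
theorem LB.ofSecOn_toSecOn (M : LB X) {U : X.Opens} (x : Γ(LB.toModules M, U)) :
    LB.ofSecOn M (LB.toSecOn M x) = x := rfl

theorem LB.ofSecOn_injective (M : LB X) {U : X.Opens} :
    Function.Injective (LB.ofSecOn M (U := U)) := fun _ _ h => h

theorem LB.toSecOn_injective (M : LB X) {U : X.Opens} :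
    Function.Injective (LB.toSecOn M (U := U)) := fun _ _ h => h

theorem LB.map_ofSecOn (M : LB X) {U V : X.Opens} (h : V ≤ U) (σ : M.SecOn U) :
    ((LB.toModules M).presheaf.map (homOfLE h).op).hom (LB.ofSecOn M σ) =
      LB.ofSecOn M (σ.restrict h) := rfl

theorem LB.smul_ofSecOn (M : LB X) {U : X.Opens} (r : Γ(X, U)) (σ : M.SecOn U) :
    r • LB.ofSecOn M σ = LB.ofSecOn M (σ.smul r) := rfl

theorem LB.ofSecOn_add (M : LB X) {U : X.Opens} (σ τ : M.SecOn U) :
    LB.ofSecOn M (σ + τ) = LB.ofSecOn M σ + LB.ofSecOn M τ := rfl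

theorem LB.ofSecOn_zero (M : LB X) {U : X.Opens} :
    LB.ofSecOn M (0 : M.SecOn U) = 0 := rfl

theorem LB.toSecOn_add (M : LB X) {U : X.Opens} (x y : Γ(LB.toModules M, U)) :
    LB.toSecOn M (x + y) = LB.toSecOn M x + LB.toSecOn M y := rfl

theorem LB.toSecOn_zero (M : LB X) {U : X.Opens} :
    LB.toSecOn M (0 : Γ(LB.toModules M, U)) = 0 := rfl

theorem LB.toSecOn_smul (M : LB X) {U : X.Opens} (r : Γ(X, U)) (x : Γ(LB.toModules M, U)) :
    LB.toSecOn M (r • x) = (LB.toSecOn M x).smul r := rfl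

theorem LB.toSecOn_map (M : LB X) {U V : X.Opens} (h : V ≤ U) (x : Γ(LB.toModules M, U)) :
    LB.toSecOn M (((LB.toModules M).presheaf.map (homOfLE h).op).hom x) =
      (LB.toSecOn M x).restrict h := rfl

end

end Fermat.Agent.JAC
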