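/-
PROJECT JAC — J3: cohomology and base change for relative curves (helper8).

`CBC_helper8_CurveAlg`: the abstract algebra of a two-affine curve.  `R = Γ(U⁰ ∩ U¹)` with the
subalgebras `R₀ = Γ(U⁰)`, `R₁ = Γ(U¹)`, a unit `x ∈ R₀` with inverse `y ∈ R₁`
(`U⁰ ∩ U¹ = D(x) ⊆ U⁰`, `= D(y) ⊆ U¹`), the pole filtrations `Φ₀ b = y^b R₀`, `Φ₁ a = x^a R₁`, and
the finiteness/vanishing axioms.  Also: linear projectors adapted to the decompositions.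
-/
import Mathlib

set_option autoImplicit false

namespace Fermat.Agent.JAC.CBC

/-- The abstract algebra of a two-affine curve. -/
structure CurveAlg (K : Type*) [Field K] (R : Type*) [CommRing R] [Algebra K R] where
  /-- functions on the first chart -/
  R₀ : Subalgebra K R
  /-- functions on the second chart -/
  R₁ : Subalgebra K R
  /-- the coordinate, regular on the first chart -/
  x : R
  /-- its inverse, regular on the second chart -/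
  y : R
  x_mem : x ∈ R₀
  y_mem : y ∈ R₁
  mul_eq_one : x * y = 1
  exh₀ : ∀ r, ∃ m : ℕ, x ^ m * r ∈ R₀
  exh₁ : ∀ r, ∃ m : ℕ, y ^ m * r ∈ R₁
  /-- `H¹(O(e D₁)) = 0` -/
  split : ∃ e : ℕ, ∀ r, ∃ r₀ r₁, r₀ ∈ R₀ ∧ y ^ e * r₁ ∈ R₁ ∧ r = r₀ + r₁
  /-- `H⁰(O(b D₀ + a D₁))` is finite-dimensional -/
  fin : ∀ a b : ℕ, ∃ W : Submodule K R, Module.Finite K W ∧
    ∀ r, x ^ b * r ∈ R₀ → y ^ a * r ∈ R₁ → r ∈ W
  /-- `O(a D₁)/O` has finite-dimensional sections -/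
  fin_quot : ∀ a : ℕ, ∃ W : Submodule K R, Module.Finite K W ∧
    ∀ r, y ^ a * r ∈ R₁ → ∃ r₁ ∈ R₁, ∃ w ∈ W, r = r₁ + w

namespace CurveAlg

variable {K : Type*} [Field K] {R : Type*} [CommRing R] [Algebra K R] (CA : CurveAlg K R)

/-- functions with a pole of order at most `b` along `D₀` (regular on `U⁰ ∖ D₀`) -/
def Φ₀ (b : ℕ) : Submodule K R := CA.R₀.toSubmodule.comap (LinearMap.mulLeft K (CA.x ^ b))

/-- functions with a pole of order at most `a` along `D₁` -/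
def Φ₁ (a : ℕ) : Submodule K R := CA.R₁.toSubmodule.comap (LinearMap.mulLeft K (CA.y ^ a))

lemma mem_Φ₀ {b : ℕ} {r : R} : r ∈ CA.Φ₀ b ↔ CA.x ^ b * r ∈ CA.R₀ := Iff.rfl

lemma mem_Φ₁ {a : ℕ} {r : R} : r ∈ CA.Φ₁ a ↔ CA.y ^ a * r ∈ CA.R₁ := Iff.rfl

lemma Φ₀_zero : CA.Φ₀ 0 = CA.R₀.toSubmodule := by
  ext r
  simp [mem_Φ₀]

lemma Φ₁_zero : CA.Φ₁ 0 = CA.R₁.toSubmodule := by
  ext r
  simp [mem_Φ₁]

lemma Φ₀_mono : Monotone CA.Φ₀ := by
  intro b b' h r hr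
  obtain ⟨d, rfl⟩ := Nat.exists_eq_add_of_le h
  rw [mem_Φ₀] at hr ⊢
  rw [pow_add, mul_comm (CA.x ^ b), mul_assoc]
  exact CA.R₀.mul_mem (CA.R₀.pow_mem CA.x_mem d) hr

lemma Φ₁_mono : Monotone CA.Φ₁ := by
  intro a a' h r hr
  obtain ⟨d, rfl⟩ := Nat.exists_eq_add_of_le h
  rw [mem_Φ₁] at hr ⊢
  rw [pow_add, mul_comm (CA.y ^ a), mul_assoc]
  exact CA.R₁.mul_mem (CA.R₁.pow_mem CA.y_mem d) hr

lemma R₀_le_Φ₀ (b : ℕ) : CA.R₀.toSubmodule ≤ CA.Φ₀ b := by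
  rw [← CA.Φ₀_zero]
  exact CA.Φ₀_mono (Nat.zero_le b)

lemma R₁_le_Φ₁ (a : ℕ) : CA.R₁.toSubmodule ≤ CA.Φ₁ a := by
  rw [← CA.Φ₁_zero]
  exact CA.Φ₁_mono (Nat.zero_le a)

lemma exhaust₀ (r : R) : ∃ m, r ∈ CA.Φ₀ m := CA.exh₀ r

lemma exhaust₁ (r : R) : ∃ m, r ∈ CA.Φ₁ m := CA.exh₁ r

lemma mul_mem_Φ₀ {b b' : ℕ} {r s : R} (hr : r ∈ CA.Φ₀ b) (hs : s ∈ CA.Φ₀ b') :
    r * s ∈ CA.Φ₀ (b + b') := by
  rw [mem_Φ₀] at hr hs ⊢
  have : CA.x ^ (b + b') * (r * s) = (CA.x ^ b * r) * (CA.x ^ b' * s) := by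
    rw [pow_add]; ring
  rw [this]
  exact CA.R₀.mul_mem hr hs

lemma mul_mem_Φ₁ {a a' : ℕ} {r s : R} (hr : r ∈ CA.Φ₁ a) (hs : s ∈ CA.Φ₁ a') :
    r * s ∈ CA.Φ₁ (a + a') := by
  rw [mem_Φ₁] at hr hs ⊢
  have : CA.y ^ (a + a') * (r * s) = (CA.y ^ a * r) * (CA.y ^ a' * s) := by
    rw [pow_add]; ring
  rw [this]
  exact CA.R₁.mul_mem hr hs

lemma R₀_mul_mem_Φ₀ {b : ℕ} {r s : R} (hr : r ∈ CA.R₀) (hs : s ∈ CA.Φ₀ b) :
    r * s ∈ CA.Φ₀ b := by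
  have h := CA.mul_mem_Φ₀ (b := 0) (b' := b) (by rw [CA.Φ₀_zero]; exact hr) hs
  rwa [zero_add] at h

lemma R₁_mul_mem_Φ₁ {a : ℕ} {r s : R} (hr : r ∈ CA.R₁) (hs : s ∈ CA.Φ₁ a) :
    r * s ∈ CA.Φ₁ a := by
  have h := CA.mul_mem_Φ₁ (a := 0) (a' := a) (by rw [CA.Φ₁_zero]; exact hr) hs
  rwa [zero_add] at h

/-- the finite-dimensional space of sections of `O(b D₀ + a D₁)` -/
def W (a b : ℕ) : Submodule K R := CA.Φ₁ a ⊓ CA.Φ₀ b

instance finite_W (a b : ℕ) : Module.Finite K ↥(CA.W a b) := by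
  obtain ⟨W', hW', h⟩ := CA.fin a b
  have hle : CA.W a b ≤ W' := fun r hr => h r hr.2 hr.1
  exact Module.Finite.of_injective (Submodule.inclusion hle) (Submodule.inclusion_injective hle)

end CurveAlg

section Projectors

variable {K : Type*} [Field K] {R : Type*} [AddCommGroup R] [Module K R]

/-- For `P + Q = R` there is a projector onto `P` whose complementary projector lands in `Q`. -/
lemma exists_projector_of_sup_eq_top (P Q : Submodule K R) (h : ∀ r, ∃ p ∈ P, ∃ q ∈ Q, r = p + q) :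
    ∃ π : R →ₗ[K] R, (∀ r, π r ∈ P) ∧ (∀ r ∈ P, π r = r) ∧ ∀ r, r - π r ∈ Q := by
  -- `Q → R ⧸ P` is surjective
  have hsurj : Function.Surjective (P.mkQ.comp Q.subtype) := by
    intro z
    obtain ⟨r, rfl⟩ := P.mkQ_surjective z
    obtain ⟨p, hp, q, hq, rfl⟩ := h r
    refine ⟨⟨q, hq⟩, ?_⟩
    simp only [LinearMap.comp_apply, Submodule.subtype_apply, map_add]
    have hp0 : P.mkQ p = 0 := (Submodule.Quotient.mk_eq_zero P).2 hp
    rw [hp0, zero_add]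
  obtain ⟨τ, hτ⟩ := LinearMap.exists_rightInverse_of_surjective _
    (LinearMap.range_eq_top.2 hsurj)
  have hτ' : ∀ z, P.mkQ ((τ z : Q) : R) = z := fun z => LinearMap.congr_fun hτ z
  refine ⟨LinearMap.id - Q.subtype.comp (τ.comp P.mkQ), fun r => ?_, fun r hr => ?_, fun r => ?_⟩
  · rw [← Submodule.Quotient.mk_eq_zero P]
    show P.mkQ (r - ((τ (P.mkQ r) : Q) : R)) = 0
    rw [map_sub, hτ', sub_self]
  · show r - ((τ (P.mkQ r) : Q) : R) = r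
    have : P.mkQ r = 0 := (Submodule.Quotient.mk_eq_zero P).2 hr
    rw [this, map_zero]
    simp
  · show r - (r - ((τ (P.mkQ r) : Q) : R)) ∈ Q
    rw [sub_sub_cancel]
    exact (τ (P.mkQ r)).2

/-- A linear map killing `P` which is the identity modulo `P`. -/
lemma exists_quotient_section (P : Submodule K R) :
    ∃ π : R →ₗ[K] R, (∀ r ∈ P, π r = 0) ∧ ∀ r, r - π r ∈ P := by
  obtain ⟨τ, hτ⟩ := LinearMap.exists_rightInverse_of_surjective P.mkQ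
    (LinearMap.range_eq_top.2 P.mkQ_surjective)
  have hτ' : ∀ z, P.mkQ (τ z) = z := fun z => LinearMap.congr_fun hτ z
  refine ⟨τ.comp P.mkQ, fun r hr => ?_, fun r => ?_⟩
  · show τ (P.mkQ r) = 0
    have hr0 : P.mkQ r = 0 := (Submodule.Quotient.mk_eq_zero P).2 hr
    rw [hr0, map_zero]
  · rw [← Submodule.Quotient.mk_eq_zero P]
    show P.mkQ (r - τ (P.mkQ r)) = 0
    rw [map_sub, hτ', sub_self]

end Projectors

end Fermat.Agent.JAC.CBC
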