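/-
PROJECT JAC — J3: cohomology and base change for relative curves (helper8).

`CBC_helper8_Tensor`: tensor-product lemmas over a field (`B' ⊗[K] Q` for subspaces `Q ⊆ R`),
coordinate tuples, and the matrix representation of natural families of operators preserving
finite-dimensional coefficient spaces.
-/
import Mathlib
import Fermat.Agent.AV.CP_helper8_Family

set_option autoImplicit false

namespace Fermat.Agent.JAC.CBC

open TensorProduct Fermat.Agent.AV.CP
open scoped BigOperators

section Tensor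

variable {K : Type*} [Field K] {R : Type*} [CommRing R] [Algebra K R]
variable {B' : Type*} [CommRing B'] [Algebra K B']

/-- products of base-changed subspaces -/
lemma mul_mem_bc {Q₁ Q₂ Q₃ : Submodule K R} (h : ∀ r₁ ∈ Q₁, ∀ r₂ ∈ Q₂, r₁ * r₂ ∈ Q₃)
    {a b : B' ⊗[K] R} (ha : a ∈ Q₁.baseChange B') (hb : b ∈ Q₂.baseChange B') :
    a * b ∈ Q₃.baseChange B' := by
  obtain ⟨y, rfl⟩ := ha
  induction y with
  | zero => simp
  | add x y hx hy =>
    rw [map_add, add_mul]
    exact Submodule.add_mem _ hx hy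
  | tmul b₁ r₁ =>
    obtain ⟨z, rfl⟩ := hb
    induction z with
    | zero => simp
    | add x y hx hy =>
      rw [map_add, mul_add]
      exact Submodule.add_mem _ hx hy
    | tmul b₂ r₂ =>
      rw [LinearMap.baseChange_tmul, LinearMap.baseChange_tmul,
        Algebra.TensorProduct.tmul_mul_tmul]
      exact Submodule.tmul_mem_baseChange_of_mem (b₁ * b₂) (h _ r₁.2 _ r₂.2)

lemma bc_mono {P Q : Submodule K R} (h : P ≤ Q) {a : B' ⊗[K] R} (ha : a ∈ P.baseChange B') :
    a ∈ Q.baseChange B' := Submodule.baseChange_mono (A := B') h ha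

/-- a linear map sending `P` into `Q` sends `B' ⊗ P` into `B' ⊗ Q` -/
lemma bc_map_mem {P Q : Submodule K R} (π : R →ₗ[K] R) (h : ∀ r ∈ P, π r ∈ Q)
    {a : B' ⊗[K] R} (ha : a ∈ P.baseChange B') : π.baseChange B' a ∈ Q.baseChange B' := by
  obtain ⟨y, rfl⟩ := ha
  induction y with
  | zero => simp
  | add x y hx hy =>
    rw [map_add, map_add]
    exact Submodule.add_mem _ hx hy
  | tmul b r =>
    rw [LinearMap.baseChange_tmul, LinearMap.baseChange_tmul]
    exact Submodule.tmul_mem_baseChange_of_mem b (h _ r.2)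

lemma bc_map_eq_self {P : Submodule K R} (π : R →ₗ[K] R) (h : ∀ r ∈ P, π r = r)
    {a : B' ⊗[K] R} (ha : a ∈ P.baseChange B') : π.baseChange B' a = a := by
  obtain ⟨y, rfl⟩ := ha
  induction y with
  | zero => simp
  | add x y hx hy => rw [map_add, map_add, hx, hy]
  | tmul b r =>
    rw [LinearMap.baseChange_tmul, LinearMap.baseChange_tmul]
    show b ⊗ₜ[K] π (r : R) = _
    rw [h _ r.2]
    rfl

lemma bc_map_eq_zero {P : Submodule K R} (π : R →ₗ[K] R) (h : ∀ r ∈ P, π r = 0)
    {a : B' ⊗[K] R} (ha : a ∈ P.baseChange B') : π.baseChange B' a = 0 := by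
  obtain ⟨y, rfl⟩ := ha
  induction y with
  | zero => simp
  | add x y hx hy => rw [map_add, map_add, hx, hy, add_zero]
  | tmul b r =>
    rw [LinearMap.baseChange_tmul, LinearMap.baseChange_tmul]
    show b ⊗ₜ[K] π (r : R) = _
    rw [h _ r.2, tmul_zero]

lemma bc_top (a : B' ⊗[K] R) : a ∈ (⊤ : Submodule K R).baseChange B' := by
  rw [Submodule.baseChange_top]
  trivial

lemma inf_bc {P Q : Submodule K R} {a : B' ⊗[K] R} (hP : a ∈ P.baseChange B')
    (hQ : a ∈ Q.baseChange B') : a ∈ (P ⊓ Q).baseChange B' := by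
  classical
  let 𝔠 := Module.Basis.ofVectorSpace K B'
  rw [mem_baseChange_iff_coords 𝔠] at hP hQ ⊢
  exact fun lam => ⟨hP lam, hQ lam⟩

variable {B'' : Type*} [CommRing B''] [Algebra K B'']

lemma baseMap_bc_map (φ : B' →ₐ[K] B'') (π : R →ₗ[K] R) (a : B' ⊗[K] R) :
    baseMap R φ (π.baseChange B' a) = π.baseChange B'' (baseMap R φ a) := by
  induction a with
  | zero => simp
  | add x y hx hy => simp only [map_add, hx, hy]
  | tmul b r => simp [LinearMap.baseChange_tmul]

/-- exhaustive monotone filtrations exhaust the tensor product -/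
lemma exists_mem_bc_of_exhaust (Φ : ℕ → Submodule K R) (hmono : Monotone Φ)
    (hex : ∀ r, ∃ m, r ∈ Φ m) (t : B' ⊗[K] R) : ∃ m, t ∈ (Φ m).baseChange B' := by
  induction t with
  | zero => exact ⟨0, Submodule.zero_mem _⟩
  | tmul b r =>
    obtain ⟨m, hm⟩ := hex r
    exact ⟨m, Submodule.tmul_mem_baseChange_of_mem b hm⟩
  | add x y hx hy =>
    obtain ⟨m₁, h₁⟩ := hx
    obtain ⟨m₂, h₂⟩ := hy
    exact ⟨max m₁ m₂, Submodule.add_mem _ (bc_mono (hmono (le_max_left _ _)) h₁)
      (bc_mono (hmono (le_max_right _ _)) h₂)⟩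

lemma exists_mem_bc_of_exhaust_matrix {p q : ℕ} (Φ : ℕ → Submodule K R) (hmono : Monotone Φ)
    (hex : ∀ r, ∃ m, r ∈ Φ m) (M : Matrix (Fin p) (Fin q) (B' ⊗[K] R)) :
    ∃ m, ∀ k l, M k l ∈ (Φ m).baseChange B' := by
  choose mf hmf using fun kl : Fin p × Fin q => exists_mem_bc_of_exhaust Φ hmono hex (M kl.1 kl.2)
  refine ⟨Finset.univ.sup mf, fun k l => ?_⟩
  exact bc_mono (hmono (Finset.le_sup (f := mf) (Finset.mem_univ (k, l)))) (hmf (k, l))

end Tensor

section Tuples

variable {K : Type*} [Field K] {R : Type*} [CommRing R] [Algebra K R]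
variable {B' : Type*} [CommRing B'] [Algebra K B']

/-- the tuple with coordinates `x` with respect to the vectors `v`. -/
noncomputable def tup (K : Type*) [Field K] {R : Type*} [CommRing R] [Algebra K R]
    (B' : Type*) [CommRing B'] [Algebra K B'] {m : ℕ} (q : ℕ) (v : Fin m → R) :
    (Fin q × Fin m → B') →ₗ[B'] (Fin q → B' ⊗[K] R) :=
  LinearMap.pi fun k => (coordMap K B' v).comp (LinearMap.funLeft B' B' (fun β => (k, β)))

lemma tup_apply {m q : ℕ} (v : Fin m → R) (x : Fin q × Fin m → B') (k : Fin q) :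
    tup K B' q v x k = coordMap K B' v (fun β => x (k, β)) := rfl

lemma tup_injective {m q : ℕ} {v : Fin m → R} (hv : LinearIndependent K v) :
    Function.Injective (tup K B' q v) := by
  intro x y hxy
  funext ⟨k, β⟩
  have h := congrFun hxy k
  rw [tup_apply, tup_apply] at h
  exact congrFun (coordMap_injective hv h) β

lemma mem_range_tup {m q : ℕ} (v : Fin m → R) (f : Fin q → B' ⊗[K] R) :
    f ∈ LinearMap.range (tup K B' q v) ↔
      ∀ k, f k ∈ (Submodule.span K (Set.range v)).baseChange B' := by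
  constructor
  · rintro ⟨x, rfl⟩ k
    rw [tup_apply, ← range_coordMap]
    exact ⟨_, rfl⟩
  · intro h
    have h2 : ∀ k, ∃ y : Fin m → B', coordMap K B' v y = f k := by
      intro k
      have := h k
      rw [← range_coordMap] at this
      exact this
    choose y hy using h2
    refine ⟨fun c => y c.1 c.2, ?_⟩
    funext k
    rw [tup_apply]
    exact hy k

variable {B'' : Type*} [CommRing B''] [Algebra K B'']

lemma baseMap_tup {m q : ℕ} (φ : B' →ₐ[K] B'') (v : Fin m → R) (x : Fin q × Fin m → B')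
    (k : Fin q) :
    baseMap R φ (tup K B' q v x k) = tup K B'' q v (fun c => φ (x c)) k := by
  rw [tup_apply, tup_apply, baseMap_coordMap]

end Tuples

section Rep

universe w

variable {K : Type*} [Field K] {R : Type*} [CommRing R] [Algebra K R]
variable {B : Type w} [CommRing B] [Algebra K B]

/-- **Matrix representation of a natural family of operators** preserving finite-dimensional
coefficient spaces. -/
theorem exists_repMatrix {m m' q p : ℕ} (v : Fin m → R) (v' : Fin m' → R)
    (T₀ : (Fin q → B ⊗[K] R) →ₗ[B] (Fin p → B ⊗[K] R))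
    (T : ∀ (B' : Type w) [CommRing B'] [Algebra K B'], (B →ₐ[K] B') →
      ((Fin q → B' ⊗[K] R) →ₗ[B'] (Fin p → B' ⊗[K] R)))
    (hnat : ∀ (B' : Type w) [CommRing B'] [Algebra K B'] (φ : B →ₐ[K] B')
      (f : Fin q → B ⊗[K] R), T B' φ (fun k => baseMap R φ (f k)) =
        fun k => baseMap R φ (T₀ f k))
    (hmaps : ∀ f : Fin q → B ⊗[K] R,
      (∀ k, f k ∈ (Submodule.span K (Set.range v)).baseChange B) →
        ∀ k, T₀ f k ∈ (Submodule.span K (Set.range v')).baseChange B) :
    ∃ Mat : Matrix (Fin p × Fin m') (Fin q × Fin m) B,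
      ∀ (B' : Type w) [CommRing B'] [Algebra K B'] (φ : B →ₐ[K] B') (x : Fin q × Fin m → B'),
        T B' φ (tup K B' q v x) = tup K B' p v' ((Mat.map φ).mulVec x) := by
  classical
  -- the images of the basis vectors
  have h1 : ∀ c : Fin q × Fin m, ∃ y : Fin p × Fin m' → B,
      tup K B p v' y = T₀ (tup K B q v (Pi.single c 1)) := by
    intro c
    have := (mem_range_tup v' (T₀ (tup K B q v (Pi.single c 1)))).2
      (hmaps _ fun k => (mem_range_tup v _).1 ⟨_, rfl⟩ k)
    exact this
  choose Y hY using h1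
  refine ⟨fun r c => Y c r, fun B' _ _ φ x => ?_⟩
  have hx : x = ∑ c, x c • (fun c' => φ ((Pi.single c 1 : Fin q × Fin m → B) c')) := by
    funext c'
    rw [Finset.sum_apply]
    simp only [Pi.smul_apply, smul_eq_mul]
    rw [Finset.sum_eq_single c']
    · simp
    · intro b _ hb
      simp [Ne.symm hb]
    · intro h
      exact absurd (Finset.mem_univ _) h
  conv_lhs => rw [hx]
  rw [map_sum, map_sum]
  have h2 : ∀ c, T B' φ (tup K B' q v
      (x c • fun c' => φ ((Pi.single c 1 : Fin q × Fin m → B) c'))) =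
      x c • tup K B' p v' (fun r => φ (Y c r)) := by
    intro c
    rw [map_smul, map_smul]
    congr 1
    have h3 : tup K B' q v (fun c' => φ ((Pi.single c 1 : Fin q × Fin m → B) c')) =
        fun k => baseMap R φ (tup K B q v (Pi.single c 1) k) := by
      funext k
      rw [baseMap_tup]
    rw [h3, hnat, ← hY c]
    funext k
    rw [baseMap_tup]
  simp only [h2]
  have h4 : (Matrix.map (fun r c => Y c r : Matrix (Fin p × Fin m') (Fin q × Fin m) B) φ).mulVec x =
      ∑ c, x c • (fun r => φ (Y c r)) := by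
    funext r
    simp only [Finset.sum_apply, Pi.smul_apply, smul_eq_mul, Matrix.mulVec, dotProduct]
    exact Finset.sum_congr rfl fun c _ => mul_comm _ _
  rw [h4, map_sum]
  simp only [map_smul]

end Rep

end Fermat.Agent.JAC.CBC
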