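/-
PROJECT JAC — J3: cohomology and base change for relative curves (helper8).

`CBC_helper8_Coord`: a line bundle on `C × Spec B` in coordinates (`CoordDatum`: an idempotent
transition matrix in 2×2 block form with entries in `B ⊗ R`), its modules of sections `Z`
(over `U⁰ ∩ U¹`), `Zr` (regular on `U⁰`), `Zp a` (pole order `≤ a` along `D₁` on `U¹`), the universal
vanishing `Z = Zr + Zp a` for `a ≫ 0`, and the operators `E0op`, `E1op`, `dop` on the coordinates of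
the second chart which realise the two-term complex `H⁰(L(aD₁)) → H⁰(L(aD₁)/L)`.
-/
import Mathlib
import Fermat.Agent.JAC.CBC_helper8_Tensor
import Fermat.Agent.JAC.CBC_helper8_CurveAlg

set_option autoImplicit false
set_option linter.unusedVariables false
set_option linter.unusedSectionVars false

namespace Fermat.Agent.JAC.CBC

open TensorProduct Fermat.Agent.AV.CP
open scoped BigOperators

noncomputable section

variable {K : Type*} [Field K] {R : Type*} [CommRing R] [Algebra K R]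

section MulVec

variable {B : Type*} [CommRing B] [Algebra K B]

lemma mulVec_mem_bc {Q₁ Q₂ Q₃ : Submodule K R} (h : ∀ r₁ ∈ Q₁, ∀ r₂ ∈ Q₂, r₁ * r₂ ∈ Q₃)
    {p q : ℕ} {M : Matrix (Fin p) (Fin q) (B ⊗[K] R)} (hM : ∀ k l, M k l ∈ Q₁.baseChange B)
    {f : Fin q → B ⊗[K] R} (hf : ∀ l, f l ∈ Q₂.baseChange B) (k : Fin p) :
    M.mulVec f k ∈ Q₃.baseChange B := by
  show ∑ l, M k l * f l ∈ Q₃.baseChange B
  exact Submodule.sum_mem _ fun l _ => mul_mem_bc h (hM k l) (hf l)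

variable {B' : Type*} [CommRing B'] [Algebra K B']

lemma baseMap_mulVec (φ : B →ₐ[K] B') {p q : ℕ} (M : Matrix (Fin p) (Fin q) (B ⊗[K] R))
    (f : Fin q → B ⊗[K] R) (k : Fin p) :
    baseMap R φ (M.mulVec f k) =
      (M.map (baseMap R φ)).mulVec (fun l => baseMap R φ (f l)) k := by
  simp only [Matrix.mulVec, dotProduct, map_sum, map_mul, Matrix.map_apply]

/-- multiplication by a matrix, as a linear map over the base ring -/
def mulOp {p q : ℕ} (M : Matrix (Fin p) (Fin q) (B ⊗[K] R)) :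
    (Fin q → B ⊗[K] R) →ₗ[B] (Fin p → B ⊗[K] R) :=
  M.mulVecLin.restrictScalars B

@[simp] lemma mulOp_apply {p q : ℕ} (M : Matrix (Fin p) (Fin q) (B ⊗[K] R))
    (f : Fin q → B ⊗[K] R) : mulOp M f = M.mulVec f := rfl

/-- a `K`-linear operator on `R`, applied to all entries of a vector -/
def projOp (B : Type*) [CommRing B] [Algebra K B] (π : R →ₗ[K] R) (n : ℕ) :
    (Fin n → B ⊗[K] R) →ₗ[B] (Fin n → B ⊗[K] R) :=
  (π.baseChange B).compLeft (Fin n)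

@[simp] lemma projOp_apply (π : R →ₗ[K] R) (n : ℕ) (f : Fin n → B ⊗[K] R) (k : Fin n) :
    projOp B π n f k = π.baseChange B (f k) := rfl

end MulVec

/-- Coordinates of a line bundle on `C × Spec B`: an idempotent "transition matrix" in block
form. -/
structure CoordDatum (CA : CurveAlg K R) (B : Type*) [CommRing B] [Algebra K B] where
  /-- number of generators on the first chart -/
  n₀ : ℕ
  /-- number of generators on the second chart -/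
  n₁ : ℕ
  c00 : Matrix (Fin n₀) (Fin n₀) (B ⊗[K] R)
  c01 : Matrix (Fin n₀) (Fin n₁) (B ⊗[K] R)
  c10 : Matrix (Fin n₁) (Fin n₀) (B ⊗[K] R)
  c11 : Matrix (Fin n₁) (Fin n₁) (B ⊗[K] R)
  h010 : c01 * c10 = c00
  h101 : c10 * c01 = c11
  h001 : c00 * c01 = c01
  h100 : c10 * c00 = c10
  reg₀ : ∀ k l, c00 k l ∈ CA.R₀.toSubmodule.baseChange B
  reg₁ : ∀ k l, c11 k l ∈ CA.R₁.toSubmodule.baseChange B

namespace CoordDatum

variable {CA : CurveAlg K R} {B : Type*} [CommRing B] [Algebra K B] (D : CoordDatum CA B)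

lemma h011 : D.c01 * D.c11 = D.c01 := by
  rw [← D.h101, ← Matrix.mul_assoc, D.h010, D.h001]

lemma h110 : D.c11 * D.c10 = D.c10 := by
  rw [← D.h101, Matrix.mul_assoc, D.h010, D.h100]

lemma h000 : D.c00 * D.c00 = D.c00 := by
  rw [← D.h010, ← Matrix.mul_assoc, Matrix.mul_assoc D.c01, D.h101, D.h011]

lemma h111 : D.c11 * D.c11 = D.c11 := by
  rw [← D.h101, ← Matrix.mul_assoc, Matrix.mul_assoc D.c10, D.h010, D.h100]

/-- base change of a coordinate datum -/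
@[reducible] def map {B' : Type*} [CommRing B'] [Algebra K B'] (φ : B →ₐ[K] B') : CoordDatum CA B' where
  n₀ := D.n₀
  n₁ := D.n₁
  c00 := D.c00.map (baseMap R φ)
  c01 := D.c01.map (baseMap R φ)
  c10 := D.c10.map (baseMap R φ)
  c11 := D.c11.map (baseMap R φ)
  h010 := by rw [← Matrix.map_mul, D.h010]
  h101 := by rw [← Matrix.map_mul, D.h101]
  h001 := by rw [← Matrix.map_mul, D.h001]
  h100 := by rw [← Matrix.map_mul, D.h100]
  reg₀ k l := baseMap_mem_baseChange φ _ (D.reg₀ k l)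
  reg₁ k l := baseMap_mem_baseChange φ _ (D.reg₁ k l)

/-- the first chart coordinates -/
abbrev F₀ := Fin D.n₀ → B ⊗[K] R

/-- the second chart coordinates -/
abbrev F₁ := Fin D.n₁ → B ⊗[K] R

/-- The module of sections over `U⁰ ∩ U¹`, in coordinates. -/
def Z : Submodule B (D.F₀ × D.F₁) where
  carrier := {f | D.c01.mulVec f.2 = f.1 ∧ D.c10.mulVec f.1 = f.2}
  add_mem' := by
    rintro f g ⟨hf1, hf2⟩ ⟨hg1, hg2⟩
    exact ⟨by rw [Prod.snd_add, Matrix.mulVec_add, hf1, hg1]; rfl,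
      by rw [Prod.fst_add, Matrix.mulVec_add, hf2, hg2]; rfl⟩
  zero_mem' := ⟨by simp, by simp⟩
  smul_mem' := by
    rintro b f ⟨hf1, hf2⟩
    refine ⟨?_, ?_⟩
    · show D.c01.mulVec (b • f.2) = b • f.1
      rw [← hf1]
      exact (mulOp D.c01).map_smul b f.2
    · show D.c10.mulVec (b • f.1) = b • f.2
      rw [← hf2]
      exact (mulOp D.c10).map_smul b f.1

lemma mem_Z {f : D.F₀ × D.F₁} :
    f ∈ D.Z ↔ D.c01.mulVec f.2 = f.1 ∧ D.c10.mulVec f.1 = f.2 := Iff.rfl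

lemma c00_fst {f : D.F₀ × D.F₁} (hf : f ∈ D.Z) : D.c00.mulVec f.1 = f.1 := by
  rw [← D.h010, ← Matrix.mulVec_mulVec, hf.2, hf.1]

lemma c11_snd {f : D.F₀ × D.F₁} (hf : f ∈ D.Z) : D.c11.mulVec f.2 = f.2 := by
  rw [← D.h101, ← Matrix.mulVec_mulVec, hf.1, hf.2]

/-- the section with given (unnormalised) coordinates on the first chart -/
def zof0 : D.F₀ →ₗ[B] (D.F₀ × D.F₁) := (mulOp D.c00).prod (mulOp D.c10)

/-- the section with given (unnormalised) coordinates on the second chart -/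
def zof1 : D.F₁ →ₗ[B] (D.F₀ × D.F₁) := (mulOp D.c01).prod (mulOp D.c11)

@[simp] lemma zof0_fst (g : D.F₀) : (D.zof0 g).1 = D.c00.mulVec g := rfl
@[simp] lemma zof0_snd (g : D.F₀) : (D.zof0 g).2 = D.c10.mulVec g := rfl
@[simp] lemma zof1_fst (u : D.F₁) : (D.zof1 u).1 = D.c01.mulVec u := rfl
@[simp] lemma zof1_snd (u : D.F₁) : (D.zof1 u).2 = D.c11.mulVec u := rfl

lemma zof0_mem (g : D.F₀) : D.zof0 g ∈ D.Z := by
  refine ⟨?_, ?_⟩
  · rw [zof0_snd, zof0_fst, Matrix.mulVec_mulVec, D.h010]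
  · rw [zof0_snd, zof0_fst, Matrix.mulVec_mulVec, D.h100]

lemma zof1_mem (u : D.F₁) : D.zof1 u ∈ D.Z := by
  refine ⟨?_, ?_⟩
  · rw [zof1_snd, zof1_fst, Matrix.mulVec_mulVec, D.h011]
  · rw [zof1_snd, zof1_fst, Matrix.mulVec_mulVec, D.h101]

lemma zof0_of_mem {f : D.F₀ × D.F₁} (hf : f ∈ D.Z) : D.zof0 f.1 = f :=
  Prod.ext (D.c00_fst hf) hf.2

lemma zof1_of_mem {f : D.F₀ × D.F₁} (hf : f ∈ D.Z) : D.zof1 f.2 = f :=
  Prod.ext hf.1 (D.c11_snd hf)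

/-- sections regular on the first chart -/
def Zr : Submodule B (D.F₀ × D.F₁) where
  carrier := {f | f ∈ D.Z ∧ ∀ k, f.1 k ∈ CA.R₀.toSubmodule.baseChange B}
  add_mem' := by
    rintro f g ⟨hf1, hf2⟩ ⟨hg1, hg2⟩
    exact ⟨D.Z.add_mem hf1 hg1, fun k => Submodule.add_mem _ (hf2 k) (hg2 k)⟩
  zero_mem' := ⟨D.Z.zero_mem, fun k => Submodule.zero_mem _⟩
  smul_mem' := by
    rintro b f ⟨hf1, hf2⟩
    exact ⟨D.Z.smul_mem b hf1, fun k => Submodule.smul_mem _ b (hf2 k)⟩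

/-- sections with poles of order at most `a` along `D₁` on the second chart -/
def Zp (a : ℕ) : Submodule B (D.F₀ × D.F₁) where
  carrier := {f | f ∈ D.Z ∧ ∀ l, f.2 l ∈ (CA.Φ₁ a).baseChange B}
  add_mem' := by
    rintro f g ⟨hf1, hf2⟩ ⟨hg1, hg2⟩
    exact ⟨D.Z.add_mem hf1 hg1, fun k => Submodule.add_mem _ (hf2 k) (hg2 k)⟩
  zero_mem' := ⟨D.Z.zero_mem, fun k => Submodule.zero_mem _⟩
  smul_mem' := by
    rintro b f ⟨hf1, hf2⟩
    exact ⟨D.Z.smul_mem b hf1, fun k => Submodule.smul_mem _ b (hf2 k)⟩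

lemma mem_Zr {f : D.F₀ × D.F₁} :
    f ∈ D.Zr ↔ f ∈ D.Z ∧ ∀ k, f.1 k ∈ CA.R₀.toSubmodule.baseChange B := Iff.rfl

lemma mem_Zp {a : ℕ} {f : D.F₀ × D.F₁} :
    f ∈ D.Zp a ↔ f ∈ D.Z ∧ ∀ l, f.2 l ∈ (CA.Φ₁ a).baseChange B := Iff.rfl

/-- pole bounds for the transition matrix `c10` -/
structure Bd (p q : ℕ) : Prop where
  h₁ : ∀ l k, D.c10 l k ∈ (CA.Φ₁ p).baseChange B
  h₀ : ∀ l k, D.c10 l k ∈ (CA.Φ₀ q).baseChange B

lemma exists_bd : ∃ p q, D.Bd p q := by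
  obtain ⟨p, hp⟩ := exists_mem_bc_of_exhaust_matrix CA.Φ₁ CA.Φ₁_mono CA.exhaust₁ D.c10
  obtain ⟨q, hq⟩ := exists_mem_bc_of_exhaust_matrix CA.Φ₀ CA.Φ₀_mono CA.exhaust₀ D.c10
  exact ⟨p, q, hp, hq⟩

lemma Bd.map {p q : ℕ} (h : D.Bd p q) {B' : Type*} [CommRing B'] [Algebra K B']
    (φ : B →ₐ[K] B') : (D.map φ).Bd p q :=
  ⟨fun l k => baseMap_mem_baseChange φ _ (h.h₁ l k),
    fun l k => baseMap_mem_baseChange φ _ (h.h₀ l k)⟩

end CoordDatum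

/-- auxiliary choices depending only on the curve algebra -/
structure CurveAlg.Aux (CA : CurveAlg K R) where
  /-- `H¹(O(e D₁)) = 0` -/
  e : ℕ
  /-- projector onto `R₀` along a subspace of `Φ₁ e` -/
  π₀ : R →ₗ[K] R
  π₀_mem : ∀ r, π₀ r ∈ CA.R₀
  π₀_id : ∀ r ∈ CA.R₀, π₀ r = r
  π₀_compl : ∀ r, r - π₀ r ∈ CA.Φ₁ e
  /-- a linear section of `R → R / R₁` -/
  πq : R →ₗ[K] R
  πq_zero : ∀ r ∈ CA.R₁, πq r = 0
  πq_compl : ∀ r, r - πq r ∈ CA.R₁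

lemma CurveAlg.nonempty_aux (CA : CurveAlg K R) : Nonempty CA.Aux := by
  obtain ⟨e, he⟩ := CA.split
  obtain ⟨π₀, h1, h2, h3⟩ := exists_projector_of_sup_eq_top CA.R₀.toSubmodule (CA.Φ₁ e)
    (fun r => by
      obtain ⟨r₀, r₁, h₀, h₁, hr⟩ := he r
      exact ⟨r₀, h₀, r₁, h₁, hr⟩)
  obtain ⟨πq, h4, h5⟩ := exists_quotient_section CA.R₁.toSubmodule
  exact ⟨⟨e, π₀, h1, h2, h3, πq, h4, h5⟩⟩

namespace CoordDatum

variable {CA : CurveAlg K R} {B : Type*} [CommRing B] [Algebra K B] (D : CoordDatum CA B)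
variable (A : CA.Aux) {p q : ℕ} (hbd : D.Bd p q)

lemma sub_π₀_mem (t : B ⊗[K] R) : t - A.π₀.baseChange B t ∈ (CA.Φ₁ A.e).baseChange B := by
  have h := bc_map_mem (B' := B) (P := ⊤) (Q := CA.Φ₁ A.e) (LinearMap.id - A.π₀)
    (fun r _ => A.π₀_compl r) (bc_top t)
  rwa [LinearMap.baseChange_sub, LinearMap.baseChange_id, LinearMap.sub_apply,
    LinearMap.id_apply] at h

lemma π₀_mem_bc (t : B ⊗[K] R) : A.π₀.baseChange B t ∈ CA.R₀.toSubmodule.baseChange B :=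
  bc_map_mem (B' := B) (P := ⊤) A.π₀ (fun r _ => A.π₀_mem r) (bc_top t)

include hbd in
/-- **Vanishing of `H¹(L(a D₁))`**, universally. -/
lemma exists_decomp {f : D.F₀ × D.F₁} (hf : f ∈ D.Z) :
    ∃ g ∈ D.Zr, ∃ h ∈ D.Zp (p + A.e), f = g + h := by
  refine ⟨D.zof0 (projOp B A.π₀ _ f.1), ⟨D.zof0_mem _, fun k => ?_⟩,
    D.zof0 (f.1 - projOp B A.π₀ _ f.1), ⟨D.zof0_mem _, fun l => ?_⟩, ?_⟩
  · rw [zof0_fst]
    exact mulVec_mem_bc (Q₂ := CA.R₀.toSubmodule) (fun r₁ h₁ r₂ h₂ => CA.R₀.mul_mem h₁ h₂) D.reg₀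
      (fun l => π₀_mem_bc A (f.1 l)) k
  · rw [zof0_snd]
    exact mulVec_mem_bc (fun r₁ h₁ r₂ h₂ => CA.mul_mem_Φ₁ h₁ h₂) hbd.h₁
      (fun k => sub_π₀_mem A (f.1 k)) l
  · rw [← map_add, add_sub_cancel, D.zof0_of_mem hf]

/-- the retraction onto `H⁰(L(a D₁))` in the coordinates of the second chart -/
def ρ : D.F₁ →ₗ[B] (D.F₀ × D.F₁) :=
  D.zof0.comp ((projOp B A.π₀ D.n₀).comp (mulOp D.c01))

/-- the idempotent cutting out `H⁰(L(a D₁))` in the coordinates of the second chart -/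
def E0op : D.F₁ →ₗ[B] D.F₁ :=
  (mulOp D.c10).comp ((projOp B A.π₀ D.n₀).comp (mulOp D.c01))

lemma ρ_snd (u : D.F₁) : (D.ρ A u).2 = D.E0op A u := rfl

lemma ρ_mem_Z (u : D.F₁) : D.ρ A u ∈ D.Z := D.zof0_mem _

lemma ρ_mem_Zr (u : D.F₁) : D.ρ A u ∈ D.Zr := by
  refine ⟨D.zof0_mem _, fun k => ?_⟩
  show D.c00.mulVec _ k ∈ _
  exact mulVec_mem_bc (Q₂ := CA.R₀.toSubmodule) (fun r₁ h₁ r₂ h₂ => CA.R₀.mul_mem h₁ h₂) D.reg₀
    (fun l => π₀_mem_bc A _) k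

lemma E0op_eq (u : D.F₁) :
    D.E0op A u = D.c11.mulVec u -
      D.c10.mulVec (D.c01.mulVec u - projOp B A.π₀ _ (D.c01.mulVec u)) := by
  rw [Matrix.mulVec_sub, Matrix.mulVec_mulVec, D.h101, sub_sub_cancel]
  rfl

include hbd in
lemma E0op_mem_Φ₁ {u : D.F₁} (hu : ∀ l, u l ∈ (CA.Φ₁ (p + A.e)).baseChange B) (l : Fin D.n₁) :
    D.E0op A u l ∈ (CA.Φ₁ (p + A.e)).baseChange B := by
  rw [E0op_eq]
  refine Submodule.sub_mem _ ?_ ?_
  · exact mulVec_mem_bc (fun r₁ h₁ r₂ h₂ => CA.R₁_mul_mem_Φ₁ h₁ h₂) D.reg₁ hu l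
  · exact mulVec_mem_bc (fun r₁ h₁ r₂ h₂ => CA.mul_mem_Φ₁ h₁ h₂) hbd.h₁
      (fun k => sub_π₀_mem A _) l

include hbd in
lemma E0op_mem_Φ₀ (u : D.F₁) (l : Fin D.n₁) :
    D.E0op A u l ∈ (CA.Φ₀ q).baseChange B := by
  show D.c10.mulVec _ l ∈ _
  refine mulVec_mem_bc (Q₂ := CA.R₀.toSubmodule) (fun r₁ h₁ r₂ h₂ => ?_) hbd.h₀
    (fun k => π₀_mem_bc A _) l
  rw [mul_comm]
  exact CA.R₀_mul_mem_Φ₀ h₂ h₁

include hbd in
lemma ρ_mem_Zp {u : D.F₁} (hu : ∀ l, u l ∈ (CA.Φ₁ (p + A.e)).baseChange B) :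
    D.ρ A u ∈ D.Zp (p + A.e) :=
  ⟨D.ρ_mem_Z A u, fun l => D.E0op_mem_Φ₁ A hbd hu l⟩

lemma ρ_of_mem {k : D.F₀ × D.F₁} (hk : k ∈ D.Zr) : D.ρ A k.2 = k := by
  have h1 : D.c01.mulVec k.2 = k.1 := hk.1.1
  have h2 : projOp B A.π₀ D.n₀ k.1 = k.1 := by
    funext i
    exact bc_map_eq_self A.π₀ A.π₀_id (hk.2 i)
  show D.zof0 (projOp B A.π₀ D.n₀ (D.c01.mulVec k.2)) = k
  rw [h1, h2, D.zof0_of_mem hk.1]

lemma E0op_of_mem {k : D.F₀ × D.F₁} (hk : k ∈ D.Zr) : D.E0op A k.2 = k.2 := by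
  rw [← ρ_snd, D.ρ_of_mem A hk]

/-- the finite-dimensional coefficient space of `H⁰(L(a D₁))` on the second chart -/
abbrev W₁ (CA : CurveAlg K R) (A : CA.Aux) (p q : ℕ) : Submodule K R := CA.W (p + A.e) q

include hbd in
lemma E0op_mem_W₁ {u : D.F₁} (hu : ∀ l, u l ∈ (W₁ CA A p q).baseChange B) (l : Fin D.n₁) :
    D.E0op A u l ∈ (W₁ CA A p q).baseChange B :=
  inf_bc (D.E0op_mem_Φ₁ A hbd (fun l => bc_mono inf_le_left (hu l)) l) (D.E0op_mem_Φ₀ A hbd u l)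

lemma E0op_idem (u : D.F₁) : D.E0op A (D.E0op A u) = D.E0op A u := by
  have h := D.E0op_of_mem A (D.ρ_mem_Zr A u)
  rwa [ρ_snd] at h

include hbd in
lemma snd_mem_W₁ {k : D.F₀ × D.F₁} (hk0 : k ∈ D.Zr) (hk1 : k ∈ D.Zp (p + A.e))
    (l : Fin D.n₁) : k.2 l ∈ (W₁ CA A p q).baseChange B := by
  refine inf_bc (hk1.2 l) ?_
  rw [← D.E0op_of_mem A hk0]
  exact D.E0op_mem_Φ₀ A hbd _ l

/-! ### The second term of the complex -/

/-- the finite-dimensional coefficient space of `H⁰(L(a D₁)/L)` -/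
def W' (CA : CurveAlg K R) (A : CA.Aux) (a : ℕ) : Submodule K R := (CA.Φ₁ a).map A.πq

lemma W'_le (a : ℕ) : W' CA A a ≤ CA.Φ₁ a := by
  rintro _ ⟨r, hr, rfl⟩
  have h : A.πq r = r - (r - A.πq r) := by ring
  rw [h]
  exact Submodule.sub_mem _ hr (CA.R₁_le_Φ₁ a (A.πq_compl r))

instance finite_W' (a : ℕ) : Module.Finite K ↥(W' CA A a) := by
  obtain ⟨W, hW, h⟩ := CA.fin_quot a
  have hle : W' CA A a ≤ W.map A.πq := by
    rintro _ ⟨r, hr, rfl⟩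
    obtain ⟨r₁, hr₁, w, hw, rfl⟩ := h r hr
    refine ⟨w, hw, ?_⟩
    rw [map_add, A.πq_zero r₁ hr₁, zero_add]
  have : Module.Finite K ↥(W.map A.πq) := Module.Finite.map W A.πq
  exact Module.Finite.of_injective (Submodule.inclusion hle) (Submodule.inclusion_injective hle)

lemma sub_πq_mem (t : B ⊗[K] R) : t - A.πq.baseChange B t ∈ CA.R₁.toSubmodule.baseChange B := by
  have h := bc_map_mem (B' := B) (P := ⊤) (Q := CA.R₁.toSubmodule) (LinearMap.id - A.πq)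
    (fun r _ => A.πq_compl r) (bc_top t)
  rwa [LinearMap.baseChange_sub, LinearMap.baseChange_id, LinearMap.sub_apply,
    LinearMap.id_apply] at h

lemma πq_eq_zero {t : B ⊗[K] R} (ht : t ∈ CA.R₁.toSubmodule.baseChange B) :
    A.πq.baseChange B t = 0 :=
  bc_map_eq_zero A.πq A.πq_zero ht

lemma πq_mem_W' {a : ℕ} {t : B ⊗[K] R} (ht : t ∈ (CA.Φ₁ a).baseChange B) :
    A.πq.baseChange B t ∈ (W' CA A a).baseChange B :=
  bc_map_mem A.πq (fun r hr => Submodule.mem_map_of_mem hr) ht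

/-- the idempotent cutting out `H⁰(L(a D₁)/L)` -/
def E1op : D.F₁ →ₗ[B] D.F₁ := (projOp B A.πq D.n₁).comp (mulOp D.c11)

/-- the differential, in coordinates -/
def dop : D.F₁ →ₗ[B] D.F₁ := projOp B A.πq D.n₁

lemma dop_apply (u : D.F₁) (l : Fin D.n₁) : D.dop A u l = A.πq.baseChange B (u l) := rfl

lemma E1op_apply (w : D.F₁) : D.E1op A w = D.dop A (D.c11.mulVec w) := rfl

lemma c11_mem_R₁ {r : D.F₁} (hr : ∀ l, r l ∈ CA.R₁.toSubmodule.baseChange B) (l : Fin D.n₁) :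
    D.c11.mulVec r l ∈ CA.R₁.toSubmodule.baseChange B :=
  mulVec_mem_bc (Q₂ := CA.R₁.toSubmodule) (fun r₁ h₁ r₂ h₂ => CA.R₁.mul_mem h₁ h₂) D.reg₁ hr l

lemma c11_mem_Φ₁ {a : ℕ} {r : D.F₁} (hr : ∀ l, r l ∈ (CA.Φ₁ a).baseChange B) (l : Fin D.n₁) :
    D.c11.mulVec r l ∈ (CA.Φ₁ a).baseChange B :=
  mulVec_mem_bc (fun r₁ h₁ r₂ h₂ => CA.R₁_mul_mem_Φ₁ h₁ h₂) D.reg₁ hr l

lemma dop_eq_zero {r : D.F₁} (hr : ∀ l, r l ∈ CA.R₁.toSubmodule.baseChange B) :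
    D.dop A r = 0 := by
  funext l
  exact πq_eq_zero A (hr l)

lemma E1op_dop {t : D.F₁} (ht : D.c11.mulVec t = t) : D.E1op A (D.dop A t) = D.dop A t := by
  have h1 : D.c11.mulVec (D.dop A t) = t - D.c11.mulVec (t - D.dop A t) := by
    rw [Matrix.mulVec_sub, ht, sub_sub_cancel]
  rw [E1op_apply, h1, map_sub]
  have h2 : D.dop A (D.c11.mulVec (t - D.dop A t)) = 0 :=
    D.dop_eq_zero A (D.c11_mem_R₁ fun l => sub_πq_mem A (t l))
  rw [h2, sub_zero]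

lemma E1op_idem (w : D.F₁) : D.E1op A (D.E1op A w) = D.E1op A w := by
  rw [D.E1op_apply A w]
  apply E1op_dop
  rw [Matrix.mulVec_mulVec, D.h111]

lemma E1op_mem_W' {a : ℕ} {w : D.F₁} (hw : ∀ l, w l ∈ (W' CA A a).baseChange B) (l : Fin D.n₁) :
    D.E1op A w l ∈ (W' CA A a).baseChange B :=
  πq_mem_W' A (D.c11_mem_Φ₁ (fun l => bc_mono (W'_le A a) (hw l)) l)

lemma dop_mem_W' {u : D.F₁} (hu : ∀ l, u l ∈ (W₁ CA A p q).baseChange B) (l : Fin D.n₁) :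
    D.dop A u l ∈ (W' CA A (p + A.e)).baseChange B :=
  πq_mem_W' A (bc_mono inf_le_left (hu l))

/-! ### The main algebraic statements -/

lemma Zp_mono {a a' : ℕ} (h : a ≤ a') : D.Zp a ≤ D.Zp a' :=
  fun _ hf => ⟨hf.1, fun l => bc_mono (CA.Φ₁_mono h) (hf.2 l)⟩

lemma mem_Zp_zero {f : D.F₀ × D.F₁} :
    f ∈ D.Zp 0 ↔ f ∈ D.Z ∧ ∀ l, f.2 l ∈ CA.R₁.toSubmodule.baseChange B := by
  rw [mem_Zp, CA.Φ₁_zero]

include hbd in
/-- (A1) global sections give fixed vectors of `E⁰` killed by `d`. -/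
lemma coords_of_mem_H0 {k : D.F₀ × D.F₁} (hk0 : k ∈ D.Zr) (hk1 : k ∈ D.Zp 0) :
    (∀ l, k.2 l ∈ (W₁ CA A p q).baseChange B) ∧ D.E0op A k.2 = k.2 ∧ D.dop A k.2 = 0 :=
  ⟨D.snd_mem_W₁ A hbd hk0 (D.Zp_mono (Nat.zero_le _) hk1), D.E0op_of_mem A hk0,
    D.dop_eq_zero A ((D.mem_Zp_zero).1 hk1).2⟩

/-- (A2) fixed vectors of `E⁰` killed by `d` come from global sections. -/
lemma mem_H0_of_coords {u : D.F₁} (hE : D.E0op A u = u) (hd : D.dop A u = 0) :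
    D.ρ A u ∈ D.Zr ∧ D.ρ A u ∈ D.Zp 0 ∧ (D.ρ A u).2 = u := by
  refine ⟨D.ρ_mem_Zr A u, (D.mem_Zp_zero).2 ⟨D.ρ_mem_Z A u, fun l => ?_⟩, hE⟩
  rw [ρ_snd, hE]
  have h := sub_πq_mem A (u l)
  have h2 : A.πq.baseChange B (u l) = 0 := congrFun hd l
  rwa [h2, sub_zero] at h

include hbd in
/-- (B1) every section over `U⁰ ∩ U¹` is, modulo `Z⁰ + Z¹`, of the form `zof1 w` with `w` a fixed
vector of `E¹`. -/
lemma exists_rep_H1 {z : D.F₀ × D.F₁} (hz : z ∈ D.Z) :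
    ∃ w : D.F₁, (∀ l, w l ∈ (W' CA A (p + A.e)).baseChange B) ∧ D.E1op A w = w ∧
      z - D.zof1 w ∈ D.Zr ⊔ D.Zp 0 := by
  obtain ⟨g, hg, h, hh, rfl⟩ := D.exists_decomp A hbd hz
  refine ⟨D.dop A h.2, fun l => πq_mem_W' A (hh.2 l), D.E1op_dop A (D.c11_snd hh.1), ?_⟩
  have h1 : g + h - D.zof1 (D.dop A h.2) = g + (h - D.zof1 (D.dop A h.2)) := by abel
  rw [h1]
  refine Submodule.add_mem_sup hg ((D.mem_Zp_zero).2
    ⟨D.Z.sub_mem hh.1 (D.zof1_mem _), fun l => ?_⟩)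
  have h2 : (h - D.zof1 (D.dop A h.2)).2 = D.c11.mulVec (h.2 - D.dop A h.2) := by
    rw [Prod.snd_sub, zof1_snd, Matrix.mulVec_sub, D.c11_snd hh.1]
  rw [h2]
  exact D.c11_mem_R₁ (fun l => sub_πq_mem A (h.2 l)) l

include hbd in
/-- (B2) the kernel of `im E¹ → H¹` is the image of `d`. -/
lemma zof1_mem_sup_iff {w : D.F₁} (hw : ∀ l, w l ∈ (W' CA A (p + A.e)).baseChange B)
    (hE : D.E1op A w = w) :
    D.zof1 w ∈ D.Zr ⊔ D.Zp 0 ↔
      ∃ u : D.F₁, (∀ l, u l ∈ (W₁ CA A p q).baseChange B) ∧ D.E0op A u = u ∧ D.dop A u = w := by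
  constructor
  · intro h
    obtain ⟨g0, hg0, g1, hg1, hsum⟩ := Submodule.mem_sup.1 h
    have hg1' := (D.mem_Zp_zero).1 hg1
    -- `g0` has poles of order at most `a` on the second chart
    have h1 : g0.2 = D.c11.mulVec w - g1.2 := by
      have := congrArg Prod.snd hsum
      rw [Prod.snd_add, zof1_snd] at this
      rw [← this]; abel
    have hg0p : g0 ∈ D.Zp (p + A.e) := by
      refine ⟨hg0.1, fun l => ?_⟩
      rw [h1]
      exact Submodule.sub_mem _ (D.c11_mem_Φ₁ (fun l => bc_mono (W'_le A _) (hw l)) l)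
        (bc_mono (CA.R₁_le_Φ₁ _) (hg1'.2 l))
    refine ⟨g0.2, D.snd_mem_W₁ A hbd hg0 hg0p, D.E0op_of_mem A hg0, ?_⟩
    rw [h1, map_sub, D.dop_eq_zero A hg1'.2, sub_zero]
    exact hE
  · rintro ⟨u, hu, hEu, rfl⟩
    have hk := D.ρ_mem_Zr A u
    have hk2 : (D.ρ A u).2 = u := hEu
    have hcu : D.c11.mulVec u = u := by
      have := D.c11_snd hk.1
      rwa [hk2] at this
    have h1 : D.zof1 (D.dop A u) = D.ρ A u + (D.zof1 (D.dop A u) - D.ρ A u) := by abel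
    rw [h1]
    refine Submodule.add_mem_sup hk ((D.mem_Zp_zero).2
      ⟨D.Z.sub_mem (D.zof1_mem _) hk.1, fun l => ?_⟩)
    have h2 : (D.zof1 (D.dop A u) - D.ρ A u).2 = - D.c11.mulVec (u - D.dop A u) := by
      rw [Prod.snd_sub, zof1_snd, hk2, Matrix.mulVec_sub, hcu]
      abel
    rw [h2]
    exact Submodule.neg_mem _ (D.c11_mem_R₁ (fun l => sub_πq_mem A (u l)) l)

end CoordDatum

end

end Fermat.Agent.JAC.CBC
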