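/-
PROJECT JAC — J3: cohomology and base change for relative curves (helper8).

`CBC_helper8_PerfData`: a perfect two-term complex `im E0 → im E1` given by idempotent matrices
`E0`, `E1` and a matrix `d` with `E1 * d = d = d * E0`, and its base changes.  The cohomology of the
base change along `φ : B →+* B'` is `H0 φ = {v | E0 v = v ∧ d v = 0}` and
`H1 φ = {w | E1 w = w} ⧸ d ({v | E0 v = v})`.
-/
import Mathlib

set_option autoImplicit false

namespace Fermat.Agent.JAC.CBC

/-- A perfect two-term complex of finite projective modules, in matrix form. -/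
structure PerfData (B : Type*) [CommRing B] where
  /-- size of the first term -/
  n₀ : ℕ
  /-- size of the second term -/
  n₁ : ℕ
  /-- the idempotent cutting out the first term -/
  E0 : Matrix (Fin n₀) (Fin n₀) B
  /-- the idempotent cutting out the second term -/
  E1 : Matrix (Fin n₁) (Fin n₁) B
  /-- the differential -/
  d : Matrix (Fin n₁) (Fin n₀) B
  E0_idem : E0 * E0 = E0
  E1_idem : E1 * E1 = E1
  E1_d : E1 * d = d
  d_E0 : d * E0 = d

namespace PerfData

variable {B : Type*} [CommRing B] (P : PerfData B)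
variable {B' : Type*} [CommRing B'] (φ : B →+* B')

lemma E0_idem_map : P.E0.map φ * P.E0.map φ = P.E0.map φ := by
  rw [← Matrix.map_mul, P.E0_idem]

lemma E1_idem_map : P.E1.map φ * P.E1.map φ = P.E1.map φ := by
  rw [← Matrix.map_mul, P.E1_idem]

lemma E1_d_map : P.E1.map φ * P.d.map φ = P.d.map φ := by
  rw [← Matrix.map_mul, P.E1_d]

lemma d_E0_map : P.d.map φ * P.E0.map φ = P.d.map φ := by
  rw [← Matrix.map_mul, P.d_E0]

/-- the first term of the base-changed complex -/
def K0 : Submodule B' (Fin P.n₀ → B') :=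
  LinearMap.ker ((P.E0.map φ).mulVecLin - LinearMap.id)

/-- the second term of the base-changed complex -/
def K1 : Submodule B' (Fin P.n₁ → B') :=
  LinearMap.ker ((P.E1.map φ).mulVecLin - LinearMap.id)

lemma mem_K0 {v : Fin P.n₀ → B'} : v ∈ P.K0 φ ↔ (P.E0.map φ).mulVec v = v := by
  rw [K0, LinearMap.mem_ker, LinearMap.sub_apply, sub_eq_zero]
  rfl

lemma mem_K1 {w : Fin P.n₁ → B'} : w ∈ P.K1 φ ↔ (P.E1.map φ).mulVec w = w := by
  rw [K1, LinearMap.mem_ker, LinearMap.sub_apply, sub_eq_zero]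
  rfl

lemma E0_mulVec_mem_K0 (v : Fin P.n₀ → B') : (P.E0.map φ).mulVec v ∈ P.K0 φ := by
  rw [mem_K0, Matrix.mulVec_mulVec, P.E0_idem_map]

lemma E1_mulVec_mem_K1 (w : Fin P.n₁ → B') : (P.E1.map φ).mulVec w ∈ P.K1 φ := by
  rw [mem_K1, Matrix.mulVec_mulVec, P.E1_idem_map]

lemma d_mulVec_mem_K1 (v : Fin P.n₀ → B') : (P.d.map φ).mulVec v ∈ P.K1 φ := by
  rw [mem_K1, Matrix.mulVec_mulVec, P.E1_d_map]

/-- the differential of the base-changed complex -/
def dLin : P.K0 φ →ₗ[B'] P.K1 φ :=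
  ((P.d.map φ).mulVecLin.comp (P.K0 φ).subtype).codRestrict (P.K1 φ)
    (fun v => P.d_mulVec_mem_K1 φ v.1)

@[simp] lemma dLin_coe (v : P.K0 φ) : ((P.dLin φ v : P.K1 φ) : Fin P.n₁ → B') =
    (P.d.map φ).mulVec v.1 := rfl

/-- `H⁰` of the base-changed complex, as a submodule of the ambient free module -/
def H0 : Submodule B' (Fin P.n₀ → B') := P.K0 φ ⊓ LinearMap.ker (P.d.map φ).mulVecLin

lemma mem_H0 {v : Fin P.n₀ → B'} :
    v ∈ P.H0 φ ↔ (P.E0.map φ).mulVec v = v ∧ (P.d.map φ).mulVec v = 0 := by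
  rw [H0, Submodule.mem_inf, mem_K0, LinearMap.mem_ker]
  rfl

/-- `H¹` of the base-changed complex -/
abbrev H1 : Type _ := (P.K1 φ) ⧸ LinearMap.range (P.dLin φ)

end PerfData

end Fermat.Agent.JAC.CBC
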