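/-
PROJECT JAC — J3: cohomology and base change for relative curves (helper8).

`CBC_helper8_Core`: the algebraic core of the perfect complex.  For a coordinate datum `D` over `B`
the operators `E0op`, `E1op`, `dop` are natural in `B` and preserve finite-dimensional coefficient
spaces, hence are given by matrices over `B` (`PerfCore`); these assemble to a `PerfData`
(`PerfCore.toPerfData`) which computes, for every base change `φ : B →ₐ[K] B'`,
`H⁰ = Zr ⊓ Zp 0` (`exists_coords_of_mem_H0`, `exists_mem_H0_of_coords`) and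
`H¹ = Z ⧸ (Zr ⊔ Zp 0)` (`exists_rep_H1`, `zof1_c₂_mem_sup_iff`) of `D.map φ`.
-/
import Mathlib
import Fermat.Agent.JAC.CBC_helper8_Coord
import Fermat.Agent.JAC.CBC_helper8_PerfData

set_option autoImplicit false
set_option linter.unusedVariables false
set_option linter.unusedSectionVars false

namespace Fermat.Agent.JAC.CBC

open TensorProduct Fermat.Agent.AV.CP
open scoped BigOperators

noncomputable section

universe w

variable {K : Type*} [Field K] {R : Type*} [CommRing R] [Algebra K R]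

namespace CoordDatum

variable {CA : CurveAlg K R} {B : Type w} [CommRing B] [Algebra K B] (D : CoordDatum CA B)
variable (A : CA.Aux)
variable {B' : Type w} [CommRing B'] [Algebra K B'] (φ : B →ₐ[K] B')

/-! ### Naturality of the operators -/

lemma E0op_map (u : D.F₁) :
    (D.map φ).E0op A (fun l => baseMap R φ (u l)) = fun l => baseMap R φ (D.E0op A u l) := by
  funext (l : Fin D.n₁)
  show (D.c10.map (baseMap R φ)).mulVec (fun k : Fin D.n₀ => A.π₀.baseChange B'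
    ((D.c01.map (baseMap R φ)).mulVec (fun l : Fin D.n₁ => baseMap R φ (u l)) k)) l =
    baseMap R φ (D.c10.mulVec (fun k => A.π₀.baseChange B (D.c01.mulVec u k)) l)
  rw [baseMap_mulVec]
  congr 1
  funext k
  rw [baseMap_bc_map, baseMap_mulVec]

lemma E1op_map (w : D.F₁) :
    (D.map φ).E1op A (fun l => baseMap R φ (w l)) = fun l => baseMap R φ (D.E1op A w l) := by
  funext (l : Fin D.n₁)
  show A.πq.baseChange B' ((D.c11.map (baseMap R φ)).mulVec
    (fun l : Fin D.n₁ => baseMap R φ (w l)) l) =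
    baseMap R φ (A.πq.baseChange B (D.c11.mulVec w l))
  rw [baseMap_bc_map, baseMap_mulVec]

lemma dop_map (u : D.F₁) :
    (D.map φ).dop A (fun l => baseMap R φ (u l)) = fun l => baseMap R φ (D.dop A u l) := by
  funext (l : Fin D.n₁)
  show A.πq.baseChange B' (baseMap R φ (u l)) = baseMap R φ (A.πq.baseChange B (u l))
  rw [baseMap_bc_map]

end CoordDatum

/-- a basis of a finite-dimensional subspace, as vectors of the ambient space -/
lemma exists_basis_vectors (W : Submodule K R) [Module.Finite K W] :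
    ∃ (m : ℕ) (v : Fin m → R), LinearIndependent K v ∧ Submodule.span K (Set.range v) = W := by
  let b := Module.finBasis K W
  refine ⟨_, fun β => (b β : R), ?_, ?_⟩
  · exact b.linearIndependent.map' W.subtype (Submodule.ker_subtype _)
  · have h := b.span_eq
    have h2 := congrArg (Submodule.map W.subtype) h
    rw [Submodule.map_span, Submodule.map_subtype_top] at h2
    refine Eq.trans ?_ h2
    congr 1
    ext x
    simp

/-- The algebraic core of the perfect complex: the matrices of the operators `E0op`, `E1op`,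
`dop` in coordinates. -/
structure PerfCore {CA : CurveAlg K R} {B : Type w} [CommRing B] [Algebra K B]
    (D : CoordDatum CA B) where
  /-- auxiliary choices -/
  A : CA.Aux
  /-- pole bound of `c10` along `D₁` -/
  p : ℕ
  /-- pole bound of `c10` along `D₀` -/
  q : ℕ
  hbd : D.Bd p q
  /-- dimension of the coefficient space of the first term -/
  m₁ : ℕ
  /-- a basis of the coefficient space of the first term -/
  v₁ : Fin m₁ → R
  hv₁ : LinearIndependent K v₁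
  span_v₁ : Submodule.span K (Set.range v₁) = CoordDatum.W₁ CA A p q
  /-- dimension of the coefficient space of the second term -/
  m₂ : ℕ
  /-- a basis of the coefficient space of the second term -/
  v₂ : Fin m₂ → R
  hv₂ : LinearIndependent K v₂
  span_v₂ : Submodule.span K (Set.range v₂) = CoordDatum.W' CA A (p + A.e)
  /-- the matrix of `E0op` -/
  E0 : Matrix (Fin D.n₁ × Fin m₁) (Fin D.n₁ × Fin m₁) B
  /-- the matrix of `E1op` -/
  E1 : Matrix (Fin D.n₁ × Fin m₂) (Fin D.n₁ × Fin m₂) B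
  /-- the matrix of `dop` -/
  d0 : Matrix (Fin D.n₁ × Fin m₂) (Fin D.n₁ × Fin m₁) B
  hE0 : ∀ (B' : Type w) [CommRing B'] [Algebra K B'] (φ : B →ₐ[K] B')
    (x : Fin D.n₁ × Fin m₁ → B'),
    (D.map φ).E0op A (tup K B' D.n₁ v₁ x) = tup K B' D.n₁ v₁ ((E0.map φ).mulVec x)
  hE1 : ∀ (B' : Type w) [CommRing B'] [Algebra K B'] (φ : B →ₐ[K] B')
    (x : Fin D.n₁ × Fin m₂ → B'),
    (D.map φ).E1op A (tup K B' D.n₁ v₂ x) = tup K B' D.n₁ v₂ ((E1.map φ).mulVec x)
  hd0 : ∀ (B' : Type w) [CommRing B'] [Algebra K B'] (φ : B →ₐ[K] B')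
    (x : Fin D.n₁ × Fin m₁ → B'),
    (D.map φ).dop A (tup K B' D.n₁ v₁ x) = tup K B' D.n₁ v₂ ((d0.map φ).mulVec x)

theorem nonempty_perfCore {CA : CurveAlg K R} {B : Type w} [CommRing B] [Algebra K B]
    (D : CoordDatum CA B) : Nonempty (PerfCore D) := by
  obtain ⟨A⟩ := CA.nonempty_aux
  obtain ⟨p, q, hbd⟩ := D.exists_bd
  obtain ⟨m₁, v₁, hv₁, span_v₁⟩ := exists_basis_vectors (CoordDatum.W₁ CA A p q)
  obtain ⟨m₂, v₂, hv₂, span_v₂⟩ := exists_basis_vectors (CoordDatum.W' CA A (p + A.e))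
  obtain ⟨E0, hE0⟩ := exists_repMatrix v₁ v₁ (D.E0op A)
    (fun B' _ _ φ => (D.map φ).E0op A) (fun B' _ _ φ f => D.E0op_map A φ f)
    (fun f hf k => by
      rw [span_v₁] at hf ⊢
      exact D.E0op_mem_W₁ A hbd hf k)
  obtain ⟨E1, hE1⟩ := exists_repMatrix v₂ v₂ (D.E1op A)
    (fun B' _ _ φ => (D.map φ).E1op A) (fun B' _ _ φ f => D.E1op_map A φ f)
    (fun f hf k => by
      rw [span_v₂] at hf ⊢
      exact D.E1op_mem_W' A hf k)
  obtain ⟨d0, hd0⟩ := exists_repMatrix v₁ v₂ (D.dop A)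
    (fun B' _ _ φ => (D.map φ).dop A) (fun B' _ _ φ f => D.dop_map A φ f)
    (fun f hf k => by
      rw [span_v₁] at hf
      rw [span_v₂]
      exact D.dop_mem_W' A hf k)
  exact ⟨⟨A, p, q, hbd, m₁, v₁, hv₁, span_v₁, m₂, v₂, hv₂, span_v₂, E0, E1, d0, hE0, hE1, hd0⟩⟩

namespace PerfCore

variable {CA : CurveAlg K R} {B : Type w} [CommRing B] [Algebra K B] {D : CoordDatum CA B}
variable (P : PerfCore D)

section VectorLevel

variable {B' : Type w} [CommRing B'] [Algebra K B'] (φ : B →ₐ[K] B')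

lemma E0_E0_mulVec (x : Fin D.n₁ × Fin P.m₁ → B') :
    (P.E0.map φ).mulVec ((P.E0.map φ).mulVec x) = (P.E0.map φ).mulVec x := by
  apply tup_injective (K := K) (B' := B') (q := D.n₁) P.hv₁
  rw [← P.hE0, ← P.hE0, (D.map φ).E0op_idem]

lemma E1_E1_mulVec (x : Fin D.n₁ × Fin P.m₂ → B') :
    (P.E1.map φ).mulVec ((P.E1.map φ).mulVec x) = (P.E1.map φ).mulVec x := by
  apply tup_injective (K := K) (B' := B') (q := D.n₁) P.hv₂
  rw [← P.hE1, ← P.hE1, (D.map φ).E1op_idem]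

lemma E1_d0_E0_mulVec (x : Fin D.n₁ × Fin P.m₁ → B') :
    (P.E1.map φ).mulVec ((P.d0.map φ).mulVec ((P.E0.map φ).mulVec x)) =
      (P.d0.map φ).mulVec ((P.E0.map φ).mulVec x) := by
  apply tup_injective (K := K) (B' := B') (q := D.n₁) P.hv₂
  rw [← P.hE1, ← P.hd0, ← P.hE0]
  apply (D.map φ).E1op_dop
  rw [← (D.map φ).ρ_snd]
  exact (D.map φ).c11_snd ((D.map φ).ρ_mem_Z P.A _)

end VectorLevel

lemma map_id_eq {m n : Type*} (M : Matrix m n B) : M.map (AlgHom.id K B) = M := by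
  ext i j
  rfl

lemma E0_idem : P.E0 * P.E0 = P.E0 := by
  apply Matrix.mulVec_injective
  funext x
  have h := P.E0_E0_mulVec (AlgHom.id K B) x
  rw [map_id_eq] at h
  rw [← Matrix.mulVec_mulVec, h]

lemma E1_idem : P.E1 * P.E1 = P.E1 := by
  apply Matrix.mulVec_injective
  funext x
  have h := P.E1_E1_mulVec (AlgHom.id K B) x
  rw [map_id_eq] at h
  rw [← Matrix.mulVec_mulVec, h]

lemma E1_d0_E0 : P.E1 * (P.d0 * P.E0) = P.d0 * P.E0 := by
  apply Matrix.mulVec_injective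
  funext x
  have h := P.E1_d0_E0_mulVec (AlgHom.id K B) x
  rw [map_id_eq, map_id_eq, map_id_eq] at h
  rw [← Matrix.mulVec_mulVec, ← Matrix.mulVec_mulVec, h]

/-- numbering of the coordinates of the first term -/
def e₁ : Fin D.n₁ × Fin P.m₁ ≃ Fin (D.n₁ * P.m₁) := finProdFinEquiv

/-- numbering of the coordinates of the second term -/
def e₂ : Fin D.n₁ × Fin P.m₂ ≃ Fin (D.n₁ * P.m₂) := finProdFinEquiv

/-- **The perfect complex of a coordinate datum.** -/
@[reducible] def toPerfData : PerfData B where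
  n₀ := D.n₁ * P.m₁
  n₁ := D.n₁ * P.m₂
  E0 := P.E0.submatrix P.e₁.symm P.e₁.symm
  E1 := P.E1.submatrix P.e₂.symm P.e₂.symm
  d := (P.d0 * P.E0).submatrix P.e₂.symm P.e₁.symm
  E0_idem := by rw [Matrix.submatrix_mul_equiv, P.E0_idem]
  E1_idem := by rw [Matrix.submatrix_mul_equiv, P.E1_idem]
  E1_d := by rw [Matrix.submatrix_mul_equiv, P.E1_d0_E0]
  d_E0 := by rw [Matrix.submatrix_mul_equiv, Matrix.mul_assoc, P.E0_idem]

section Coordinates

variable {B' : Type w} [CommRing B'] [Algebra K B'] (φ : B →ₐ[K] B')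

/-- coordinates of the first term -/
def c₁ (B' : Type w) [CommRing B'] [Algebra K B'] :
    (Fin (D.n₁ * P.m₁) → B') →ₗ[B'] (Fin D.n₁ → B' ⊗[K] R) :=
  (tup K B' D.n₁ P.v₁).comp (LinearMap.funLeft B' B' P.e₁)

/-- coordinates of the second term -/
def c₂ (B' : Type w) [CommRing B'] [Algebra K B'] :
    (Fin (D.n₁ * P.m₂) → B') →ₗ[B'] (Fin D.n₁ → B' ⊗[K] R) :=
  (tup K B' D.n₁ P.v₂).comp (LinearMap.funLeft B' B' P.e₂)

lemma c₁_apply (y : Fin (D.n₁ * P.m₁) → B') : P.c₁ B' y = tup K B' D.n₁ P.v₁ (y ∘ P.e₁) := rfl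

lemma c₂_apply (y : Fin (D.n₁ * P.m₂) → B') : P.c₂ B' y = tup K B' D.n₁ P.v₂ (y ∘ P.e₂) := rfl

lemma c₁_injective : Function.Injective (P.c₁ B') := by
  intro y y' h
  have h2 := tup_injective (K := K) (B' := B') (q := D.n₁) P.hv₁ h
  funext i
  have := congrFun h2 (P.e₁.symm i)
  simpa [LinearMap.funLeft] using this

lemma c₂_injective : Function.Injective (P.c₂ B') := by
  intro y y' h
  have h2 := tup_injective (K := K) (B' := B') (q := D.n₁) P.hv₂ h
  funext i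
  have := congrFun h2 (P.e₂.symm i)
  simpa [LinearMap.funLeft] using this

lemma mem_range_c₁ (u : Fin D.n₁ → B' ⊗[K] R) :
    u ∈ LinearMap.range (P.c₁ B') ↔ ∀ l, u l ∈ (CoordDatum.W₁ CA P.A P.p P.q).baseChange B' := by
  rw [← P.span_v₁, ← mem_range_tup]
  constructor
  · rintro ⟨y, rfl⟩
    exact ⟨_, rfl⟩
  · rintro ⟨x, rfl⟩
    refine ⟨x ∘ P.e₁.symm, ?_⟩
    rw [c₁_apply]
    congr 1
    funext i
    simp

lemma mem_range_c₂ (u : Fin D.n₁ → B' ⊗[K] R) :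
    u ∈ LinearMap.range (P.c₂ B') ↔
      ∀ l, u l ∈ (CoordDatum.W' CA P.A (P.p + P.A.e)).baseChange B' := by
  rw [← P.span_v₂, ← mem_range_tup]
  constructor
  · rintro ⟨y, rfl⟩
    exact ⟨_, rfl⟩
  · rintro ⟨x, rfl⟩
    refine ⟨x ∘ P.e₂.symm, ?_⟩
    rw [c₂_apply]
    congr 1
    funext i
    simp

lemma E0op_c₁ (y : Fin (D.n₁ * P.m₁) → B') :
    (D.map φ).E0op P.A (P.c₁ B' y) = P.c₁ B' ((P.toPerfData.E0.map φ).mulVec y) := by
  rw [c₁_apply, P.hE0, c₁_apply]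
  congr 1
  show _ = ((P.E0.submatrix P.e₁.symm P.e₁.symm).map φ).mulVec y ∘ P.e₁
  rw [← Matrix.submatrix_map, Matrix.submatrix_mulVec_equiv]
  funext i
  simp

lemma E1op_c₂ (y : Fin (D.n₁ * P.m₂) → B') :
    (D.map φ).E1op P.A (P.c₂ B' y) = P.c₂ B' ((P.toPerfData.E1.map φ).mulVec y) := by
  rw [c₂_apply, P.hE1, c₂_apply]
  congr 1
  show _ = ((P.E1.submatrix P.e₂.symm P.e₂.symm).map φ).mulVec y ∘ P.e₂
  rw [← Matrix.submatrix_map, Matrix.submatrix_mulVec_equiv]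
  funext i
  simp

lemma dop_E0op_c₁ (y : Fin (D.n₁ * P.m₁) → B') :
    (D.map φ).dop P.A ((D.map φ).E0op P.A (P.c₁ B' y)) =
      P.c₂ B' ((P.toPerfData.d.map φ).mulVec y) := by
  rw [c₁_apply, P.hE0, P.hd0, c₂_apply]
  congr 1
  show _ = (((P.d0 * P.E0).submatrix P.e₂.symm P.e₁.symm).map φ).mulVec y ∘ P.e₂
  rw [← Matrix.submatrix_map, Matrix.submatrix_mulVec_equiv, Matrix.map_mul,
    ← Matrix.mulVec_mulVec]
  funext i
  simp

lemma baseMap_c₁ {B'' : Type w} [CommRing B''] [Algebra K B''] (χ : B' →ₐ[K] B'')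
    (y : Fin (D.n₁ * P.m₁) → B') (l : Fin D.n₁) :
    baseMap R χ (P.c₁ B' y l) = P.c₁ B'' (fun i => χ (y i)) l := by
  rw [c₁_apply, baseMap_tup, c₁_apply]
  rfl

lemma baseMap_c₂ {B'' : Type w} [CommRing B''] [Algebra K B''] (χ : B' →ₐ[K] B'')
    (y : Fin (D.n₁ * P.m₂) → B') (l : Fin D.n₁) :
    baseMap R χ (P.c₂ B' y l) = P.c₂ B'' (fun i => χ (y i)) l := by
  rw [c₂_apply, baseMap_tup, c₂_apply]
  rfl

/-! ### The final statements -/

lemma mem_K0_iff {x : Fin (D.n₁ * P.m₁) → B'} :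
    x ∈ P.toPerfData.K0 (φ : B →+* B') ↔ (P.toPerfData.E0.map φ).mulVec x = x :=
  P.toPerfData.mem_K0 _

lemma mem_K1_iff {y : Fin (D.n₁ * P.m₂) → B'} :
    y ∈ P.toPerfData.K1 (φ : B →+* B') ↔ (P.toPerfData.E1.map φ).mulVec y = y :=
  P.toPerfData.mem_K1 _

lemma mem_H0_iff {x : Fin (D.n₁ * P.m₁) → B'} :
    x ∈ P.toPerfData.H0 (φ : B →+* B') ↔ (P.toPerfData.E0.map φ).mulVec x = x ∧
      (P.toPerfData.d.map φ).mulVec x = 0 :=
  P.toPerfData.mem_H0 _

/-- (A1) global sections have coordinates in `H0` of the complex. -/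
lemma exists_coords_of_mem_H0 {k : (D.map φ).F₀ × (D.map φ).F₁} (hk0 : k ∈ (D.map φ).Zr)
    (hk1 : k ∈ (D.map φ).Zp 0) :
    ∃ y ∈ P.toPerfData.H0 (φ : B →+* B'), P.c₁ B' y = k.2 := by
  obtain ⟨h1, h2, h3⟩ := (D.map φ).coords_of_mem_H0 P.A (P.hbd.map D φ) hk0 hk1
  obtain ⟨y, hy⟩ := (P.mem_range_c₁ k.2).2 h1
  refine ⟨y, (P.mem_H0_iff φ).2 ⟨?_, ?_⟩, hy⟩
  · apply P.c₁_injective
    rw [← P.E0op_c₁ φ, hy]
    exact h2
  · apply P.c₂_injective
    rw [← P.dop_E0op_c₁ φ, hy, map_zero]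
    have h2' : (D.map φ).E0op P.A k.2 = k.2 := h2
    rw [h2']
    exact h3

/-- (A2) vectors in `H0` of the complex are the coordinates of global sections. -/
lemma exists_mem_H0_of_coords {y : Fin (D.n₁ * P.m₁) → B'}
    (hy : y ∈ P.toPerfData.H0 (φ : B →+* B')) :
    ∃ k : (D.map φ).F₀ × (D.map φ).F₁, k ∈ (D.map φ).Zr ∧ k ∈ (D.map φ).Zp 0 ∧
      k.2 = P.c₁ B' y := by
  obtain ⟨hy1, hy2⟩ := (P.mem_H0_iff φ).1 hy
  have hE : (D.map φ).E0op P.A (P.c₁ B' y) = P.c₁ B' y := by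
    rw [P.E0op_c₁ φ, hy1]
  have hd : (D.map φ).dop P.A (P.c₁ B' y) = 0 := by
    have h := P.dop_E0op_c₁ φ y
    rw [hE, hy2, map_zero] at h
    exact h
  obtain ⟨h1, h2, h3⟩ := (D.map φ).mem_H0_of_coords P.A hE hd
  exact ⟨_, h1, h2, h3⟩

/-- (B1) every class in `H¹` is represented by a vector of `K1`. -/
lemma exists_rep_H1 {z : (D.map φ).F₀ × (D.map φ).F₁} (hz : z ∈ (D.map φ).Z) :
    ∃ y ∈ P.toPerfData.K1 (φ : B →+* B'),
      z - (D.map φ).zof1 (P.c₂ B' y) ∈ (D.map φ).Zr ⊔ (D.map φ).Zp 0 := by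
  obtain ⟨w, hw, hE, hz'⟩ := (D.map φ).exists_rep_H1 P.A (P.hbd.map D φ) hz
  obtain ⟨y, rfl⟩ := (P.mem_range_c₂ w).2 hw
  refine ⟨y, (P.mem_K1_iff φ).2 ?_, hz'⟩
  apply P.c₂_injective
  rw [← P.E1op_c₂ φ]
  exact hE

/-- (B2) a vector of `K1` represents zero in `H¹` iff it is in the image of `d`. -/
lemma zof1_c₂_mem_sup_iff {y : Fin (D.n₁ * P.m₂) → B'}
    (hy : y ∈ P.toPerfData.K1 (φ : B →+* B')) :
    (D.map φ).zof1 (P.c₂ B' y) ∈ (D.map φ).Zr ⊔ (D.map φ).Zp 0 ↔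
      ∃ x ∈ P.toPerfData.K0 (φ : B →+* B'), (P.toPerfData.d.map φ).mulVec x = y := by
  have hy' := (P.mem_K1_iff φ).1 hy
  have hE : (D.map φ).E1op P.A (P.c₂ B' y) = P.c₂ B' y := by
    rw [P.E1op_c₂ φ, hy']
  rw [(D.map φ).zof1_mem_sup_iff P.A (P.hbd.map D φ) ((P.mem_range_c₂ _).1 ⟨y, rfl⟩) hE]
  constructor
  · rintro ⟨u, hu, hEu, hdu⟩
    obtain ⟨x, rfl⟩ := (P.mem_range_c₁ u).2 hu
    have hx : (P.toPerfData.E0.map φ).mulVec x = x := by
      apply P.c₁_injective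
      rw [← P.E0op_c₁ φ]
      exact hEu
    refine ⟨x, (P.mem_K0_iff φ).2 hx, ?_⟩
    apply P.c₂_injective
    rw [← P.dop_E0op_c₁ φ]
    have hEu' : (D.map φ).E0op P.A (P.c₁ B' x) = P.c₁ B' x := hEu
    rw [hEu']
    exact hdu
  · rintro ⟨x, hx, rfl⟩
    have hx' := (P.mem_K0_iff φ).1 hx
    have hEu : (D.map φ).E0op P.A (P.c₁ B' x) = P.c₁ B' x := by
      rw [P.E0op_c₁ φ, hx']
    refine ⟨P.c₁ B' x, (P.mem_range_c₁ _).1 ⟨x, rfl⟩, hEu, ?_⟩
    have h := P.dop_E0op_c₁ φ x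
    rw [hEu] at h
    exact h

end Coordinates

end PerfCore

end

end Fermat.Agent.JAC.CBC
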