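/-
PROJECT JAC — J3: cohomology and base change for relative curves (helper8).

`CBC_helper8_Eval`: coordinates of sections over the dense chart of a family (`FamData.ev`), the
transition relations, and the characterisation of the sections extending to a chart by the
regularity of their coordinates.  (Extension of the AV producer layer `CP.FamData`.)
-/
import Mathlib
import Fermat.Agent.AV.CP_helper8_Present

set_option autoImplicit false

open AlgebraicGeometry CategoryTheory Opposite TopologicalSpace TensorProduct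

universe u

namespace Fermat.Agent.AV.CP

open Fermat.Agent.AV Fermat.Agent.AV.LB

noncomputable section

namespace FamData

variable {K : Type u} [Field K] {X : Scheme.{u}} [KScheme K X] {PS : PoleSystem K X}
variable (F : FamData PS)

/-- the coordinates of a section over the dense chart, in the tensor model -/
def ev (i : PS.ι) (k : Fin (F.nn i)) : F.L.SecOn F.W₀ →+ Γ(F.T, ⊤) ⊗[K] Γ(X, PS.U₀) :=
  (F.θ.symm : Γ(F.Y, F.W₀) →+* _).toAddMonoidHom.comp (pairL (F.t₀ i k)).toAddMonoidHom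

lemma ev_apply (i : PS.ι) (k : Fin (F.nn i)) (s : F.L.SecOn F.W₀) :
    F.ev i k s = F.θ.symm (pair (F.t₀ i k) s) := rfl

lemma θ_ev (i : PS.ι) (k : Fin (F.nn i)) (s : F.L.SecOn F.W₀) :
    F.θ (F.ev i k s) = pair (F.t₀ i k) s := by
  rw [ev_apply, RingEquiv.apply_symm_apply]

lemma ev_smul (i : PS.ι) (k : Fin (F.nn i)) (a : Γ(F.Y, F.W₀)) (s : F.L.SecOn F.W₀) :
    F.ev i k (a • s) = F.θ.symm a * F.ev i k s := by
  rw [ev_apply, ev_apply, pair_smul_right, map_mul]

/-- every section over the dense chart is a combination of the partition sections of any chart -/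
lemma eq_sum_W₀ (j : PS.ι) (s : F.L.SecOn F.W₀) :
    s = ∑ l, F.θ (F.ev j l s) • F.m₀ j l := by
  calc s = (1 : Γ(F.Y, F.W₀)) • s := (one_smul _ _).symm
    _ = (∑ l, pair (F.t₀ j l) (F.m₀ j l)) • s := by rw [F.partition₀ j]
    _ = ∑ l, pair (F.t₀ j l) (F.m₀ j l) • s := Finset.sum_smul
    _ = ∑ l, pair (F.t₀ j l) s • F.m₀ j l :=
        Finset.sum_congr rfl fun l _ => pair_swap (F.t₀ j l) (F.m₀ j l) s
    _ = ∑ l, F.θ (F.ev j l s) • F.m₀ j l := by simp only [θ_ev]

/-- the coordinates of a combination of partition sections -/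
lemma ev_sum (i : PS.ι) (k : Fin (F.nn i)) (j : PS.ι) (a : Fin (F.nn j) → Γ(F.Y, F.W₀)) :
    F.ev i k (∑ l, a l • F.m₀ j l) = ∑ l, F.cT i k j l * F.θ.symm (a l) := by
  rw [map_sum]
  refine Finset.sum_congr rfl fun l _ => ?_
  rw [ev_smul, mul_comm]
  rfl

/-- the transition relations between the coordinates -/
lemma ev_transition (i : PS.ι) (k : Fin (F.nn i)) (j : PS.ι) (s : F.L.SecOn F.W₀) :
    ∑ l, F.cT i k j l * F.ev j l s = F.ev i k s := by
  conv_rhs => rw [F.eq_sum_W₀ j s]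
  rw [ev_sum]
  simp only [RingEquiv.symm_apply_apply]

/-- the cocycle relation of the transition coefficients -/
lemma cT_cocycle (i : PS.ι) (k : Fin (F.nn i)) (j j' : PS.ι) (l' : Fin (F.nn j')) :
    ∑ l, F.cT i k j l * F.cT j l j' l' = F.cT i k j' l' :=
  F.ev_transition i k j (F.m₀ j' l')

/-- a section is determined by its coordinates on one chart -/
lemma ev_injective (j : PS.ι) {s s' : F.L.SecOn F.W₀} (h : ∀ l, F.ev j l s = F.ev j l s') :
    s = s' := by
  rw [F.eq_sum_W₀ j s, F.eq_sum_W₀ j s']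
  simp only [h]

/-- the section with given coordinates on the chart `j` -/
def ofCoords (j : PS.ι) (f : Fin (F.nn j) → Γ(F.T, ⊤) ⊗[K] Γ(X, PS.U₀)) : F.L.SecOn F.W₀ :=
  ∑ l, F.θ (f l) • F.m₀ j l

lemma ev_ofCoords (i : PS.ι) (k : Fin (F.nn i)) (j : PS.ι)
    (f : Fin (F.nn j) → Γ(F.T, ⊤) ⊗[K] Γ(X, PS.U₀)) :
    F.ev i k (F.ofCoords j f) = ∑ l, F.cT i k j l * f l := by
  rw [ofCoords, ev_sum]
  simp only [RingEquiv.symm_apply_apply]

lemma ofCoords_add (j : PS.ι) (f f' : Fin (F.nn j) → Γ(F.T, ⊤) ⊗[K] Γ(X, PS.U₀)) :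
    F.ofCoords j (f + f') = F.ofCoords j f + F.ofCoords j f' := by
  simp only [ofCoords, Pi.add_apply, map_add, add_smul, Finset.sum_add_distrib]

lemma ofCoords_zero (j : PS.ι) : F.ofCoords j (0 : Fin (F.nn j) → _) = 0 := by
  simp [ofCoords]

lemma ofCoords_base_smul (j : PS.ι) (b : Γ(F.T, ⊤))
    (f : Fin (F.nn j) → Γ(F.T, ⊤) ⊗[K] Γ(X, PS.U₀)) :
    F.ofCoords j (b • f) = res F.W₀ le_top (F.p₂.appTop.hom b) • F.ofCoords j f := by
  simp only [ofCoords, Pi.smul_apply, Finset.smul_sum]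
  refine Finset.sum_congr rfl fun l _ => ?_
  rw [← F.θ_tmul_one, smul_smul, ← map_mul, Algebra.smul_def]
  rfl

/-! ### Regularity on a chart -/

lemma mem_chartAlg_iff (m : ℕ) (j : PS.ι) (B' : Type*) [CommRing B'] [Algebra K B']
    (z : B' ⊗[K] Γ(X, PS.U₀)) :
    z ∈ (PS.poleAlg m).chartAlg B' j ↔
      z ∈ ((PS.poleAlg m).Rsub j).toSubmodule.baseChange B' := by
  constructor
  · rintro ⟨y, rfl⟩
    induction y with
    | zero => simp
    | add x y hx hy =>
      rw [map_add]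
      exact Submodule.add_mem _ hx hy
    | tmul b r =>
      show (Algebra.TensorProduct.map (AlgHom.id B' B') ((PS.poleAlg m).Rsub j).val)
        (b ⊗ₜ[K] r) ∈ _
      rw [Algebra.TensorProduct.map_tmul]
      exact Submodule.tmul_mem_baseChange_of_mem _ r.2
  · rintro ⟨y, rfl⟩
    induction y with
    | zero => simp
    | add x y hx hy =>
      rw [map_add]
      exact Subalgebra.add_mem _ hx hy
    | tmul b r =>
      rw [LinearMap.baseChange_tmul]
      exact (PS.poleAlg m).tmul_mem_chartAlg B' j b r.2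

/-- the coordinates on the chart `j` of a section extending to the chart `j` are regular -/
lemma ev_mem_of_mem_MΓ (j : PS.ι) (l : Fin (F.nn j)) {s : F.L.SecOn F.W₀} (hs : s ∈ F.MΓ j) :
    F.ev j l s ∈ ((PS.poleAlg 0).Rsub j).toSubmodule.baseChange Γ(F.T, ⊤) := by
  obtain ⟨x', rfl⟩ := hs
  rw [← mem_chartAlg_iff, ev_apply, restrictHom_apply]
  have h : pair (F.t₀ j l) (x'.restrict (F.W₀_le j)) =
      res F.W₀ (F.W₀_le j) (pair (F.tt j l) x') := (pair_restrict (F.W₀_le j) (F.tt j l) x')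
  rw [h]
  exact F.θ_symm_res_mem_chartAlg 0 j _

/-- a section whose coordinates on the chart `j` are regular extends to the chart `j` -/
lemma mem_MΓ_of_ev_mem (j : PS.ι) {s : F.L.SecOn F.W₀}
    (hs : ∀ l, F.ev j l s ∈ ((PS.poleAlg 0).Rsub j).toSubmodule.baseChange Γ(F.T, ⊤)) :
    s ∈ F.MΓ j := by
  have h1 : ∀ l, ∃ a : Γ(F.Y, F.p₁ ⁻¹ᵁ PS.U j), res F.W₀ (F.W₀_le j) a = F.θ (F.ev j l s) :=
    fun l => F.exists_res_eq_θ_of_mem_chartAlg 0 j _ ((mem_chartAlg_iff 0 j _ _).2 (hs l))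
  choose a ha using h1
  refine ⟨∑ l, a l • F.mm j l, ?_⟩
  show restrictHom (F.W₀_le j) (∑ l, a l • F.mm j l) = s
  rw [F.eq_sum_W₀ j s, map_sum]
  refine Finset.sum_congr rfl fun l _ => ?_
  rw [restrictHom_apply, restrict_smul', ha]
  rfl

/-! ### Base change -/

lemma ev_pull (E : TestData F) (i : PS.ι) (k : Fin (F.nn i)) (s : F.L.SecOn F.W₀) :
    (F.pull E).ev i k (s.pullback E.ψ : (F.pull E).L.SecOn (F.pull E).W₀) =
      baseMap Γ(X, PS.U₀) (F.φAlg E) (F.ev i k s) := by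
  rw [ev_apply, ev_apply, F.pair_pull E i k s, F.θ_symm_app E]

/-- multiplication by a function on the base, in coordinates -/
lemma ev_base_smul (i : PS.ι) (k : Fin (F.nn i)) (b : Γ(F.T, ⊤)) (s : F.L.SecOn F.W₀) :
    F.ev i k (res F.W₀ le_top (F.p₂.appTop.hom b) • s) = b • F.ev i k s := by
  rw [ev_smul, ← F.θ_tmul_one, RingEquiv.symm_apply_apply, Algebra.smul_def]
  rfl

end FamData

end

end Fermat.Agent.AV.CP
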