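/-
PROJECT JAC — J3: cohomology and base change for relative curves (helper8).

`CBC_helper8_Laurent`: Laurent splitting `s^m p(t) = q⁺(t) + q⁻(s)` (`t s = 1`) and its consequences
for a subalgebra `S ∋ t` which is a finite `K[t]`-module: polar parts are finite-dimensional
(`mem_sup_poleSpan`) and `H¹`-vanishing (`mem_sup_of_generators`); the finiteness chain
`finite_inf_of_chain`.
-/
import Mathlib

set_option autoImplicit false

namespace Fermat.Agent.JAC.CBC

open Polynomial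
open scoped BigOperators

section Laurent

variable {K : Type*} [Field K] {R : Type*} [CommRing R] [Algebra K R]

/-- the span of `s, s², …, s^m` -/
def negPart (K : Type*) [Field K] {R : Type*} [CommRing R] [Algebra K R] (s : R) (m : ℕ) :
    Submodule K R :=
  Submodule.span K (Set.range fun j : Fin m => s ^ ((j : ℕ) + 1))

lemma pow_mem_negPart (s : R) {m j : ℕ} (h1 : 1 ≤ j) (h2 : j ≤ m) : s ^ j ∈ negPart K s m := by
  refine Submodule.subset_span ⟨⟨j - 1, by omega⟩, ?_⟩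
  show s ^ (j - 1 + 1) = s ^ j
  congr 1
  omega

lemma negPart_le_subalgebra (S : Subalgebra K R) {s : R} (hs : s ∈ S) (m : ℕ) :
    negPart K s m ≤ S.toSubmodule := by
  rw [negPart, Submodule.span_le]
  rintro _ ⟨j, rfl⟩
  exact S.pow_mem hs _

instance finite_negPart (s : R) (m : ℕ) : Module.Finite K ↥(negPart K s m) :=
  Module.Finite.span_of_finite K (Set.finite_range _)

variable {t s : R} (hts : t * s = 1)

include hts in
lemma pow_mul_pow_of_le {m j : ℕ} (h : m ≤ j) : s ^ m * t ^ j = t ^ (j - m) := by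
  obtain ⟨d, rfl⟩ := Nat.exists_eq_add_of_le h
  rw [Nat.add_sub_cancel_left, pow_add, ← mul_assoc, ← mul_pow, mul_comm s t, hts, one_pow,
    one_mul]

include hts in
lemma pow_mul_pow_of_lt {m j : ℕ} (h : j < m) : s ^ m * t ^ j = s ^ (m - j) := by
  obtain ⟨d, rfl⟩ := Nat.exists_eq_add_of_le h.le
  rw [Nat.add_sub_cancel_left, pow_add, mul_comm (s ^ j), mul_assoc, ← mul_pow, mul_comm s t, hts,
    one_pow, mul_one]

include hts in
/-- **Laurent splitting**: `s^m p(t)` is a polynomial in `t` plus a combination of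
`s, …, s^m`. -/
lemma pow_mul_aeval_mem (m : ℕ) (p : K[X]) :
    s ^ m * aeval t p ∈ (aeval (R := K) t).range.toSubmodule ⊔ negPart K s m := by
  induction p using Polynomial.induction_on' with
  | add p q hp hq =>
    rw [map_add, mul_add]
    exact Submodule.add_mem _ hp hq
  | monomial j a =>
    rw [aeval_monomial, mul_comm (algebraMap K R a), ← mul_assoc, ← Algebra.commutes,
      ← Algebra.smul_def]
    refine Submodule.smul_mem _ a ?_
    by_cases h : m ≤ j
    · rw [pow_mul_pow_of_le hts h]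
      exact Submodule.mem_sup_left ⟨X ^ (j - m), by simp⟩
    · rw [not_le] at h
      rw [pow_mul_pow_of_lt hts h]
      exact Submodule.mem_sup_right (pow_mem_negPart s (by omega) (by omega))

variable (S : Subalgebra K R) (ht : t ∈ S) {n : ℕ} (ρ : Fin n → R)
  (hgen : ∀ r ∈ S, ∃ p : Fin n → K[X], r = ∑ i, aeval t (p i) * ρ i)

include hts hgen in
/-- expansion of an element with a pole of order at most `m`. -/
lemma exists_expansion {m : ℕ} {r : R} (hr : t ^ m * r ∈ S) :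
    ∃ u v : Fin n → R, (∀ i, u i ∈ (aeval (R := K) t).range) ∧ (∀ i, v i ∈ negPart K s m) ∧
      r = ∑ i, (u i + v i) * ρ i := by
  obtain ⟨p, hp⟩ := hgen _ hr
  have h1 : r = ∑ i, (s ^ m * aeval t (p i)) * ρ i := by
    have : r = s ^ m * (t ^ m * r) := by
      rw [← mul_assoc, ← mul_pow, mul_comm s t, hts, one_pow, one_mul]
    rw [this, hp, Finset.mul_sum]
    exact Finset.sum_congr rfl fun i _ => (mul_assoc _ _ _).symm
  have h2 : ∀ i, ∃ u ∈ (aeval (R := K) t).range.toSubmodule, ∃ v ∈ negPart K s m,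
      u + v = s ^ m * aeval t (p i) := fun i =>
    Submodule.mem_sup.1 (pow_mul_aeval_mem hts m (p i))
  choose u hu v hv huv using h2
  refine ⟨u, v, hu, hv, ?_⟩
  rw [h1]
  exact Finset.sum_congr rfl fun i _ => by rw [huv]

include ht in
lemma aeval_range_le : (aeval (R := K) t).range ≤ S := by
  rw [← Algebra.adjoin_singleton_eq_range_aeval]
  exact Algebra.adjoin_le (Set.singleton_subset_iff.2 ht)

/-- the finite-dimensional space spanned by the `s^(j+1) ρ_i`, `j < m`. -/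
def poleSpan (K : Type*) [Field K] {R : Type*} [CommRing R] [Algebra K R] (s : R) (m : ℕ) {n : ℕ}
    (ρ : Fin n → R) : Submodule K R :=
  Submodule.span K (Set.range fun ji : Fin m × Fin n => s ^ ((ji.1 : ℕ) + 1) * ρ ji.2)

instance finite_poleSpan (s : R) (m : ℕ) {n : ℕ} (ρ : Fin n → R) :
    Module.Finite K ↥(poleSpan K s m ρ) :=
  Module.Finite.span_of_finite K (Set.finite_range _)

lemma mul_mem_poleSpan (s : R) (m : ℕ) {n : ℕ} (ρ : Fin n → R) {v : R} (hv : v ∈ negPart K s m)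
    (i : Fin n) : v * ρ i ∈ poleSpan K s m ρ := by
  induction hv using Submodule.span_induction with
  | mem x hx =>
    obtain ⟨j, rfl⟩ := hx
    exact Submodule.subset_span ⟨(j, i), rfl⟩
  | zero => rw [zero_mul]; exact Submodule.zero_mem _
  | add x y _ _ hx hy => rw [add_mul]; exact Submodule.add_mem _ hx hy
  | smul a x _ hx => rw [smul_mul_assoc]; exact Submodule.smul_mem _ a hx

include hts ht hgen in
/-- `O(mD)/O` has finite-dimensional sections. -/
lemma mem_sup_poleSpan (hρ : ∀ i, ρ i ∈ S) {m : ℕ} {r : R} (hr : t ^ m * r ∈ S) :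
    ∃ r₁ ∈ S, ∃ w ∈ poleSpan K s m ρ, r = r₁ + w := by
  obtain ⟨u, v, hu, hv, rfl⟩ := exists_expansion hts S ρ hgen hr
  refine ⟨∑ i, u i * ρ i, S.sum_mem fun i _ => S.mul_mem (aeval_range_le S ht (hu i)) (hρ i),
    ∑ i, v i * ρ i, Submodule.sum_mem _ fun i _ => mul_mem_poleSpan s m ρ (hv i) i, ?_⟩
  rw [← Finset.sum_add_distrib]
  exact Finset.sum_congr rfl fun i _ => add_mul _ _ _

include hts ht hgen in
/-- `H¹(O(eD')) = 0`: every function is regular on the first chart up to a function with bounded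
poles on the second chart. -/
lemma mem_sup_of_generators (hρ : ∀ i, ρ i ∈ S) (S' : Subalgebra K R) (hs : s ∈ S')
    (Ψ : Submodule K R) (hΨ : ∀ a ∈ S', ∀ b ∈ Ψ, a * b ∈ Ψ) (hρΨ : ∀ i, ρ i ∈ Ψ) {m : ℕ} {r : R}
    (hr : t ^ m * r ∈ S) : ∃ r₀ ∈ S, ∃ r₁ ∈ Ψ, r = r₀ + r₁ := by
  obtain ⟨u, v, hu, hv, rfl⟩ := exists_expansion hts S ρ hgen hr
  refine ⟨∑ i, u i * ρ i, S.sum_mem fun i _ => S.mul_mem (aeval_range_le S ht (hu i)) (hρ i),
    ∑ i, v i * ρ i, Submodule.sum_mem _ fun i _ =>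
      hΨ _ (negPart_le_subalgebra S' hs m (hv i)) _ (hρΨ i), ?_⟩
  rw [← Finset.sum_add_distrib]
  exact Finset.sum_congr rfl fun i _ => add_mul _ _ _

end Laurent

section FiniteChain

variable {K : Type*} [Field K] {R : Type*} [AddCommGroup R] [Module K R]

/-- if `P ⊆ S + F` with `F` finite-dimensional and `π` kills `S` then `π(P)` is
finite-dimensional. -/
lemma finite_map_of_le_sup (π : R →ₗ[K] R) (S P F : Submodule K R) [Module.Finite K F]
    (hπ : ∀ r ∈ S, π r = 0) (hP : ∀ r ∈ P, ∃ r₁ ∈ S, ∃ w ∈ F, r = r₁ + w) :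
    Module.Finite K ↥(P.map π) := by
  have hle : P.map π ≤ F.map π := by
    rintro _ ⟨r, hr, rfl⟩
    obtain ⟨r₁, hr₁, w, hw, rfl⟩ := hP r hr
    exact ⟨w, hw, by rw [map_add, hπ r₁ hr₁, zero_add]⟩
  have : Module.Finite K ↥(F.map π) := Module.Finite.map F π
  exact Module.Finite.of_injective (Submodule.inclusion hle) (Submodule.inclusion_injective hle)

/-- **finiteness of `H⁰(O(bD₀ + aD₁))`** from the finiteness of `H⁰(O)` and of the polar parts. -/
lemma finite_inf_of_chain (S₀ S₁ P₀ P₁ F₀ F₁ G : Submodule K R) [Module.Finite K F₀]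
    [Module.Finite K F₁] [Module.Finite K G] (hG : S₀ ⊓ S₁ ≤ G)
    (hP₀ : ∀ r ∈ P₀, ∃ r₁ ∈ S₀, ∃ w ∈ F₀, r = r₁ + w)
    (hP₁ : ∀ r ∈ P₁, ∃ r₁ ∈ S₁, ∃ w ∈ F₁, r = r₁ + w) : Module.Finite K ↥(P₀ ⊓ P₁) := by
  obtain ⟨π₀, h01, h02⟩ : ∃ π : R →ₗ[K] R, (∀ r ∈ S₀, π r = 0) ∧ ∀ r, r - π r ∈ S₀ := by
    obtain ⟨τ, hτ⟩ := LinearMap.exists_rightInverse_of_surjective S₀.mkQ
      (LinearMap.range_eq_top.2 S₀.mkQ_surjective)
    have hτ' : ∀ z, S₀.mkQ (τ z) = z := fun z => LinearMap.congr_fun hτ z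
    refine ⟨τ.comp S₀.mkQ, fun r hr => ?_, fun r => ?_⟩
    · show τ (S₀.mkQ r) = 0
      have hr0 : S₀.mkQ r = 0 := (Submodule.Quotient.mk_eq_zero S₀).2 hr
      rw [hr0, map_zero]
    · rw [← Submodule.Quotient.mk_eq_zero S₀]
      show S₀.mkQ (r - τ (S₀.mkQ r)) = 0
      rw [map_sub, hτ', sub_self]
  obtain ⟨π₁, h11, h12⟩ : ∃ π : R →ₗ[K] R, (∀ r ∈ S₁, π r = 0) ∧ ∀ r, r - π r ∈ S₁ := by
    obtain ⟨τ, hτ⟩ := LinearMap.exists_rightInverse_of_surjective S₁.mkQ
      (LinearMap.range_eq_top.2 S₁.mkQ_surjective)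
    have hτ' : ∀ z, S₁.mkQ (τ z) = z := fun z => LinearMap.congr_fun hτ z
    refine ⟨τ.comp S₁.mkQ, fun r hr => ?_, fun r => ?_⟩
    · show τ (S₁.mkQ r) = 0
      have hr0 : S₁.mkQ r = 0 := (Submodule.Quotient.mk_eq_zero S₁).2 hr
      rw [hr0, map_zero]
    · rw [← Submodule.Quotient.mk_eq_zero S₁]
      show S₁.mkQ (r - τ (S₁.mkQ r)) = 0
      rw [map_sub, hτ', sub_self]
  -- first step: `S₀ ⊓ P₁`
  have hfin1 : (S₀ ⊓ P₁).FG := by
    apply Submodule.fg_of_fg_map_of_fg_inf_ker π₁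
    · have h := finite_map_of_le_sup π₁ S₁ P₁ F₁ h11 hP₁
      have hle : (S₀ ⊓ P₁).map π₁ ≤ P₁.map π₁ := Submodule.map_mono inf_le_right
      have : Module.Finite K ↥((S₀ ⊓ P₁).map π₁) :=
        Module.Finite.of_injective (Submodule.inclusion hle) (Submodule.inclusion_injective hle)
      exact Module.Finite.iff_fg.1 this
    · have hle : S₀ ⊓ P₁ ⊓ LinearMap.ker π₁ ≤ G := by
        rintro r ⟨⟨hr0, -⟩, hr2⟩
        refine hG ⟨hr0, ?_⟩
        have := h12 r
        rw [LinearMap.mem_ker.1 hr2, sub_zero] at this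
        exact this
      have : Module.Finite K ↥(S₀ ⊓ P₁ ⊓ LinearMap.ker π₁) :=
        Module.Finite.of_injective (Submodule.inclusion hle) (Submodule.inclusion_injective hle)
      exact Module.Finite.iff_fg.1 this
  have hfin2 : (P₀ ⊓ P₁).FG := by
    apply Submodule.fg_of_fg_map_of_fg_inf_ker π₀
    · have h := finite_map_of_le_sup π₀ S₀ P₀ F₀ h01 hP₀
      have hle : (P₀ ⊓ P₁).map π₀ ≤ P₀.map π₀ := Submodule.map_mono inf_le_left
      have : Module.Finite K ↥((P₀ ⊓ P₁).map π₀) :=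
        Module.Finite.of_injective (Submodule.inclusion hle) (Submodule.inclusion_injective hle)
      exact Module.Finite.iff_fg.1 this
    · have hle : P₀ ⊓ P₁ ⊓ LinearMap.ker π₀ ≤ S₀ ⊓ P₁ := by
        rintro r ⟨⟨-, hr1⟩, hr2⟩
        refine ⟨?_, hr1⟩
        have := h02 r
        rw [LinearMap.mem_ker.1 hr2, sub_zero] at this
        exact this
      have : Module.Finite K ↥(S₀ ⊓ P₁) := Module.Finite.iff_fg.2 hfin1
      have : Module.Finite K ↥(P₀ ⊓ P₁ ⊓ LinearMap.ker π₀) :=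
        Module.Finite.of_injective (Submodule.inclusion hle) (Submodule.inclusion_injective hle)
      exact Module.Finite.iff_fg.1 this
  exact Module.Finite.iff_fg.2 hfin2

end FiniteChain

end Fermat.Agent.JAC.CBC
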