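/-
PROJECT JAC — J3: cohomology and base change for relative curves (helper8).

`CBC_helper8_TwoAffine`: the input structure `TwoAffine K C` (a cover of the curve `C` by the
regularity loci `U₀`, `U₁` of a function `x` and of its inverse `y`, both finite over the affine
line), its curve algebra `TwoAffine.curveAlg : CurveAlg K Γ(C, U₀ ⊓ U₁)` and its two-chart pole
system `TwoAffine.poleSystem : CP.PoleSystem K C`.
-/
import Mathlib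
import Fermat.Agent.AV.CP_helper8_PoleSys
import Fermat.Agent.AV.CP_helper8_Cartier
import Fermat.Agent.JAC.CBC_helper8_CurveAlg
import Fermat.Agent.JAC.CBC_helper8_Laurent

set_option autoImplicit false

open AlgebraicGeometry CategoryTheory Opposite TopologicalSpace Polynomial

universe u

namespace Fermat.Agent.JAC.CBC

open Fermat.Agent.AV Fermat.Agent.AV.CP

noncomputable section

/-- A two-affine cover of a curve by the regularity loci of a function `x` and its inverse. -/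
structure TwoAffine (K : Type u) [Field K] (C : Scheme.{u}) [KScheme K C] where
  /-- the regularity locus of `x` -/
  U₀ : C.Opens
  /-- the regularity locus of `x⁻¹` -/
  U₁ : C.Opens
  affine₀ : IsAffineOpen U₀
  affine₁ : IsAffineOpen U₁
  cover : U₀ ⊔ U₁ = ⊤
  /-- the function -/
  x : Γ(C, U₀)
  /-- its inverse -/
  y : Γ(C, U₁)
  basicOpen_x : C.basicOpen x = U₀ ⊓ U₁
  basicOpen_y : C.basicOpen y = U₀ ⊓ U₁
  mul_eq_one : res (U₀ ⊓ U₁) inf_le_left x * res (U₀ ⊓ U₁) inf_le_right y = 1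
  fin₀ : ∃ (n : ℕ) (ρ : Fin n → Γ(C, U₀)), ∀ r, ∃ p : Fin n → K[X], r = ∑ i, aeval x (p i) * ρ i
  fin₁ : ∃ (n : ℕ) (ρ : Fin n → Γ(C, U₁)), ∀ r, ∃ p : Fin n → K[X], r = ∑ i, aeval y (p i) * ρ i
  nonempty : Nonempty ↥(U₀ ⊓ U₁)

namespace TwoAffine

variable {K : Type u} [Field K] {C : Scheme.{u}} [KScheme K C] (TA : TwoAffine K C)

/-- the intersection of the two charts -/
abbrev U₀₁ : C.Opens := TA.U₀ ⊓ TA.U₁

lemma affine₀₁ : IsAffineOpen TA.U₀₁ := by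
  have h := TA.affine₀.basicOpen TA.x
  rwa [TA.basicOpen_x] at h

/-- the restriction `Γ(U₀) → Γ(U₀ ∩ U₁)` -/
abbrev r₀ : Γ(C, TA.U₀) →ₐ[K] Γ(C, TA.U₀₁) := resAlgHom (K := K) TA.U₀₁ inf_le_left

/-- the restriction `Γ(U₁) → Γ(U₀ ∩ U₁)` -/
abbrev r₁ : Γ(C, TA.U₁) →ₐ[K] Γ(C, TA.U₀₁) := resAlgHom (K := K) TA.U₀₁ inf_le_right

/-- `x` on the intersection -/
def x' : Γ(C, TA.U₀₁) := TA.r₀ TA.x

/-- `y` on the intersection -/
def y' : Γ(C, TA.U₀₁) := TA.r₁ TA.y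

lemma x'_mul_y' : TA.x' * TA.y' = 1 := TA.mul_eq_one

lemma y'_mul_x' : TA.y' * TA.x' = 1 := by rw [mul_comm]; exact TA.mul_eq_one

/-- every function on the intersection becomes regular on `U₀` after multiplication by a power of
`x`. -/
lemma exists_pow_mul_mem₀ (r : Γ(C, TA.U₀₁)) : ∃ m : ℕ, TA.x' ^ m * r ∈ TA.r₀.range := by
  have hloc := TA.affine₀.isLocalization_of_eq_basicOpen TA.x (homOfLE inf_le_left)
    TA.basicOpen_x.symm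
  let _ := (C.presheaf.map (homOfLE (inf_le_left : TA.U₀₁ ≤ TA.U₀)).op).hom.toAlgebra
  obtain ⟨⟨a, ⟨_, m, rfl⟩⟩, h⟩ := IsLocalization.surj (Submonoid.powers TA.x) r
  refine ⟨m, a, ?_⟩
  have h' : r * (res TA.U₀₁ inf_le_left (TA.x ^ m)) = res TA.U₀₁ inf_le_left a := h
  show res TA.U₀₁ inf_le_left a = _
  rw [← h', map_pow, mul_comm]
  rfl

lemma exists_pow_mul_mem₁ (r : Γ(C, TA.U₀₁)) : ∃ m : ℕ, TA.y' ^ m * r ∈ TA.r₁.range := by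
  have hloc := TA.affine₁.isLocalization_of_eq_basicOpen TA.y (homOfLE inf_le_right)
    TA.basicOpen_y.symm
  let _ := (C.presheaf.map (homOfLE (inf_le_right : TA.U₀₁ ≤ TA.U₁)).op).hom.toAlgebra
  obtain ⟨⟨a, ⟨_, m, rfl⟩⟩, h⟩ := IsLocalization.surj (Submonoid.powers TA.y) r
  refine ⟨m, a, ?_⟩
  have h' : r * (res TA.U₀₁ inf_le_right (TA.y ^ m)) = res TA.U₀₁ inf_le_right a := h
  show res TA.U₀₁ inf_le_right a = _
  rw [← h', map_pow, mul_comm]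
  rfl

/-! ### The curve algebra -/

/-- functions with a pole of order at most `a` along `D₁` -/
def Ψ₁ (a : ℕ) : Submodule K Γ(C, TA.U₀₁) :=
  TA.r₁.range.toSubmodule.comap (LinearMap.mulLeft K (TA.y' ^ a))

/-- functions with a pole of order at most `b` along `D₀` -/
def Ψ₀ (b : ℕ) : Submodule K Γ(C, TA.U₀₁) :=
  TA.r₀.range.toSubmodule.comap (LinearMap.mulLeft K (TA.x' ^ b))

lemma mem_Ψ₁ {a : ℕ} {r : Γ(C, TA.U₀₁)} : r ∈ TA.Ψ₁ a ↔ TA.y' ^ a * r ∈ TA.r₁.range := Iff.rfl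

lemma mem_Ψ₀ {b : ℕ} {r : Γ(C, TA.U₀₁)} : r ∈ TA.Ψ₀ b ↔ TA.x' ^ b * r ∈ TA.r₀.range := Iff.rfl

lemma x'_mem : TA.x' ∈ TA.r₀.range := ⟨TA.x, rfl⟩

lemma y'_mem : TA.y' ∈ TA.r₁.range := ⟨TA.y, rfl⟩

lemma Ψ₁_mono : Monotone TA.Ψ₁ := by
  intro a a' h r hr
  obtain ⟨d, rfl⟩ := Nat.exists_eq_add_of_le h
  rw [mem_Ψ₁] at hr ⊢
  rw [pow_add, mul_comm (TA.y' ^ a), mul_assoc]
  exact TA.r₁.range.mul_mem (TA.r₁.range.pow_mem TA.y'_mem d) hr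

lemma Ψ₁_mul_mem {a : ℕ} {r s : Γ(C, TA.U₀₁)} (hr : r ∈ TA.r₁.range) (hs : s ∈ TA.Ψ₁ a) :
    r * s ∈ TA.Ψ₁ a := by
  rw [mem_Ψ₁] at hs ⊢
  rw [mul_left_comm]
  exact TA.r₁.range.mul_mem hr hs

/-- generators of `Γ(U₀)` over `K[x]`, restricted to the intersection -/
lemma exists_generators₀ : ∃ (n : ℕ) (ρ : Fin n → Γ(C, TA.U₀₁)), (∀ i, ρ i ∈ TA.r₀.range) ∧
    ∀ r ∈ TA.r₀.range, ∃ p : Fin n → K[X], r = ∑ i, aeval TA.x' (p i) * ρ i := by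
  obtain ⟨n, ρ, hρ⟩ := TA.fin₀
  refine ⟨n, fun i => TA.r₀ (ρ i), fun i => ⟨ρ i, rfl⟩, ?_⟩
  rintro _ ⟨a, rfl⟩
  obtain ⟨p, hp⟩ := hρ a
  refine ⟨p, ?_⟩
  show TA.r₀ a = _
  rw [hp, map_sum]
  refine Finset.sum_congr rfl fun i _ => ?_
  rw [map_mul, x', Polynomial.aeval_algHom_apply]

lemma exists_generators₁ : ∃ (n : ℕ) (ρ : Fin n → Γ(C, TA.U₀₁)), (∀ i, ρ i ∈ TA.r₁.range) ∧
    ∀ r ∈ TA.r₁.range, ∃ p : Fin n → K[X], r = ∑ i, aeval TA.y' (p i) * ρ i := by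
  obtain ⟨n, ρ, hρ⟩ := TA.fin₁
  refine ⟨n, fun i => TA.r₁ (ρ i), fun i => ⟨ρ i, rfl⟩, ?_⟩
  rintro _ ⟨a, rfl⟩
  obtain ⟨p, hp⟩ := hρ a
  refine ⟨p, ?_⟩
  show TA.r₁ a = _
  rw [hp, map_sum]
  refine Finset.sum_congr rfl fun i _ => ?_
  rw [map_mul, y', Polynomial.aeval_algHom_apply]

lemma exists_split : ∃ e : ℕ, ∀ r : Γ(C, TA.U₀₁), ∃ r₀ r₁, r₀ ∈ TA.r₀.range ∧
    TA.y' ^ e * r₁ ∈ TA.r₁.range ∧ r = r₀ + r₁ := by
  obtain ⟨n, ρ, hρ, hgen⟩ := TA.exists_generators₀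
  choose mf hmf using fun i => TA.exists_pow_mul_mem₁ (ρ i)
  refine ⟨Finset.univ.sup mf, fun r => ?_⟩
  obtain ⟨m, hm⟩ := TA.exists_pow_mul_mem₀ r
  obtain ⟨r₀, h₀, r₁, h₁, hr⟩ := mem_sup_of_generators TA.x'_mul_y' TA.r₀.range TA.x'_mem ρ hgen hρ
    TA.r₁.range TA.y'_mem (TA.Ψ₁ (Finset.univ.sup mf)) (fun a ha b hb => TA.Ψ₁_mul_mem ha hb)
    (fun i => TA.Ψ₁_mono (Finset.le_sup (f := mf) (Finset.mem_univ i)) (hmf i)) hm
  exact ⟨r₀, r₁, h₀, h₁, hr⟩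

lemma exists_polar₁ (a : ℕ) : ∃ W : Submodule K Γ(C, TA.U₀₁), Module.Finite K W ∧
    ∀ r, TA.y' ^ a * r ∈ TA.r₁.range → ∃ r₁ ∈ TA.r₁.range, ∃ w ∈ W, r = r₁ + w := by
  obtain ⟨n, ρ, hρ, hgen⟩ := TA.exists_generators₁
  exact ⟨poleSpan K TA.x' a ρ, inferInstance, fun r hr =>
    mem_sup_poleSpan TA.y'_mul_x' TA.r₁.range TA.y'_mem ρ hgen hρ hr⟩

lemma exists_polar₀ (b : ℕ) : ∃ W : Submodule K Γ(C, TA.U₀₁), Module.Finite K W ∧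
    ∀ r, TA.x' ^ b * r ∈ TA.r₀.range → ∃ r₁ ∈ TA.r₀.range, ∃ w ∈ W, r = r₁ + w := by
  obtain ⟨n, ρ, hρ, hgen⟩ := TA.exists_generators₀
  exact ⟨poleSpan K TA.y' b ρ, inferInstance, fun r hr =>
    mem_sup_poleSpan TA.x'_mul_y' TA.r₀.range TA.x'_mem ρ hgen hρ hr⟩

/-! ### Global functions -/

/-- the two charts, indexed by `ULift Bool` -/
def U (i : ULift.{u} Bool) : C.Opens := cond i.down TA.U₁ TA.U₀

lemma iSup_U : ⨆ i, TA.U i = ⊤ := by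
  apply le_antisymm le_top
  rw [← TA.cover]
  exact sup_le (le_iSup TA.U ⟨false⟩) (le_iSup TA.U ⟨true⟩)

lemma U₀₁_le (i : ULift.{u} Bool) : TA.U₀₁ ≤ TA.U i := by
  rcases i with ⟨_ | _⟩
  · exact inf_le_left
  · exact inf_le_right

/-- functions regular on both charts are global -/
lemma exists_global {a₀ : Γ(C, TA.U₀)} {a₁ : Γ(C, TA.U₁)} (h : TA.r₀ a₀ = TA.r₁ a₁) :
    ∃ g : Γ(C, ⊤), res TA.U₀₁ le_top g = TA.r₀ a₀ := by
  let sf : ∀ i : ULift.{u} Bool, Γ(C, TA.U i) := fun i =>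
    match i with
    | ⟨false⟩ => a₀
    | ⟨true⟩ => a₁
  have h' : res TA.U₀₁ inf_le_left a₀ = res TA.U₀₁ inf_le_right a₁ := h
  obtain ⟨g, hg, -⟩ := exists_glue (V := ⊤) TA.U (fun _ => le_top) (by rw [TA.iSup_U]) sf (by
    rintro ⟨_ | _⟩ ⟨_ | _⟩
    · rfl
    · exact h'
    · show res (TA.U₁ ⊓ TA.U₀) inf_le_left a₁ = res (TA.U₁ ⊓ TA.U₀) inf_le_right a₀
      have e : TA.U₁ ⊓ TA.U₀ ≤ TA.U₀₁ := le_inf inf_le_right inf_le_left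
      have h1 := congrArg (res (TA.U₁ ⊓ TA.U₀) e) h'
      rw [res_res, res_res] at h1
      exact h1.symm
    · rfl)
  refine ⟨g, ?_⟩
  have h0 := hg ⟨false⟩
  have h0' : res TA.U₀ le_top g = a₀ := h0
  show _ = res TA.U₀₁ inf_le_left a₀
  rw [← h0', res_res]

/-- the global functions, inside `Γ(U₀ ∩ U₁)` -/
def globalSub : Submodule K Γ(C, TA.U₀₁) :=
  LinearMap.range (resAlgHom (K := K) TA.U₀₁ (le_top : TA.U₀₁ ≤ ⊤)).toLinearMap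

instance finite_globalSub [Module.Finite K Γ(C, ⊤)] : Module.Finite K ↥TA.globalSub :=
  Module.Finite.range _

lemma inf_le_globalSub : TA.r₀.range.toSubmodule ⊓ TA.r₁.range.toSubmodule ≤ TA.globalSub := by
  rintro r ⟨⟨a₀, rfl⟩, ⟨a₁, h₁⟩⟩
  obtain ⟨g, hg⟩ := TA.exists_global (a₀ := a₀) (a₁ := a₁) h₁.symm
  exact ⟨g, hg⟩

/-- **The curve algebra of a two-affine cover.** -/
def curveAlg [Module.Finite K Γ(C, ⊤)] : CurveAlg K Γ(C, TA.U₀₁) where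
  R₀ := TA.r₀.range
  R₁ := TA.r₁.range
  x := TA.x'
  y := TA.y'
  x_mem := TA.x'_mem
  y_mem := TA.y'_mem
  mul_eq_one := TA.x'_mul_y'
  exh₀ := TA.exists_pow_mul_mem₀
  exh₁ := TA.exists_pow_mul_mem₁
  split := TA.exists_split
  fin a b := by
    obtain ⟨F₀, hF₀, h₀⟩ := TA.exists_polar₀ b
    obtain ⟨F₁, hF₁, h₁⟩ := TA.exists_polar₁ a
    refine ⟨TA.Ψ₀ b ⊓ TA.Ψ₁ a, ?_, fun r hr₀ hr₁ => ⟨hr₀, hr₁⟩⟩
    exact finite_inf_of_chain TA.r₀.range.toSubmodule TA.r₁.range.toSubmodule (TA.Ψ₀ b) (TA.Ψ₁ a)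
      F₀ F₁ TA.globalSub TA.inf_le_globalSub h₀ h₁
  fin_quot := TA.exists_polar₁

/-! ### The pole system -/

lemma Ψ₀_mono : Monotone TA.Ψ₀ := by
  intro a a' h r hr
  obtain ⟨d, rfl⟩ := Nat.exists_eq_add_of_le h
  rw [mem_Ψ₀] at hr ⊢
  rw [pow_add, mul_comm (TA.x' ^ a), mul_assoc]
  exact TA.r₀.range.mul_mem (TA.r₀.range.pow_mem TA.x'_mem d) hr

lemma Ψ₀_mul_mem {b : ℕ} {r s : Γ(C, TA.U₀₁)} (hr : r ∈ TA.r₀.range) (hs : s ∈ TA.Ψ₀ b) :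
    r * s ∈ TA.Ψ₀ b := by
  rw [mem_Ψ₀] at hs ⊢
  rw [mul_left_comm]
  exact TA.r₀.range.mul_mem hr hs

lemma range_le_Ψ₀ (b : ℕ) : TA.r₀.range.toSubmodule ≤ TA.Ψ₀ b := by
  intro r hr
  rw [mem_Ψ₀]
  exact TA.r₀.range.mul_mem (TA.r₀.range.pow_mem TA.x'_mem b) hr

lemma range_le_Ψ₁ (a : ℕ) : TA.r₁.range.toSubmodule ≤ TA.Ψ₁ a := by
  intro r hr
  rw [mem_Ψ₁]
  exact TA.r₁.range.mul_mem (TA.r₁.range.pow_mem TA.y'_mem a) hr

/-- the pole filtration of the pole system -/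
def Q (m : ℕ) (i j : ULift.{u} Bool) : Submodule K Γ(C, TA.U₀₁) :=
  cond i.down (cond j.down TA.r₁.range.toSubmodule (TA.Ψ₀ m))
    (cond j.down (TA.Ψ₁ m) TA.r₀.range.toSubmodule)

/-- **The pole system of a two-affine cover.** -/
@[reducible] def poleSystem [IsIntegral C] [QuasiSeparatedSpace C] [Module.Finite K Γ(C, ⊤)] :
    PoleSystem K C where
  ι := ULift.{u} Bool
  U := TA.U
  U₀ := TA.U₀₁
  affine i := by
    rcases i with ⟨_ | _⟩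
    · exact TA.affine₀
    · exact TA.affine₁
  affine₀ := TA.affine₀₁
  affine₂ i j := by
    rcases i with ⟨_ | _⟩ <;> rcases j with ⟨_ | _⟩
    · show IsAffineOpen (TA.U₀ ⊓ TA.U₀)
      rw [inf_idem]; exact TA.affine₀
    · exact TA.affine₀₁
    · show IsAffineOpen (TA.U₁ ⊓ TA.U₀)
      rw [inf_comm]; exact TA.affine₀₁
    · show IsAffineOpen (TA.U₁ ⊓ TA.U₁)
      rw [inf_idem]; exact TA.affine₁
  le := TA.U₀₁_le
  cover := TA.iSup_U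
  dense₀ := by
    exact @isSchemeTheoreticallyDominant_ι_of_isIntegral _ _ TA.U₀₁ TA.nonempty
  qc₀ := quasiCompact_ι_of_isAffineOpen TA.affine₀₁
  Q := TA.Q
  Q_mono := by
    intro m m' h i j
    rcases i with ⟨_ | _⟩ <;> rcases j with ⟨_ | _⟩
    · exact le_rfl
    · exact TA.Ψ₁_mono h
    · exact TA.Ψ₀_mono h
    · exact le_rfl
  Q_mul := by
    intro m i j r q hq
    rcases i with ⟨_ | _⟩ <;> rcases j with ⟨_ | _⟩
    · exact TA.r₀.range.mul_mem ⟨r, rfl⟩ hq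
    · exact TA.Ψ₁_mul_mem ⟨r, rfl⟩ hq
    · exact TA.Ψ₀_mul_mem ⟨r, rfl⟩ hq
    · exact TA.r₁.range.mul_mem ⟨r, rfl⟩ hq
  Q_diag := by
    intro m j q hq
    rcases j with ⟨_ | _⟩
    · obtain ⟨r, hr⟩ := hq
      exact ⟨r, hr⟩
    · obtain ⟨r, hr⟩ := hq
      exact ⟨r, hr⟩
  Q_exhaust := by
    intro i j a
    rcases i with ⟨_ | _⟩ <;> rcases j with ⟨_ | _⟩
    · refine ⟨0, res TA.U₀ (le_inf le_rfl le_rfl : TA.U₀ ≤ TA.U₀ ⊓ TA.U₀) a, ?_⟩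
      exact res_res (W := TA.U₀ ⊓ TA.U₀) (V := TA.U₀) (U := TA.U₀₁) _ inf_le_left a
    · exact TA.exists_pow_mul_mem₁ _
    · exact TA.exists_pow_mul_mem₀ _
    · refine ⟨0, res TA.U₁ (le_inf le_rfl le_rfl : TA.U₁ ≤ TA.U₁ ⊓ TA.U₁) a, ?_⟩
      exact res_res (W := TA.U₁ ⊓ TA.U₁) (V := TA.U₁) (U := TA.U₀₁) _ inf_le_right a
  Q_finite := by
    intro m i
    have hfin : Module.Finite K ↥(TA.Ψ₁ m ⊓ TA.Ψ₀ m) := TA.curveAlg.finite_W m m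
    have hle : ⨅ j, TA.Q m i j ≤ TA.Ψ₁ m ⊓ TA.Ψ₀ m := by
      rcases i with ⟨_ | _⟩
      · exact le_inf (iInf_le (TA.Q m ⟨false⟩) ⟨true⟩)
          ((iInf_le (TA.Q m ⟨false⟩) ⟨false⟩).trans (TA.range_le_Ψ₀ m))
      · exact le_inf ((iInf_le (TA.Q m ⟨true⟩) ⟨true⟩).trans (TA.range_le_Ψ₁ m))
          (iInf_le (TA.Q m ⟨true⟩) ⟨false⟩)
    exact Module.Finite.of_injective (Submodule.inclusion hle) (Submodule.inclusion_injective hle)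

end TwoAffine

end

end Fermat.Agent.JAC.CBC
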