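/-
PROJECT JAC — J3: cohomology and base change for relative curves (helper8).

`CBC_helper8_Bridge`: a family of line bundles over a two-affine curve (a `CP.FamData` for the pole
system of `TwoAffine`) gives a coordinate datum `TwoAffine.coordDatum`; the coordinate map
`TwoAffine.evZ` identifies the sections over `p₁⁻¹(U₀ ∩ U₁)` with `Z`, the sections extending to
`p₁⁻¹ U₀` with `Zr` and those extending to `p₁⁻¹ U₁` with `Zp 0`; the coordinate datum of a
base-changed family is (definitionally) the base change of the coordinate datum.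
-/
import Mathlib
import Fermat.Agent.JAC.CBC_helper8_TwoAffine
import Fermat.Agent.JAC.CBC_helper8_Eval
import Fermat.Agent.JAC.CBC_helper8_Core

set_option autoImplicit false
set_option linter.unusedSectionVars false

open AlgebraicGeometry CategoryTheory Opposite TopologicalSpace TensorProduct

universe u

namespace Fermat.Agent.JAC.CBC

open Fermat.Agent.AV Fermat.Agent.AV.LB Fermat.Agent.AV.CP

noncomputable section

namespace TwoAffine

variable {K : Type u} [Field K] {C : Scheme.{u}} [KScheme K C] (TA : TwoAffine K C)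
variable [IsIntegral C] [QuasiSeparatedSpace C] [Module.Finite K Γ(C, ⊤)]

/-- the first chart -/
abbrev i0 : TA.poleSystem.ι := ⟨false⟩

/-- the second chart -/
abbrev i1 : TA.poleSystem.ι := ⟨true⟩

variable (F : FamData TA.poleSystem)
variable (c : ∀ i, Fin (F.nn i) → ∀ j, Fin (F.nn j) → Γ(F.T, ⊤) ⊗[K] Γ(C, TA.poleSystem.U₀))
variable (hc : ∀ i k j l, c i k j l = F.cT i k j l)

/-- **The coordinate datum of a family** (with the transition coefficients given up to
propositional equality, so that base change is definitional). -/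
def coordDatumOf : CoordDatum TA.curveAlg Γ(F.T, ⊤) where
  n₀ := F.nn TA.i0
  n₁ := F.nn TA.i1
  c00 := fun k l => c TA.i0 k TA.i0 l
  c01 := fun k l => c TA.i0 k TA.i1 l
  c10 := fun k l => c TA.i1 k TA.i0 l
  c11 := fun k l => c TA.i1 k TA.i1 l
  h010 := by
    ext k l'
    simp only [hc]
    exact F.cT_cocycle TA.i0 k TA.i1 TA.i0 l'
  h101 := by
    ext k l'
    simp only [hc]
    exact F.cT_cocycle TA.i1 k TA.i0 TA.i1 l'
  h001 := by
    ext k l'
    simp only [hc]
    exact F.cT_cocycle TA.i0 k TA.i0 TA.i1 l'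
  h100 := by
    ext k l'
    simp only [hc]
    exact F.cT_cocycle TA.i1 k TA.i0 TA.i0 l'
  reg₀ k l := by
    rw [hc]
    exact F.ev_mem_of_mem_MΓ TA.i0 k ⟨F.mm TA.i0 l, rfl⟩
  reg₁ k l := by
    rw [hc]
    exact F.ev_mem_of_mem_MΓ TA.i1 k ⟨F.mm TA.i1 l, rfl⟩

/-- the coordinate datum of a family -/
abbrev coordDatum : CoordDatum TA.curveAlg Γ(F.T, ⊤) :=
  TA.coordDatumOf F F.cT (fun _ _ _ _ => rfl)

/-- the coordinates of a section over `p₁⁻¹(U₀ ∩ U₁)` on both charts -/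
def evZ : F.L.SecOn F.W₀ →+ ((TA.coordDatumOf F c hc).F₀ × (TA.coordDatumOf F c hc).F₁) where
  toFun s := (fun k => F.ev TA.i0 k s, fun l => F.ev TA.i1 l s)
  map_zero' := by
    refine Prod.ext ?_ ?_ <;> funext k <;> exact map_zero _
  map_add' s s' := by
    refine Prod.ext ?_ ?_ <;> funext k <;> exact map_add _ s s'

lemma evZ_fst (s : F.L.SecOn F.W₀) (k : Fin (F.nn TA.i0)) :
    (TA.evZ F c hc s).1 k = F.ev TA.i0 k s := rfl

lemma evZ_snd (s : F.L.SecOn F.W₀) (l : Fin (F.nn TA.i1)) :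
    (TA.evZ F c hc s).2 l = F.ev TA.i1 l s := rfl

lemma evZ_mem_Z (s : F.L.SecOn F.W₀) : TA.evZ F c hc s ∈ (TA.coordDatumOf F c hc).Z := by
  refine ⟨?_, ?_⟩
  · funext (k : Fin (F.nn TA.i0))
    show ∑ l, c TA.i0 k TA.i1 l * F.ev TA.i1 l s = F.ev TA.i0 k s
    simp only [hc]
    exact F.ev_transition TA.i0 k TA.i1 s
  · funext (l : Fin (F.nn TA.i1))
    show ∑ k, c TA.i1 l TA.i0 k * F.ev TA.i0 k s = F.ev TA.i1 l s
    simp only [hc]
    exact F.ev_transition TA.i1 l TA.i0 s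

lemma evZ_injective : Function.Injective (TA.evZ F c hc) := by
  intro s s' h
  exact F.ev_injective TA.i0 fun l => congrFun (congrArg Prod.fst h) l

lemma evZ_ofCoords (u : (TA.coordDatumOf F c hc).F₁) :
    TA.evZ F c hc (F.ofCoords TA.i1 u) = (TA.coordDatumOf F c hc).zof1 u := by
  refine Prod.ext ?_ ?_
  · funext (k : Fin (F.nn TA.i0))
    show F.ev TA.i0 k (F.ofCoords TA.i1 u) = ∑ l, c TA.i0 k TA.i1 l * u l
    simp only [hc]
    exact F.ev_ofCoords TA.i0 k TA.i1 u
  · funext (l : Fin (F.nn TA.i1))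
    show F.ev TA.i1 l (F.ofCoords TA.i1 u) = ∑ l', c TA.i1 l TA.i1 l' * u l'
    simp only [hc]
    exact F.ev_ofCoords TA.i1 l TA.i1 u

lemma evZ_surjective {f : (TA.coordDatumOf F c hc).F₀ × (TA.coordDatumOf F c hc).F₁}
    (hf : f ∈ (TA.coordDatumOf F c hc).Z) : ∃ s, TA.evZ F c hc s = f :=
  ⟨F.ofCoords TA.i1 f.2, (TA.evZ_ofCoords F c hc f.2).trans
    ((TA.coordDatumOf F c hc).zof1_of_mem hf)⟩

lemma evZ_mem_Zr_iff (s : F.L.SecOn F.W₀) :
    TA.evZ F c hc s ∈ (TA.coordDatumOf F c hc).Zr ↔ s ∈ F.MΓ TA.i0 := by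
  constructor
  · intro h
    exact F.mem_MΓ_of_ev_mem TA.i0 fun l => h.2 l
  · intro h
    exact ⟨TA.evZ_mem_Z F c hc s, fun k => F.ev_mem_of_mem_MΓ TA.i0 k h⟩

lemma evZ_mem_Zp_iff (s : F.L.SecOn F.W₀) :
    TA.evZ F c hc s ∈ (TA.coordDatumOf F c hc).Zp 0 ↔ s ∈ F.MΓ TA.i1 := by
  rw [CoordDatum.mem_Zp_zero]
  constructor
  · intro h
    exact F.mem_MΓ_of_ev_mem TA.i1 fun l => h.2 l
  · intro h
    exact ⟨TA.evZ_mem_Z F c hc s, fun k => F.ev_mem_of_mem_MΓ TA.i1 k h⟩

lemma evZ_base_smul (b : Γ(F.T, ⊤)) (s : F.L.SecOn F.W₀) :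
    TA.evZ F c hc (res F.W₀ le_top (F.p₂.appTop.hom b) • s) = b • TA.evZ F c hc s := by
  refine Prod.ext ?_ ?_ <;> funext k <;> exact F.ev_base_smul _ k b s

/-! ### Base change -/

/-- the base-changed coefficients -/
def cE (E : TestData F) : ∀ i, Fin (F.nn i) → ∀ j, Fin (F.nn j) →
    Γ(E.T', ⊤) ⊗[K] Γ(C, TA.poleSystem.U₀) :=
  fun i k j l => baseMap Γ(C, TA.poleSystem.U₀) (F.φAlg E) (F.cT i k j l)

lemma cE_eq (E : TestData F) (i : TA.poleSystem.ι) (k : Fin (F.nn i)) (j : TA.poleSystem.ι)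
    (l : Fin (F.nn j)) : TA.cE F E i k j l = (F.pull E).cT i k j l :=
  (F.pull_cT E i k j l).symm

/-- **the coordinate datum of a base-changed family is the base change of the coordinate datum**,
definitionally. -/
lemma coordDatumOf_pull (E : TestData F) :
    TA.coordDatumOf (F.pull E) (TA.cE F E) (TA.cE_eq F E) = (TA.coordDatum F).map (F.φAlg E) :=
  rfl

end TwoAffine

end

end Fermat.Agent.JAC.CBC
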