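/-
PROJECT JAC — J3: cohomology and base change for relative curves (helper8).

`CBC_helper8_Cech`: the Čech `H¹` of a line bundle with respect to a cover by two opens, and its
vanishing.
-/
import Mathlib
import Fermat.Agent.AV.CP_helper8_SecMod

set_option autoImplicit false

open AlgebraicGeometry CategoryTheory Opposite TopologicalSpace

universe u

namespace Fermat.Agent.JAC.CBC

open Fermat.Agent.AV Fermat.Agent.AV.LB Fermat.Agent.AV.CP

noncomputable section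

variable {Y : Scheme.{u}} (L : LB Y) (W₀ W₁ : Y.Opens)

/-- the coboundaries: sections over `W₀ ∩ W₁` which are sums of sections extending to `W₀` and to
`W₁` -/
def cechB1 : AddSubgroup (L.SecOn (W₀ ⊓ W₁)) :=
  (restrictHom (M := L) (inf_le_left : W₀ ⊓ W₁ ≤ W₀)).range ⊔
    (restrictHom (M := L) (inf_le_right : W₀ ⊓ W₁ ≤ W₁)).range

/-- **Čech `H¹`** of a line bundle with respect to two opens. -/
def cechH1 : Type u := L.SecOn (W₀ ⊓ W₁) ⧸ cechB1 L W₀ W₁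

instance : AddCommGroup (cechH1 L W₀ W₁) :=
  inferInstanceAs (AddCommGroup (L.SecOn (W₀ ⊓ W₁) ⧸ cechB1 L W₀ W₁))

/-- the class of a section over `W₀ ∩ W₁` -/
def cechH1.mk : L.SecOn (W₀ ⊓ W₁) →+ cechH1 L W₀ W₁ := QuotientAddGroup.mk' (cechB1 L W₀ W₁)

lemma cechH1.mk_surjective : Function.Surjective (cechH1.mk L W₀ W₁) :=
  QuotientAddGroup.mk'_surjective _

lemma cechH1.mk_eq_zero_iff (s : L.SecOn (W₀ ⊓ W₁)) :
    cechH1.mk L W₀ W₁ s = 0 ↔ s ∈ cechB1 L W₀ W₁ :=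
  QuotientAddGroup.eq_zero_iff s

lemma mem_cechB1_iff (s : L.SecOn (W₀ ⊓ W₁)) :
    s ∈ cechB1 L W₀ W₁ ↔ ∃ (s₀ : L.SecOn W₀) (s₁ : L.SecOn W₁),
      s = s₀.restrict inf_le_left + s₁.restrict inf_le_right := by
  rw [cechB1, AddSubgroup.mem_sup]
  constructor
  · rintro ⟨_, ⟨s₀, rfl⟩, _, ⟨s₁, rfl⟩, h⟩
    exact ⟨s₀, s₁, h.symm⟩
  · rintro ⟨s₀, s₁, h⟩
    exact ⟨_, ⟨s₀, rfl⟩, _, ⟨s₁, rfl⟩, h.symm⟩

/-- coboundaries are stable under multiplication by global functions -/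
lemma smul_mem_cechB1 (c : Γ(Y, ⊤)) {s : L.SecOn (W₀ ⊓ W₁)} (hs : s ∈ cechB1 L W₀ W₁) :
    res (W₀ ⊓ W₁) le_top c • s ∈ cechB1 L W₀ W₁ := by
  rw [mem_cechB1_iff] at hs ⊢
  obtain ⟨s₀, s₁, rfl⟩ := hs
  refine ⟨res W₀ le_top c • s₀, res W₁ le_top c • s₁, ?_⟩
  rw [smul_add, restrict_smul', restrict_smul', res_res, res_res]

/-- **Vanishing of the Čech `H¹`**: every section over `W₀ ∩ W₁` is the sum of a section
extending to `W₀` and a section extending to `W₁`. -/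
def H1Vanishes : Prop :=
  ∀ s : L.SecOn (W₀ ⊓ W₁), ∃ (s₀ : L.SecOn W₀) (s₁ : L.SecOn W₁),
    s = s₀.restrict inf_le_left + s₁.restrict inf_le_right

lemma h1Vanishes_iff_subsingleton : H1Vanishes L W₀ W₁ ↔ Subsingleton (cechH1 L W₀ W₁) := by
  constructor
  · intro h
    refine ⟨fun a b => ?_⟩
    obtain ⟨s, rfl⟩ := cechH1.mk_surjective L W₀ W₁ a
    obtain ⟨t, rfl⟩ := cechH1.mk_surjective L W₀ W₁ b
    have hs := (cechH1.mk_eq_zero_iff L W₀ W₁ s).2 ((mem_cechB1_iff L W₀ W₁ s).2 (h s))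
    have ht := (cechH1.mk_eq_zero_iff L W₀ W₁ t).2 ((mem_cechB1_iff L W₀ W₁ t).2 (h t))
    rw [hs, ht]
  · intro h s
    have : cechH1.mk L W₀ W₁ s = 0 := Subsingleton.elim _ _
    exact (mem_cechB1_iff L W₀ W₁ s).1 ((cechH1.mk_eq_zero_iff L W₀ W₁ s).1 this)

end

end Fermat.Agent.JAC.CBC
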