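import Mathlib
import Fermat.Agent.JAC.CBC_helper8_Bridge
import Fermat.Agent.JAC.CBC_helper8_Cech

set_option autoImplicit false
set_option linter.unusedSectionVars false

open AlgebraicGeometry CategoryTheory Opposite TopologicalSpace TensorProduct

universe u

namespace Fermat.Agent.JAC.CBC

open Fermat.Agent.AV Fermat.Agent.AV.LB Fermat.Agent.AV.CP

noncomputable section

namespace TwoAffine

variable {K : Type u} [Field K] {C : Scheme.{u}} [KScheme K C] (TA : TwoAffine K C)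
variable [IsIntegral C] [QuasiSeparatedSpace C] [Module.Finite K Γ(C, ⊤)]
variable (F : FamData TA.poleSystem) (P : PerfCore (TA.coordDatum F)) (E : TestData F)

/-- the coordinate map of the base-changed family, with values in the base-changed datum -/
abbrev evE : (F.pull E).L.SecOn (F.pull E).W₀ →+
    (((TA.coordDatum F).map (F.φAlg E)).F₀ × ((TA.coordDatum F).map (F.φAlg E)).F₁) :=
  TA.evZ (F.pull E) (TA.cE F E) (TA.cE_eq F E)

lemma evE_mem_Z (σ : (F.pull E).L.SecOn (F.pull E).W₀) :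
    TA.evE F E σ ∈ ((TA.coordDatum F).map (F.φAlg E)).Z :=
  TA.evZ_mem_Z (F.pull E) (TA.cE F E) (TA.cE_eq F E) σ

lemma evE_mem_Zr_iff (σ : (F.pull E).L.SecOn (F.pull E).W₀) :
    TA.evE F E σ ∈ ((TA.coordDatum F).map (F.φAlg E)).Zr ↔ σ ∈ (F.pull E).MΓ TA.i0 :=
  TA.evZ_mem_Zr_iff (F.pull E) (TA.cE F E) (TA.cE_eq F E) σ

lemma evE_mem_Zp_iff (σ : (F.pull E).L.SecOn (F.pull E).W₀) :
    TA.evE F E σ ∈ ((TA.coordDatum F).map (F.φAlg E)).Zp 0 ↔ σ ∈ (F.pull E).MΓ TA.i1 :=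
  TA.evZ_mem_Zp_iff (F.pull E) (TA.cE F E) (TA.cE_eq F E) σ

lemma evE_injective : Function.Injective (TA.evE F E) :=
  TA.evZ_injective (F.pull E) (TA.cE F E) (TA.cE_eq F E)

lemma evE_surjective
    {f : ((TA.coordDatum F).map (F.φAlg E)).F₀ × ((TA.coordDatum F).map (F.φAlg E)).F₁}
    (hf : f ∈ ((TA.coordDatum F).map (F.φAlg E)).Z) : ∃ σ, TA.evE F E σ = f :=
  TA.evZ_surjective (F.pull E) (TA.cE F E) (TA.cE_eq F E) hf

/-- the restriction of a global section to the dense chart extends to both charts -/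
lemma secW₀_mem_MΓ (s : (F.L.pullback E.ψ).H0) (j : TA.poleSystem.ι) :
    F.secW₀ E s ∈ (F.pull E).MΓ j :=
  ⟨(SecOn.ofH0 s).restrict le_top, SecOn.restrict_restrict le_top ((F.pull E).W₀_le j) _⟩

/-- a section over the dense chart extending to both charts is the restriction of a global
section -/
lemma exists_secW₀_eq {σ : (F.pull E).L.SecOn (F.pull E).W₀}
    (h0 : σ ∈ (F.pull E).MΓ TA.i0) (h1 : σ ∈ (F.pull E).MΓ TA.i1) :
    ∃ s : (F.L.pullback E.ψ).H0, F.secW₀ E s = σ := by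
  obtain ⟨m, hm⟩ := (F.pull E).exists_poleBound
  have hmem : σ ∈ ((F.pull E).ambient m hm).H0 := by
    simp only [AmbientData.H0, Submodule.mem_iInf]
    rintro ⟨_ | _⟩
    · exact h0
    · exact h1
  refine ⟨((F.pull E).h0Iso m hm).symm ⟨σ, hmem⟩, ?_⟩
  have h := (F.pull E).h0Iso_coe m hm (((F.pull E).h0Iso m hm).symm ⟨σ, hmem⟩)
  rw [AddEquiv.apply_symm_apply] at h
  exact h.symm

/-- existence and uniqueness of the coordinates of a global section -/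
lemma existsUnique_coords (s : (F.L.pullback E.ψ).H0) :
    ∃! y : Fin ((TA.coordDatum F).n₁ * P.m₁) → Γ(E.T', ⊤),
      y ∈ P.toPerfData.H0 (F.φAlg E : Γ(F.T, ⊤) →+* Γ(E.T', ⊤)) ∧
        P.c₁ Γ(E.T', ⊤) y = (TA.evE F E (F.secW₀ E s)).2 := by
  obtain ⟨y, hy, hy'⟩ := P.exists_coords_of_mem_H0 (F.φAlg E)
    ((TA.evE_mem_Zr_iff F E _).2 (TA.secW₀_mem_MΓ F E s TA.i0))
    ((TA.evE_mem_Zp_iff F E _).2 (TA.secW₀_mem_MΓ F E s TA.i1))
  refine ⟨y, ⟨hy, hy'⟩, fun y' hy'' => ?_⟩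
  exact P.c₁_injective (hy''.2.trans hy'.symm)

/-- the coordinates of a global section of the base-changed bundle -/
def e0Fun (s : (F.L.pullback E.ψ).H0) :
    P.toPerfData.H0 (F.φAlg E : Γ(F.T, ⊤) →+* Γ(E.T', ⊤)) :=
  ⟨(TA.existsUnique_coords F P E s).exists.choose,
    (TA.existsUnique_coords F P E s).exists.choose_spec.1⟩

lemma c₁_e0Fun (s : (F.L.pullback E.ψ).H0) :
    P.c₁ Γ(E.T', ⊤) (TA.e0Fun F P E s).1 = (TA.evE F E (F.secW₀ E s)).2 :=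
  (TA.existsUnique_coords F P E s).exists.choose_spec.2

lemma e0Fun_unique (s : (F.L.pullback E.ψ).H0)
    (y : Fin ((TA.coordDatum F).n₁ * P.m₁) → Γ(E.T', ⊤))
    (hy : P.c₁ Γ(E.T', ⊤) y = (TA.evE F E (F.secW₀ E s)).2) : (TA.e0Fun F P E s).1 = y :=
  P.c₁_injective ((TA.c₁_e0Fun F P E s).trans hy.symm)

lemma secW₀_add (s s' : (F.L.pullback E.ψ).H0) :
    F.secW₀ E (s + s') = F.secW₀ E s + F.secW₀ E s' := by
  show restrictHom le_top (h0EquivTop _ (s + s')) =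
    restrictHom le_top (h0EquivTop _ s) + restrictHom le_top (h0EquivTop _ s')
  rw [map_add, map_add]

lemma secW₀_smul (c : Γ(E.Y', ⊤)) (s : (F.L.pullback E.ψ).H0) :
    F.secW₀ E (c • s) = res (F.pull E).W₀ le_top c • F.secW₀ E s := by
  show (SecOn.ofH0 (c • s)).restrict le_top = _
  rw [ofH0_smul]
  exact restrict_smul' le_top _ _

lemma secW₀_injective : Function.Injective (F.secW₀ E) := by
  intro s s' h
  have h2 := (F.pull E).restrict_W₀_injective (W := ⊤) le_top h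
  exact (h0EquivTop (F.L.pullback E.ψ)).injective h2

lemma e0Fun_add (s s' : (F.L.pullback E.ψ).H0) :
    TA.e0Fun F P E (s + s') = TA.e0Fun F P E s + TA.e0Fun F P E s' := by
  apply Subtype.ext
  apply TA.e0Fun_unique
  show P.c₁ Γ(E.T', ⊤) ((TA.e0Fun F P E s).1 + (TA.e0Fun F P E s').1) = _
  rw [map_add, TA.c₁_e0Fun, TA.c₁_e0Fun, TA.secW₀_add, map_add]
  rfl

lemma e0Fun_bijective : Function.Bijective (TA.e0Fun F P E) := by
  constructor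
  · intro s s' h
    apply TA.secW₀_injective F E
    apply TA.evE_injective F E
    have h1 := TA.evE_mem_Z F E (F.secW₀ E s)
    have h2 := TA.evE_mem_Z F E (F.secW₀ E s')
    rw [← ((TA.coordDatum F).map (F.φAlg E)).zof1_of_mem h1,
      ← ((TA.coordDatum F).map (F.φAlg E)).zof1_of_mem h2, ← TA.c₁_e0Fun F P E s,
      ← TA.c₁_e0Fun F P E s', h]
  · rintro ⟨y, hy⟩
    obtain ⟨k, hk0, hk1, hk2⟩ := P.exists_mem_H0_of_coords (F.φAlg E) hy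
    obtain ⟨σ, hσ⟩ := TA.evE_surjective F E hk0.1
    obtain ⟨s, hs⟩ := TA.exists_secW₀_eq F E
      ((TA.evE_mem_Zr_iff F E σ).1 (hσ ▸ hk0)) ((TA.evE_mem_Zp_iff F E σ).1 (hσ ▸ hk1))
    refine ⟨s, Subtype.ext ?_⟩
    apply TA.e0Fun_unique
    rw [hs, hσ, hk2]

/-- **`H⁰` of every base change is `H0` of the base-changed complex.** -/
def e0 : (F.L.pullback E.ψ).H0 ≃+ P.toPerfData.H0 (F.φAlg E : Γ(F.T, ⊤) →+* Γ(E.T', ⊤)) :=
  { Equiv.ofBijective (TA.e0Fun F P E) (TA.e0Fun_bijective F P E) with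
    map_add' := TA.e0Fun_add F P E }

lemma e0_apply (s : (F.L.pullback E.ψ).H0) : TA.e0 F P E s = TA.e0Fun F P E s := rfl

/-- semilinearity -/
lemma e0_smul (b : Γ(E.T', ⊤)) (s : (F.L.pullback E.ψ).H0) :
    (TA.e0 F P E (E.p₂'.appTop.hom b • s)).1 = b • (TA.e0 F P E s).1 := by
  rw [e0_apply, e0_apply]
  apply TA.e0Fun_unique
  rw [map_smul, TA.c₁_e0Fun, TA.secW₀_smul]
  have h := TA.evZ_base_smul (F.pull E) (TA.cE F E) (TA.cE_eq F E) b (F.secW₀ E s)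
  exact (congrArg Prod.snd h).symm

/-- compatibility with a further base change -/
lemma e0_comp (E' : TestData (F.pull E)) (s : (F.L.pullback E.ψ).H0)
    (a : Fin ((TA.coordDatum F).n₁ * P.m₁)) :
    (TA.e0 F P (E.comp E') ((F.L.pullback E.ψ).pullbackSection E'.ψ s)).1 a =
      E'.φ.appTop.hom ((TA.e0 F P E s).1 a) := by
  have key : (TA.e0 F P (E.comp E') ((F.L.pullback E.ψ).pullbackSection E'.ψ s)).1 =
      fun a => E'.φ.appTop.hom ((TA.e0 F P E s).1 a) := by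
    rw [e0_apply]
    apply TA.e0Fun_unique
    funext (l : Fin (F.nn TA.i1))
    have h1 := (F.pull E).secW₀_pullbackSection E' s
    have h2 := (F.pull E).ev_pull E' TA.i1 l (F.secW₀ E s)
    have h3 := P.baseMap_c₁ ((F.pull E).φAlg E') (TA.e0 F P E s).1 l
    have h4 : P.c₁ Γ(E.T', ⊤) (TA.e0 F P E s).1 l = (F.pull E).ev TA.i1 l (F.secW₀ E s) :=
      congrFun (TA.c₁_e0Fun F P E s) l
    rw [h4] at h3
    have h5 := h2.trans h3
    have h6 : ((F.pull E).pull E').ev TA.i1 l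
        ((SecOn.ofH0 ((F.pull E).L.pullbackSection E'.ψ s)).restrict le_top) =
        P.c₁ Γ(E'.T', ⊤) (fun i => ((F.pull E).φAlg E') ((TA.e0 F P E s).1 i)) l := by
      rw [h1]
      exact h5
    exact h6.symm
  exact congrFun key a

/-- the first chart of the base-changed family -/
abbrev WE₀ : E.Y'.Opens := (E.ψ ≫ F.p₁) ⁻¹ᵁ TA.U₀

/-- the second chart of the base-changed family -/
abbrev WE₁ : E.Y'.Opens := (E.ψ ≫ F.p₁) ⁻¹ᵁ TA.U₁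

lemma WE_inf : TA.WE₀ F E ⊓ TA.WE₁ F E = (F.pull E).W₀ := rfl

lemma mem_MΓ_i0_iff (σ : (F.pull E).L.SecOn (F.pull E).W₀) :
    σ ∈ (F.pull E).MΓ TA.i0 ↔
      ∃ s₀ : (F.pull E).L.SecOn (TA.WE₀ F E),
        s₀.restrict (inf_le_left : TA.WE₀ F E ⊓ TA.WE₁ F E ≤ TA.WE₀ F E) = σ := Iff.rfl

lemma mem_MΓ_i1_iff (σ : (F.pull E).L.SecOn (F.pull E).W₀) :
    σ ∈ (F.pull E).MΓ TA.i1 ↔
      ∃ s₁ : (F.pull E).L.SecOn (TA.WE₁ F E),
        s₁.restrict (inf_le_right : TA.WE₀ F E ⊓ TA.WE₁ F E ≤ TA.WE₁ F E) = σ := Iff.rfl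

/-- the coordinate map on sections over `W₀' ∩ W₁'` -/
def evW : (F.pull E).L.SecOn (TA.WE₀ F E ⊓ TA.WE₁ F E) →+
    (((TA.coordDatum F).map (F.φAlg E)).F₀ × ((TA.coordDatum F).map (F.φAlg E)).F₁) :=
  TA.evE F E

lemma evW_mem_Z (σ : (F.pull E).L.SecOn (TA.WE₀ F E ⊓ TA.WE₁ F E)) :
    TA.evW F E σ ∈ ((TA.coordDatum F).map (F.φAlg E)).Z := TA.evE_mem_Z F E σ

lemma evW_injective : Function.Injective (TA.evW F E) := TA.evE_injective F E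

lemma evW_surjective
    {f : ((TA.coordDatum F).map (F.φAlg E)).F₀ × ((TA.coordDatum F).map (F.φAlg E)).F₁}
    (hf : f ∈ ((TA.coordDatum F).map (F.φAlg E)).Z) : ∃ σ, TA.evW F E σ = f :=
  TA.evE_surjective F E hf

lemma evW_mem_Zr_iff (σ : (F.pull E).L.SecOn (TA.WE₀ F E ⊓ TA.WE₁ F E)) :
    TA.evW F E σ ∈ ((TA.coordDatum F).map (F.φAlg E)).Zr ↔
      ∃ s₀ : (F.pull E).L.SecOn (TA.WE₀ F E),
        s₀.restrict (inf_le_left : TA.WE₀ F E ⊓ TA.WE₁ F E ≤ TA.WE₀ F E) = σ :=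
  TA.evE_mem_Zr_iff F E σ

lemma evW_mem_Zp_iff (σ : (F.pull E).L.SecOn (TA.WE₀ F E ⊓ TA.WE₁ F E)) :
    TA.evW F E σ ∈ ((TA.coordDatum F).map (F.φAlg E)).Zp 0 ↔
      ∃ s₁ : (F.pull E).L.SecOn (TA.WE₁ F E),
        s₁.restrict (inf_le_right : TA.WE₀ F E ⊓ TA.WE₁ F E ≤ TA.WE₁ F E) = σ :=
  TA.evE_mem_Zp_iff F E σ

/-- the section over `W₀' ∩ W₁'` with given coordinates on the second chart -/
def ofCoordsW : ((TA.coordDatum F).map (F.φAlg E)).F₁ →+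
    (F.pull E).L.SecOn (TA.WE₀ F E ⊓ TA.WE₁ F E) where
  toFun u := (F.pull E).ofCoords TA.i1 u
  map_zero' := (F.pull E).ofCoords_zero TA.i1
  map_add' u u' := (F.pull E).ofCoords_add TA.i1 u u'

lemma evW_ofCoordsW (u : ((TA.coordDatum F).map (F.φAlg E)).F₁) :
    TA.evW F E (TA.ofCoordsW F E u) = ((TA.coordDatum F).map (F.φAlg E)).zof1 u :=
  TA.evZ_ofCoords (F.pull E) (TA.cE F E) (TA.cE_eq F E) u

lemma ofCoordsW_base_smul (b : Γ(E.T', ⊤)) (u : ((TA.coordDatum F).map (F.φAlg E)).F₁) :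
    TA.ofCoordsW F E (b • u) =
      res (TA.WE₀ F E ⊓ TA.WE₁ F E) le_top (E.p₂'.appTop.hom b) • TA.ofCoordsW F E u :=
  (F.pull E).ofCoords_base_smul TA.i1 b u

/-- coboundaries in coordinates -/
lemma evW_mem_sup_iff (τ : (F.pull E).L.SecOn (TA.WE₀ F E ⊓ TA.WE₁ F E)) :
    TA.evW F E τ ∈ ((TA.coordDatum F).map (F.φAlg E)).Zr ⊔
        ((TA.coordDatum F).map (F.φAlg E)).Zp 0 ↔
      τ ∈ cechB1 (F.pull E).L (TA.WE₀ F E) (TA.WE₁ F E) := by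
  rw [mem_cechB1_iff]
  constructor
  · intro h
    obtain ⟨k0, hk0, k1, hk1, hsum⟩ := Submodule.mem_sup.1 h
    obtain ⟨τ0, hτ0⟩ := TA.evW_surjective F E hk0.1
    obtain ⟨τ1, hτ1⟩ := TA.evW_surjective F E hk1.1
    obtain ⟨s₀, hs₀⟩ := (TA.evW_mem_Zr_iff F E τ0).1 (hτ0 ▸ hk0)
    obtain ⟨s₁, hs₁⟩ := (TA.evW_mem_Zp_iff F E τ1).1 (hτ1 ▸ hk1)
    refine ⟨s₀, s₁, ?_⟩
    apply TA.evW_injective F E
    rw [← hsum, ← hτ0, ← hτ1, ← map_add, hs₀, hs₁]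
  · rintro ⟨s₀, s₁, rfl⟩
    rw [map_add]
    exact Submodule.add_mem_sup ((TA.evW_mem_Zr_iff F E _).2 ⟨s₀, rfl⟩)
      ((TA.evW_mem_Zp_iff F E _).2 ⟨s₁, rfl⟩)

/-- the section with coordinates `c₂ y` on the second chart -/
def secOfK1 : P.toPerfData.K1 (F.φAlg E : Γ(F.T, ⊤) →+* Γ(E.T', ⊤)) →+
    (F.pull E).L.SecOn (TA.WE₀ F E ⊓ TA.WE₁ F E) :=
  (TA.ofCoordsW F E).comp ((P.c₂ Γ(E.T', ⊤)).toAddMonoidHom.comp
    (P.toPerfData.K1 (F.φAlg E : Γ(F.T, ⊤) →+* Γ(E.T', ⊤))).subtype.toAddMonoidHom)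

lemma secOfK1_apply (y : P.toPerfData.K1 (F.φAlg E : Γ(F.T, ⊤) →+* Γ(E.T', ⊤))) :
    TA.secOfK1 F P E y = TA.ofCoordsW F E (P.c₂ Γ(E.T', ⊤) y.1) := rfl

/-- the map from the second term of the complex to the Čech `H¹` -/
def g1 : P.toPerfData.K1 (F.φAlg E : Γ(F.T, ⊤) →+* Γ(E.T', ⊤)) →+
    cechH1 (F.pull E).L (TA.WE₀ F E) (TA.WE₁ F E) :=
  (cechH1.mk (F.pull E).L (TA.WE₀ F E) (TA.WE₁ F E)).comp (TA.secOfK1 F P E)

lemma evW_secOfK1 (y : P.toPerfData.K1 (F.φAlg E : Γ(F.T, ⊤) →+* Γ(E.T', ⊤))) :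
    TA.evW F E (TA.secOfK1 F P E y) =
      ((TA.coordDatum F).map (F.φAlg E)).zof1 (P.c₂ Γ(E.T', ⊤) y.1) :=
  TA.evW_ofCoordsW F E _

lemma g1_surjective : Function.Surjective (TA.g1 F P E) := by
  intro a
  obtain ⟨σ, rfl⟩ := cechH1.mk_surjective _ _ _ a
  obtain ⟨y, hy, hz⟩ := P.exists_rep_H1 (F.φAlg E) (TA.evW_mem_Z F E σ)
  refine ⟨⟨y, hy⟩, ?_⟩
  have h1 : TA.evW F E (σ - TA.secOfK1 F P E ⟨y, hy⟩) ∈
      ((TA.coordDatum F).map (F.φAlg E)).Zr ⊔ ((TA.coordDatum F).map (F.φAlg E)).Zp 0 := by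
    rw [map_sub, TA.evW_secOfK1]
    exact hz
  have h2 := (TA.evW_mem_sup_iff F E _).1 h1
  have h3 := (cechH1.mk_eq_zero_iff _ _ _ _).2 h2
  rw [map_sub, sub_eq_zero] at h3
  exact h3.symm

lemma g1_eq_zero_iff (y : P.toPerfData.K1 (F.φAlg E : Γ(F.T, ⊤) →+* Γ(E.T', ⊤))) :
    TA.g1 F P E y = 0 ↔
      y ∈ LinearMap.range (P.toPerfData.dLin (F.φAlg E : Γ(F.T, ⊤) →+* Γ(E.T', ⊤))) := by
  show cechH1.mk _ _ _ (TA.secOfK1 F P E y) = 0 ↔ _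
  rw [cechH1.mk_eq_zero_iff, ← TA.evW_mem_sup_iff, TA.evW_secOfK1,
    P.zof1_c₂_mem_sup_iff (F.φAlg E) y.2]
  constructor
  · rintro ⟨x, hx, hxy⟩
    exact ⟨⟨x, hx⟩, Subtype.ext hxy⟩
  · rintro ⟨x, hx⟩
    exact ⟨x.1, x.2, congrArg Subtype.val hx⟩

lemma g1_ker : (TA.g1 F P E).ker =
    (LinearMap.range (P.toPerfData.dLin (F.φAlg E : Γ(F.T, ⊤) →+* Γ(E.T', ⊤)))).toAddSubgroup := by
  ext y
  rw [AddMonoidHom.mem_ker, TA.g1_eq_zero_iff]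
  rfl

/-- **Čech `H¹` of every base change is `H1` of the base-changed complex.** -/
def e1 : cechH1 (F.pull E).L (TA.WE₀ F E) (TA.WE₁ F E) ≃+
    P.toPerfData.H1 (F.φAlg E : Γ(F.T, ⊤) →+* Γ(E.T', ⊤)) :=
  ((QuotientAddGroup.quotientAddEquivOfEq (TA.g1_ker F P E)).symm.trans
    (QuotientAddGroup.quotientKerEquivOfSurjective (TA.g1 F P E) (TA.g1_surjective F P E))).symm

lemma e1_symm_mk (y : P.toPerfData.K1 (F.φAlg E : Γ(F.T, ⊤) →+* Γ(E.T', ⊤))) :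
    (TA.e1 F P E).symm (Submodule.Quotient.mk y) = TA.g1 F P E y := rfl

lemma e1_g1 (y : P.toPerfData.K1 (F.φAlg E : Γ(F.T, ⊤) →+* Γ(E.T', ⊤))) :
    TA.e1 F P E (TA.g1 F P E y) = Submodule.Quotient.mk y := by
  rw [← TA.e1_symm_mk, AddEquiv.apply_symm_apply]

lemma secOfK1_smul (b : Γ(E.T', ⊤))
    (y : P.toPerfData.K1 (F.φAlg E : Γ(F.T, ⊤) →+* Γ(E.T', ⊤))) :
    TA.secOfK1 F P E (b • y) =
      res (TA.WE₀ F E ⊓ TA.WE₁ F E) le_top (E.p₂'.appTop.hom b) • TA.secOfK1 F P E y := by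
  rw [secOfK1_apply, secOfK1_apply]
  show TA.ofCoordsW F E (P.c₂ Γ(E.T', ⊤) (b • y.1)) = _
  rw [map_smul]
  exact TA.ofCoordsW_base_smul F E b _

lemma g1_apply (y : P.toPerfData.K1 (F.φAlg E : Γ(F.T, ⊤) →+* Γ(E.T', ⊤))) :
    TA.g1 F P E y = cechH1.mk _ _ _ (TA.secOfK1 F P E y) := rfl

/-- semilinearity of `e1` -/
lemma e1_smul (b : Γ(E.T', ⊤)) (s : (F.pull E).L.SecOn (TA.WE₀ F E ⊓ TA.WE₁ F E)) :
    TA.e1 F P E (cechH1.mk _ _ _
        (res (TA.WE₀ F E ⊓ TA.WE₁ F E) le_top (E.p₂'.appTop.hom b) • s)) =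
      b • TA.e1 F P E (cechH1.mk _ _ _ s) := by
  obtain ⟨y, hy⟩ := TA.g1_surjective F P E (cechH1.mk _ _ _ s)
  have h1 : cechH1.mk (F.pull E).L (TA.WE₀ F E) (TA.WE₁ F E) (TA.secOfK1 F P E y) =
      cechH1.mk _ _ _ s := hy
  have h2 : TA.secOfK1 F P E y - s ∈ cechB1 (F.pull E).L (TA.WE₀ F E) (TA.WE₁ F E) := by
    rw [← cechH1.mk_eq_zero_iff, map_sub, h1, sub_self]
  have h3 := smul_mem_cechB1 (F.pull E).L (TA.WE₀ F E) (TA.WE₁ F E) (E.p₂'.appTop.hom b) h2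
  rw [smul_sub] at h3
  have h5 := TA.secOfK1_smul F P E b y
  rw [← h5] at h3
  rw [← cechH1.mk_eq_zero_iff] at h3
  rw [map_sub, sub_eq_zero] at h3
  have h6 : TA.g1 F P E (b • y) = cechH1.mk _ _ _ (res (TA.WE₀ F E ⊓ TA.WE₁ F E) le_top (E.p₂'.appTop.hom b) • s) := h3
  have h7 : TA.e1 F P E (TA.g1 F P E (b • y)) = Submodule.Quotient.mk (b • y) := TA.e1_g1 F P E _
  have h8 : TA.e1 F P E (TA.g1 F P E y) = Submodule.Quotient.mk y := TA.e1_g1 F P E _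
  have h9 : TA.e1 F P E (cechH1.mk _ _ _ s) = Submodule.Quotient.mk y :=
    (congrArg (TA.e1 F P E) hy.symm).trans h8
  have h10 : (Submodule.Quotient.mk (b • y) : P.toPerfData.H1 (F.φAlg E : Γ(F.T, ⊤) →+* Γ(E.T', ⊤))) =
      b • Submodule.Quotient.mk y := rfl
  exact ((congrArg (TA.e1 F P E) h6.symm).trans h7).trans
    (h10.trans (congrArg (fun z => b • z) h9).symm)

end TwoAffine

end

end Fermat.Agent.JAC.CBC
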