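/-
PROJECT JAC — J3: cohomology and base change for relative curves (helper8).

`CBC_helper8_Complex`: the interface structure `UnivComplex` (a perfect two-term complex over
`Γ(T,⊤)` computing `H⁰` and the Čech `H¹` of a line bundle on `C ×_K T` after EVERY affine base
change) and its existence `nonempty_univComplex`.
-/
import Mathlib
import Fermat.Agent.JAC.CBC_helper8_Univ
import Fermat.Agent.AV.CP_helper8_Main

set_option autoImplicit false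
set_option linter.unusedSectionVars false

open AlgebraicGeometry CategoryTheory Opposite TopologicalSpace TensorProduct

universe u

namespace Fermat.Agent.JAC.CBC

open Fermat.Agent.AV Fermat.Agent.AV.LB Fermat.Agent.AV.CP

noncomputable section

/-- A universal perfect complex for the line bundle `L` on `Y = C ×_K T` (`T` affine): a perfect
two-term complex `P` over `Γ(T,⊤)` whose base change along EVERY `T' ⟶ T` (`T'` affine) computes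
`H⁰` and the Čech `H¹` (for the pulled-back two-chart cover) of the pulled-back bundle. -/
structure UnivComplex {K : Type u} [Field K] {C : Scheme.{u}} [KScheme K C] (TA : TwoAffine K C)
    {T Y : Scheme.{u}} (p₁ : Y ⟶ C) (p₂ : Y ⟶ T) (L : LB Y) where
  /-- the perfect complex -/
  P : PerfData Γ(T, ⊤)
  /-- `H⁰` of every base change -/
  e0 : ∀ {T' Y' : Scheme.{u}} (φ : T' ⟶ T) (p₂' : Y' ⟶ T') (ψ : Y' ⟶ Y), IsAffine T' →
    IsPullback ψ p₂' p₂ φ → ((L.pullback ψ).H0 ≃+ P.H0 φ.appTop.hom)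
  e0_smul : ∀ {T' Y' : Scheme.{u}} (φ : T' ⟶ T) (p₂' : Y' ⟶ T') (ψ : Y' ⟶ Y) (hT' : IsAffine T')
    (H' : IsPullback ψ p₂' p₂ φ) (b : Γ(T', ⊤)) (s : (L.pullback ψ).H0),
    (e0 φ p₂' ψ hT' H' (p₂'.appTop.hom b • s) : Fin P.n₀ → Γ(T', ⊤)) =
      b • (e0 φ p₂' ψ hT' H' s : Fin P.n₀ → Γ(T', ⊤))
  /-- compatibility with a further base change `T'' ⟶ T'` -/
  e0_comp : ∀ {T' Y' T'' Y'' : Scheme.{u}} (φ : T' ⟶ T) (p₂' : Y' ⟶ T') (ψ : Y' ⟶ Y)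
    (hT' : IsAffine T') (H' : IsPullback ψ p₂' p₂ φ)
    (φ' : T'' ⟶ T') (p₂'' : Y'' ⟶ T'') (χ : Y'' ⟶ Y') (hT'' : IsAffine T'')
    (H'' : IsPullback χ p₂'' p₂' φ') (s : (L.pullback ψ).H0) (a : Fin P.n₀),
    (e0 (φ' ≫ φ) p₂'' (χ ≫ ψ) hT'' (H''.paste_horiz H')
        ((L.pullback ψ).pullbackSection χ s) : Fin P.n₀ → Γ(T'', ⊤)) a =
      φ'.appTop.hom ((e0 φ p₂' ψ hT' H' s : Fin P.n₀ → Γ(T', ⊤)) a)
  /-- the Čech `H¹` of every base change -/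
  e1 : ∀ {T' Y' : Scheme.{u}} (φ : T' ⟶ T) (p₂' : Y' ⟶ T') (ψ : Y' ⟶ Y), IsAffine T' →
    IsPullback ψ p₂' p₂ φ →
    (cechH1 (L.pullback ψ) (ψ ⁻¹ᵁ p₁ ⁻¹ᵁ TA.U₀) (ψ ⁻¹ᵁ p₁ ⁻¹ᵁ TA.U₁) ≃+ P.H1 φ.appTop.hom)
  e1_smul : ∀ {T' Y' : Scheme.{u}} (φ : T' ⟶ T) (p₂' : Y' ⟶ T') (ψ : Y' ⟶ Y) (hT' : IsAffine T')
    (H' : IsPullback ψ p₂' p₂ φ) (b : Γ(T', ⊤))
    (s : (L.pullback ψ).SecOn (ψ ⁻¹ᵁ p₁ ⁻¹ᵁ TA.U₀ ⊓ ψ ⁻¹ᵁ p₁ ⁻¹ᵁ TA.U₁)),
    e1 φ p₂' ψ hT' H' (cechH1.mk _ _ _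
        (res (ψ ⁻¹ᵁ p₁ ⁻¹ᵁ TA.U₀ ⊓ ψ ⁻¹ᵁ p₁ ⁻¹ᵁ TA.U₁) le_top (p₂'.appTop.hom b) • s)) =
      b • e1 φ p₂' ψ hT' H' (cechH1.mk _ _ _ s)

variable {K : Type u} [Field K] {C : Scheme.{u}} [KScheme K C] (TA : TwoAffine K C)
variable [IsIntegral C] [QuasiSeparatedSpace C] [Module.Finite K Γ(C, ⊤)]

/-- the universal complex of a family with partitions of unity -/
def TwoAffine.univComplex (F : FamData TA.poleSystem) (P : PerfCore (TA.coordDatum F)) :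
    UnivComplex TA F.p₁ F.p₂ F.L where
  P := P.toPerfData
  e0 φ p₂' ψ hT' H' := TA.e0 F P (F.mkTest φ p₂' ψ hT' H')
  e0_smul φ p₂' ψ hT' H' b s := TA.e0_smul F P (F.mkTest φ p₂' ψ hT' H') b s
  e0_comp φ p₂' ψ hT' H' φ' p₂'' χ hT'' H'' s a :=
    TA.e0_comp F P (F.mkTest φ p₂' ψ hT' H')
      ((F.pull (F.mkTest φ p₂' ψ hT' H')).mkTest φ' p₂'' χ hT'' H'') s a
  e1 φ p₂' ψ hT' H' := TA.e1 F P (F.mkTest φ p₂' ψ hT' H')
  e1_smul φ p₂' ψ hT' H' b s := TA.e1_smul F P (F.mkTest φ p₂' ψ hT' H') b s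

/-- **Existence of the universal complex** for every line bundle on `C ×_K T`, `T` affine. -/
theorem nonempty_univComplex {T Y : Scheme.{u}} (iT : T ⟶ Spec (CommRingCat.of K))
    (p₁ : Y ⟶ C) (p₂ : Y ⟶ T) (H : IsPullback p₁ p₂ (KScheme.str (K := K)) iT) [hT : IsAffine T]
    (L : LB Y) : Nonempty (UnivComplex TA p₁ p₂ L) := by
  let _ : KScheme K T := ⟨iT⟩
  have hp₁ : IsAffineHom p₁ :=
    MorphismProperty.of_isPullback (P := @IsAffineHom) H.flip inferInstance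
  have haff : ∀ i, IsAffineOpen (p₁ ⁻¹ᵁ TA.poleSystem.U i) :=
    fun i => (TA.poleSystem.affine i).preimage p₁
  choose nn mm tt part using fun i => exists_partition_of_isAffineOpen L (haff i)
  let F : FamData TA.poleSystem :=
    { T := T, Y := Y, p₁ := p₁, p₂ := p₂, H := H, L := L, nn := nn, mm := mm, tt := tt,
      part := part }
  obtain ⟨P⟩ := nonempty_perfCore (TA.coordDatum F)
  exact ⟨TA.univComplex F P⟩

end

end Fermat.Agent.JAC.CBC
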