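/-
PROJECT JAC — J3: cohomology and base change for relative curves (helper8).

`CBC_helper8_Adapter`: a `TwoAffine` structure from the ten clauses of helper2's
`exists_two_affine_cover` / `exists_two_affine_cover_of_point` (stated with `sectionsStrMap`).
-/
import Mathlib
import Fermat.Agent.JAC.CBC_helper8_Complex
import Fermat.Agent.AV.AV4_helper5_FinDim

set_option autoImplicit false
set_option linter.unusedSectionVars false

open AlgebraicGeometry CategoryTheory Opposite TopologicalSpace Polynomial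

universe u

namespace Fermat.Agent.JAC.CBC

open Fermat.Agent.AV Fermat.Agent.AV.LB Fermat.Agent.AV.CP

noncomputable section

variable {K : Type u} [Field K] {C : Scheme.{u}}

/-- a finite ring map from a polynomial ring has finitely many module generators -/
lemma exists_generators_of_eval₂_finite {A : Type u} [CommRing A] (f : K →+* A) (x : A)
    (hf : (Polynomial.eval₂RingHom f x).Finite) :
    ∃ (n : ℕ) (ρ : Fin n → A), ∀ r : A, ∃ p : Fin n → K[X],
      r = ∑ i, Polynomial.eval₂ f x (p i) * ρ i := by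
  let _ := (Polynomial.eval₂RingHom f x).toAlgebra
  have : Module.Finite K[X] A := hf
  obtain ⟨n, ρ, hρ⟩ := Module.Finite.exists_fin (R := K[X]) (M := A)
  refine ⟨n, ρ, fun r => ?_⟩
  have hr : r ∈ Submodule.span K[X] (Set.range ρ) := hρ ▸ Submodule.mem_top
  obtain ⟨p, hp⟩ := (Submodule.mem_span_range_iff_exists_fun K[X]).mp hr
  refine ⟨p, ?_⟩
  rw [← hp]
  refine Finset.sum_congr rfl fun i _ => ?_
  rw [Algebra.smul_def]
  rfl

lemma nonempty_of_injective_polynomial {U : C.Opens} (f : K[X] →+* Γ(C, U))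
    (hf : Function.Injective f) : Nonempty U := by
  by_contra hU
  rw [not_nonempty_iff] at hU
  have hbot : U = ⊥ := by
    ext z
    simp only [Opens.coe_bot, Set.mem_empty_iff_false, iff_false]
    exact fun hz => hU.false ⟨z, hz⟩
  subst hbot
  have h01 : f 0 = f 1 := Subsingleton.elim _ _
  exact zero_ne_one (hf h01)

/-- **Adapter**: the data of helper2's two-affine cover of a curve (`exists_two_affine_cover`,
`exists_two_affine_cover_of_point`) give a `TwoAffine` structure for the `KScheme` structure `⟨c⟩`,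
with the same opens and functions (by `rfl`). -/
def twoAffineOfCover [IsIntegral C] (c : C ⟶ Spec (CommRingCat.of K))
    (U₀ U₁ : C.Opens) (x : Γ(C, U₀)) (y : Γ(C, U₁))
    (h₀ : IsAffineOpen U₀) (h₁ : IsAffineOpen U₁) (hcov : U₀ ⊔ U₁ = ⊤)
    (hx : C.basicOpen x = U₀ ⊓ U₁) (hy : C.basicOpen y = U₀ ⊓ U₁)
    (hxy : res (U₀ ⊓ U₁) inf_le_left x * res (U₀ ⊓ U₁) inf_le_right y = 1)
    (hf₀ : (Polynomial.eval₂RingHom (sectionsStrMap c U₀) x).Finite)
    (hf₁ : (Polynomial.eval₂RingHom (sectionsStrMap c U₁) y).Finite)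
    (hi₀ : Function.Injective (Polynomial.eval₂RingHom (sectionsStrMap c U₀) x))
    (hi₁ : Function.Injective (Polynomial.eval₂RingHom (sectionsStrMap c U₁) y)) :
    @TwoAffine K _ C ⟨c⟩ :=
  letI : KScheme K C := ⟨c⟩
  { U₀ := U₀
    U₁ := U₁
    affine₀ := h₀
    affine₁ := h₁
    cover := hcov
    x := x
    y := y
    basicOpen_x := hx
    basicOpen_y := hy
    mul_eq_one := hxy
    fin₀ := by
      obtain ⟨n₀, ρ₀, hρ₀⟩ := exists_generators_of_eval₂_finite _ _ hf₀
      exact ⟨n₀, ρ₀, fun r => hρ₀ r⟩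
    fin₁ := by
      obtain ⟨n₁, ρ₁, hρ₁⟩ := exists_generators_of_eval₂_finite _ _ hf₁
      exact ⟨n₁, ρ₁, fun r => hρ₁ r⟩
    nonempty := by
      obtain ⟨⟨z₀, hz₀⟩⟩ := nonempty_of_injective_polynomial _ hi₀
      obtain ⟨⟨z₁, hz₁⟩⟩ := nonempty_of_injective_polynomial _ hi₁
      obtain ⟨z, hz⟩ := nonempty_preirreducible_inter U₀.isOpen U₁.isOpen ⟨z₀, hz₀⟩ ⟨z₁, hz₁⟩
      exact ⟨⟨z, hz⟩⟩ }

/-- global functions of a proper integral `K`-scheme are a finite `K`-module (for the `KScheme`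
structure `⟨c⟩`) -/
theorem moduleFinite_top_of_isProper [IsIntegral C] (c : C ⟶ Spec (CommRingCat.of K))
    [UniversallyClosed c] [LocallyOfFiniteType c] :
    @Module.Finite K Γ(C, ⊤) _ _ (@kAlgebraΓ K _ C ⟨c⟩ ⊤).toModule := by
  let _ : KScheme K C := ⟨c⟩
  have h1 : c.appTop.hom.Finite := finite_appTop_of_universallyClosed K c
  have h2 : c.appTop = c.appLE ⊤ ⊤ (le_preimage_top _ _) := by
    rw [Scheme.Hom.appTop, Scheme.Hom.app_eq_appLE]
    rfl
  have h3 : (kToΓ K C ⊤).Finite := by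
    refine RingHom.Finite.comp ?_ (RingHom.Finite.of_surjective _ ?_)
    · have h4 : (c.appLE ⊤ ⊤ (le_preimage_top _ _)).hom.Finite := h2 ▸ h1
      exact h4
    · exact (ConcreteCategory.bijective_of_isIso (Scheme.ΓSpecIso (CommRingCat.of K)).inv).2
  exact h3

/-- **The universal complex on a proper curve with a two-affine cover** (all instances
discharged): for `c : C ⟶ Spec K` proper, `C` integral, the cover data of helper2, `T` affine,
`Y = C ×_K T`, and any line bundle `L` on `Y`. -/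
theorem nonempty_univComplex_of_cover [IsIntegral C] (c : C ⟶ Spec (CommRingCat.of K))
    [IsProper c] (U₀ U₁ : C.Opens) (x : Γ(C, U₀)) (y : Γ(C, U₁))
    (h₀ : IsAffineOpen U₀) (h₁ : IsAffineOpen U₁) (hcov : U₀ ⊔ U₁ = ⊤)
    (hx : C.basicOpen x = U₀ ⊓ U₁) (hy : C.basicOpen y = U₀ ⊓ U₁)
    (hxy : res (U₀ ⊓ U₁) inf_le_left x * res (U₀ ⊓ U₁) inf_le_right y = 1)
    (hf₀ : (Polynomial.eval₂RingHom (sectionsStrMap c U₀) x).Finite)
    (hf₁ : (Polynomial.eval₂RingHom (sectionsStrMap c U₁) y).Finite)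
    (hi₀ : Function.Injective (Polynomial.eval₂RingHom (sectionsStrMap c U₀) x))
    (hi₁ : Function.Injective (Polynomial.eval₂RingHom (sectionsStrMap c U₁) y))
    {T Y : Scheme.{u}} (iT : T ⟶ Spec (CommRingCat.of K)) (p₁ : Y ⟶ C) (p₂ : Y ⟶ T)
    (H : IsPullback p₁ p₂ c iT) [IsAffine T] (L : LB Y) :
    Nonempty (@UnivComplex K _ C ⟨c⟩
      (twoAffineOfCover c U₀ U₁ x y h₀ h₁ hcov hx hy hxy hf₀ hf₁ hi₀ hi₁) T Y p₁ p₂ L) := by
  let _ : KScheme K C := ⟨c⟩
  have : Module.Finite K Γ(C, ⊤) := moduleFinite_top_of_isProper c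
  have : QuasiSeparatedSpace C := quasiSeparatedSpace_of_quasiSeparated c
  exact nonempty_univComplex _ iT p₁ p₂ H L

end

end Fermat.Agent.JAC.CBC
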