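/-
PROJECT JAC — J3: cohomology and base change for relative curves (helper8).

`CBC_helper8_PerfAlg`: pure algebra of a perfect two-term complex `PerfData B` (Mathlib only).

* `PerfData.subsingleton_H1_iff`: `H¹(φ) = 0 ↔ ∃ S, d_φ * S = E1_φ`;
* `PerfData.subsingleton_H1_comp`: vanishing of `H¹` is stable under base change;
* `PerfData.annIdeal` and `PerfData.subsingleton_H1_iff_map_annIdeal`: `H¹(φ) = 0` iff the ideal
  `annIdeal` generates the unit ideal of the target (the vanishing locus of `H¹` is the open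
  complement of `V(annIdeal)`, with its universal property);
* `PerfData.exists_univ_generator`: near a field point with `H¹ = 0` and `H⁰` of dimension one,
  `H⁰` is universally free of rank one on a section defined over the whole base.
-/
import Mathlib
import Fermat.Agent.JAC.CBC_helper8_PerfData

set_option autoImplicit false

namespace Fermat.Agent.JAC.CBC

open Matrix

universe w

/-- **Half of Cauchy–Binet**: if `A * X = 1` over a nontrivial commutative ring then
some maximal minor of `A` is nonzero. -/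
lemma exists_det_submatrix_ne_zero {κ : Type*} [CommRing κ] [Nontrivial κ] {q : ℕ} {ι : Type*}
    [Fintype ι] [DecidableEq ι] (A : Matrix (Fin q) ι κ) (X : Matrix ι (Fin q) κ)
    (h : A * X = 1) : ∃ f : Fin q → ι, (A.submatrix id f).det ≠ 0 := by
  by_contra hcon
  simp only [not_exists, not_not] at hcon
  have h1 : (Xᵀ * Aᵀ).det = 1 := by
    rw [← Matrix.transpose_mul, h, Matrix.transpose_one, Matrix.det_one]
  have hrow : (Xᵀ * Aᵀ) = Matrix.of (fun j => ∑ k, X k j • Aᵀ k) := by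
    ext j l
    simp [Matrix.mul_apply, Finset.sum_apply]
  have h2 : (Xᵀ * Aᵀ).det = ∑ f : Fin q → ι, (∏ j, X (f j) j) * (Aᵀ.submatrix f id).det := by
    rw [hrow]
    show Matrix.detRowAlternating (fun j => ∑ k, X k j • Aᵀ k) = _
    rw [← AlternatingMap.coe_multilinearMap, MultilinearMap.map_sum]
    refine Finset.sum_congr rfl fun f _ => ?_
    rw [MultilinearMap.map_smul_univ]
    rfl
  rw [h2] at h1
  have h3 : ∀ f : Fin q → ι, (Aᵀ.submatrix f id).det = 0 := by
    intro f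
    have : Aᵀ.submatrix f id = (A.submatrix id f)ᵀ := rfl
    rw [this, Matrix.det_transpose]
    exact hcon f
  simp [h3] at h1

namespace PerfData

variable {B : Type*} [CommRing B] (P : PerfData B)
variable {B' : Type*} [CommRing B'] (φ : B →+* B')

/-- `H¹` of the base change vanishes iff the differential has a "right inverse onto `K¹`". -/
lemma subsingleton_H1_iff : Subsingleton (P.H1 φ) ↔
    ∃ S : Matrix (Fin P.n₀) (Fin P.n₁) B', P.d.map φ * S = P.E1.map φ := by
  rw [Submodule.Quotient.subsingleton_iff]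
  constructor
  · intro h
    have h1 : ∀ j : Fin P.n₁, ∃ v : Fin P.n₀ → B',
        (P.d.map φ).mulVec v = (P.E1.map φ).mulVec (Pi.single j 1) := by
      intro j
      have h2 : (⟨_, P.E1_mulVec_mem_K1 φ (Pi.single j 1)⟩ : P.K1 φ) ∈
          LinearMap.range (P.dLin φ) := by
        rw [h]; trivial
      obtain ⟨v, hv⟩ := h2
      exact ⟨v.1, congrArg Subtype.val hv⟩
    choose v hv using h1
    refine ⟨Matrix.of fun i j => v j i, ?_⟩
    ext i j
    have h3 := congrFun (hv j) i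
    rw [Matrix.mulVec_single_one] at h3
    rw [Matrix.mul_apply]
    exact h3
  · rintro ⟨S, hS⟩
    rw [eq_top_iff]
    rintro ⟨w, hw⟩ -
    refine ⟨⟨(P.E0.map φ).mulVec (S.mulVec w), P.E0_mulVec_mem_K0 φ _⟩, ?_⟩
    apply Subtype.ext
    show (P.d.map φ).mulVec ((P.E0.map φ).mulVec (S.mulVec w)) = w
    rw [Matrix.mulVec_mulVec, P.d_E0_map, Matrix.mulVec_mulVec, hS]
    exact (P.mem_K1 φ).1 hw

lemma map_comp_eq {m n : Type*} (M : Matrix m n B) {B'' : Type*} [CommRing B'']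
    (ψ : B' →+* B'') : M.map (ψ.comp φ) = (M.map φ).map ψ := by
  ext i j
  rfl

/-- **`H¹ = 0` is stable under base change.** -/
lemma subsingleton_H1_comp {B'' : Type*} [CommRing B''] (ψ : B' →+* B'')
    (h : Subsingleton (P.H1 φ)) : Subsingleton (P.H1 (ψ.comp φ)) := by
  rw [subsingleton_H1_iff] at h ⊢
  obtain ⟨S, hS⟩ := h
  refine ⟨S.map ψ, ?_⟩
  rw [map_comp_eq, map_comp_eq, ← Matrix.map_mul, hS]

/-- the ideal of elements killing `H¹` (through a matrix identity) -/
def annIdeal : Ideal B where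
  carrier := {b | ∃ S : Matrix (Fin P.n₀) (Fin P.n₁) B, P.d * S = b • P.E1}
  add_mem' := by
    rintro a b ⟨S, hS⟩ ⟨S', hS'⟩
    exact ⟨S + S', by rw [Matrix.mul_add, hS, hS', add_smul]⟩
  zero_mem' := ⟨0, by rw [Matrix.mul_zero, zero_smul]⟩
  smul_mem' := by
    rintro c b ⟨S, hS⟩
    exact ⟨c • S, by rw [Matrix.mul_smul, hS, smul_eq_mul, mul_smul]⟩

lemma mem_annIdeal {b : B} :
    b ∈ P.annIdeal ↔ ∃ S : Matrix (Fin P.n₀) (Fin P.n₁) B, P.d * S = b • P.E1 := Iff.rfl

lemma exists_of_mem_map_annIdeal {x : B'} (hx : x ∈ P.annIdeal.map φ) :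
    ∃ S : Matrix (Fin P.n₀) (Fin P.n₁) B', P.d.map φ * S = x • P.E1.map φ := by
  induction hx using Submodule.span_induction with
  | mem x hx =>
    obtain ⟨b, ⟨S, hS⟩, rfl⟩ := hx
    refine ⟨S.map φ, ?_⟩
    rw [← Matrix.map_mul, hS]
    ext i j
    simp
  | zero => exact ⟨0, by rw [Matrix.mul_zero, zero_smul]⟩
  | add x y _ _ hx hy =>
    obtain ⟨S, hS⟩ := hx
    obtain ⟨S', hS'⟩ := hy
    exact ⟨S + S', by rw [Matrix.mul_add, hS, hS', add_smul]⟩
  | smul c x _ hx =>
    obtain ⟨S, hS⟩ := hx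
    exact ⟨c • S, by rw [Matrix.mul_smul, hS, smul_eq_mul, mul_smul]⟩

/-- openness at field points: if `H¹` vanishes at a point with values in a nontrivial ring, some
element of `annIdeal` does not vanish there -/
lemma exists_mem_annIdeal_of_subsingleton [Nontrivial B'] (h : Subsingleton (P.H1 φ)) :
    ∃ b ∈ P.annIdeal, φ b ≠ 0 := by
  rw [subsingleton_H1_iff] at h
  obtain ⟨S, hS⟩ := h
  -- the presentation matrix `[d | 1 - E1]`
  set A : Matrix (Fin P.n₁) (Fin P.n₀ ⊕ Fin P.n₁) B := Matrix.fromCols P.d (1 - P.E1) with hA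
  have hAmap : A.map φ = Matrix.fromCols (P.d.map φ) (1 - P.E1.map φ) := by
    ext i (j | j)
    · rfl
    · simp [hA, Matrix.one_apply]
  have h1 : A.map φ * Matrix.fromRows S (1 : Matrix (Fin P.n₁) (Fin P.n₁) B') = 1 := by
    rw [hAmap, Matrix.fromCols_mul_fromRows, hS, Matrix.mul_one]
    abel
  obtain ⟨f, hf⟩ := exists_det_submatrix_ne_zero (A.map φ) (Matrix.fromRows S (1 : Matrix (Fin P.n₁) (Fin P.n₁) B')) h1
  refine ⟨(A.submatrix id f).det, ?_, ?_⟩
  · -- membership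
    set M := A.submatrix id f with hM
    have h2 : M * M.adjugate = M.det • (1 : Matrix (Fin P.n₁) (Fin P.n₁) B) := Matrix.mul_adjugate M
    have h3 : M = A * (1 : Matrix (Fin P.n₀ ⊕ Fin P.n₁) (Fin P.n₀ ⊕ Fin P.n₁) B).submatrix
        (Equiv.refl _) f := by
      rw [Matrix.mul_submatrix_one]
      rfl
    set X := (1 : Matrix (Fin P.n₀ ⊕ Fin P.n₁) (Fin P.n₀ ⊕ Fin P.n₁) B).submatrix
        (Equiv.refl _) f * M.adjugate with hX
    have h4 : A * X = M.det • (1 : Matrix (Fin P.n₁) (Fin P.n₁) B) := by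
      rw [hX, ← Matrix.mul_assoc, ← h3, h2]
    have h5 : X = Matrix.fromRows X.toRows₁ X.toRows₂ := (Matrix.fromRows_toRows X).symm
    rw [h5, hA, Matrix.fromCols_mul_fromRows] at h4
    refine ⟨X.toRows₁, ?_⟩
    have h6 := congrArg (fun Y => P.E1 * Y) h4
    simp only [Matrix.mul_add, ← Matrix.mul_assoc, P.E1_d, Matrix.mul_sub, Matrix.mul_one,
      P.E1_idem, sub_self, Matrix.zero_mul, add_zero, Matrix.mul_smul] at h6
    exact h6
  · rw [RingHom.map_det]
    exact hf

/-- **The vanishing locus of `H¹`**: `H¹` of the base change along `φ` vanishes iff `annIdeal`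
generates the unit ideal. -/
theorem subsingleton_H1_iff_map_annIdeal :
    Subsingleton (P.H1 φ) ↔ P.annIdeal.map φ = ⊤ := by
  constructor
  · intro h
    by_contra hne
    obtain ⟨𝔮, h𝔮, hle⟩ := Ideal.exists_le_maximal _ hne
    have h1 := P.subsingleton_H1_comp φ (Ideal.Quotient.mk 𝔮) h
    have : Nontrivial (B' ⧸ 𝔮) := Ideal.Quotient.nontrivial_iff.2 h𝔮.ne_top
    obtain ⟨b, hb, hb'⟩ := P.exists_mem_annIdeal_of_subsingleton _ h1
    apply hb'
    rw [RingHom.comp_apply, Ideal.Quotient.eq_zero_iff_mem]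
    exact hle (Ideal.mem_map_of_mem φ hb)
  · intro h
    have h1 : (1 : B') ∈ P.annIdeal.map φ := by rw [h]; trivial
    obtain ⟨S, hS⟩ := P.exists_of_mem_map_annIdeal φ h1
    rw [subsingleton_H1_iff]
    exact ⟨S, by rw [hS, one_smul]⟩

/-- `K¹` (hence `H¹`) of every base change is generated by the columns of `E1`. -/
lemma eq_sum_smul_E1_col {w : Fin P.n₁ → B'} (hw : w ∈ P.K1 φ) :
    w = ∑ j, w j • (P.E1.map φ).mulVec (Pi.single j 1) := by
  have h1 : (P.E1.map φ).mulVec w = w := (P.mem_K1 φ).1 hw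
  conv_lhs => rw [← h1]
  funext i
  simp only [Matrix.mulVec_single_one, Finset.sum_apply, Pi.smul_apply, smul_eq_mul]
  simp only [Matrix.mulVec, dotProduct]
  exact Finset.sum_congr rfl fun j _ => mul_comm _ _

/-- a rank-one "almost idempotent" is determined by a pivot row and column, up to an explicit
determinant -/
lemma rankOne_aux {n : ℕ} (G : Matrix (Fin n) (Fin n) B) (b₁ : B) (hGG : G * G = b₁ • G)
    (i₀ j₀ : Fin n) :
    ((b₁ * G i₀ j₀) • (1 : Matrix (Fin n) (Fin n) B) -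
        (G i₀ j₀ • G - Matrix.of fun i j => G i j₀ * G i₀ j)).det •
      (G i₀ j₀ • G - Matrix.of fun i j => G i j₀ * G i₀ j) = 0 := by
  set u := G i₀ j₀ with hu
  set N : Matrix (Fin n) (Fin n) B := Matrix.of fun i j => G i j₀ * G i₀ j with hN
  have hGGe : ∀ i j, ∑ k, G i k * G k j = b₁ * G i j := by
    intro i j
    have := congrFun (congrFun hGG i) j
    rw [Matrix.mul_apply] at this
    exact this
  have hGN : G * N = b₁ • N := by
    ext i j
    rw [Matrix.mul_apply]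
    simp only [hN, Matrix.of_apply, Matrix.smul_apply, smul_eq_mul]
    calc ∑ k, G i k * (G k j₀ * G i₀ j) = (∑ k, G i k * G k j₀) * G i₀ j := by
          rw [Finset.sum_mul]; exact Finset.sum_congr rfl fun k _ => by ring
      _ = b₁ * (G i j₀ * G i₀ j) := by rw [hGGe]; ring
  have hNG : N * G = b₁ • N := by
    ext i j
    rw [Matrix.mul_apply]
    simp only [hN, Matrix.of_apply, Matrix.smul_apply, smul_eq_mul]
    calc ∑ k, G i j₀ * G i₀ k * G k j = G i j₀ * ∑ k, G i₀ k * G k j := by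
          rw [Finset.mul_sum]; exact Finset.sum_congr rfl fun k _ => by ring
      _ = b₁ * (G i j₀ * G i₀ j) := by rw [hGGe]; ring
  have hNN : N * N = (b₁ * u) • N := by
    ext i j
    rw [Matrix.mul_apply]
    simp only [hN, Matrix.of_apply, Matrix.smul_apply, smul_eq_mul]
    calc ∑ k, G i j₀ * G i₀ k * (G k j₀ * G i₀ j)
        = G i j₀ * (∑ k, G i₀ k * G k j₀) * G i₀ j := by
          rw [Finset.mul_sum, Finset.sum_mul]; exact Finset.sum_congr rfl fun k _ => by ring
      _ = b₁ * u * (G i j₀ * G i₀ j) := by rw [hGGe]; ring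
  set Z := u • G - N with hZ
  have hZZ : Z * Z = (b₁ * u) • Z := by
    rw [hZ, Matrix.sub_mul, Matrix.mul_sub, Matrix.mul_sub, Matrix.smul_mul, Matrix.mul_smul,
      Matrix.smul_mul, Matrix.mul_smul, hGG, hGN, hNG, hNN]
    ext i j
    simp only [Matrix.sub_apply, Matrix.smul_apply, smul_eq_mul]
    ring
  have h1 : ((b₁ * u) • (1 : Matrix (Fin n) (Fin n) B) - Z) * Z = 0 := by
    rw [Matrix.sub_mul, Matrix.smul_mul, Matrix.one_mul, hZZ, sub_self]
  have h2 := congrArg (fun Y => ((b₁ * u) • (1 : Matrix (Fin n) (Fin n) B) - Z).adjugate * Y) h1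
  simp only [← Matrix.mul_assoc, Matrix.adjugate_mul, Matrix.mul_zero, Matrix.smul_mul,
    Matrix.one_mul] at h2
  exact h2

/-- the (scaled) projector onto `H⁰` where `H¹` is killed by `b₁` -/
def projH0 (b₁ : B) (S₁ : Matrix (Fin P.n₀) (Fin P.n₁) B) : Matrix (Fin P.n₀) (Fin P.n₀) B :=
  b₁ • P.E0 - P.E0 * S₁ * P.E1 * P.d

section

variable (b₁ : B) (S₁ : Matrix (Fin P.n₀) (Fin P.n₁) B) (hS₁ : P.d * S₁ = b₁ • P.E1)

lemma E0_mul_projH0 : P.E0 * P.projH0 b₁ S₁ = P.projH0 b₁ S₁ := by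
  rw [projH0, Matrix.mul_sub, Matrix.mul_smul, P.E0_idem, ← Matrix.mul_assoc, ← Matrix.mul_assoc,
    ← Matrix.mul_assoc, P.E0_idem]

include hS₁ in
lemma d_mul_projH0 : P.d * P.projH0 b₁ S₁ = 0 := by
  rw [projH0, Matrix.mul_sub, Matrix.mul_smul, P.d_E0, ← Matrix.mul_assoc, ← Matrix.mul_assoc,
    ← Matrix.mul_assoc, P.d_E0, hS₁, Matrix.smul_mul, P.E1_idem, Matrix.smul_mul, P.E1_d, sub_self]

include hS₁ in
lemma projH0_mul_self : P.projH0 b₁ S₁ * P.projH0 b₁ S₁ = b₁ • P.projH0 b₁ S₁ := by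
  have h : P.projH0 b₁ S₁ * P.projH0 b₁ S₁ =
      (b₁ • P.E0 - P.E0 * S₁ * P.E1 * P.d) * P.projH0 b₁ S₁ := rfl
  rw [h, Matrix.sub_mul, Matrix.smul_mul, P.E0_mul_projH0, Matrix.mul_assoc,
    P.d_mul_projH0 b₁ S₁ hS₁, Matrix.mul_zero, sub_zero]

lemma projH0_map_mulVec {v : Fin P.n₀ → B'} (hv : v ∈ P.H0 φ) :
    ((P.projH0 b₁ S₁).map φ).mulVec v = φ b₁ • v := by
  rw [P.mem_H0] at hv
  have h1 : (P.projH0 b₁ S₁).map φ =
      φ b₁ • P.E0.map φ - (P.E0 * S₁ * P.E1).map φ * P.d.map φ := by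
    rw [← Matrix.map_mul]
    ext i j
    simp only [projH0, Matrix.map_apply, Matrix.sub_apply, Matrix.smul_apply, smul_eq_mul,
      map_sub, map_mul]
  rw [h1, Matrix.sub_mulVec, Matrix.smul_mulVec, hv.1, ← Matrix.mulVec_mulVec, hv.2,
    Matrix.mulVec_zero, sub_zero]

include hS₁ in
lemma projH0_col_mem_H0 (j : Fin P.n₀) : (fun i => φ (P.projH0 b₁ S₁ i j)) ∈ P.H0 φ := by
  rw [P.mem_H0]
  constructor
  · funext i
    have := congrFun (congrFun (P.E0_mul_projH0 b₁ S₁) i) j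
    rw [Matrix.mul_apply] at this
    simp only [Matrix.mulVec, dotProduct, Matrix.map_apply]
    rw [← this, map_sum]
    exact Finset.sum_congr rfl fun k _ => (map_mul φ _ _).symm
  · funext i
    have := congrFun (congrFun (P.d_mul_projH0 b₁ S₁ hS₁) i) j
    rw [Matrix.mul_apply] at this
    simp only [Matrix.mulVec, dotProduct, Matrix.map_apply, Pi.zero_apply]
    rw [← map_zero φ, ← Matrix.zero_apply (α := B) i j, ← this, map_sum]
    exact Finset.sum_congr rfl fun k _ => (map_mul φ _ _).symm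

end

/-- **Universal generator of `H⁰` near a point** where `H¹ = 0` and `H⁰` is one-dimensional. -/
theorem exists_univ_generator {κ : Type*} [Field κ] (z : B →+* κ) (h1 : Subsingleton (P.H1 z))
    (τ₀ : Fin P.n₀ → κ) (hτ₀ : τ₀ ∈ P.H0 z) (hne : τ₀ ≠ 0)
    (hgen : ∀ τ ∈ P.H0 z, ∃ c : κ, τ = c • τ₀) :
    ∃ (b : B) (σ : Fin P.n₀ → B), z b ≠ 0 ∧ ∀ {B' : Type w} [CommRing B'] (φ : B →+* B'),
      IsUnit (φ b) → (fun i => φ (σ i)) ∈ P.H0 φ ∧
        ∀ v ∈ P.H0 φ, ∃! c : B', v = c • (fun i => φ (σ i)) := by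
  obtain ⟨b₁, ⟨S₁, hS₁⟩, hb₁⟩ := P.exists_mem_annIdeal_of_subsingleton z h1
  set G := P.projH0 b₁ S₁ with hG
  have hd := P.projH0_mul_self b₁ S₁ hS₁
  rw [← hG] at hd
  -- the pivot
  have hGz : ∃ i₀ j₀, z (G i₀ j₀) ≠ 0 := by
    by_contra hcon
    simp only [not_exists, not_not] at hcon
    have h2 := P.projH0_map_mulVec z b₁ S₁ hτ₀
    have h3 : (G.map z) = 0 := by
      ext i j
      exact hcon i j
    rw [← hG, h3, Matrix.zero_mulVec] at h2
    exact hne ((smul_eq_zero.1 h2.symm).resolve_left hb₁)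
  obtain ⟨i₀, j₀, hu⟩ := hGz
  set u := G i₀ j₀ with hudef
  set Z := u • G - Matrix.of fun i j => G i j₀ * G i₀ j with hZ
  set δ := ((b₁ * u) • (1 : Matrix (Fin P.n₀) (Fin P.n₀) B) - Z).det with hδ
  have hδZ : δ • Z = 0 := rankOne_aux G b₁ hd i₀ j₀
  -- `Z` vanishes at `z`
  have hcolz : ∀ j, ∃ c : κ, (fun i => z (G i j)) = c • τ₀ :=
    fun j => hgen _ (P.projH0_col_mem_H0 z b₁ S₁ hS₁ j)
  choose c hc using hcolz
  have hGc : ∀ i j, z (G i j) = c j * τ₀ i := fun i j => congrFun (hc j) i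
  have hZz : Z.map z = 0 := by
    ext i j
    simp only [hZ, Matrix.map_apply, Matrix.sub_apply, Matrix.smul_apply, smul_eq_mul,
      Matrix.of_apply, map_sub, map_mul, Matrix.zero_apply, hudef, hGc]
    ring
  have hzδ : z δ = (z b₁ * z u) ^ P.n₀ := by
    rw [hδ, RingHom.map_det]
    have : z.mapMatrix ((b₁ * u) • (1 : Matrix (Fin P.n₀) (Fin P.n₀) B) - Z) =
        (z b₁ * z u) • (1 : Matrix (Fin P.n₀) (Fin P.n₀) κ) := by
      rw [map_sub]
      have hz0 : z.mapMatrix Z = 0 := hZz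
      rw [hz0, sub_zero]
      ext i j
      by_cases hij : i = j <;> simp [hij]
    rw [this, Matrix.det_smul, Matrix.det_one, mul_one, Fintype.card_fin]
  refine ⟨b₁ * u * δ, fun i => G i j₀, ?_, ?_⟩
  · rw [map_mul, map_mul, hzδ]
    exact mul_ne_zero (mul_ne_zero hb₁ hu) (pow_ne_zero _ (mul_ne_zero hb₁ hu))
  · intro B' _ φ hunit
    rw [map_mul, map_mul, IsUnit.mul_iff, IsUnit.mul_iff] at hunit
    obtain ⟨⟨hub₁, huu⟩, huδ⟩ := hunit
    refine ⟨P.projH0_col_mem_H0 φ b₁ S₁ hS₁ j₀, ?_⟩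
    have hZφ : ∀ i j, φ u * φ (G i j) = φ (G i j₀) * φ (G i₀ j) := by
      intro i j
      have h2 := congrArg φ (congrFun (congrFun hδZ i) j)
      rw [Matrix.smul_apply, smul_eq_mul, map_mul, Matrix.zero_apply, map_zero] at h2
      have h3 := huδ.mul_right_eq_zero.1 h2
      simp only [hZ, Matrix.sub_apply, Matrix.smul_apply, smul_eq_mul, Matrix.of_apply, map_sub,
        map_mul] at h3
      exact sub_eq_zero.1 h3
    intro v hv
    have hGv := P.projH0_map_mulVec φ b₁ S₁ hv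
    rw [← hG] at hGv
    have hGvi : ∀ i, ∑ j, φ (G i j) * v j = φ b₁ * v i := fun i => congrFun hGv i
    have key : ∀ i, φ u * v i = φ (G i j₀) * v i₀ := by
      intro i
      apply hub₁.mul_left_cancel
      calc φ b₁ * (φ u * v i) = φ u * (φ b₁ * v i) := by ring
        _ = φ u * ∑ j, φ (G i j) * v j := by rw [hGvi]
        _ = ∑ j, φ (G i j₀) * φ (G i₀ j) * v j := by
            rw [Finset.mul_sum]
            exact Finset.sum_congr rfl fun j _ => by rw [← mul_assoc, hZφ]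
        _ = φ (G i j₀) * ∑ j, φ (G i₀ j) * v j := by
            rw [Finset.mul_sum]
            exact Finset.sum_congr rfl fun j _ => by ring
        _ = φ b₁ * (φ (G i j₀) * v i₀) := by rw [hGvi]; ring
    refine ⟨↑(huu.unit⁻¹) * v i₀, ?_, ?_⟩
    · funext i
      show v i = ↑(huu.unit⁻¹) * v i₀ * φ (G i j₀)
      apply huu.mul_left_cancel
      rw [key i]
      have : φ u * (↑(huu.unit⁻¹) * v i₀ * φ (G i j₀)) =
          (φ u * ↑(huu.unit⁻¹)) * (φ (G i j₀) * v i₀) := by ring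
      rw [this, IsUnit.mul_val_inv, one_mul]
    · intro c' hc'
      have h4 := congrFun hc' i₀
      have h5 : v i₀ = c' * φ u := h4
      rw [h5]
      rw [mul_comm c', ← mul_assoc, IsUnit.val_inv_mul, one_mul]

end PerfData

end Fermat.Agent.JAC.CBC
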