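/-
PROJECT JAC — J3: cohomology and base change for relative curves (helper8).

`CBC_helper8_Conseq`: consequences of the universal complex (`UnivComplex`) for the Čech `H¹`:
stability of `H1Vanishes` under base change, the open vanishing locus with its universal property,
finite generation of `H⁰` and `H¹`.
-/
import Mathlib
import Fermat.Agent.JAC.CBC_helper8_Complex
import Fermat.Agent.JAC.CBC_helper8_PerfAlg

set_option autoImplicit false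
set_option linter.unusedSectionVars false

open AlgebraicGeometry CategoryTheory Opposite TopologicalSpace TensorProduct

universe u

namespace Fermat.Agent.JAC.CBC

open Fermat.Agent.AV Fermat.Agent.AV.LB Fermat.Agent.AV.CP

noncomputable section

namespace UnivComplex

variable {K : Type u} [Field K] {C : Scheme.{u}} [KScheme K C] {TA : TwoAffine K C}
variable {T Y : Scheme.{u}} {p₁ : Y ⟶ C} {p₂ : Y ⟶ T} {L : LB Y} (UC : UnivComplex TA p₁ p₂ L)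

section Test

variable {T' Y' : Scheme.{u}} (φ : T' ⟶ T) (p₂' : Y' ⟶ T') (ψ : Y' ⟶ Y) (hT' : IsAffine T')
  (H' : IsPullback ψ p₂' p₂ φ)

include hT' H' in
/-- the Čech `H¹` of a base change vanishes iff `H¹` of the base-changed complex does -/
lemma h1Vanishes_iff_subsingleton :
    H1Vanishes (L.pullback ψ) (ψ ⁻¹ᵁ p₁ ⁻¹ᵁ TA.U₀) (ψ ⁻¹ᵁ p₁ ⁻¹ᵁ TA.U₁) ↔
      Subsingleton (UC.P.H1 φ.appTop.hom) := by
  rw [CBC.h1Vanishes_iff_subsingleton]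
  exact (UC.e1 φ p₂' ψ hT' H').toEquiv.subsingleton_congr

include hT' H' in
/-- the Čech `H¹` of a base change vanishes iff the ideal `annIdeal` of the complex generates the
unit ideal of `Γ(T',⊤)` -/
theorem h1Vanishes_iff_map_annIdeal :
    H1Vanishes (L.pullback ψ) (ψ ⁻¹ᵁ p₁ ⁻¹ᵁ TA.U₀) (ψ ⁻¹ᵁ p₁ ⁻¹ᵁ TA.U₁) ↔
      UC.P.annIdeal.map φ.appTop.hom = ⊤ := by
  rw [UC.h1Vanishes_iff_subsingleton φ p₂' ψ hT' H', PerfData.subsingleton_H1_iff_map_annIdeal]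

/-- **the vanishing locus of `H¹`** on the base -/
def h1Locus : T.Opens := ⨆ b : UC.P.annIdeal, T.basicOpen b.1

lemma mem_h1Locus {t : T} : t ∈ UC.h1Locus ↔ ∃ b ∈ UC.P.annIdeal, t ∈ T.basicOpen b := by
  rw [h1Locus, Opens.mem_iSup]
  constructor
  · rintro ⟨b, hb⟩
    exact ⟨b.1, b.2, hb⟩
  · rintro ⟨b, hb, ht⟩
    exact ⟨⟨b, hb⟩, ht⟩

include hT' H' in
/-- **Universal property of the vanishing locus**: the Čech `H¹` of the base change along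
`φ : T' ⟶ T` (`T'` affine) vanishes iff `φ` factors through the open `h1Locus`. -/
theorem h1Vanishes_iff_range_subset :
    H1Vanishes (L.pullback ψ) (ψ ⁻¹ᵁ p₁ ⁻¹ᵁ TA.U₀) (ψ ⁻¹ᵁ p₁ ⁻¹ᵁ TA.U₁) ↔
      Set.range φ.base ⊆ (UC.h1Locus : Set T) := by
  rw [UC.h1Vanishes_iff_map_annIdeal φ p₂' ψ hT' H', Ideal.map,
    ← (isAffineOpen_top T').self_le_iSup_basicOpen_iff]
  constructor
  · rintro h _ ⟨t', rfl⟩
    have h1 := h (Opens.mem_top t')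
    rw [Opens.mem_iSup] at h1
    obtain ⟨⟨_, b, hb, rfl⟩, ht'⟩ := h1
    rw [SetLike.mem_coe, mem_h1Locus]
    refine ⟨b, hb, ?_⟩
    have h2 : t' ∈ φ ⁻¹ᵁ T.basicOpen b := by
      rw [Scheme.preimage_basicOpen_top]
      exact ht'
    exact h2
  · intro h t' _
    have h1 := h ⟨t', rfl⟩
    rw [SetLike.mem_coe, mem_h1Locus] at h1
    obtain ⟨b, hb, ht⟩ := h1
    rw [Opens.mem_iSup]
    refine ⟨⟨φ.appTop.hom b, b, hb, rfl⟩, ?_⟩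
    have h2 : t' ∈ φ ⁻¹ᵁ T.basicOpen b := ht
    rw [Scheme.preimage_basicOpen_top] at h2
    exact h2

include UC hT' H' in
/-- **Stability of `H¹ = 0` under base change.** -/
theorem h1Vanishes_comp {T'' Y'' : Scheme.{u}} (φ' : T'' ⟶ T') (p₂'' : Y'' ⟶ T'') (χ : Y'' ⟶ Y')
    (hT'' : IsAffine T'') (H'' : IsPullback χ p₂'' p₂' φ')
    (h : H1Vanishes (L.pullback ψ) (ψ ⁻¹ᵁ p₁ ⁻¹ᵁ TA.U₀) (ψ ⁻¹ᵁ p₁ ⁻¹ᵁ TA.U₁)) :
    H1Vanishes ((L.pullback ψ).pullback χ) (χ ⁻¹ᵁ ψ ⁻¹ᵁ p₁ ⁻¹ᵁ TA.U₀)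
      (χ ⁻¹ᵁ ψ ⁻¹ᵁ p₁ ⁻¹ᵁ TA.U₁) := by
  have h1 := (UC.h1Vanishes_iff_subsingleton φ p₂' ψ hT' H').1 h
  have h2 := UC.P.subsingleton_H1_comp φ.appTop.hom φ'.appTop.hom h1
  have h3 : φ'.appTop.hom.comp φ.appTop.hom = (φ' ≫ φ).appTop.hom := by
    rw [Scheme.Hom.comp_appTop]
    rfl
  rw [h3] at h2
  exact (UC.h1Vanishes_iff_subsingleton (φ' ≫ φ) p₂'' (χ ≫ ψ) hT'' (H''.paste_horiz H')).2 h2

include UC hT' H' in
/-- **Finite generation of the Čech `H¹`** of every base change, in elementary form: finitely many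
sections over the intersection generate all sections modulo coboundaries, with coefficients in
`Γ(T',⊤)`. -/
theorem exists_cechH1_generators :
    ∃ (N : ℕ) (t : Fin N → (L.pullback ψ).SecOn (ψ ⁻¹ᵁ p₁ ⁻¹ᵁ TA.U₀ ⊓ ψ ⁻¹ᵁ p₁ ⁻¹ᵁ TA.U₁)),
      ∀ s : (L.pullback ψ).SecOn (ψ ⁻¹ᵁ p₁ ⁻¹ᵁ TA.U₀ ⊓ ψ ⁻¹ᵁ p₁ ⁻¹ᵁ TA.U₁),
        ∃ (c : Fin N → Γ(T', ⊤)) (s₀ : (L.pullback ψ).SecOn (ψ ⁻¹ᵁ p₁ ⁻¹ᵁ TA.U₀))
          (s₁ : (L.pullback ψ).SecOn (ψ ⁻¹ᵁ p₁ ⁻¹ᵁ TA.U₁)),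
          s = ∑ j, res (ψ ⁻¹ᵁ p₁ ⁻¹ᵁ TA.U₀ ⊓ ψ ⁻¹ᵁ p₁ ⁻¹ᵁ TA.U₁) le_top (p₂'.appTop.hom (c j)) • t j +
            s₀.restrict inf_le_left + s₁.restrict inf_le_right := by
  set e := UC.e1 φ p₂' ψ hT' H' with he
  have hgen : ∀ j : Fin UC.P.n₁, ∃ t : (L.pullback ψ).SecOn
      (ψ ⁻¹ᵁ p₁ ⁻¹ᵁ TA.U₀ ⊓ ψ ⁻¹ᵁ p₁ ⁻¹ᵁ TA.U₁),
      e (cechH1.mk _ _ _ t) = Submodule.Quotient.mk
        ⟨_, UC.P.E1_mulVec_mem_K1 φ.appTop.hom (Pi.single j 1)⟩ := by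
    intro j
    obtain ⟨t, ht⟩ := cechH1.mk_surjective _ _ _ (e.symm (Submodule.Quotient.mk
        ⟨_, UC.P.E1_mulVec_mem_K1 φ.appTop.hom (Pi.single j 1)⟩))
    exact ⟨t, by rw [ht, AddEquiv.apply_symm_apply]⟩
  choose t ht using hgen
  refine ⟨UC.P.n₁, t, ?_⟩
  intro s
  obtain ⟨w, hw⟩ := Submodule.Quotient.mk_surjective _ (e (cechH1.mk _ _ _ s))
  refine ⟨w.1, ?_⟩
  have h1 : e (cechH1.mk _ _ _ (∑ j, res (ψ ⁻¹ᵁ p₁ ⁻¹ᵁ TA.U₀ ⊓ ψ ⁻¹ᵁ p₁ ⁻¹ᵁ TA.U₁) le_top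
      (p₂'.appTop.hom (w.1 j)) • t j)) = e (cechH1.mk _ _ _ s) := by
    rw [map_sum, map_sum, ← hw]
    have h2 : ∀ j, e (cechH1.mk _ _ _ (res (ψ ⁻¹ᵁ p₁ ⁻¹ᵁ TA.U₀ ⊓ ψ ⁻¹ᵁ p₁ ⁻¹ᵁ TA.U₁) le_top
        (p₂'.appTop.hom (w.1 j)) • t j)) = w.1 j • Submodule.Quotient.mk
          ⟨_, UC.P.E1_mulVec_mem_K1 φ.appTop.hom (Pi.single j 1)⟩ := by
      intro j
      rw [he, UC.e1_smul φ p₂' ψ hT' H', ← he, ht]
    rw [Finset.sum_congr rfl fun j _ => h2 j]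
    simp only [← Submodule.mkQ_apply, ← map_smul]
    rw [← map_sum]
    congr 1
    apply Subtype.ext
    rw [AddSubmonoidClass.coe_finsetSum]
    exact (UC.P.eq_sum_smul_E1_col φ.appTop.hom w.2).symm
  have h3 := e.injective h1
  have h4 : s - ∑ j, res (ψ ⁻¹ᵁ p₁ ⁻¹ᵁ TA.U₀ ⊓ ψ ⁻¹ᵁ p₁ ⁻¹ᵁ TA.U₁) le_top
      (p₂'.appTop.hom (w.1 j)) • t j ∈ cechB1 (L.pullback ψ) _ _ := by
    rw [← cechH1.mk_eq_zero_iff, map_sub, h3, sub_self]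
  rw [mem_cechB1_iff] at h4
  obtain ⟨s₀, s₁, h5⟩ := h4
  refine ⟨s₀, s₁, ?_⟩
  rw [add_assoc, ← h5]
  abel

include UC hT' H' in
/-- **Finite generation of `H⁰`** of a base change to a field, in elementary form. -/
theorem exists_H0_generators (hκ : IsField Γ(T', ⊤)) :
    ∃ (N : ℕ) (t : Fin N → (L.pullback ψ).H0), ∀ s : (L.pullback ψ).H0,
      ∃ c : Fin N → Γ(T', ⊤), s = ∑ j, p₂'.appTop.hom (c j) • t j := by
  let _ := hκ.toField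
  have : Module.Finite Γ(T', ⊤) (UC.P.H0 φ.appTop.hom) := inferInstance
  obtain ⟨N, g, hg⟩ := Module.Finite.exists_fin (R := Γ(T', ⊤)) (M := UC.P.H0 φ.appTop.hom)
  set e := UC.e0 φ p₂' ψ hT' H' with he
  refine ⟨N, fun j => e.symm (g j), fun s => ?_⟩
  have h1 : e s ∈ Submodule.span Γ(T', ⊤) (Set.range g) := by
    rw [hg]
    trivial
  obtain ⟨c, hc⟩ := (Submodule.mem_span_range_iff_exists_fun _).1 h1
  refine ⟨c, e.injective ?_⟩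
  rw [← hc, map_sum]
  refine Finset.sum_congr rfl fun j _ => ?_
  apply Subtype.ext
  rw [he, UC.e0_smul, ← he, AddEquiv.apply_symm_apply]
  rfl

end Test

end UnivComplex

end

end Fermat.Agent.JAC.CBC
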