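/-
PROJECT JAC (S25) — helper5 — (P), part 0: **an isomorphism of line bundles acts on global sections.**

For `D : IsoData M N` (cocycle model of PROJECT AV): `D.mapH0 : M.H0 → N.H0`, characterised by
`res (W k) ((D.mapH0 s) (β k)) = f k * res (W k) (s (α k))` (`res_mapH0_β`, `mapH0_eq_of`); additive,
`Γ(X,⊤)`-linear, inverse `D.symm.mapH0`, compatible with pull-back.
-/
import Mathlib
import Fermat.Agent.AV.LB_helper5_Pic

set_option autoImplicit false

open AlgebraicGeometry CategoryTheory Opposite TopologicalSpace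

universe u

namespace Fermat.Agent.AV.LB.IsoData

noncomputable section

variable {X : Scheme.{u}} {M N : LB X} (D : IsoData M N)

/-- the local piece of the image section on `N.U j ⊓ D.W k`. -/
def mapPiece (s : M.H0) (j : N.ι) (k : D.κ) : Γ(X, N.U j ⊓ D.W k) :=
  res (N.U j ⊓ D.W k) (le_inf inf_le_left (inf_le_right.trans (D.hβ k))) (N.g j (D.β k)) *
    res (N.U j ⊓ D.W k) inf_le_right (D.f k) *
    res (N.U j ⊓ D.W k) (inf_le_right.trans (D.hα k)) (s.1 (D.α k))

theorem res_mapPiece (s : M.H0) (j : N.ι) (k : D.κ) (V : X.Opens) (hV : V ≤ N.U j ⊓ D.W k) :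
    res V hV (D.mapPiece s j k) =
      res V (le_inf (hV.trans inf_le_left) ((hV.trans inf_le_right).trans (D.hβ k)))
          (N.g j (D.β k)) *
        res V (hV.trans inf_le_right) (D.f k) *
        res V ((hV.trans inf_le_right).trans (D.hα k)) (s.1 (D.α k)) := by
  simp only [mapPiece, map_mul, res_res]

/-- the key identity: on `V ≤ N.U j ⊓ W k ⊓ W l` the two local pieces agree. -/
theorem mapPiece_eq (s : M.H0) (j : N.ι) (k l : D.κ) (V : X.Opens) (hj : V ≤ N.U j)
    (hk : V ≤ D.W k) (hl : V ≤ D.W l) :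
    res V (le_inf hj (hk.trans (D.hβ k))) (N.g j (D.β k)) * res V hk (D.f k) *
        res V (hk.trans (D.hα k)) (s.1 (D.α k)) =
      res V (le_inf hj (hl.trans (D.hβ l))) (N.g j (D.β l)) * res V hl (D.f l) *
        res V (hl.trans (D.hα l)) (s.1 (D.α l)) := by
  have hs := congrArg (res V (le_inf (hk.trans (D.hα k)) (hl.trans (D.hα l))))
    (s.2 (D.α k) (D.α l))
  rw [map_mul, res_res, res_res] at hs
  have hD := D.compat' k l V hk hl
  have hc := N.cocycle' j (D.β k) (D.β l) V hj (hk.trans (D.hβ k)) (hl.trans (D.hβ l))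
  linear_combination
    (res V (le_inf hj (hk.trans (D.hβ k))) (N.g j (D.β k)) * res V hk (D.f k)) * hs +
    (res V (le_inf hj (hk.trans (D.hβ k))) (N.g j (D.β k)) *
      res V (hl.trans (D.hα l)) (s.1 (D.α l))) * hD +
    (res V hl (D.f l) * res V (hl.trans (D.hα l)) (s.1 (D.α l))) * hc

theorem exists_mapComp (s : M.H0) (j : N.ι) :
    ∃! t : Γ(X, N.U j), ∀ k, res (N.U j ⊓ D.W k) inf_le_left t = D.mapPiece s j k := by
  refine exists_glue (fun k => N.U j ⊓ D.W k) (fun k => inf_le_left) ?_ (D.mapPiece s j) ?_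
  · rw [← inf_iSup_eq, D.iSup_W, inf_top_eq]
  · intro k l
    rw [res_mapPiece, res_mapPiece]
    exact D.mapPiece_eq s j k l _ (inf_le_left.trans inf_le_left)
      (inf_le_left.trans inf_le_right) (inf_le_right.trans inf_le_right)

/-- the components of the image section. -/
def mapComp (s : M.H0) (j : N.ι) : Γ(X, N.U j) := (D.exists_mapComp s j).choose

theorem res_mapComp (s : M.H0) (j : N.ι) (k : D.κ) :
    res (N.U j ⊓ D.W k) inf_le_left (D.mapComp s j) = D.mapPiece s j k :=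
  (D.exists_mapComp s j).choose_spec.1 k

theorem res_mapComp' (s : M.H0) (j : N.ι) (k : D.κ) (V : X.Opens) (hj : V ≤ N.U j)
    (hk : V ≤ D.W k) :
    res V hj (D.mapComp s j) =
      res V (le_inf hj (hk.trans (D.hβ k))) (N.g j (D.β k)) * res V hk (D.f k) *
        res V (hk.trans (D.hα k)) (s.1 (D.α k)) := by
  have h := congrArg (res V (le_inf hj hk)) (D.res_mapComp s j k)
  rw [res_res, res_mapPiece] at h
  exact h

theorem mapComp_isSection (s : M.H0) : N.IsSection (D.mapComp s) := by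
  intro j j'
  refine eq_of_res_eq (fun k => N.U j ⊓ N.U j' ⊓ D.W k) (fun k => inf_le_left) ?_ _ _ ?_
  · rw [← inf_iSup_eq, D.iSup_W, inf_top_eq]
  · intro k
    simp only [map_mul, res_res]
    rw [D.res_mapComp' s j k _ (inf_le_left.trans inf_le_left) inf_le_right,
      D.res_mapComp' s j' k _ (inf_le_left.trans inf_le_right) inf_le_right]
    have hc := N.cocycle' j j' (D.β k) (N.U j ⊓ N.U j' ⊓ D.W k) (inf_le_left.trans inf_le_left)
      (inf_le_left.trans inf_le_right) (inf_le_right.trans (D.hβ k))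
    rw [← hc]
    ring

/-- **the action of an isomorphism on global sections.** -/
def mapH0 (s : M.H0) : N.H0 := ⟨D.mapComp s, D.mapComp_isSection s⟩

theorem mapH0_apply (s : M.H0) (j : N.ι) : (D.mapH0 s).1 j = D.mapComp s j := rfl

theorem res_mapH0 (s : M.H0) (j : N.ι) (k : D.κ) (V : X.Opens) (hj : V ≤ N.U j)
    (hk : V ≤ D.W k) :
    res V hj ((D.mapH0 s).1 j) =
      res V (le_inf hj (hk.trans (D.hβ k))) (N.g j (D.β k)) * res V hk (D.f k) *
        res V (hk.trans (D.hα k)) (s.1 (D.α k)) :=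
  D.res_mapComp' s j k V hj hk

theorem res_mapH0_β (s : M.H0) (k : D.κ) :
    res (D.W k) (D.hβ k) ((D.mapH0 s).1 (D.β k)) =
      D.f k * res (D.W k) (D.hα k) (s.1 (D.α k)) := by
  rw [D.res_mapH0 s (D.β k) k (D.W k) (D.hβ k) le_rfl, res_self]
  have : res (D.W k) (le_inf (D.hβ k) (le_rfl.trans (D.hβ k))) (N.g (D.β k) (D.β k)) = 1 := by
    rw [N.g_self, map_one]
  rw [this, one_mul]

/-- characterisation of the image section. -/
theorem mapH0_eq_of (s : M.H0) (t : N.H0)
    (h : ∀ k, res (D.W k) (D.hβ k) (t.1 (D.β k)) = D.f k * res (D.W k) (D.hα k) (s.1 (D.α k))) :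
    D.mapH0 s = t := by
  apply Subtype.ext
  funext j
  show D.mapComp s j = t.1 j
  refine eq_of_res_eq (fun k => N.U j ⊓ D.W k) (fun k => inf_le_left) ?_ _ _ ?_
  · rw [← inf_iSup_eq, D.iSup_W, inf_top_eq]
  · intro k
    rw [D.res_mapComp' s j k _ inf_le_left inf_le_right]
    have ht := congrArg (res (N.U j ⊓ D.W k) (le_inf inf_le_left (inf_le_right.trans (D.hβ k))))
      (t.2 j (D.β k))
    rw [map_mul, res_res, res_res] at ht
    rw [ht]
    have hk := congrArg (res (N.U j ⊓ D.W k) inf_le_right) (h k)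
    rw [map_mul, res_res, res_res] at hk
    rw [hk]
    ring

theorem mapH0_add (s s' : M.H0) : D.mapH0 (s + s') = D.mapH0 s + D.mapH0 s' := by
  apply D.mapH0_eq_of
  intro k
  show res (D.W k) (D.hβ k) ((D.mapH0 s).1 (D.β k) + (D.mapH0 s').1 (D.β k)) =
    D.f k * res (D.W k) (D.hα k) (s.1 (D.α k) + s'.1 (D.α k))
  rw [map_add, map_add, D.res_mapH0_β, D.res_mapH0_β, mul_add]

theorem mapH0_smul (r : Γ(X, ⊤)) (s : M.H0) : D.mapH0 (r • s) = r • D.mapH0 s := by
  apply D.mapH0_eq_of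
  intro k
  rw [smul_apply, smul_apply, map_mul, map_mul, res_res, res_res, D.res_mapH0_β]
  ring

theorem mapH0_zero : D.mapH0 (0 : M.H0) = 0 := by
  apply D.mapH0_eq_of
  intro k
  show res (D.W k) (D.hβ k) (0 : Γ(X, N.U (D.β k))) = D.f k * res (D.W k) (D.hα k) (0 : Γ(X, _))
  rw [map_zero, map_zero, mul_zero]

theorem symm_mapH0_mapH0 (s : M.H0) : D.symm.mapH0 (D.mapH0 s) = s := by
  apply D.symm.mapH0_eq_of
  intro k
  show res (D.W k) (D.hα k) (s.1 (D.α k)) = D.fi k * res (D.W k) (D.hβ k) ((D.mapH0 s).1 (D.β k))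
  rw [D.res_mapH0_β, ← mul_assoc, mul_comm (D.fi k), D.f_mul_fi, one_mul]

theorem mapH0_symm_mapH0 (t : N.H0) : D.mapH0 (D.symm.mapH0 t) = t := by
  apply D.mapH0_eq_of
  intro k
  have h := D.symm.res_mapH0_β t k
  have h' : res (D.W k) (D.hα k) ((D.symm.mapH0 t).1 (D.α k)) =
      D.fi k * res (D.W k) (D.hβ k) (t.1 (D.β k)) := h
  rw [h', ← mul_assoc, D.f_mul_fi, one_mul]

/-- the action on sections as an additive equivalence. -/
def h0Equiv : M.H0 ≃+ N.H0 where
  toFun := D.mapH0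
  invFun := D.symm.mapH0
  left_inv := D.symm_mapH0_mapH0
  right_inv := D.mapH0_symm_mapH0
  map_add' := D.mapH0_add

theorem mapH0_injective : Function.Injective D.mapH0 := D.h0Equiv.injective

theorem mapH0_surjective : Function.Surjective D.mapH0 := D.h0Equiv.surjective

/-- compatibility with pull-back. -/
theorem pullback_mapH0 {Y : Scheme.{u}} (φ : Y ⟶ X) (s : M.H0) :
    (D.pullback φ).mapH0 (M.pullbackSection φ s) = N.pullbackSection φ (D.mapH0 s) := by
  apply (D.pullback φ).mapH0_eq_of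
  intro k
  show res (φ ⁻¹ᵁ D.W k) _ ((φ.app (N.U (D.β k))).hom ((D.mapH0 s).1 (D.β k))) =
    (φ.app (D.W k)).hom (D.f k) * res (φ ⁻¹ᵁ D.W k) _ ((φ.app (M.U (D.α k))).hom (s.1 (D.α k)))
  have h := congrArg (φ.app (D.W k)).hom (D.res_mapH0_β s k)
  rw [map_mul, app_res, app_res] at h
  exact h

end

end Fermat.Agent.AV.LB.IsoData
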