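/-
PROJECT JAC (S25) — helper5 — (P), part 1: **universal generators of `H⁰`.**

`IsUnivGen q L σ` (`q : Y ⟶ T`, `L : LB Y`, `σ : L.H0`): after every base change `T' ⟶ T` with `T'`
affine, every section of the pulled-back bundle is a unique `Γ(T',⊤)`-multiple of the pull-back of
`σ` (i.e. `q_* L` is free of rank one on `σ`, universally).

* `IsUnivGen.baseChange` (stability under base change), `IsUnivGen.exists_unique_smul` (`T` affine),
  `IsUnivGen.of_iso` (transport along an isomorphism of line bundles),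
  `IsUnivGen.exists_unit` (two universal generators differ by a unit of `Γ(T,⊤)`),
  `IsUnivGen.exists_unit_of_iso`.
-/
import Mathlib
import Fermat.Agent.JAC.P_helper5_IsoSec

set_option autoImplicit false

open AlgebraicGeometry CategoryTheory CategoryTheory.Limits Opposite TopologicalSpace

universe u

namespace Fermat.Agent.JAC

open Fermat.Agent.AV

noncomputable section

/-- `σ` generates `H⁰` universally: after every base change to an affine `T'`, every section of the
pulled-back bundle is a unique `Γ(T',⊤)`-multiple of the pull-back of `σ`. -/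
def IsUnivGen {Y T : Scheme.{u}} (q : Y ⟶ T) (L : LB Y) (σ : L.H0) : Prop :=
  ∀ ⦃T' Y' : Scheme.{u}⦄ (a : T' ⟶ T) (ψ : Y' ⟶ Y) (q' : Y' ⟶ T'), IsPullback ψ q' q a →
    IsAffine T' →
    ∀ τ : (L.pullback ψ).H0, ∃! b : Γ(T', ⊤), τ = q'.appTop.hom b • L.pullbackSection ψ σ

namespace IsUnivGen

variable {Y T : Scheme.{u}} {q : Y ⟶ T} {L : LB Y} {σ : L.H0}

/-- stability under base change (along any morphism). -/
theorem baseChange (h : IsUnivGen q L σ) {T' Y' : Scheme.{u}} {a : T' ⟶ T} {ψ : Y' ⟶ Y}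
    {q' : Y' ⟶ T'} (sq : IsPullback ψ q' q a) :
    IsUnivGen q' (L.pullback ψ) (L.pullbackSection ψ σ) := by
  intro T'' Y'' a' ψ' q'' sq' hT'' τ
  exact h (a' ≫ a) (ψ' ≫ ψ) q'' (sq'.paste_horiz sq) hT'' τ

/-- over an affine base, every section is a unique multiple of a universal generator. -/
theorem exists_unique_smul (h : IsUnivGen q L σ) [hT : IsAffine T] (τ : L.H0) :
    ∃! b : Γ(T, ⊤), τ = q.appTop.hom b • σ :=
  h (𝟙 T) (𝟙 Y) q (IsPullback.id_horiz q) hT τ

/-- scalars acting on pulled-back sections. -/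
theorem pullbackSection_smul {Y' : Scheme.{u}} (ψ : Y' ⟶ Y) (r : Γ(Y, ⊤)) (τ : L.H0) :
    L.pullbackSection ψ (r • τ) = ψ.appTop.hom r • L.pullbackSection ψ τ := by
  apply Subtype.ext
  funext i
  show (ψ.app (L.U i)).hom (res (L.U i) le_top r * τ.1 i) =
    res (ψ ⁻¹ᵁ L.U i) le_top (ψ.appTop.hom r) * (ψ.app (L.U i)).hom (τ.1 i)
  rw [map_mul, app_res]
  rfl

/-- transport of a universal generator along an isomorphism of line bundles. -/
theorem of_iso (h : IsUnivGen q L σ) {L' : LB Y} (D : LB.IsoData L L') :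
    IsUnivGen q L' (D.mapH0 σ) := by
  intro T' Y' a ψ q' sq hT' τ'
  obtain ⟨b, hb, hb'⟩ := h a ψ q' sq hT' ((D.pullback ψ).symm.mapH0 τ')
  refine ⟨b, ?_, ?_⟩
  · have h1 := congrArg (D.pullback ψ).mapH0 hb
    rw [LB.IsoData.mapH0_symm_mapH0, LB.IsoData.mapH0_smul, LB.IsoData.pullback_mapH0] at h1
    exact h1
  · intro b₂ hb₂
    apply hb'
    have h1 := congrArg (D.pullback ψ).symm.mapH0 hb₂
    rw [LB.IsoData.mapH0_smul, ← LB.IsoData.pullback_mapH0, LB.IsoData.symm_mapH0_mapH0] at h1
    exact h1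

/-- two universal generators of the same bundle over an affine base differ by a unit. -/
theorem exists_unit [IsAffine T] {σ' : L.H0} (h : IsUnivGen q L σ) (h' : IsUnivGen q L σ') :
    ∃ u : (Γ(T, ⊤))ˣ, σ' = q.appTop.hom (u : Γ(T, ⊤)) • σ := by
  obtain ⟨b, hb, -⟩ := h.exists_unique_smul σ'
  obtain ⟨b', hb', -⟩ := h'.exists_unique_smul σ
  have h1 : σ = q.appTop.hom (b' * b) • σ := by
    rw [map_mul, mul_smul, ← hb, ← hb']
  have h2 : σ = q.appTop.hom 1 • σ := by rw [map_one, one_smul]
  have h3 : b' * b = 1 := (h.exists_unique_smul σ).unique h1.symm.symm h2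
  exact ⟨⟨b, b', by rw [mul_comm]; exact h3, h3⟩, hb⟩

/-- an isomorphism of line bundles carries a universal generator to a unit multiple of any
universal generator of the target. -/
theorem exists_unit_of_iso [IsAffine T] {L' : LB Y} {σ' : L'.H0} (h : IsUnivGen q L σ)
    (h' : IsUnivGen q L' σ') (D : LB.IsoData L L') :
    ∃ u : (Γ(T, ⊤))ˣ, D.mapH0 σ = q.appTop.hom (u : Γ(T, ⊤)) • σ' :=
  exists_unit h' (h.of_iso D)

/-- a universal generator is not killed by a nonzero scalar: `b • σ = 0 ⇒ b = 0`. -/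
theorem eq_zero_of_smul_eq_zero (h : IsUnivGen q L σ) [IsAffine T] (b : Γ(T, ⊤))
    (hb : q.appTop.hom b • σ = 0) : b = 0 := by
  have h1 : (0 : L.H0) = q.appTop.hom b • σ := hb.symm
  have h2 : (0 : L.H0) = q.appTop.hom 0 • σ := by rw [map_zero, zero_smul]
  exact (h.exists_unique_smul 0).unique h1 h2

/-- the pull-back of a universal generator along a base change to a nontrivial affine base (e.g.
the spectrum of a field) is nonzero: a universal generator is **nonzero on every fibre**. -/
theorem pullbackSection_ne_zero (h : IsUnivGen q L σ) {T' Y' : Scheme.{u}} {a : T' ⟶ T}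
    {ψ : Y' ⟶ Y} {q' : Y' ⟶ T'} (sq : IsPullback ψ q' q a) [hT' : IsAffine T']
    [Nontrivial Γ(T', ⊤)] : L.pullbackSection ψ σ ≠ 0 := by
  intro h0
  obtain ⟨b, -, hb'⟩ := h a ψ q' sq hT' 0
  have h1 : ∀ c : Γ(T', ⊤), (0 : (L.pullback ψ).H0) = q'.appTop.hom c • L.pullbackSection ψ σ := by
    intro c
    rw [h0, smul_zero]
  exact zero_ne_one ((hb' 0 (h1 0)).trans (hb' 1 (h1 1)).symm)

/-- a unit multiple of a universal generator is a universal generator. -/
theorem smul_unit (h : IsUnivGen q L σ) (u : (Γ(T, ⊤))ˣ) :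
    IsUnivGen q L (q.appTop.hom (u : Γ(T, ⊤)) • σ) := by
  intro T' Y' a ψ q' sq hT' τ
  have hcomm : ∀ c : Γ(T, ⊤), ψ.appTop.hom (q.appTop.hom c) = q'.appTop.hom (a.appTop.hom c) := by
    intro c
    have h1 : (ψ ≫ q).appTop = (q' ≫ a).appTop := by rw [sq.w]
    rw [Scheme.Hom.comp_appTop, Scheme.Hom.comp_appTop] at h1
    exact congrArg (fun f => f.hom c) h1
  have hps : L.pullbackSection ψ (q.appTop.hom (u : Γ(T, ⊤)) • σ) =
      q'.appTop.hom (a.appTop.hom (u : Γ(T, ⊤))) • L.pullbackSection ψ σ := by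
    rw [pullbackSection_smul, hcomm]
  obtain ⟨b, hb, hb'⟩ := h a ψ q' sq hT' τ
  refine ⟨b * a.appTop.hom ((u⁻¹ : (Γ(T, ⊤))ˣ) : Γ(T, ⊤)), ?_, ?_⟩
  · show τ = _
    rw [hps, ← mul_smul, ← map_mul, mul_assoc, ← map_mul, Units.inv_mul, map_one, mul_one]
    exact hb
  · intro b₂ hb₂
    have hb₂' : τ = q'.appTop.hom b₂ • L.pullbackSection ψ (q.appTop.hom (u : Γ(T, ⊤)) • σ) :=
      hb₂
    rw [hps, ← mul_smul, ← map_mul] at hb₂'
    have h3 := hb' _ hb₂'
    rw [← h3, mul_assoc, ← map_mul, Units.mul_inv, map_one, mul_one]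

/-- over an affine base: a section which is nonzero on the fibre over every point of the base is a
universal generator as soon as some universal generator exists. -/
theorem of_fibrewise_ne_zero [IsAffine T] {σ' : L.H0} (h' : IsUnivGen q L σ') (σ : L.H0)
    (hσ : ∀ x : T, L.pullbackSection (pullback.fst q (T.fromSpecResidueField x)) σ ≠ 0) :
    IsUnivGen q L σ := by
  obtain ⟨b, hb, -⟩ := h'.exists_unique_smul σ
  have hu : IsUnit b := by
    refine T.toRingedSpace.isUnit_of_isUnit_germ ⊤ b ?_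
    intro x hx'
    refine (T.mem_basicOpen b x hx').mp ?_
    by_contra hx
    apply hσ x
    set z := T.fromSpecResidueField x with hz
    have hzb : z.appTop.hom b = 0 := by
      have h1 : z ⁻¹ᵁ T.basicOpen b = ⊥ := by
        ext y
        simp only [Opens.coe_bot, Set.mem_empty_iff_false, iff_false]
        intro hy
        apply hx
        have : z y = x := Scheme.fromSpecResidueField_apply x y
        rw [← this]
        exact hy
      rw [Scheme.preimage_basicOpen] at h1
      exact (AlgebraicGeometry.basicOpen_eq_bot_iff _).mp h1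
    have sq := IsPullback.of_hasPullback q z
    have hcomm : (pullback.fst q z).appTop.hom (q.appTop.hom b) =
        (pullback.snd q z).appTop.hom (z.appTop.hom b) := by
      have h1 : (pullback.fst q z ≫ q).appTop = (pullback.snd q z ≫ z).appTop := by rw [sq.w]
      rw [Scheme.Hom.comp_appTop, Scheme.Hom.comp_appTop] at h1
      exact congrArg (fun f => f.hom b) h1
    rw [hb, pullbackSection_smul, hcomm, hzb, map_zero, zero_smul]
  obtain ⟨u, rfl⟩ := hu
  rw [hb]
  exact h'.smul_unit u

end IsUnivGen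

end

end Fermat.Agent.JAC
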