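/-
PROJECT JAC — J3: cohomology and base change for relative curves (helper8).

`CBC_helper8_UnivGen`: near a field point of the base where the Čech `H¹` vanishes and `H⁰` is
one-dimensional, `H⁰` has a universal generator (helper5's `IsUnivGen`) over a basic open
neighbourhood.
-/
import Mathlib
import Fermat.Agent.JAC.CBC_helper8_Conseq
import Fermat.Agent.JAC.P_helper5_UnivGen

set_option autoImplicit false
set_option linter.unusedSectionVars false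

open AlgebraicGeometry CategoryTheory Opposite TopologicalSpace TensorProduct

universe u

namespace Fermat.Agent.JAC.CBC

open Fermat.Agent.AV Fermat.Agent.AV.LB Fermat.Agent.AV.CP

noncomputable section

/-- a global function is a unit on its basic open -/
lemma isUnit_ι_appTop_basicOpen {T : Scheme.{u}} (b : Γ(T, ⊤)) :
    IsUnit ((T.basicOpen b).ι.appTop.hom b) := by
  have h0 : IsUnit (res (T.basicOpen b) le_top b) := T.toRingedSpace.isUnit_res_basicOpen b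
  have hle : (T.basicOpen b).ι ''ᵁ ⊤ ≤ T.basicOpen b := le_of_eq (T.basicOpen b).ι_image_top
  have h1 := h0.map (res ((T.basicOpen b).ι ''ᵁ ⊤) hle)
  rw [res_res] at h1
  exact h1

namespace UnivComplex

variable {K : Type u} [Field K] {C : Scheme.{u}} [KScheme K C] {TA : TwoAffine K C}
variable {T Y : Scheme.{u}} {p₁ : Y ⟶ C} {p₂ : Y ⟶ T} {L : LB Y} (UC : UnivComplex TA p₁ p₂ L)

include UC in
/-- **Universal generator near a point.**  If at a field-valued point `φ : T' ⟶ T` the Čech `H¹`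
of the fibre vanishes and `H⁰` of the fibre is free of rank one, then over a basic open
neighbourhood `D(b)` of the point, `H⁰` has a universal generator. -/
theorem exists_isUnivGen [hT : IsAffine T] {T' Y' : Scheme.{u}} (φ : T' ⟶ T) (p₂' : Y' ⟶ T')
    (ψ : Y' ⟶ Y) (hT' : IsAffine T') (H' : IsPullback ψ p₂' p₂ φ) (hκ : IsField Γ(T', ⊤))
    (h1 : H1Vanishes (L.pullback ψ) (ψ ⁻¹ᵁ p₁ ⁻¹ᵁ TA.U₀) (ψ ⁻¹ᵁ p₁ ⁻¹ᵁ TA.U₁))
    (τ₀ : (L.pullback ψ).H0)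
    (hτ₀ : ∀ τ : (L.pullback ψ).H0, ∃! c : Γ(T', ⊤), τ = p₂'.appTop.hom c • τ₀) :
    ∃ b : Γ(T, ⊤), φ.appTop.hom b ≠ 0 ∧
      ∃ σ : (L.pullback (p₂ ⁻¹ᵁ T.basicOpen b).ι).H0,
        IsUnivGen (p₂ ∣_ T.basicOpen b) (L.pullback (p₂ ⁻¹ᵁ T.basicOpen b).ι) σ := by
  let _ := hκ.toField
  set z := φ.appTop.hom with hz
  set ez := UC.e0 φ p₂' ψ hT' H' with hez
  have h1' : Subsingleton (UC.P.H1 z) := (UC.h1Vanishes_iff_subsingleton φ p₂' ψ hT' H').1 h1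
  -- the generator at the point
  have hv₀ne : (ez τ₀ : Fin UC.P.n₀ → Γ(T', ⊤)) ≠ 0 := by
    intro h0
    have h2 : ez τ₀ = 0 := Subtype.ext h0
    have h3 : τ₀ = 0 := by
      rw [← map_zero ez] at h2
      exact ez.injective h2
    obtain ⟨c, -, hc⟩ := hτ₀ 0
    have h4 : ∀ c' : Γ(T', ⊤), (0 : (L.pullback ψ).H0) = p₂'.appTop.hom c' • τ₀ := by
      intro c'
      rw [h3, smul_zero]
    exact zero_ne_one ((hc 0 (h4 0)).trans (hc 1 (h4 1)).symm)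
  have hgen : ∀ τ ∈ UC.P.H0 z, ∃ c : Γ(T', ⊤), τ = c • (ez τ₀ : Fin UC.P.n₀ → Γ(T', ⊤)) := by
    intro τ hτ
    obtain ⟨c, hc, -⟩ := hτ₀ (ez.symm ⟨τ, hτ⟩)
    refine ⟨c, ?_⟩
    have h2 := congrArg (fun s => (ez s : Fin UC.P.n₀ → Γ(T', ⊤))) hc
    simp only [AddEquiv.apply_symm_apply] at h2
    rw [h2, hez, UC.e0_smul]
  obtain ⟨b, σ, hzb, hσ⟩ := PerfData.exists_univ_generator.{u, u, u} UC.P z h1' _ (ez τ₀).2 hv₀ne hgen
  refine ⟨b, hzb, ?_⟩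
  -- the restricted family
  set U := T.basicOpen b with hU
  have hUaff : IsAffine U.toScheme := (isAffineOpen_top T).basicOpen b
  have H₀ : IsPullback (p₂ ⁻¹ᵁ U).ι (p₂ ∣_ U) p₂ U.ι := (isPullback_morphismRestrict p₂ U).flip
  set e₀ := UC.e0 U.ι (p₂ ∣_ U) (p₂ ⁻¹ᵁ U).ι hUaff H₀ with he₀
  have hunit₀ : IsUnit (U.ι.appTop.hom b) := isUnit_ι_appTop_basicOpen b
  set σ₀ := e₀.symm ⟨_, (hσ U.ι.appTop.hom hunit₀).1⟩ with hσ₀
  refine ⟨σ₀, ?_⟩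
  intro T'' Y'' a ψ' q' sq hT'' τ
  have Hc : IsPullback (ψ' ≫ (p₂ ⁻¹ᵁ U).ι) q' p₂ (a ≫ U.ι) := sq.paste_horiz H₀
  set e := UC.e0 (a ≫ U.ι) q' (ψ' ≫ (p₂ ⁻¹ᵁ U).ι) hT'' Hc with he
  have happ : ∀ x : Γ(T, ⊤), (a ≫ U.ι).appTop.hom x = a.appTop.hom (U.ι.appTop.hom x) := by
    intro x
    rw [Scheme.Hom.comp_appTop]
    rfl
  have hunit : IsUnit ((a ≫ U.ι).appTop.hom b) := by
    rw [happ]
    exact hunit₀.map a.appTop.hom
  obtain ⟨hmem, huniq⟩ := hσ (a ≫ U.ι).appTop.hom hunit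
  have hpb : (e ((L.pullback (p₂ ⁻¹ᵁ U).ι).pullbackSection ψ' σ₀) : Fin UC.P.n₀ → Γ(T'', ⊤)) =
      fun i => (a ≫ U.ι).appTop.hom (σ i) := by
    funext i
    have h2 := UC.e0_comp U.ι (p₂ ∣_ U) (p₂ ⁻¹ᵁ U).ι hUaff H₀ a q' ψ' hT'' sq σ₀ i
    rw [← he, ← he₀] at h2
    rw [h2, hσ₀, AddEquiv.apply_symm_apply, happ]
  obtain ⟨c, hc, hc'⟩ := huniq _ (e τ).2
  have hsm : ∀ c' : Γ(T'', ⊤), (e (q'.appTop.hom c' •
      (L.pullback (p₂ ⁻¹ᵁ U).ι).pullbackSection ψ' σ₀) : Fin UC.P.n₀ → Γ(T'', ⊤)) =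
      c' • fun i => (a ≫ U.ι).appTop.hom (σ i) := by
    intro c'
    have h2 := UC.e0_smul (a ≫ U.ι) q' (ψ' ≫ (p₂ ⁻¹ᵁ U).ι) hT'' Hc c'
      ((L.pullback (p₂ ⁻¹ᵁ U).ι).pullbackSection ψ' σ₀)
    rw [← he, hpb] at h2
    exact h2
  refine ⟨c, ?_, ?_⟩
  · apply e.injective
    apply Subtype.ext
    exact hc.trans (hsm c).symm
  · intro c' hc''
    apply hc'
    have h2 := congrArg (fun s => (e s : Fin UC.P.n₀ → Γ(T'', ⊤))) hc''
    exact h2.trans (hsm c')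

end UnivComplex

end

end Fermat.Agent.JAC.CBC
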