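/-
PROJECT JAC (S25) — helper3 — [ČECH-IDEAL (b)] **two-affine comparison**: on a scheme
`X = U⁰ ∪ U¹` covered by two affine opens whose intersection is a basic open of both, Čech `H²` of a
quasi-coherent sheaf of ideals vanishes for every finite cover by basic opens of `U⁰` or `U¹`.
-/
import Mathlib
import Fermat.Agent.JAC.CECH_helper3_Affine

set_option autoImplicit false

open AlgebraicGeometry CategoryTheory Limits Opposite TopologicalSpace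

universe u

namespace Fermat.Agent.JAC

open Fermat.Agent.AV

noncomputable section

variable {X : Scheme.{u}}

/-! ### binary gluing -/

theorem eq_of_res_eq₂ {W W₁ W₂ : X.Opens} (h₁ : W₁ ≤ W) (h₂ : W₂ ≤ W) (hcov : W ≤ W₁ ⊔ W₂)
    (a b : Γ(X, W)) (e₁ : res W₁ h₁ a = res W₁ h₁ b) (e₂ : res W₂ h₂ a = res W₂ h₂ b) : a = b := by
  refine eq_of_res_eq (fun i : Bool => if i then W₁ else W₂)
    (fun i => by cases i <;> simp [h₁, h₂]) ?_ a b ?_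
  · intro x hx
    rcases hcov hx with hx' | hx'
    · exact Opens.mem_iSup.2 ⟨true, hx'⟩
    · exact Opens.mem_iSup.2 ⟨false, hx'⟩
  · intro i
    cases i
    · simpa using e₂
    · simpa using e₁

theorem exists_glue₂ {W W₁ W₂ : X.Opens} (h₁ : W₁ ≤ W) (h₂ : W₂ ≤ W) (hcov : W ≤ W₁ ⊔ W₂)
    (s₁ : Γ(X, W₁)) (s₂ : Γ(X, W₂))
    (h : res (W₁ ⊓ W₂) inf_le_left s₁ = res (W₁ ⊓ W₂) inf_le_right s₂) :
    ∃ s : Γ(X, W), res W₁ h₁ s = s₁ ∧ res W₂ h₂ s = s₂ := by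
  let U : ULift.{u} Bool → X.Opens := fun i => Bool.rec W₂ W₁ i.down
  let sf : ∀ i, Γ(X, U i) := fun i => match i with
    | ⟨true⟩ => s₁
    | ⟨false⟩ => s₂
  have hU : ∀ i, U i ≤ W := fun i => match i with
    | ⟨true⟩ => h₁
    | ⟨false⟩ => h₂
  obtain ⟨s, hs, -⟩ := exists_glue U hU (by
      intro x hx
      rcases hcov hx with hx' | hx'
      · exact Opens.mem_iSup.2 ⟨⟨true⟩, hx'⟩
      · exact Opens.mem_iSup.2 ⟨⟨false⟩, hx'⟩) sf (by
      rintro ⟨i⟩ ⟨j⟩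
      cases i <;> cases j
      · rfl
      · have := congrArg (res (W₂ ⊓ W₁) (le_inf inf_le_right inf_le_left)) h
        simp only [res_res] at this
        exact this.symm
      · exact h
      · rfl)
  exact ⟨s, hs ⟨true⟩, hs ⟨false⟩⟩

/-! ### traces of basic opens -/

/-- if `V ⊓ V'` is a basic open of the affine open `V`, the trace on `V` of a basic open of `V` or
of `V'` is a basic open of `V`. -/
theorem exists_basicOpen_inf {V V' : X.Opens} (hV : IsAffineOpen V) (x : Γ(X, V))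
    (hx : V ⊓ V' = X.basicOpen x) (W : X.Opens)
    (hW : (∃ f : Γ(X, V), W = X.basicOpen f) ∨ (∃ f : Γ(X, V'), W = X.basicOpen f)) :
    ∃ h : Γ(X, V), W ⊓ V = X.basicOpen h := by
  rcases hW with ⟨f, rfl⟩ | ⟨f, rfl⟩
  · exact ⟨f, inf_eq_left.2 (X.basicOpen_le f)⟩
  · -- `g := f|_{D(x)}`
    have hle : X.basicOpen x ≤ V' := by rw [← hx]; exact inf_le_right
    obtain ⟨h, hh⟩ := hV.basicOpen_basicOpen_is_basicOpen x (res (X.basicOpen x) hle f)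
    refine ⟨h, ?_⟩
    rw [hh]
    have h1 : X.basicOpen (res (X.basicOpen x) hle f) = X.basicOpen x ⊓ X.basicOpen f :=
      Scheme.basicOpen_res X f (homOfLE hle).op
    rw [h1, ← hx]
    apply le_antisymm
    · exact le_inf (le_inf inf_le_right (inf_le_left.trans (X.basicOpen_le f))) inf_le_left
    · exact le_inf inf_le_right (inf_le_left.trans inf_le_left)

/-- functions whose basic opens cover an affine open span the unit ideal. -/
theorem span_eq_top_of_le_iSup_basicOpen {V : X.Opens} (hV : IsAffineOpen V) {κ : Type*}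
    (h : κ → Γ(X, V)) (hcov : V ≤ ⨆ k, X.basicOpen (h k)) : Ideal.span (Set.range h) = ⊤ := by
  rw [← IsAffineOpen.iSup_basicOpen_eq_self_iff hV]
  refine le_antisymm (iSup_le fun g => X.basicOpen_le _) ?_
  refine hcov.trans (iSup_le fun k => ?_)
  exact le_iSup (fun g : Set.range h => X.basicOpen (g : Γ(X, V))) ⟨h k, k, rfl⟩

namespace Coef

variable (𝒩 : Coef X)

/-- `H¹` vanishing for the trace on an affine open `V` of a finite family of opens whose traces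
are basic opens of `V`. -/
theorem exists_cobdry₁_trace {V : X.Opens} (hV : IsAffineOpen V) {κ : Type*} [Fintype κ]
    (W : κ → X.Opens) (hWV : ∀ k, ∃ h : Γ(X, V), W k ⊓ V = X.basicOpen h)
    (hcov : V ≤ ⨆ k, W k)
    (α : ∀ k l, Γ(X, (W k ⊓ V) ⊓ (W l ⊓ V)))
    (hαN : ∀ k l, α k l ∈ 𝒩.N ((W k ⊓ V) ⊓ (W l ⊓ V)))
    (hα : ∀ k l m (O : X.Opens) (hk : O ≤ W k ⊓ V) (hl : O ≤ W l ⊓ V) (hm : O ≤ W m ⊓ V),
      res O (le_inf hk hl) (α k l) + res O (le_inf hl hm) (α l m) =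
        res O (le_inf hk hm) (α k m)) :
    ∃ β : ∀ k, Γ(X, W k ⊓ V), (∀ k, β k ∈ 𝒩.N (W k ⊓ V)) ∧ ∀ k l,
      α k l = res ((W k ⊓ V) ⊓ (W l ⊓ V)) inf_le_left (β k) -
        res ((W k ⊓ V) ⊓ (W l ⊓ V)) inf_le_right (β l) := by
  choose h hh using hWV
  have hspan : Ideal.span (Set.range h) = ⊤ := by
    apply span_eq_top_of_le_iSup_basicOpen hV
    intro x hx
    obtain ⟨k, hk⟩ := Opens.mem_iSup.1 (hcov hx)
    exact Opens.mem_iSup.2 ⟨k, by rw [← hh k]; exact ⟨hk, hx⟩⟩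
  exact 𝒩.exists_cobdry₁ h (fun k => W k ⊓ V) hV hspan hh α hαN hα

/-- `H²` vanishing for the trace on an affine open `V` of a finite family of opens whose traces
are basic opens of `V`. -/
theorem exists_cobdry₂_trace {V : X.Opens} (hV : IsAffineOpen V) {κ : Type*} [Fintype κ]
    (W : κ → X.Opens) (hWV : ∀ k, ∃ h : Γ(X, V), W k ⊓ V = X.basicOpen h)
    (hcov : V ≤ ⨆ k, W k)
    (c : ∀ k l m, Γ(X, (W k ⊓ V) ⊓ (W l ⊓ V) ⊓ (W m ⊓ V)))
    (hcN : ∀ k l m, c k l m ∈ 𝒩.N ((W k ⊓ V) ⊓ (W l ⊓ V) ⊓ (W m ⊓ V)))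
    (hc : ∀ k l m p (O : X.Opens) (hk : O ≤ W k ⊓ V) (hl : O ≤ W l ⊓ V) (hm : O ≤ W m ⊓ V)
      (hp : O ≤ W p ⊓ V),
      res O (le_inf (le_inf hl hm) hp) (c l m p) - res O (le_inf (le_inf hk hm) hp) (c k m p) +
        res O (le_inf (le_inf hk hl) hp) (c k l p) - res O (le_inf (le_inf hk hl) hm) (c k l m)
        = 0) :
    ∃ a : ∀ k l, Γ(X, (W k ⊓ V) ⊓ (W l ⊓ V)),
      (∀ k l, a k l ∈ 𝒩.N ((W k ⊓ V) ⊓ (W l ⊓ V))) ∧ ∀ k l m,
      c k l m =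
        res ((W k ⊓ V) ⊓ (W l ⊓ V) ⊓ (W m ⊓ V)) inf_le_left (a k l) +
          res ((W k ⊓ V) ⊓ (W l ⊓ V) ⊓ (W m ⊓ V))
            (le_inf (inf_le_left.trans inf_le_right) inf_le_right) (a l m) -
          res ((W k ⊓ V) ⊓ (W l ⊓ V) ⊓ (W m ⊓ V))
            (le_inf (inf_le_left.trans inf_le_left) inf_le_right) (a k m) := by
  choose h hh using hWV
  have hspan : Ideal.span (Set.range h) = ⊤ := by
    apply span_eq_top_of_le_iSup_basicOpen hV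
    intro x hx
    obtain ⟨k, hk⟩ := Opens.mem_iSup.1 (hcov hx)
    exact Opens.mem_iSup.2 ⟨k, by rw [← hh k]; exact ⟨hk, hx⟩⟩
  exact 𝒩.exists_cobdry₂ h (fun k => W k ⊓ V) hV hspan hh c hcN hc

/-- **two-affine comparison**: `H²` of a quasi-coherent sheaf of ideals vanishes for finite covers
by basic opens of `U₀` or `U₁`, when `X = U₀ ∪ U₁` with `U₀`, `U₁` affine and `U₀ ⊓ U₁` a basic
open of both. -/
theorem exists_cobdry₂_of_two_affine {U₀ U₁ : X.Opens} (h₀ : IsAffineOpen U₀)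
    (h₁ : IsAffineOpen U₁) (hU : U₀ ⊔ U₁ = ⊤) (x₀ : Γ(X, U₀)) (x₁ : Γ(X, U₁))
    (hx₀ : U₀ ⊓ U₁ = X.basicOpen x₀) (hx₁ : U₀ ⊓ U₁ = X.basicOpen x₁)
    {κ : Type*} [Fintype κ] (W : κ → X.Opens)
    (hW : ∀ k, (∃ f : Γ(X, U₀), W k = X.basicOpen f) ∨ (∃ f : Γ(X, U₁), W k = X.basicOpen f))
    (hWcov : ⨆ k, W k = ⊤)
    (c : ∀ k l m, Γ(X, W k ⊓ W l ⊓ W m)) (hcN : ∀ k l m, c k l m ∈ 𝒩.N (W k ⊓ W l ⊓ W m))
    (hc : ∀ k l m p (O : X.Opens) (hk : O ≤ W k) (hl : O ≤ W l) (hm : O ≤ W m) (hp : O ≤ W p),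
      res O (le_inf (le_inf hl hm) hp) (c l m p) - res O (le_inf (le_inf hk hm) hp) (c k m p) +
        res O (le_inf (le_inf hk hl) hp) (c k l p) - res O (le_inf (le_inf hk hl) hm) (c k l m)
        = 0) :
    ∃ a : ∀ k l, Γ(X, W k ⊓ W l), (∀ k l, a k l ∈ 𝒩.N (W k ⊓ W l)) ∧ ∀ k l m,
      c k l m =
        res (W k ⊓ W l ⊓ W m) inf_le_left (a k l) +
          res (W k ⊓ W l ⊓ W m) (le_inf (inf_le_left.trans inf_le_right) inf_le_right) (a l m) -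
          res (W k ⊓ W l ⊓ W m) (le_inf (inf_le_left.trans inf_le_left) inf_le_right) (a k m) := by
  classical
  -- the traces of the cover on `U₀`, `U₁`, `U₀ ⊓ U₁` consist of basic opens
  have hW₀ : ∀ k, ∃ h : Γ(X, U₀), W k ⊓ U₀ = X.basicOpen h := fun k =>
    exists_basicOpen_inf h₀ x₀ hx₀ (W k) (hW k)
  have hW₁ : ∀ k, ∃ h : Γ(X, U₁), W k ⊓ U₁ = X.basicOpen h := fun k =>
    exists_basicOpen_inf h₁ x₁ (by rw [inf_comm, hx₁]) (W k) (hW k).symm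
  have h₀₁ : IsAffineOpen (U₀ ⊓ U₁) := by rw [hx₀]; exact h₀.basicOpen x₀
  have hW₀₁ : ∀ k, ∃ h : Γ(X, U₀ ⊓ U₁), W k ⊓ (U₀ ⊓ U₁) = X.basicOpen h := by
    intro k
    obtain ⟨h, hh⟩ := hW₀ k
    refine ⟨res (U₀ ⊓ U₁) inf_le_left h, ?_⟩
    have h1 : X.basicOpen (res (U₀ ⊓ U₁) inf_le_left h) = (U₀ ⊓ U₁) ⊓ X.basicOpen h :=
      Scheme.basicOpen_res X h (homOfLE (inf_le_left : U₀ ⊓ U₁ ≤ U₀)).op
    rw [h1, ← hh]
    apply le_antisymm
    · exact le_inf inf_le_right (le_inf inf_le_left (inf_le_right.trans inf_le_left))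
    · exact le_inf (inf_le_right.trans inf_le_left) inf_le_left
  have hcovV : ∀ V : X.Opens, V ≤ ⨆ k, W k := fun V => by rw [hWcov]; exact le_top
  -- `c = δ b₀` on `U₀` and `c = δ b₁` on `U₁`
  obtain ⟨b₀, hb₀N, hb₀⟩ := 𝒩.exists_cobdry₂_trace h₀ W hW₀ (hcovV _)
    (fun k l m => res _ (inf_le_inf (inf_le_inf inf_le_left inf_le_left) inf_le_left) (c k l m))
    (fun k l m => 𝒩.res_mem _ (hcN k l m))
    (fun k l m p O hk hl hm hp => by
      simp only [res_res]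
      exact hc k l m p O (hk.trans inf_le_left) (hl.trans inf_le_left) (hm.trans inf_le_left)
        (hp.trans inf_le_left))
  obtain ⟨b₁, hb₁N, hb₁⟩ := 𝒩.exists_cobdry₂_trace h₁ W hW₁ (hcovV _)
    (fun k l m => res _ (inf_le_inf (inf_le_inf inf_le_left inf_le_left) inf_le_left) (c k l m))
    (fun k l m => 𝒩.res_mem _ (hcN k l m))
    (fun k l m p O hk hl hm hp => by
      simp only [res_res]
      exact hc k l m p O (hk.trans inf_le_left) (hl.trans inf_le_left) (hm.trans inf_le_left)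
        (hp.trans inf_le_left))
  -- restricted forms of `hb₀`, `hb₁`
  have hb₀' : ∀ k l m (O : X.Opens) (hk : O ≤ W k ⊓ U₀) (hl : O ≤ W l ⊓ U₀) (hm : O ≤ W m ⊓ U₀),
      res O (le_inf (le_inf (hk.trans inf_le_left) (hl.trans inf_le_left)) (hm.trans inf_le_left))
          (c k l m) =
        res O (le_inf hk hl) (b₀ k l) + res O (le_inf hl hm) (b₀ l m) -
          res O (le_inf hk hm) (b₀ k m) := by
    intro k l m O hk hl hm
    have h := congrArg (res O (le_inf (le_inf hk hl) hm)) (hb₀ k l m)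
    simp only [map_sub, map_add, res_res] at h
    exact h
  have hb₁' : ∀ k l m (O : X.Opens) (hk : O ≤ W k ⊓ U₁) (hl : O ≤ W l ⊓ U₁) (hm : O ≤ W m ⊓ U₁),
      res O (le_inf (le_inf (hk.trans inf_le_left) (hl.trans inf_le_left)) (hm.trans inf_le_left))
          (c k l m) =
        res O (le_inf hk hl) (b₁ k l) + res O (le_inf hl hm) (b₁ l m) -
          res O (le_inf hk hm) (b₁ k m) := by
    intro k l m O hk hl hm
    have h := congrArg (res O (le_inf (le_inf hk hl) hm)) (hb₁ k l m)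
    simp only [map_sub, map_add, res_res] at h
    exact h
  -- the difference is a `1`-cocycle on `U₀ ⊓ U₁`
  have hT₀ : ∀ k, W k ⊓ (U₀ ⊓ U₁) ≤ W k ⊓ U₀ := fun k => inf_le_inf le_rfl inf_le_left
  have hT₁ : ∀ k, W k ⊓ (U₀ ⊓ U₁) ≤ W k ⊓ U₁ := fun k => inf_le_inf le_rfl inf_le_right
  obtain ⟨γ, hγN, hγ⟩ := 𝒩.exists_cobdry₁_trace h₀₁ W hW₀₁ (hcovV _)
    (fun k l => res _ (inf_le_inf (hT₀ k) (hT₀ l)) (b₀ k l) -
      res _ (inf_le_inf (hT₁ k) (hT₁ l)) (b₁ k l))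
    (fun k l => Ideal.sub_mem _ (𝒩.res_mem _ (hb₀N k l)) (𝒩.res_mem _ (hb₁N k l)))
    (fun k l m O hk hl hm => by
      simp only [map_sub, res_res]
      have e₀ := hb₀' k l m O (hk.trans (hT₀ k)) (hl.trans (hT₀ l)) (hm.trans (hT₀ m))
      have e₁ := hb₁' k l m O (hk.trans (hT₁ k)) (hl.trans (hT₁ l)) (hm.trans (hT₁ m))
      linear_combination e₁ - e₀)
  have hγ' : ∀ k l (O : X.Opens) (hk : O ≤ W k ⊓ (U₀ ⊓ U₁)) (hl : O ≤ W l ⊓ (U₀ ⊓ U₁)),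
      res O (le_inf (hk.trans (hT₀ k)) (hl.trans (hT₀ l))) (b₀ k l) -
        res O (le_inf (hk.trans (hT₁ k)) (hl.trans (hT₁ l))) (b₁ k l) =
      res O hk (γ k) - res O hl (γ l) := by
    intro k l O hk hl
    have h := congrArg (res O (le_inf hk hl)) (hγ k l)
    simp only [map_sub, res_res] at h
    exact h
  -- splitting of `γ`
  have hsplit : ∀ k, ∃ (γ₀ : Γ(X, W k ⊓ U₀)) (γ₁ : Γ(X, W k ⊓ U₁)),
      γ₀ ∈ 𝒩.N (W k ⊓ U₀) ∧ γ₁ ∈ 𝒩.N (W k ⊓ U₁) ∧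
        γ k = res (W k ⊓ (U₀ ⊓ U₁)) (hT₀ k) γ₀ - res (W k ⊓ (U₀ ⊓ U₁)) (hT₁ k) γ₁ := by
    intro k
    rcases hW k with ⟨f, hf⟩ | ⟨f, hf⟩
    · have hk₀ : W k ≤ U₀ := by rw [hf]; exact X.basicOpen_le f
      have hle : W k ⊓ U₁ ≤ W k ⊓ (U₀ ⊓ U₁) :=
        le_inf inf_le_left (le_inf (inf_le_left.trans hk₀) inf_le_right)
      refine ⟨0, -res (W k ⊓ U₁) hle (γ k), Ideal.zero_mem _,
        Ideal.neg_mem_iff _ |>.2 (𝒩.res_mem _ (hγN k)), ?_⟩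
      simp only [map_zero, map_neg, res_res, zero_sub, neg_neg]
      exact (res_self _).symm
    · have hk₁ : W k ≤ U₁ := by rw [hf]; exact X.basicOpen_le f
      have hle : W k ⊓ U₀ ≤ W k ⊓ (U₀ ⊓ U₁) :=
        le_inf inf_le_left (le_inf inf_le_right (inf_le_left.trans hk₁))
      refine ⟨res (W k ⊓ U₀) hle (γ k), 0, 𝒩.res_mem _ (hγN k), Ideal.zero_mem _, ?_⟩
      simp only [map_zero, res_res, sub_zero]
      exact (res_self _).symm
  choose γ₀ γ₁ hγ₀N hγ₁N hγs using hsplit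
  -- corrected primitives
  let b₀' : ∀ k l, Γ(X, (W k ⊓ U₀) ⊓ (W l ⊓ U₀)) := fun k l =>
    b₀ k l - (res _ inf_le_left (γ₀ k) - res _ inf_le_right (γ₀ l))
  let b₁' : ∀ k l, Γ(X, (W k ⊓ U₁) ⊓ (W l ⊓ U₁)) := fun k l =>
    b₁ k l - (res _ inf_le_left (γ₁ k) - res _ inf_le_right (γ₁ l))
  have hb₀'N : ∀ k l, b₀' k l ∈ 𝒩.N ((W k ⊓ U₀) ⊓ (W l ⊓ U₀)) := fun k l =>
    Ideal.sub_mem _ (hb₀N k l) (Ideal.sub_mem _ (𝒩.res_mem _ (hγ₀N k)) (𝒩.res_mem _ (hγ₀N l)))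
  have hb₁'N : ∀ k l, b₁' k l ∈ 𝒩.N ((W k ⊓ U₁) ⊓ (W l ⊓ U₁)) := fun k l =>
    Ideal.sub_mem _ (hb₁N k l) (Ideal.sub_mem _ (𝒩.res_mem _ (hγ₁N k)) (𝒩.res_mem _ (hγ₁N l)))
  -- glue
  have hcov₂ : ∀ k l, W k ⊓ W l ≤ ((W k ⊓ U₀) ⊓ (W l ⊓ U₀)) ⊔ ((W k ⊓ U₁) ⊓ (W l ⊓ U₁)) := by
    intro k l x hx
    have hx' : x ∈ U₀ ⊔ U₁ := by rw [hU]; trivial
    rcases hx' with h | h
    · exact Or.inl ⟨⟨hx.1, h⟩, ⟨hx.2, h⟩⟩
    · exact Or.inr ⟨⟨hx.1, h⟩, ⟨hx.2, h⟩⟩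
  have hglue : ∀ k l, ∃ s : Γ(X, W k ⊓ W l),
      res ((W k ⊓ U₀) ⊓ (W l ⊓ U₀)) (inf_le_inf inf_le_left inf_le_left) s = b₀' k l ∧
      res ((W k ⊓ U₁) ⊓ (W l ⊓ U₁)) (inf_le_inf inf_le_left inf_le_left) s = b₁' k l := by
    intro k l
    refine exists_glue₂ _ _ (hcov₂ k l) _ _ ?_
    set O : X.Opens := ((W k ⊓ U₀) ⊓ (W l ⊓ U₀)) ⊓ ((W k ⊓ U₁) ⊓ (W l ⊓ U₁)) with hO
    have hOk : O ≤ W k ⊓ (U₀ ⊓ U₁) :=
      le_inf ((inf_le_left.trans inf_le_left).trans inf_le_left)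
        (le_inf ((inf_le_left.trans inf_le_left).trans inf_le_right)
          ((inf_le_right.trans inf_le_left).trans inf_le_right))
    have hOl : O ≤ W l ⊓ (U₀ ⊓ U₁) :=
      le_inf ((inf_le_left.trans inf_le_right).trans inf_le_left)
        (le_inf ((inf_le_left.trans inf_le_right).trans inf_le_right)
          ((inf_le_right.trans inf_le_right).trans inf_le_right))
    have e := hγ' k l O hOk hOl
    have ek := congrArg (res O hOk) (hγs k)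
    have el := congrArg (res O hOl) (hγs l)
    simp only [map_sub, res_res] at ek el
    simp only [b₀', b₁', map_sub, res_res]
    linear_combination e + ek - el
  choose a ha₀ ha₁ using hglue
  refine ⟨a, fun k l => ?_, fun k l m => ?_⟩
  · refine 𝒩.mem_of_cover₂ (inf_le_inf inf_le_left inf_le_left)
      (inf_le_inf inf_le_left inf_le_left) (hcov₂ k l) (a k l) ?_ ?_
    · rw [ha₀]; exact hb₀'N k l
    · rw [ha₁]; exact hb₁'N k l
  · have hcov₃ : W k ⊓ W l ⊓ W m ≤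
        ((W k ⊓ U₀) ⊓ (W l ⊓ U₀) ⊓ (W m ⊓ U₀)) ⊔ ((W k ⊓ U₁) ⊓ (W l ⊓ U₁) ⊓ (W m ⊓ U₁)) := by
      intro x hx
      have hx' : x ∈ U₀ ⊔ U₁ := by rw [hU]; trivial
      rcases hx' with h | h
      · exact Or.inl ⟨⟨⟨hx.1.1, h⟩, ⟨hx.1.2, h⟩⟩, ⟨hx.2, h⟩⟩
      · exact Or.inr ⟨⟨⟨hx.1.1, h⟩, ⟨hx.1.2, h⟩⟩, ⟨hx.2, h⟩⟩
    refine eq_of_res_eq₂ (inf_le_inf (inf_le_inf inf_le_left inf_le_left) inf_le_left)
      (inf_le_inf (inf_le_inf inf_le_left inf_le_left) inf_le_left) hcov₃ _ _ ?_ ?_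
    · set O : X.Opens := (W k ⊓ U₀) ⊓ (W l ⊓ U₀) ⊓ (W m ⊓ U₀) with hO
      have hOk : O ≤ W k ⊓ U₀ := inf_le_left.trans inf_le_left
      have hOl : O ≤ W l ⊓ U₀ := inf_le_left.trans inf_le_right
      have hOm : O ≤ W m ⊓ U₀ := inf_le_right
      have e := hb₀' k l m O hOk hOl hOm
      have e1 := congrArg (res O (le_inf hOk hOl)) (ha₀ k l)
      have e2 := congrArg (res O (le_inf hOl hOm)) (ha₀ l m)
      have e3 := congrArg (res O (le_inf hOk hOm)) (ha₀ k m)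
      simp only [b₀', map_sub, res_res] at e1 e2 e3
      simp only [map_sub, map_add, res_res]
      linear_combination e - e1 - e2 + e3
    · set O : X.Opens := (W k ⊓ U₁) ⊓ (W l ⊓ U₁) ⊓ (W m ⊓ U₁) with hO
      have hOk : O ≤ W k ⊓ U₁ := inf_le_left.trans inf_le_left
      have hOl : O ≤ W l ⊓ U₁ := inf_le_left.trans inf_le_right
      have hOm : O ≤ W m ⊓ U₁ := inf_le_right
      have e := hb₁' k l m O hOk hOl hOm
      have e1 := congrArg (res O (le_inf hOk hOl)) (ha₁ k l)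
      have e2 := congrArg (res O (le_inf hOl hOm)) (ha₁ l m)
      have e3 := congrArg (res O (le_inf hOk hOm)) (ha₁ k m)
      simp only [b₁', map_sub, res_res] at e1 e2 e3
      simp only [map_sub, map_add, res_res]
      linear_combination e - e1 - e2 + e3

end Coef

end

end Fermat.Agent.JAC
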