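/-
PROJECT JAC (S25) — helper3 — (TW) **point twists in Čech cohomology, part 1: local theory.**

* `VanAt p f` : the function `f` vanishes at the point `p` (`p ∉ X.basicOpen f`);
* `SecOn.VanishesAt σ p` : a section of a line bundle (cocycle model) over `W` vanishes at `p`;
* `PointDiv X p` : a line bundle `Q` with a regular section `s` whose zero scheme is the reduced
  point `p` (`s` vanishes at `p`, and every function vanishing at `p` is locally a multiple of `s`);
* `SecOn.tensorH0 t s` : the product of a section `t` of `L` over `W` with a global section `s` of `Q`;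
* **[G1]** `PointDiv.exists_eq_tensorH0_iff` : a section of `L ⊗ Q` over `W` is of the form `t ⊗ s`
  iff it vanishes at `p` (when `p ∈ W`); `PointDiv.tensorH0_injective`;
* **[G2]** `exists_not_vanishesAt` : on an affine open `W ∋ p` every line bundle has a section not
  vanishing at `p`.
-/
import Mathlib
import Fermat.Agent.AV.CP_helper8_SecMod
import Fermat.Agent.AV.LBS_helper1_QC
import Fermat.Agent.AV.LB_helper5_Pic

set_option autoImplicit false

open AlgebraicGeometry CategoryTheory Opposite TopologicalSpace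

universe u

namespace Fermat.Agent.JAC.TW

open Fermat.Agent.AV Fermat.Agent.AV.LB Fermat.Agent.AV.CP

noncomputable section

variable {X : Scheme.{u}}

/-! ### vanishing of functions at a point -/

/-- the function `f` vanishes at `p` (automatic when `p ∉ V`). -/
def VanAt (p : X) {V : X.Opens} (f : Γ(X, V)) : Prop := p ∉ X.basicOpen f

theorem vanAt_zero (p : X) (V : X.Opens) : VanAt p (0 : Γ(X, V)) := by
  unfold VanAt
  rw [Scheme.basicOpen_zero]
  exact fun h => h

theorem VanAt.add {p : X} {V : X.Opens} {f g : Γ(X, V)} (hf : VanAt p f) (hg : VanAt p g) :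
    VanAt p (f + g) := fun h => (X.basicOpen_add_le f g h).elim hf hg

theorem VanAt.mul_left {p : X} {V : X.Opens} {f : Γ(X, V)} (hf : VanAt p f) (g : Γ(X, V)) :
    VanAt p (g * f) := by
  unfold VanAt at hf ⊢
  rw [Scheme.basicOpen_mul]
  exact fun h => hf h.2

theorem VanAt.mul_right {p : X} {V : X.Opens} {f : Γ(X, V)} (hf : VanAt p f) (g : Γ(X, V)) :
    VanAt p (f * g) := by
  rw [mul_comm]; exact hf.mul_left g

theorem VanAt.neg {p : X} {V : X.Opens} {f : Γ(X, V)} (hf : VanAt p f) : VanAt p (-f) := by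
  have := hf.mul_left (-1)
  rwa [neg_one_mul] at this

theorem VanAt.sub {p : X} {V : X.Opens} {f g : Γ(X, V)} (hf : VanAt p f) (hg : VanAt p g) :
    VanAt p (f - g) := by
  rw [sub_eq_add_neg]; exact hf.add hg.neg

theorem vanAt_sum {p : X} {V : X.Opens} {β : Type*} (t : Finset β) (f : β → Γ(X, V))
    (hf : ∀ b ∈ t, VanAt p (f b)) : VanAt p (∑ b ∈ t, f b) := by
  classical
  induction t using Finset.induction_on with
  | empty => simpa using vanAt_zero p V
  | insert a t ha ih =>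
    rw [Finset.sum_insert ha]
    exact (hf a (Finset.mem_insert_self a t)).add
      (ih fun b hb => hf b (Finset.mem_insert_of_mem hb))

theorem vanAt_res_iff {p : X} {V U : X.Opens} (h : U ≤ V) (hp : p ∈ U) (f : Γ(X, V)) :
    VanAt p (res U h f) ↔ VanAt p f := by
  unfold VanAt
  rw [show X.basicOpen (res U h f) = U ⊓ X.basicOpen f from Scheme.basicOpen_res _ _ _]
  exact ⟨fun h1 h2 => h1 ⟨hp, h2⟩, fun h1 h2 => h1 h2.2⟩

theorem VanAt.restrict {p : X} {V U : X.Opens} (h : U ≤ V) {f : Γ(X, V)} (hf : VanAt p f) :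
    VanAt p (res U h f) := by
  unfold VanAt at hf ⊢
  rw [show X.basicOpen (res U h f) = U ⊓ X.basicOpen f from Scheme.basicOpen_res _ _ _]
  exact fun h2 => hf h2.2

theorem vanAt_of_notMem {p : X} {V : X.Opens} (hp : p ∉ V) (f : Γ(X, V)) : VanAt p f :=
  fun h => hp (X.basicOpen_le f h)

theorem not_vanAt_of_isUnit {p : X} {V : X.Opens} (hp : p ∈ V) {f : Γ(X, V)} (hf : IsUnit f) :
    ¬ VanAt p f := by
  unfold VanAt
  rw [X.basicOpen_of_isUnit hf]
  exact fun h => h hp

theorem vanAt_mul_iff {p : X} {V : X.Opens} (f g : Γ(X, V)) :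
    VanAt p (f * g) ↔ VanAt p f ∨ VanAt p g := by
  unfold VanAt
  rw [Scheme.basicOpen_mul]
  constructor
  · intro h
    by_contra hcon
    rw [not_or, not_not, not_not] at hcon
    exact h ⟨hcon.1, hcon.2⟩
  · rintro (h | h) h2
    · exact h h2.1
    · exact h h2.2

theorem vanAt_unit_mul_iff {p : X} {V : X.Opens} {u : Γ(X, V)} (hu : IsUnit u) (f : Γ(X, V)) :
    VanAt p (u * f) ↔ VanAt p f := by
  by_cases hp : p ∈ V
  · rw [vanAt_mul_iff]
    exact ⟨fun h => h.resolve_left (not_vanAt_of_isUnit hp hu), Or.inr⟩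
  · exact ⟨fun _ => vanAt_of_notMem hp _, fun _ => vanAt_of_notMem hp _⟩

/-! ### vanishing of sections at a point -/

/-- the section `σ` of `L` over `W` vanishes at `p` (automatic when `p ∉ W`). -/
def _root_.Fermat.Agent.AV.LB.SecOn.VanishesAt {L : LB X} {W : X.Opens} (σ : L.SecOn W) (p : X) :
    Prop :=
  ∀ i, VanAt p (σ.s i)

theorem vanishesAt_iff_of_mem {L : LB X} {W : X.Opens} (σ : L.SecOn W) {p : X} (i : L.ι)
    (hp : p ∈ L.U i) : σ.VanishesAt p ↔ VanAt p (σ.s i) := by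
  refine ⟨fun h => h i, fun h j => ?_⟩
  by_cases hj : p ∈ L.U j ⊓ W
  · set O : X.Opens := L.U j ⊓ L.U i ⊓ W with hO
    have hpO : p ∈ O := ⟨⟨hj.1, hp⟩, hj.2⟩
    have hc := σ.compat' j i O (inf_le_left.trans inf_le_left) (inf_le_left.trans inf_le_right)
      inf_le_right
    rw [← vanAt_res_iff (inf_le_inf_right W inf_le_left) hpO, hc]
    exact ((vanAt_res_iff _ hpO _).2 h).mul_left _
  · exact vanAt_of_notMem hj _

theorem vanishesAt_of_notMem {L : LB X} {W : X.Opens} (σ : L.SecOn W) {p : X} (hp : p ∉ W) :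
    σ.VanishesAt p := fun i => vanAt_of_notMem (fun h : p ∈ L.U i ⊓ W => hp h.2) _

theorem vanishesAt_zero {L : LB X} {W : X.Opens} (p : X) : (0 : L.SecOn W).VanishesAt p :=
  fun _ => vanAt_zero p _

theorem vanishesAt_add {L : LB X} {W : X.Opens} {σ τ : L.SecOn W} {p : X}
    (hσ : σ.VanishesAt p) (hτ : τ.VanishesAt p) : (σ + τ).VanishesAt p :=
  fun i => (hσ i).add (hτ i)

theorem vanishesAt_neg {L : LB X} {W : X.Opens} {σ : L.SecOn W} {p : X}
    (hσ : σ.VanishesAt p) : (-σ).VanishesAt p :=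
  fun i => (hσ i).neg

theorem vanishesAt_sub {L : LB X} {W : X.Opens} {σ τ : L.SecOn W} {p : X}
    (hσ : σ.VanishesAt p) (hτ : τ.VanishesAt p) : (σ - τ).VanishesAt p := by
  rw [sub_eq_add_neg]; exact vanishesAt_add hσ (vanishesAt_neg hτ)

theorem vanishesAt_smul {L : LB X} {W : X.Opens} {σ : L.SecOn W} {p : X}
    (hσ : σ.VanishesAt p) (c : Γ(X, W)) : (c • σ).VanishesAt p :=
  fun i => (hσ i).mul_left _

theorem vanishesAt_restrict {L : LB X} {W W' : X.Opens} (h : W' ≤ W) {σ : L.SecOn W} {p : X}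
    (hσ : σ.VanishesAt p) : (σ.restrict h).VanishesAt p :=
  fun i => (hσ i).restrict _

theorem vanishesAt_restrict_iff {L : LB X} {W W' : X.Opens} (h : W' ≤ W) (σ : L.SecOn W) {p : X}
    (hp : p ∈ W') : (σ.restrict h).VanishesAt p ↔ σ.VanishesAt p := by
  refine ⟨fun h1 i => ?_, vanishesAt_restrict h⟩
  by_cases hi : p ∈ L.U i
  · exact (vanAt_res_iff (inf_le_inf_left _ h) ⟨hi, hp⟩ _).1 (h1 i)
  · exact vanAt_of_notMem (fun h2 : p ∈ L.U i ⊓ W => hi h2.1) _

/-! ### the product of a section with a global section -/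

/-- the components of the product `t ⊗ s`. -/
def tensorComp {L : LB X} {W : X.Opens} (t : L.SecOn W) {Q : LB X} (s : Q.H0) (i : L.ι)
    (a : Q.ι) : Γ(X, (L.U i ⊓ Q.U a) ⊓ W) :=
  res ((L.U i ⊓ Q.U a) ⊓ W) (le_inf (inf_le_left.trans inf_le_left) inf_le_right) (t.s i) *
    res ((L.U i ⊓ Q.U a) ⊓ W) (inf_le_left.trans inf_le_right) (s.1 a)

theorem res_tensorComp {L : LB X} {W : X.Opens} (t : L.SecOn W) {Q : LB X} (s : Q.H0) (i : L.ι)
    (a : Q.ι) (O : X.Opens) (hO : O ≤ (L.U i ⊓ Q.U a) ⊓ W) :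
    res O hO (tensorComp t s i a) =
      res O (le_inf ((hO.trans inf_le_left).trans inf_le_left) (hO.trans inf_le_right)) (t.s i) *
        res O ((hO.trans inf_le_left).trans inf_le_right) (s.1 a) := by
  unfold tensorComp
  rw [map_mul, res_res, res_res]

theorem tensorComp_compat {L : LB X} {W : X.Opens} (t : L.SecOn W) {Q : LB X} (s : Q.H0)
    (i j : L.ι) (a b : Q.ι) :
    res (((L.U i ⊓ Q.U a) ⊓ (L.U j ⊓ Q.U b)) ⊓ W)
        (le_inf (inf_le_left.trans inf_le_left) inf_le_right) (tensorComp t s i a) =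
      res (((L.U i ⊓ Q.U a) ⊓ (L.U j ⊓ Q.U b)) ⊓ W) inf_le_left
          (res ((L.U i ⊓ Q.U a) ⊓ (L.U j ⊓ Q.U b))
              (le_inf (inf_le_left.trans inf_le_left) (inf_le_right.trans inf_le_left))
              (L.g i j) *
            res ((L.U i ⊓ Q.U a) ⊓ (L.U j ⊓ Q.U b))
              (le_inf (inf_le_left.trans inf_le_right) (inf_le_right.trans inf_le_right))
              (Q.g a b)) *
        res (((L.U i ⊓ Q.U a) ⊓ (L.U j ⊓ Q.U b)) ⊓ W)
          (le_inf (inf_le_left.trans inf_le_right) inf_le_right) (tensorComp t s j b) := by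
  set O : X.Opens := ((L.U i ⊓ Q.U a) ⊓ (L.U j ⊓ Q.U b)) ⊓ W with hO
  have hi : O ≤ L.U i := (inf_le_left.trans inf_le_left).trans inf_le_left
  have hj : O ≤ L.U j := (inf_le_left.trans inf_le_right).trans inf_le_left
  have ha : O ≤ Q.U a := (inf_le_left.trans inf_le_left).trans inf_le_right
  have hb : O ≤ Q.U b := (inf_le_left.trans inf_le_right).trans inf_le_right
  have hW : O ≤ W := inf_le_right
  have ht := t.compat' i j O hi hj hW
  have hs := congrArg (res O (le_inf ha hb)) (s.2 a b)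
  rw [map_mul, res_res, res_res] at hs
  rw [res_tensorComp, res_tensorComp, map_mul, res_res, res_res, ht, hs]
  ring

/-- the product `t ⊗ s` of a section `t` of `L` over `W` with a global section `s` of `Q`. -/
def _root_.Fermat.Agent.AV.LB.SecOn.tensorH0 {L : LB X} {W : X.Opens} (t : L.SecOn W) {Q : LB X}
    (s : Q.H0) : (L.tensor Q).SecOn W where
  s := fun c => tensorComp t s c.1 c.2
  compat := fun c d => tensorComp_compat t s c.1 d.1 c.2 d.2

theorem tensorH0_s {L : LB X} {W : X.Opens} (t : L.SecOn W) {Q : LB X} (s : Q.H0)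
    (i : L.ι) (a : Q.ι) : (t.tensorH0 s).s (i, a) = tensorComp t s i a := rfl

theorem tensorComp_add {L : LB X} {W : X.Opens} (t t' : L.SecOn W) {Q : LB X} (s : Q.H0)
    (i : L.ι) (a : Q.ι) :
    tensorComp (t + t') s i a = tensorComp t s i a + tensorComp t' s i a := by
  unfold tensorComp
  rw [add_s, map_add, add_mul]

theorem tensorComp_neg {L : LB X} {W : X.Opens} (t : L.SecOn W) {Q : LB X} (s : Q.H0)
    (i : L.ι) (a : Q.ι) : tensorComp (-t) s i a = -tensorComp t s i a := by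
  unfold tensorComp
  rw [neg_s, map_neg, neg_mul]

theorem tensorComp_smul {L : LB X} {W : X.Opens} (c : Γ(X, W)) (t : L.SecOn W) {Q : LB X}
    (s : Q.H0) (i : L.ι) (a : Q.ι) :
    tensorComp (c • t) s i a = res ((L.U i ⊓ Q.U a) ⊓ W) inf_le_right c * tensorComp t s i a := by
  unfold tensorComp
  rw [smul_s', map_mul, res_res, mul_assoc]

theorem tensorComp_restrict {L : LB X} {W W' : X.Opens} (h : W' ≤ W) (t : L.SecOn W) {Q : LB X}
    (s : Q.H0) (i : L.ι) (a : Q.ι) :
    tensorComp (t.restrict h) s i a =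
      res ((L.U i ⊓ Q.U a) ⊓ W') (inf_le_inf_left _ h) (tensorComp t s i a) := by
  unfold tensorComp
  rw [SecOn.restrict_s, map_mul, res_res, res_res, res_res]

theorem tensorH0_add {L : LB X} {W : X.Opens} (t t' : L.SecOn W) {Q : LB X} (s : Q.H0) :
    (t + t').tensorH0 s = t.tensorH0 s + t'.tensorH0 s :=
  SecOn.ext fun c => tensorComp_add t t' s c.1 c.2

theorem tensorH0_neg {L : LB X} {W : X.Opens} (t : L.SecOn W) {Q : LB X} (s : Q.H0) :
    (-t).tensorH0 s = -(t.tensorH0 s) :=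
  SecOn.ext fun c => tensorComp_neg t s c.1 c.2

theorem tensorH0_zero {L : LB X} {W : X.Opens} {Q : LB X} (s : Q.H0) :
    (0 : L.SecOn W).tensorH0 s = 0 := by
  have h := tensorH0_add (0 : L.SecOn W) 0 s
  rw [add_zero] at h
  exact left_eq_add.mp h

theorem tensorH0_sub {L : LB X} {W : X.Opens} (t t' : L.SecOn W) {Q : LB X} (s : Q.H0) :
    (t - t').tensorH0 s = t.tensorH0 s - t'.tensorH0 s := by
  rw [sub_eq_add_neg, tensorH0_add, tensorH0_neg, sub_eq_add_neg]

theorem tensorH0_smul {L : LB X} {W : X.Opens} (c : Γ(X, W)) (t : L.SecOn W) {Q : LB X}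
    (s : Q.H0) : (c • t).tensorH0 s = c • t.tensorH0 s :=
  SecOn.ext fun d => tensorComp_smul c t s d.1 d.2

theorem tensorH0_restrict {L : LB X} {W W' : X.Opens} (h : W' ≤ W) (t : L.SecOn W) {Q : LB X}
    (s : Q.H0) : (t.restrict h).tensorH0 s = (t.tensorH0 s).restrict h :=
  SecOn.ext fun c => tensorComp_restrict h t s c.1 c.2

/-! ### sections of a tensor product, in components -/

/-- the components of a section of `L ⊗ Q`, typed in the charts of `L` and `Q`. -/
def tcomp {L Q : LB X} {W : X.Opens} (t : (L.tensor Q).SecOn W) (i : L.ι) (a : Q.ι) :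
    Γ(X, (L.U i ⊓ Q.U a) ⊓ W) := t.s (i, a)

theorem tcomp_compat {L Q : LB X} {W : X.Opens} (t : (L.tensor Q).SecOn W) (i j : L.ι)
    (a b : Q.ι) (O : X.Opens) (hi : O ≤ L.U i) (hj : O ≤ L.U j) (ha : O ≤ Q.U a)
    (hb : O ≤ Q.U b) (hW : O ≤ W) :
    res O (le_inf (le_inf hi ha) hW) (tcomp t i a) =
      res O (le_inf hi hj) (L.g i j) * res O (le_inf ha hb) (Q.g a b) *
        res O (le_inf (le_inf hj hb) hW) (tcomp t j b) := by
  have h := t.compat' (i, a) (j, b) O (le_inf hi ha) (le_inf hj hb) hW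
  have h2 := tensor_g_res L Q (i, a) (j, b) O (le_inf (le_inf hi ha) (le_inf hj hb))
  exact h.trans (congrArg (fun z => z * res O (le_inf (le_inf hj hb) hW) (tcomp t j b)) h2)

theorem tcomp_tensorH0 {L : LB X} {W : X.Opens} (t : L.SecOn W) {Q : LB X} (s : Q.H0)
    (i : L.ι) (a : Q.ι) : tcomp (t.tensorH0 s) i a = tensorComp t s i a := rfl

theorem tensor_secOn_ext {L Q : LB X} {W : X.Opens} {t t' : (L.tensor Q).SecOn W}
    (h : ∀ i a, tcomp t i a = tcomp t' i a) : t = t' :=
  SecOn.ext fun c => h c.1 c.2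

theorem vanishesAt_tensor_iff {L Q : LB X} {W : X.Opens} (t : (L.tensor Q).SecOn W) (p : X) :
    t.VanishesAt p ↔ ∀ i a, VanAt p (tcomp t i a) :=
  ⟨fun h i a => h (i, a), fun h c => h c.1 c.2⟩

/-! ### point divisors -/

/-- a line bundle `Q` with a regular section `s` whose zero scheme is the reduced point `p`:
`s` vanishes at `p` and every function vanishing at `p` is a multiple of `s`. -/
structure PointDiv (X : Scheme.{u}) (p : X) where
  /-- the line bundle `O(p)` -/
  Q : LB X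
  /-- the canonical section of `O(p)` -/
  s : Q.H0
  nzd : ∀ (a : Q.ι) (V : X.Opens) (hV : V ≤ Q.U a) (f : Γ(X, V)),
    res V hV (s.1 a) * f = 0 → f = 0
  van : ∀ a, VanAt p (s.1 a)
  dvd : ∀ (a : Q.ι) (V : X.Opens) (hV : V ≤ Q.U a) (f : Γ(X, V)), VanAt p f →
    ∃ c : Γ(X, V), f = res V hV (s.1 a) * c

namespace PointDiv

variable {p : X} (P : PointDiv X p)

theorem cancel (a : P.Q.ι) (V : X.Opens) (hV : V ≤ P.Q.U a) (f g : Γ(X, V))
    (h : res V hV (P.s.1 a) * f = res V hV (P.s.1 a) * g) : f = g := by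
  have := P.nzd a V hV (f - g) (by rw [mul_sub, h, sub_self])
  exact sub_eq_zero.mp this

/-- `s_a = g_{ab} s_b`, restricted. -/
theorem s_compat (a b : P.Q.ι) (O : X.Opens) (ha : O ≤ P.Q.U a) (hb : O ≤ P.Q.U b) :
    res O ha (P.s.1 a) = res O (le_inf ha hb) (P.Q.g a b) * res O hb (P.s.1 b) := by
  have h := congrArg (res O (le_inf ha hb)) (P.s.2 a b)
  rw [map_mul, res_res, res_res] at h
  exact h

theorem vanishesAt_tensorH0 {L : LB X} {W : X.Opens} (t : L.SecOn W) :
    (t.tensorH0 P.s).VanishesAt p := by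
  rw [vanishesAt_tensor_iff]
  intro i a
  rw [tcomp_tensorH0]
  exact ((P.van a).restrict _).mul_left _

theorem tensorH0_injective {L : LB X} {W : X.Opens} (t t' : L.SecOn W)
    (h : t.tensorH0 P.s = t'.tensorH0 P.s) : t = t' := by
  ext i
  refine eq_of_res_eq (fun a : P.Q.ι => (L.U i ⊓ P.Q.U a) ⊓ W)
    (fun a => le_inf (inf_le_left.trans inf_le_left) inf_le_right) ?_ _ _ ?_
  · intro x hx
    have hx' : x ∈ (⊤ : X.Opens) := True.intro
    rw [← P.Q.iSup_U] at hx'
    obtain ⟨a, ha⟩ := Opens.mem_iSup.mp hx'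
    exact Opens.mem_iSup.mpr ⟨a, ⟨⟨hx.1, ha⟩, hx.2⟩⟩
  · intro a
    have h1 : tensorComp t P.s i a = tensorComp t' P.s i a := by
      rw [← tcomp_tensorH0, ← tcomp_tensorH0, h]
    unfold tensorComp at h1
    refine P.cancel a _ (inf_le_left.trans inf_le_right) _ _ ?_
    rw [mul_comm, h1, mul_comm]

/-- **[G1]** a section of `L ⊗ O(p)` vanishing at `p` is `t' ⊗ s` for a section `t'` of `L`. -/
theorem exists_eq_tensorH0 {L : LB X} {W : X.Opens} (t : (L.tensor P.Q).SecOn W)
    (ht : t.VanishesAt p) : ∃ t' : L.SecOn W, t = t'.tensorH0 P.s := by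
  rw [vanishesAt_tensor_iff] at ht
  have hdvd : ∀ i a, ∃ c : Γ(X, (L.U i ⊓ P.Q.U a) ⊓ W),
      tcomp t i a = res _ (inf_le_left.trans inf_le_right) (P.s.1 a) * c :=
    fun i a => P.dvd a _ _ _ (ht i a)
  choose c hc using hdvd
  -- restricted form of `hc`
  have hc' : ∀ i a (O : X.Opens) (hO : O ≤ (L.U i ⊓ P.Q.U a) ⊓ W),
      res O hO (tcomp t i a) =
        res O ((hO.trans inf_le_left).trans inf_le_right) (P.s.1 a) * res O hO (c i a) := by
    intro i a O hO
    rw [hc i a, map_mul, res_res]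
  have hcovQ : ∀ V : X.Opens, V ≤ ⨆ a : P.Q.ι, V ⊓ P.Q.U a := by
    intro V x hx
    have hx' : x ∈ (⊤ : X.Opens) := True.intro
    rw [← P.Q.iSup_U] at hx'
    obtain ⟨a, ha⟩ := Opens.mem_iSup.mp hx'
    exact Opens.mem_iSup.mpr ⟨a, ⟨hx, ha⟩⟩
  -- glue the `c i a` over `a`
  have hglue : ∀ i, ∃! τ : Γ(X, L.U i ⊓ W), ∀ a,
      res ((L.U i ⊓ P.Q.U a) ⊓ W) (le_inf (inf_le_left.trans inf_le_left) inf_le_right) τ =
        c i a := by
    intro i
    refine exists_glue (fun a : P.Q.ι => (L.U i ⊓ P.Q.U a) ⊓ W)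
      (fun a => le_inf (inf_le_left.trans inf_le_left) inf_le_right) ?_ (fun a => c i a) ?_
    · intro x hx
      obtain ⟨a, ha⟩ := Opens.mem_iSup.mp (hcovQ _ hx)
      exact Opens.mem_iSup.mpr ⟨a, ⟨⟨ha.1.1, ha.2⟩, ha.1.2⟩⟩
    · intro a b
      set O : X.Opens := ((L.U i ⊓ P.Q.U a) ⊓ W) ⊓ ((L.U i ⊓ P.Q.U b) ⊓ W) with hO
      have hi : O ≤ L.U i := (inf_le_left.trans inf_le_left).trans inf_le_left
      have ha : O ≤ P.Q.U a := (inf_le_left.trans inf_le_left).trans inf_le_right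
      have hb : O ≤ P.Q.U b := (inf_le_right.trans inf_le_left).trans inf_le_right
      have hW : O ≤ W := inf_le_left.trans inf_le_right
      refine P.cancel a O ha _ _ ?_
      have h1 := tcomp_compat t i i a b O hi hi ha hb hW
      rw [hc' i a O (le_inf (le_inf hi ha) hW), hc' i b O (le_inf (le_inf hi hb) hW),
        L.g_self, map_one, one_mul] at h1
      rw [h1, P.s_compat a b O ha hb, mul_assoc]
  choose τ hτ _ using hglue
  have hτ' : ∀ i a (O : X.Opens) (hO : O ≤ (L.U i ⊓ P.Q.U a) ⊓ W),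
      res O (hO.trans (le_inf (inf_le_left.trans inf_le_left) inf_le_right)) (τ i) =
        res O hO (c i a) := by
    intro i a O hO
    rw [← hτ i a, res_res]
  refine ⟨⟨τ, fun i j => ?_⟩, ?_⟩
  · -- compatibility of the `τ i`
    refine eq_of_res_eq (fun a : P.Q.ι => (L.U i ⊓ L.U j ⊓ W) ⊓ P.Q.U a) (fun a => inf_le_left)
      (hcovQ _) _ _ ?_
    intro a
    set O : X.Opens := (L.U i ⊓ L.U j ⊓ W) ⊓ P.Q.U a with hO
    have hi : O ≤ L.U i := (inf_le_left.trans inf_le_left).trans inf_le_left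
    have hj : O ≤ L.U j := (inf_le_left.trans inf_le_left).trans inf_le_right
    have ha : O ≤ P.Q.U a := inf_le_right
    have hW : O ≤ W := inf_le_left.trans inf_le_right
    rw [map_mul, res_res, res_res, res_res]
    refine P.cancel a O ha _ _ ?_
    have h1 := tcomp_compat t i j a a O hi hj ha ha hW
    rw [hc' i a O (le_inf (le_inf hi ha) hW), hc' j a O (le_inf (le_inf hj ha) hW),
      P.Q.g_self, map_one, mul_one] at h1
    rw [hτ' i a O (le_inf (le_inf hi ha) hW), hτ' j a O (le_inf (le_inf hj ha) hW), h1]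
    ring
  · refine tensor_secOn_ext fun i a => ?_
    rw [tcomp_tensorH0]
    unfold tensorComp
    rw [hc i a, hτ i a, mul_comm]

/-- **[G1]** a section of `L ⊗ O(p)` over `W` is of the form `t' ⊗ s` iff it vanishes at `p`. -/
theorem exists_eq_tensorH0_iff {L : LB X} {W : X.Opens} (t : (L.tensor P.Q).SecOn W) :
    (∃ t' : L.SecOn W, t = t'.tensorH0 P.s) ↔ t.VanishesAt p :=
  ⟨fun ⟨t', h⟩ => h ▸ P.vanishesAt_tensorH0 t', P.exists_eq_tensorH0 t⟩

end PointDiv

/-! ### [G2] sections not vanishing at a point -/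

/-- **[G2]** on an affine open `W ∋ p` every line bundle has a section not vanishing at `p`. -/
theorem exists_not_vanishesAt {W : X.Opens} (hW : IsAffineOpen W) {p : X} (hp : p ∈ W)
    (L : LB X) : ∃ t : L.SecOn W, ¬ t.VanishesAt p := by
  classical
  obtain ⟨β, _, m, τ, hsum⟩ := exists_partition_of_unity L hW
  by_contra hcon
  have hall : ∀ t : L.SecOn W, t.VanishesAt p := fun t => by
    by_contra h
    exact hcon ⟨t, h⟩
  have hx : p ∈ (⊤ : X.Opens) := True.intro
  rw [← L.iSup_U] at hx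
  obtain ⟨i, hi⟩ := Opens.mem_iSup.mp hx
  have hpair : ∀ b, VanAt p (SecOn.pairing (τ b) (m b)) := by
    intro b
    rw [← vanAt_res_iff (inf_le_right : L.U i ⊓ W ≤ W) ⟨hi, hp⟩, SecOn.res_pairing]
    exact (hall (m b) i).mul_left _
  have h1 : VanAt p (∑ b, SecOn.pairing (τ b) (m b)) := vanAt_sum _ _ fun b _ => hpair b
  rw [hsum] at h1
  exact not_vanAt_of_isUnit hp isUnit_one h1

end

end Fermat.Agent.JAC.TW
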