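/-
PROJECT JAC (S25) — helper3 — (TW) **point twists in Čech cohomology, part 2: the Čech chases.**

`X = U₀ ∪ U₁` (two affine opens), `p` a `K`-rational point with point divisor `P : PointDiv X p`
(`O(p) = P.Q`, canonical section `P.s`), `L` a line bundle, `L(p) := L.tensor P.Q`:
* `H1Vanishes L U₀ U₁` : helper8 (`CBC_helper8_Cech`);
* `IsRatPt ιK p` : every function value at `p` is a constant from `K`;
* `exists_sub_smul_vanishesAt` : sections modulo those vanishing at `p` form a `K`-line;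
* **(ii)** `h1Vanishes_tensor` : `H1Vanishes L → H1Vanishes L(p)`;
* **(iii)** `exists_global_not_vanishesAt` : `H1Vanishes L → ∃ σ ∈ H⁰(L(p)), σ(p) ≠ 0`;
* **(iv)** `h1Vanishes_of_tensor` : `H1Vanishes L(p) → (∃ σ ∈ H⁰(L(p)), σ(p) ≠ 0) → H1Vanishes L`;
* **(i)** `global_decomp` : `H⁰(L(p)) = K σ ⊕ H⁰(L) ⊗ s` for `σ` not vanishing at `p`.
-/
import Mathlib
import Fermat.Agent.JAC.TW_helper3_Point
import Fermat.Agent.JAC.CBC_helper8_Cech

set_option autoImplicit false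

open AlgebraicGeometry CategoryTheory Opposite TopologicalSpace

universe u

namespace Fermat.Agent.JAC.TW

open Fermat.Agent.AV Fermat.Agent.AV.LB Fermat.Agent.AV.CP Fermat.Agent.JAC.CBC

noncomputable section

variable {X : Scheme.{u}}

/-- `p` is a `K`-rational point: every function value at `p` is a constant from `K`. -/
def IsRatPt {K : Type*} [CommRing K] (ιK : K →+* Γ(X, ⊤)) (p : X) : Prop :=
  ∀ (V : X.Opens), p ∈ V → ∀ f : Γ(X, V), ∃ c : K, VanAt p (f - res V le_top (ιK c))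

/-- the scalar action of `K` on sections over `W`. -/
def ksmul {K : Type*} [CommRing K] (ιK : K →+* Γ(X, ⊤)) {L : LB X} {W : X.Opens} (c : K)
    (t : L.SecOn W) : L.SecOn W := (res W le_top (ιK c)) • t

theorem ksmul_restrict {K : Type*} [CommRing K] (ιK : K →+* Γ(X, ⊤)) {L : LB X} {W W' : X.Opens}
    (h : W' ≤ W) (c : K) (t : L.SecOn W) :
    (ksmul ιK c t).restrict h = ksmul ιK c (t.restrict h) := by
  unfold ksmul
  rw [restrict_smul', res_res]

theorem restrict_add {L : LB X} {W W' : X.Opens} (h : W' ≤ W) (t t' : L.SecOn W) :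
    (t + t').restrict h = t.restrict h + t'.restrict h := map_add (restrictHom h) t t'

theorem restrict_neg {L : LB X} {W W' : X.Opens} (h : W' ≤ W) (t : L.SecOn W) :
    (-t).restrict h = -(t.restrict h) := map_neg (restrictHom h) t

theorem restrict_sub {L : LB X} {W W' : X.Opens} (h : W' ≤ W) (t t' : L.SecOn W) :
    (t - t').restrict h = t.restrict h - t'.restrict h := map_sub (restrictHom h) t t'

theorem restrict_zero {L : LB X} {W W' : X.Opens} (h : W' ≤ W) :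
    (0 : L.SecOn W).restrict h = 0 := map_zero (restrictHom h)

/-- sections modulo those vanishing at a rational point form a line. -/
theorem exists_sub_smul_vanishesAt {K : Type*} [CommRing K] {ιK : K →+* Γ(X, ⊤)} {p : X}
    (hrat : IsRatPt ιK p) {L : LB X} {W : X.Opens} (σ τ : L.SecOn W)
    (hτ : ¬ τ.VanishesAt p) : ∃ c : K, (σ - ksmul ιK c τ).VanishesAt p := by
  have hx : p ∈ (⊤ : X.Opens) := True.intro
  rw [← L.iSup_U] at hx
  obtain ⟨i, hi⟩ := Opens.mem_iSup.mp hx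
  rw [vanishesAt_iff_of_mem τ i hi] at hτ
  -- on `V := D(τ i)` the component `τ i` is invertible
  set V : X.Opens := X.basicOpen (τ.s i) with hV
  have hpV : p ∈ V := by
    by_contra h
    exact hτ h
  have hVle : V ≤ L.U i ⊓ W := X.basicOpen_le _
  have hunit : IsUnit (res V hVle (τ.s i)) := by
    rw [isUnit_iff_le_basicOpen, basicOpen_res']
    exact le_inf le_rfl le_rfl
  obtain ⟨u, hu⟩ := hunit.exists_left_inv
  obtain ⟨c, hc⟩ := hrat V hpV (u * res V hVle (σ.s i))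
  refine ⟨c, ?_⟩
  rw [vanishesAt_iff_of_mem _ i hi, ← vanAt_res_iff hVle hpV]
  have e : res V hVle ((σ - ksmul ιK c τ).s i) =
      res V hVle (τ.s i) * (u * res V hVle (σ.s i) - res V le_top (ιK c)) := by
    have e1 : (σ - ksmul ιK c τ).s i =
        σ.s i - res (L.U i ⊓ W) inf_le_right (res W le_top (ιK c)) * τ.s i := by
      rw [sub_eq_add_neg, add_s, neg_s]
      unfold ksmul
      rw [smul_s', ← sub_eq_add_neg]
    rw [e1, map_sub, map_mul, res_res, res_res]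
    linear_combination (-(res V hVle (σ.s i))) * hu
  rw [e]
  exact hc.mul_left _

section cech

variable {K : Type*} [CommRing K] {ιK : K →+* Γ(X, ⊤)} {p : X} (hrat : IsRatPt ιK p)

include hrat

/-- **(E1)** approximation at `p`: for `U` affine, every section `t` over `U'` agrees at `p` with the
restriction of a section over `U`. -/
theorem exists_approx {U : X.Opens} (hU : IsAffineOpen U) (U' : X.Opens) {L : LB X}
    (t : L.SecOn U') :
    ∃ a : L.SecOn U, ∀ (W : X.Opens) (hW : W ≤ U) (hW' : W ≤ U'),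
      (t.restrict hW' - a.restrict hW).VanishesAt p := by
  have key : ∃ a : L.SecOn U, (t.restrict (inf_le_right : U ⊓ U' ≤ U') -
      a.restrict (inf_le_left : U ⊓ U' ≤ U)).VanishesAt p := by
    by_cases hp : p ∈ U ⊓ U'
    · obtain ⟨a₀, ha₀⟩ := exists_not_vanishesAt hU hp.1 L
      have ha₀' : ¬ (a₀.restrict (inf_le_left : U ⊓ U' ≤ U)).VanishesAt p := by
        rwa [vanishesAt_restrict_iff _ _ hp]
      obtain ⟨c, hc⟩ := exists_sub_smul_vanishesAt hrat (t.restrict inf_le_right) _ ha₀'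
      refine ⟨ksmul ιK c a₀, ?_⟩
      rwa [ksmul_restrict]
    · exact ⟨0, vanishesAt_of_notMem _ hp⟩
  obtain ⟨a, ha⟩ := key
  refine ⟨a, fun W hW hW' => ?_⟩
  have h := vanishesAt_restrict (le_inf hW hW') ha
  rwa [restrict_sub, SecOn.restrict_restrict, SecOn.restrict_restrict] at h

end cech

/-- gluing sections over a two-set cover. -/
theorem exists_glue₂ {L : LB X} {U₀ U₁ : X.Opens} (hcov : U₀ ⊔ U₁ = ⊤) (a : L.SecOn U₀)
    (b : L.SecOn U₁)
    (h : a.restrict (inf_le_left : U₀ ⊓ U₁ ≤ U₀) = b.restrict (inf_le_right : U₀ ⊓ U₁ ≤ U₁)) :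
    ∃ σ : L.SecOn ⊤, σ.restrict le_top = a ∧ σ.restrict le_top = b := by
  let Wα : ULift.{u} Bool → X.Opens := fun c => if c.down then U₁ else U₀
  let σα : ∀ c, L.SecOn (Wα c) := fun c => by
    rcases c with ⟨_ | _⟩
    · exact a
    · exact b
  obtain ⟨σ, hσ⟩ := SecOn.exists_glue Wα (fun _ => le_top) (by
      intro x _
      have hx : x ∈ U₀ ⊔ U₁ := by rw [hcov]; trivial
      rcases hx with h0 | h1
      · exact Opens.mem_iSup.mpr ⟨⟨false⟩, h0⟩
      · exact Opens.mem_iSup.mpr ⟨⟨true⟩, h1⟩) σα (by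
      rintro ⟨_ | _⟩ ⟨_ | _⟩
      · show a.restrict _ = a.restrict _
        rfl
      · exact h
      · show b.restrict _ = a.restrict _
        have := congrArg (fun τ => τ.restrict (le_inf inf_le_right inf_le_left : U₁ ⊓ U₀ ≤ U₀ ⊓ U₁)) h
        simp only [SecOn.restrict_restrict] at this
        exact this.symm
      · show b.restrict _ = b.restrict _
        rfl)
  exact ⟨σ, hσ ⟨false⟩, hσ ⟨true⟩⟩

theorem ksmul_neg {K : Type*} [CommRing K] (ιK : K →+* Γ(X, ⊤)) {L : LB X} {W : X.Opens} (c : K)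
    (t : L.SecOn W) : ksmul ιK (-c) t = -ksmul ιK c t := by
  unfold ksmul
  rw [map_neg, map_neg, neg_smul]

section twist

variable {K : Type*} [CommRing K] {ιK : K →+* Γ(X, ⊤)} {p : X} (hrat : IsRatPt ιK p)
  (P : PointDiv X p) {U₀ U₁ : X.Opens} (hcov : U₀ ⊔ U₁ = ⊤) (h₀ : IsAffineOpen U₀)
  (h₁ : IsAffineOpen U₁) (L : LB X)

include hrat h₀ in
/-- **(ii)** `H¹(L) = 0 ⇒ H¹(L(p)) = 0`. -/
theorem h1Vanishes_tensor (hL : H1Vanishes L U₀ U₁) : H1Vanishes (L.tensor P.Q) U₀ U₁ := by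
  intro t
  obtain ⟨a, ha⟩ := exists_approx hrat h₀ (U₀ ⊓ U₁) t
  have ha' := ha (U₀ ⊓ U₁) inf_le_left le_rfl
  rw [SecOn.restrict_self] at ha'
  obtain ⟨t', ht'⟩ := P.exists_eq_tensorH0 _ ha'
  obtain ⟨s₀, s₁, hs⟩ := hL t'
  refine ⟨a + s₀.tensorH0 P.s, s₁.tensorH0 P.s, ?_⟩
  rw [restrict_add, ← tensorH0_restrict, ← tensorH0_restrict, add_assoc, ← tensorH0_add, ← hs,
    ← ht']
  abel

include hrat hcov in
/-- **(E2)** correcting a Čech cochain by a global section so that both parts vanish at `p`. -/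
theorem exists_correction {M : LB X} (a : M.SecOn U₀) (b : M.SecOn U₁)
    (hab : (a.restrict (inf_le_left : U₀ ⊓ U₁ ≤ U₀) +
      b.restrict (inf_le_right : U₀ ⊓ U₁ ≤ U₁)).VanishesAt p)
    (σ : M.SecOn ⊤) (hσ : ¬ σ.VanishesAt p) :
    ∃ c : K, (a - ksmul ιK c (σ.restrict le_top)).VanishesAt p ∧
      (b + ksmul ιK c (σ.restrict le_top)).VanishesAt p := by
  have hp01 : p ∈ U₀ ⊔ U₁ := by rw [hcov]; trivial
  have hsum : ∀ c : K,
      (a - ksmul ιK c (σ.restrict le_top)).restrict (inf_le_left : U₀ ⊓ U₁ ≤ U₀) +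
        (b + ksmul ιK c (σ.restrict le_top)).restrict (inf_le_right : U₀ ⊓ U₁ ≤ U₁) =
      a.restrict inf_le_left + b.restrict inf_le_right := by
    intro c
    rw [restrict_sub, restrict_add, ksmul_restrict, ksmul_restrict, SecOn.restrict_restrict,
      SecOn.restrict_restrict]
    abel
  by_cases hp0 : p ∈ U₀
  · have hσ0 : ¬ (σ.restrict (le_top : U₀ ≤ ⊤)).VanishesAt p := by
      rwa [vanishesAt_restrict_iff _ _ hp0]
    obtain ⟨c, hc⟩ := exists_sub_smul_vanishesAt hrat a _ hσ0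
    refine ⟨c, hc, ?_⟩
    by_cases hp1 : p ∈ U₁
    · rw [← vanishesAt_restrict_iff (inf_le_right : U₀ ⊓ U₁ ≤ U₁) _ ⟨hp0, hp1⟩]
      have h1 := vanishesAt_sub hab (vanishesAt_restrict (inf_le_left : U₀ ⊓ U₁ ≤ U₀) hc)
      rw [← hsum c] at h1
      rwa [add_sub_cancel_left] at h1
    · exact vanishesAt_of_notMem _ hp1
  · have hp1 : p ∈ U₁ := hp01.resolve_left hp0
    have hσ1 : ¬ (σ.restrict (le_top : U₁ ≤ ⊤)).VanishesAt p := by
      rwa [vanishesAt_restrict_iff _ _ hp1]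
    obtain ⟨c, hc⟩ := exists_sub_smul_vanishesAt hrat b _ hσ1
    refine ⟨-c, vanishesAt_of_notMem _ hp0, ?_⟩
    rwa [ksmul_neg, ← sub_eq_add_neg]

include hrat hcov in
/-- **(iv)** `H¹(L(p)) = 0` and a global section of `L(p)` not vanishing at `p` ⇒ `H¹(L) = 0`. -/
theorem h1Vanishes_of_tensor (hL' : H1Vanishes (L.tensor P.Q) U₀ U₁) (σ : (L.tensor P.Q).SecOn ⊤)
    (hσ : ¬ σ.VanishesAt p) : H1Vanishes L U₀ U₁ := by
  intro u
  obtain ⟨a, b, hab⟩ := hL' (u.tensorH0 P.s)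
  have hv : (a.restrict (inf_le_left : U₀ ⊓ U₁ ≤ U₀) +
      b.restrict (inf_le_right : U₀ ⊓ U₁ ≤ U₁)).VanishesAt p := by
    rw [← hab]; exact P.vanishesAt_tensorH0 u
  obtain ⟨c, hc0, hc1⟩ := exists_correction hrat hcov a b hv σ hσ
  obtain ⟨a', ha'⟩ := P.exists_eq_tensorH0 _ hc0
  obtain ⟨b', hb'⟩ := P.exists_eq_tensorH0 _ hc1
  refine ⟨a', b', P.tensorH0_injective _ _ ?_⟩
  rw [tensorH0_add, tensorH0_restrict, tensorH0_restrict, ← ha', ← hb', hab, restrict_sub,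
    restrict_add, ksmul_restrict, ksmul_restrict, SecOn.restrict_restrict,
    SecOn.restrict_restrict]
  abel

include hrat hcov h₀ h₁ in
/-- **(E3)** a Čech `0`-cochain of `M`, a cocycle modulo sections vanishing at `p`, which does not
vanish at `p`. -/
theorem exists_cochain_not_vanishesAt (M : LB X) :
    ∃ (a : M.SecOn U₀) (b : M.SecOn U₁),
      (a.restrict (inf_le_left : U₀ ⊓ U₁ ≤ U₀) -
        b.restrict (inf_le_right : U₀ ⊓ U₁ ≤ U₁)).VanishesAt p ∧
      ¬ (a.VanishesAt p ∧ b.VanishesAt p) := by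
  have hp01 : p ∈ U₀ ⊔ U₁ := by rw [hcov]; trivial
  by_cases hp0 : p ∈ U₀
  · obtain ⟨a, ha⟩ := exists_not_vanishesAt h₀ hp0 M
    obtain ⟨b, hb⟩ := exists_approx hrat h₁ U₀ a
    exact ⟨a, b, hb (U₀ ⊓ U₁) inf_le_right inf_le_left, fun h => ha h.1⟩
  · have hp1 : p ∈ U₁ := hp01.resolve_left hp0
    obtain ⟨b, hb⟩ := exists_not_vanishesAt h₁ hp1 M
    exact ⟨0, b, vanishesAt_of_notMem _ (fun h : p ∈ U₀ ⊓ U₁ => hp0 h.1), fun h => hb h.2⟩

include hrat hcov h₀ h₁ in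
/-- **(iii)** `H¹(L) = 0 ⇒` some global section of `L(p)` does not vanish at `p`. -/
theorem exists_global_not_vanishesAt (hL : H1Vanishes L U₀ U₁) :
    ∃ σ : (L.tensor P.Q).SecOn ⊤, ¬ σ.VanishesAt p := by
  obtain ⟨a, b, hab, hnot⟩ := exists_cochain_not_vanishesAt hrat hcov h₀ h₁ (L.tensor P.Q)
  obtain ⟨t', ht'⟩ := P.exists_eq_tensorH0 _ hab
  obtain ⟨s₀, s₁, hs⟩ := hL t'
  obtain ⟨σ, hσ0, hσ1⟩ := exists_glue₂ hcov (a - s₀.tensorH0 P.s) (b + s₁.tensorH0 P.s) (by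
    rw [restrict_sub, restrict_add, ← tensorH0_restrict, ← tensorH0_restrict]
    have h1 : a.restrict (inf_le_left : U₀ ⊓ U₁ ≤ U₀) =
        b.restrict (inf_le_right : U₀ ⊓ U₁ ≤ U₁) + t'.tensorH0 P.s := by
      rw [← ht']; abel
    rw [h1, hs, tensorH0_add]
    abel)
  refine ⟨σ, fun hσ => hnot ⟨?_, ?_⟩⟩
  · have h := vanishesAt_add (vanishesAt_restrict (le_top : U₀ ≤ ⊤) hσ)
      (P.vanishesAt_tensorH0 s₀)
    rwa [hσ0, sub_add_cancel] at h
  · have h := vanishesAt_sub (vanishesAt_restrict (le_top : U₁ ≤ ⊤) hσ)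
      (P.vanishesAt_tensorH0 s₁)
    rwa [hσ1, add_sub_cancel_right] at h

include hrat in
/-- **(i)** `H⁰(L(p)) = K σ ⊕ H⁰(L) ⊗ s` for any `σ` not vanishing at `p`. -/
theorem global_decomp {W : X.Opens} (τ : (L.tensor P.Q).SecOn W) (hτ : ¬ τ.VanishesAt p)
    (σ : (L.tensor P.Q).SecOn W) :
    ∃ (c : K) (t' : L.SecOn W), σ = ksmul ιK c τ + t'.tensorH0 P.s := by
  obtain ⟨c, hc⟩ := exists_sub_smul_vanishesAt hrat σ τ hτ
  obtain ⟨t', ht'⟩ := P.exists_eq_tensorH0 _ hc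
  exact ⟨c, t', by rw [← ht']; abel⟩

end twist

end

end Fermat.Agent.JAC.TW
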