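/-
PROJECT JAC (S25) — (D3-a,c,d), helper2: **point divisors on a smooth proper curve**, in the
language of helper3's `TW.PointDiv` / `TW.IsRatPt`.

Generic (`X` integral noetherian, codimension-one points closed with DVR local rings, Hartogs):
* `mem_basicOpen_iff_ord_eq_zero`;
* `isEffective_ofWeil` : `O(D)` of an effective Weil divisor is an effective Cartier divisor;
* **`pointDivOfWeil hDVR hcl hH z hz : TW.PointDiv X z`** with `Q = LBofWeil … (Pi.single z 1) …`
  and `s` = the canonical section; `deg_pointDivOfWeil`;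
* `pointDiv_isUnit_res_of_notMem`, `sectionDiv_pointDiv` (the divisor of the canonical section of
  ANY point divisor is the point), **`deg_pointDiv`** (every point divisor has degree one).

On the curve `c : C ⟶ Spec K` (proper, smooth of relative dimension one, `K` algebraically closed):
* **`pointDiv_curve c z hz`**, `deg_pointDiv_curve`, **`isRatPt_curve`**;
* (c) `exists_closedPoint_mem` (every nonempty open contains a closed point),
  **`infinite_closedPoints`**;
* (d) `isClosed_vanishesAt`, **`finite_vanishesAt`** (a nonzero section of a line bundle over `⊤`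
  vanishes at finitely many points), `finite_vanishesAt_H0`.
-/
import Mathlib
import Fermat.Agent.JAC.CURVE_helper2_RRLB
import Fermat.Agent.JAC.TW_helper3_Cech

set_option autoImplicit false
set_option linter.style.haveILetI false
set_option linter.unusedSectionVars false

open AlgebraicGeometry CategoryTheory Opposite TopologicalSpace Order

universe u

namespace Fermat.Agent.JAC

open Fermat.Agent.AV Fermat.Agent.AV.LB

noncomputable section

open scoped Classical

section Generic

variable {X : Scheme.{u}} [IsIntegral X]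

/-- at a codimension-one point with DVR local ring, a nonzero function is invertible iff its order
of vanishing is zero. -/
theorem mem_basicOpen_iff_ord_eq_zero [IsLocallyNoetherian X] {z : X} (hz : coheight z = 1)
    [IsDiscreteValuationRing (X.presheaf.stalk z)] {V : X.Opens} (hzV : z ∈ V) (a : Γ(X, V))
    (ha : a ≠ 0) : z ∈ X.basicOpen a ↔ Scheme.ord (germOf V a) z = 0 := by
  haveI : Nonempty V := ⟨⟨z, hzV⟩⟩
  have hf : X.germToFunctionField V a ≠ 0 := fun h =>
    ha (X.germToFunctionField_injective _ (by rw [h, map_zero]))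
  rw [germOf_eq, Scheme.ord_eq_iff hz hf, Scheme.mem_basicOpen _ _ z hzV,
    Ring.isUnit_iff_ordFrac_one_of_isDiscreteValuationRing (K := X.functionField),
    Scheme.algebraMap_germ_eq_germToFunctionField X hzV]
  rfl

variable [IsNoetherian X]
  (hDVR : ∀ z : X, coheight z = 1 → IsDiscreteValuationRing (X.presheaf.stalk z))
  (hcl : ∀ z : X, coheight z = 1 → IsClosed ({z} : Set X))
  (hH : HartogsProp X)

/-- the Cartier divisor of an effective Weil divisor is effective. -/
theorem isEffective_ofWeil (D : X → ℤ) (hD : {z : X | coheight z = 1 ∧ D z ≠ 0}.Finite)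
    (hD0 : ∀ z, coheight z = 1 → 0 ≤ D z) :
    (CartierDiv.ofWeil hDVR hcl hH D hD).IsEffective := by
  intro x
  apply mem_regOn_of_ord_nonneg hH
  intro w hw hwc
  show 0 ≤ Scheme.ord (weilEq hDVR D x) w
  rw [ord_weilEq_of_mem hDVR hcl D hD hwc hw]
  exact hD0 w hwc

theorem single_one_nonneg (z : X) (w : X) : 0 ≤ (Pi.single z (1 : ℤ) : X → ℤ) w := by
  by_cases h : w = z
  · subst h; simp
  · rw [Pi.single_eq_of_ne h]

/-- the Cartier divisor of a codimension-one point. -/
def pointCartier (z : X) : CartierDiv X :=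
  CartierDiv.ofWeil hDVR hcl hH (Pi.single z 1) (finite_single z 1)

theorem pointCartier_isEffective (z : X) : (pointCartier hDVR hcl hH z).IsEffective :=
  isEffective_ofWeil hDVR hcl hH _ _ (fun w _ => single_one_nonneg z w)

/-- the canonical section of `O(z)`. -/
def pointSec (z : X) : (pointCartier hDVR hcl hH z).toLB.H0 :=
  (pointCartier hDVR hcl hH z).canonicalSection (pointCartier_isEffective hDVR hcl hH z)

theorem pointCartier_f (z x : X) :
    (pointCartier hDVR hcl hH z).f x = weilEq hDVR (Pi.single z 1) x := rfl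

theorem pointCartier_f_ne_zero (z : X) (x : (pointCartier hDVR hcl hH z).ι) :
    (pointCartier hDVR hcl hH z).f x ≠ 0 := (pointCartier hDVR hcl hH z).ne_zero x

/-- the order of the local equation of `O(z)`. -/
theorem ord_pointCartier_f (z : X) (x : (pointCartier hDVR hcl hH z).ι) {w : X}
    (hwc : coheight w = 1) (hw : w ∈ (pointCartier hDVR hcl hH z).U x) :
    Scheme.ord ((pointCartier hDVR hcl hH z).f x) w = (Pi.single z (1 : ℤ) : X → ℤ) w :=
  ord_weilEq_of_mem hDVR hcl (Pi.single z 1) (finite_single z 1) hwc hw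

/-- the germ of the canonical section of `O(z)` in the chart `x`, restricted. -/
theorem germOf_res_pointSec (z : X) (x : (pointCartier hDVR hcl hH z).ι) (V : X.Opens)
    [Nonempty V] (hV : V ≤ (pointCartier hDVR hcl hH z).U x) :
    germOf V (res V hV ((pointSec hDVR hcl hH z).1 x)) = (pointCartier hDVR hcl hH z).f x := by
  haveI : Nonempty ((pointCartier hDVR hcl hH z).U x) :=
    ⟨⟨(Classical.arbitrary V).1, hV (Classical.arbitrary V).2⟩⟩
  rw [germOf_res']
  exact CartierDiv.germOf_canonicalSection (pointCartier hDVR hcl hH z) _ x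

theorem pointSec_nzd (z : X) (x : (pointCartier hDVR hcl hH z).ι) (V : X.Opens)
    (hV : V ≤ (pointCartier hDVR hcl hH z).U x) (f : Γ(X, V))
    (hf : res V hV ((pointSec hDVR hcl hH z).1 x) * f = 0) : f = 0 := by
  apply eq_of_germOf_eq
  intro hVne
  haveI := hVne
  have h1 := congrArg (germOf V) hf
  rw [germOf_map_mul, germOf_res_pointSec hDVR hcl hH z x V hV, germOf_map_zero] at h1
  rw [germOf_map_zero]
  exact (mul_eq_zero.1 h1).resolve_left (pointCartier_f_ne_zero hDVR hcl hH z x)

theorem pointSec_apply_ne_zero (z : X) (x : (pointCartier hDVR hcl hH z).ι)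
    [Nonempty ((pointCartier hDVR hcl hH z).U x)] : (pointSec hDVR hcl hH z).1 x ≠ 0 := by
  intro h0
  have hg := germOf_res_pointSec hDVR hcl hH z x _ le_rfl
  rw [res_self, h0] at hg
  have h1 : germOf ((pointCartier hDVR hcl hH z).U x) (0 : Γ(X, _)) = 0 := germOf_map_zero _
  exact pointCartier_f_ne_zero hDVR hcl hH z x (hg.symm.trans h1)

theorem pointSec_van (z : X) (hz : coheight z = 1) (x : (pointCartier hDVR hcl hH z).ι) :
    TW.VanAt z ((pointSec hDVR hcl hH z).1 x) := by
  intro hmem
  have hzU : z ∈ (pointCartier hDVR hcl hH z).U x := X.basicOpen_le _ hmem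
  haveI : Nonempty ((pointCartier hDVR hcl hH z).U x) := ⟨⟨z, hzU⟩⟩
  haveI := hDVR z hz
  have hg := germOf_res_pointSec hDVR hcl hH z x _ le_rfl
  rw [res_self] at hg
  have h1 := (mem_basicOpen_iff_ord_eq_zero hz hzU _
    (pointSec_apply_ne_zero hDVR hcl hH z x)).1 hmem
  rw [hg, ord_pointCartier_f hDVR hcl hH z x hz hzU] at h1
  simp at h1

theorem pointSec_dvd (z : X) (x : (pointCartier hDVR hcl hH z).ι) (V : X.Opens)
    (hV : V ≤ (pointCartier hDVR hcl hH z).U x) (f : Γ(X, V)) (hf : TW.VanAt z f) :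
    ∃ c : Γ(X, V), f = res V hV ((pointSec hDVR hcl hH z).1 x) * c := by
  by_cases hVne : Nonempty V
  swap
  · haveI := subsingleton_of_not_nonempty _ hVne
    exact ⟨0, Subsingleton.elim _ _⟩
  haveI := hVne
  have hs := germOf_res_pointSec hDVR hcl hH z x V hV
  have hw0 := pointCartier_f_ne_zero hDVR hcl hH z x
  have hreg : germOf V f / (pointCartier hDVR hcl hH z).f x ∈ regOn V := by
    by_cases hf0 : f = 0
    · rw [hf0, germOf_map_zero, zero_div]
      exact Subring.zero_mem _
    have hgf : germOf V f ≠ 0 := fun h => hf0 (germOf_injective V (by rw [h, germOf_map_zero]))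
    apply mem_regOn_of_ord_nonneg hH
    intro w hwV hwc
    rw [scheme_ord_div hgf hw0, ord_pointCartier_f hDVR hcl hH z x hwc (hV hwV)]
    have h0 : 0 ≤ Scheme.ord (germOf V f) w := by
      rw [germOf_eq]
      exact scheme_ord_germ_nonneg w hwV hwc f hf0
    by_cases hwz : w = z
    · subst hwz
      haveI := hDVR w hwc
      have hne : Scheme.ord (germOf V f) w ≠ 0 := fun h =>
        hf ((mem_basicOpen_iff_ord_eq_zero hwc hwV f hf0).2 h)
      simp only [Pi.single_eq_same]
      omega
    · rw [Pi.single_eq_of_ne hwz]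
      omega
  refine ⟨secOfReg V _ hreg, ?_⟩
  apply eq_of_germOf_eq
  intro _
  rw [germOf_map_mul, hs, germOf_secOfReg, mul_div_cancel₀ _ hw0]

/-- **the point divisor `O(z)`** with its canonical section, at a codimension-one point. -/
def pointDivOfWeil (z : X) (hz : coheight z = 1) : TW.PointDiv X z where
  Q := (pointCartier hDVR hcl hH z).toLB
  s := pointSec hDVR hcl hH z
  nzd := pointSec_nzd hDVR hcl hH z
  van := pointSec_van hDVR hcl hH z hz
  dvd := pointSec_dvd hDVR hcl hH z

theorem pointDivOfWeil_Q (z : X) (hz : coheight z = 1) :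
    (pointDivOfWeil hDVR hcl hH z hz).Q =
      LBofWeil hDVR hcl hH (Pi.single z 1) (finite_single z 1) := rfl

theorem deg_pointDivOfWeil (h0 : PrincipalDegZero X) (z : X) (hz : coheight z = 1) :
    (pointDivOfWeil hDVR hcl hH z hz).Q.deg = 1 := by
  rw [pointDivOfWeil_Q, deg_LBofWeil hDVR hcl h0 hH, divDeg_single z hz]

/-! ### every point divisor has degree one -/

/-- the canonical section of a point divisor is invertible away from the point. -/
theorem pointDiv_isUnit_res_of_notMem {X : Scheme.{u}} {z : X} (P : TW.PointDiv X z) (a : P.Q.ι)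
    (V : X.Opens) (hV : V ≤ P.Q.U a) (hz : z ∉ V) : IsUnit (res V hV (P.s.1 a)) := by
  obtain ⟨c, hc⟩ := P.dvd a V hV 1 (TW.vanAt_of_notMem hz _)
  exact IsUnit.of_mul_eq_one c hc.symm

theorem pointDiv_apply_ne_zero {z : X} (P : TW.PointDiv X z) (a : P.Q.ι) [Nonempty (P.Q.U a)] :
    P.s.1 a ≠ 0 := by
  intro h0
  have := P.nzd a (P.Q.U a) le_rfl 1 (by rw [res_self, h0, zero_mul])
  exact one_ne_zero this

theorem pointDiv_section_ne_zero {z : X} (P : TW.PointDiv X z) : P.s ≠ 0 := by
  intro h0
  obtain ⟨a, ha⟩ := P.Q.exists_mem_chart z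
  haveI : Nonempty (P.Q.U a) := ⟨⟨z, ha⟩⟩
  apply pointDiv_apply_ne_zero P a
  rw [h0]
  rfl

include hDVR hcl in
/-- **the divisor of the canonical section of a point divisor is the point.** -/
theorem sectionDiv_pointDiv {z : X} (hz : coheight z = 1) (P : TW.PointDiv X z) (w : X)
    (hw : coheight w = 1) :
    P.Q.sectionDiv P.s (pointDiv_section_ne_zero P) w = (Pi.single z (1 : ℤ) : X → ℤ) w := by
  obtain ⟨a, ha⟩ := P.Q.exists_mem_chart w
  haveI : Nonempty (P.Q.U a) := ⟨⟨w, ha⟩⟩
  rw [P.Q.sectionDiv_eq P.s _ ha]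
  by_cases hwz : w = z
  · subst hwz
    rw [Pi.single_eq_same]
    haveI := hDVR w hw
    have hne := pointDiv_apply_ne_zero P a
    have h0 : 0 ≤ Scheme.ord (germOf (P.Q.U a) (P.s.1 a)) w := by
      rw [germOf_eq]
      exact scheme_ord_germ_nonneg w ha hw _ hne
    have h1 : Scheme.ord (germOf (P.Q.U a) (P.s.1 a)) w ≠ 0 := fun h =>
      P.van a ((mem_basicOpen_iff_ord_eq_zero hw ha _ hne).2 h)
    -- a uniformiser is a multiple of the section
    obtain ⟨x, hx0, hx1⟩ := exists_scheme_ord_eq_one X w hw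
    have hxreg : x ∈ regAt w := by
      rw [mem_regAt_iff_mem_range, mem_range_stalk_iff_ord w hw]
      exact Or.inr (by omega)
    obtain ⟨W, b, hwW, hb⟩ := mem_regAt.1 hxreg
    have hwWa : w ∈ W ⊓ P.Q.U a := ⟨hwW, ha⟩
    haveI : Nonempty (W ⊓ P.Q.U a : X.Opens) := ⟨⟨w, hwWa⟩⟩
    haveI : Nonempty W := ⟨⟨w, hwW⟩⟩
    have hb' : germOf (W ⊓ P.Q.U a) (res (W ⊓ P.Q.U a) inf_le_left b) = x := by
      rw [germOf_res', hb]
    have hbne : res (W ⊓ P.Q.U a) inf_le_left b ≠ 0 := by
      intro h
      rw [h, germOf_map_zero] at hb'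
      exact hx0 hb'.symm
    have hvan : TW.VanAt w (res (W ⊓ P.Q.U a) inf_le_left b) := by
      intro hmem
      have := (mem_basicOpen_iff_ord_eq_zero hw hwWa _ hbne).1 hmem
      rw [hb', hx1] at this
      exact one_ne_zero this
    obtain ⟨c, hc⟩ := P.dvd a (W ⊓ P.Q.U a) inf_le_right _ hvan
    have hcne : c ≠ 0 := by
      rintro rfl
      rw [mul_zero] at hc
      exact hbne hc
    have hgc : germOf (W ⊓ P.Q.U a) c ≠ 0 := fun h =>
      hcne (germOf_injective _ (by rw [h, germOf_map_zero]))
    have hgs : germOf (P.Q.U a) (P.s.1 a) ≠ 0 := fun h =>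
      hne (germOf_injective _ (by rw [h, germOf_map_zero]))
    have h2 := congrArg (germOf (W ⊓ P.Q.U a)) hc
    rw [hb', germOf_map_mul, germOf_res'] at h2
    have h3 : Scheme.ord x w = Scheme.ord (germOf (P.Q.U a) (P.s.1 a)) w +
        Scheme.ord (germOf (W ⊓ P.Q.U a) c) w := by
      rw [h2, Scheme.ord_mul hgs hgc]
    have h4 : 0 ≤ Scheme.ord (germOf (W ⊓ P.Q.U a) c) w := by
      rw [germOf_eq]
      exact scheme_ord_germ_nonneg w hwWa hw _ hcne
    omega
  · rw [Pi.single_eq_of_ne hwz]
    let O : X.Opens := P.Q.U a ⊓ ⟨({z} : Set X)ᶜ, (hcl z hz).isOpen_compl⟩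
    have hwO : w ∈ O := ⟨ha, hwz⟩
    haveI : Nonempty O := ⟨⟨w, hwO⟩⟩
    have hu := pointDiv_isUnit_res_of_notMem P a O inf_le_left (fun h => h.2 rfl)
    have := Scheme.ord_of_isUnit hu hwO
    rwa [← germOf_eq, germOf_res'] at this

include hDVR hcl in
/-- **every point divisor has degree one.** -/
theorem deg_pointDiv (h0 : PrincipalDegZero X) {z : X} (hz : coheight z = 1)
    (P : TW.PointDiv X z) : P.Q.deg = 1 := by
  rw [deg_eq_ratSecDeg h0 (RatSec.ofSection P.Q P.s (pointDiv_section_ne_zero P))]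
  unfold ratSecDeg
  have h1 : divDeg (RatSec.ofSection P.Q P.s (pointDiv_section_ne_zero P)).div =
      divDeg (Pi.single z (1 : ℤ) : X → ℤ) :=
    divDeg_congr (fun w hw => sectionDiv_pointDiv hDVR hcl hz P w hw)
  rw [h1, divDeg_single z hz]

end Generic

section Curve

variable {K : Type u} [Field K] {C : Scheme.{u}} [IsIntegral C] (c : C ⟶ Spec (.of K))
  [SmoothOfRelativeDimension 1 c]

include c in
/-- **(c)** every nonempty open subset of a curve contains a closed point. -/
theorem exists_closedPoint_mem (V : C.Opens) (hV : Nonempty V) :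
    ∃ z : C, z ∈ V ∧ z ≠ genericPoint C := by
  obtain ⟨⟨v, hv⟩⟩ := hV
  obtain ⟨_, ⟨U, hU, rfl⟩, hvU, hUV⟩ :=
    C.isBasis_affineOpens.exists_subset_of_mem_open hv V.isOpen
  haveI : Nonempty U := ⟨⟨v, hvU⟩⟩
  by_contra hcon
  push Not at hcon
  apply not_isField_sections c hU
  haveI : IsDomain Γ(C, U) := inferInstance
  by_contra hnf
  obtain ⟨p, hp0, hp⟩ := Ring.not_isField_iff_exists_prime.mp hnf
  have hinj : Function.Injective hU.fromSpec := hU.fromSpec.isOpenEmbedding.injective
  have hmem : ∀ x : Spec Γ(C, U), hU.fromSpec x ∈ V := fun x => by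
    apply hUV
    have : hU.fromSpec x ∈ Set.range hU.fromSpec := ⟨x, rfl⟩
    rwa [hU.range_fromSpec] at this
  have h1 : hU.fromSpec (⟨p, hp⟩ : PrimeSpectrum Γ(C, U)) =
      hU.fromSpec (⟨⊥, Ideal.isPrime_bot⟩ : PrimeSpectrum Γ(C, U)) := by
    rw [hcon _ (hmem _), hcon _ (hmem _)]
  have h2 := hinj h1
  exact hp0 (congrArg PrimeSpectrum.asIdeal h2)

include c in
/-- **(c)** a curve has infinitely many closed points. -/
theorem infinite_closedPoints : {z : C | z ≠ genericPoint C}.Infinite := by
  intro hfin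
  have hcl : IsClosed {z : C | z ≠ genericPoint C} := by
    have h := hfin.isClosed_biUnion (f := fun z => ({z} : Set C))
      (fun z hz => (isClosed_singleton_iff c z).2 hz)
    rwa [Set.biUnion_of_singleton] at h
  let V : C.Opens := ⟨{z : C | z ≠ genericPoint C}ᶜ, hcl.isOpen_compl⟩
  have hV : Nonempty V := ⟨⟨genericPoint C, fun h => h rfl⟩⟩
  obtain ⟨z, hzV, hz⟩ := exists_closedPoint_mem c V hV
  exact hzV hz

/-- the vanishing locus of a section is closed. -/
theorem isClosed_vanishesAt {X : Scheme.{u}} {L : LB X} {W : X.Opens} (σ : L.SecOn W) :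
    IsClosed {z : X | σ.VanishesAt z} := by
  have h : {z : X | σ.VanishesAt z} = (⋃ i, (X.basicOpen (σ.s i) : Set X))ᶜ := by
    ext z
    simp only [Set.mem_ofPred_eq, Set.mem_compl_iff, Set.mem_iUnion, not_exists]
    rfl
  rw [h]
  exact (isOpen_iUnion fun i => (X.basicOpen (σ.s i)).isOpen).isClosed_compl

/-- a nonzero section of a line bundle on an integral scheme does not vanish at the generic
point. -/
theorem not_vanishesAt_genericPoint {X : Scheme.{u}} [IsIntegral X] {L : LB X} {W : X.Opens}
    (σ : L.SecOn W) (hσ : σ ≠ 0) : ¬ σ.VanishesAt (genericPoint X) := by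
  intro hvan
  apply hσ
  ext i
  show σ.s i = 0
  by_contra hne
  have h1 : X.basicOpen (σ.s i) ≠ ⊥ := fun h => hne ((AlgebraicGeometry.basicOpen_eq_bot_iff _).1 h)
  have h2 : genericPoint X ∈ X.basicOpen (σ.s i) := by
    refine ((genericPoint_spec X).mem_open_set_iff (X.basicOpen (σ.s i)).isOpen).mpr ?_
    rw [Set.univ_inter]
    by_contra hempty
    apply h1
    ext x
    simp only [Opens.coe_bot, Set.mem_empty_iff_false, iff_false]
    intro hx
    exact hempty ⟨x, hx⟩
  exact hvan i h2

variable [IsNoetherian C]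

include c in
/-- **(d)** a nonzero section of a line bundle on a curve vanishes at finitely many points. -/
theorem finite_vanishesAt {L : LB C} {W : C.Opens} (σ : L.SecOn W) (hσ : σ ≠ 0) :
    {z : C | σ.VanishesAt z}.Finite := by
  refine finite_of_isClosed_of_ne_univ c _ (isClosed_vanishesAt σ) (fun h => ?_)
  have : genericPoint C ∈ {z : C | σ.VanishesAt z} := by rw [h]; trivial
  exact not_vanishesAt_genericPoint σ hσ this

variable [IsAlgClosed K] [IsProper c]

/-- **(a)** the point divisor `O(z)` of a closed point of the curve. -/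
def pointDiv_curve (z : C) (hz : z ≠ genericPoint C) : TW.PointDiv C z :=
  pointDivOfWeil (isDiscreteValuationRing_stalk_curve c) (isClosed_singleton_curve c)
    (hartogsProp_curve c) z ((coheight_eq_one_iff c z).2 hz)

theorem pointDiv_curve_Q (z : C) (hz : z ≠ genericPoint C) :
    (pointDiv_curve c z hz).Q = LBofWeil (isDiscreteValuationRing_stalk_curve c)
      (isClosed_singleton_curve c) (hartogsProp_curve c) (Pi.single z 1) (finite_single z 1) :=
  rfl

/-- **(a)** `deg O(z) = 1`. -/
theorem deg_pointDiv_curve (z : C) (hz : z ≠ genericPoint C) :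
    (pointDiv_curve c z hz).Q.deg = 1 :=
  deg_pointDivOfWeil _ _ _ (principalDegZero_curve c) z _

omit [AlgebraicGeometry.IsNoetherian C] [IsProper c] in
/-- **(a)** the closed points of a curve over an algebraically closed field are rational. -/
theorem isRatPt_curve (z : C) (hz : z ≠ genericPoint C) :
    TW.IsRatPt (c.appTop.hom.comp (Scheme.ΓSpecIso (.of K)).inv.hom) z := by
  haveI : Smooth c := SmoothOfRelativeDimension.smooth 1 c
  intro V hzV f
  obtain ⟨_, ⟨U, hU, rfl⟩, hzU, hUV⟩ :=
    C.isBasis_affineOpens.exists_subset_of_mem_open hzV V.isOpen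
  obtain ⟨k, hk⟩ := exists_sub_notMem_basicOpen c hU z hzU ((isClosed_singleton_iff c z).2 hz)
    (res U hUV f)
  refine ⟨k, ?_⟩
  rw [← TW.vanAt_res_iff hUV hzU, map_sub, res_res, ← sectionsStrMap_top, res_sectionsStrMap]
  exact hk

end Curve

end

end Fermat.Agent.JAC
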