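/-
PROJECT JAC (S25) — (D3-b), helper2: **base change of point divisors** along a field extension.

`H : IsPullback p₁ p₂ c y` with `c : C ⟶ Spec K` a smooth curve over an algebraically closed field,
`y : Spec K' ⟶ Spec K`, `z : C` a closed point, `P : TW.PointDiv C z`.
* `exists_add_mul_of_tensor` (algebra: `A = K + πA ⇒ B ⊗ A = B + π (B ⊗ A)`);
* `surjective_of_isPullback_field`, `isAffineHom_of_isPullback_field`,
  `isAffineOpen_preimage_of_isPullback_field`;
* `exists_const_add_mul` : on `p₁⁻¹ U` every function is a constant of `K'` plus a multiple of `π`;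
  `exists_eq_mul_of_vanAt` (local divisibility at a point over `z`);
* `existsUnique_point_over`, `eq_of_map_eq_closedPoint` : exactly one point `z'` of `Y` over `z`;
  `pointOver`, `map_pointOver`, `pointOver_injective`, `pointOver_ne_genericPoint`;
* `isNZDOn_app_pointDiv`, `exists_eq_mul_app_pointDiv`;
* **`pointDivPullback c y p₁ p₂ H hz P z' hz' : TW.PointDiv Y z'`** with `Q = P.Q.pullback p₁`,
  `s = P.Q.pullbackSection p₁ P.s` (`rfl`);
* `isRatPt_of_map_eq` (`K'` algebraically closed), **`deg_pointDivPullback`** (`= 1`).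
-/
import Mathlib
import Fermat.Agent.JAC.D3_helper2_PointDiv
import Fermat.Agent.JAC.HILB_lead_LocalEq
import Fermat.Agent.AV.CP_helper8_Kunneth

set_option autoImplicit false
set_option linter.style.haveILetI false
set_option linter.unusedSectionVars false

open AlgebraicGeometry CategoryTheory Opposite TopologicalSpace Order TensorProduct

universe u

namespace Fermat.Agent.JAC

open Fermat.Agent.AV Fermat.Agent.AV.LB

noncomputable section

/-- `A = K + πA ⇒ A' = β(B) + α(π) A'` when `A'` is generated by the products `β b * α r`. -/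
theorem exists_add_mul_of_tensor {K A B A' : Type*} [Field K] [CommRing A] [CommRing B]
    [CommRing A'] [Algebra K A] [Algebra K B] (α : A →+* A') (β : B →+* A')
    (hαβ : ∀ k : K, α (algebraMap K A k) = β (algebraMap K B k))
    (hgen : ∀ g : A', g ∈ AddSubmonoid.closure {x | ∃ b r, x = β b * α r})
    (π : A) (hπ : ∀ r : A, ∃ (k : K) (r' : A), r = algebraMap K A k + π * r') (g : A') :
    ∃ (b : B) (g' : A'), g = β b + α π * g' := by
  induction hgen g using AddSubmonoid.closure_induction with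
  | mem x hx =>
    obtain ⟨b, r, rfl⟩ := hx
    obtain ⟨k, r', hr⟩ := hπ r
    refine ⟨b * algebraMap K B k, β b * α r', ?_⟩
    rw [hr, map_add, map_mul, map_mul, hαβ]
    ring
  | zero => exact ⟨0, 0, by simp⟩
  | add x y _ _ hx hy =>
    obtain ⟨b, g', rfl⟩ := hx
    obtain ⟨b₂, g₂', rfl⟩ := hy
    exact ⟨b + b₂, g' + g₂', by rw [map_add]; ring⟩

section BaseChange

variable {K K' : Type u} [Field K] [Field K'] {C Y : Scheme.{u}} (c : C ⟶ Spec (.of K))
  (y : Spec (.of K') ⟶ Spec (.of K)) (p₁ : Y ⟶ C) (p₂ : Y ⟶ Spec (.of K'))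
  (H : IsPullback p₁ p₂ c y)

include H in
/-- the base change of a `K`-scheme to a field extension is surjective. -/
theorem surjective_of_isPullback_field : Function.Surjective p₁ := by
  haveI : Surjective y := ⟨fun x => ⟨default, Subsingleton.elim _ _⟩⟩
  have : Surjective p₁ := MorphismProperty.of_isPullback H.flip ‹_›
  exact Scheme.Hom.surjective p₁

include H in
theorem isAffineHom_of_isPullback_field : IsAffineHom p₁ :=
  MorphismProperty.of_isPullback H.flip (inferInstance : IsAffineHom y)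

include H in
theorem isAffineOpen_preimage_of_isPullback_field {U : C.Opens} (hU : IsAffineOpen U) :
    IsAffineOpen (p₁ ⁻¹ᵁ U) := by
  haveI := isAffineHom_of_isPullback_field c y p₁ p₂ H
  exact hU.preimage p₁

include H in
/-- **on `p₁⁻¹ U` every function is a constant of `K'` plus a multiple of `π`**, if this holds on
`U` with constants of `K`. -/
theorem exists_const_add_mul {U : C.Opens} (hU : IsAffineOpen U) (π : Γ(C, U))
    (hπ : ∀ r : Γ(C, U), ∃ (k : K) (r' : Γ(C, U)), r = sectionsStrMap c U k + π * r')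
    (g : Γ(Y, p₁ ⁻¹ᵁ U)) :
    ∃ (b : Γ(Spec (.of K'), ⊤)) (g' : Γ(Y, p₁ ⁻¹ᵁ U)),
      g = (p₂.appLE ⊤ (p₁ ⁻¹ᵁ U) (fun _ _ => trivial)).hom b + (p₁.app U).hom π * g' := by
  letI : CP.KScheme K C := ⟨c⟩
  letI : CP.KScheme K (Spec (.of K')) := ⟨y⟩
  have H' : IsPullback p₁ p₂ (CP.KScheme.str (K := K)) (CP.KScheme.str (K := K)) := H
  refine exists_add_mul_of_tensor (K := K) (CP.kunα p₁ U) (CP.kunβ p₁ p₂ U) ?_ ?_ π hπ g
  · intro k
    have h1 := CP.kunneth_tmul_one H' hU (algebraMap K Γ(Spec (.of K'), ⊤) k)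
    have h2 := CP.kunneth_one_tmul H' hU (algebraMap K Γ(C, U) k)
    rw [← h1, ← h2]
    congr 1
    rw [Algebra.algebraMap_eq_smul_one, Algebra.algebraMap_eq_smul_one, TensorProduct.smul_tmul]
  · intro g
    obtain ⟨t, rfl⟩ := (CP.kunneth H' hU).surjective g
    induction t with
    | zero => simp
    | tmul b r =>
      rw [CP.kunneth_tmul]
      exact AddSubmonoid.subset_closure ⟨b, r, rfl⟩
    | add x y hx hy =>
      rw [map_add]
      exact add_mem hx hy

omit [Field K] [Field K'] in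
/-- vanishing of a pulled-back function. -/
theorem vanAt_app_iff {X Y : Scheme.{u}} (φ : Y ⟶ X) (w : Y) {V : X.Opens} (f : Γ(X, V)) :
    TW.VanAt w ((φ.app V).hom f) ↔ TW.VanAt (φ w) f := by
  unfold TW.VanAt
  rw [← Scheme.preimage_basicOpen]
  rfl

omit [Field K] in
theorem isUnit_of_ne_zero_ΓSpec (b : Γ(Spec (CommRingCat.of K'), ⊤)) (hb : b ≠ 0) : IsUnit b := by
  let e := (Scheme.ΓSpecIso (CommRingCat.of K')).commRingCatIsoToRingEquiv
  have h1 : e b ≠ 0 := fun h => hb (by simpa using h)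
  have h2 : IsUnit (e b) := IsUnit.mk0 _ h1
  exact (MulEquiv.isUnit_map e.toMulEquiv).1 h2

variable [IsIntegral C] [SmoothOfRelativeDimension 1 c] [IsAlgClosed K]

/-- on an affine open neighbourhood `U` of a closed point `z` of a curve, every function is a
constant plus a multiple of the equation of `z`. -/
theorem exists_const_add_mul_curve {z : C} (hz : z ≠ genericPoint C) (P : TW.PointDiv C z)
    (a : P.Q.ι) {U : C.Opens} (hU : IsAffineOpen U) (hzU : z ∈ U) (hUa : U ≤ P.Q.U a)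
    (r : Γ(C, U)) :
    ∃ (k : K) (r' : Γ(C, U)), r = sectionsStrMap c U k + res U hUa (P.s.1 a) * r' := by
  haveI : Smooth c := SmoothOfRelativeDimension.smooth 1 c
  obtain ⟨k, hk⟩ := exists_sub_notMem_basicOpen c hU z hzU ((isClosed_singleton_iff c z).2 hz) r
  obtain ⟨r', hr'⟩ := P.dvd a U hUa (r - sectionsStrMap c U k) hk
  exact ⟨k, r', by rw [← hr']; ring⟩

include H in
/-- **local divisibility at a point over `z`.** -/
theorem exists_eq_mul_of_vanAt {z : C} (hz : z ≠ genericPoint C) (P : TW.PointDiv C z)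
    (a : P.Q.ι) {U : C.Opens} (hU : IsAffineOpen U) (hzU : z ∈ U) (hUa : U ≤ P.Q.U a)
    (z' : Y) (hz' : p₁ z' = z) (g : Γ(Y, p₁ ⁻¹ᵁ U)) (hg : TW.VanAt z' g) :
    ∃ g' : Γ(Y, p₁ ⁻¹ᵁ U), g = (p₁.app U).hom (res U hUa (P.s.1 a)) * g' := by
  obtain ⟨b, g', hbg⟩ := exists_const_add_mul c y p₁ p₂ H hU (res U hUa (P.s.1 a))
    (exists_const_add_mul_curve c hz P a hU hzU hUa) g
  have hπ : TW.VanAt z' ((p₁.app U).hom (res U hUa (P.s.1 a))) := by
    rw [vanAt_app_iff, hz']
    exact (P.van a).restrict hUa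
  have hb : b = 0 := by
    by_contra hb
    have hu : IsUnit ((p₂.appLE ⊤ (p₁ ⁻¹ᵁ U) (fun _ _ => trivial)).hom b) :=
      (isUnit_of_ne_zero_ΓSpec b hb).map _
    have hz'U : z' ∈ p₁ ⁻¹ᵁ U := by
      show p₁ z' ∈ U
      rw [hz']; exact hzU
    apply TW.not_vanAt_of_isUnit hz'U hu
    have : (p₂.appLE ⊤ (p₁ ⁻¹ᵁ U) (fun _ _ => trivial)).hom b =
        g - (p₁.app U).hom (res U hUa (P.s.1 a)) * g' := by rw [hbg]; ring
    rw [this]
    exact hg.sub (hπ.mul_right g')
  refine ⟨g', ?_⟩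
  rw [hbg, hb, map_zero, zero_add]

include H in
theorem mem_of_mem_of_map_eq {z : C} (hz : z ≠ genericPoint C) (P : TW.PointDiv C z)
    (w₁ w₂ : Y) (h₁ : p₁ w₁ = z) (h₂ : p₁ w₂ = z) (O : Y.Opens) (hw₁ : w₁ ∈ O) : w₂ ∈ O := by
  by_contra hw₂
  obtain ⟨a, ha⟩ := P.Q.exists_mem_chart z
  obtain ⟨_, ⟨U, hU, rfl⟩, hzU, hUa⟩ :=
    C.isBasis_affineOpens.exists_subset_of_mem_open ha (P.Q.U a).isOpen
  have hU' := isAffineOpen_preimage_of_isPullback_field c y p₁ p₂ H hU
  have hw₁U : w₁ ∈ p₁ ⁻¹ᵁ U := by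
    show p₁ w₁ ∈ U
    rw [h₁]; exact hzU
  obtain ⟨h, hhle, hhw₁⟩ := hU'.exists_basicOpen_le (V := p₁ ⁻¹ᵁ U ⊓ O) ⟨w₁, hw₁U, hw₁⟩ hw₁U
  have hvan : TW.VanAt w₂ h := fun hmem => hw₂ (hhle hmem).2
  obtain ⟨h', hh'⟩ := exists_eq_mul_of_vanAt c y p₁ p₂ H hz P a hU hzU hUa w₂ h₂ h hvan
  have hπ : TW.VanAt w₁ ((p₁.app U).hom (res U hUa (P.s.1 a))) := by
    rw [vanAt_app_iff, h₁]
    exact (P.van a).restrict hUa
  have : TW.VanAt w₁ h := by
    rw [hh']
    exact hπ.mul_right h'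
  exact this hhw₁

include H in
/-- **there is exactly one point of `Y` over a closed point of the curve.** -/
theorem existsUnique_point_over {z : C} (hz : z ≠ genericPoint C) (P : TW.PointDiv C z) :
    ∃! z' : Y, p₁ z' = z := by
  obtain ⟨z', hz'⟩ := surjective_of_isPullback_field c y p₁ p₂ H z
  refine ⟨z', hz', fun w hw => ?_⟩
  refine Inseparable.eq ((inseparable_iff_forall_isOpen).2 fun s hs => ?_)
  exact ⟨fun h => mem_of_mem_of_map_eq c y p₁ p₂ H hz P w z' hw hz' ⟨s, hs⟩ h,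
    fun h => mem_of_mem_of_map_eq c y p₁ p₂ H hz P z' w hz' hw ⟨s, hs⟩ h⟩

/-- the complement of a closed point of the curve, as an open. -/
def complPoint (z : C) (hz : z ≠ genericPoint C) : C.Opens :=
  ⟨({z} : Set C)ᶜ, ((isClosed_singleton_iff c z).2 hz).isOpen_compl⟩

theorem mem_complPoint {z : C} (hz : z ≠ genericPoint C) (w : C) :
    w ∈ complPoint c z hz ↔ w ≠ z := Iff.rfl

/-- the pulled-back canonical section is invertible away from the fibre over `z`. -/
theorem isUnit_res_app_of_le {z : C} (hz : z ≠ genericPoint C) (P : TW.PointDiv C z)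
    (a : P.Q.ι) (O : Y.Opens) (hO : O ≤ p₁ ⁻¹ᵁ (P.Q.U a ⊓ complPoint c z hz)) :
    IsUnit (res O (hO.trans (p₁.preimage_mono inf_le_left))
      ((p₁.app (P.Q.U a)).hom (P.s.1 a))) := by
  have h1 := pointDiv_isUnit_res_of_notMem P a (P.Q.U a ⊓ complPoint c z hz) inf_le_left
    (fun h => h.2 rfl)
  have h2 := app_res p₁ (inf_le_left : P.Q.U a ⊓ complPoint c z hz ≤ P.Q.U a) (P.s.1 a)
  have h3 : IsUnit (res (p₁ ⁻¹ᵁ (P.Q.U a ⊓ complPoint c z hz)) (p₁.preimage_mono inf_le_left)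
      ((p₁.app (P.Q.U a)).hom (P.s.1 a))) := by
    rw [← h2]
    exact h1.map _
  have h4 := h3.map (res O hO)
  rwa [res_res] at h4

include H in
/-- the pulled-back canonical section stays regular. -/
theorem isNZDOn_app_pointDiv [IsIntegral Y] {z : C} (hz : z ≠ genericPoint C)
    (P : TW.PointDiv C z) (a : P.Q.ι) :
    IsNZDOn (p₁ ⁻¹ᵁ P.Q.U a) ((p₁.app (P.Q.U a)).hom (P.s.1 a)) := by
  intro V hV b hb
  by_cases hVne : Nonempty V
  swap
  · haveI := subsingleton_of_not_nonempty _ hVne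
    exact Subsingleton.elim _ _
  haveI := hVne
  refine (mul_eq_zero.1 hb).resolve_left fun h0 => ?_
  obtain ⟨⟨v, hv⟩⟩ := hVne
  -- the generic point of `C` lies in `U_a ∖ {z}`
  have hηU : genericPoint C ∈ P.Q.U a :=
    ((genericPoint_spec C).mem_open_set_iff (P.Q.U a).isOpen).mpr ⟨p₁ v, trivial, hV hv⟩
  obtain ⟨w, hw⟩ := surjective_of_isPullback_field c y p₁ p₂ H (genericPoint C)
  have hwO : w ∈ p₁ ⁻¹ᵁ (P.Q.U a ⊓ complPoint c z hz) := by
    show p₁ w ∈ P.Q.U a ⊓ complPoint c z hz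
    rw [hw]
    exact ⟨hηU, fun h => hz h.symm⟩
  -- `V` meets this open
  obtain ⟨x, hxV, hxO⟩ := nonempty_preirreducible_inter V.isOpen
    (p₁ ⁻¹ᵁ (P.Q.U a ⊓ complPoint c z hz)).isOpen ⟨v, hv⟩ ⟨w, hwO⟩
  have hu := isUnit_res_app_of_le c p₁ hz P a (V ⊓ p₁ ⁻¹ᵁ (P.Q.U a ⊓ complPoint c z hz))
    inf_le_right
  have h1 := congrArg (res (V ⊓ p₁ ⁻¹ᵁ (P.Q.U a ⊓ complPoint c z hz)) inf_le_left) h0
  rw [res_res, map_zero] at h1
  rw [h1] at hu
  haveI : Nonempty (V ⊓ p₁ ⁻¹ᵁ (P.Q.U a ⊓ complPoint c z hz) : Y.Opens) := ⟨⟨x, hxV, hxO⟩⟩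
  exact not_isUnit_zero hu

include H in
/-- **divisibility by the pulled-back canonical section**: a function vanishing at the point `z'`
over `z` is a multiple of the pulled-back equation of `z`. -/
theorem exists_eq_mul_app_pointDiv [IsIntegral Y] {z : C} (hz : z ≠ genericPoint C)
    (P : TW.PointDiv C z) (z' : Y) (hz' : p₁ z' = z) (a : P.Q.ι) (V : Y.Opens)
    (hV : V ≤ p₁ ⁻¹ᵁ P.Q.U a) (f : Γ(Y, V)) (hf : TW.VanAt z' f) :
    ∃ c' : Γ(Y, V), f = res V hV ((p₁.app (P.Q.U a)).hom (P.s.1 a)) * c' := by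
  have hnzd : IsNZDOn V (res V hV ((p₁.app (P.Q.U a)).hom (P.s.1 a))) :=
    (isNZDOn_app_pointDiv c y p₁ p₂ H hz P a).restrict hV
  suffices hcover : V ≤ ⨆ O : {O : Y.Opens // O ≤ V ∧ ∀ hO : O ≤ V, ∃ c₀, res O hO f =
      c₀ * res O hO (res V hV ((p₁.app (P.Q.U a)).hom (P.s.1 a)))}, O.1 by
    obtain ⟨c', hc'⟩ := exists_mul_of_cover
      (ι := {O : Y.Opens // O ≤ V ∧ ∀ hO : O ≤ V, ∃ c₀, res O hO f =
        c₀ * res O hO (res V hV ((p₁.app (P.Q.U a)).hom (P.s.1 a)))})
      (fun O => O.1) (fun O => O.2.1) hcover (res V hV ((p₁.app (P.Q.U a)).hom (P.s.1 a))) f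
      hnzd (fun O => O.2.2 O.2.1)
    exact ⟨c', by rw [hc', mul_comm]⟩
  intro x hx
  rw [Opens.mem_iSup]
  by_cases hxz : p₁ x = z
  · -- `x` is the point `z'`
    have hxz' : x = z' := (existsUnique_point_over c y p₁ p₂ H hz P).unique hxz hz'
    have hza : z ∈ P.Q.U a := by
      have h : p₁ x ∈ P.Q.U a := hV hx
      rwa [hxz] at h
    have hf' : TW.VanAt x f := by rw [hxz']; exact hf
    obtain ⟨_, ⟨U, hU, rfl⟩, hzU, hUa⟩ :=
      C.isBasis_affineOpens.exists_subset_of_mem_open hza (P.Q.U a).isOpen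
    have hU' := isAffineOpen_preimage_of_isPullback_field c y p₁ p₂ H hU
    have hxU' : x ∈ p₁ ⁻¹ᵁ U := by
      show p₁ x ∈ U
      rw [hxz]; exact hzU
    obtain ⟨h, hhle, hhx⟩ := hU'.exists_basicOpen_le (V := p₁ ⁻¹ᵁ U ⊓ V) ⟨x, hxU', hx⟩ hxU'
    have hDV : Y.basicOpen h ≤ V := hhle.trans inf_le_right
    have hDU' : Y.basicOpen h ≤ p₁ ⁻¹ᵁ U := Y.basicOpen_le h
    obtain ⟨m, g, hg⟩ := exists_pow_mul_eq_res_basicOpen hU' h (res (Y.basicOpen h) hDV f)
    have hgvan : TW.VanAt x g := by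
      rw [← TW.vanAt_res_iff hDU' hhx, ← hg]
      exact (hf'.restrict hDV).mul_right _
    obtain ⟨g', hg'⟩ := exists_eq_mul_of_vanAt c y p₁ p₂ H hz P a hU hzU hUa x hxz g hgvan
    have hu : IsUnit (res (Y.basicOpen h) hDU' h ^ m) :=
      (isUnit_res_of_le_basicOpen h le_rfl).pow m
    refine ⟨⟨Y.basicOpen h, hDV, fun hO => ⟨res (Y.basicOpen h) hDU' g' * ↑hu.unit⁻¹, ?_⟩⟩, hhx⟩
    apply hu.mul_left_inj.1
    have h1 : res (Y.basicOpen h) hDU' ((p₁.app U).hom (res U hUa (P.s.1 a))) =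
        res (Y.basicOpen h) hO (res V hV ((p₁.app (P.Q.U a)).hom (P.s.1 a))) := by
      rw [app_res p₁ hUa (P.s.1 a), res_res, res_res]
    rw [hg, hg', map_mul, h1]
    have h2 : (↑hu.unit⁻¹ : Γ(Y, Y.basicOpen h)) * (res (Y.basicOpen h) hDU' h ^ m) = 1 := by
      have := hu.unit.inv_mul
      rwa [IsUnit.unit_spec] at this
    calc res (Y.basicOpen h) hO (res V hV ((p₁.app (P.Q.U a)).hom (P.s.1 a))) *
          res (Y.basicOpen h) hDU' g'
        = res (Y.basicOpen h) hDU' g' *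
          res (Y.basicOpen h) hO (res V hV ((p₁.app (P.Q.U a)).hom (P.s.1 a))) *
            (↑hu.unit⁻¹ * (res (Y.basicOpen h) hDU' h ^ m)) := by rw [h2]; ring
      _ = _ := by ring
  · -- away from the fibre the equation is a unit
    have hxO : x ∈ V ⊓ p₁ ⁻¹ᵁ (P.Q.U a ⊓ complPoint c z hz) := ⟨hx, hV hx, hxz⟩
    have hu := isUnit_res_app_of_le c p₁ hz P a (V ⊓ p₁ ⁻¹ᵁ (P.Q.U a ⊓ complPoint c z hz))
      inf_le_right
    refine ⟨⟨V ⊓ p₁ ⁻¹ᵁ (P.Q.U a ⊓ complPoint c z hz), inf_le_left, fun hO =>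
      ⟨res _ hO f * ↑hu.unit⁻¹, ?_⟩⟩, hxO⟩
    rw [res_res, mul_assoc]
    have h2 := hu.unit.inv_mul
    rw [IsUnit.unit_spec] at h2
    rw [h2, mul_one]

/-- **the pull-back of a point divisor** to the base change `Y = C ×_K K'`, at the point `z'`
over `z`. -/
def pointDivPullback [IsIntegral Y] {z : C} (hz : z ≠ genericPoint C) (P : TW.PointDiv C z)
    (z' : Y) (hz' : p₁ z' = z) : TW.PointDiv Y z' where
  Q := P.Q.pullback p₁
  s := P.Q.pullbackSection p₁ P.s
  nzd := fun a V hV f hf => isNZDOn_app_pointDiv c y p₁ p₂ H hz P a V hV f hf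
  van := fun a => (vanAt_app_iff p₁ z' (P.s.1 a)).2 (by rw [hz']; exact P.van a)
  dvd := fun a V hV f hf => exists_eq_mul_app_pointDiv c y p₁ p₂ H hz P z' hz' a V hV f hf

theorem pointDivPullback_Q [IsIntegral Y] {z : C} (hz : z ≠ genericPoint C)
    (P : TW.PointDiv C z) (z' : Y) (hz' : p₁ z' = z) :
    (pointDivPullback c y p₁ p₂ H hz P z' hz').Q = P.Q.pullback p₁ := rfl

theorem pointDivPullback_s [IsIntegral Y] {z : C} (hz : z ≠ genericPoint C)
    (P : TW.PointDiv C z) (z' : Y) (hz' : p₁ z' = z) :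
    (pointDivPullback c y p₁ p₂ H hz P z' hz').s = P.Q.pullbackSection p₁ P.s := rfl

/-- a point of the base change over a given point. -/
def pointOver (z : C) : Y := (surjective_of_isPullback_field c y p₁ p₂ H z).choose

omit [IsIntegral C] [SmoothOfRelativeDimension 1 c] [IsAlgClosed K] in
@[simp] theorem map_pointOver (z : C) : p₁ (pointOver c y p₁ p₂ H z) = z :=
  (surjective_of_isPullback_field c y p₁ p₂ H z).choose_spec

include H in
/-- two points of `Y` over the same closed point of the curve coincide. -/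
theorem eq_of_map_eq_closedPoint {z : C} (hz : z ≠ genericPoint C) (P : TW.PointDiv C z)
    {w₁ w₂ : Y} (h₁ : p₁ w₁ = z) (h₂ : p₁ w₂ = z) : w₁ = w₂ :=
  (existsUnique_point_over c y p₁ p₂ H hz P).unique h₁ h₂

omit [IsIntegral C] [SmoothOfRelativeDimension 1 c] [IsAlgClosed K] in
theorem pointOver_injective : Function.Injective (pointOver c y p₁ p₂ H) := fun z w h => by
  rw [← map_pointOver c y p₁ p₂ H z, h, map_pointOver]

omit [Field K] [Field K'] in
/-- a point carrying a point divisor on an integral scheme is not the generic point. -/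
theorem ne_genericPoint_of_pointDiv {X : Scheme.{u}} [IsIntegral X] {z : X}
    (P : TW.PointDiv X z) : z ≠ genericPoint X := by
  intro h
  obtain ⟨a, ha⟩ := P.Q.exists_mem_chart z
  haveI : Nonempty (P.Q.U a) := ⟨⟨z, ha⟩⟩
  have hne : P.s.1 a ≠ 0 := by
    intro h0
    have := P.nzd a (P.Q.U a) le_rfl 1 (by rw [res_self, h0, zero_mul])
    exact one_ne_zero this
  have h2 := genericPoint_mem_basicOpen (P.s.1 a) hne
  rw [← h] at h2
  exact P.van a h2

include H in
/-- the point over a closed point is a closed point. -/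
theorem pointOver_ne_genericPoint [IsIntegral Y] {z : C} (hz : z ≠ genericPoint C)
    (P : TW.PointDiv C z) (z' : Y) (hz' : p₁ z' = z) : z' ≠ genericPoint Y :=
  ne_genericPoint_of_pointDiv (pointDivPullback c y p₁ p₂ H hz P z' hz')

include H in
/-- the point over a closed point is rational over `K'` (`K'` algebraically closed). -/
theorem isRatPt_of_map_eq [IsIntegral Y] [IsAlgClosed K'] [SmoothOfRelativeDimension 1 p₂]
    {z : C} (hz : z ≠ genericPoint C) (P : TW.PointDiv C z) (z' : Y) (hz' : p₁ z' = z) :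
    TW.IsRatPt (p₂.appTop.hom.comp (Scheme.ΓSpecIso (.of K')).inv.hom) z' :=
  isRatPt_curve p₂ z' (pointOver_ne_genericPoint c y p₁ p₂ H hz P z' hz')

include H in
/-- **the pulled-back point divisor has degree one** on the base change (itself a smooth proper
curve over the algebraically closed field `K'`). -/
theorem deg_pointDivPullback [IsIntegral Y] [IsAlgClosed K'] [SmoothOfRelativeDimension 1 p₂]
    [IsProper p₂] [IsNoetherian Y] {z : C} (hz : z ≠ genericPoint C) (P : TW.PointDiv C z)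
    (z' : Y) (hz' : p₁ z' = z) : (P.Q.pullback p₁).deg = 1 :=
  deg_pointDiv (isDiscreteValuationRing_stalk_curve p₂) (isClosed_singleton_curve p₂)
    (principalDegZero_curve p₂)
    ((coheight_eq_one_iff p₂ z').2 (pointOver_ne_genericPoint c y p₁ p₂ H hz P z' hz'))
    (pointDivPullback c y p₁ p₂ H hz P z' hz')

end BaseChange

end

end Fermat.Agent.JAC
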