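/-
PROJECT JAC (S25) — helper3 — (TW) **an isomorphism of line bundles acts on sections over any open**
(`SecOn` version of helper5's `IsoData.mapH0`), and invariance of `H1Vanishes`, of vanishing at a
point, … under `LB.Iso`.

* `IsoData.mapSecOn D : M.SecOn V → N.SecOn V`, characterised by
  `res (W k ⊓ V) ((D.mapSecOn t).s (β k)) = f k * res (W k ⊓ V) (t.s (α k))` (`res_mapSecOn`,
  `mapSecOn_eq_of`); additive, `Γ(X, V)`-linear, compatible with restriction, inverse
  `D.symm.mapSecOn`, preserves `VanishesAt`;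
* `h1Vanishes_of_iso`.
-/
import Mathlib
import Fermat.Agent.JAC.TW_helper3_Cech

set_option autoImplicit false

open AlgebraicGeometry CategoryTheory Opposite TopologicalSpace

universe u

namespace Fermat.Agent.JAC.TW

open Fermat.Agent.AV Fermat.Agent.AV.LB Fermat.Agent.AV.CP Fermat.Agent.JAC.CBC

noncomputable section

variable {X : Scheme.{u}} {M N : LB X}

/-- the cover `W k ⊓ V` of `V`. -/
theorem le_iSup_W_inf (D : IsoData M N) (V : X.Opens) : V ≤ ⨆ k, D.W k ⊓ V := by
  intro x hx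
  have hx' : x ∈ (⊤ : X.Opens) := True.intro
  rw [← D.iSup_W] at hx'
  obtain ⟨k, hk⟩ := Opens.mem_iSup.mp hx'
  exact Opens.mem_iSup.mpr ⟨k, ⟨hk, hx⟩⟩

/-- sections of `N` over `V` are determined by their `β k`-components on `W k ⊓ V`. -/
theorem secOn_ext_of_isoData (D : IsoData M N) {V : X.Opens} (m m' : N.SecOn V)
    (h : ∀ k, res (D.W k ⊓ V) (le_inf (inf_le_left.trans (D.hβ k)) inf_le_right) (m.s (D.β k)) =
      res (D.W k ⊓ V) (le_inf (inf_le_left.trans (D.hβ k)) inf_le_right) (m'.s (D.β k))) :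
    m = m' := by
  ext j
  refine eq_of_res_eq (fun k => N.U j ⊓ (D.W k ⊓ V)) (fun k => inf_le_inf_left _ inf_le_right)
    ?_ _ _ ?_
  · intro x hx
    obtain ⟨k, hk⟩ := Opens.mem_iSup.mp (le_iSup_W_inf D V hx.2)
    exact Opens.mem_iSup.mpr ⟨k, ⟨hx.1, hk⟩⟩
  · intro k
    set O : X.Opens := N.U j ⊓ (D.W k ⊓ V) with hO
    have hj : O ≤ N.U j := inf_le_left
    have hk : O ≤ D.W k := inf_le_right.trans inf_le_left
    have hV : O ≤ V := inf_le_right.trans inf_le_right
    have e1 := m.compat' j (D.β k) O hj (hk.trans (D.hβ k)) hV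
    have e2 := m'.compat' j (D.β k) O hj (hk.trans (D.hβ k)) hV
    have e3 := congrArg (res O (le_inf hk hV)) (h k)
    rw [res_res, res_res] at e3
    exact e1.trans ((congrArg (fun z => _ * z) e3).trans e2.symm)

namespace IsoDataSec

variable (D : IsoData M N) {V : X.Opens}

/-- the local pieces of the image section. -/
def piece (t : M.SecOn V) (k : D.κ) : Γ(X, D.W k ⊓ V) :=
  res (D.W k ⊓ V) inf_le_left (D.f k) *
    res (D.W k ⊓ V) (le_inf (inf_le_left.trans (D.hα k)) inf_le_right) (t.s (D.α k))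

theorem res_piece (t : M.SecOn V) (k : D.κ) (O : X.Opens) (hO : O ≤ D.W k ⊓ V) :
    res O hO (piece D t k) = res O (hO.trans inf_le_left) (D.f k) *
      res O (le_inf ((hO.trans inf_le_left).trans (D.hα k)) (hO.trans inf_le_right))
        (t.s (D.α k)) := by
  unfold piece
  rw [map_mul, res_res, res_res]

theorem piece_compat (t : M.SecOn V) (k l : D.κ) :
    res ((D.W k ⊓ V) ⊓ (D.W l ⊓ V)) inf_le_left (piece D t k) =
      res ((D.W k ⊓ V) ⊓ (D.W l ⊓ V))
        (le_inf ((inf_le_left.trans inf_le_left).trans (D.hβ k))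
          ((inf_le_right.trans inf_le_left).trans (D.hβ l))) (N.g (D.β k) (D.β l)) *
        res ((D.W k ⊓ V) ⊓ (D.W l ⊓ V)) inf_le_right (piece D t l) := by
  set O : X.Opens := (D.W k ⊓ V) ⊓ (D.W l ⊓ V) with hO
  have hk : O ≤ D.W k := inf_le_left.trans inf_le_left
  have hl : O ≤ D.W l := inf_le_right.trans inf_le_left
  have hV : O ≤ V := inf_le_left.trans inf_le_right
  rw [res_piece, res_piece]
  have e1 := t.compat' (D.α k) (D.α l) O (hk.trans (D.hα k)) (hl.trans (D.hα l)) hV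
  have e2 := D.compat' k l O hk hl
  rw [e1, ← mul_assoc, e2, mul_assoc]

theorem exists_mapSecOn (t : M.SecOn V) :
    ∃ m : N.SecOn V, ∀ k,
      res (D.W k ⊓ V) (le_inf (inf_le_left.trans (D.hβ k)) inf_le_right) (m.s (D.β k)) =
        piece D t k :=
  SecOn.exists_of_refined (L := N) (W := V) (fun k => D.W k ⊓ V) D.β
    (fun k => inf_le_left.trans (D.hβ k)) (fun _ => inf_le_right) (le_iSup_W_inf D V)
    (fun k => piece D t k) (fun k l => piece_compat D t k l)

end IsoDataSec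

open IsoDataSec

/-- **the action of an isomorphism of line bundles on sections over `V`.** -/
def _root_.Fermat.Agent.AV.LB.IsoData.mapSecOn (D : IsoData M N) {V : X.Opens} (t : M.SecOn V) :
    N.SecOn V := (exists_mapSecOn D t).choose

theorem res_mapSecOn (D : IsoData M N) {V : X.Opens} (t : M.SecOn V) (k : D.κ) :
    res (D.W k ⊓ V) (le_inf (inf_le_left.trans (D.hβ k)) inf_le_right)
        ((D.mapSecOn t).s (D.β k)) =
      res (D.W k ⊓ V) inf_le_left (D.f k) *
        res (D.W k ⊓ V) (le_inf (inf_le_left.trans (D.hα k)) inf_le_right) (t.s (D.α k)) :=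
  (exists_mapSecOn D t).choose_spec k

/-- characterisation of the image section. -/
theorem mapSecOn_eq_of (D : IsoData M N) {V : X.Opens} (t : M.SecOn V) (m : N.SecOn V)
    (h : ∀ k, res (D.W k ⊓ V) (le_inf (inf_le_left.trans (D.hβ k)) inf_le_right) (m.s (D.β k)) =
      res (D.W k ⊓ V) inf_le_left (D.f k) *
        res (D.W k ⊓ V) (le_inf (inf_le_left.trans (D.hα k)) inf_le_right) (t.s (D.α k))) :
    D.mapSecOn t = m :=
  secOn_ext_of_isoData D _ _ fun k => (res_mapSecOn D t k).trans (h k).symm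

theorem mapSecOn_add (D : IsoData M N) {V : X.Opens} (t t' : M.SecOn V) :
    D.mapSecOn (t + t') = D.mapSecOn t + D.mapSecOn t' := by
  apply mapSecOn_eq_of
  intro k
  rw [add_s, add_s, map_add, map_add, res_mapSecOn, res_mapSecOn, mul_add]

theorem mapSecOn_zero (D : IsoData M N) {V : X.Opens} : D.mapSecOn (0 : M.SecOn V) = 0 := by
  apply mapSecOn_eq_of
  intro k
  rw [zero_s, zero_s, map_zero, map_zero, mul_zero]

theorem mapSecOn_neg (D : IsoData M N) {V : X.Opens} (t : M.SecOn V) :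
    D.mapSecOn (-t) = -D.mapSecOn t := by
  apply mapSecOn_eq_of
  intro k
  rw [neg_s, neg_s, map_neg, map_neg, res_mapSecOn, mul_neg]

theorem mapSecOn_sub (D : IsoData M N) {V : X.Opens} (t t' : M.SecOn V) :
    D.mapSecOn (t - t') = D.mapSecOn t - D.mapSecOn t' := by
  rw [sub_eq_add_neg, mapSecOn_add, mapSecOn_neg, sub_eq_add_neg]

theorem mapSecOn_smul (D : IsoData M N) {V : X.Opens} (c : Γ(X, V)) (t : M.SecOn V) :
    D.mapSecOn (c • t) = c • D.mapSecOn t := by
  apply mapSecOn_eq_of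
  intro k
  rw [smul_s', smul_s', map_mul, map_mul, res_res, res_res, res_mapSecOn]
  ring

theorem mapSecOn_restrict (D : IsoData M N) {V V' : X.Opens} (h : V' ≤ V) (t : M.SecOn V) :
    D.mapSecOn (t.restrict h) = (D.mapSecOn t).restrict h := by
  apply mapSecOn_eq_of
  intro k
  rw [SecOn.restrict_s, SecOn.restrict_s, res_res, res_res]
  have e := congrArg (res (D.W k ⊓ V') (inf_le_inf_left _ h)) (res_mapSecOn D t k)
  rw [res_res, map_mul, res_res, res_res] at e
  exact e

theorem symm_mapSecOn_mapSecOn (D : IsoData M N) {V : X.Opens} (t : M.SecOn V) :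
    D.symm.mapSecOn (D.mapSecOn t) = t := by
  have key : ∀ k : D.κ,
      res (D.W k ⊓ V) (le_inf (inf_le_left.trans (D.hα k)) inf_le_right) (t.s (D.α k)) =
        res (D.W k ⊓ V) inf_le_left (D.fi k) *
          res (D.W k ⊓ V) (le_inf (inf_le_left.trans (D.hβ k)) inf_le_right)
            ((D.mapSecOn t).s (D.β k)) := by
    intro k
    rw [res_mapSecOn, ← mul_assoc, mul_comm (res _ _ (D.fi k)), D.f_mul_fi', one_mul]
  exact mapSecOn_eq_of D.symm _ _ key

theorem mapSecOn_symm_mapSecOn (D : IsoData M N) {V : X.Opens} (t : N.SecOn V) :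
    D.mapSecOn (D.symm.mapSecOn t) = t := by
  apply mapSecOn_eq_of
  intro k
  have e := res_mapSecOn D.symm t k
  have e' : res (D.W k ⊓ V) (le_inf (inf_le_left.trans (D.hα k)) inf_le_right)
      ((D.symm.mapSecOn t).s (D.α k)) = res (D.W k ⊓ V) inf_le_left (D.fi k) *
        res (D.W k ⊓ V) (le_inf (inf_le_left.trans (D.hβ k)) inf_le_right) (t.s (D.β k)) := e
  rw [e', ← mul_assoc, D.f_mul_fi', one_mul]

theorem vanishesAt_mapSecOn (D : IsoData M N) {V : X.Opens} (t : M.SecOn V) {p : X}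
    (ht : t.VanishesAt p) : (D.mapSecOn t).VanishesAt p := by
  by_cases hpV : p ∈ V
  · obtain ⟨k, hk⟩ := Opens.mem_iSup.mp (le_iSup_W_inf D V hpV)
    rw [vanishesAt_iff_of_mem _ (D.β k) (D.hβ k hk.1),
      ← vanAt_res_iff (le_inf (inf_le_left.trans (D.hβ k)) inf_le_right) hk, res_mapSecOn]
    exact ((ht (D.α k)).restrict _).mul_left _
  · exact vanishesAt_of_notMem _ hpV

theorem vanishesAt_mapSecOn_iff (D : IsoData M N) {V : X.Opens} (t : M.SecOn V) {p : X} :
    (D.mapSecOn t).VanishesAt p ↔ t.VanishesAt p :=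
  ⟨fun h => by
    have := vanishesAt_mapSecOn D.symm _ h
    rwa [symm_mapSecOn_mapSecOn] at this, vanishesAt_mapSecOn D t⟩

/-- `H1Vanishes` is invariant under isomorphisms. -/
theorem h1Vanishes_of_iso (h : LB.Iso M N) {U₀ U₁ : X.Opens} (hM : H1Vanishes M U₀ U₁) :
    H1Vanishes N U₀ U₁ := by
  obtain ⟨D⟩ := h
  intro t
  obtain ⟨a, b, hab⟩ := hM (D.symm.mapSecOn t)
  refine ⟨D.mapSecOn a, D.mapSecOn b, ?_⟩
  rw [← mapSecOn_restrict, ← mapSecOn_restrict, ← mapSecOn_add, ← hab, mapSecOn_symm_mapSecOn]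

theorem h1Vanishes_iff_of_iso (h : LB.Iso M N) {U₀ U₁ : X.Opens} :
    H1Vanishes M U₀ U₁ ↔ H1Vanishes N U₀ U₁ :=
  ⟨h1Vanishes_of_iso h, h1Vanishes_of_iso h.symm⟩

end

end Fermat.Agent.JAC.TW
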