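/-
PROJECT JAC (S25) — helper3 — (TW) **removing general rational points**: from a line bundle `E` with
`Ȟ¹(E) = 0` and finite-dimensional `H⁰(E)` to a twist `E(-p₁ - … - p_r)` with `H⁰ = 0 = Ȟ¹`, and the
final twist by `O(ε)` producing a line bundle with `Ȟ¹ = 0` and a one-dimensional `H⁰` generated
by a section not vanishing at `ε`.

* `GlobSec ιK E` : the `K`-vector space `H⁰(E)`.
* `twistDown PD E ps` : `E ⊗ O(p₁)⁻¹ ⊗ … ⊗ O(p_r)⁻¹`.
* `exists_twistDown` : the induction.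
* `exists_generator_of_twistDown` : the final twist.
-/
import Mathlib
import Fermat.Agent.JAC.TW_helper3_Iso

set_option autoImplicit false

open AlgebraicGeometry CategoryTheory Opposite TopologicalSpace

universe u

namespace Fermat.Agent.JAC.TW

open Fermat.Agent.AV Fermat.Agent.AV.LB Fermat.Agent.AV.CP Fermat.Agent.JAC.CBC

noncomputable section

variable {X : Scheme.{u}} {K : Type*} [Field K]

/-- the global sections of `E`, as a `K`-vector space via `ιK : K → Γ(X, ⊤)`. -/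
def GlobSec (_ιK : K →+* Γ(X, ⊤)) (E : LB X) : Type u := E.SecOn ⊤

instance (ιK : K →+* Γ(X, ⊤)) (E : LB X) : AddCommGroup (GlobSec ιK E) :=
  inferInstanceAs (AddCommGroup (E.SecOn ⊤))

instance (ιK : K →+* Γ(X, ⊤)) (E : LB X) : Module K (GlobSec ιK E) :=
  Module.compHom (E.SecOn ⊤) ιK

/-- a global section, as an element of `GlobSec`. -/
def GlobSec.of (ιK : K →+* Γ(X, ⊤)) {E : LB X} (t : E.SecOn ⊤) : GlobSec ιK E := t

/-- the underlying section. -/
def GlobSec.val {ιK : K →+* Γ(X, ⊤)} {E : LB X} (t : GlobSec ιK E) : E.SecOn ⊤ := t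

@[simp] theorem GlobSec.val_of (ιK : K →+* Γ(X, ⊤)) {E : LB X} (t : E.SecOn ⊤) :
    (GlobSec.of ιK t).val = t := rfl

@[simp] theorem GlobSec.of_val {ιK : K →+* Γ(X, ⊤)} {E : LB X} (t : GlobSec ιK E) :
    GlobSec.of ιK t.val = t := rfl

theorem GlobSec.of_add (ιK : K →+* Γ(X, ⊤)) {E : LB X} (t t' : E.SecOn ⊤) :
    GlobSec.of ιK (t + t') = GlobSec.of ιK t + GlobSec.of ιK t' := rfl

theorem GlobSec.of_zero (ιK : K →+* Γ(X, ⊤)) {E : LB X} :
    GlobSec.of ιK (0 : E.SecOn ⊤) = 0 := rfl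

theorem GlobSec.of_smul (ιK : K →+* Γ(X, ⊤)) {E : LB X} (c : K) (t : E.SecOn ⊤) :
    GlobSec.of ιK (ιK c • t) = c • GlobSec.of ιK t := rfl

theorem GlobSec.of_sum (ιK : K →+* Γ(X, ⊤)) {E : LB X} {β : Type*} (s : Finset β)
    (f : β → E.SecOn ⊤) : GlobSec.of ιK (∑ j ∈ s, f j) = ∑ j ∈ s, GlobSec.of ιK (f j) := rfl

theorem GlobSec.of_injective (ιK : K →+* Γ(X, ⊤)) {E : LB X} :
    Function.Injective (GlobSec.of ιK (E := E)) := fun _ _ h => h

theorem ksmul_top (ιK : K →+* Γ(X, ⊤)) {E : LB X} (c : K) (t : E.SecOn ⊤) :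
    ksmul ιK c t = ιK c • t := by
  unfold ksmul
  rw [res_self]

/-- `H⁰(E)` is finite-dimensional as soon as it is spanned by finitely many sections. -/
theorem finite_globSec_of_span (ιK : K →+* Γ(X, ⊤)) (E : LB X) {N : ℕ} (t : Fin N → E.SecOn ⊤)
    (h : ∀ σ : E.SecOn ⊤, ∃ c : Fin N → K, σ = ∑ j, ιK (c j) • t j) :
    Module.Finite K (GlobSec ιK E) := by
  refine Module.Finite.of_surjective
    (Fintype.linearCombination K (fun j => GlobSec.of ιK (t j))) ?_
  intro σ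
  obtain ⟨c, hc⟩ := h σ.val
  refine ⟨c, ?_⟩
  rw [Fintype.linearCombination_apply]
  have h2 : GlobSec.of ιK σ.val = GlobSec.of ιK (∑ j, ιK (c j) • t j) := congrArg _ hc
  rw [GlobSec.of_sum] at h2
  exact h2.symm

/-! ### one step: removing a point -/

section step

variable {ιK : K →+* Γ(X, ⊤)} {p : X} (P : PointDiv X p) (E : LB X)

/-- `(E ⊗ O(p)⁻¹) ⊗ O(p) ≅ E`. -/
theorem iso_tensor_inv_tensor (E Q : LB X) : LB.Iso ((E.tensor Q.inv).tensor Q) E := by
  rw [← PicGroup.mk_eq_mk_iff, PicGroup.mk_tensor, PicGroup.mk_tensor, PicGroup.mk_inv]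
  abel

/-- the inclusion `H⁰(E(-p)) → H⁰(E)`, through an isomorphism `E(-p) ⊗ O(p) ≅ E`. -/
def stepMap (ιK : K →+* Γ(X, ⊤)) (D : IsoData ((E.tensor P.Q.inv).tensor P.Q) E) :
    GlobSec ιK (E.tensor P.Q.inv) →ₗ[K] GlobSec ιK E where
  toFun u := GlobSec.of ιK (D.mapSecOn (u.val.tensorH0 P.s))
  map_add' u v := by
    show GlobSec.of ιK (D.mapSecOn ((u.val + v.val).tensorH0 P.s)) = _
    rw [tensorH0_add, mapSecOn_add, GlobSec.of_add]
  map_smul' c u := by
    show GlobSec.of ιK (D.mapSecOn ((ιK c • u.val).tensorH0 P.s)) = _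
    rw [tensorH0_smul, mapSecOn_smul, GlobSec.of_smul]
    rfl

theorem stepMap_apply (D : IsoData ((E.tensor P.Q.inv).tensor P.Q) E)
    (u : GlobSec ιK (E.tensor P.Q.inv)) :
    (stepMap P E ιK D u).val = D.mapSecOn (u.val.tensorH0 P.s) := rfl

theorem stepMap_injective (D : IsoData ((E.tensor P.Q.inv).tensor P.Q) E) :
    Function.Injective (stepMap P E ιK D) := by
  intro u v h
  have h1 : D.mapSecOn (u.val.tensorH0 P.s) = D.mapSecOn (v.val.tensorH0 P.s) := h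
  have h2 := congrArg D.symm.mapSecOn h1
  rw [symm_mapSecOn_mapSecOn, symm_mapSecOn_mapSecOn] at h2
  exact P.tensorH0_injective _ _ h2

theorem stepMap_vanishesAt (D : IsoData ((E.tensor P.Q.inv).tensor P.Q) E)
    (u : GlobSec ιK (E.tensor P.Q.inv)) : (stepMap P E ιK D u).val.VanishesAt p := by
  rw [stepMap_apply, vanishesAt_mapSecOn_iff]
  exact P.vanishesAt_tensorH0 _

/-- removing a point at which some section does not vanish lowers `h⁰`. -/
theorem finrank_step_lt [Module.Finite K (GlobSec ιK E)] (σ : E.SecOn ⊤)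
    (hσ : ¬ σ.VanishesAt p) :
    Module.Finite K (GlobSec ιK (E.tensor P.Q.inv)) ∧
      Module.finrank K (GlobSec ιK (E.tensor P.Q.inv)) < Module.finrank K (GlobSec ιK E) := by
  obtain ⟨D⟩ := iso_tensor_inv_tensor E P.Q
  have hinj := stepMap_injective (ιK := ιK) P E D
  have hfin : Module.Finite K (GlobSec ιK (E.tensor P.Q.inv)) :=
    FiniteDimensional.of_injective _ hinj
  refine ⟨hfin, ?_⟩
  rw [← LinearMap.finrank_range_of_inj hinj]
  refine Submodule.finrank_lt ?_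
  intro htop
  have hmem : GlobSec.of ιK σ ∈ LinearMap.range (stepMap P E ιK D) := by
    rw [htop]; trivial
  obtain ⟨u, hu⟩ := hmem
  apply hσ
  have := stepMap_vanishesAt (ιK := ιK) P E D u
  rw [hu] at this
  exact this

end step

/-- removing a point at which some global section does not vanish keeps `Ȟ¹ = 0`. -/
theorem h1Vanishes_step {ιK : K →+* Γ(X, ⊤)} {p : X} (hrat : IsRatPt ιK p) (P : PointDiv X p)
    {U₀ U₁ : X.Opens} (hcov : U₀ ⊔ U₁ = ⊤) (E : LB X) (hE : H1Vanishes E U₀ U₁)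
    (σ : E.SecOn ⊤) (hσ : ¬ σ.VanishesAt p) : H1Vanishes (E.tensor P.Q.inv) U₀ U₁ := by
  obtain ⟨D⟩ := iso_tensor_inv_tensor E P.Q
  refine h1Vanishes_of_tensor hrat P hcov (E.tensor P.Q.inv) (h1Vanishes_of_iso ⟨D.symm⟩ hE)
    (D.symm.mapSecOn σ) ?_
  rwa [vanishesAt_mapSecOn_iff]

/-! ### the induction -/

section induction

variable {ιK : K →+* Γ(X, ⊤)} {I : Type*} {pt : I → X} (PD : ∀ i, PointDiv X (pt i))

/-- `E ⊗ O(p₁)⁻¹ ⊗ … ⊗ O(p_r)⁻¹`. -/
def twistDown (E : LB X) (ps : List I) : LB X :=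
  ps.foldl (fun E i => E.tensor (PD i).Q.inv) E

theorem twistDown_nil (E : LB X) : twistDown PD E [] = E := rfl

theorem twistDown_cons (E : LB X) (i : I) (ps : List I) :
    twistDown PD E (i :: ps) = twistDown PD (E.tensor (PD i).Q.inv) ps := rfl

/-- the class of `twistDown` in the Picard group. -/
theorem mk_twistDown (E : LB X) (ps : List I) :
    PicGroup.mk (twistDown PD E ps) =
      PicGroup.mk E - (ps.map fun i => PicGroup.mk (PD i).Q).sum := by
  induction ps generalizing E with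
  | nil => rw [twistDown_nil, List.map_nil, List.sum_nil, sub_zero]
  | cons i ps ih =>
    rw [twistDown_cons, ih, PicGroup.mk_tensor, PicGroup.mk_inv, List.map_cons, List.sum_cons]
    abel

/-- **removing general rational points**: if `Ȟ¹(E) = 0`, `H⁰(E)` is finite-dimensional, and every
non-zero global section of every line bundle is non-zero at one of the rational points `pt i`, then
`E(-p₁ - … - p_r)` has `H⁰ = 0 = Ȟ¹` for suitable points. -/
theorem exists_twistDown (hrat : ∀ i, IsRatPt ιK (pt i)) {U₀ U₁ : X.Opens}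
    (hcov : U₀ ⊔ U₁ = ⊤)
    (hgen : ∀ (E : LB X) (σ : E.SecOn ⊤), σ ≠ 0 → ∃ i, ¬ σ.VanishesAt (pt i))
    (E : LB X) [Module.Finite K (GlobSec ιK E)] (hE : H1Vanishes E U₀ U₁) :
    ∃ ps : List I, H1Vanishes (twistDown PD E ps) U₀ U₁ ∧
      ∀ σ : (twistDown PD E ps).SecOn ⊤, σ = 0 := by
  suffices H : ∀ (d : ℕ) (E : LB X) (_ : Module.Finite K (GlobSec ιK E)),
      Module.finrank K (GlobSec ιK E) = d → H1Vanishes E U₀ U₁ →
      ∃ ps : List I, H1Vanishes (twistDown PD E ps) U₀ U₁ ∧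
        ∀ σ : (twistDown PD E ps).SecOn ⊤, σ = 0 from H _ E inferInstance rfl hE
  intro d
  induction d using Nat.strong_induction_on with
  | _ d ih =>
    intro E hfin hd hE
    by_cases h0 : ∀ σ : E.SecOn ⊤, σ = 0
    · exact ⟨[], hE, h0⟩
    · obtain ⟨σ, hσ⟩ := not_forall.mp h0
      obtain ⟨i, hi⟩ := hgen E σ hσ
      obtain ⟨hfin', hlt⟩ := finrank_step_lt (ιK := ιK) (PD i) E σ hi
      obtain ⟨ps, h1, h2⟩ := ih _ (hd ▸ hlt) (E.tensor (PD i).Q.inv) hfin' rfl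
        (h1Vanishes_step (hrat i) (PD i) hcov E hE σ hi)
      exact ⟨i :: ps, h1, h2⟩

end induction

/-! ### the final twist -/

/-- a non-zero constant does not vanish. -/
theorem not_vanishesAt_ksmul {ιK : K →+* Γ(X, ⊤)} {p : X} {E : LB X} {W : X.Opens}
    {σ : E.SecOn W} (hσ : ¬ σ.VanishesAt p) {c : K} (hc : c ≠ 0) :
    ¬ (ksmul ιK c σ).VanishesAt p := by
  intro h
  apply hσ
  have h2 : ksmul ιK c⁻¹ (ksmul ιK c σ) = σ := by
    unfold ksmul
    rw [← mul_smul, ← map_mul, ← map_mul, inv_mul_cancel₀ hc, map_one, map_one, one_smul]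
  rw [← h2]
  exact vanishesAt_smul h _

/-- **the final twist**: if `H⁰(E) = 0 = Ȟ¹(E)` and `ε` is a rational point, then `E(ε)` has
`Ȟ¹ = 0` and `H⁰(E(ε))` is the line spanned by a section not vanishing at `ε`. -/
theorem exists_generator_tensor {ιK : K →+* Γ(X, ⊤)} {ε : X} (hrat : IsRatPt ιK ε)
    (P : PointDiv X ε) {U₀ U₁ : X.Opens} (hcov : U₀ ⊔ U₁ = ⊤) (h₀ : IsAffineOpen U₀)
    (h₁ : IsAffineOpen U₁) (E : LB X) (hE : H1Vanishes E U₀ U₁)
    (hE0 : ∀ σ : E.SecOn ⊤, σ = 0) :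
    H1Vanishes (E.tensor P.Q) U₀ U₁ ∧
      ∃ σ : (E.tensor P.Q).SecOn ⊤, ¬ σ.VanishesAt ε ∧
        ∀ τ : (E.tensor P.Q).SecOn ⊤, ∃! c : K, τ = ksmul ιK c σ := by
  refine ⟨h1Vanishes_tensor hrat P h₀ E hE, ?_⟩
  obtain ⟨σ, hσ⟩ := exists_global_not_vanishesAt hrat P hcov h₀ h₁ E hE
  refine ⟨σ, hσ, fun τ => ?_⟩
  obtain ⟨c, t', hc⟩ := global_decomp hrat P E σ hσ τ
  rw [hE0 t', tensorH0_zero, add_zero] at hc
  refine ⟨c, hc, fun c' hc' => ?_⟩
  by_contra hne
  have h3 : ksmul ιK (c' - c) σ = 0 := by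
    unfold ksmul at hc hc' ⊢
    rw [map_sub, map_sub, sub_smul, ← hc, ← hc', sub_self]
  have h4 := not_vanishesAt_ksmul (ιK := ιK) hσ (sub_ne_zero.mpr hne)
  rw [h3] at h4
  exact h4 (vanishesAt_zero ε)

end

end Fermat.Agent.JAC.TW
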