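/-
PROJECT JAC (S25) — (D3) instantiation, helper2: the inputs of helper3's abstract covering lemma
`TW.exists_chart_twist` on a geometric fibre `Y = C ×_K Spec K'` of the curve (`K ⊆ K'`
algebraically closed fields), in the setting `H : IsPullback p₁ p₂ c y` of `D3_helper2_BaseChange`.

* `ClosedPt C`, `constK p₂ : K' →+* Γ(Y, ⊤)` (= `CP.constMap p₂`), `ptOver`, `pdOver`
  (the pulled-back point divisors, `Q = (pointDiv_curve c z hz).Q.pullback p₁` by `rfl`);
* (a) `isRatPt_ptOver`; (b) `exists_not_vanishesAt_ptOver` (general position);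
* (c) `finite_globSec` (`H⁰` is finite-dimensional); (d) `eq_ptOver_of_notMem`.
-/
import Mathlib
import Fermat.Agent.JAC.D3_helper2_BaseChange
import Fermat.Agent.JAC.TW_helper3_Remove
import Fermat.Agent.AV.CP_helper8_SecPull

set_option autoImplicit false
set_option linter.style.haveILetI false
set_option linter.unusedSectionVars false

open AlgebraicGeometry CategoryTheory Opposite TopologicalSpace Order

universe u

namespace Fermat.Agent.JAC

open Fermat.Agent.AV Fermat.Agent.AV.LB

noncomputable section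

/-- the closed points of a curve. -/
abbrev ClosedPt (C : Scheme.{u}) [IsIntegral C] : Type u := {z : C // z ≠ genericPoint C}

/-- the constants of a scheme over a field (`= CP.constMap a`). -/
def constK {K' : Type u} [Field K'] {Y : Scheme.{u}} (a : Y ⟶ Spec (.of K')) : K' →+* Γ(Y, ⊤) :=
  a.appTop.hom.comp (Scheme.ΓSpecIso (.of K')).inv.hom

section Fin0

variable {K' : Type u} [Field K'] [IsAlgClosed K'] {Y : Scheme.{u}} [IsIntegral Y]
  (a : Y ⟶ Spec (.of K')) [SmoothOfRelativeDimension 1 a] [IsProper a] [IsNoetherian Y]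

/-- **(c) global sections of a line bundle on a proper smooth curve are finite-dimensional.** -/
theorem finite_globSec (E : LB Y) : Module.Finite K' (TW.GlobSec (constK a) E) := by
  obtain ⟨g, hg⟩ := exists_genus_LB a
  letI : Module K' E.H0 := Module.compHom E.H0 (constK a)
  have h1 : Module.Finite K' E.H0 :=
    (hg E (fun b τ => by rw [sectionsStrMap_top]; rfl)).1
  let e : E.H0 ≃ₗ[K'] TW.GlobSec (constK a) E :=
    { CP.h0EquivTop E with
      map_smul' := fun b τ => CP.ofH0_smul (constK a b) τ }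
  exact Module.Finite.equiv e

end Fin0

section Inst

variable {K K' : Type u} [Field K] [Field K'] {C Y : Scheme.{u}} (c : C ⟶ Spec (.of K))
  (y : Spec (.of K') ⟶ Spec (.of K)) (p₁ : Y ⟶ C) (p₂ : Y ⟶ Spec (.of K'))
  (H : IsPullback p₁ p₂ c y)
  [IsIntegral C] [SmoothOfRelativeDimension 1 c] [IsAlgClosed K] [IsProper c] [IsNoetherian C]
  [IsIntegral Y]

/-- the point of `Y` over a closed point of `C`. -/
def ptOver (i : ClosedPt C) : Y := pointOver c y p₁ p₂ H i.1

theorem map_ptOver (i : ClosedPt C) : p₁ (ptOver c y p₁ p₂ H i) = i.1 :=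
  map_pointOver c y p₁ p₂ H i.1

theorem ptOver_injective : Function.Injective (ptOver c y p₁ p₂ H) := fun _ _ h =>
  Subtype.ext (pointOver_injective c y p₁ p₂ H h)

/-- the pulled-back point divisor at the point over a closed point. -/
def pdOver (i : ClosedPt C) : TW.PointDiv Y (ptOver c y p₁ p₂ H i) :=
  pointDivPullback c y p₁ p₂ H i.2 (pointDiv_curve c i.1 i.2) _ (map_ptOver c y p₁ p₂ H i)

theorem pdOver_Q (i : ClosedPt C) :
    (pdOver c y p₁ p₂ H i).Q = (pointDiv_curve c i.1 i.2).Q.pullback p₁ := rfl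

theorem pdOver_s (i : ClosedPt C) :
    (pdOver c y p₁ p₂ H i).s =
      (pointDiv_curve c i.1 i.2).Q.pullbackSection p₁ (pointDiv_curve c i.1 i.2).s := rfl

/-- **(d)** the only point of `Y` outside `p₁⁻¹ U₀` is the point over `ε`, if `C ∖ U₀ = {ε}`. -/
theorem eq_ptOver_of_notMem (ε : ClosedPt C) (U₀ : C.Opens) (hU₀ : ∀ z : C, z ∉ U₀ → z = ε.1)
    (w : Y) (hw : w ∉ p₁ ⁻¹ᵁ U₀) : w = ptOver c y p₁ p₂ H ε :=
  eq_of_map_eq_closedPoint c y p₁ p₂ H ε.2 (pointDiv_curve c ε.1 ε.2) (hU₀ _ hw)
    (map_ptOver c y p₁ p₂ H ε)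

variable [IsAlgClosed K'] [SmoothOfRelativeDimension 1 p₂]

/-- **(a)** the points over the closed points of `C` are `K'`-rational. -/
theorem isRatPt_ptOver (i : ClosedPt C) : TW.IsRatPt (constK p₂) (ptOver c y p₁ p₂ H i) :=
  isRatPt_of_map_eq c y p₁ p₂ H i.2 (pointDiv_curve c i.1 i.2) _ (map_ptOver c y p₁ p₂ H i)

variable [IsNoetherian Y]

/-- **(b) general position**: a nonzero section of a line bundle on `Y` does not vanish at the
point over some closed point of `C`. -/
theorem exists_not_vanishesAt_ptOver (E : LB Y) {W : Y.Opens} (σ : E.SecOn W) (hσ : σ ≠ 0) :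
    ∃ i : ClosedPt C, ¬ σ.VanishesAt (ptOver c y p₁ p₂ H i) := by
  by_contra hcon
  push Not at hcon
  have hfin := finite_vanishesAt p₂ σ hσ
  have h1 : (Set.univ : Set (ClosedPt C)).Finite := by
    refine (hfin.preimage (ptOver_injective c y p₁ p₂ H).injOn).subset ?_
    intro i _
    exact hcon i
  have h2 : Infinite (ClosedPt C) := Set.infinite_coe_iff.2 (infinite_closedPoints c)
  exact Set.infinite_univ h1

end Inst

end

end Fermat.Agent.JAC
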