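/-
PROJECT JAC (S25) — helper5 — (P): **the zero scheme of a section which is a unit off an affine open
is finite over the base, when the ambient scheme is proper over the (affine) base.**

`Y` a scheme, `L : LB Y`, `σ : L.H0`, `W ⊆ Y` an affine open, `W'` an open with `W ⊔ W' = ⊤` on
which `σ` is a unit, `I := L.zeroIdeal σ W`:
* `LB.zeroSet_zeroIdeal` : the zero locus of `I` inside `W` is the vanishing locus of `σ`
  (partition of unity on `W`);
* `LB.isClosed_zeroSet_zeroIdeal` : it is closed in `Y`;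
* `LB.isClosedImmersion_zeroEmb` : lead's `zeroEmb hW I : Spec (Γ(Y,W)/I) ⟶ Y` is a closed
  immersion;
* `LB.finite_zeroIdeal_of_isProper` : for `p : Y ⟶ T` proper, `T` affine, the ring map
  `Γ(T,⊤) ⟶ Γ(Y,W) ⟶ Γ(Y,W)/I` is finite (proper + affine ⇒ finite).
-/
import Mathlib
import Fermat.Agent.JAC.HILB_lead_ZeroIdeal

set_option autoImplicit false

open AlgebraicGeometry CategoryTheory Opposite TopologicalSpace

universe u

namespace Fermat.Agent.AV.LB

open Fermat.Agent.JAC

noncomputable section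

variable {Y : Scheme.{u}}

/-- the open locus where the section `σ` does not vanish. -/
def nonvanishingLocus (L : LB Y) (σ : L.H0) : Y.Opens := ⨆ i, Y.basicOpen (σ.1 i)

theorem mem_nonvanishingLocus_iff (L : LB Y) (σ : L.H0) (y : Y) (i : L.ι) (hi : y ∈ L.U i) :
    y ∈ L.nonvanishingLocus σ ↔ y ∈ Y.basicOpen (σ.1 i) := by
  constructor
  · intro hy
    obtain ⟨j, hj⟩ := Opens.mem_iSup.mp hy
    have hyj : y ∈ L.U j := (Y.basicOpen_le _) hj
    -- `σ i = g i j * σ j` on the overlap
    set V := L.U i ⊓ L.U j with hV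
    have h1 := σ.2 i j
    have h2 : y ∈ Y.basicOpen (res V inf_le_left (σ.1 i)) := by
      rw [h1, Scheme.basicOpen_mul]
      refine ⟨?_, ?_⟩
      · rw [Y.basicOpen_of_isUnit (L.isUnit_g i j)]
        exact ⟨hi, hyj⟩
      · rw [basicOpen_res']
        exact ⟨⟨hi, hyj⟩, hj⟩
    rw [basicOpen_res'] at h2
    exact h2.2
  · intro hy
    exact Opens.mem_iSup.mpr ⟨i, hy⟩

variable {W : Y.Opens}

/-- **the zero locus of the zero ideal is the vanishing locus of the section.** -/
theorem zeroSet_zeroIdeal (L : LB Y) (σ : L.H0) (hW : IsAffineOpen W) :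
    zeroSet W (L.zeroIdeal σ W) = (W : Set Y) ∩ ((L.nonvanishingLocus σ : Y.Opens) : Set Y)ᶜ := by
  classical
  ext y
  constructor
  · rintro ⟨hyW, hy⟩
    refine ⟨hyW, fun hyn => ?_⟩
    -- a chart around `y`
    have hy' : y ∈ (⊤ : Y.Opens) := True.intro
    rw [← L.iSup_U] at hy'
    obtain ⟨i, hi⟩ := Opens.mem_iSup.mp hy'
    have hyi := (L.mem_nonvanishingLocus_iff σ y i hi).mp hyn
    obtain ⟨β, hβ, m, τ, hsum⟩ := L.exists_partition_of_unity hW
    -- some `⟨τ b, m b⟩` does not vanish at `y`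
    have hex : ∃ b, y ∈ Y.basicOpen (SecOn.pairing (τ b) (m b)) := by
      by_contra hcon
      have hcon' : ∀ b, y ∉ Y.basicOpen (SecOn.pairing (τ b) (m b)) := fun b hb => hcon ⟨b, hb⟩
      have h1 : y ∈ Y.basicOpen (∑ b, SecOn.pairing (τ b) (m b)) := by
        rw [hsum, Y.basicOpen_of_isUnit isUnit_one]
        exact hyW
      -- the sum lies in the maximal ideal at `y`
      have h2 : ∀ s : Finset β, y ∉ Y.basicOpen (∑ b ∈ s, SecOn.pairing (τ b) (m b)) := by
        intro s
        induction s using Finset.induction_on with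
        | empty =>
          rw [Finset.sum_empty, Scheme.basicOpen_zero]
          exact fun h => h
        | insert a s ha ih =>
          rw [Finset.sum_insert ha]
          intro h3
          have h4 := Y.basicOpen_add_le (SecOn.pairing (τ a) (m a))
            (∑ b ∈ s, SecOn.pairing (τ b) (m b)) h3
          rcases h4 with h4 | h4
          · exact hcon' a h4
          · exact ih h4
      exact h2 Finset.univ h1
    obtain ⟨b, hb⟩ := hex
    set V := L.U i ⊓ W with hV
    have hyV : y ∈ V := ⟨hi, hyW⟩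
    -- `τ_{b,i}` does not vanish at `y`
    have h3 : y ∈ Y.basicOpen ((τ b).invComp i) := by
      have h4 : y ∈ Y.basicOpen (res V inf_le_right (SecOn.pairing (τ b) (m b))) := by
        rw [basicOpen_res']
        exact ⟨hyV, hb⟩
      rw [SecOn.res_pairing, Scheme.basicOpen_mul] at h4
      exact h4.1
    -- hence `⟨τ b, σ⟩ ∈ I` does not vanish at `y`
    apply hy _ (L.pairing_mem_zeroIdeal σ W (τ b))
    have h5 : y ∈ Y.basicOpen (res V inf_le_right
        (SecOn.pairing (τ b) (L.secOnOfH0 σ W))) := by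
      rw [SecOn.res_pairing, secOnOfH0_s, Scheme.basicOpen_mul, basicOpen_res']
      exact ⟨h3, hyV, hyi⟩
    rw [basicOpen_res'] at h5
    exact h5.2
  · rintro ⟨hyW, hyn⟩
    refine ⟨hyW, fun r hr hyr => hyn ?_⟩
    have hy' : y ∈ (⊤ : Y.Opens) := True.intro
    rw [← L.iSup_U] at hy'
    obtain ⟨i, hi⟩ := Opens.mem_iSup.mp hy'
    obtain ⟨a, ha⟩ := hr i
    have h1 : y ∈ Y.basicOpen (res (L.U i ⊓ W) inf_le_right r) := by
      rw [basicOpen_res']
      exact ⟨⟨hi, hyW⟩, hyr⟩
    rw [ha, Scheme.basicOpen_mul, basicOpen_res'] at h1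
    exact Opens.mem_iSup.mpr ⟨i, h1.2.2⟩

/-- if `σ` is a unit off `W`, the zero locus of its zero ideal on `W` is closed in `Y`. -/
theorem isClosed_zeroSet_zeroIdeal (L : LB Y) (σ : L.H0) (hW : IsAffineOpen W)
    {W' : Y.Opens} (hWW' : W ⊔ W' = ⊤)
    (hu : ∀ i, IsUnit (res (L.U i ⊓ W') inf_le_left (σ.1 i))) :
    IsClosed (zeroSet W (L.zeroIdeal σ W)) := by
  have hW'n : W' ≤ L.nonvanishingLocus σ := by
    intro y hy
    have hy' : y ∈ (⊤ : Y.Opens) := True.intro
    rw [← L.iSup_U] at hy'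
    obtain ⟨i, hi⟩ := Opens.mem_iSup.mp hy'
    have h1 := (isUnit_iff_le_basicOpen _).mp (hu i)
    rw [basicOpen_res'] at h1
    exact Opens.mem_iSup.mpr ⟨i, (h1 ⟨hi, hy⟩).2⟩
  have : zeroSet W (L.zeroIdeal σ W) = ((L.nonvanishingLocus σ : Y.Opens) : Set Y)ᶜ := by
    rw [L.zeroSet_zeroIdeal σ hW]
    ext y
    constructor
    · exact fun h => h.2
    · intro h
      refine ⟨?_, h⟩
      have hy : y ∈ W ⊔ W' := by rw [hWW']; trivial
      rcases hy with hy | hy
      · exact hy
      · exact absurd (hW'n hy) h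
  rw [this]
  exact (L.nonvanishingLocus σ).isOpen.isClosed_compl

/-- lead's `zeroEmb` is a closed immersion for the zero ideal of a section which is a unit off
`W`. -/
theorem isClosedImmersion_zeroEmb (L : LB Y) (σ : L.H0) (hW : IsAffineOpen W)
    {W' : Y.Opens} (hWW' : W ⊔ W' = ⊤)
    (hu : ∀ i, IsUnit (res (L.U i ⊓ W') inf_le_left (σ.1 i))) :
    IsClosedImmersion (zeroEmb hW (L.zeroIdeal σ W)) := by
  have h1 : IsClosedImmersion
      (Spec.map (CommRingCat.ofHom (Ideal.Quotient.mk (L.zeroIdeal σ W)))) :=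
    IsClosedImmersion.spec_of_surjective _ Ideal.Quotient.mk_surjective
  have h2 : IsPreimmersion (zeroEmb hW (L.zeroIdeal σ W)) := by
    unfold zeroEmb
    infer_instance
  refine IsClosedImmersion.of_isPreimmersion _ ?_
  rw [range_zeroEmb]
  exact L.isClosed_zeroSet_zeroIdeal σ hW hWW' hu

/-- **finiteness of the zero scheme over the base**: `p : Y ⟶ T` proper, `T` affine, `σ` a unit
off the affine open `W`. -/
theorem finite_zeroIdeal_of_isProper {T : Scheme.{u}} [IsAffine T] (p : Y ⟶ T) [IsProper p]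
    (L : LB Y) (σ : L.H0) (hW : IsAffineOpen W) {W' : Y.Opens} (hWW' : W ⊔ W' = ⊤)
    (hu : ∀ i, IsUnit (res (L.U i ⊓ W') inf_le_left (σ.1 i))) :
    ((Ideal.Quotient.mk (L.zeroIdeal σ W)).comp (p.appLE ⊤ W le_top).hom).Finite := by
  set I := L.zeroIdeal σ W with hI
  have hcl : IsClosedImmersion (zeroEmb hW I) := L.isClosedImmersion_zeroEmb σ hW hWW' hu
  have h1 : zeroEmb hW I ≫ p =
      Spec.map (p.appLE ⊤ W le_top ≫ CommRingCat.ofHom (Ideal.Quotient.mk I)) ≫
        T.isoSpec.inv := by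
    rw [zeroEmb, Category.assoc, ← (isAffineOpen_top T).SpecMap_appLE_fromSpec p hW le_top,
      IsAffineOpen.fromSpec_top, Spec.map_comp, Category.assoc]
  have h2 : IsProper (zeroEmb hW I ≫ p) := inferInstance
  have h3 : IsProper
      (Spec.map (p.appLE ⊤ W le_top ≫ CommRingCat.ofHom (Ideal.Quotient.mk I))) := by
    have h4 : Spec.map (p.appLE ⊤ W le_top ≫ CommRingCat.ofHom (Ideal.Quotient.mk I)) =
        (zeroEmb hW I ≫ p) ≫ T.isoSpec.hom := by
      rw [h1, Category.assoc, Iso.inv_hom_id, Category.comp_id]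
    rw [h4]
    infer_instance
  have h5 : IsFinite
      (Spec.map (p.appLE ⊤ W le_top ≫ CommRingCat.ofHom (Ideal.Quotient.mk I))) :=
    IsFinite.iff_isProper_and_isAffineHom.mpr ⟨h3, inferInstance⟩
  rw [IsFinite.SpecMap_iff] at h5
  exact h5

end

end Fermat.Agent.AV.LB
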