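/-
PROJECT JAC (S25) — (FIB), part 5 (helper7): **existence of a based family over a field**
(helper3's request for the chart condition (C) of (D3)).

* `span_range_mk_one_tmul` : the classes of the `1 ⊗ a` span `(B ⊗[k] A) ⧸ I` over `B`.
* **`exists_isBased_of_finite_of_isField`** : `B` a field (`IsField B`, so that it applies to
  `B = Γ(Spec κ, ⊤)`), `I ⊆ B ⊗[k] A` with `(B ⊗[k] A) ⧸ I` finite over `B`
  ⇒ `∃ g (v : Fin g → A), HilbAlg.IsBased v I`; `exists_isBased_of_finite` for a `Field`.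
* `isField_Γ_Spec_of_field`, `finite_quotient_comap_kunneth` (finiteness through Künneth).
* **`exists_isBased_comap_kunneth_zeroIdeal`** : in lead's (H) setting with `IsField Γ(T,⊤)`
  (`T = Spec κ`), `p₂` proper, `σ` a unit off `p₁⁻¹U` ⇒ `∃ g v, IsBased v ((zeroIdeal σ (p₁⁻¹U)).comap
  (kunneth H hU))` — the third component of helper5's `IsChartSection`.
-/
import Mathlib
import Fermat.Agent.JAC.HILB_lead_Chart
import Fermat.Agent.JAC.P_helper5_Finite
import Fermat.Agent.JAC.FIB_helper7_Based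

set_option autoImplicit false
set_option linter.style.haveILetI false

open AlgebraicGeometry CategoryTheory CategoryTheory.Limits Opposite TopologicalSpace TensorProduct

universe u

namespace Fermat.Agent.JAC

open Fermat.Agent.AV Fermat.Agent.AV.CP HilbAlg

noncomputable section

section Alg

variable {k A B : Type u} [CommRing k] [CommRing A] [Algebra k A] [CommRing B] [Algebra k B]

/-- the classes of the `1 ⊗ a` span every quotient of `B ⊗[k] A` over `B`. -/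
theorem span_range_mk_one_tmul (I : Ideal (B ⊗[k] A)) :
    Submodule.span B (Set.range fun a : A =>
      (Ideal.Quotient.mk I ((1 : B) ⊗ₜ[k] a) : (B ⊗[k] A) ⧸ I)) = ⊤ := by
  rw [eq_top_iff]
  rintro y -
  obtain ⟨x, rfl⟩ := Ideal.Quotient.mk_surjective y
  induction x using TensorProduct.induction_on with
  | zero => rw [map_zero]; exact Submodule.zero_mem _
  | tmul b a =>
    have h1 : (b ⊗ₜ[k] a : B ⊗[k] A) = b • ((1 : B) ⊗ₜ[k] a) := by
      rw [TensorProduct.smul_tmul', smul_eq_mul, mul_one]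
    have h2 : (Ideal.Quotient.mk I (b ⊗ₜ[k] a) : (B ⊗[k] A) ⧸ I) =
        b • Ideal.Quotient.mk I ((1 : B) ⊗ₜ[k] a) := by
      rw [h1]
      rfl
    rw [h2]
    exact Submodule.smul_mem _ _ (Submodule.subset_span ⟨a, rfl⟩)
  | add x y hx hy =>
    rw [map_add]
    exact Submodule.add_mem _ hx hy

/-- **every ideal of `B ⊗[k] A` (`B` a field) with finite-dimensional quotient is based** on a
suitable finite family of elements of `A`.  (`B` is only assumed to satisfy `IsField`, so that the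
statement applies to `B = Γ(Spec κ, ⊤)`.) -/
theorem exists_isBased_of_finite_of_isField (hB : IsField B) (I : Ideal (B ⊗[k] A))
    [Module.Finite B ((B ⊗[k] A) ⧸ I)] :
    ∃ (g : ℕ) (v : Fin g → A), IsBased v I := by
  classical
  letI : Field B := hB.toField
  obtain ⟨ι, a, -, hsp, hli⟩ := exists_linearIndependent' B
    (fun a : A => (Ideal.Quotient.mk I ((1 : B) ⊗ₜ[k] a) : (B ⊗[k] A) ⧸ I))
  have hsp' : Submodule.span B (Set.range ((fun a : A =>
      (Ideal.Quotient.mk I ((1 : B) ⊗ₜ[k] a) : (B ⊗[k] A) ⧸ I)) ∘ a)) = ⊤ := by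
    rw [hsp]
    exact span_range_mk_one_tmul I
  have hfin : Finite ι := hli.finite
  have : Fintype ι := Fintype.ofFinite ι
  let e : ι ≃ Fin (Fintype.card ι) := Fintype.equivFin ι
  let b : Module.Basis ι B ((B ⊗[k] A) ⧸ I) := Module.Basis.mk hli hsp'.ge
  refine ⟨Fintype.card ι, fun j => a (e.symm j), b.reindex e, fun j => ?_⟩
  rw [Module.Basis.reindex_apply, Module.Basis.mk_apply]
  rfl

/-- the same for a `Field`. -/
theorem exists_isBased_of_finite {κ : Type u} [Field κ] [Algebra k κ] (I : Ideal (κ ⊗[k] A))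
    [Module.Finite κ ((κ ⊗[k] A) ⧸ I)] : ∃ (g : ℕ) (v : Fin g → A), IsBased v I :=
  exists_isBased_of_finite_of_isField (Field.toIsField κ) I

end Alg

/-- global functions on the spectrum of a field form a field. -/
theorem isField_Γ_Spec_of_field (κ : Type u) [Field κ] :
    IsField Γ(Spec (CommRingCat.of κ), ⊤) :=
  (Scheme.ΓSpecIso (CommRingCat.of κ)).commRingCatIsoToRingEquiv.toMulEquiv.isField
    (Field.toIsField κ)

variable {K : Type u} [Field K] {C T Y : Scheme.{u}} [KScheme K C] [KScheme K T] [IsAffine T]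
  {p₁ : Y ⟶ C} {p₂ : Y ⟶ T}
  (H : IsPullback p₁ p₂ (KScheme.str (K := K)) (KScheme.str (K := K)))
  {U : C.Opens} (hU : IsAffineOpen U)

/-- finiteness over the base passes through Künneth (converse of lead's
`finite_quotient_kunIdeal`). -/
theorem finite_quotient_comap_kunneth (J : Ideal Γ(Y, p₁ ⁻¹ᵁ U))
    (hfin : ((Ideal.Quotient.mk J).comp (p₂.appLE ⊤ (p₁ ⁻¹ᵁ U) le_top).hom).Finite) :
    Module.Finite Γ(T, ⊤) ((Γ(T, ⊤) ⊗[K] Γ(C, U)) ⧸
      J.comap (kunneth H hU : Γ(T, ⊤) ⊗[K] Γ(C, U) →+* Γ(Y, p₁ ⁻¹ᵁ U))) := by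
  set I := J.comap (kunneth H hU : Γ(T, ⊤) ⊗[K] Γ(C, U) →+* Γ(Y, p₁ ⁻¹ᵁ U)) with hI
  have hJ : J = I.map (kunneth H hU : Γ(T, ⊤) ⊗[K] Γ(C, U) →+* Γ(Y, p₁ ⁻¹ᵁ U)) := by
    rw [hI]
    exact (Ideal.map_comap_of_surjective _ (kunneth H hU).surjective J).symm
  let e : ((Γ(T, ⊤) ⊗[K] Γ(C, U)) ⧸ I) ≃+* (Γ(Y, p₁ ⁻¹ᵁ U) ⧸ J) :=
    Ideal.quotientEquiv I J (kunneth H hU) hJ
  have h2 : (e.symm : (Γ(Y, p₁ ⁻¹ᵁ U) ⧸ J) →+* ((Γ(T, ⊤) ⊗[K] Γ(C, U)) ⧸ I)).Finite :=
    RingHom.Finite.of_surjective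
      (e.symm : (Γ(Y, p₁ ⁻¹ᵁ U) ⧸ J) →+* ((Γ(T, ⊤) ⊗[K] Γ(C, U)) ⧸ I)) e.symm.surjective
  have h3 := h2.comp hfin
  rw [← RingHom.finite_algebraMap]
  convert h3 using 1
  ext b
  show Ideal.Quotient.mk I (b ⊗ₜ[K] 1) =
    e.symm (Ideal.Quotient.mk J ((p₂.appLE ⊤ (p₁ ⁻¹ᵁ U) le_top).hom b))
  rw [RingEquiv.eq_symm_apply]
  have h4 : e (Ideal.Quotient.mk I (b ⊗ₜ[K] 1)) =
      Ideal.Quotient.mk J (kunneth H hU (b ⊗ₜ[K] 1)) := rfl
  rw [h4, kunneth_tmul_one]
  rfl

/-- **(C) for helper3/helper5's `ChartCond`**: over a base `T` whose global functions form a field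
(`T = Spec κ`), with `p₂` proper and `σ` a unit off `p₁⁻¹U`, the zero ideal of `σ` is based on a
suitable finite family `v` of elements of `Γ(C, U)`. -/
theorem exists_isBased_comap_kunneth_zeroIdeal (hB : IsField Γ(T, ⊤)) [IsProper p₂]
    (L : LB Y) (σ : L.H0) {W' : Y.Opens} (hWW' : p₁ ⁻¹ᵁ U ⊔ W' = ⊤)
    (hu : ∀ i, IsUnit (res (L.U i ⊓ W') inf_le_left (σ.1 i))) :
    ∃ (g : ℕ) (v : Fin g → Γ(C, U)), IsBased v ((L.zeroIdeal σ (p₁ ⁻¹ᵁ U)).comap
      (kunneth H hU : Γ(T, ⊤) ⊗[K] Γ(C, U) →+* Γ(Y, p₁ ⁻¹ᵁ U))) := by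
  have hW := isAffineOpen_preimage_fst H hU
  have hfin := LB.finite_zeroIdeal_of_isProper p₂ L σ hW hWW' hu
  have := finite_quotient_comap_kunneth H hU _ hfin
  exact exists_isBased_of_finite_of_isField hB _

end

end Fermat.Agent.JAC
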