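/-
PROJECT JAC (S25) — helper5 — (P): **the chart condition at a field-valued point** (shared by (P) and
the covering (D3)).

Setting = lead's (H): `C` a `K`-scheme, `T'` an affine `K`-scheme (think `T' = Spec κ`, `κ` a field),
`Y' = C ×_K T'` (`H' : IsPullback p₁' p₂' str str`), `U₀ ⊆ C` an affine open, `U₁ ⊆ C` an open,
`v : Fin g → Γ(C, U₀)`, `L' : LB Y'`.

`ChartCond H' hU₀ U₁ v L'` :
* `h1` : the Čech `H¹` of `L'` for the cover `p₁'⁻¹U₀, p₁'⁻¹U₁` vanishes (helper8's `H1Vanishes`);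
* `ex` : there is a global section `σ` which generates `H⁰(L')` freely over `Γ(T',⊤)`, is a unit off
  `p₁'⁻¹U₀`, and whose zero ideal on `p₁'⁻¹U₀` is `v`-based (under the Künneth isomorphism).

`ChartCond.of_iso` : invariance under isomorphisms of line bundles is proved in
`P_helper5_Spread` (needs the action of isomorphisms on `SecOn`).
-/
import Mathlib
import Fermat.Agent.JAC.HILB_lead_Chart
import Fermat.Agent.JAC.CBC_helper8_Cech

set_option autoImplicit false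

open AlgebraicGeometry CategoryTheory Opposite TopologicalSpace TensorProduct

universe u

namespace Fermat.Agent.JAC

open Fermat.Agent.AV Fermat.Agent.AV.CP HilbAlg

noncomputable section

variable {K : Type u} [Field K] {C T' Y' : Scheme.{u}} [KScheme K C] [KScheme K T'] [IsAffine T']
  {p₁' : Y' ⟶ C} {p₂' : Y' ⟶ T'}

/-- the section `σ` of `L'` generates `H⁰` freely, is a unit off `p₁'⁻¹U₀`, and has `v`-based zero
ideal on `p₁'⁻¹U₀`. -/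
def IsChartSection (H' : IsPullback p₁' p₂' (KScheme.str (K := K)) (KScheme.str (K := K)))
    {U₀ : C.Opens} (hU₀ : IsAffineOpen U₀) {g : ℕ} (v : Fin g → Γ(C, U₀)) (L' : LB Y')
    (σ : L'.H0) : Prop :=
  (∀ τ : L'.H0, ∃! b : Γ(T', ⊤), τ = p₂'.appTop.hom b • σ) ∧
  (∃ W' : Y'.Opens, p₁' ⁻¹ᵁ U₀ ⊔ W' = ⊤ ∧
    ∀ i, IsUnit (res (L'.U i ⊓ W') inf_le_left (σ.1 i))) ∧
  IsBased v ((L'.zeroIdeal σ (p₁' ⁻¹ᵁ U₀)).comap
    (kunneth H' hU₀ : Γ(T', ⊤) ⊗[K] Γ(C, U₀) →+* Γ(Y', p₁' ⁻¹ᵁ U₀)))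

/-- **the chart condition** for a line bundle `L'` on `Y' = C ×_K T'`. -/
structure ChartCond (H' : IsPullback p₁' p₂' (KScheme.str (K := K)) (KScheme.str (K := K)))
    {U₀ : C.Opens} (hU₀ : IsAffineOpen U₀) (U₁ : C.Opens) {g : ℕ} (v : Fin g → Γ(C, U₀))
    (L' : LB Y') : Prop where
  h1 : CBC.H1Vanishes L' (p₁' ⁻¹ᵁ U₀) (p₁' ⁻¹ᵁ U₁)
  ex : ∃ σ : L'.H0, IsChartSection H' hU₀ v L' σ

/-- the zero ideal of a chart section is the Künneth image of its comap. -/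
theorem kunIdeal_comap_zeroIdeal
    (H' : IsPullback p₁' p₂' (KScheme.str (K := K)) (KScheme.str (K := K)))
    {U₀ : C.Opens} (hU₀ : IsAffineOpen U₀) (L' : LB Y') (σ : L'.H0) :
    kunIdeal H' hU₀ ((L'.zeroIdeal σ (p₁' ⁻¹ᵁ U₀)).comap
      (kunneth H' hU₀ : Γ(T', ⊤) ⊗[K] Γ(C, U₀) →+* Γ(Y', p₁' ⁻¹ᵁ U₀))) =
      L'.zeroIdeal σ (p₁' ⁻¹ᵁ U₀) := by
  unfold kunIdeal
  exact Ideal.map_comap_of_surjective _ (kunneth H' hU₀).surjective _

/-- conversely, if the zero ideal is the Künneth image of `I`, its comap is `I`. -/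
theorem comap_zeroIdeal_of_eq_kunIdeal
    (H' : IsPullback p₁' p₂' (KScheme.str (K := K)) (KScheme.str (K := K)))
    {U₀ : C.Opens} (hU₀ : IsAffineOpen U₀) (L' : LB Y') (σ : L'.H0)
    {I : Ideal (Γ(T', ⊤) ⊗[K] Γ(C, U₀))}
    (hI : L'.zeroIdeal σ (p₁' ⁻¹ᵁ U₀) = kunIdeal H' hU₀ I) :
    (L'.zeroIdeal σ (p₁' ⁻¹ᵁ U₀)).comap
      (kunneth H' hU₀ : Γ(T', ⊤) ⊗[K] Γ(C, U₀) →+* Γ(Y', p₁' ⁻¹ᵁ U₀)) = I := by
  rw [hI]
  unfold kunIdeal
  exact Ideal.comap_map_of_bijective _ (kunneth H' hU₀).bijective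

end

end Fermat.Agent.JAC
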