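/-
PROJECT JAC (S25) — helper5 — (P): **"unit off `W`" spreads from a fibre to a neighbourhood**, for a
closed (e.g. proper) morphism `p : Y ⟶ T`.

* `LB.nonvanishingLocus_pullback` : the nonvanishing locus commutes with pull-back;
* `LB.isUnit_res_of_le_nonvanishingLocus`, `LB.le_nonvanishingLocus_of_isUnit` : "`σ` is a unit on
  `W'`" ⇔ `W' ≤ nonvanishingLocus σ`;
* `LB.exists_nhds_unit_off` : if on the fibre over a field-valued point `z : Spec κ ⟶ T` the section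
  is a unit off `ψ⁻¹ W`, then there is an open `V ⊆ T` containing the image of `z` with
  `p⁻¹ V ≤ W ⊔ nonvanishingLocus σ`;
* `LB.unit_off_pullback_of_range_le` : hence, after pull-back along any `ψ'` landing in `p⁻¹ V`, the
  section is a unit off `ψ'⁻¹ W` (in lead's (H) shape, with `W' := ` the nonvanishing locus).
-/
import Mathlib
import Fermat.Agent.JAC.P_helper5_Finite

set_option autoImplicit false

open AlgebraicGeometry CategoryTheory CategoryTheory.Limits Opposite TopologicalSpace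

universe u

namespace Fermat.Agent.AV.LB

open Fermat.Agent.JAC

noncomputable section

variable {Y : Scheme.{u}}

theorem nonvanishingLocus_pullback {Y' : Scheme.{u}} (ψ : Y' ⟶ Y) (L : LB Y) (σ : L.H0) :
    (L.pullback ψ).nonvanishingLocus (L.pullbackSection ψ σ) = ψ ⁻¹ᵁ L.nonvanishingLocus σ := by
  ext y
  constructor
  · intro hy
    obtain ⟨i, hi⟩ := Opens.mem_iSup.mp hy
    have h1 : y ∈ ψ ⁻¹ᵁ Y.basicOpen (σ.1 i) := by
      rw [Scheme.preimage_basicOpen]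
      exact hi
    exact Opens.mem_iSup.mpr ⟨i, h1⟩
  · intro hy
    obtain ⟨i, hi⟩ := Opens.mem_iSup.mp (show ψ.base y ∈ L.nonvanishingLocus σ from hy)
    have h1 : y ∈ ψ ⁻¹ᵁ Y.basicOpen (σ.1 i) := hi
    rw [Scheme.preimage_basicOpen] at h1
    exact Opens.mem_iSup.mpr ⟨i, h1⟩

theorem isUnit_res_of_le_nonvanishingLocus (L : LB Y) (σ : L.H0) {W' : Y.Opens}
    (h : W' ≤ L.nonvanishingLocus σ) (i : L.ι) :
    IsUnit (res (L.U i ⊓ W') inf_le_left (σ.1 i)) := by
  rw [isUnit_iff_le_basicOpen, basicOpen_res']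
  intro y hy
  exact ⟨hy, (L.mem_nonvanishingLocus_iff σ y i hy.1).mp (h hy.2)⟩

theorem le_nonvanishingLocus_of_isUnit (L : LB Y) (σ : L.H0) {W' : Y.Opens}
    (hu : ∀ i, IsUnit (res (L.U i ⊓ W') inf_le_left (σ.1 i))) :
    W' ≤ L.nonvanishingLocus σ := by
  intro y hy
  have hy' : y ∈ (⊤ : Y.Opens) := True.intro
  rw [← L.iSup_U] at hy'
  obtain ⟨i, hi⟩ := Opens.mem_iSup.mp hy'
  have h1 := (isUnit_iff_le_basicOpen _).mp (hu i)
  rw [basicOpen_res'] at h1
  exact Opens.mem_iSup.mpr ⟨i, (h1 ⟨hi, hy⟩).2⟩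

/-- **"unit off `W`" on the fibre over a field-valued point spreads to a neighbourhood**, for a
closed map `p`. -/
theorem exists_nhds_unit_off {T : Scheme.{u}} (p : Y ⟶ T) (hp : IsClosedMap p.base)
    (L : LB Y) (σ : L.H0) (W : Y.Opens) {Z Yz : Scheme.{u}} (z : Z ⟶ T) (ψ : Yz ⟶ Y)
    (q : Yz ⟶ Z) (sq : IsPullback ψ q p z) {W'z : Yz.Opens} (hcov : ψ ⁻¹ᵁ W ⊔ W'z = ⊤)
    (hu : ∀ i, IsUnit (res ((L.pullback ψ).U i ⊓ W'z) inf_le_left
      ((L.pullbackSection ψ σ).1 i))) :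
    ∃ V : T.Opens, (∀ s : Z, z.base s ∈ V) ∧ p ⁻¹ᵁ V ≤ W ⊔ L.nonvanishingLocus σ := by
  set O : Y.Opens := W ⊔ L.nonvanishingLocus σ with hO
  have hcl : IsClosed (p.base '' ((O : Set Y)ᶜ)) := hp _ O.isOpen.isClosed_compl
  refine ⟨⟨(p.base '' ((O : Set Y)ᶜ))ᶜ, hcl.isOpen_compl⟩, ?_, ?_⟩
  · rintro s ⟨y, hy, hys⟩
    obtain ⟨y', hy'1, -⟩ := Scheme.exists_preimage_of_isPullback sq y s hys
    apply hy
    have hy'' : y' ∈ ψ ⁻¹ᵁ W ⊔ W'z := by rw [hcov]; trivial
    rcases hy'' with h1 | h1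
    · left
      rw [← hy'1]
      exact h1
    · right
      have h2 := (L.pullback ψ).le_nonvanishingLocus_of_isUnit (L.pullbackSection ψ σ) hu h1
      rw [nonvanishingLocus_pullback] at h2
      rw [← hy'1]
      exact h2
  · intro y hy
    by_contra hn
    exact hy ⟨y, hn, rfl⟩

/-- after pull-back along a morphism landing in `p⁻¹ V` (`V` as in `exists_nhds_unit_off`), the
section is a unit off the preimage of `W`. -/
theorem unit_off_pullback_of_range_le (L : LB Y) (σ : L.H0) (W : Y.Opens) {Y' : Scheme.{u}}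
    (ψ' : Y' ⟶ Y) (h : ∀ y : Y', ψ'.base y ∈ W ⊔ L.nonvanishingLocus σ) :
    ψ' ⁻¹ᵁ W ⊔ (L.pullback ψ').nonvanishingLocus (L.pullbackSection ψ' σ) = ⊤ ∧
    ∀ i, IsUnit (res ((L.pullback ψ').U i ⊓
        (L.pullback ψ').nonvanishingLocus (L.pullbackSection ψ' σ)) inf_le_left
      ((L.pullbackSection ψ' σ).1 i)) := by
  refine ⟨?_, fun i => (L.pullback ψ').isUnit_res_of_le_nonvanishingLocus _ le_rfl i⟩
  rw [eq_top_iff, nonvanishingLocus_pullback]
  intro y _
  rcases h y with h1 | h1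
  · exact Or.inl h1
  · exact Or.inr h1

end

end Fermat.Agent.AV.LB
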