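/-
PROJECT JAC (S25) — helper3 — **(D3) the covering lemma**: on a geometric fibre
`Y = C ×_K Spec K'` (`K ⊆ K'` algebraically closed) of a smooth proper curve `C`, with
`U₀ = C ∖ {ε}`, `U₁` the two-affine cover of helper2, EVERY line bundle `M` on `Y` satisfies helper5's
chart condition after twisting by the pull-back of one of the bundles
`chartBundle (n, [p₁, …, p_r]) = O(n V(y)) ⊗ O(p₁)⁻¹ ⊗ … ⊗ O(p_r)⁻¹ ⊗ O(ε)` on `C`.
-/
import Mathlib
import Fermat.Agent.JAC.TW_helper3_Serre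
import Fermat.Agent.JAC.D3_helper2_Inst
import Fermat.Agent.JAC.P_helper5_ChartCond
import Fermat.Agent.JAC.P_helper5_Shrink
import Fermat.Agent.JAC.FIB_helper7_BasedExists

set_option autoImplicit false

open AlgebraicGeometry CategoryTheory Opposite TopologicalSpace CategoryTheory.Limits

universe u

namespace Fermat.Agent.JAC.D3

open Fermat.Agent.AV Fermat.Agent.AV.LB Fermat.Agent.AV.CP Fermat.Agent.JAC.CBC Fermat.Agent.JAC
  Fermat.Agent.JAC.TW

noncomputable section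

/-- on an integral scheme, a non-zero function on an affine open is a non-zero-divisor on every
smaller open. -/
theorem isNZDOn_of_isIntegral {X : Scheme.{u}} [IsIntegral X] {U : X.Opens} (hU : IsAffineOpen U)
    (f : Γ(X, U)) (hf : f ≠ 0) : IsNZDOn U f := by
  have hne : Nonempty U := by
    by_contra h
    rw [not_nonempty_iff] at h
    have hU' : U = ⊥ := by
      ext x
      simp only [SetLike.mem_coe]
      constructor
      · intro hx; exact (h.false ⟨x, hx⟩).elim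
      · intro hx; exact hx.elim
    subst hU'
    have : Subsingleton Γ(X, (⊥ : X.Opens)) :=
      CommRingCat.subsingleton_of_isTerminal X.sheaf.isTerminalOfEmpty
    exact hf (Subsingleton.elim _ _)
  refine isNZDOn_of_isAffineOpen hU f fun b hb => ?_
  exact (mul_eq_zero.mp hb).resolve_left hf

/-! ### global sections: `SecOn ⊤` versus `H0` -/

section glob

variable {X : Scheme.{u}} {L : LB X}

theorem toH0_smul (a : Γ(X, ⊤)) (σ : L.SecOn ⊤) : SecOn.toH0 (a • σ) = a • SecOn.toH0 σ := by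
  have h : SecOn.ofH0 (a • SecOn.toH0 σ) = a • σ := by rw [ofH0_smul, ofH0_toH0]
  rw [← h, toH0_ofH0]

/-- a section over `⊤` not vanishing at `w` gives a global section whose nonvanishing locus
contains `w`. -/
theorem mem_nonvanishingLocus_toH0 (σ : L.SecOn ⊤) {w : X} (hσ : ¬ σ.VanishesAt w) :
    w ∈ L.nonvanishingLocus (SecOn.toH0 σ) := by
  have h1 : ∃ i, ¬ VanAt w (σ.s i) := by
    by_contra hcon
    exact hσ fun i => by
      by_contra h
      exact hcon ⟨i, h⟩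
  obtain ⟨i, hi⟩ := h1
  have hw : w ∈ X.basicOpen (σ.s i) := by
    by_contra h
    exact hi h
  have hwU : w ∈ L.U i := (X.basicOpen_le (σ.s i) hw).1
  refine Opens.mem_iSup.mpr ⟨i, ?_⟩
  rw [SecOn.toH0_apply, basicOpen_res']
  exact ⟨hwU, hw⟩

/-- generation of `H⁰` over the constants, from `SecOn ⊤` to `H0`. -/
theorem existsUnique_smul_toH0 {K' : Type u} [Field K'] (p₂ : X ⟶ Spec (CommRingCat.of K'))
    (σ : L.SecOn ⊤) (hgen : ∀ τ : L.SecOn ⊤, ∃! k : K', τ = ksmul (constK p₂) k σ) (τ : L.H0) :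
    ∃! b : Γ(Spec (CommRingCat.of K'), ⊤), τ = p₂.appTop.hom b • SecOn.toH0 σ := by
  obtain ⟨k, hk, huniq⟩ := hgen (SecOn.ofH0 τ)
  have hconst : ∀ k : K', constK p₂ k =
      p₂.appTop.hom ((Scheme.ΓSpecIso (CommRingCat.of K')).inv.hom k) := fun _ => rfl
  have hinv : ∀ b : Γ(Spec (CommRingCat.of K'), ⊤),
      (Scheme.ΓSpecIso (CommRingCat.of K')).inv.hom
        ((Scheme.ΓSpecIso (CommRingCat.of K')).hom.hom b) = b := fun b =>
    congr($((Scheme.ΓSpecIso (CommRingCat.of K')).hom_inv_id).hom b)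
  refine ⟨(Scheme.ΓSpecIso (CommRingCat.of K')).inv.hom k, ?_, fun b hb => ?_⟩
  · show τ = p₂.appTop.hom ((Scheme.ΓSpecIso (CommRingCat.of K')).inv.hom k) • SecOn.toH0 σ
    rw [← hconst, ← toH0_smul, ← ksmul_top, ← hk, toH0_ofH0]
  · have hb' : τ = p₂.appTop.hom b • SecOn.toH0 σ := hb
    have h3 : SecOn.ofH0 τ =
        ksmul (constK p₂) ((Scheme.ΓSpecIso (CommRingCat.of K')).hom.hom b) σ := by
      rw [ksmul_top, hconst, hinv, hb', ofH0_smul, ofH0_toH0]
    rw [← huniq _ h3, hinv]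

end glob

/-! ### the covering lemma -/

section cover

variable {K K' : Type u} [Field K] [Field K'] [IsAlgClosed K] [IsAlgClosed K']
  {C Y : Scheme.{u}} [KScheme K C] [KScheme K (Spec (CommRingCat.of K'))]
  {p₁ : Y ⟶ C} {p₂ : Y ⟶ Spec (CommRingCat.of K')}
  [IsIntegral C] [SmoothOfRelativeDimension 1 (KScheme.str (K := K) (X := C))]
  [IsProper (KScheme.str (K := K) (X := C))] [IsNoetherian C]
  [IsIntegral Y] [SmoothOfRelativeDimension 1 p₂] [IsProper p₂] [IsNoetherian Y]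

/-- the twisting bundles on the curve `C`: `O(n V(y)) ⊗ O(p₁)⁻¹ ⊗ … ⊗ O(p_r)⁻¹ ⊗ O(ε)`. -/
def Nof (ε : ClosedPt C) {U₀ U₁ : C.Opens} (hcov : U₀ ⊔ U₁ = ⊤) {yf : Γ(C, U₁)}
    (hnzd : IsNZDOn U₁ yf) (hy : C.basicOpen yf = U₀ ⊓ U₁) (j : ℕ × List (ClosedPt C)) : LB C :=
  chartBundle hcov hnzd hy
    (fun i : ClosedPt C => pointDiv_curve (KScheme.str (K := K) (X := C)) i.1 i.2)
    (pointDiv_curve (KScheme.str (K := K) (X := C)) ε.1 ε.2) j

/-- **(D3) the covering lemma.** -/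
theorem exists_chartCond
    (H : IsPullback p₁ p₂ (KScheme.str (K := K) (X := C))
      (KScheme.str (K := K) (X := Spec (CommRingCat.of K'))))
    (ε : ClosedPt C) {U₀ U₁ : C.Opens} (hU₀ : IsAffineOpen U₀) (hU₁ : IsAffineOpen U₁)
    (hcov : U₀ ⊔ U₁ = ⊤) (hε : ∀ z : C, z ∈ U₀ ↔ z ≠ ε.1)
    (x : Γ(C, U₀)) (yf : Γ(C, U₁)) (hx : C.basicOpen x = U₀ ⊓ U₁)
    (hy : C.basicOpen yf = U₀ ⊓ U₁)
    (hxy : res (U₀ ⊓ U₁) inf_le_left x * res (U₀ ⊓ U₁) inf_le_right yf = 1)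
    (hfin₀ : (Polynomial.eval₂RingHom
      (sectionsStrMap (KScheme.str (K := K) (X := C)) U₀) x).Finite)
    (hnzd : IsNZDOn U₁ yf) (M : LB Y) :
    ∃ (j : ℕ × List (ClosedPt C)) (g' : ℕ) (v : Fin g' → Γ(C, U₀)),
      ChartCond H hU₀ U₁ v (M.tensor ((Nof (K := K) ε hcov hnzd hy j).pullback p₁)) := by
  set c : C ⟶ Spec (CommRingCat.of K) := KScheme.str (K := K) (X := C) with hc
  set y : Spec (CommRingCat.of K') ⟶ Spec (CommRingCat.of K) :=
    KScheme.str (K := K) (X := Spec (CommRingCat.of K')) with hy0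
  have h₀ : IsAffineOpen (p₁ ⁻¹ᵁ U₀) := isAffineOpen_preimage_of_isPullback_field c y p₁ p₂ H hU₀
  have h₁ : IsAffineOpen (p₁ ⁻¹ᵁ U₁) := isAffineOpen_preimage_of_isPullback_field c y p₁ p₂ H hU₁
  -- Serre vanishing
  obtain ⟨n, ρ, hρ⟩ := exists_generators_of_finite _ hfin₀
  have hρ' : ∀ r : Γ(C, U₀), ∃ p : Fin n → Polynomial K,
      r = ∑ i, Polynomial.eval₂ ((res U₀ le_top).comp (sectionsStrMap c ⊤)) x (p i) * ρ i := by
    intro r
    obtain ⟨p, hp⟩ := hρ r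
    refine ⟨p, ?_⟩
    rw [hp]
    refine Finset.sum_congr rfl fun i _ => ?_
    congr 1
    rw [Polynomial.coe_eval₂RingHom]
    congr 1
    ext k
    exact (res_sectionsStrMap c le_top k).symm
  have hS := exists_h1Vanishes_twist_of_isPullback H (sectionsStrMap c ⊤) hU₀ hU₁ hcov x yf hx hy
    hxy hnzd ρ hρ' h₀ h₁ M
  -- the abstract covering lemma
  obtain ⟨j, hA, σ, hσ, hgen⟩ := exists_chart_twist_pullback p₁ (ιK := constK p₂) hcov hnzd hy h₀ h₁
    (fun i : ClosedPt C => pointDiv_curve c i.1 i.2) (pdOver c y p₁ p₂ H)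
    (fun i => pdOver_Q c y p₁ p₂ H i) (isRatPt_ptOver c y p₁ p₂ H)
    (fun E σ hσ => exists_not_vanishesAt_ptOver c y p₁ p₂ H E σ hσ)
    (pointDiv_curve c ε.1 ε.2) (pdOver c y p₁ p₂ H ε) (pdOver_Q c y p₁ p₂ H ε)
    (isRatPt_ptOver c y p₁ p₂ H ε) M hS (fun E => finite_globSec p₂ E)
  set L' : LB Y := M.tensor ((Nof (K := K) ε hcov hnzd hy j).pullback p₁) with hL'
  set σ₀ : L'.H0 := SecOn.toH0 σ with hσ₀
  -- unit off `p₁⁻¹ U₀`
  have hWW' : p₁ ⁻¹ᵁ U₀ ⊔ L'.nonvanishingLocus σ₀ = ⊤ := by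
    rw [eq_top_iff]
    intro w _
    by_cases hw : w ∈ p₁ ⁻¹ᵁ U₀
    · exact Or.inl hw
    · refine Or.inr ?_
      have hw' := eq_ptOver_of_notMem c y p₁ p₂ H ε U₀ (fun z hz => by
        by_contra hne
        exact hz ((hε z).2 hne)) w hw
      rw [hw']
      exact mem_nonvanishingLocus_toH0 σ hσ
  have hu := LB.isUnit_res_of_le_nonvanishingLocus L' σ₀ (le_refl _)
  obtain ⟨g', v, hv⟩ := exists_isBased_comap_kunneth_zeroIdeal H hU₀
    (isField_Γ_Spec_of_field K') L' σ₀ hWW' hu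
  refine ⟨j, g', v, hA, σ₀, ?_, ⟨_, hWW', hu⟩, hv⟩
  exact existsUnique_smul_toH0 p₂ σ hgen

end cover

end

end Fermat.Agent.JAC.D3
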