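/-
PROJECT JAC (S25) — helper3 — (TW) **quasi-coherence of sections of a line bundle on an affine open**:
a section over a basic open `D(y) ⊆ W` (`W` affine) extends to `W` after multiplication by a power
of `y`.
-/
import Mathlib
import Fermat.Agent.AV.LBS_helper1_QCBridge

set_option autoImplicit false

open AlgebraicGeometry CategoryTheory Opposite TopologicalSpace

universe u

namespace Fermat.Agent.JAC.TW

open Fermat.Agent.AV Fermat.Agent.AV.LB Fermat.Agent.AV.CP

noncomputable section

variable {X : Scheme.{u}}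

/-- over an open `V` of an affine open `W`, every section of `L` is a combination of restrictions of
sections over `W` with function coefficients (partition of unity). -/
theorem exists_expansion {W : X.Opens} (hW : IsAffineOpen W) (L : LB X) :
    ∃ (N : ℕ) (m : Fin N → L.SecOn W) (τ : Fin N → L.inv.SecOn W),
      ∀ (V : X.Opens) (hV : V ≤ W) (u : L.SecOn V),
        u = ∑ k, pair ((τ k).restrict hV) u • (m k).restrict hV := by
  obtain ⟨N, m, τ, hsum⟩ := exists_partition_of_isAffineOpen L hW
  refine ⟨N, m, τ, fun V hV u => ?_⟩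
  have h1 : ∀ k, pair ((τ k).restrict hV) u • (m k).restrict hV =
      res V hV (pair (τ k) (m k)) • u := by
    intro k
    rw [pair_swap, pair_restrict]
  simp only [h1]
  rw [← Finset.sum_smul, ← map_sum, hsum, map_one, one_smul]

/-- auxiliary form of quasi-coherence over an arbitrary open `V ≤ W` on which functions extend
after multiplication by a power of `y`. -/
theorem exists_pow_smul_eq_restrict_aux {V W : X.Opens} (hW : IsAffineOpen W) (hV : V ≤ W)
    (y : Γ(X, W)) (L : LB X)
    (hext : ∀ f : Γ(X, V), ∃ (n : ℕ) (g : Γ(X, W)), res V hV g = res V hV y ^ n * f)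
    (u : L.SecOn V) :
    ∃ (n : ℕ) (b : L.SecOn W), b.restrict hV = (res V hV y) ^ n • u := by
  classical
  obtain ⟨N, m, τ, hexp⟩ := exists_expansion hW L
  set f : Fin N → Γ(X, V) := fun k => pair ((τ k).restrict hV) u with hf
  have hu : u = ∑ k, f k • (m k).restrict hV := hexp V hV u
  choose n g hg using fun k => hext (f k)
  -- uniform exponent
  set n₀ : ℕ := ∑ k, n k with hn₀
  have hle : ∀ k, n k ≤ n₀ := fun k =>
    Finset.single_le_sum (fun _ _ => Nat.zero_le _) (Finset.mem_univ k)
  refine ⟨n₀, ∑ k, (y ^ (n₀ - n k) * g k) • m k, ?_⟩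
  have hr : ∀ k, ((y ^ (n₀ - n k) * g k) • m k).restrict hV =
      res V hV y ^ n₀ • (f k • (m k).restrict hV) := by
    intro k
    rw [restrict_smul', map_mul, map_pow, hg k, ← mul_assoc, ← pow_add,
      Nat.sub_add_cancel (hle k), mul_smul]
  have hsum : (∑ k, (y ^ (n₀ - n k) * g k) • m k).restrict hV =
      ∑ k, ((y ^ (n₀ - n k) * g k) • m k).restrict hV :=
    map_sum (restrictHom hV) _ _
  rw [hsum]
  simp only [hr]
  rw [← Finset.smul_sum, ← hu]

/-- **quasi-coherence**: a section of `L` over the basic open `D(y)` of the affine open `W` extends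
to `W` after multiplication by a power of `y`. -/
theorem exists_pow_smul_eq_restrict {W : X.Opens} (hW : IsAffineOpen W) (y : Γ(X, W)) (L : LB X)
    (u : L.SecOn (X.basicOpen y)) :
    ∃ (n : ℕ) (b : L.SecOn W),
      b.restrict (X.basicOpen_le y) = (res (X.basicOpen y) (X.basicOpen_le y) y) ^ n • u := by
  refine exists_pow_smul_eq_restrict_aux hW (X.basicOpen_le y) y L (fun f => ?_) u
  obtain ⟨n, g, hg⟩ := exists_res_eq_pow_mul hW (le_refl W) y
    (res (W ⊓ X.basicOpen y) inf_le_right f)
  refine ⟨n, g, ?_⟩
  have h2 := congrArg (res (X.basicOpen y) (le_inf (X.basicOpen_le y) le_rfl)) hg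
  rw [map_mul, map_pow, res_res, res_res, res_res, res_self] at h2
  exact h2

/-- the same with any larger exponent. -/
theorem exists_pow_smul_eq_restrict_of_le {W : X.Opens} (y : Γ(X, W)) (L : LB X)
    (u : L.SecOn (X.basicOpen y)) {n n' : ℕ} (hn : n ≤ n') (b : L.SecOn W)
    (hb : b.restrict (X.basicOpen_le y) = (res (X.basicOpen y) (X.basicOpen_le y) y) ^ n • u) :
    ∃ b' : L.SecOn W,
      b'.restrict (X.basicOpen_le y) = (res (X.basicOpen y) (X.basicOpen_le y) y) ^ n' • u := by
  refine ⟨y ^ (n' - n) • b, ?_⟩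
  rw [restrict_smul', hb, map_pow, ← mul_smul, ← pow_add, Nat.sub_add_cancel hn]

end

end Fermat.Agent.JAC.TW
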