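/-
PROJECT JAC (S25) — helper3 — (TW) **products of local sections, frames, and Serre vanishing for the
twist by a two-chart divisor**.

* `SecOn.tensor t e : (L.tensor Q).SecOn W` for `t : L.SecOn W`, `e : Q.SecOn W` (bilinear,
  compatible with restriction; `tensorH0_eq_tensor`).
* `exists_eq_tensorH0_of_isUnit` : if the global section `s` of `Q` is a frame over `W`, every
  section of `L ⊗ Q` over `W` is `t' ⊗ s`.
* `TwistDatum W₀ W₁ y n` : a line bundle `Q` with a global section `s` which is a frame on `W₀`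
  and equals `yⁿ • e₁` on `W₁` (i.e. `Q = O(n · V(y))`).
* `PoleBound M W₀ W₁ y n`, `poleBound_of_fg` (from finite generation of `Ȟ¹(M)` and
  quasi-coherence), `h1Vanishes_tensor_of_poleBound` : **Serre vanishing**
  `Ȟ¹(M ⊗ O(n · V(y))) = 0` for `n ≫ 0`.
-/
import Mathlib
import Fermat.Agent.JAC.TW_helper3_Cech
import Fermat.Agent.JAC.TW_helper3_QC

set_option autoImplicit false

open AlgebraicGeometry CategoryTheory Opposite TopologicalSpace

universe u

namespace Fermat.Agent.JAC.TW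

open Fermat.Agent.AV Fermat.Agent.AV.LB Fermat.Agent.AV.CP Fermat.Agent.JAC.CBC

noncomputable section

variable {X : Scheme.{u}}

/-! ### the product of two local sections -/

/-- the components of the product `t ⊗ e`. -/
def tensorSecComp {L Q : LB X} {W : X.Opens} (t : L.SecOn W) (e : Q.SecOn W) (i : L.ι)
    (a : Q.ι) : Γ(X, (L.U i ⊓ Q.U a) ⊓ W) :=
  res ((L.U i ⊓ Q.U a) ⊓ W) (le_inf (inf_le_left.trans inf_le_left) inf_le_right) (t.s i) *
    res ((L.U i ⊓ Q.U a) ⊓ W) (le_inf (inf_le_left.trans inf_le_right) inf_le_right) (e.s a)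

theorem res_tensorSecComp {L Q : LB X} {W : X.Opens} (t : L.SecOn W) (e : Q.SecOn W) (i : L.ι)
    (a : Q.ι) (O : X.Opens) (hO : O ≤ (L.U i ⊓ Q.U a) ⊓ W) :
    res O hO (tensorSecComp t e i a) =
      res O (le_inf ((hO.trans inf_le_left).trans inf_le_left) (hO.trans inf_le_right)) (t.s i) *
        res O (le_inf ((hO.trans inf_le_left).trans inf_le_right) (hO.trans inf_le_right))
          (e.s a) := by
  unfold tensorSecComp
  rw [map_mul, res_res, res_res]

theorem tensorSecComp_compat {L Q : LB X} {W : X.Opens} (t : L.SecOn W) (e : Q.SecOn W)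
    (i j : L.ι) (a b : Q.ι) :
    res (((L.U i ⊓ Q.U a) ⊓ (L.U j ⊓ Q.U b)) ⊓ W)
        (le_inf (inf_le_left.trans inf_le_left) inf_le_right) (tensorSecComp t e i a) =
      res (((L.U i ⊓ Q.U a) ⊓ (L.U j ⊓ Q.U b)) ⊓ W) inf_le_left
          (res ((L.U i ⊓ Q.U a) ⊓ (L.U j ⊓ Q.U b))
              (le_inf (inf_le_left.trans inf_le_left) (inf_le_right.trans inf_le_left))
              (L.g i j) *
            res ((L.U i ⊓ Q.U a) ⊓ (L.U j ⊓ Q.U b))
              (le_inf (inf_le_left.trans inf_le_right) (inf_le_right.trans inf_le_right))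
              (Q.g a b)) *
        res (((L.U i ⊓ Q.U a) ⊓ (L.U j ⊓ Q.U b)) ⊓ W)
          (le_inf (inf_le_left.trans inf_le_right) inf_le_right) (tensorSecComp t e j b) := by
  set O : X.Opens := ((L.U i ⊓ Q.U a) ⊓ (L.U j ⊓ Q.U b)) ⊓ W with hO
  have hi : O ≤ L.U i := (inf_le_left.trans inf_le_left).trans inf_le_left
  have hj : O ≤ L.U j := (inf_le_left.trans inf_le_right).trans inf_le_left
  have ha : O ≤ Q.U a := (inf_le_left.trans inf_le_left).trans inf_le_right
  have hb : O ≤ Q.U b := (inf_le_left.trans inf_le_right).trans inf_le_right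
  have hW : O ≤ W := inf_le_right
  have ht := t.compat' i j O hi hj hW
  have he := e.compat' a b O ha hb hW
  rw [res_tensorSecComp, res_tensorSecComp, map_mul, res_res, res_res, ht, he]
  ring

/-- the product `t ⊗ e` of a section `t` of `L` and a section `e` of `Q` over `W`. -/
def _root_.Fermat.Agent.AV.LB.SecOn.tensor {L Q : LB X} {W : X.Opens} (t : L.SecOn W)
    (e : Q.SecOn W) : (L.tensor Q).SecOn W where
  s := fun c => tensorSecComp t e c.1 c.2
  compat := fun c d => tensorSecComp_compat t e c.1 d.1 c.2 d.2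

theorem tcomp_tensor {L Q : LB X} {W : X.Opens} (t : L.SecOn W) (e : Q.SecOn W)
    (i : L.ι) (a : Q.ι) : tcomp (t.tensor e) i a = tensorSecComp t e i a := rfl

theorem tensorSecComp_smul_left {L Q : LB X} {W : X.Opens} (c : Γ(X, W)) (t : L.SecOn W)
    (e : Q.SecOn W) (i : L.ι) (a : Q.ι) :
    tensorSecComp (c • t) e i a =
      res ((L.U i ⊓ Q.U a) ⊓ W) inf_le_right c * tensorSecComp t e i a := by
  unfold tensorSecComp
  rw [smul_s', map_mul, res_res, mul_assoc]

theorem tensorSecComp_smul_right {L Q : LB X} {W : X.Opens} (c : Γ(X, W)) (t : L.SecOn W)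
    (e : Q.SecOn W) (i : L.ι) (a : Q.ι) :
    tensorSecComp t (c • e) i a =
      res ((L.U i ⊓ Q.U a) ⊓ W) inf_le_right c * tensorSecComp t e i a := by
  unfold tensorSecComp
  rw [smul_s', map_mul, res_res]
  ring

theorem tensorSecComp_add_left {L Q : LB X} {W : X.Opens} (t t' : L.SecOn W)
    (e : Q.SecOn W) (i : L.ι) (a : Q.ι) :
    tensorSecComp (t + t') e i a = tensorSecComp t e i a + tensorSecComp t' e i a := by
  unfold tensorSecComp
  rw [add_s, map_add, add_mul]

theorem tensorSecComp_add_right {L Q : LB X} {W : X.Opens} (t : L.SecOn W)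
    (e e' : Q.SecOn W) (i : L.ι) (a : Q.ι) :
    tensorSecComp t (e + e') i a = tensorSecComp t e i a + tensorSecComp t e' i a := by
  unfold tensorSecComp
  rw [add_s, map_add, mul_add]

theorem tensorSecComp_restrict {L Q : LB X} {W W' : X.Opens} (h : W' ≤ W) (t : L.SecOn W)
    (e : Q.SecOn W) (i : L.ι) (a : Q.ι) :
    tensorSecComp (t.restrict h) (e.restrict h) i a =
      res ((L.U i ⊓ Q.U a) ⊓ W') (inf_le_inf_left _ h) (tensorSecComp t e i a) := by
  unfold tensorSecComp
  rw [SecOn.restrict_s, SecOn.restrict_s, map_mul, res_res, res_res, res_res, res_res]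

theorem tensorSecComp_ofH0 {L Q : LB X} {W : X.Opens} (t : L.SecOn W) (s : Q.H0) (i : L.ι)
    (a : Q.ι) :
    tensorComp t s i a = tensorSecComp t ((SecOn.ofH0 s).restrict le_top) i a := by
  unfold tensorComp tensorSecComp
  rw [SecOn.restrict_s]
  show _ = _ * res _ _ (res _ _ (res (Q.U a ⊓ ⊤) inf_le_left (s.1 a)))
  rw [res_res, res_res]

theorem tensor_smul_left {L Q : LB X} {W : X.Opens} (c : Γ(X, W)) (t : L.SecOn W)
    (e : Q.SecOn W) : (c • t).tensor e = c • t.tensor e :=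
  SecOn.ext fun d => tensorSecComp_smul_left c t e d.1 d.2

theorem tensor_smul_right {L Q : LB X} {W : X.Opens} (c : Γ(X, W)) (t : L.SecOn W)
    (e : Q.SecOn W) : t.tensor (c • e) = c • t.tensor e :=
  SecOn.ext fun d => tensorSecComp_smul_right c t e d.1 d.2

theorem tensor_add_left {L Q : LB X} {W : X.Opens} (t t' : L.SecOn W) (e : Q.SecOn W) :
    (t + t').tensor e = t.tensor e + t'.tensor e :=
  SecOn.ext fun d => tensorSecComp_add_left t t' e d.1 d.2

theorem tensor_add_right {L Q : LB X} {W : X.Opens} (t : L.SecOn W) (e e' : Q.SecOn W) :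
    t.tensor (e + e') = t.tensor e + t.tensor e' :=
  SecOn.ext fun d => tensorSecComp_add_right t e e' d.1 d.2

theorem tensor_restrict {L Q : LB X} {W W' : X.Opens} (h : W' ≤ W) (t : L.SecOn W)
    (e : Q.SecOn W) : (t.restrict h).tensor (e.restrict h) = (t.tensor e).restrict h :=
  SecOn.ext fun d => tensorSecComp_restrict h t e d.1 d.2

/-- the product with a global section is the product with its restriction. -/
theorem tensorH0_eq_tensor {L Q : LB X} {W : X.Opens} (t : L.SecOn W) (s : Q.H0) :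
    t.tensorH0 s = t.tensor ((SecOn.ofH0 s).restrict le_top) :=
  SecOn.ext fun d => tensorSecComp_ofH0 t s d.1 d.2

/-! ### division by a global section over an open where it is regular -/

/-- a section `t` of `L ⊗ Q` over `W` all of whose components are divisible by the global section
`s` of `Q`, which is regular on the opens inside `W`, is of the form `t' ⊗ s`. -/
theorem exists_eq_tensorH0_of {L Q : LB X} {W : X.Opens} (s : Q.H0)
    (hcancel : ∀ (a : Q.ι) (V : X.Opens) (hV : V ≤ Q.U a) (_ : V ≤ W) (f g : Γ(X, V)),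
      res V hV (s.1 a) * f = res V hV (s.1 a) * g → f = g)
    (t : (L.tensor Q).SecOn W)
    (hdvd : ∀ i a, ∃ c : Γ(X, (L.U i ⊓ Q.U a) ⊓ W),
      tcomp t i a = res _ (inf_le_left.trans inf_le_right) (s.1 a) * c) :
    ∃ t' : L.SecOn W, t = t'.tensorH0 s := by
  have s_compat : ∀ (a b : Q.ι) (O : X.Opens) (ha : O ≤ Q.U a) (hb : O ≤ Q.U b),
      res O ha (s.1 a) = res O (le_inf ha hb) (Q.g a b) * res O hb (s.1 b) := by
    intro a b O ha hb
    have h := congrArg (res O (le_inf ha hb)) (s.2 a b)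
    rw [map_mul, res_res, res_res] at h
    exact h
  choose c hc using hdvd
  -- restricted form of `hc`
  have hc' : ∀ i a (O : X.Opens) (hO : O ≤ (L.U i ⊓ Q.U a) ⊓ W),
      res O hO (tcomp t i a) =
        res O ((hO.trans inf_le_left).trans inf_le_right) (s.1 a) * res O hO (c i a) := by
    intro i a O hO
    rw [hc i a, map_mul, res_res]
  have hcovQ : ∀ V : X.Opens, V ≤ ⨆ a : Q.ι, V ⊓ Q.U a := by
    intro V x hx
    have hx' : x ∈ (⊤ : X.Opens) := True.intro
    rw [← Q.iSup_U] at hx'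
    obtain ⟨a, ha⟩ := Opens.mem_iSup.mp hx'
    exact Opens.mem_iSup.mpr ⟨a, ⟨hx, ha⟩⟩
  -- glue the `c i a` over `a`
  have hglue : ∀ i, ∃! τ : Γ(X, L.U i ⊓ W), ∀ a,
      res ((L.U i ⊓ Q.U a) ⊓ W) (le_inf (inf_le_left.trans inf_le_left) inf_le_right) τ =
        c i a := by
    intro i
    refine exists_glue (fun a : Q.ι => (L.U i ⊓ Q.U a) ⊓ W)
      (fun a => le_inf (inf_le_left.trans inf_le_left) inf_le_right) ?_ (fun a => c i a) ?_
    · intro x hx
      obtain ⟨a, ha⟩ := Opens.mem_iSup.mp (hcovQ _ hx)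
      exact Opens.mem_iSup.mpr ⟨a, ⟨⟨ha.1.1, ha.2⟩, ha.1.2⟩⟩
    · intro a b
      set O : X.Opens := ((L.U i ⊓ Q.U a) ⊓ W) ⊓ ((L.U i ⊓ Q.U b) ⊓ W) with hO
      have hi : O ≤ L.U i := (inf_le_left.trans inf_le_left).trans inf_le_left
      have ha : O ≤ Q.U a := (inf_le_left.trans inf_le_left).trans inf_le_right
      have hb : O ≤ Q.U b := (inf_le_right.trans inf_le_left).trans inf_le_right
      have hW : O ≤ W := inf_le_left.trans inf_le_right
      refine hcancel a O ha hW _ _ ?_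
      have h1 := tcomp_compat t i i a b O hi hi ha hb hW
      rw [hc' i a O (le_inf (le_inf hi ha) hW), hc' i b O (le_inf (le_inf hi hb) hW),
        L.g_self, map_one, one_mul] at h1
      rw [h1, s_compat a b O ha hb, mul_assoc]
  choose τ hτ _ using hglue
  have hτ' : ∀ i a (O : X.Opens) (hO : O ≤ (L.U i ⊓ Q.U a) ⊓ W),
      res O (hO.trans (le_inf (inf_le_left.trans inf_le_left) inf_le_right)) (τ i) =
        res O hO (c i a) := by
    intro i a O hO
    rw [← hτ i a, res_res]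
  refine ⟨⟨τ, fun i j => ?_⟩, ?_⟩
  · -- compatibility of the `τ i`
    refine eq_of_res_eq (fun a : Q.ι => (L.U i ⊓ L.U j ⊓ W) ⊓ Q.U a) (fun a => inf_le_left)
      (hcovQ _) _ _ ?_
    intro a
    set O : X.Opens := (L.U i ⊓ L.U j ⊓ W) ⊓ Q.U a with hO
    have hi : O ≤ L.U i := (inf_le_left.trans inf_le_left).trans inf_le_left
    have hj : O ≤ L.U j := (inf_le_left.trans inf_le_left).trans inf_le_right
    have ha : O ≤ Q.U a := inf_le_right
    have hW : O ≤ W := inf_le_left.trans inf_le_right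
    rw [map_mul, res_res, res_res, res_res]
    refine hcancel a O ha hW _ _ ?_
    have h1 := tcomp_compat t i j a a O hi hj ha ha hW
    rw [hc' i a O (le_inf (le_inf hi ha) hW), hc' j a O (le_inf (le_inf hj ha) hW),
      Q.g_self, map_one, mul_one] at h1
    rw [hτ' i a O (le_inf (le_inf hi ha) hW), hτ' j a O (le_inf (le_inf hj ha) hW), h1]
    ring
  · refine tensor_secOn_ext fun i a => ?_
    rw [tcomp_tensorH0]
    unfold tensorComp
    rw [hc i a, hτ i a, mul_comm]

/-- the global section `s` of `Q` is a frame of `Q` over `W`. -/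
def IsFrameOn {Q : LB X} (s : Q.H0) (W : X.Opens) : Prop :=
  ∀ a, IsUnit (res (Q.U a ⊓ W) inf_le_left (s.1 a))

theorem IsFrameOn.mono {Q : LB X} {s : Q.H0} {W W' : X.Opens} (h : IsFrameOn s W) (hW : W' ≤ W) :
    IsFrameOn s W' := by
  intro a
  have := (h a).map (res (Q.U a ⊓ W') (inf_le_inf_left _ hW))
  rwa [res_res] at this

theorem IsFrameOn.isUnit_res {Q : LB X} {s : Q.H0} {W : X.Opens} (h : IsFrameOn s W) (a : Q.ι)
    (V : X.Opens) (hV : V ≤ Q.U a) (hVW : V ≤ W) : IsUnit (res V hV (s.1 a)) := by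
  have := (h a).map (res V (le_inf hV hVW))
  rwa [res_res] at this

/-- if the global section `s` of `Q` is a frame over `W`, every section of `L ⊗ Q` over `W` is
`t' ⊗ s` for a section `t'` of `L`. -/
theorem exists_eq_tensorH0_of_isFrameOn {L Q : LB X} {W : X.Opens} {s : Q.H0}
    (hs : IsFrameOn s W) (t : (L.tensor Q).SecOn W) : ∃ t' : L.SecOn W, t = t'.tensorH0 s := by
  refine exists_eq_tensorH0_of s (fun a V hV hVW f g h => ?_) t (fun i a => ?_)
  · exact (hs.isUnit_res a V hV hVW).mul_left_cancel h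
  · obtain ⟨u, hu⟩ := hs.isUnit_res a ((L.U i ⊓ Q.U a) ⊓ W) (inf_le_left.trans inf_le_right)
      inf_le_right
    refine ⟨↑u⁻¹ * tcomp t i a, ?_⟩
    rw [← hu, ← mul_assoc, Units.mul_inv, one_mul]

/-! ### twist data and Serre vanishing -/

/-- a line bundle `Q = O(n · V(y))` for a function `y` on `W₁` invertible on `W₀ ⊓ W₁`: a global
section `s` which is a frame on `W₀` and equals `yⁿ • e₁` on `W₁`. -/
structure TwistDatum (X : Scheme.{u}) (W₀ W₁ : X.Opens) (y : Γ(X, W₁)) (n : ℕ) where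
  /-- the line bundle -/
  Q : LB X
  /-- its canonical section -/
  s : Q.H0
  frame : IsFrameOn s W₀
  /-- the section `y⁻ⁿ s` over `W₁` -/
  e₁ : Q.SecOn W₁
  rel : (SecOn.ofH0 s).restrict le_top = y ^ n • e₁

/-- every section of `M` over `W₀ ⊓ W₁` is, modulo sections over `W₀`, of the form `y⁻ⁿ B` with
`B` a section over `W₁`. -/
def PoleBound (M : LB X) (W₀ W₁ : X.Opens) (y : Γ(X, W₁)) (n : ℕ) : Prop :=
  ∀ u : M.SecOn (W₀ ⊓ W₁), ∃ (a : M.SecOn W₀) (B : M.SecOn W₁),
    (res (W₀ ⊓ W₁) inf_le_right y) ^ n • (u - a.restrict inf_le_left) = B.restrict inf_le_right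

theorem PoleBound.mono {M : LB X} {W₀ W₁ : X.Opens} {y : Γ(X, W₁)} {n n' : ℕ}
    (h : PoleBound M W₀ W₁ y n) (hn : n ≤ n') : PoleBound M W₀ W₁ y n' := by
  intro u
  obtain ⟨a, B, hB⟩ := h u
  refine ⟨a, y ^ (n' - n) • B, ?_⟩
  rw [restrict_smul', ← hB, map_pow, ← mul_smul, ← pow_add, Nat.sub_add_cancel hn]

/-- **Serre vanishing, formal part**: a pole bound of order `n` for `M` kills `Ȟ¹` of the twist
`M ⊗ O(n · V(y))`. -/
theorem h1Vanishes_tensor_of_poleBound {M : LB X} {W₀ W₁ : X.Opens} {y : Γ(X, W₁)} {n : ℕ}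
    (T : TwistDatum X W₀ W₁ y n) (h : PoleBound M W₀ W₁ y n) :
    H1Vanishes (M.tensor T.Q) W₀ W₁ := by
  intro τ
  obtain ⟨u, hu⟩ := exists_eq_tensorH0_of_isFrameOn (L := M) (T.frame.mono inf_le_left) τ
  obtain ⟨a, B, hB⟩ := h u
  refine ⟨a.tensorH0 T.s, B.tensor T.e₁, ?_⟩
  have hrel : ((SecOn.ofH0 T.s).restrict le_top : T.Q.SecOn (W₀ ⊓ W₁)) =
      (res (W₀ ⊓ W₁) inf_le_right y) ^ n • T.e₁.restrict inf_le_right := by
    have h1 := congrArg (SecOn.restrict (inf_le_right : W₀ ⊓ W₁ ≤ W₁)) T.rel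
    rw [SecOn.restrict_restrict, restrict_smul', map_pow] at h1
    exact h1
  have h2 : (u - a.restrict inf_le_left).tensorH0 T.s =
      (B.tensor T.e₁).restrict inf_le_right := by
    rw [tensorH0_eq_tensor, hrel, tensor_smul_right, ← tensor_smul_left, hB, tensor_restrict]
  rw [hu, ← tensorH0_restrict, ← h2, ← tensorH0_add]
  congr 1
  abel

/-- **Serre vanishing, finiteness part**: if `Ȟ¹(M)` is generated by finitely many classes (with
coefficients functions on `W₁`), then `M` has a pole bound. -/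
theorem poleBound_of_fg {M : LB X} {W₀ W₁ : X.Opens} (hW₁ : IsAffineOpen W₁) {y : Γ(X, W₁)}
    (hy : X.basicOpen y = W₀ ⊓ W₁) {N : ℕ} (t : Fin N → M.SecOn (W₀ ⊓ W₁))
    (hfg : ∀ u : M.SecOn (W₀ ⊓ W₁), ∃ (c : Fin N → Γ(X, W₁)) (a : M.SecOn W₀) (b : M.SecOn W₁),
      u = ∑ j, res (W₀ ⊓ W₁) inf_le_right (c j) • t j + a.restrict inf_le_left +
        b.restrict inf_le_right) :
    ∃ n₀ : ℕ, ∀ n, n₀ ≤ n → PoleBound M W₀ W₁ y n := by
  classical
  -- each `t j` extends to `W₁` after multiplication by a power of `y`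
  have hext : ∀ j, ∃ (n : ℕ) (b : M.SecOn W₁),
      b.restrict inf_le_right = (res (W₀ ⊓ W₁) inf_le_right y) ^ n • t j := by
    intro j
    have key : ∀ (V : X.Opens) (hV : V = X.basicOpen y) (hle : V ≤ W₁) (v : M.SecOn V),
        ∃ (n : ℕ) (b : M.SecOn W₁), b.restrict hle = (res V hle y) ^ n • v := by
      intro V hV hle v
      subst hV
      exact exists_pow_smul_eq_restrict hW₁ y M v
    exact key (W₀ ⊓ W₁) hy.symm inf_le_right (t j)
  choose m b hb using hext
  set n₀ : ℕ := ∑ j, m j with hn₀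
  have hle : ∀ j, m j ≤ n₀ := fun j =>
    Finset.single_le_sum (fun _ _ => Nat.zero_le _) (Finset.mem_univ j)
  refine ⟨n₀, fun n hn => PoleBound.mono (fun u => ?_) hn⟩
  obtain ⟨c, a, b', hu⟩ := hfg u
  refine ⟨a, ∑ j, (c j * y ^ (n₀ - m j)) • b j + y ^ n₀ • b', ?_⟩
  set y' := res (W₀ ⊓ W₁) inf_le_right y with hy'
  have h1 : u - a.restrict inf_le_left =
      ∑ j, res (W₀ ⊓ W₁) inf_le_right (c j) • t j + b'.restrict inf_le_right := by
    rw [hu]; abel
  have h2 : ∀ j, ((c j * y ^ (n₀ - m j)) • b j).restrict (inf_le_right : W₀ ⊓ W₁ ≤ W₁) =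
      y' ^ n₀ • (res (W₀ ⊓ W₁) inf_le_right (c j) • t j) := by
    intro j
    rw [restrict_smul', hb j, map_mul, map_pow, ← mul_smul, ← mul_smul, mul_assoc, ← pow_add,
      Nat.sub_add_cancel (hle j), mul_comm]
  have h3 : (∑ j, (c j * y ^ (n₀ - m j)) • b j).restrict (inf_le_right : W₀ ⊓ W₁ ≤ W₁) =
      ∑ j, ((c j * y ^ (n₀ - m j)) • b j).restrict (inf_le_right : W₀ ⊓ W₁ ≤ W₁) :=
    map_sum (restrictHom inf_le_right) _ _
  rw [h1, restrict_add, h3, restrict_smul', map_pow, smul_add, Finset.smul_sum]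
  simp only [h2]
  rfl

/-- **Serre vanishing**: if `Ȟ¹(M)` is finitely generated, then `Ȟ¹(M ⊗ O(n · V(y))) = 0` for all
large `n`. -/
theorem exists_forall_h1Vanishes_tensor {M : LB X} {W₀ W₁ : X.Opens} (hW₁ : IsAffineOpen W₁)
    {y : Γ(X, W₁)} (hy : X.basicOpen y = W₀ ⊓ W₁) {N : ℕ} (t : Fin N → M.SecOn (W₀ ⊓ W₁))
    (hfg : ∀ u : M.SecOn (W₀ ⊓ W₁), ∃ (c : Fin N → Γ(X, W₁)) (a : M.SecOn W₀) (b : M.SecOn W₁),
      u = ∑ j, res (W₀ ⊓ W₁) inf_le_right (c j) • t j + a.restrict inf_le_left +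
        b.restrict inf_le_right) :
    ∃ n₀ : ℕ, ∀ n, n₀ ≤ n → ∀ T : TwistDatum X W₀ W₁ y n, H1Vanishes (M.tensor T.Q) W₀ W₁ := by
  obtain ⟨n₀, h⟩ := poleBound_of_fg hW₁ hy t hfg
  exact ⟨n₀, fun n hn T => h1Vanishes_tensor_of_poleBound T (h n hn)⟩

end

end Fermat.Agent.JAC.TW
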