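/-
PROJECT JAC (S25) — helper3 — (TW) **the two-chart twist `O(n · V(y))`**: construction of the
`TwistDatum` from helper5's `LocalEqData`, and its pull-back.

* `chartFrame Q j : Q.SecOn (Q.U j)` : the canonical frame of a line bundle on a chart.
* `LocalEqData.restrict_toSection` : on the chart `j`, the canonical section is `f j • chartFrame`.
* `twoChartEq`, `twistDatum` : for `W₀ ⊔ W₁ = ⊤`, `y` on `W₁` regular and invertible on `W₀ ⊓ W₁`,
  the bundle `O(n · V(y))` with its `TwistDatum`.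
-/
import Mathlib
import Fermat.Agent.JAC.TW_helper3_Frame
import Fermat.Agent.JAC.DIV_helper5_LocalEq
import Fermat.Agent.AV.CP_helper8_SecPull

set_option autoImplicit false

open AlgebraicGeometry CategoryTheory Opposite TopologicalSpace

universe u

namespace Fermat.Agent.JAC.TW

open Fermat.Agent.AV Fermat.Agent.AV.LB Fermat.Agent.AV.CP Fermat.Agent.JAC.CBC

noncomputable section

variable {X : Scheme.{u}}

/-- the canonical frame of a line bundle over one of its charts. -/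
def chartFrame (Q : LB X) (j : Q.ι) : Q.SecOn (Q.U j) where
  s := fun i => Q.g i j
  compat := fun i k => by
    have h := Q.cocycle' i k j (Q.U i ⊓ Q.U k ⊓ Q.U j) (inf_le_left.trans inf_le_left)
      (inf_le_left.trans inf_le_right) inf_le_right
    exact h.symm

theorem chartFrame_s (Q : LB X) (j i : Q.ι) : (chartFrame Q j).s i = Q.g i j := rfl

/-- the canonical frame of `O(Z)` over the chart `j`. -/
def _root_.Fermat.Agent.JAC.LocalEqData.frame (D : LocalEqData X) (j : D.ι) : D.toLB.SecOn (D.U j) := chartFrame D.toLB j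

/-- on the chart `j`, the canonical section of `O(Z)` is `f j` times the canonical frame. -/
theorem _root_.Fermat.Agent.JAC.LocalEqData.restrict_toSection (D : LocalEqData X) (j : D.ι) :
    ((SecOn.ofH0 D.toSection).restrict le_top : D.toLB.SecOn (D.U j)) = D.f j • D.frame j := by
  have key : ∀ i : D.ι, res (D.U i ⊓ D.U j) (inf_le_inf_left _ le_top)
      (res (D.U i ⊓ ⊤) inf_le_left (D.f i)) =
      res (D.U i ⊓ D.U j) inf_le_right (D.f j) * D.g i j := by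
    intro i
    rw [res_res, D.hg i j, mul_comm]
  exact SecOn.ext fun (i : D.ι) => key i

/-! ### the two-chart divisor `n · V(y)` -/

theorem isNZDOn_one (U : X.Opens) : IsNZDOn U (1 : Γ(X, U)) := by
  intro V h b hb
  rwa [map_one, one_mul] at hb

theorem _root_.Fermat.Agent.JAC.IsNZDOn.pow {U : X.Opens} {f : Γ(X, U)} (hf : IsNZDOn U f) (n : ℕ) :
    IsNZDOn U (f ^ n) := by
  induction n with
  | zero => rw [pow_zero]; exact isNZDOn_one U
  | succ n ih =>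
    intro V h b hb
    rw [pow_succ, map_mul, mul_comm _ (res V h f), mul_assoc] at hb
    exact ih V h b (hf V h _ hb)

/-- the two charts. -/
def twoU (W₀ W₁ : X.Opens) (i : ULift.{u} Bool) : X.Opens := cond i.down W₁ W₀

theorem iSup_twoU {W₀ W₁ : X.Opens} (hcov : W₀ ⊔ W₁ = ⊤) : ⨆ i, twoU W₀ W₁ i = ⊤ := by
  rw [eq_top_iff, ← hcov]
  exact sup_le (le_iSup (twoU W₀ W₁) ⟨false⟩) (le_iSup (twoU W₀ W₁) ⟨true⟩)

/-- the local equations `(1, yⁿ)`. -/
def twoF (W₀ : X.Opens) {W₁ : X.Opens} (y : Γ(X, W₁)) (n : ℕ) :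
    ∀ i : ULift.{u} Bool, Γ(X, twoU W₀ W₁ i)
  | ⟨false⟩ => (1 : Γ(X, W₀))
  | ⟨true⟩ => y ^ n

theorem twoF_nzd (W₀ : X.Opens) {W₁ : X.Opens} {y : Γ(X, W₁)} (hnzd : IsNZDOn W₁ y) (n : ℕ)
    (i : ULift.{u} Bool) : IsNZDOn (twoU W₀ W₁ i) (twoF W₀ y n i) := by
  rcases i with ⟨_ | _⟩
  · exact isNZDOn_one W₀
  · exact IsNZDOn.pow hnzd n

theorem twoF_dvd {W₀ W₁ : X.Opens} {y : Γ(X, W₁)}
    (hy : IsUnit (res (W₀ ⊓ W₁) inf_le_right y)) (n : ℕ) (i j : ULift.{u} Bool) :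
    ∃ c : Γ(X, twoU W₀ W₁ i ⊓ twoU W₀ W₁ j),
      res (twoU W₀ W₁ i ⊓ twoU W₀ W₁ j) inf_le_left (twoF W₀ y n i) =
        c * res (twoU W₀ W₁ i ⊓ twoU W₀ W₁ j) inf_le_right (twoF W₀ y n j) := by
  rcases i with ⟨_ | _⟩ <;> rcases j with ⟨_ | _⟩
  · exact ⟨1, by rw [one_mul]⟩
  · obtain ⟨u, hu⟩ := hy
    refine ⟨(↑(u⁻¹ ^ n) : Γ(X, W₀ ⊓ W₁)), ?_⟩
    show res (W₀ ⊓ W₁) inf_le_left (1 : Γ(X, W₀)) = _ * res (W₀ ⊓ W₁) inf_le_right (y ^ n)
    rw [map_one, map_pow, ← hu, ← Units.val_pow_eq_pow_val, ← Units.val_mul, ← mul_pow,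
      inv_mul_cancel, one_pow, Units.val_one]
  · refine ⟨res (W₁ ⊓ W₀) inf_le_left (y ^ n), ?_⟩
    show _ = _ * res (W₁ ⊓ W₀) inf_le_right (1 : Γ(X, W₀))
    rw [map_one, mul_one]
    rfl
  · exact ⟨1, by rw [one_mul]⟩

/-- local equations of the divisor `n · V(y)` for a regular function `y` on `W₁` invertible on
`W₀ ⊓ W₁`. -/
def twoChartEq {W₀ W₁ : X.Opens} (hcov : W₀ ⊔ W₁ = ⊤) {y : Γ(X, W₁)} (hnzd : IsNZDOn W₁ y)
    (hy : IsUnit (res (W₀ ⊓ W₁) inf_le_right y)) (n : ℕ) : LocalEqData X :=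
  LocalEqData.ofDvd (ULift.{u} Bool) (twoU W₀ W₁) (iSup_twoU hcov) (twoF W₀ y n)
    (twoF_nzd W₀ hnzd n) (twoF_dvd hy n)

/-- **the twist datum of `O(n · V(y))`.** -/
def twistDatum {W₀ W₁ : X.Opens} (hcov : W₀ ⊔ W₁ = ⊤) {y : Γ(X, W₁)} (hnzd : IsNZDOn W₁ y)
    (hy : IsUnit (res (W₀ ⊓ W₁) inf_le_right y)) (n : ℕ) : TwistDatum X W₀ W₁ y n where
  Q := (twoChartEq hcov hnzd hy n).toLB
  s := (twoChartEq hcov hnzd hy n).toSection
  frame := by
    intro a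
    rcases a with ⟨_ | _⟩
    · show IsUnit (res (W₀ ⊓ W₀) inf_le_left (1 : Γ(X, W₀)))
      rw [map_one]
      exact isUnit_one
    · show IsUnit (res (W₁ ⊓ W₀) inf_le_left (y ^ n))
      have h := (hy.pow n).map (res (W₁ ⊓ W₀) (le_inf inf_le_right inf_le_left))
      rwa [← map_pow, res_res] at h
  e₁ := (twoChartEq hcov hnzd hy n).frame ⟨true⟩
  rel := (twoChartEq hcov hnzd hy n).restrict_toSection ⟨true⟩

theorem twistDatum_Q {W₀ W₁ : X.Opens} (hcov : W₀ ⊔ W₁ = ⊤) {y : Γ(X, W₁)} (hnzd : IsNZDOn W₁ y)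
    (hy : IsUnit (res (W₀ ⊓ W₁) inf_le_right y)) (n : ℕ) :
    (twistDatum hcov hnzd hy n).Q = (twoChartEq hcov hnzd hy n).toLB := rfl

theorem twistDatum_s {W₀ W₁ : X.Opens} (hcov : W₀ ⊔ W₁ = ⊤) {y : Γ(X, W₁)} (hnzd : IsNZDOn W₁ y)
    (hy : IsUnit (res (W₀ ⊓ W₁) inf_le_right y)) (n : ℕ) :
    (twistDatum hcov hnzd hy n).s = (twoChartEq hcov hnzd hy n).toSection := rfl

/-- `y` is invertible on `W₀ ⊓ W₁` as soon as `D(y) = W₀ ⊓ W₁`. -/
theorem isUnit_res_of_basicOpen_eq {W₀ W₁ : X.Opens} {y : Γ(X, W₁)}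
    (hy : X.basicOpen y = W₀ ⊓ W₁) : IsUnit (res (W₀ ⊓ W₁) inf_le_right y) := by
  rw [isUnit_iff_le_basicOpen, basicOpen_res', hy]
  exact le_inf le_rfl le_rfl

/-! ### pull-back of a twist datum -/

theorem isFrameOn_pullbackSection {Y : Scheme.{u}} (φ : Y ⟶ X) {Q : LB X} {s : Q.H0}
    {W : X.Opens} (h : IsFrameOn s W) : IsFrameOn (Q.pullbackSection φ s) (φ ⁻¹ᵁ W) := by
  intro a
  have key : ∀ a : Q.ι, IsUnit (res (φ ⁻¹ᵁ Q.U a ⊓ φ ⁻¹ᵁ W) inf_le_left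
      ((φ.app (Q.U a)).hom (s.1 a))) := by
    intro a
    rw [← appInf_res_left]
    exact (h a).map _
  exact key a

/-- the pull-back of a twist datum along any morphism is a twist datum. -/
def TwistDatum.pullback {Y : Scheme.{u}} (φ : Y ⟶ X) {W₀ W₁ : X.Opens} {y : Γ(X, W₁)} {n : ℕ}
    (T : TwistDatum X W₀ W₁ y n) :
    TwistDatum Y (φ ⁻¹ᵁ W₀) (φ ⁻¹ᵁ W₁) ((φ.app W₁).hom y) n where
  Q := T.Q.pullback φ
  s := T.Q.pullbackSection φ T.s
  frame := isFrameOn_pullbackSection φ T.frame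
  e₁ := T.e₁.pullback φ
  rel := by
    have h1 := congrArg (SecOn.pullback φ) T.rel
    rw [SecOn.pullback_restrict, ← ofH0_pullbackSection] at h1
    have h2 : (y ^ n • T.e₁).pullback φ =
        ((φ.app W₁).hom y) ^ n • T.e₁.pullback φ := by
      have := SecOn.pullback_smul φ (y ^ n) T.e₁
      rw [map_pow] at this
      exact this
    rw [h2] at h1
    exact h1

theorem TwistDatum.pullback_Q {Y : Scheme.{u}} (φ : Y ⟶ X) {W₀ W₁ : X.Opens} {y : Γ(X, W₁)}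
    {n : ℕ} (T : TwistDatum X W₀ W₁ y n) : (T.pullback φ).Q = T.Q.pullback φ := rfl

end

end Fermat.Agent.JAC.TW
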