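/-
PROJECT JAC (S27, DIM) — helper3 — **two-frame calculus**: line bundles trivialised on the two
members of an open cover `W₀ ⊔ W₁ = ⊤` are classified by the ratio `u` of the two frames on
`W₀ ⊓ W₁`.

* `IsFrame e` : the section `e` over `W` has unit components.
* `TwoFrame M W₀ W₁ u` : frames `e₀`, `e₁` of `M` over `W₀`, `W₁` with `e₀| = u • e₁|`.
* `twoChartLB hcov u uinv h` : the line bundle with the two charts `W₀`, `W₁` and ratio `u`;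
  `twoChartFrame`.
* `TwoFrame.tensor`, `TwoFrame.inv`, `TwoFrame.pullback`, `TwoFrame.change`.
* `TwoFrame.isTrivial_iff`, `TwoFrame.iso`.
-/
import Mathlib
import Fermat.Agent.JAC.TW_helper3_Twist

set_option autoImplicit false

open AlgebraicGeometry CategoryTheory Opposite TopologicalSpace

universe u

namespace Fermat.Agent.JAC.DIM

open Fermat.Agent.AV Fermat.Agent.AV.LB Fermat.Agent.AV.CP Fermat.Agent.JAC.CBC
  Fermat.Agent.JAC.TW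

noncomputable section

variable {X : Scheme.{u}}

/-! ### frames -/

/-- the section `e` of `M` over `W` is a frame: all its components are units. -/
def IsFrame {M : LB X} {W : X.Opens} (e : M.SecOn W) : Prop := ∀ a, IsUnit (e.s a)

theorem IsFrame.restrict {M : LB X} {W W' : X.Opens} {e : M.SecOn W} (he : IsFrame e)
    (h : W' ≤ W) : IsFrame (e.restrict h) := fun a => (he a).map _

theorem IsFrame.smul {M : LB X} {W : X.Opens} {e : M.SecOn W} (he : IsFrame e) {v : Γ(X, W)}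
    (hv : IsUnit v) : IsFrame (v • e) := fun a => by
  rw [smul_s']
  exact (hv.map _).mul (he a)

theorem IsFrame.isUnit_of_smul {M : LB X} {W : X.Opens} {e : M.SecOn W} (_he : IsFrame e)
    {v : Γ(X, W)} (hv : IsFrame (v • e)) : IsUnit v := by
  refine Fermat.Agent.AV.isUnit_of_cover (fun a : M.ι => M.U a ⊓ W) (fun a => inf_le_right)
    (cover_inf M W) v ?_
  intro a
  have h2 := hv a
  rw [smul_s'] at h2
  exact isUnit_of_mul_isUnit_left h2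

theorem isFrame_chartFrame (Q : LB X) (j : Q.ι) : IsFrame (chartFrame Q j) :=
  fun i => Q.isUnit_g i j

theorem IsFrame.tensor {M N : LB X} {W : X.Opens} {e : M.SecOn W} {e' : N.SecOn W}
    (he : IsFrame e) (he' : IsFrame e') : IsFrame (e.tensor e') := by
  intro d
  have key : ∀ (a : M.ι) (b : N.ι), IsUnit (tensorSecComp e e' a b) := fun a b =>
    ((he a).map _).mul ((he' b).map _)
  exact key d.1 d.2

theorem IsFrame.pullback {Y : Scheme.{u}} (φ : Y ⟶ X) {M : LB X} {W : X.Opens} {e : M.SecOn W}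
    (he : IsFrame e) : IsFrame (e.pullback φ) := by
  intro a
  have key : ∀ a : M.ι, IsUnit (appInf φ (M.U a) W (e.s a)) := fun a => (he a).map _
  exact key a

/-- the canonical frames on two charts differ by the transition function. -/
theorem chartFrame_restrict (Q : LB X) (j j' : Q.ι) :
    (chartFrame Q j).restrict (inf_le_left : Q.U j ⊓ Q.U j' ≤ Q.U j) =
      res (Q.U j ⊓ Q.U j') (le_inf inf_le_right inf_le_left) (Q.g j' j) •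
        (chartFrame Q j').restrict (inf_le_right : Q.U j ⊓ Q.U j' ≤ Q.U j') := by
  ext i
  rw [smul_s', SecOn.restrict_s, SecOn.restrict_s, chartFrame_s, chartFrame_s, res_res]
  have h := Q.cocycle' i j' j (Q.U i ⊓ (Q.U j ⊓ Q.U j')) inf_le_left
    (inf_le_right.trans inf_le_right) (inf_le_right.trans inf_le_left)
  rw [← h, mul_comm]

/-! ### two-frames -/

/-- frames of `M` over `W₀` and `W₁` with ratio `u` on `W₀ ⊓ W₁`. -/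
structure TwoFrame (M : LB X) (W₀ W₁ : X.Opens) (u : Γ(X, W₀ ⊓ W₁)) where
  /-- the frame over `W₀` -/
  e₀ : M.SecOn W₀
  /-- the frame over `W₁` -/
  e₁ : M.SecOn W₁
  frame₀ : IsFrame e₀
  frame₁ : IsFrame e₁
  rel : e₀.restrict inf_le_left = u • e₁.restrict inf_le_right

/-! ### the two-chart line bundle -/

/-- the transition functions of the two-chart line bundle. -/
def twoG (W₀ W₁ : X.Opens) (u uinv : Γ(X, W₀ ⊓ W₁)) :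
    ∀ i j : ULift.{u} Bool, Γ(X, twoU W₀ W₁ i ⊓ twoU W₀ W₁ j)
  | ⟨false⟩, ⟨false⟩ => (1 : Γ(X, W₀ ⊓ W₀))
  | ⟨false⟩, ⟨true⟩ => uinv
  | ⟨true⟩, ⟨false⟩ => res (W₁ ⊓ W₀) (le_inf inf_le_right inf_le_left) u
  | ⟨true⟩, ⟨true⟩ => (1 : Γ(X, W₁ ⊓ W₁))

theorem twoG_aux₁ {W₀ W₁ : X.Opens} {u uinv : Γ(X, W₀ ⊓ W₁)} (h : uinv * u = 1) (O : X.Opens)
    (h1 : O ≤ W₀ ⊓ W₁) (h2 : O ≤ W₁ ⊓ W₀) (h4 : O ≤ W₀ ⊓ W₀) :
    res O h1 uinv * res O h2 (res (W₁ ⊓ W₀) (le_inf inf_le_right inf_le_left) u) =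
      res O h4 (1 : Γ(X, W₀ ⊓ W₀)) := by
  rw [res_res, map_one]
  have := congrArg (res O h1) h
  rw [map_mul, map_one] at this
  exact this

theorem twoG_aux₂ {W₀ W₁ : X.Opens} {u uinv : Γ(X, W₀ ⊓ W₁)} (h : u * uinv = 1) (O : X.Opens)
    (h1 : O ≤ W₀ ⊓ W₁) (h2 : O ≤ W₁ ⊓ W₀) (h4 : O ≤ W₁ ⊓ W₁) :
    res O h2 (res (W₁ ⊓ W₀) (le_inf inf_le_right inf_le_left) u) * res O h1 uinv =
      res O h4 (1 : Γ(X, W₁ ⊓ W₁)) := by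
  rw [res_res, map_one]
  have := congrArg (res O h1) h
  rw [map_mul, map_one] at this
  exact this

/-- the line bundle with charts `W₀`, `W₁` whose canonical frames have ratio `u`. -/
def twoChartLB {W₀ W₁ : X.Opens} (hcov : W₀ ⊔ W₁ = ⊤) (u uinv : Γ(X, W₀ ⊓ W₁))
    (h : u * uinv = 1) : LB X where
  ι := ULift.{u} Bool
  U := twoU W₀ W₁
  iSup_U := iSup_twoU hcov
  g := twoG W₀ W₁ u uinv
  g_self := fun i => by
    rcases i with ⟨_ | _⟩ <;> rfl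
  cocycle := fun i j k => by
    have h' : uinv * u = 1 := by rw [mul_comm]; exact h
    rcases i with ⟨_ | _⟩ <;> rcases j with ⟨_ | _⟩ <;> rcases k with ⟨_ | _⟩
    · show res (W₀ ⊓ W₀ ⊓ W₀) _ (1 : Γ(X, W₀ ⊓ W₀)) * res (W₀ ⊓ W₀ ⊓ W₀) _ (1 : Γ(X, W₀ ⊓ W₀)) =
        res (W₀ ⊓ W₀ ⊓ W₀) _ (1 : Γ(X, W₀ ⊓ W₀))
      simp only [map_one, mul_one]
    · show res (W₀ ⊓ W₀ ⊓ W₁) _ (1 : Γ(X, W₀ ⊓ W₀)) * res (W₀ ⊓ W₀ ⊓ W₁) _ uinv =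
        res (W₀ ⊓ W₀ ⊓ W₁) _ uinv
      simp only [map_one, one_mul]
    · show res (W₀ ⊓ W₁ ⊓ W₀) _ uinv *
          res (W₀ ⊓ W₁ ⊓ W₀) _ (res (W₁ ⊓ W₀) (le_inf inf_le_right inf_le_left) u) =
        res (W₀ ⊓ W₁ ⊓ W₀) _ (1 : Γ(X, W₀ ⊓ W₀))
      exact twoG_aux₁ h' _ _ _ _
    · show res (W₀ ⊓ W₁ ⊓ W₁) _ uinv * res (W₀ ⊓ W₁ ⊓ W₁) _ (1 : Γ(X, W₁ ⊓ W₁)) =
        res (W₀ ⊓ W₁ ⊓ W₁) _ uinv
      simp only [map_one, mul_one]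
    · show res (W₁ ⊓ W₀ ⊓ W₀) _ (res (W₁ ⊓ W₀) (le_inf inf_le_right inf_le_left) u) *
          res (W₁ ⊓ W₀ ⊓ W₀) _ (1 : Γ(X, W₀ ⊓ W₀)) =
        res (W₁ ⊓ W₀ ⊓ W₀) _ (res (W₁ ⊓ W₀) (le_inf inf_le_right inf_le_left) u)
      simp only [map_one, mul_one]
    · show res (W₁ ⊓ W₀ ⊓ W₁) _ (res (W₁ ⊓ W₀) (le_inf inf_le_right inf_le_left) u) *
          res (W₁ ⊓ W₀ ⊓ W₁) _ uinv =
        res (W₁ ⊓ W₀ ⊓ W₁) _ (1 : Γ(X, W₁ ⊓ W₁))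
      exact twoG_aux₂ h _ (le_inf (inf_le_left.trans inf_le_right) inf_le_right) _ _
    · show res (W₁ ⊓ W₁ ⊓ W₀) _ (1 : Γ(X, W₁ ⊓ W₁)) *
          res (W₁ ⊓ W₁ ⊓ W₀) _ (res (W₁ ⊓ W₀) (le_inf inf_le_right inf_le_left) u) =
        res (W₁ ⊓ W₁ ⊓ W₀) _ (res (W₁ ⊓ W₀) (le_inf inf_le_right inf_le_left) u)
      simp only [map_one, one_mul]
    · show res (W₁ ⊓ W₁ ⊓ W₁) _ (1 : Γ(X, W₁ ⊓ W₁)) * res (W₁ ⊓ W₁ ⊓ W₁) _ (1 : Γ(X, W₁ ⊓ W₁)) =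
        res (W₁ ⊓ W₁ ⊓ W₁) _ (1 : Γ(X, W₁ ⊓ W₁))
      simp only [map_one, mul_one]

/-- the frame of the two-chart line bundle over `W₀`. -/
def twoChartE₀ {W₀ W₁ : X.Opens} (hcov : W₀ ⊔ W₁ = ⊤) (u uinv : Γ(X, W₀ ⊓ W₁))
    (h : u * uinv = 1) : (twoChartLB hcov u uinv h).SecOn W₀ :=
  chartFrame (twoChartLB hcov u uinv h) ⟨false⟩

/-- the frame of the two-chart line bundle over `W₁`. -/
def twoChartE₁ {W₀ W₁ : X.Opens} (hcov : W₀ ⊔ W₁ = ⊤) (u uinv : Γ(X, W₀ ⊓ W₁))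
    (h : u * uinv = 1) : (twoChartLB hcov u uinv h).SecOn W₁ :=
  chartFrame (twoChartLB hcov u uinv h) ⟨true⟩

theorem twoChart_rel {W₀ W₁ : X.Opens} (hcov : W₀ ⊔ W₁ = ⊤) (u uinv : Γ(X, W₀ ⊓ W₁))
    (h : u * uinv = 1) :
    (twoChartE₀ hcov u uinv h).restrict (inf_le_left : W₀ ⊓ W₁ ≤ W₀) =
      u • (twoChartE₁ hcov u uinv h).restrict (inf_le_right : W₀ ⊓ W₁ ≤ W₁) := by
  have h1 : (twoChartE₀ hcov u uinv h).restrict (inf_le_left : W₀ ⊓ W₁ ≤ W₀) =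
      res (W₀ ⊓ W₁) (le_inf inf_le_right inf_le_left)
        (res (W₁ ⊓ W₀) (le_inf inf_le_right inf_le_left) u) •
      (twoChartE₁ hcov u uinv h).restrict (inf_le_right : W₀ ⊓ W₁ ≤ W₁) :=
    chartFrame_restrict (twoChartLB hcov u uinv h) ⟨false⟩ ⟨true⟩
  have h2 : res (W₀ ⊓ W₁) (le_inf inf_le_right inf_le_left)
      (res (W₁ ⊓ W₀) (le_inf inf_le_right inf_le_left) u) = u := by
    rw [res_res]; exact res_self u
  rw [h2] at h1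
  exact h1

/-- the canonical two-frame of the two-chart line bundle. -/
def twoChartFrame {W₀ W₁ : X.Opens} (hcov : W₀ ⊔ W₁ = ⊤) (u uinv : Γ(X, W₀ ⊓ W₁))
    (h : u * uinv = 1) : TwoFrame (twoChartLB hcov u uinv h) W₀ W₁ u where
  e₀ := twoChartE₀ hcov u uinv h
  e₁ := twoChartE₁ hcov u uinv h
  frame₀ := isFrame_chartFrame _ _
  frame₁ := isFrame_chartFrame _ _
  rel := twoChart_rel hcov u uinv h

/-! ### operations on two-frames -/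

namespace TwoFrame

variable {M N : LB X} {W₀ W₁ : X.Opens}

/-- the ratio of a two-frame is a unit. -/
theorem isUnit_ratio {u : Γ(X, W₀ ⊓ W₁)} (F : TwoFrame M W₀ W₁ u) : IsUnit u := by
  refine Fermat.Agent.AV.isUnit_of_cover (fun a : M.ι => M.U a ⊓ (W₀ ⊓ W₁))
    (fun a => inf_le_right) ?_ u ?_
  · exact cover_inf M (W₀ ⊓ W₁)
  · intro a
    have h1 := congrArg (fun σ : M.SecOn (W₀ ⊓ W₁) => σ.s a) F.rel
    simp only [smul_s'] at h1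
    have h2 : IsUnit ((F.e₀.restrict (inf_le_left : W₀ ⊓ W₁ ≤ W₀)).s a) :=
      F.frame₀.restrict inf_le_left a
    rw [h1] at h2
    exact isUnit_of_mul_isUnit_left h2

/-- tensor product of two-frames: the ratios multiply. -/
def tensor {u u' : Γ(X, W₀ ⊓ W₁)} (F : TwoFrame M W₀ W₁ u) (F' : TwoFrame N W₀ W₁ u') :
    TwoFrame (M.tensor N) W₀ W₁ (u * u') where
  e₀ := F.e₀.tensor F'.e₀
  e₁ := F.e₁.tensor F'.e₁
  frame₀ := F.frame₀.tensor F'.frame₀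
  frame₁ := F.frame₁.tensor F'.frame₁
  rel := by
    rw [← tensor_restrict, ← tensor_restrict, F.rel, F'.rel, tensor_smul_left, tensor_smul_right,
      ← mul_smul]

/-- rescaling the frames. -/
def change {u : Γ(X, W₀ ⊓ W₁)} (F : TwoFrame M W₀ W₁ u) {v₀ : Γ(X, W₀)} (hv₀ : IsUnit v₀)
    {v₁ w₁ : Γ(X, W₁)} (h₁ : v₁ * w₁ = 1) :
    TwoFrame M W₀ W₁ (res (W₀ ⊓ W₁) inf_le_left v₀ * u * res (W₀ ⊓ W₁) inf_le_right w₁) where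
  e₀ := v₀ • F.e₀
  e₁ := v₁ • F.e₁
  frame₀ := F.frame₀.smul hv₀
  frame₁ := F.frame₁.smul (IsUnit.of_mul_eq_one _ h₁)
  rel := by
    rw [restrict_smul', restrict_smul', F.rel, ← mul_smul, ← mul_smul]
    congr 1
    have h2 : res (W₀ ⊓ W₁) inf_le_right w₁ * res (W₀ ⊓ W₁) inf_le_right v₁ = 1 := by
      rw [← map_mul, mul_comm, h₁, map_one]
    rw [mul_assoc, mul_assoc, h2, mul_one]

/-- pull-back of a two-frame. -/
def pullback {Y : Scheme.{u}} (φ : Y ⟶ X) {u : Γ(X, W₀ ⊓ W₁)} (F : TwoFrame M W₀ W₁ u) :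
    TwoFrame (M.pullback φ) (φ ⁻¹ᵁ W₀) (φ ⁻¹ᵁ W₁) (appInf φ W₀ W₁ u) where
  e₀ := F.e₀.pullback φ
  e₁ := F.e₁.pullback φ
  frame₀ := F.frame₀.pullback φ
  frame₁ := F.frame₁.pullback φ
  rel := by
    have h1 := congrArg (SecOn.pullback φ) F.rel
    rw [SecOn.pullback_restrict] at h1
    have h2 : (u • F.e₁.restrict (inf_le_right : W₀ ⊓ W₁ ≤ W₁)).pullback φ =
        ((F.e₁.restrict (inf_le_right : W₀ ⊓ W₁ ≤ W₁)).pullback φ).smul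
          ((φ.app (W₀ ⊓ W₁)).hom u) := SecOn.pullback_smul φ u _
    rw [h2, SecOn.pullback_restrict] at h1
    exact h1

/-- casting the ratio. -/
def cast {u u' : Γ(X, W₀ ⊓ W₁)} (F : TwoFrame M W₀ W₁ u) (h : u = u') : TwoFrame M W₀ W₁ u' :=
  h ▸ F

/-- if the ratio is a coboundary of units, the bundle is trivial. -/
theorem isTrivial_of_units (hcov : W₀ ⊔ W₁ = ⊤) {u : Γ(X, W₀ ⊓ W₁)} (F : TwoFrame M W₀ W₁ u)
    {v₀ : Γ(X, W₀)} {v₁ : Γ(X, W₁)} (hv₀ : IsUnit v₀) (hv₁ : IsUnit v₁)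
    (h : res (W₀ ⊓ W₁) inf_le_left v₀ * u = res (W₀ ⊓ W₁) inf_le_right v₁) : M.IsTrivial := by
  have hab : (v₀ • F.e₀).restrict (inf_le_left : W₀ ⊓ W₁ ≤ W₀) =
      (v₁ • F.e₁).restrict (inf_le_right : W₀ ⊓ W₁ ≤ W₁) := by
    rw [restrict_smul', restrict_smul', F.rel, ← mul_smul, h]
  obtain ⟨σ, hσ₀, hσ₁⟩ := exists_glue₂ hcov _ _ hab
  rw [← isTrivialOn_top_iff]
  refine ⟨σ, SecOn.isUnit_of_restrict (twoU W₀ W₁) (fun _ => le_top) ?_ σ ?_⟩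
  · rw [iSup_twoU hcov]
  · rintro ⟨_ | _⟩
    · have key : ∀ i, IsUnit ((σ.restrict (le_top : W₀ ≤ ⊤)).s i) := by
        rw [hσ₀]
        exact F.frame₀.smul hv₀
      exact key
    · have key : ∀ i, IsUnit ((σ.restrict (le_top : W₁ ≤ ⊤)).s i) := by
        rw [hσ₁]
        exact F.frame₁.smul hv₁
      exact key

/-- if the bundle is trivial, the ratio is a coboundary of units. -/
theorem exists_units_of_isTrivial {u : Γ(X, W₀ ⊓ W₁)} (F : TwoFrame M W₀ W₁ u)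
    (hM : M.IsTrivial) :
    ∃ (v₀ : Γ(X, W₀)) (v₁ : Γ(X, W₁)), IsUnit v₀ ∧ IsUnit v₁ ∧
      res (W₀ ⊓ W₁) inf_le_left v₀ * u = res (W₀ ⊓ W₁) inf_le_right v₁ := by
  obtain ⟨σ, hσ⟩ := (isTrivialOn_top_iff M).mpr hM
  have hσ' : IsFrame σ := hσ
  obtain ⟨v₀, hv₀, -⟩ := SecOn.exists_ratio F.e₀ F.frame₀ (σ.restrict le_top)
  obtain ⟨v₁, hv₁, -⟩ := SecOn.exists_ratio F.e₁ F.frame₁ (σ.restrict le_top)
  have hv₀' : σ.restrict le_top = v₀ • F.e₀ := hv₀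
  have hv₁' : σ.restrict le_top = v₁ • F.e₁ := hv₁
  refine ⟨v₀, v₁, ?_, ?_, ?_⟩
  · apply F.frame₀.isUnit_of_smul
    rw [← hv₀']
    exact hσ'.restrict le_top
  · apply F.frame₁.isUnit_of_smul
    rw [← hv₁']
    exact hσ'.restrict le_top
  · have h1 : (res (W₀ ⊓ W₁) inf_le_left v₀ * u) • F.e₁.restrict (inf_le_right : W₀ ⊓ W₁ ≤ W₁) =
        res (W₀ ⊓ W₁) inf_le_right v₁ • F.e₁.restrict (inf_le_right : W₀ ⊓ W₁ ≤ W₁) := by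
      rw [mul_smul, ← F.rel, ← restrict_smul', ← restrict_smul', ← hv₀', ← hv₁',
        SecOn.restrict_restrict, SecOn.restrict_restrict]
    exact (SecOn.exists_ratio (F.e₁.restrict (inf_le_right : W₀ ⊓ W₁ ≤ W₁))
      (F.frame₁.restrict inf_le_right)
      (res (W₀ ⊓ W₁) inf_le_right v₁ • F.e₁.restrict (inf_le_right : W₀ ⊓ W₁ ≤ W₁))).unique
      h1.symm rfl

theorem isTrivial_iff (hcov : W₀ ⊔ W₁ = ⊤) {u : Γ(X, W₀ ⊓ W₁)} (F : TwoFrame M W₀ W₁ u) :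
    M.IsTrivial ↔ ∃ (v₀ : Γ(X, W₀)) (v₁ : Γ(X, W₁)), IsUnit v₀ ∧ IsUnit v₁ ∧
      res (W₀ ⊓ W₁) inf_le_left v₀ * u = res (W₀ ⊓ W₁) inf_le_right v₁ :=
  ⟨F.exists_units_of_isTrivial, fun ⟨_, _, h0, h1, h⟩ => F.isTrivial_of_units hcov h0 h1 h⟩

theorem isTrivial_of_ratio_one (hcov : W₀ ⊔ W₁ = ⊤) (F : TwoFrame M W₀ W₁ 1) : M.IsTrivial :=
  F.isTrivial_of_units hcov (v₀ := 1) (v₁ := 1) isUnit_one isUnit_one (by simp)

/-- two bundles with two-frames of the same ratio have the same class. -/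
theorem mk_eq_of_ratio (hcov : W₀ ⊔ W₁ = ⊤) {u : Γ(X, W₀ ⊓ W₁)} (F : TwoFrame M W₀ W₁ u)
    (F' : TwoFrame N W₀ W₁ u) : PicGroup.mk M = PicGroup.mk N := by
  obtain ⟨uu, rfl⟩ := F.isUnit_ratio
  have hinv : ((uu⁻¹ : (Γ(X, W₀ ⊓ W₁))ˣ) : Γ(X, W₀ ⊓ W₁)) * (uu : Γ(X, W₀ ⊓ W₁)) = 1 := by simp
  have hinv' : (uu : Γ(X, W₀ ⊓ W₁)) * ((uu⁻¹ : (Γ(X, W₀ ⊓ W₁))ˣ) : Γ(X, W₀ ⊓ W₁)) = 1 := by simp
  have h1 : (M.tensor (twoChartLB hcov _ _ hinv)).IsTrivial :=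
    ((F.tensor (twoChartFrame hcov _ _ hinv)).cast hinv').isTrivial_of_ratio_one hcov
  have h2 : (N.tensor (twoChartLB hcov _ _ hinv)).IsTrivial :=
    ((F'.tensor (twoChartFrame hcov _ _ hinv)).cast hinv').isTrivial_of_ratio_one hcov
  rw [← PicGroup.mk_eq_zero_iff, PicGroup.mk_tensor] at h1 h2
  exact add_right_cancel (h1.trans h2.symm)

end TwoFrame

/-! ### the class map `Θ` -/

/-- the class of the two-chart line bundle with ratio the unit `u`. -/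
def Θ {W₀ W₁ : X.Opens} (hcov : W₀ ⊔ W₁ = ⊤) (u : (Γ(X, W₀ ⊓ W₁))ˣ) : PicGroup X :=
  PicGroup.mk (twoChartLB hcov (u : Γ(X, W₀ ⊓ W₁)) ((u⁻¹ : (Γ(X, W₀ ⊓ W₁))ˣ) : Γ(X, W₀ ⊓ W₁))
    (by simp))

/-- a bundle with a two-frame of ratio `u` has class `Θ u`. -/
theorem TwoFrame.mk_eq_Θ {M : LB X} {W₀ W₁ : X.Opens} (hcov : W₀ ⊔ W₁ = ⊤)
    (u : (Γ(X, W₀ ⊓ W₁))ˣ) (F : TwoFrame M W₀ W₁ (u : Γ(X, W₀ ⊓ W₁))) :
    PicGroup.mk M = Θ hcov u :=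
  F.mk_eq_of_ratio hcov (twoChartFrame hcov _ _ _)

theorem Θ_mul {W₀ W₁ : X.Opens} (hcov : W₀ ⊔ W₁ = ⊤) (u u' : (Γ(X, W₀ ⊓ W₁))ˣ) :
    Θ hcov (u * u') = Θ hcov u + Θ hcov u' := by
  have F := (twoChartFrame hcov (u : Γ(X, W₀ ⊓ W₁)) ((u⁻¹ : (Γ(X, W₀ ⊓ W₁))ˣ) : Γ(X, W₀ ⊓ W₁))
    (by simp)).tensor (twoChartFrame hcov (u' : Γ(X, W₀ ⊓ W₁))
      ((u'⁻¹ : (Γ(X, W₀ ⊓ W₁))ˣ) : Γ(X, W₀ ⊓ W₁)) (by simp))
  have h := TwoFrame.mk_eq_Θ hcov (u * u') (F.cast (Units.val_mul u u').symm)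
  rw [← h]
  rfl

theorem Θ_one {W₀ W₁ : X.Opens} (hcov : W₀ ⊔ W₁ = ⊤) :
    Θ hcov (1 : (Γ(X, W₀ ⊓ W₁))ˣ) = 0 := by
  have h := Θ_mul hcov (1 : (Γ(X, W₀ ⊓ W₁))ˣ) 1
  rw [mul_one] at h
  exact (add_eq_left.mp h.symm)

theorem Θ_eq_zero_iff {W₀ W₁ : X.Opens} (hcov : W₀ ⊔ W₁ = ⊤) (u : (Γ(X, W₀ ⊓ W₁))ˣ) :
    Θ hcov u = 0 ↔ ∃ (v₀ : Γ(X, W₀)) (v₁ : Γ(X, W₁)), IsUnit v₀ ∧ IsUnit v₁ ∧
      res (W₀ ⊓ W₁) inf_le_left v₀ * (u : Γ(X, W₀ ⊓ W₁)) = res (W₀ ⊓ W₁) inf_le_right v₁ := by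
  unfold Θ
  rw [PicGroup.mk_eq_zero_iff]
  exact (twoChartFrame hcov _ _ _).isTrivial_iff hcov

theorem preimage_cover {Y : Scheme.{u}} (φ : Y ⟶ X) {W₀ W₁ : X.Opens} (hcov : W₀ ⊔ W₁ = ⊤) :
    φ ⁻¹ᵁ W₀ ⊔ φ ⁻¹ᵁ W₁ = ⊤ := by
  rw [← Scheme.Hom.preimage_sup, hcov]
  rfl

/-- `Θ` commutes with pull-back. -/
theorem map_Θ {Y : Scheme.{u}} (φ : Y ⟶ X) {W₀ W₁ : X.Opens} (hcov : W₀ ⊔ W₁ = ⊤)
    (u : (Γ(X, W₀ ⊓ W₁))ˣ) :
    PicGroup.map φ (Θ hcov u) =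
      Θ (preimage_cover φ hcov) (Units.map (appInf φ W₀ W₁ : _ →* _) u) := by
  unfold Θ
  rw [PicGroup.map_mk]
  exact ((twoChartFrame hcov _ _ _).pullback φ).mk_eq_Θ (preimage_cover φ hcov)
    (Units.map (appInf φ W₀ W₁ : _ →* _) u)

/-- two frames always have a ratio. -/
theorem exists_twoFrame {M : LB X} {W₀ W₁ : X.Opens} (e₀ : M.SecOn W₀) (e₁ : M.SecOn W₁)
    (h₀ : IsFrame e₀) (h₁ : IsFrame e₁) :
    ∃ u : Γ(X, W₀ ⊓ W₁), Nonempty (TwoFrame M W₀ W₁ u) := by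
  obtain ⟨c, hc, -⟩ := SecOn.exists_ratio (e₁.restrict (inf_le_right : W₀ ⊓ W₁ ≤ W₁))
    (h₁.restrict inf_le_right) (e₀.restrict (inf_le_left : W₀ ⊓ W₁ ≤ W₀))
  exact ⟨c, ⟨⟨e₀, e₁, h₀, h₁, hc⟩⟩⟩

end

end Fermat.Agent.JAC.DIM
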