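/-
PROJECT JAC (S25) — helper5 — J1c, part 1: **Cartier divisors by rational local equations** and the
line bundle of a Cartier divisor (cocycle model `LB` of PROJECT AV).

* `secOfReg V f hf : Γ(X, V)`: the section over `V` of a rational function `f ∈ regOn V`
  (`germOf_secOfReg`, `secOfReg_res`, `secOfReg_mul`, `secOfReg_eq_one`);
* `CartierDiv X`: an open cover `U i` with nonzero rational functions `f i` such that
  `f i / f j ∈ regOn (U i ⊓ U j)`; `CartierDiv.toLB`, `CartierDiv.ratSec` (the canonical rational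
  section, `σ i = f i`);
* `LB.isoOfRatSec`: two line bundles with rational sections `s`, `t` such that all `t_j / s_i`,
  `s_i / t_j` are regular on `M.U i ⊓ N.U j` are isomorphic.
-/
import Mathlib
import Fermat.Agent.AV.AV4_helper5_Sections
import Fermat.Agent.AV.AV5_helper2_Bridge

set_option autoImplicit false
set_option linter.style.haveILetI false
set_option linter.unusedSectionVars false

open AlgebraicGeometry CategoryTheory Opposite TopologicalSpace

universe u

namespace Fermat.Agent.JAC

open Fermat.Agent.AV Fermat.Agent.AV.LB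

noncomputable section

open scoped Classical

variable {X : Scheme.{u}} [IsIntegral X]

open Classical in
/-- the section over `V` whose germ is the rational function `f`, regular on `V`
(`1` if `V` is empty). -/
def secOfReg (V : X.Opens) (f : X.functionField) (hf : f ∈ regOn V) : Γ(X, V) :=
  if h : Nonempty V then
    haveI := h
    Classical.choose (exists_germOf_eq_of_mem_regOn V hf)
  else 1

theorem germOf_secOfReg (V : X.Opens) [h : Nonempty V] (f : X.functionField) (hf : f ∈ regOn V) :
    germOf V (secOfReg V f hf) = f := by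
  rw [secOfReg, dif_pos h]
  exact Classical.choose_spec (exists_germOf_eq_of_mem_regOn V hf)

/-- two sections with the same germ are equal (also over the empty open). -/
theorem eq_of_germOf_eq (V : X.Opens) (a b : Γ(X, V)) (h : Nonempty V → germOf V a = germOf V b) :
    a = b := by
  by_cases hV : Nonempty V
  · haveI := hV
    exact germOf_injective V (h hV)
  · haveI := subsingleton_of_not_nonempty _ hV
    exact Subsingleton.elim _ _

theorem secOfReg_res {V W : X.Opens} (hWV : W ≤ V) (f : X.functionField) (hf : f ∈ regOn V) :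
    res W hWV (secOfReg V f hf) = secOfReg W f (regOn_anti hWV hf) := by
  apply eq_of_germOf_eq
  intro hW
  haveI := hW
  haveI : Nonempty V := ⟨⟨hW.some.1, hWV hW.some.2⟩⟩
  rw [germOf_res', germOf_secOfReg, germOf_secOfReg]

theorem secOfReg_mul (V : X.Opens) (f f' : X.functionField) (hf : f ∈ regOn V)
    (hf' : f' ∈ regOn V) :
    secOfReg V f hf * secOfReg V f' hf' = secOfReg V (f * f') (Subring.mul_mem _ hf hf') := by
  apply eq_of_germOf_eq
  intro hV
  haveI := hV
  rw [germOf_map_mul, germOf_secOfReg, germOf_secOfReg, germOf_secOfReg]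

theorem secOfReg_congr (V : X.Opens) {f f' : X.functionField} (h : f = f') (hf : f ∈ regOn V) :
    secOfReg V f hf = secOfReg V f' (h ▸ hf) := by
  subst h; rfl

theorem secOfReg_eq_one (V : X.Opens) {f : X.functionField} (h : f = 1) (hf : f ∈ regOn V) :
    secOfReg V f hf = 1 := by
  apply eq_of_germOf_eq
  intro hV
  haveI := hV
  rw [germOf_secOfReg, germOf_map_one, h]

theorem secOfReg_germOf (V : X.Opens) (a : Γ(X, V)) :
    secOfReg V (germOf V a) (germOf_mem_regOn V a) = a := by
  apply eq_of_germOf_eq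
  intro hV
  haveI := hV
  rw [germOf_secOfReg]

/-- a **Cartier divisor** given by rational local equations. -/
structure CartierDiv (X : Scheme.{u}) [IsIntegral X] where
  /-- index set of the cover -/
  ι : Type u
  /-- the cover -/
  U : ι → X.Opens
  iSup_U : ⨆ i, U i = ⊤
  /-- the local equations -/
  f : ι → X.functionField
  ne_zero : ∀ i, f i ≠ 0
  reg : ∀ i j, f i / f j ∈ regOn (U i ⊓ U j)

namespace CartierDiv

variable (D : CartierDiv X)

/-- the line bundle `O(D)` of a Cartier divisor: transition functions `f i / f j`. -/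
def toLB : LB X where
  ι := D.ι
  U := D.U
  iSup_U := D.iSup_U
  g i j := secOfReg (D.U i ⊓ D.U j) (D.f i / D.f j) (D.reg i j)
  g_self i := secOfReg_eq_one _ (div_self (D.ne_zero i)) _
  cocycle i j k := by
    rw [secOfReg_res, secOfReg_res, secOfReg_res, secOfReg_mul]
    apply secOfReg_congr
    rw [div_mul_div_cancel₀ (D.ne_zero j)]

@[simp] theorem toLB_ι : D.toLB.ι = D.ι := rfl

@[simp] theorem toLB_U (i : D.ι) : D.toLB.U i = D.U i := rfl

theorem toLB_g (i j : D.ι) :
    D.toLB.g i j = secOfReg (D.U i ⊓ D.U j) (D.f i / D.f j) (D.reg i j) := rfl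

/-- the canonical rational section of `O(D)` (the "rational section `1`"), with divisor `D`. -/
def ratSec : D.toLB.RatSec where
  σ := D.f
  ne_zero i _ := D.ne_zero i
  compat i j h := by
    haveI : Nonempty (D.U i ⊓ D.U j : X.Opens) := ⟨⟨genericPoint X, h⟩⟩
    have h1 : ggerm (D.toLB.U i ⊓ D.toLB.U j) h (D.toLB.g i j) = D.f i / D.f j := by
      rw [← germOf_eq_ggerm]
      exact germOf_secOfReg (D.U i ⊓ D.U j) _ (D.reg i j)
    rw [h1, div_mul_cancel₀ _ (D.ne_zero j)]

/-- a Cartier divisor is effective if its local equations are regular. -/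
def IsEffective : Prop := ∀ i, D.f i ∈ regOn (D.U i)

/-- the canonical section `1_D` of `O(D)` for an effective Cartier divisor `D` (components = the
local equations). -/
def canonicalSection (h : D.IsEffective) : D.toLB.H0 :=
  ⟨fun i => secOfReg (D.U i) (D.f i) (h i), fun i j => by
    show res (D.U i ⊓ D.U j) inf_le_left (secOfReg (D.U i) (D.f i) (h i)) =
      secOfReg (D.U i ⊓ D.U j) (D.f i / D.f j) (D.reg i j) *
        res (D.U i ⊓ D.U j) inf_le_right (secOfReg (D.U j) (D.f j) (h j))
    rw [secOfReg_res, secOfReg_res, secOfReg_mul]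
    apply secOfReg_congr
    rw [div_mul_cancel₀ _ (D.ne_zero j)]⟩

theorem canonicalSection_apply (h : D.IsEffective) (i : D.ι) :
    (D.canonicalSection h).1 i = secOfReg (D.U i) (D.f i) (h i) := rfl

theorem germOf_canonicalSection (h : D.IsEffective) (i : D.ι) [Nonempty (D.U i)] :
    germOf (D.U i) ((D.canonicalSection h).1 i) = D.f i :=
  germOf_secOfReg (D.U i) (D.f i) (h i)

end CartierDiv

/-- the germ of a transition function is the ratio of the components of a rational section. -/
theorem germOf_g_eq_div {M : LB X} (s : M.RatSec) (i j : M.ι)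
    [hne : Nonempty (M.U i ⊓ M.U j : X.Opens)] :
    germOf (M.U i ⊓ M.U j) (M.g i j) = s.σ i / s.σ j := by
  have hη : genericPoint X ∈ M.U i ⊓ M.U j := genericPoint_mem_of_mem hne.some.2
  rw [germOf_eq_ggerm _ hη, s.compat i j hη, mul_div_assoc, div_self (s.ne_zero j hη.2), mul_one]

theorem ratSec_ne_zero_of_nonempty {M : LB X} (s : M.RatSec) (i : M.ι) {V : X.Opens}
    [hne : Nonempty V] (hV : V ≤ M.U i) : s.σ i ≠ 0 :=
  s.ne_zero i (genericPoint_mem_of_mem (hV hne.some.2))

/-- **isomorphism criterion**: two line bundles with rational sections `s`, `t` such that all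
`t_j / s_i` and `s_i / t_j` are regular on `M.U i ⊓ N.U j` are isomorphic (by `s ↦ t`). -/
def isoDataOfRatSec {M N : LB X} (s : M.RatSec) (t : N.RatSec)
    (h1 : ∀ i j, t.σ j / s.σ i ∈ regOn (M.U i ⊓ N.U j))
    (h2 : ∀ i j, s.σ i / t.σ j ∈ regOn (M.U i ⊓ N.U j)) : LB.IsoData M N where
  κ := M.ι × N.ι
  W k := M.U k.1 ⊓ N.U k.2
  iSup_W := by
    rw [eq_top_iff]
    intro x _
    obtain ⟨i, hi⟩ := M.exists_mem_chart x
    obtain ⟨j, hj⟩ := N.exists_mem_chart x
    exact Opens.mem_iSup.2 ⟨(i, j), hi, hj⟩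
  α := Prod.fst
  β := Prod.snd
  hα _ := inf_le_left
  hβ _ := inf_le_right
  f k := secOfReg _ (t.σ k.2 / s.σ k.1) (h1 _ _)
  fi k := secOfReg _ (s.σ k.1 / t.σ k.2) (h2 _ _)
  f_mul_fi k := by
    rw [secOfReg_mul]
    apply eq_of_germOf_eq
    intro hW
    haveI := hW
    rw [germOf_secOfReg, germOf_map_one,
      div_mul_div_cancel₀ (ratSec_ne_zero_of_nonempty s k.1 (V := M.U k.1 ⊓ N.U k.2) inf_le_left),
      div_self (ratSec_ne_zero_of_nonempty t k.2 (V := M.U k.1 ⊓ N.U k.2) inf_le_right)]
  compat k l := by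
    apply eq_of_germOf_eq
    intro hV
    haveI := hV
    haveI : Nonempty (M.U k.1 ⊓ M.U l.1 : X.Opens) :=
      ⟨⟨hV.some.1, hV.some.2.1.1, hV.some.2.2.1⟩⟩
    haveI : Nonempty (N.U k.2 ⊓ N.U l.2 : X.Opens) :=
      ⟨⟨hV.some.1, hV.some.2.1.2, hV.some.2.2.2⟩⟩
    haveI : Nonempty (M.U k.1 ⊓ N.U k.2 : X.Opens) := ⟨⟨hV.some.1, hV.some.2.1⟩⟩
    haveI : Nonempty (M.U l.1 ⊓ N.U l.2 : X.Opens) := ⟨⟨hV.some.1, hV.some.2.2⟩⟩
    have hsk : s.σ k.1 ≠ 0 := ratSec_ne_zero_of_nonempty s k.1 (V := M.U k.1 ⊓ N.U k.2) inf_le_left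
    have hsl : s.σ l.1 ≠ 0 := ratSec_ne_zero_of_nonempty s l.1 (V := M.U l.1 ⊓ N.U l.2) inf_le_left
    have htk : t.σ k.2 ≠ 0 := ratSec_ne_zero_of_nonempty t k.2 (V := M.U k.1 ⊓ N.U k.2) inf_le_right
    have htl : t.σ l.2 ≠ 0 := ratSec_ne_zero_of_nonempty t l.2 (V := M.U l.1 ⊓ N.U l.2) inf_le_right
    rw [germOf_map_mul, germOf_map_mul, germOf_res', germOf_res', germOf_res', germOf_res',
      germOf_secOfReg, germOf_secOfReg, germOf_g_eq_div s, germOf_g_eq_div t]
    field_simp

/-- line bundles with rational sections whose mutual ratios are regular are isomorphic. -/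
theorem iso_of_ratSec {M N : LB X} (s : M.RatSec) (t : N.RatSec)
    (h1 : ∀ i j, t.σ j / s.σ i ∈ regOn (M.U i ⊓ N.U j))
    (h2 : ∀ i j, s.σ i / t.σ j ∈ regOn (M.U i ⊓ N.U j)) : LB.Iso M N :=
  ⟨isoDataOfRatSec s t h1 h2⟩

namespace CartierDiv

/-- the Cartier divisor of a rational section. -/
def ofRatSec {M : LB X} (s : M.RatSec) : CartierDiv X where
  ι := M.ι
  U := M.U
  iSup_U := M.iSup_U
  f i := if genericPoint X ∈ M.U i then s.σ i else 1
  ne_zero i := by
    split_ifs with h
    · exact s.ne_zero i h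
    · exact one_ne_zero
  reg i j := by
    by_cases hV : Nonempty (M.U i ⊓ M.U j : X.Opens)
    · haveI := hV
      have hη : genericPoint X ∈ M.U i ⊓ M.U j := genericPoint_mem_of_mem hV.some.2
      have e1 : (if genericPoint X ∈ M.U i then s.σ i else 1) = s.σ i := if_pos hη.1
      have e2 : (if genericPoint X ∈ M.U j then s.σ j else 1) = s.σ j := if_pos hη.2
      rw [e1, e2, ← germOf_g_eq_div s i j]
      exact germOf_mem_regOn _ _
    · exact regOn_eq_top_of_not_nonempty hV _

theorem ofRatSec_f_of_mem {M : LB X} (s : M.RatSec) {i : M.ι} (h : genericPoint X ∈ M.U i) :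
    (ofRatSec s).f i = s.σ i := if_pos h

/-- a line bundle is isomorphic to the line bundle of the divisor of any of its rational
sections. -/
theorem iso_toLB_ofRatSec {M : LB X} (s : M.RatSec) : LB.Iso M (ofRatSec s).toLB := by
  refine iso_of_ratSec s (ofRatSec s).ratSec (fun i (j : M.ι) => ?_) (fun i (j : M.ι) => ?_)
  · by_cases hV : Nonempty (M.U i ⊓ M.U j : X.Opens)
    swap
    · exact regOn_eq_top_of_not_nonempty hV _
    haveI := hV
    have hη : genericPoint X ∈ M.U i ⊓ M.U j := genericPoint_mem_of_mem hV.some.2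
    show (ofRatSec s).f j / s.σ i ∈ regOn (M.U i ⊓ M.U j)
    rw [ofRatSec_f_of_mem s hη.2]
    haveI : Nonempty (M.U j ⊓ M.U i : X.Opens) := ⟨⟨genericPoint X, hη.2, hη.1⟩⟩
    rw [← germOf_g_eq_div s j i]
    exact germOf_mem_regOn_of_le (le_of_eq (inf_comm _ _)) _
  · by_cases hV : Nonempty (M.U i ⊓ M.U j : X.Opens)
    swap
    · exact regOn_eq_top_of_not_nonempty hV _
    haveI := hV
    have hη : genericPoint X ∈ M.U i ⊓ M.U j := genericPoint_mem_of_mem hV.some.2
    show s.σ i / (ofRatSec s).f j ∈ regOn (M.U i ⊓ M.U j)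
    rw [ofRatSec_f_of_mem s hη.2, ← germOf_g_eq_div s i j]
    exact germOf_mem_regOn _ _

end CartierDiv

end

end Fermat.Agent.JAC
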