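/-
PROJECT JAC (S25) — helper5 — J1c, part 2: **Weil divisors vs. Cartier divisors** on integral locally
noetherian schemes with the Hartogs property, and on regular curves.

* `HartogsProp X`, `hartogsProp_of_smooth`; `mem_regOn_iff_ord`;
* `LB.iso_of_div_eq`: line bundles with rational sections of the same divisor are isomorphic;
* `finite_ord_ne_zero`: finitely many zeros and poles;
* on a scheme whose codimension-one points are closed with DVR local rings (a regular curve):
  `CartierDiv.ofWeil D`, `ofWeil_ratSec_div` (its canonical rational section has divisor `D`).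
-/
import Mathlib
import Fermat.Agent.JAC.DIV_helper5_Cartier
import Fermat.Agent.AV.AV0_helper4_Hartogs

set_option autoImplicit false
set_option linter.style.haveILetI false
set_option linter.unusedSectionVars false

open AlgebraicGeometry CategoryTheory Opposite TopologicalSpace Order

universe u

namespace Fermat.Agent.JAC

open Fermat.Agent.AV Fermat.Agent.AV.LB

noncomputable section

open scoped Classical

/-- the **Hartogs property**: a rational function without poles along the codimension-one points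
of an open `V` is regular on `V`. -/
def HartogsProp (X : Scheme.{u}) [IsIntegral X] [IsLocallyNoetherian X] : Prop :=
  ∀ (V : X.Opens) [Nonempty V] (f : X.functionField),
    (∀ z ∈ V, coheight z = 1 → 0 ≤ Scheme.ord f z) → f ∈ Set.range (X.germToFunctionField V)

theorem hartogsProp_of_smooth {K : Type u} [Field K] {X : Scheme.{u}}
    (f₀ : X ⟶ Spec (CommRingCat.of K)) [Smooth f₀] [IsIntegral X] [IsLocallyNoetherian X] :
    HartogsProp X := fun V _ f h =>
  mem_range_germToFunctionField_of_smooth_of_ord_nonneg f₀ V f h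

variable {X : Scheme.{u}} [IsIntegral X] [IsLocallyNoetherian X]

theorem scheme_ord_inv {f : X.functionField} (hf : f ≠ 0) (z : X) :
    Scheme.ord f⁻¹ z = -Scheme.ord f z := by
  have h := Scheme.ord_mul (x := z) hf (inv_ne_zero hf)
  rw [mul_inv_cancel₀ hf, scheme_ord_one] at h
  omega

theorem scheme_ord_div {f g : X.functionField} (hf : f ≠ 0) (hg : g ≠ 0) (z : X) :
    Scheme.ord (f / g) z = Scheme.ord f z - Scheme.ord g z := by
  rw [div_eq_mul_inv, Scheme.ord_mul hf (inv_ne_zero hg), scheme_ord_inv hg]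
  ring

theorem scheme_ord_zpow {f : X.functionField} (hf : f ≠ 0) (n : ℤ) (z : X) :
    Scheme.ord (f ^ n) z = n * Scheme.ord f z := by
  induction n using Int.induction_on with
  | zero => rw [zpow_zero, scheme_ord_one, zero_mul]
  | succ n ih =>
    rw [zpow_add_one₀ hf, Scheme.ord_mul (zpow_ne_zero _ hf) hf, ih]
    ring
  | pred n ih =>
    rw [zpow_sub_one₀ hf, Scheme.ord_mul (zpow_ne_zero _ hf) (inv_ne_zero hf), ih,
      scheme_ord_inv hf]
    ring

/-- a rational function without poles on `V` is regular on `V`. -/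
theorem mem_regOn_of_ord_nonneg (hH : HartogsProp X) (V : X.Opens) (f : X.functionField)
    (h : ∀ z ∈ V, coheight z = 1 → 0 ≤ Scheme.ord f z) : f ∈ regOn V := by
  by_cases hV : Nonempty V
  · haveI := hV
    obtain ⟨a, ha⟩ := hH V f h
    rw [← ha]
    have := germOf_mem_regOn V a
    rwa [germOf_eq] at this
  · exact regOn_eq_top_of_not_nonempty hV _

/-- a nonzero regular function has no poles. -/
theorem ord_nonneg_of_mem_regOn {V : X.Opens} {f : X.functionField} (hf0 : f ≠ 0)
    (hf : f ∈ regOn V) {z : X} (hzV : z ∈ V) (hz : coheight z = 1) : 0 ≤ Scheme.ord f z := by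
  obtain ⟨W, b, hzW, hb⟩ := mem_regOn.1 hf z hzV
  haveI : Nonempty W := ⟨⟨z, hzW⟩⟩
  have hb0 : b ≠ 0 := by
    rintro rfl
    rw [germOf_map_zero] at hb
    exact hf0 hb.symm
  rw [← hb, germOf_eq]
  exact scheme_ord_germ_nonneg z hzW hz b hb0

theorem mem_regOn_iff_ord (hH : HartogsProp X) (V : X.Opens) {f : X.functionField} (hf0 : f ≠ 0) :
    f ∈ regOn V ↔ ∀ z ∈ V, coheight z = 1 → 0 ≤ Scheme.ord f z :=
  ⟨fun hf _ hzV hz => ord_nonneg_of_mem_regOn hf0 hf hzV hz, mem_regOn_of_ord_nonneg hH V f⟩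

/-- **line bundles with rational sections of the same divisor are isomorphic.** -/
theorem iso_of_div_eq (hH : HartogsProp X) {M N : LB X} (s : M.RatSec) (t : N.RatSec)
    (h : ∀ z : X, coheight z = 1 → s.div z = t.div z) : LB.Iso M N := by
  refine iso_of_ratSec s t (fun i j => ?_) (fun i j => ?_)
  all_goals
    by_cases hV : Nonempty (M.U i ⊓ N.U j : X.Opens)
    swap
    · exact regOn_eq_top_of_not_nonempty hV _
    haveI := hV
    have hs : s.σ i ≠ 0 := ratSec_ne_zero_of_nonempty s i (V := M.U i ⊓ N.U j) inf_le_left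
    have ht : t.σ j ≠ 0 := ratSec_ne_zero_of_nonempty t j (V := M.U i ⊓ N.U j) inf_le_right
    apply mem_regOn_of_ord_nonneg hH
    intro z hzV hz
  · rw [scheme_ord_div ht hs, ← t.div_eq hzV.2, ← s.div_eq hzV.1, h z hz, sub_self]
  · rw [scheme_ord_div hs ht, ← t.div_eq hzV.2, ← s.div_eq hzV.1, h z hz, sub_self]

/-- a nonzero rational function on an integral noetherian scheme has finitely many zeros and
poles. -/
theorem finite_ord_ne_zero [IsNoetherian X] {f : X.functionField} (hf : f ≠ 0) :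
    {z : X | coheight z = 1 ∧ Scheme.ord f z ≠ 0}.Finite := by
  obtain ⟨U, _, f', hne, hf', hunit⟩ := exists_isUnit_germ_eq X f hf
  have hη : genericPoint X ∉ ((U : Set X)ᶜ) := by
    intro h
    apply h
    exact ((genericPoint_spec X).mem_open_set_iff U.isOpen).mpr (by simpa using hne)
  have hfin := finite_coheight_one_of_isClosed X ((U : Set X)ᶜ) U.isOpen.isClosed_compl hη
  refine hfin.subset ?_
  rintro z ⟨hz, hord⟩
  refine ⟨?_, hz⟩
  intro hzU
  apply hord
  rw [← hf', Scheme.ord_of_isUnit hunit hzU]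

/-- multiplication of a rational section by a nonzero rational function. -/
def ratSecSMul (φ : X.functionField) (hφ : φ ≠ 0) {M : LB X} (s : M.RatSec) : M.RatSec where
  σ i := φ * s.σ i
  ne_zero i h := mul_ne_zero hφ (s.ne_zero i h)
  compat i j h := by
    rw [s.compat i j h]
    ring

theorem ratSecSMul_div (φ : X.functionField) (hφ : φ ≠ 0) {M : LB X} (s : M.RatSec) (z : X) :
    (ratSecSMul φ hφ s).div z = Scheme.ord φ z + s.div z := by
  have hz := M.mem_chart z
  rw [RatSec.div_eq _ hz, RatSec.div_eq _ hz]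
  exact Scheme.ord_mul hφ (s.ne_zero _ (genericPoint_mem_of_mem hz))

/-- the divisor of a rational section has finite support. -/
theorem finite_ratSec_div_ne_zero [IsNoetherian X] {M : LB X} (s : M.RatSec) :
    {z : X | coheight z = 1 ∧ s.div z ≠ 0}.Finite := by
  obtain ⟨T, hT⟩ := isCompact_univ.elim_finite_subcover (fun i => (M.U i : Set X))
    (fun i => (M.U i).isOpen) (by
      intro x _
      obtain ⟨i, hi⟩ := M.exists_mem_chart x
      exact Set.mem_iUnion.2 ⟨i, hi⟩)
  have hfin : (⋃ i ∈ T, {z : X | z ∈ M.U i ∧ coheight z = 1 ∧ s.div z ≠ 0}).Finite := by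
    refine Set.Finite.biUnion T.finite_toSet (fun i _ => ?_)
    by_cases hi : Nonempty (M.U i)
    · haveI := hi
      have h0 : s.σ i ≠ 0 := ratSec_ne_zero_of_nonempty s i le_rfl
      refine (finite_ord_ne_zero h0).subset ?_
      rintro z ⟨hzi, hz, hd⟩
      exact ⟨hz, by rwa [← s.div_eq hzi]⟩
    · refine Set.Finite.subset Set.finite_empty ?_
      rintro z ⟨hzi, -⟩
      exact absurd ⟨⟨z, hzi⟩⟩ hi
  refine hfin.subset ?_
  rintro z ⟨hz, hd⟩
  obtain ⟨i, hi⟩ := Set.mem_iUnion.1 (hT (Set.mem_univ z))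
  obtain ⟨hiT, hzi⟩ := Set.mem_iUnion.1 hi
  exact Set.mem_biUnion hiT ⟨hzi, hz, hd⟩

/-! ### Weil divisors are Cartier when the codimension-one points are closed with DVR stalks -/

section curve

variable [IsNoetherian X]
  (hDVR : ∀ z : X, coheight z = 1 → IsDiscreteValuationRing (X.presheaf.stalk z))

/-- a uniformiser at a codimension-one point (`1` at the other points). -/
def unifAt (x : X) : X.functionField :=
  if h : coheight x = 1 then
    haveI := hDVR x h
    Classical.choose (exists_scheme_ord_eq_one X x h)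
  else 1

theorem unifAt_ne_zero (x : X) : unifAt hDVR x ≠ 0 := by
  unfold unifAt
  split_ifs with h
  · haveI := hDVR x h
    exact (Classical.choose_spec (exists_scheme_ord_eq_one X x h)).1
  · exact one_ne_zero

theorem ord_unifAt {x : X} (h : coheight x = 1) : Scheme.ord (unifAt hDVR x) x = 1 := by
  unfold unifAt
  rw [dif_pos h]
  haveI := hDVR x h
  exact (Classical.choose_spec (exists_scheme_ord_eq_one X x h)).2

/-- the local equation of the Weil divisor `D` near `x`. -/
def weilEq (D : X → ℤ) (x : X) : X.functionField := unifAt hDVR x ^ D x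

theorem weilEq_ne_zero (D : X → ℤ) (x : X) : weilEq hDVR D x ≠ 0 :=
  zpow_ne_zero _ (unifAt_ne_zero hDVR x)

theorem ord_weilEq_self (D : X → ℤ) {x : X} (h : coheight x = 1) :
    Scheme.ord (weilEq hDVR D x) x = D x := by
  rw [weilEq, scheme_ord_zpow (unifAt_ne_zero hDVR x), ord_unifAt hDVR h, mul_one]

/-- the codimension-one points where `weilEq D x` is not a local equation of `D`. -/
def weilBad (D : X → ℤ) (x : X) : Set X :=
  {z | coheight z = 1 ∧ Scheme.ord (weilEq hDVR D x) z ≠ D z}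

theorem weilBad_finite (D : X → ℤ) (hD : {z : X | coheight z = 1 ∧ D z ≠ 0}.Finite) (x : X) :
    (weilBad hDVR D x).Finite := by
  refine ((finite_ord_ne_zero (weilEq_ne_zero hDVR D x)).union hD).subset ?_
  rintro z ⟨hz, hne⟩
  by_cases h0 : D z = 0
  · left
    exact ⟨hz, by rwa [h0] at hne⟩
  · right
    exact ⟨hz, h0⟩

theorem notMem_weilBad_self (D : X → ℤ) (x : X) : x ∉ weilBad hDVR D x := by
  rintro ⟨hx, hne⟩
  exact hne (ord_weilEq_self hDVR D hx)

variable (hcl : ∀ z : X, coheight z = 1 → IsClosed ({z} : Set X))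

include hcl in
theorem isClosed_weilBad (D : X → ℤ) (hD : {z : X | coheight z = 1 ∧ D z ≠ 0}.Finite) (x : X) :
    IsClosed (weilBad hDVR D x) := by
  have h := (weilBad_finite hDVR D hD x).isClosed_biUnion (f := fun z => ({z} : Set X))
    (fun z hz => hcl z hz.1)
  simpa using h

/-- the open neighbourhood of `x` on which `weilEq D x` is a local equation of `D`. -/
def weilChart (D : X → ℤ) (hD : {z : X | coheight z = 1 ∧ D z ≠ 0}.Finite) (x : X) : X.Opens :=
  ⟨(weilBad hDVR D x)ᶜ, (isClosed_weilBad hDVR hcl D hD x).isOpen_compl⟩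

theorem mem_weilChart_self (D : X → ℤ) (hD : {z : X | coheight z = 1 ∧ D z ≠ 0}.Finite) (x : X) :
    x ∈ weilChart hDVR hcl D hD x := notMem_weilBad_self hDVR D x

theorem ord_weilEq_of_mem (D : X → ℤ) (hD : {z : X | coheight z = 1 ∧ D z ≠ 0}.Finite) {x z : X}
    (hz : coheight z = 1) (hzx : z ∈ weilChart hDVR hcl D hD x) :
    Scheme.ord (weilEq hDVR D x) z = D z := by
  by_contra hne
  exact hzx ⟨hz, hne⟩

/-- **Weil ⇒ Cartier**: the Cartier divisor of a Weil divisor with finite support. -/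
def CartierDiv.ofWeil (hH : HartogsProp X) (D : X → ℤ)
    (hD : {z : X | coheight z = 1 ∧ D z ≠ 0}.Finite) : CartierDiv X where
  ι := X
  U := weilChart hDVR hcl D hD
  iSup_U := by
    rw [eq_top_iff]
    intro x _
    exact Opens.mem_iSup.2 ⟨x, mem_weilChart_self hDVR hcl D hD x⟩
  f := weilEq hDVR D
  ne_zero := weilEq_ne_zero hDVR D
  reg x y := by
    apply mem_regOn_of_ord_nonneg hH
    intro z hzV hz
    rw [scheme_ord_div (weilEq_ne_zero hDVR D x) (weilEq_ne_zero hDVR D y),
      ord_weilEq_of_mem hDVR hcl D hD hz hzV.1, ord_weilEq_of_mem hDVR hcl D hD hz hzV.2, sub_self]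

/-- the canonical rational section of `O(D)` has divisor `D`. -/
theorem CartierDiv.ofWeil_ratSec_div (hH : HartogsProp X) (D : X → ℤ)
    (hD : {z : X | coheight z = 1 ∧ D z ≠ 0}.Finite) {z : X} (hz : coheight z = 1) :
    (CartierDiv.ofWeil hDVR hcl hH D hD).ratSec.div z = D z := by
  have hzz : z ∈ (CartierDiv.ofWeil hDVR hcl hH D hD).toLB.U z :=
    mem_weilChart_self hDVR hcl D hD z
  rw [RatSec.div_eq _ hzz]
  exact ord_weilEq_self hDVR D hz

/-- the line bundle `O(D)` of a Weil divisor. -/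
abbrev LBofWeil (hH : HartogsProp X) (D : X → ℤ)
    (hD : {z : X | coheight z = 1 ∧ D z ≠ 0}.Finite) : LB X :=
  (CartierDiv.ofWeil hDVR hcl hH D hD).toLB

/-- **every line bundle is `O(div s)`** for any of its rational sections `s`. -/
theorem iso_LBofWeil_div (hH : HartogsProp X) {M : LB X} (s : M.RatSec) :
    LB.Iso M (LBofWeil hDVR hcl hH s.div (finite_ratSec_div_ne_zero s)) :=
  iso_of_div_eq hH s (CartierDiv.ofWeil hDVR hcl hH s.div _).ratSec (fun z hz =>
    (CartierDiv.ofWeil_ratSec_div hDVR hcl hH s.div _ hz).symm)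

/-- `O(D)` only depends on the values of `D` at the codimension-one points. -/
theorem iso_LBofWeil_of_eq (hH : HartogsProp X) (D E : X → ℤ)
    (hD : {z : X | coheight z = 1 ∧ D z ≠ 0}.Finite)
    (hE : {z : X | coheight z = 1 ∧ E z ≠ 0}.Finite)
    (h : ∀ z, coheight z = 1 → D z = E z) :
    LB.Iso (LBofWeil hDVR hcl hH D hD) (LBofWeil hDVR hcl hH E hE) :=
  iso_of_div_eq hH (CartierDiv.ofWeil hDVR hcl hH D hD).ratSec
    (CartierDiv.ofWeil hDVR hcl hH E hE).ratSec (fun z hz => by
      rw [CartierDiv.ofWeil_ratSec_div hDVR hcl hH D hD hz,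
        CartierDiv.ofWeil_ratSec_div hDVR hcl hH E hE hz, h z hz])

/-- `O(D + E) ≅ O(D) ⊗ O(E)`. -/
theorem iso_LBofWeil_add (hH : HartogsProp X) (D E : X → ℤ)
    (hD : {z : X | coheight z = 1 ∧ D z ≠ 0}.Finite)
    (hE : {z : X | coheight z = 1 ∧ E z ≠ 0}.Finite)
    (hDE : {z : X | coheight z = 1 ∧ (D + E) z ≠ 0}.Finite) :
    LB.Iso (LBofWeil hDVR hcl hH (D + E) hDE)
      ((LBofWeil hDVR hcl hH D hD).tensor (LBofWeil hDVR hcl hH E hE)) :=
  iso_of_div_eq hH (CartierDiv.ofWeil hDVR hcl hH (D + E) hDE).ratSec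
    ((CartierDiv.ofWeil hDVR hcl hH D hD).ratSec.tensor
      (CartierDiv.ofWeil hDVR hcl hH E hE).ratSec) (fun z hz => by
      rw [RatSec.tensor_div, CartierDiv.ofWeil_ratSec_div hDVR hcl hH _ hDE hz,
        CartierDiv.ofWeil_ratSec_div hDVR hcl hH D hD hz,
        CartierDiv.ofWeil_ratSec_div hDVR hcl hH E hE hz]
      rfl)

/-- `O(D) ≅ O(E)` implies that `D - E` is principal. -/
theorem exists_function_of_iso_LBofWeil (hH : HartogsProp X) (D E : X → ℤ)
    (hD : {z : X | coheight z = 1 ∧ D z ≠ 0}.Finite)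
    (hE : {z : X | coheight z = 1 ∧ E z ≠ 0}.Finite)
    (h : LB.Iso (LBofWeil hDVR hcl hH D hD) (LBofWeil hDVR hcl hH E hE)) :
    ∃ φ : X.functionField, φ ≠ 0 ∧ ∀ z, coheight z = 1 → Scheme.ord φ z = D z - E z := by
  obtain ⟨I⟩ := h
  obtain ⟨φ, hφ0, hφ⟩ := I.exists_function (CartierDiv.ofWeil hDVR hcl hH D hD).ratSec
    (CartierDiv.ofWeil hDVR hcl hH E hE).ratSec
  refine ⟨φ, hφ0, fun z hz => ?_⟩
  rw [hφ z, CartierDiv.ofWeil_ratSec_div hDVR hcl hH D hD hz,
    CartierDiv.ofWeil_ratSec_div hDVR hcl hH E hE hz]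

/-- `O(div φ + E) ≅ O(E)`: linearly equivalent divisors have isomorphic line bundles. -/
theorem iso_LBofWeil_of_principal (hH : HartogsProp X) (D E : X → ℤ)
    (hD : {z : X | coheight z = 1 ∧ D z ≠ 0}.Finite)
    (hE : {z : X | coheight z = 1 ∧ E z ≠ 0}.Finite)
    (φ : X.functionField) (hφ0 : φ ≠ 0)
    (hφ : ∀ z, coheight z = 1 → Scheme.ord φ z = D z - E z) :
    LB.Iso (LBofWeil hDVR hcl hH D hD) (LBofWeil hDVR hcl hH E hE) :=
  iso_of_div_eq hH (CartierDiv.ofWeil hDVR hcl hH D hD).ratSec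
    (ratSecSMul φ hφ0 (CartierDiv.ofWeil hDVR hcl hH E hE).ratSec) (fun z hz => by
      rw [ratSecSMul_div, CartierDiv.ofWeil_ratSec_div hDVR hcl hH D hD hz,
        CartierDiv.ofWeil_ratSec_div hDVR hcl hH E hE hz, hφ z hz]
      ring)

end curve

end

end Fermat.Agent.JAC
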