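/-
PROJECT JAC (S25) — (FIB), part 2 (helper7): **(FIB2) a finite flat quotient which is based on
every closed fibre is based.**

* `eq_bot_of_forall_maximal_le_smul` : Nakayama over all maximal ideals.
* `bijective_linearCombination_of_forall_maximal` : `Q` a finite FLAT `B`-module (no finite
  presentation, no noetherian hypothesis), `v : ι → Q` a finite family which is a basis modulo every
  maximal ideal ⇒ `v` is a basis of `Q`.
* `isBased_of_bijective`, `bijective_of_isBased` : `HilbAlg.IsBased` in terms of `linearCombination`.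
* `redBased` : the reduction `(B ⊗ A) ⧸ I → ((B ⧸ 𝔪) ⊗ A) ⧸ I_𝔪`; its kernel is `𝔪 • ⊤`.
* **`isBased_of_forall_maximal`** : `(B ⊗[k] A) ⧸ I` finite and flat over `B`, and
  `IsBased v (I.map (bcMap (mkₐ k 𝔪)))` for every maximal `𝔪` ⇒ `IsBased v I`.
* `isBased_of_forall_field_points` : the same with the hypothesis for all field-valued points.
-/
import Mathlib
import Fermat.Agent.JAC.HILB_lead_Ideal

set_option autoImplicit false

universe u

namespace Fermat.Agent.JAC

open TensorProduct HilbAlg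

section Fib2

variable {B : Type*} [CommRing B]

/-- a finitely generated submodule `N` with `N ≤ 𝔪 • N` for every maximal ideal `𝔪` is zero. -/
theorem eq_bot_of_forall_maximal_le_smul {M : Type*} [AddCommGroup M] [Module B M]
    (N : Submodule B M) (hN : N.FG) (H : ∀ (𝔪 : Ideal B) [𝔪.IsMaximal], N ≤ 𝔪 • N) : N = ⊥ := by
  -- the annihilator of `N`
  have hann : N.annihilator = ⊤ := by
    by_contra hne
    obtain ⟨𝔪, h𝔪, hle⟩ := Ideal.exists_le_maximal _ hne
    obtain ⟨s, hs1, hs⟩ :=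
      Submodule.exists_sub_one_mem_and_smul_eq_zero_of_fg_of_le_smul 𝔪 N hN (H 𝔪)
    have h1 : s ∈ N.annihilator := Submodule.mem_annihilator.mpr hs
    have h2 : s ∈ 𝔪 := hle h1
    have h3 : (1 : B) ∈ 𝔪 := by
      have := 𝔪.sub_mem h2 hs1
      simpa using this
    exact h𝔪.ne_top ((Ideal.eq_top_iff_one 𝔪).mpr h3)
  rw [eq_bot_iff]
  intro x hx
  have h1 : (1 : B) ∈ N.annihilator := by rw [hann]; exact Submodule.mem_top
  have := Submodule.mem_annihilator.mp h1 x hx
  simpa using this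

variable {Q : Type*} [AddCommGroup Q] [Module B Q]

/-- **(FIB2), core.**  `Q` a finite flat `B`-module and `v : ι → Q` a finite family which is a basis
modulo every maximal ideal.  Then `v` is a basis of `Q`. -/
theorem bijective_linearCombination_of_forall_maximal [Module.Finite B Q] [Module.Flat B Q]
    {ι : Type*} [Finite ι] (v : ι → Q)
    (hinj : ∀ (𝔪 : Ideal B) [𝔪.IsMaximal] (c : ι →₀ B),
      Finsupp.linearCombination B v c ∈ 𝔪 • (⊤ : Submodule B Q) → ∀ j, c j ∈ 𝔪)
    (hsurj : ∀ (𝔪 : Ideal B) [𝔪.IsMaximal],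
      LinearMap.range (Finsupp.linearCombination B v) ⊔ 𝔪 • (⊤ : Submodule B Q) = ⊤) :
    Function.Bijective (Finsupp.linearCombination B v) := by
  classical
  set L := Finsupp.linearCombination B v with hL
  -- surjectivity
  have hsurjL : Function.Surjective L := by
    rw [← LinearMap.range_eq_top]
    set N := LinearMap.range L with hNdef
    have hquot : (⊤ : Submodule B (Q ⧸ N)) = ⊥ := by
      apply eq_bot_of_forall_maximal_le_smul _ Module.Finite.fg_top
      intro 𝔪 _
      rintro x -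
      obtain ⟨q, rfl⟩ := N.mkQ_surjective x
      have hq : q ∈ N ⊔ 𝔪 • (⊤ : Submodule B Q) := by rw [hsurj 𝔪]; exact Submodule.mem_top
      obtain ⟨n, hn, z, hz, rfl⟩ := Submodule.mem_sup.mp hq
      have hn0 : N.mkQ n = 0 := (Submodule.Quotient.mk_eq_zero N).mpr hn
      rw [map_add, hn0, zero_add]
      have : (𝔪 • (⊤ : Submodule B Q)).map N.mkQ ≤ 𝔪 • (⊤ : Submodule B (Q ⧸ N)) := by
        rw [Submodule.map_smul'']
        exact Submodule.smul_mono le_rfl le_top
      exact this ⟨z, hz, rfl⟩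
    rw [eq_top_iff]
    intro q _
    have h1 : N.mkQ q ∈ (⊤ : Submodule B (Q ⧸ N)) := Submodule.mem_top
    rw [hquot, Submodule.mem_bot] at h1
    exact (Submodule.Quotient.mk_eq_zero N).mp h1
  refine ⟨?_, hsurjL⟩
  -- injectivity
  rw [injective_iff_map_eq_zero]
  intro c hc
  -- the ideal generated by the coordinates of `c`
  let J : Ideal B := Ideal.span (Set.range c)
  have hJfg : J.FG := by
    exact ⟨(Set.toFinite (Set.range c)).toFinset, by simp [J]⟩
  have hcJ : c ∈ J • (⊤ : Submodule B (ι →₀ B)) := by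
    rw [← Finsupp.sum_single c]
    refine Submodule.sum_mem _ fun j _ => ?_
    have : Finsupp.single j (c j) = c j • Finsupp.single j (1 : B) := by
      rw [Finsupp.smul_single, smul_eq_mul, mul_one]
    rw [this]
    exact Submodule.smul_mem_smul (Ideal.subset_span ⟨j, rfl⟩) Submodule.mem_top
  have hpure := LinearMap.ker_inf_smul_top_eq_smul_of_flat J L hsurjL
  have hcK : c ∈ J • LinearMap.ker L := by
    rw [← hpure]
    exact ⟨hc, hcJ⟩
  have hJ : (J : Submodule B B) = ⊥ := by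
    apply eq_bot_of_forall_maximal_le_smul _ hJfg
    intro 𝔪 _
    -- all coordinates of elements of `J • ker L` lie in `𝔪 • J`
    have key : ∀ x ∈ J • LinearMap.ker L, ∀ j, x j ∈ 𝔪 • (J : Submodule B B) := by
      intro x hx
      refine Submodule.smul_induction_on hx ?_ ?_
      · intro q hq k hk j
        have hkj : k j ∈ 𝔪 := hinj 𝔪 k (by
          rw [LinearMap.mem_ker.mp hk]
          exact Submodule.zero_mem _) j
        have e : (q • k) j = k j • q := by
          rw [Finsupp.smul_apply, smul_eq_mul, smul_eq_mul, mul_comm]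
        rw [e]
        exact Submodule.smul_mem_smul (I := 𝔪) (N := (J : Submodule B B)) hkj hq
      · intro x y hx hy j
        rw [Finsupp.add_apply]
        exact Submodule.add_mem _ (hx j) (hy j)
    show J ≤ 𝔪 • (J : Submodule B B)
    rw [show J = Ideal.span (Set.range c) from rfl, Ideal.span_le]
    rintro _ ⟨j, rfl⟩
    exact key c hcK j
  ext j
  have : c j ∈ (J : Submodule B B) := Ideal.subset_span ⟨j, rfl⟩
  rw [hJ, Submodule.mem_bot] at this
  rw [this, Finsupp.zero_apply]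

end Fib2

noncomputable section

section Based

variable {k : Type u} {A : Type u} [CommRing k] [CommRing A] [Algebra k A] {g : ℕ}
  {v : Fin g → A} {B : Type u} [CommRing B] [Algebra k B]

/-- a based ideal, in terms of the linear combination map. -/
theorem isBased_of_bijective (I : Ideal (B ⊗[k] A))
    (h : Function.Bijective (Finsupp.linearCombination B
      (fun j => (Ideal.Quotient.mk I ((1 : B) ⊗ₜ[k] v j) : (B ⊗[k] A) ⧸ I)))) :
    IsBased v I := by
  refine ⟨Module.Basis.ofRepr (LinearEquiv.ofBijective _ h).symm, fun j => ?_⟩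
  show (LinearEquiv.ofBijective _ h) (Finsupp.single j 1) = _
  rw [LinearEquiv.ofBijective_apply, Finsupp.linearCombination_single, one_smul]

theorem bijective_of_isBased {I : Ideal (B ⊗[k] A)} (h : IsBased v I) :
    Function.Bijective (Finsupp.linearCombination B
      (fun j => (Ideal.Quotient.mk I ((1 : B) ⊗ₜ[k] v j) : (B ⊗[k] A) ⧸ I))) := by
  obtain ⟨b, hb⟩ := h
  have : (fun j => (Ideal.Quotient.mk I ((1 : B) ⊗ₜ[k] v j) : (B ⊗[k] A) ⧸ I)) = b := by
    ext j
    rw [hb]
  rw [this]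
  have h1 : (Finsupp.linearCombination B b : (Fin g →₀ B) → _) = b.repr.symm := by
    ext c
    rw [Module.Basis.repr_symm_apply]
  rw [h1]
  exact b.repr.symm.bijective

section Red

variable (I : Ideal (B ⊗[k] A)) (𝔪 : Ideal B)

/-- reduction modulo `𝔪` on the quotient by `I`. -/
def redBased : (B ⊗[k] A) ⧸ I →+*
    ((B ⧸ 𝔪) ⊗[k] A) ⧸ I.map (bcMap (A := A) (Ideal.Quotient.mkₐ k 𝔪)) :=
  Ideal.quotientMap _ (bcMap (A := A) (Ideal.Quotient.mkₐ k 𝔪)).toRingHom Ideal.le_comap_map

theorem redBased_mk (r : B ⊗[k] A) :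
    redBased I 𝔪 (Ideal.Quotient.mk I r) =
      Ideal.Quotient.mk _ (bcMap (A := A) (Ideal.Quotient.mkₐ k 𝔪) r) := rfl

omit I in
theorem bcMap_mk_smul (a : B) (r : B ⊗[k] A) :
    bcMap (A := A) (Ideal.Quotient.mkₐ k 𝔪) (a • r) =
      Ideal.Quotient.mk 𝔪 a • bcMap (A := A) (Ideal.Quotient.mkₐ k 𝔪) r := by
  induction r using TensorProduct.induction_on with
  | zero => simp
  | tmul b x =>
    rw [TensorProduct.smul_tmul', Algebra.TensorProduct.map_tmul, Algebra.TensorProduct.map_tmul,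
      TensorProduct.smul_tmul', smul_eq_mul, map_mul]
    rfl
  | add x y hx hy => rw [smul_add, map_add, hx, hy, map_add, smul_add]

omit I in
theorem bcMap_mk_one_tmul (x : A) :
    bcMap (A := A) (Ideal.Quotient.mkₐ k 𝔪) ((1 : B) ⊗ₜ[k] x) = (1 : B ⧸ 𝔪) ⊗ₜ[k] x := by
  rw [Algebra.TensorProduct.map_tmul, map_one, AlgHom.id_apply]

theorem redBased_smul (a : B) (q : (B ⊗[k] A) ⧸ I) :
    redBased I 𝔪 (a • q) = Ideal.Quotient.mk 𝔪 a • redBased I 𝔪 q := by
  obtain ⟨r, rfl⟩ := Ideal.Quotient.mk_surjective q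
  have h1 : a • Ideal.Quotient.mk I r = Ideal.Quotient.mk I (a • r) := rfl
  rw [h1, redBased_mk, redBased_mk, bcMap_mk_smul]
  rfl

theorem redBased_eq_zero_of_mem {q : (B ⊗[k] A) ⧸ I}
    (hq : q ∈ 𝔪 • (⊤ : Submodule B ((B ⊗[k] A) ⧸ I))) : redBased I 𝔪 q = 0 := by
  refine Submodule.smul_induction_on hq ?_ ?_
  · intro a ha x _
    rw [redBased_smul, Ideal.Quotient.eq_zero_iff_mem.mpr ha, zero_smul]
  · intro x y hx hy
    rw [map_add, hx, hy, add_zero]

theorem mem_of_redBased_eq_zero {q : (B ⊗[k] A) ⧸ I} (hq : redBased I 𝔪 q = 0) :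
    q ∈ 𝔪 • (⊤ : Submodule B ((B ⊗[k] A) ⧸ I)) := by
  obtain ⟨r, rfl⟩ := Ideal.Quotient.mk_surjective q
  rw [redBased_mk, Ideal.Quotient.eq_zero_iff_mem] at hq
  have hsurj : Function.Surjective (bcMap (A := A) (Ideal.Quotient.mkₐ k 𝔪)) :=
    Algebra.TensorProduct.map_surjective _ _ (Ideal.Quotient.mkₐ_surjective k 𝔪)
      Function.surjective_id
  obtain ⟨i, hi, hir⟩ := (Ideal.mem_map_iff_of_surjective _ hsurj).mp hq
  have hker : r - i ∈ RingHom.ker (bcMap (A := A) (Ideal.Quotient.mkₐ k 𝔪)) := by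
    rw [RingHom.mem_ker, map_sub, hir, sub_self]
  have hk := Algebra.TensorProduct.rTensor_ker (R := k) (C := A)
    (Ideal.Quotient.mkₐ k 𝔪) (Ideal.Quotient.mkₐ_surjective k 𝔪)
  have hk2 : RingHom.ker (Ideal.Quotient.mkₐ k 𝔪) = 𝔪 := by
    ext b
    rw [RingHom.mem_ker]
    exact Ideal.Quotient.eq_zero_iff_mem
  rw [hk2] at hk
  have hker' : r - i ∈ 𝔪.map (algebraMap B (B ⊗[k] A)) := by
    have : r - i ∈ Ideal.map (Algebra.TensorProduct.includeLeft : B →ₐ[k] B ⊗[k] A) 𝔪 := by
      rw [← hk]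
      exact hker
    exact this
  have hmk : Ideal.Quotient.mk I r = Ideal.Quotient.mk I (r - i) := by
    rw [map_sub, Ideal.Quotient.eq_zero_iff_mem.mpr hi, sub_zero]
  rw [hmk]
  have h1 : r - i ∈ 𝔪 • (⊤ : Submodule B (B ⊗[k] A)) := by
    rw [Ideal.smul_top_eq_map]
    exact hker'
  have h2 : (𝔪 • (⊤ : Submodule B (B ⊗[k] A))).map (Ideal.Quotient.mkₐ B I).toLinearMap ≤
      𝔪 • (⊤ : Submodule B ((B ⊗[k] A) ⧸ I)) := by
    rw [Submodule.map_smul'']
    exact Submodule.smul_mono le_rfl le_top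
  exact h2 ⟨r - i, h1, rfl⟩

end Red

/-- **(FIB2)**: an ideal of `B ⊗[k] A` with finite flat quotient which is based on every closed
fibre is based. -/
theorem isBased_of_forall_maximal (I : Ideal (B ⊗[k] A)) [Module.Finite B ((B ⊗[k] A) ⧸ I)]
    [Module.Flat B ((B ⊗[k] A) ⧸ I)]
    (H : ∀ (𝔪 : Ideal B) [𝔪.IsMaximal],
      IsBased v (I.map (bcMap (A := A) (Ideal.Quotient.mkₐ k 𝔪)))) : IsBased v I := by
  apply isBased_of_bijective
  apply bijective_linearCombination_of_forall_maximal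
  · intro 𝔪 _ c hc j
    obtain ⟨b, hb⟩ := H 𝔪
    have h1 := redBased_eq_zero_of_mem I 𝔪 hc
    rw [Finsupp.linearCombination_apply, Finsupp.sum, map_sum] at h1
    have h2 : ∑ x ∈ c.support, Ideal.Quotient.mk 𝔪 (c x) • b x = 0 := by
      rw [← h1]
      refine Finset.sum_congr rfl fun x _ => ?_
      rw [redBased_smul, redBased_mk, hb, bcMap_mk_one_tmul]
    have h3 := (Fintype.linearIndependent_iff.mp b.linearIndependent)
      (fun x => Ideal.Quotient.mk 𝔪 (c x)) (by
        rw [← h2]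
        symm
        apply Finset.sum_subset (Finset.subset_univ _)
        intro x _ hx
        rw [Finsupp.notMem_support_iff.mp hx, map_zero, zero_smul]) j
    exact Ideal.Quotient.eq_zero_iff_mem.mp h3
  · intro 𝔪 _
    obtain ⟨b, hb⟩ := H 𝔪
    rw [eq_top_iff]
    intro q _
    -- lift the coordinates of the reduction of `q`
    have hlift : ∀ j, ∃ a : B, Ideal.Quotient.mk 𝔪 a = b.repr (redBased I 𝔪 q) j :=
      fun j => Ideal.Quotient.mk_surjective _
    choose a ha using hlift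
    let c : Fin g →₀ B := Finsupp.equivFunOnFinite.symm a
    have hc : redBased I 𝔪 (Finsupp.linearCombination B
        (fun j => (Ideal.Quotient.mk I ((1 : B) ⊗ₜ[k] v j) : (B ⊗[k] A) ⧸ I)) c) =
        redBased I 𝔪 q := by
      rw [Finsupp.linearCombination_apply, Finsupp.sum_fintype c
        (fun i a => a • (Ideal.Quotient.mk I ((1 : B) ⊗ₜ[k] v i) : (B ⊗[k] A) ⧸ I))
        (fun i => zero_smul _ _), map_sum]
      conv_rhs => rw [← b.sum_repr (redBased I 𝔪 q)]
      refine Finset.sum_congr rfl fun x _ => ?_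
      rw [redBased_smul, redBased_mk, hb, ← ha, bcMap_mk_one_tmul]
      rfl
    have hdiff : q - Finsupp.linearCombination B
        (fun j => (Ideal.Quotient.mk I ((1 : B) ⊗ₜ[k] v j) : (B ⊗[k] A) ⧸ I)) c ∈
        𝔪 • (⊤ : Submodule B ((B ⊗[k] A) ⧸ I)) := by
      apply mem_of_redBased_eq_zero
      rw [map_sub, hc, sub_self]
    rw [Submodule.mem_sup]
    exact ⟨_, ⟨c, rfl⟩, _, hdiff, by abel⟩


/-- **(FIB2)**, hypothesis on all field-valued points. -/
theorem isBased_of_forall_field_points (I : Ideal (B ⊗[k] A)) [Module.Finite B ((B ⊗[k] A) ⧸ I)]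
    [Module.Flat B ((B ⊗[k] A) ⧸ I)]
    (H : ∀ (K : Type u) [Field K] [Algebra k K] (ψ : B →ₐ[k] K),
      IsBased v (I.map (bcMap (A := A) ψ))) : IsBased v I := by
  apply isBased_of_forall_maximal
  intro 𝔪 h𝔪
  let _ : Field (B ⧸ 𝔪) := Ideal.Quotient.field 𝔪
  exact H (B ⧸ 𝔪) (Ideal.Quotient.mkₐ k 𝔪)

end Based

end

end Fermat.Agent.JAC
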