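/-
PROJECT JAC (S25) — (FIB), part 1 (helper7): **the fibrewise nonzerodivisor / flatness criterion
(LFC').**

`k` a field, `A` a `k`-algebra such that `K ⊗[k] A` is a domain for every field `K ⊇ k`
(geometrically integral), `B` ANY `k`-algebra (no noetherian hypothesis), `h f : B ⊗[k] A` such that
`f` is nonzero on every fibre `κ(𝔭) ⊗ A` on which `h` is nonzero:
`∀ 𝔭 prime, f ∈ 𝔭(B ⊗ A) → h ∈ 𝔭(B ⊗ A)`.  Then
* `exists_pow_smul_eq_zero_of_fibrewise_tensor` : for every `B`-module `X` the kernel of `f` on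
  `(B ⊗[k] A) ⊗[B] X` is `h`-power torsion;
* `exists_pow_mul_eq_zero_of_fibrewise_tensor` : after ANY base change `B → B'` the annihilator of
  `f` in `B' ⊗[k] A` is `h`-power torsion (`f` is a nonzerodivisor of `(B' ⊗ A)_h`);
* `flat_away_quotient_of_fibrewise_tensor` : `(B ⊗ A)_h ⧸ (f)` is flat over `B`;
* `flat_quotient_of_fibrewise_tensor` : the glued statement for an ideal `I` with local equations.

The proof is by Nakayama on the module generated by the coordinates of a killed element (no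
noetherian reduction): `exists_notMem_smul_eq_zero_of_fibre`, for any free `B`-algebra `R`.
-/
import Mathlib
import Fermat.Agent.JAC.HILB_helper7_CartierBC

set_option autoImplicit false

namespace Fermat.Agent.JAC

open TensorProduct

section Fibre

variable {B R : Type*} [CommRing B] [CommRing R] [Algebra B R]

/-- `R`-linearity of `lTensor R u`. -/
theorem lTensor_smul_left {X X' : Type*} [AddCommGroup X] [Module B X] [AddCommGroup X']
    [Module B X'] (u : X →ₗ[B] X') (r : R) (y : R ⊗[B] X) :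
    LinearMap.lTensor R u (r • y) = r • LinearMap.lTensor R u y := by
  induction y using TensorProduct.induction_on with
  | zero => simp
  | tmul r₁ x => simp [TensorProduct.smul_tmul']
  | add a b ha hb => simp [smul_add, ha, hb]

/-- coordinates with respect to a basis of the left factor are natural in the right factor. -/
theorem equivFinsuppOfBasisLeft_lTensor {ι : Type*} [DecidableEq ι] (e : Module.Basis ι B R)
    {X X' : Type*} [AddCommGroup X] [Module B X] [AddCommGroup X'] [Module B X']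
    (u : X →ₗ[B] X') (y : R ⊗[B] X) :
    TensorProduct.equivFinsuppOfBasisLeft e (LinearMap.lTensor R u y) =
      (TensorProduct.equivFinsuppOfBasisLeft e y).mapRange u (map_zero u) := by
  induction y using TensorProduct.induction_on with
  | zero => simp
  | tmul r x =>
    ext i
    simp
  | add a b ha hb =>
    rw [map_add, map_add, ha, hb]
    ext i
    simp

/-- torsion-freeness on the fibre: if `f` acts injectively on `R ⊗[B] K`, `K` a field, then it acts
injectively on `R ⊗[B] V` for every `K`-vector space `V`. -/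
theorem eq_zero_of_smul_eq_zero_of_vectorSpace {K : Type*} [Field K] [Algebra B K] (f : R)
    (hfK : ∀ t : R ⊗[B] K, f • t = 0 → t = 0) (V : Type*) [AddCommGroup V] [Module B V]
    [Module K V] [IsScalarTower B K V] (w : R ⊗[B] V) (hw : f • w = 0) : w = 0 := by
  classical
  let bV := Module.Basis.ofVectorSpace K V
  let θ : V ≃ₗ[B] (Module.Basis.ofVectorSpaceIndex K V →₀ K) := bV.repr.restrictScalars B
  let Θ : R ⊗[B] V ≃ₗ[R] (Module.Basis.ofVectorSpaceIndex K V →₀ R ⊗[B] K) :=
    (TensorProduct.AlgebraTensorModule.congr (LinearEquiv.refl R R) θ).trans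
      (TensorProduct.finsuppRight B R R K _)
  have h1 : Θ w = 0 := by
    ext j
    apply hfK
    rw [← Finsupp.smul_apply, ← map_smul, hw, map_zero]
    rfl
  exact Θ.injective (by rw [h1, map_zero])

/-- **local nonzerodivisor criterion on a fibre** (module form).  `R` a free `B`-algebra, `𝔭` a
prime of `B` such that `f` acts injectively on the fibre `R ⊗[B] κ(𝔭)`.  Then every element of
`R ⊗[B] X` killed by `f` is killed by some `s ∉ 𝔭`. -/
theorem exists_notMem_smul_eq_zero_of_fibre [Module.Free B R] (𝔭 : Ideal B) [𝔭.IsPrime] (f : R)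
    (hfK : ∀ t : R ⊗[B] 𝔭.ResidueField, f • t = 0 → t = 0)
    (X : Type*) [AddCommGroup X] [Module B X] (y : R ⊗[B] X) (hy : f • y = 0) :
    ∃ s : B, s ∉ 𝔭 ∧ s • y = 0 := by
  classical
  let e := Module.Free.chooseBasis B R
  set c := TensorProduct.equivFinsuppOfBasisLeft e y with hc
  -- the submodule generated by the coordinates of `y`
  let X₀ : Submodule B X := Submodule.span B (c '' (c.support : Set _))
  have hmem : ∀ i, c i ∈ X₀ := by
    intro i
    by_cases hi : i ∈ c.support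
    · exact Submodule.subset_span ⟨i, hi, rfl⟩
    · rw [Finsupp.notMem_support_iff.mp hi]
      exact X₀.zero_mem
  have hfin : Module.Finite B X₀ := by
    rw [Module.Finite.iff_fg]
    exact Submodule.fg_span ((Finset.finite_toSet c.support).image _)
  let c₀ : _ →₀ X₀ := Finsupp.onFinset c.support (fun i => ⟨c i, hmem i⟩) (by
    intro i hi
    rw [Finsupp.mem_support_iff]
    intro h0
    apply hi
    exact Subtype.ext h0)
  have hc₀ : c₀.mapRange X₀.subtype (map_zero _) = c := by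
    ext i
    rfl
  let y₀ : R ⊗[B] X₀ := (TensorProduct.equivFinsuppOfBasisLeft e).symm c₀
  have hy₀ : LinearMap.lTensor R X₀.subtype y₀ = y := by
    apply (TensorProduct.equivFinsuppOfBasisLeft e).injective
    rw [equivFinsuppOfBasisLeft_lTensor, LinearEquiv.apply_symm_apply, hc₀]
  have hfy₀ : f • y₀ = 0 := by
    have hinj : Function.Injective (LinearMap.lTensor R X₀.subtype) :=
      Module.Flat.lTensor_preserves_injective_linearMap _ X₀.subtype_injective
    apply hinj
    rw [lTensor_smul_left, hy₀, hy, map_zero]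
  -- pass to the fibre
  let u : X₀ →ₗ[B] 𝔭.ResidueField ⊗[B] X₀ := TensorProduct.mk B 𝔭.ResidueField X₀ 1
  have hybar : LinearMap.lTensor R u y₀ = 0 := by
    apply eq_zero_of_smul_eq_zero_of_vectorSpace f hfK
    rw [← lTensor_smul_left, hfy₀, map_zero]
  have hu : ∀ i, u (c₀ i) = 0 := by
    intro i
    have h1 := congrArg (TensorProduct.equivFinsuppOfBasisLeft e) hybar
    rw [equivFinsuppOfBasisLeft_lTensor, LinearEquiv.apply_symm_apply, map_zero] at h1
    have h2 := DFunLike.congr_fun h1 i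
    simpa using h2
  have hu' : ∀ x : X₀, u x = 0 := by
    rintro ⟨x, hx⟩
    refine Submodule.span_induction (p := fun x hx => u ⟨x, hx⟩ = 0) ?_ ?_ ?_ ?_ hx
    · rintro _ ⟨i, _, rfl⟩
      exact hu i
    · exact map_zero u
    · intro a b ha hb h1 h2
      have : (⟨a + b, X₀.add_mem ha hb⟩ : X₀) = ⟨a, ha⟩ + ⟨b, hb⟩ := rfl
      rw [this, map_add, h1, h2, add_zero]
    · intro a x hx h1
      have : (⟨a • x, X₀.smul_mem a hx⟩ : X₀) = a • ⟨x, hx⟩ := rfl
      rw [this, map_smul, h1, smul_zero]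
  have hsub : Subsingleton (𝔭.ResidueField ⊗[B] X₀) := by
    refine ⟨fun a b => ?_⟩
    have h0 : ∀ v : 𝔭.ResidueField ⊗[B] X₀, v = 0 := by
      intro v
      induction v using TensorProduct.induction_on with
      | zero => rfl
      | tmul a x =>
        have : a ⊗ₜ[B] x = a • u x := by
          show a ⊗ₜ[B] x = a • ((1 : 𝔭.ResidueField) ⊗ₜ[B] x)
          rw [TensorProduct.smul_tmul', smul_eq_mul, mul_one]
        rw [this, hu', smul_zero]
      | add a b ha hb => rw [ha, hb, add_zero]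
    rw [h0 a, h0 b]
  have hsupp : (⟨𝔭, inferInstance⟩ : PrimeSpectrum B) ∉ Module.support B X₀ := by
    rw [Module.mem_support_iff_nontrivial_residueField_tensorProduct]
    exact not_nontrivial _
  rw [Module.mem_support_iff_of_finite] at hsupp
  obtain ⟨s, hsann, hs𝔭⟩ := Set.not_subset.mp hsupp
  refine ⟨s, hs𝔭, ?_⟩
  apply (TensorProduct.equivFinsuppOfBasisLeft e).injective
  rw [map_smul, map_zero]
  ext i
  rw [Finsupp.smul_apply, Finsupp.zero_apply]
  have h1 : s • (⟨c i, hmem i⟩ : X₀) = 0 := Module.mem_annihilator.mp hsann _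
  exact congrArg Subtype.val h1

/-- if `h ∈ 𝔭R` for every prime `𝔭 ⊇ 𝔞` of `B` then a power of `h` lies in `𝔞R`. -/
theorem exists_pow_mem_map_of_forall_prime (𝔞 : Ideal B) (h : R)
    (H : ∀ 𝔭 : Ideal B, 𝔭.IsPrime → 𝔞 ≤ 𝔭 → h ∈ 𝔭.map (algebraMap B R)) :
    ∃ m : ℕ, h ^ m ∈ 𝔞.map (algebraMap B R) := by
  have hrad : h ∈ (𝔞.map (algebraMap B R)).radical := by
    rw [Ideal.radical_eq_sInf, Ideal.mem_sInf]
    rintro 𝔓 ⟨hle, h𝔓⟩
    have h1 : 𝔞 ≤ 𝔓.comap (algebraMap B R) := Ideal.map_le_iff_le_comap.mp hle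
    exact Ideal.map_comap_le (H _ (Ideal.comap_isPrime _ 𝔓) h1)
  exact hrad

/-- **fibrewise nonzerodivisor criterion** (module form).  `R` a free `B`-algebra, `h f : R` such
that for every prime `𝔭` of `B` either `h ∈ 𝔭R` or `f` acts injectively on the fibre
`R ⊗[B] κ(𝔭)`.  Then for every `B`-module `X` the kernel of `f` on `R ⊗[B] X` is `h`-power torsion. -/
theorem exists_pow_smul_eq_zero_of_fibrewise [Module.Free B R] (h f : R)
    (hfib : ∀ (𝔭 : Ideal B) [𝔭.IsPrime], h ∈ 𝔭.map (algebraMap B R) ∨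
      ∀ t : R ⊗[B] 𝔭.ResidueField, f • t = 0 → t = 0)
    (X : Type*) [AddCommGroup X] [Module B X] (y : R ⊗[B] X) (hy : f • y = 0) :
    ∃ m : ℕ, h ^ m • y = 0 := by
  -- the annihilator of `y` in `B`
  let 𝔞 : Ideal B := LinearMap.ker (LinearMap.toSpanSingleton B (R ⊗[B] X) y)
  have h𝔞 : ∀ b : B, b ∈ 𝔞 ↔ b • y = 0 := fun b => by
    simp [𝔞, LinearMap.mem_ker, LinearMap.toSpanSingleton_apply]
  obtain ⟨m, hm⟩ := exists_pow_mem_map_of_forall_prime (R := R) 𝔞 h (by
    intro 𝔭 h𝔭 hle
    rcases hfib 𝔭 with h1 | h1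
    · exact h1
    · obtain ⟨s, hs𝔭, hsy⟩ := exists_notMem_smul_eq_zero_of_fibre 𝔭 f h1 X y hy
      exact absurd (hle ((h𝔞 s).mpr hsy)) hs𝔭)
  refine ⟨m, ?_⟩
  -- the annihilator of `y` in `R`
  let 𝔄 : Ideal R := LinearMap.ker (LinearMap.toSpanSingleton R (R ⊗[B] X) y)
  have h𝔄 : ∀ r : R, r ∈ 𝔄 ↔ r • y = 0 := fun r => by
    simp [𝔄, LinearMap.mem_ker, LinearMap.toSpanSingleton_apply]
  have hle : 𝔞.map (algebraMap B R) ≤ 𝔄 := by
    rw [Ideal.map_le_iff_le_comap]
    intro b hb
    rw [Ideal.mem_comap, h𝔄, algebraMap_smul]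
    exact (h𝔞 b).mp hb
  exact (h𝔄 _).mp (hle hm)

/-- **flatness from the nonzerodivisor property modulo every ideal.**  `R` flat over `B`, and for
every ideal `𝔞` of `B` the kernel of `f` on `R ⊗[B] (B ⧸ 𝔞)` is `h`-power torsion.  Then
`R_h ⧸ (f)` is flat over `B`. -/
theorem flat_away_quotient_of_forall_smul [Module.Flat B R] (h f : R)
    (H : ∀ (𝔞 : Ideal B) (y : R ⊗[B] (B ⧸ 𝔞)), f • y = 0 → ∃ m : ℕ, h ^ m • y = 0) :
    Module.Flat B (Localization.Away h ⧸ Ideal.span {algebraMap R (Localization.Away h) f}) := by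
  rw [Module.Flat.iff_lTensor_injective']
  intro 𝔞
  let S := Localization.Away h
  let fS := algebraMap R S f
  let μ : S →ₗ[B] S := LinearMap.mulLeft B fS
  let p : S →ₗ[B] S ⧸ Ideal.span {fS} := (Ideal.Quotient.mkₐ B _).toLinearMap
  have hp : Function.Surjective p := Ideal.Quotient.mkₐ_surjective B _
  have hex : Function.Exact μ p := by
    intro s
    show Ideal.Quotient.mk _ s = 0 ↔ s ∈ Set.range μ
    rw [Ideal.Quotient.eq_zero_iff_mem, Ideal.mem_span_singleton']
    constructor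
    · rintro ⟨a, rfl⟩
      exact ⟨a, mul_comm _ _⟩
    · rintro ⟨a, rfl⟩
      exact ⟨a, mul_comm _ _⟩
  refine lTensor_injective_of_exact_of_exact_of_rTensor_injective hex hp
    (LinearMap.exact_subtype_mkQ 𝔞) 𝔞.mkQ_surjective ?_
    (Module.Flat.lTensor_preserves_injective_linearMap _ 𝔞.subtype_injective)
  -- `f` is injective on `S ⊗ (B ⧸ 𝔞)`
  let g : R →ₗ[R] S := Algebra.linearMap R S
  let G : R ⊗[B] (B ⧸ 𝔞) →ₗ[R] S ⊗[B] (B ⧸ 𝔞) := AlgebraTensorModule.rTensor B (B ⧸ 𝔞) g
  have hG : IsLocalizedModule (Submonoid.powers h) G := inferInstance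
  have hsm : ∀ w : S ⊗[B] (B ⧸ 𝔞), f • w = μ.rTensor (B ⧸ 𝔞) w := by
    intro w
    induction w using TensorProduct.induction_on with
    | zero => simp
    | tmul s x =>
      rw [TensorProduct.smul_tmul', LinearMap.rTensor_tmul]
      congr 1
      show f • s = algebraMap R S f * s
      rw [Algebra.smul_def]
    | add a b ha hb => rw [smul_add, ha, hb, map_add]
  rw [injective_iff_map_eq_zero]
  intro w hw
  rw [← hsm] at hw
  obtain ⟨⟨y, ⟨_, n, rfl⟩⟩, hys⟩ := IsLocalizedModule.surj (Submonoid.powers h) G w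
  replace hys : (h ^ n) • w = G y := hys
  have h1 : G (f • y) = 0 := by
    rw [map_smul, ← hys, smul_comm, hw, smul_zero]
  obtain ⟨⟨_, n', rfl⟩, hc⟩ := (IsLocalizedModule.eq_zero_iff (Submonoid.powers h) G).mp h1
  replace hc : (h ^ n') • f • y = 0 := hc
  have h2 : f • ((h ^ n') • y) = 0 := by rw [smul_comm]; exact hc
  obtain ⟨m, hm⟩ := H 𝔞 ((h ^ n') • y) h2
  have h3 : (h ^ m * h ^ n' * h ^ n) • w = 0 := by
    rw [mul_smul, hys, mul_smul, ← map_smul, ← map_smul, hm, map_zero]
  have h4 : (⟨h ^ m * h ^ n' * h ^ n, m + n' + n, by simp only [pow_add]⟩ :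
      Submonoid.powers h) • w = 0 := h3
  exact IsLocalizedModule.smul_injective G _ (h4.trans (smul_zero _).symm)

end Fibre

noncomputable section

section TensorLFC

universe u

variable {k : Type u} [Field k] {A : Type u} [CommRing A] [Algebra k A] {B : Type u} [CommRing B]
  [Algebra k B]

/-- the kernel of the base change map `B ⊗[k] A → B' ⊗[k] A` (`k` a field) is generated by the
kernel of `B → B'`. -/
theorem ker_bcMap_eq_map {B' : Type*} [CommRing B'] [Algebra k B'] (ψ : B →ₐ[k] B') :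
    RingHom.ker (Algebra.TensorProduct.map ψ (AlgHom.id k A)) =
      (RingHom.ker ψ).map (algebraMap B (B ⊗[k] A)) := by
  have hfac : ∀ x : B ⊗[k] A, Algebra.TensorProduct.map ψ (AlgHom.id k A) x =
      Algebra.TensorProduct.map (Ideal.kerLiftAlg ψ) (AlgHom.id k A)
        (Algebra.TensorProduct.map (Ideal.Quotient.mkₐ k (RingHom.ker ψ)) (AlgHom.id k A) x) := by
    intro x
    induction x using TensorProduct.induction_on with
    | zero => simp
    | tmul b a => simp
    | add x y hx hy => rw [map_add, map_add, map_add, hx, hy]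
  have hinj : Function.Injective
      (Algebra.TensorProduct.map (Ideal.kerLiftAlg ψ) (AlgHom.id k A)) := by
    have h1 : Function.Injective ((Ideal.kerLiftAlg ψ).toLinearMap.rTensor A) :=
      Module.Flat.rTensor_preserves_injective_linearMap _ (Ideal.kerLiftAlg_injective ψ)
    exact h1
  have hker := Algebra.TensorProduct.rTensor_ker (R := k) (C := A)
    (Ideal.Quotient.mkₐ k (RingHom.ker ψ)) (Ideal.Quotient.mkₐ_surjective k _)
  have hk2 : RingHom.ker (Ideal.Quotient.mkₐ k (RingHom.ker ψ)) = RingHom.ker ψ := by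
    ext b
    rw [RingHom.mem_ker]
    exact Ideal.Quotient.eq_zero_iff_mem
  rw [hk2] at hker
  ext x
  rw [RingHom.mem_ker, hfac, map_eq_zero_iff _ hinj, ← RingHom.mem_ker, hker]
  rfl

/-- the fibre hypothesis: if `f ∉ 𝔭(B ⊗ A)` and `κ(𝔭) ⊗ A` is a domain then `f` acts injectively
on the fibre. -/
theorem eq_zero_of_smul_eq_zero_fibre_tensor
    (hA : ∀ (K : Type u) [Field K] [Algebra k K], IsDomain (K ⊗[k] A))
    (𝔭 : Ideal B) [𝔭.IsPrime] (f : B ⊗[k] A) (hf : f ∉ 𝔭.map (algebraMap B (B ⊗[k] A)))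
    (t : (B ⊗[k] A) ⊗[B] 𝔭.ResidueField) (ht : f • t = 0) : t = 0 := by
  have hdom := hA 𝔭.ResidueField
  have h1 := congrArg (tensorBCEquiv (k := k) (A := A) (B := B) (B' := 𝔭.ResidueField)) ht
  rw [tensorBCEquiv_smul, map_zero] at h1
  rcases mul_eq_zero.mp h1 with h2 | h2
  · exfalso
    apply hf
    have h3 : f ∈ RingHom.ker (Algebra.TensorProduct.map
        (IsScalarTower.toAlgHom k B 𝔭.ResidueField) (AlgHom.id k A)) := h2
    rw [ker_bcMap_eq_map] at h3
    have h4 : RingHom.ker (IsScalarTower.toAlgHom k B 𝔭.ResidueField) = 𝔭 := by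
      ext b
      rw [RingHom.mem_ker]
      exact Ideal.algebraMap_residueField_eq_zero
    rw [h4] at h3
    exact h3
  · exact (tensorBCEquiv (k := k) (A := A) (B := B) (B' := 𝔭.ResidueField)).injective
      (by rw [h2, map_zero])

variable (hA : ∀ (K : Type u) [Field K] [Algebra k K], IsDomain (K ⊗[k] A))
  (h f : B ⊗[k] A)
  (hfib : ∀ (𝔭 : Ideal B) [𝔭.IsPrime], f ∈ 𝔭.map (algebraMap B (B ⊗[k] A)) →
    h ∈ 𝔭.map (algebraMap B (B ⊗[k] A)))

include hA hfib

/-- **(LFC') fibrewise nonzerodivisor criterion**, module form.  `A ⊗ K` a domain for every field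
`K ⊇ k`; `h f : B ⊗[k] A` such that `f` is nonzero on every fibre `κ(𝔭) ⊗ A` on which `h` is
nonzero.  Then for every `B`-module `X` the kernel of `f` on `(B ⊗[k] A) ⊗[B] X` is `h`-power
torsion. -/
theorem exists_pow_smul_eq_zero_of_fibrewise_tensor (X : Type*) [AddCommGroup X] [Module B X]
    (y : (B ⊗[k] A) ⊗[B] X) (hy : f • y = 0) : ∃ m : ℕ, h ^ m • y = 0 := by
  refine exists_pow_smul_eq_zero_of_fibrewise h f (fun 𝔭 _ => ?_) X y hy
  by_cases hf : f ∈ 𝔭.map (algebraMap B (B ⊗[k] A))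
  · exact Or.inl (hfib 𝔭 hf)
  · exact Or.inr (eq_zero_of_smul_eq_zero_fibre_tensor hA 𝔭 f hf)

/-- **(LFC')**, ring form after an arbitrary base change `φ : B →ₐ[k] B'`: the annihilator of the
image of `f` in `B' ⊗[k] A` is torsion for the powers of the image of `h`. -/
theorem exists_pow_mul_eq_zero_of_fibrewise_tensor {B' : Type*} [CommRing B'] [Algebra k B']
    (φ : B →ₐ[k] B') (y' : B' ⊗[k] A)
    (hy' : y' * Algebra.TensorProduct.map φ (AlgHom.id k A) f = 0) :
    ∃ m : ℕ, Algebra.TensorProduct.map φ (AlgHom.id k A) h ^ m * y' = 0 := by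
  let _ : Algebra B B' := φ.toRingHom.toAlgebra
  have : IsScalarTower k B B' := IsScalarTower.of_algebraMap_eq fun x => (φ.commutes x).symm
  have hφ : IsScalarTower.toAlgHom k B B' = φ := by
    ext x
    rfl
  obtain ⟨z, rfl⟩ := (tensorBCEquiv (k := k) (A := A) (B := B) (B' := B')).surjective y'
  have hz : f • z = 0 := by
    apply (tensorBCEquiv (k := k) (A := A) (B := B) (B' := B')).injective
    rw [tensorBCEquiv_smul, map_zero, mul_comm, hφ]
    exact hy'
  obtain ⟨m, hm⟩ := exists_pow_smul_eq_zero_of_fibrewise_tensor hA h f hfib B' z hz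
  refine ⟨m, ?_⟩
  rw [← map_pow, ← hφ, ← tensorBCEquiv_smul, hm, map_zero]

/-- **(LFC')**, in `B ⊗[k] A` itself. -/
theorem exists_pow_mul_eq_zero_of_fibrewise_tensor_self (y : B ⊗[k] A) (hy : y * f = 0) :
    ∃ m : ℕ, h ^ m * y = 0 := by
  have := exists_pow_mul_eq_zero_of_fibrewise_tensor hA h f hfib (AlgHom.id k B) y
  simp only [Algebra.TensorProduct.map_id, AlgHom.coe_id, id_eq] at this
  exact this hy

/-- **(LFC')**: `f` is a nonzerodivisor of `(B ⊗[k] A)_h`. -/
theorem algebraMap_away_mem_nonZeroDivisors_of_fibrewise_tensor :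
    algebraMap (B ⊗[k] A) (Localization.Away h) f ∈ nonZeroDivisors (Localization.Away h) :=
  algebraMap_away_mem_nonZeroDivisors_of_pow h f
    (exists_pow_mul_eq_zero_of_fibrewise_tensor_self hA h f hfib)

/-- **(LFC')**: `(B ⊗[k] A)_h ⧸ (f)` is flat over `B`. -/
theorem flat_away_quotient_of_fibrewise_tensor :
    Module.Flat B (Localization.Away h ⧸
      Ideal.span {algebraMap (B ⊗[k] A) (Localization.Away h) f}) :=
  flat_away_quotient_of_forall_smul h f fun 𝔞 y hy =>
    exists_pow_smul_eq_zero_of_fibrewise_tensor hA h f hfib (B ⧸ 𝔞) y hy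


omit hA hfib in
/-- membership in `𝔭(B ⊗ A)` is vanishing on the fibre at `𝔭`. -/
theorem mem_map_iff_bcMap_residueField_eq_zero (𝔭 : Ideal B) [𝔭.IsPrime] (x : B ⊗[k] A) :
    x ∈ 𝔭.map (algebraMap B (B ⊗[k] A)) ↔
      Algebra.TensorProduct.map (IsScalarTower.toAlgHom k B 𝔭.ResidueField) (AlgHom.id k A) x
        = 0 := by
  have h4 : RingHom.ker (IsScalarTower.toAlgHom k B 𝔭.ResidueField) = 𝔭 := by
    ext b
    rw [RingHom.mem_ker]
    exact Ideal.algebraMap_residueField_eq_zero
  rw [← RingHom.mem_ker, ker_bcMap_eq_map, h4]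

omit hA hfib in
/-- the fibre hypothesis of (LFC') from field-valued points. -/
theorem mem_map_of_forall_field_points
    (H : ∀ (K : Type u) [Field K] [Algebra k K] (ψ : B →ₐ[k] K),
      Algebra.TensorProduct.map ψ (AlgHom.id k A) f = 0 →
      Algebra.TensorProduct.map ψ (AlgHom.id k A) h = 0)
    (𝔭 : Ideal B) [𝔭.IsPrime] (hf : f ∈ 𝔭.map (algebraMap B (B ⊗[k] A))) :
    h ∈ 𝔭.map (algebraMap B (B ⊗[k] A)) := by
  have h4 : RingHom.ker (IsScalarTower.toAlgHom k B 𝔭.ResidueField) = 𝔭 := by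
    ext b
    rw [RingHom.mem_ker]
    exact Ideal.algebraMap_residueField_eq_zero
  have e : ∀ x : B ⊗[k] A, x ∈ 𝔭.map (algebraMap B (B ⊗[k] A)) ↔
      Algebra.TensorProduct.map (IsScalarTower.toAlgHom k B 𝔭.ResidueField) (AlgHom.id k A) x
        = 0 := fun x => by
    rw [← RingHom.mem_ker, ker_bcMap_eq_map, h4]
  rw [e] at hf ⊢
  exact H _ _ hf

omit hfib in
/-- **(LFC'), glued**: an ideal `I ⊂ B ⊗[k] A` which on each member `D(h α)` of a cover is
generated by an `f α` that is nonzero on the fibres has `B`-flat quotient. -/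
theorem flat_quotient_of_fibrewise_tensor (I : Ideal (B ⊗[k] A)) {n : ℕ}
    (h f : Fin n → B ⊗[k] A) (hspan : Ideal.span (Set.range h) = ⊤)
    (hI : ∀ α, I.map (algebraMap (B ⊗[k] A) (Localization.Away (h α))) =
      Ideal.span {algebraMap (B ⊗[k] A) (Localization.Away (h α)) (f α)})
    (hfib : ∀ (α : Fin n) (𝔭 : Ideal B) [𝔭.IsPrime], f α ∈ 𝔭.map (algebraMap B (B ⊗[k] A)) →
      h α ∈ 𝔭.map (algebraMap B (B ⊗[k] A))) :
    Module.Flat B ((B ⊗[k] A) ⧸ I) := by
  refine Module.flat_of_isLocalized_span (R := B) (S := B ⊗[k] A) ((B ⊗[k] A) ⧸ I)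
    (Set.range h) hspan
    (fun r => Localization.Away r.1 ⧸ I.map (algebraMap (B ⊗[k] A) (Localization.Away r.1)))
    (fun r => (IsScalarTower.toAlgHom (B ⊗[k] A) ((B ⊗[k] A) ⧸ I)
      (Localization.Away r.1 ⧸
        I.map (algebraMap (B ⊗[k] A) (Localization.Away r.1)))).toLinearMap) ?_
  rintro ⟨_, α, rfl⟩
  show Module.Flat B (Localization.Away (h α) ⧸
    I.map (algebraMap (B ⊗[k] A) (Localization.Away (h α))))
  rw [hI α]
  exact flat_away_quotient_of_fibrewise_tensor hA (h α) (f α) (hfib α)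

end TensorLFC

end

end Fermat.Agent.JAC
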