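/-
PROJECT JAC (S25) — helper5 — (P): **Cartier data of the zero ideal of a section, from a partition
of unity** (no regularity needed for the data; regularity gives `IsCartierData`).

For ANY line bundle `L` with a global section `σ` on a scheme `Y` and an affine open `W`:
* `LB.exists_compat_data` (CD0) : there are finitely many `h α, f α ∈ Γ(Y, W)` with
  `span (range h) = ⊤`, `f α ∈ zeroIdeal σ W` and `L.IsCompat σ h f` (on every `L.U i ⊓ D(h α)` the
  component `σ i` and `f α` are unit multiples of each other);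
* `LB.isNZDOn_of_isCompat` : if `σ` is regular then every `f α` is regular on `D(h α)`;
* `LB.isRegSection_of_isCompat` : conversely, if every `f α` is regular on `D(h α)` and `σ` is a unit
  off `W`, then `σ` is regular;
* `LB.isCartierData_of_isCompat` (CD1) : if every `f α` is regular on `D(h α)` then
  `IsCartierData (zeroIdeal σ W) h f`;
* `LB.exists_isCartierData_zeroIdeal` : both together for a regular section.
-/
import Mathlib
import Fermat.Agent.JAC.HILB_lead_ZeroIdeal

set_option autoImplicit false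

open AlgebraicGeometry CategoryTheory Opposite TopologicalSpace

universe u

namespace Fermat.Agent.AV.LB

open Fermat.Agent.JAC

noncomputable section

variable {Y : Scheme.{u}}

/-- **(CD0)** compatible local equations of a section on an affine open, from a partition of
unity; no regularity is needed. -/
theorem exists_compat_data (L : LB Y) (σ : L.H0) {W : Y.Opens} (hW : IsAffineOpen W) :
    ∃ (n : ℕ) (h f : Fin n → Γ(Y, W)), Ideal.span (Set.range h) = ⊤ ∧
      (∀ α, f α ∈ L.zeroIdeal σ W) ∧ L.IsCompat σ h f := by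
  classical
  obtain ⟨β, hβ, m, τ, hsum⟩ := L.exists_partition_of_unity hW
  let e : β ≃ Fin (Fintype.card β) := Fintype.equivFin β
  refine ⟨Fintype.card β, fun α => SecOn.pairing (τ (e.symm α)) (m (e.symm α)),
    fun α => SecOn.pairing (τ (e.symm α)) (L.secOnOfH0 σ W), ?_, ?_, ?_⟩
  · rw [Ideal.eq_top_iff_one, ← hsum]
    refine Ideal.sum_mem _ (fun b _ => Ideal.subset_span ⟨e b, ?_⟩)
    show SecOn.pairing (τ (e.symm (e b))) (m (e.symm (e b))) = _
    rw [Equiv.symm_apply_apply]
  · intro α
    exact L.pairing_mem_zeroIdeal σ W _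
  · intro i α
    set b := e.symm α with hb
    set hh : Γ(Y, W) := SecOn.pairing (τ b) (m b) with hhh
    set V := L.U i ⊓ Y.basicOpen hh with hV
    have hVi : V ≤ L.U i := inf_le_left
    have hVW : V ≤ W := inf_le_right.trans (Y.basicOpen_le _)
    -- `hh` is a unit on `V`
    have hu : IsUnit (res V hVW hh) := by
      rw [isUnit_iff_le_basicOpen, basicOpen_res']
      exact le_inf le_rfl inf_le_right
    obtain ⟨hinv, hhinv⟩ := hu.exists_right_inv
    have h1 : res V hVW hh =
        res V (le_inf hVi hVW) ((τ b).invComp i) * res V (le_inf hVi hVW) ((m b).s i) :=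
      SecOn.res_pairing' (τ b) (m b) i V hVi hVW
    have h2 : res V hVW (SecOn.pairing (τ b) (L.secOnOfH0 σ W)) =
        res V (le_inf hVi hVW) ((τ b).invComp i) * res V hVi (σ.1 i) := by
      rw [SecOn.res_pairing' (τ b) (L.secOnOfH0 σ W) i V hVi hVW, secOnOfH0_s, res_res]
    refine ⟨res V (le_inf hVi hVW) ((m b).s i) * hinv,
      res V (le_inf hVi hVW) ((τ b).invComp i), ?_, ?_⟩
    · calc res V (le_inf hVi hVW) ((m b).s i) * hinv * res V (le_inf hVi hVW) ((τ b).invComp i)
          = (res V (le_inf hVi hVW) ((τ b).invComp i) * res V (le_inf hVi hVW) ((m b).s i)) *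
              hinv := by ring
        _ = 1 := by rw [← h1, hhinv]
    · show res V hVi (σ.1 i) = _ * res V hVW (SecOn.pairing (τ b) (L.secOnOfH0 σ W))
      rw [h2]
      calc res V hVi (σ.1 i) = (res V hVW hh * hinv) * res V hVi (σ.1 i) := by
            rw [hhinv, one_mul]
        _ = _ := by rw [h1]; ring

variable {W : Y.Opens} {n : ℕ} {h f : Fin n → Γ(Y, W)}

/-- if `σ` is regular, the compatible local equations are regular on `D(h α)`. -/
theorem isNZDOn_of_isCompat (L : LB Y) (σ : L.H0) (hσ : L.IsRegSection σ)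
    (hc : L.IsCompat σ h f) (α : Fin n) :
    IsNZDOn (Y.basicOpen (h α)) (res (Y.basicOpen (h α)) (Y.basicOpen_le _) (f α)) := by
  refine isNZDOn_of_cover (V := Y.basicOpen (h α)) (fun i : L.ι => L.U i ⊓ Y.basicOpen (h α))
    (fun i => inf_le_right) ?_ _ ?_
  · intro x hx
    have : x ∈ (⊤ : Y.Opens) := True.intro
    rw [← L.iSup_U] at this
    obtain ⟨i, hi⟩ := Opens.mem_iSup.mp this
    exact Opens.mem_iSup.mpr ⟨i, ⟨hi, hx⟩⟩
  · intro i
    obtain ⟨u, u', huu', hu⟩ := hc i α
    rw [res_res]
    -- `f α = u' * σ i`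
    have hf : res (L.U i ⊓ Y.basicOpen (h α)) (inf_le_right.trans (Y.basicOpen_le _)) (f α) =
        u' * res (L.U i ⊓ Y.basicOpen (h α)) inf_le_left (σ.1 i) := by
      rw [hu, ← mul_assoc, mul_comm u' u, huu', one_mul]
    rw [hf]
    intro V hV a ha
    have hnz := (hσ i).restrict (inf_le_left : L.U i ⊓ Y.basicOpen (h α) ≤ L.U i)
    rw [map_mul, mul_assoc] at ha
    have hunit : IsUnit (res V hV u') :=
      (IsUnit.of_mul_eq_one _ (by rw [mul_comm]; exact huu')).map _
    exact hnz V hV a ((hunit.mul_right_eq_zero).mp ha)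

/-- conversely: if the compatible local equations are regular on `D(h α)`, the `D(h α)` cover `W`
and `σ` is a unit off `W`, then `σ` is a regular section. -/
theorem isRegSection_of_isCompat (L : LB Y) (σ : L.H0) (hW : IsAffineOpen W)
    (hspan : Ideal.span (Set.range h) = ⊤) (hc : L.IsCompat σ h f)
    (hnzd : ∀ α, IsNZDOn (Y.basicOpen (h α)) (res (Y.basicOpen (h α)) (Y.basicOpen_le _) (f α)))
    {W' : Y.Opens} (hWW' : W ⊔ W' = ⊤)
    (hu : ∀ i, IsUnit (res (L.U i ⊓ W') inf_le_left (σ.1 i))) : L.IsRegSection σ := by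
  intro i
  have hcov : ⨆ α, Y.basicOpen (h α) = W := by
    apply le_antisymm
    · exact iSup_le fun α => Y.basicOpen_le _
    · have h' := (hW.self_le_iSup_basicOpen_iff (s := Set.range h)).mpr hspan
      refine h'.trans (iSup_le ?_)
      rintro ⟨_, α, rfl⟩
      exact le_iSup_of_le α le_rfl
  refine isNZDOn_of_cover (V := L.U i)
    (fun b : Option (Fin n) => match b with
      | none => L.U i ⊓ W'
      | some α => L.U i ⊓ Y.basicOpen (h α))
    (fun b => by cases b <;> exact inf_le_left) ?_ _ ?_
  · intro x hx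
    have hx' : x ∈ W ⊔ W' := by rw [hWW']; trivial
    rcases hx' with hxW | hxW'
    · rw [← hcov] at hxW
      obtain ⟨α, hα⟩ := Opens.mem_iSup.mp hxW
      exact Opens.mem_iSup.mpr ⟨some α, ⟨hx, hα⟩⟩
    · exact Opens.mem_iSup.mpr ⟨none, ⟨hx, hxW'⟩⟩
  · rintro (_ | α)
    · exact isNZDOn_of_isUnit (hu i)
    · obtain ⟨u, u', huu', hu'⟩ := hc i α
      show IsNZDOn _ (res _ _ (σ.1 i))
      rw [hu']
      intro V hV b hb
      have hnz := (hnzd α).restrict
        (inf_le_right : L.U i ⊓ Y.basicOpen (h α) ≤ Y.basicOpen (h α))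
      rw [res_res] at hnz
      rw [map_mul, mul_assoc] at hb
      have hunit : IsUnit (res V hV u) := (IsUnit.of_mul_eq_one _ huu').map _
      exact hnz V hV b ((hunit.mul_right_eq_zero).mp hb)

/-- **(CD1)** compatible local equations which are regular on `D(h α)` are Cartier data of the zero
ideal. -/
theorem isCartierData_of_isCompat (L : LB Y) (σ : L.H0) (hW : IsAffineOpen W)
    (hspan : Ideal.span (Set.range h) = ⊤) (hmem : ∀ α, f α ∈ L.zeroIdeal σ W)
    (hc : L.IsCompat σ h f)
    (hnzd : ∀ α, IsNZDOn (Y.basicOpen (h α)) (res (Y.basicOpen (h α)) (Y.basicOpen_le _) (f α))) :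
    IsCartierData (L.zeroIdeal σ W) h f where
  span_eq_top := hspan
  mem := hmem
  gen := fun α x hx => by
    set D := Y.basicOpen (h α) with hD
    have hDW : D ≤ W := Y.basicOpen_le _
    -- `x = c * f α` on `D(h α)`
    have key : ∀ i : L.ι, ∃ c : Γ(Y, L.U i ⊓ D),
        res (L.U i ⊓ D) inf_le_right (res D hDW x) =
          c * res (L.U i ⊓ D) inf_le_right (res D hDW (f α)) := by
      intro i
      obtain ⟨u, u', huu', hu⟩ := hc i α
      obtain ⟨a, ha⟩ := L.mem_zeroIdeal' σ hx i (L.U i ⊓ D) inf_le_left (inf_le_right.trans hDW)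
      refine ⟨a * u, ?_⟩
      rw [res_res, res_res, ha, hu, mul_assoc]
    obtain ⟨c, hc'⟩ := exists_mul_of_cover (V := D) (fun i : L.ι => L.U i ⊓ D)
      (fun i => inf_le_right)
      (by
        intro y hy
        have : y ∈ (⊤ : Y.Opens) := True.intro
        rw [← L.iSup_U] at this
        obtain ⟨i, hi⟩ := Opens.mem_iSup.mp this
        exact Opens.mem_iSup.mpr ⟨i, ⟨hi, hy⟩⟩)
      (res D hDW (f α)) (res D hDW x) (hnzd α) key
    -- clear the denominator of `c`
    obtain ⟨k, c', hc''⟩ := exists_eq_pow_mul_of_isAffineOpen Y W hW (h α) c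
    have hc3 : res D hDW c' = res D hDW (h α) ^ k * c := hc''
    have h1 : res D hDW (h α ^ k * x - c' * f α) = 0 := by
      rw [map_sub, map_mul, map_mul, map_pow, hc', hc3]
      ring
    obtain ⟨k', hk'⟩ := exists_pow_mul_eq_zero_of_res_basicOpen_eq_zero_of_isAffineOpen Y hW
      (h α ^ k * x - c' * f α) (h α) h1
    refine ⟨k' + k, h α ^ k' * c', ?_⟩
    rw [mul_sub] at hk'
    have := sub_eq_zero.mp hk'
    rw [pow_add, mul_assoc, this, mul_assoc]
  nzd := fun α y hy => by
    set D := Y.basicOpen (h α) with hD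
    have hDW : D ≤ W := Y.basicOpen_le _
    have h1 : res D hDW y = 0 := by
      refine hnzd α D le_rfl _ ?_
      have h2 := congrArg (res D hDW) hy
      rw [map_mul, map_zero] at h2
      rw [res_self, mul_comm]
      exact h2
    exact exists_pow_mul_eq_zero_of_res_basicOpen_eq_zero_of_isAffineOpen Y hW y (h α) h1

/-- **the zero ideal of a regular section on an affine open has Cartier data**, compatible with the
section. -/
theorem exists_isCartierData_zeroIdeal (L : LB Y) (σ : L.H0) (hσ : L.IsRegSection σ)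
    (hW : IsAffineOpen W) :
    ∃ (n : ℕ) (h f : Fin n → Γ(Y, W)), IsCartierData (L.zeroIdeal σ W) h f ∧
      L.IsCompat σ h f := by
  obtain ⟨n, h, f, hspan, hmem, hc⟩ := L.exists_compat_data σ hW
  exact ⟨n, h, f, L.isCartierData_of_isCompat σ hW hspan hmem hc
    (fun α => L.isNZDOn_of_isCompat σ hσ hc α), hc⟩

end

end Fermat.Agent.AV.LB
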