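/-
PROJECT JAC (S25) — (FIB), part 4 (helper7): **the geometric wrapper of (LFC').**

Setting of lead's (H): `Y = C ×_K T`, `T` affine, `U ⊆ C` affine open, `W₀ = p₁⁻¹U`,
`κ_U = CP.kunneth H hU : Γ(T,⊤) ⊗[K] Γ(C,U) ≃+* Γ(Y, W₀)`.  `L : LB Y`, `σ : L.H0` a section which is
NONZERO ON EVERY FIBRE of `p₂` (e.g. a universal generator, helper5's `IsUnivGen`), a unit off `W₀`;
`C` geometrically integral over `K` (Mathlib's `GeometricallyIntegral`, helper4's (GI)) and
`hA : κ ⊗[K] Γ(C,U)` a domain for every field `κ ⊇ K` (helper4's `GI_helper4_Tensor`).  Then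
* `isRegSection_and_flat_of_fibrewise_ne_zero` / `isRegSection_and_flat_of_isUnivGen` :
  `σ` is a regular section, and `zeroIdeal σ W₀ = kunIdeal H hU I` for an ideal `I` with
  `Γ(T,⊤)`-FLAT quotient and Cartier data `(h, f)` compatible with `σ` — exactly the hypotheses of
  lead's `zeroIdeal_pullback`.
Route: helper5's regularity-free compatible data (CD0) on `W₀`, transported by `κ_U⁻¹`; the fibre
hypothesis of my (LFC') is checked on the integral fibre `Y_z` over the residue field of a prime of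
`Γ(T,⊤)` (`mem_map_of_fibrewise_ne_zero`, via naturality of Künneth `app_kunneth`); (LFC') gives
regularity of `f α` on `D(h α)`; helper5's `isRegSection_of_isCompat` / `isCartierData_of_isCompat`
and my `flat_quotient_of_fibrewise_tensor` conclude.
-/
import Mathlib
import Fermat.Agent.JAC.HILB_lead_Chart
import Fermat.Agent.JAC.P_helper5_CartierData
import Fermat.Agent.JAC.P_helper5_UnivGen
import Fermat.Agent.JAC.FIB_helper7_LFC

set_option autoImplicit false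
set_option linter.style.haveILetI false

open AlgebraicGeometry CategoryTheory CategoryTheory.Limits Opposite TopologicalSpace TensorProduct

universe u

namespace Fermat.Agent.JAC

open Fermat.Agent.AV Fermat.Agent.AV.CP

noncomputable section

/-- the morphism `Spec κ ⟶ T` (`T` affine) attached to a ring homomorphism `Γ(T,⊤) → κ`. -/
def pointOfRingHom {T : Scheme.{u}} [IsAffine T] {κ : Type u} [CommRing κ]
    (φ : Γ(T, ⊤) →+* κ) : Spec (CommRingCat.of κ) ⟶ T :=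
  Spec.map (CommRingCat.ofHom φ) ≫ T.isoSpec.inv

theorem pointOfRingHom_appTop {T : Scheme.{u}} [IsAffine T] {κ : Type u} [CommRing κ]
    (φ : Γ(T, ⊤) →+* κ) :
    (pointOfRingHom φ).appTop = CommRingCat.ofHom φ ≫ (Scheme.ΓSpecIso (CommRingCat.of κ)).inv := by
  have h0 : T.isoSpec.hom.appTop = (Scheme.ΓSpecIso Γ(T, ⊤)).hom := by
    simp [Scheme.isoSpec_hom, Scheme.toSpecΓ_appTop]
  have h1 : T.isoSpec.inv.appTop = (Scheme.ΓSpecIso Γ(T, ⊤)).inv := by
    have h2 : T.isoSpec.inv.appTop ≫ T.isoSpec.hom.appTop = 𝟙 _ := by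
      rw [← Scheme.Hom.comp_appTop, Iso.hom_inv_id]
      rfl
    rw [h0] at h2
    exact (Iso.comp_hom_eq_id _).mp h2
  rw [pointOfRingHom, Scheme.Hom.comp_appTop, h1]
  exact (Scheme.ΓSpecIso_inv_naturality (CommRingCat.ofHom φ)).symm

theorem pointOfRingHom_appTop_eq_zero_iff {T : Scheme.{u}} [IsAffine T] {κ : Type u} [CommRing κ]
    (φ : Γ(T, ⊤) →+* κ) (b : Γ(T, ⊤)) :
    (pointOfRingHom φ).appTop.hom b = 0 ↔ φ b = 0 := by
  rw [pointOfRingHom_appTop]
  have hinj : Function.Injective (Scheme.ΓSpecIso (CommRingCat.of κ)).inv.hom :=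
    (ConcreteCategory.bijective_of_isIso (Scheme.ΓSpecIso (CommRingCat.of κ)).inv).1
  constructor
  · intro h
    apply hinj
    rw [map_zero]
    exact h
  · intro h
    show (Scheme.ΓSpecIso (CommRingCat.of κ)).inv.hom (φ b) = 0
    rw [h, map_zero]

/-- on an integral scheme, a global section of a line bundle which vanishes on a nonempty open
vanishes. -/
theorem LB_eq_zero_of_res_eq_zero_of_isIntegral {Z : Scheme.{u}} [IsIntegral Z] (M : LB Z)
    (s : M.H0) (D : Z.Opens) (hD : (D : Set Z).Nonempty)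
    (h : ∀ i, res (M.U i ⊓ D) inf_le_left (s.1 i) = 0) : s = 0 := by
  apply Subtype.ext
  funext i
  show s.1 i = 0
  by_cases hi : (M.U i : Set Z).Nonempty
  · have hne : ((M.U i : Set Z) ∩ (D : Set Z)).Nonempty :=
      nonempty_preirreducible_inter (M.U i).isOpen D.isOpen hi hD
    obtain ⟨x, hx⟩ := hne
    have hinj := @map_injective_of_isIntegral Z _ _ _
      (homOfLE (inf_le_left : M.U i ⊓ D ≤ M.U i)) ⟨⟨x, hx⟩⟩
    apply hinj
    rw [map_zero]
    exact h i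
  · have hbot : M.U i = ⊥ := by
      ext x
      simp only [Opens.coe_bot, Set.mem_empty_iff_false, iff_false]
      intro hx
      exact hi ⟨x, hx⟩
    have hsub : Subsingleton Γ(Z, M.U i) := by
      rw [hbot]
      infer_instance
    exact Subsingleton.elim _ _

/-- **the fibre step**: on an integral scheme `Z` over `Y`, if the pulled-back section is nonzero
then a pulled-back local equation `f α` can only vanish if `h α` does. -/
theorem app_eq_zero_of_isCompat_of_isIntegral {Y Z : Scheme.{u}} [IsIntegral Z] (ψ : Z ⟶ Y)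
    (L : LB Y) (σ : L.H0) {W : Y.Opens} {n : ℕ} {h f : Fin n → Γ(Y, W)}
    (hc : L.IsCompat σ h f) (hσ : L.pullbackSection ψ σ ≠ 0) (α : Fin n)
    (hf : (ψ.app W).hom (f α) = 0) : (ψ.app W).hom (h α) = 0 := by
  by_contra hh
  apply hσ
  have hD : ((Z.basicOpen ((ψ.app W).hom (h α)) : Z.Opens) : Set Z).Nonempty := by
    rw [← Opens.nonempty_coeSort, Opens.nonempty_coeSort, Set.nonempty_iff_ne_empty]
    intro h0
    apply hh
    rw [← basicOpen_eq_bot_iff]
    ext x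
    simp [h0]
  refine LB_eq_zero_of_res_eq_zero_of_isIntegral (L.pullback ψ) (L.pullbackSection ψ σ)
    (Z.basicOpen ((ψ.app W).hom (h α))) hD (fun i => ?_)
  obtain ⟨u, u', -, hu⟩ := LB.isCompat_pullback ψ L σ hc i α
  have hu' : res ((L.pullback ψ).U i ⊓ Z.basicOpen ((ψ.app W).hom (h α))) inf_le_left
      ((L.pullbackSection ψ σ).1 i) = u * res _ _ ((ψ.app W).hom (f α)) := hu
  rw [hu', hf, map_zero, mul_zero]

variable {K : Type u} [Field K] {C T Y : Scheme.{u}} [KScheme K C] [KScheme K T] [IsAffine T]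
  {p₁ : Y ⟶ C} {p₂ : Y ⟶ T}
  (H : IsPullback p₁ p₂ (KScheme.str (K := K)) (KScheme.str (K := K)))
  {U : C.Opens} (hU : IsAffineOpen U)

/-- the fibre step through Künneth, for a general base change `z : T' ⟶ T` with integral total
space. -/
theorem mem_map_ker_of_pullbackSection_ne_zero {T' Y' : Scheme.{u}} [KScheme K T'] [IsAffine T']
    [IsIntegral Y'] (z : T' ⟶ T) (hz : z ≫ KScheme.str (K := K) = KScheme.str) (q : Y' ⟶ T')
    (ψ : Y' ⟶ Y) (H' : IsPullback (ψ ≫ p₁) q (KScheme.str (K := K)) (KScheme.str (K := K)))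
    (hψ : ψ ≫ p₂ = q ≫ z) (L : LB Y) (σ : L.H0) (hσ : L.pullbackSection ψ σ ≠ 0)
    {n : ℕ} {h f : Fin n → Γ(Y, p₁ ⁻¹ᵁ U)} (hc : L.IsCompat σ h f) (α : Fin n)
    (hf : (kunneth H hU).symm (f α) ∈ (RingHom.ker (appTopAlgHom (K := K) z hz)).map
      (algebraMap Γ(T, ⊤) (Γ(T, ⊤) ⊗[K] Γ(C, U)))) :
    (kunneth H hU).symm (h α) ∈ (RingHom.ker (appTopAlgHom (K := K) z hz)).map
      (algebraMap Γ(T, ⊤) (Γ(T, ⊤) ⊗[K] Γ(C, U))) := by
  have hk := ker_bcMap_eq_map (k := K) (A := Γ(C, U)) (appTopAlgHom (K := K) z hz)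
  rw [← hk, RingHom.mem_ker] at hf ⊢
  have hnat := fun x => app_kunneth H z hz q ψ H' hψ hU x
  have h1 : (ψ.app (p₁ ⁻¹ᵁ U)).hom (f α) = 0 := by
    have h2 := hnat ((kunneth H hU).symm (f α))
    rw [RingEquiv.apply_symm_apply, hf, map_zero] at h2
    exact h2
  have h3 := app_eq_zero_of_isCompat_of_isIntegral ψ L σ hc hσ α h1
  have h4 := hnat ((kunneth H hU).symm (h α))
  rw [RingEquiv.apply_symm_apply, h3] at h4
  exact (kunneth H' hU).injective (h4.symm.trans (map_zero (kunneth H' hU)).symm)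

/-- **geometric ⇒ algebraic fibre hypothesis.**  If `σ` is nonzero on every fibre of `p₂` and the
fibres are integral, then compatible local equations `(h α, f α)` of `σ` on `p₁⁻¹U` satisfy the
fibre hypothesis of (LFC') through the Künneth isomorphism. -/
theorem mem_map_of_fibrewise_ne_zero [GeometricallyIntegral (KScheme.str (K := K) (X := C))]
    (L : LB Y) (σ : L.H0)
    (hfib : ∀ (κ : Type u) [Field κ] (z : Spec (CommRingCat.of κ) ⟶ T) {Y_z : Scheme.{u}}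
      (ψ : Y_z ⟶ Y) (q_z : Y_z ⟶ Spec (CommRingCat.of κ)), IsPullback ψ q_z p₂ z →
      L.pullbackSection ψ σ ≠ 0)
    {n : ℕ} {h f : Fin n → Γ(Y, p₁ ⁻¹ᵁ U)} (hc : L.IsCompat σ h f) (α : Fin n)
    (𝔭 : Ideal Γ(T, ⊤)) [𝔭.IsPrime]
    (hf : (kunneth H hU).symm (f α) ∈
      𝔭.map (algebraMap Γ(T, ⊤) (Γ(T, ⊤) ⊗[K] Γ(C, U)))) :
    (kunneth H hU).symm (h α) ∈ 𝔭.map (algebraMap Γ(T, ⊤) (Γ(T, ⊤) ⊗[K] Γ(C, U))) := by
  classical
  let φ : Γ(T, ⊤) →+* 𝔭.ResidueField := algebraMap Γ(T, ⊤) 𝔭.ResidueField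
  let z : Spec (CommRingCat.of 𝔭.ResidueField) ⟶ T := pointOfRingHom φ
  letI : KScheme K (Spec (CommRingCat.of 𝔭.ResidueField)) := ⟨z ≫ KScheme.str⟩
  have hz : z ≫ KScheme.str (K := K) = KScheme.str := rfl
  have sq : IsPullback (pullback.fst p₂ z) (pullback.snd p₂ z) p₂ z :=
    IsPullback.of_hasPullback p₂ z
  have H' : IsPullback (pullback.fst p₂ z ≫ p₁) (pullback.snd p₂ z) (KScheme.str (K := K))
      (KScheme.str (K := K)) := sq.paste_horiz H
  haveI : IsIntegral (pullback p₂ z) :=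
    GeometricallyIntegral.geometrically_isIntegral (f := KScheme.str (K := K) (X := C))
      (z ≫ KScheme.str) (pullback.fst p₂ z ≫ p₁) (pullback.snd p₂ z) H'
  have hσ := hfib 𝔭.ResidueField z (pullback.fst p₂ z) (pullback.snd p₂ z) sq
  have hker : RingHom.ker (appTopAlgHom (K := K) z hz) = 𝔭 := by
    ext b
    rw [RingHom.mem_ker]
    show z.appTop.hom b = 0 ↔ _
    rw [pointOfRingHom_appTop_eq_zero_iff]
    exact Ideal.algebraMap_residueField_eq_zero
  have key := mem_map_ker_of_pullbackSection_ne_zero H hU z hz (pullback.snd p₂ z)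
    (pullback.fst p₂ z) H' sq.w L σ hσ hc α
  rw [hker] at key
  exact key hf

/-- **(LFC), geometric form.**  `Y = C ×_K T`, `T` affine, `C` geometrically integral with
`κ ⊗[K] Γ(C,U)` a domain for every field `κ ⊇ K`; `σ` a section of a line bundle `L` on `Y` which
is nonzero on every fibre of `p₂` and a unit off `p₁⁻¹U`.  Then `σ` is a regular section, and its
zero ideal on `p₁⁻¹U` is the Künneth image of an ideal `I ⊆ Γ(T,⊤) ⊗ Γ(C,U)` with `Γ(T,⊤)`-flat
quotient and Cartier data (the hypotheses of `zeroIdeal_pullback`). -/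
theorem isRegSection_and_flat_of_fibrewise_ne_zero
    [GeometricallyIntegral (KScheme.str (K := K) (X := C))]
    (hA : ∀ (κ : Type u) [Field κ] [Algebra K κ], IsDomain (κ ⊗[K] Γ(C, U)))
    (L : LB Y) (σ : L.H0)
    (hfib : ∀ (κ : Type u) [Field κ] (z : Spec (CommRingCat.of κ) ⟶ T) {Y_z : Scheme.{u}}
      (ψ : Y_z ⟶ Y) (q_z : Y_z ⟶ Spec (CommRingCat.of κ)), IsPullback ψ q_z p₂ z →
      L.pullbackSection ψ σ ≠ 0)
    {W' : Y.Opens} (hWW' : p₁ ⁻¹ᵁ U ⊔ W' = ⊤)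
    (hu : ∀ i, IsUnit (res (L.U i ⊓ W') inf_le_left (σ.1 i))) :
    L.IsRegSection σ ∧ ∃ I : Ideal (Γ(T, ⊤) ⊗[K] Γ(C, U)),
      L.zeroIdeal σ (p₁ ⁻¹ᵁ U) = kunIdeal H hU I ∧
      Module.Flat Γ(T, ⊤) ((Γ(T, ⊤) ⊗[K] Γ(C, U)) ⧸ I) ∧
      ∃ (n : ℕ) (h f : Fin n → Γ(T, ⊤) ⊗[K] Γ(C, U)), IsCartierData I h f ∧
        L.IsCompat σ (fun α => kunneth H hU (h α)) (fun α => kunneth H hU (f α)) := by
  have hW := isAffineOpen_preimage_fst H hU
  obtain ⟨n, h, f, hspan, hmem, hc⟩ := L.exists_compat_data σ hW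
  have hF : ∀ (α : Fin n) (𝔭 : Ideal Γ(T, ⊤)) [𝔭.IsPrime],
      (kunneth H hU).symm (f α) ∈ 𝔭.map (algebraMap Γ(T, ⊤) (Γ(T, ⊤) ⊗[K] Γ(C, U))) →
      (kunneth H hU).symm (h α) ∈ 𝔭.map (algebraMap Γ(T, ⊤) (Γ(T, ⊤) ⊗[K] Γ(C, U))) :=
    fun α 𝔭 _ => mem_map_of_fibrewise_ne_zero H hU L σ hfib hc α 𝔭
  have hpow : ∀ (α : Fin n) (a : Γ(Y, p₁ ⁻¹ᵁ U)), a * f α = 0 → ∃ m : ℕ, h α ^ m * a = 0 := by
    intro α a ha
    obtain ⟨m, hm⟩ := exists_pow_mul_eq_zero_of_fibrewise_tensor_self hA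
      ((kunneth H hU).symm (h α)) ((kunneth H hU).symm (f α)) (hF α) ((kunneth H hU).symm a)
      (by rw [← map_mul, ha, map_zero])
    refine ⟨m, ?_⟩
    have h1 := congrArg (kunneth H hU) hm
    rw [map_mul, map_pow, RingEquiv.apply_symm_apply, RingEquiv.apply_symm_apply, map_zero] at h1
    exact h1
  have hnzd : ∀ α, IsNZDOn (Y.basicOpen (h α))
      (res (Y.basicOpen (h α)) (Y.basicOpen_le _) (f α)) :=
    fun α => isNZDOn_res_basicOpen hW (h α) (f α) (hpow α)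
  have hreg := LB.isRegSection_of_isCompat L σ hW hspan hc hnzd hWW' hu
  have CD := LB.isCartierData_of_isCompat L σ hW hspan hmem hc hnzd
  have CD' := CD.map_ringEquiv (kunneth H hU).symm
  refine ⟨hreg, (L.zeroIdeal σ (p₁ ⁻¹ᵁ U)).map
    ((kunneth H hU).symm : Γ(Y, p₁ ⁻¹ᵁ U) →+* Γ(T, ⊤) ⊗[K] Γ(C, U)), ?_, ?_, n,
    fun α => (kunneth H hU).symm (h α), fun α => (kunneth H hU).symm (f α), CD', ?_⟩
  · ext r
    rw [mem_kunIdeal_iff, mem_map_ringEquiv_iff]
    simp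
  · exact flat_quotient_of_fibrewise_tensor hA _ _ _ CD'.span_eq_top
      (fun α => CD'.map_away_eq_span α) hF
  · simpa using hc

/-- the same for a universal generator of `H⁰`. -/
theorem isRegSection_and_flat_of_isUnivGen
    [GeometricallyIntegral (KScheme.str (K := K) (X := C))]
    (hA : ∀ (κ : Type u) [Field κ] [Algebra K κ], IsDomain (κ ⊗[K] Γ(C, U)))
    (L : LB Y) (σ : L.H0) (hgen : IsUnivGen p₂ L σ)
    {W' : Y.Opens} (hWW' : p₁ ⁻¹ᵁ U ⊔ W' = ⊤)
    (hu : ∀ i, IsUnit (res (L.U i ⊓ W') inf_le_left (σ.1 i))) :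
    L.IsRegSection σ ∧ ∃ I : Ideal (Γ(T, ⊤) ⊗[K] Γ(C, U)),
      L.zeroIdeal σ (p₁ ⁻¹ᵁ U) = kunIdeal H hU I ∧
      Module.Flat Γ(T, ⊤) ((Γ(T, ⊤) ⊗[K] Γ(C, U)) ⧸ I) ∧
      ∃ (n : ℕ) (h f : Fin n → Γ(T, ⊤) ⊗[K] Γ(C, U)), IsCartierData I h f ∧
        L.IsCompat σ (fun α => kunneth H hU (h α)) (fun α => kunneth H hU (f α)) :=
  isRegSection_and_flat_of_fibrewise_ne_zero H hU hA L σ
    (fun _ _ _ _ _ _ sq => hgen.pullbackSection_ne_zero sq) hWW' hu

end

end Fermat.Agent.JAC
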