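/-
PROJECT JAC (S25) — (FIB), part 3 (helper7): **base change, field-extension invariance and spreading
out of `HilbAlg.IsBased`.**

* `quotBCEquiv` : `B' ⊗[B] ((B ⊗[k] A) ⧸ I) ≃ₐ[B'] (B' ⊗[k] A) ⧸ I^e`.
* `isBased_map_iff_bijective` : `IsBased v I^e` iff `1 ⊗ mk (1 ⊗ v j)` is a basis of
  `B' ⊗[B] ((B ⊗[k] A) ⧸ I)`.
* `isBased_bcMap_of_isBased` : base change of a based ideal is based.
* `bijective_linearCombination_of_baseChange_field`, `isBased_of_isBased_bcMap_field`,
  `isBased_map_field_iff` : field-extension invariance.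
* `exists_isBased_away` : spreading out from a field-valued point to a basic open neighbourhood.
-/
import Mathlib
import Fermat.Agent.JAC.HILB_lead_Ideal
import Fermat.Agent.JAC.FIB_helper7_Based

set_option autoImplicit false

universe u

namespace Fermat.Agent.JAC

open TensorProduct HilbAlg

noncomputable section

section QuotBC

variable {k : Type*} {A : Type*} [CommRing k] [CommRing A] [Algebra k A]
  {B : Type*} [CommRing B] [Algebra k B] {B' : Type*} [CommRing B'] [Algebra k B'] [Algebra B B']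
  [IsScalarTower k B B']

/-- `cancelBaseChange ∘ includeRight` is the base change map. -/
theorem cancelBaseChange_includeRight (r : B ⊗[k] A) :
    Algebra.TensorProduct.cancelBaseChange k B B' B' A ((1 : B') ⊗ₜ[B] r) =
      Algebra.TensorProduct.map (IsScalarTower.toAlgHom k B B') (AlgHom.id k A) r := by
  induction r using TensorProduct.induction_on with
  | zero => simp
  | tmul b a =>
    rw [Algebra.TensorProduct.cancelBaseChange_tmul, Algebra.TensorProduct.map_tmul]
    simp [Algebra.smul_def]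
  | add x y hx hy => rw [TensorProduct.tmul_add, map_add, hx, hy, map_add]

theorem map_includeRight_map_cancelBaseChange (I : Ideal (B ⊗[k] A)) :
    I.map (Algebra.TensorProduct.map (IsScalarTower.toAlgHom k B B') (AlgHom.id k A)) =
      (I.map (Algebra.TensorProduct.includeRight : (B ⊗[k] A) →ₐ[B] B' ⊗[B] (B ⊗[k] A))).map
        ((Algebra.TensorProduct.cancelBaseChange k B B' B' A :
          B' ⊗[B] (B ⊗[k] A) ≃ₐ[B'] B' ⊗[k] A) : B' ⊗[B] (B ⊗[k] A) →+* B' ⊗[k] A) := by
  apply le_antisymm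
  · rw [Ideal.map_le_iff_le_comap]
    intro r hr
    rw [Ideal.mem_comap, ← cancelBaseChange_includeRight]
    exact Ideal.mem_map_of_mem _ (Ideal.mem_map_of_mem _ hr)
  · rw [Ideal.map_le_iff_le_comap, Ideal.map_le_iff_le_comap]
    intro r hr
    rw [Ideal.mem_comap, Ideal.mem_comap]
    have h1 : ((Algebra.TensorProduct.cancelBaseChange k B B' B' A :
        B' ⊗[B] (B ⊗[k] A) ≃ₐ[B'] B' ⊗[k] A) : B' ⊗[B] (B ⊗[k] A) →+* B' ⊗[k] A)
        ((Algebra.TensorProduct.includeRight : (B ⊗[k] A) →ₐ[B] B' ⊗[B] (B ⊗[k] A)) r) =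
        Algebra.TensorProduct.map (IsScalarTower.toAlgHom k B B') (AlgHom.id k A) r :=
      cancelBaseChange_includeRight r
    rw [h1]
    exact Ideal.mem_map_of_mem _ hr

/-- base change of the quotient by an ideal of `B ⊗[k] A`:
`B' ⊗[B] ((B ⊗ A) ⧸ I) ≃ (B' ⊗ A) ⧸ I^e`. -/
def quotBCEquiv (I : Ideal (B ⊗[k] A)) :
    B' ⊗[B] ((B ⊗[k] A) ⧸ I) ≃ₐ[B'] (B' ⊗[k] A) ⧸
      I.map (Algebra.TensorProduct.map (IsScalarTower.toAlgHom k B B') (AlgHom.id k A)) :=
  (Algebra.TensorProduct.tensorQuotientEquiv (R := B) B' (B ⊗[k] A) B' I).trans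
    (Ideal.quotientEquivAlg _ _ (Algebra.TensorProduct.cancelBaseChange k B B' B' A)
      (map_includeRight_map_cancelBaseChange I))

theorem quotBCEquiv_one_tmul_mk (I : Ideal (B ⊗[k] A)) (r : B ⊗[k] A) :
    quotBCEquiv (B' := B') I ((1 : B') ⊗ₜ[B] Ideal.Quotient.mk I r) =
      Ideal.Quotient.mk _
        (Algebra.TensorProduct.map (IsScalarTower.toAlgHom k B B') (AlgHom.id k A) r) := by
  rw [quotBCEquiv, AlgEquiv.trans_apply]
  have h1 : Algebra.TensorProduct.tensorQuotientEquiv (R := B) B' (B ⊗[k] A) B' I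
      ((1 : B') ⊗ₜ[B] Ideal.Quotient.mk I r) = Ideal.Quotient.mk _ ((1 : B') ⊗ₜ[B] r) :=
    Algebra.TensorProduct.tensorQuotientEquiv_apply_tmul _ _ _ I 1 r
  rw [h1, Ideal.quotientEquivAlg_mk]
  congr 1
  exact cancelBaseChange_includeRight r

end QuotBC

section FieldDescent

/-- descent of bases along a field extension: if `1 ⊗ w` is a basis of `κ₁ ⊗[κ₀] Q` then `w` is a
basis of `Q`. -/
theorem bijective_linearCombination_of_baseChange_field {κ₀ κ₁ : Type*} [Field κ₀] [Field κ₁]
    [Algebra κ₀ κ₁] {Q : Type*} [AddCommGroup Q] [Module κ₀ Q] {ι : Type*} (w : ι → Q)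
    (h : Function.Bijective (Finsupp.linearCombination κ₁ (fun j => (1 : κ₁) ⊗ₜ[κ₀] w j))) :
    Function.Bijective (Finsupp.linearCombination κ₀ w) := by
  classical
  have key : ∀ c : ι →₀ κ₀, Finsupp.linearCombination κ₁ (fun j => (1 : κ₁) ⊗ₜ[κ₀] w j)
      (Finsupp.mapRange (algebraMap κ₀ κ₁) (map_zero _) c) =
      (1 : κ₁) ⊗ₜ[κ₀] Finsupp.linearCombination κ₀ w c := by
    intro c
    induction c using Finsupp.induction_linear with
    | zero => simp
    | add x y hx hy => rw [Finsupp.mapRange_add (by intros; simp), map_add, hx, hy, map_add,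
        TensorProduct.tmul_add]
    | single j a =>
      rw [Finsupp.mapRange_single, Finsupp.linearCombination_single,
        Finsupp.linearCombination_single, algebraMap_smul, TensorProduct.tmul_smul]
  constructor
  · rw [injective_iff_map_eq_zero]
    intro c hc
    have h1 := key c
    rw [hc, TensorProduct.tmul_zero] at h1
    have h2 := (injective_iff_map_eq_zero _).mp h.1 _ h1
    ext j
    have h3 := DFunLike.congr_fun h2 j
    rw [Finsupp.mapRange_apply, Finsupp.zero_apply] at h3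
    rw [Finsupp.zero_apply]
    exact (map_eq_zero_iff _ (algebraMap κ₀ κ₁).injective).mp h3
  · rw [← LinearMap.range_eq_top]
    by_contra hne
    obtain ⟨q, hq⟩ : ∃ q : Q, q ∉ LinearMap.range (Finsupp.linearCombination κ₀ w) := by
      by_contra hall
      exact hne (eq_top_iff.mpr fun q _ => not_not.mp (not_exists.mp hall q))
    obtain ⟨lam, hlam, hker⟩ := Submodule.exists_dual_map_eq_bot_of_notMem hq inferInstance
    have hw : ∀ j, lam (w j) = 0 := by
      intro j
      have : lam (w j) ∈ (LinearMap.range (Finsupp.linearCombination κ₀ w)).map lam :=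
        ⟨w j, ⟨Finsupp.single j 1, by simp⟩, rfl⟩
      rw [hker] at this
      exact this
    let lam' : Q →ₗ[κ₀] κ₀ := lam
    let Lam : κ₁ ⊗[κ₀] Q →ₗ[κ₁] κ₁ ⊗[κ₀] κ₀ := LinearMap.baseChange κ₁ lam'
    have hzero : Lam ∘ₗ Finsupp.linearCombination κ₁ (fun j => (1 : κ₁) ⊗ₜ[κ₀] w j) = 0 := by
      apply Finsupp.lhom_ext'
      intro j
      apply LinearMap.ext_ring
      simp only [LinearMap.comp_apply, Finsupp.lsingle_apply, Finsupp.linearCombination_single,
        one_smul, LinearMap.zero_apply]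
      show LinearMap.baseChange κ₁ lam' ((1 : κ₁) ⊗ₜ[κ₀] w j) = 0
      rw [LinearMap.baseChange_tmul]
      show (1 : κ₁) ⊗ₜ[κ₀] lam (w j) = 0
      rw [hw, TensorProduct.tmul_zero]
    obtain ⟨c, hc⟩ := h.2 ((1 : κ₁) ⊗ₜ[κ₀] q)
    have h1 : Lam ((1 : κ₁) ⊗ₜ[κ₀] q) = 0 := by
      rw [← hc, ← LinearMap.comp_apply, hzero, LinearMap.zero_apply]
    have h2 : Lam ((1 : κ₁) ⊗ₜ[κ₀] q) = (1 : κ₁) ⊗ₜ[κ₀] lam q := LinearMap.baseChange_tmul _ _ _
    rw [h2] at h1
    have h3 := congrArg (TensorProduct.rid κ₀ κ₁) h1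
    rw [TensorProduct.rid_tmul, map_zero, Algebra.smul_def, mul_one] at h3
    exact hlam ((map_eq_zero_iff _ (algebraMap κ₀ κ₁).injective).mp h3)

end FieldDescent

section BasedBC

variable {k : Type u} {A : Type u} [CommRing k] [CommRing A] [Algebra k A] {g : ℕ}
  {v : Fin g → A} {B : Type u} [CommRing B] [Algebra k B] {B' : Type u} [CommRing B']
  [Algebra k B'] [Algebra B B'] [IsScalarTower k B B']

/-- `IsBased` after base change, in terms of the base-changed quotient module. -/
theorem isBased_map_iff_bijective (I : Ideal (B ⊗[k] A)) :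
    IsBased v (I.map (bcMap (A := A) (IsScalarTower.toAlgHom k B B'))) ↔
      Function.Bijective (Finsupp.linearCombination B' (fun j => (1 : B') ⊗ₜ[B]
        (Ideal.Quotient.mk I ((1 : B) ⊗ₜ[k] v j) : (B ⊗[k] A) ⧸ I))) := by
  set e : B' ⊗[B] ((B ⊗[k] A) ⧸ I) ≃ₗ[B'] (B' ⊗[k] A) ⧸
      I.map (bcMap (A := A) (IsScalarTower.toAlgHom k B B')) :=
    (quotBCEquiv (B' := B') I).toLinearEquiv with he
  have hcomp : (e : _ →ₗ[B'] _) ∘ₗ Finsupp.linearCombination B' (fun j => (1 : B') ⊗ₜ[B]
        (Ideal.Quotient.mk I ((1 : B) ⊗ₜ[k] v j) : (B ⊗[k] A) ⧸ I)) =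
      Finsupp.linearCombination B' (fun j => (Ideal.Quotient.mk
        (I.map (bcMap (A := A) (IsScalarTower.toAlgHom k B B'))) ((1 : B') ⊗ₜ[k] v j) :
        (B' ⊗[k] A) ⧸ I.map (bcMap (A := A) (IsScalarTower.toAlgHom k B B')))) := by
    apply Finsupp.lhom_ext'
    intro j
    apply LinearMap.ext_ring
    simp only [LinearMap.comp_apply, Finsupp.lsingle_apply, Finsupp.linearCombination_single,
      one_smul]
    show quotBCEquiv (B' := B') I _ = _
    rw [quotBCEquiv_one_tmul_mk, Algebra.TensorProduct.map_tmul, map_one, AlgHom.id_apply]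
  constructor
  · intro h
    have h1 := bijective_of_isBased h
    rw [← hcomp] at h1
    have h2 : Function.Bijective (e.symm ∘ ((e : _ →ₗ[B'] _) ∘ₗ Finsupp.linearCombination B'
        (fun j => (1 : B') ⊗ₜ[B] (Ideal.Quotient.mk I ((1 : B) ⊗ₜ[k] v j) : (B ⊗[k] A) ⧸ I)))) :=
      e.symm.bijective.comp h1
    convert h2 using 1
    ext c
    simp
  · intro h
    apply isBased_of_bijective
    rw [← hcomp]
    exact e.bijective.comp h


/-- base change of a based ideal is based. -/
theorem isBased_bcMap_of_isBased {B₁ : Type u} [CommRing B₁] [Algebra k B₁] (φ : B →ₐ[k] B₁)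
    {I : Ideal (B ⊗[k] A)} (h : IsBased v I) : IsBased v (I.map (bcMap (A := A) φ)) := by
  have h1 := ((ofIdeal I h).map φ).isBased
  rw [Pt.map_ideal, ofIdeal_ideal] at h1
  exact h1

end BasedBC

section FieldInv

variable {k : Type u} {A : Type u} [CommRing k] [CommRing A] [Algebra k A] {g : ℕ}
  {v : Fin g → A} {κ₀ κ₁ : Type u} [Field κ₀] [Field κ₁] [Algebra k κ₀] [Algebra k κ₁]

/-- **field-extension invariance, descent**: if the extension of `I₀` to a bigger field is based,
so is `I₀`. -/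
theorem isBased_of_isBased_bcMap_field (ι : κ₀ →ₐ[k] κ₁) (I₀ : Ideal (κ₀ ⊗[k] A))
    (h : IsBased v (I₀.map (bcMap (A := A) ι))) : IsBased v I₀ := by
  let _ : Algebra κ₀ κ₁ := ι.toRingHom.toAlgebra
  have : IsScalarTower k κ₀ κ₁ := IsScalarTower.of_algebraMap_eq fun x => (ι.commutes x).symm
  have hι : IsScalarTower.toAlgHom k κ₀ κ₁ = ι := by
    ext x
    rfl
  rw [← hι] at h
  have h1 := (isBased_map_iff_bijective (v := v) I₀).mp h
  exact isBased_of_bijective I₀ (bijective_linearCombination_of_baseChange_field _ h1)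

/-- **field-extension invariance** of `IsBased`. -/
theorem isBased_map_field_iff (ι : κ₀ →ₐ[k] κ₁) (I₀ : Ideal (κ₀ ⊗[k] A)) :
    IsBased v (I₀.map (bcMap (A := A) ι)) ↔ IsBased v I₀ :=
  ⟨isBased_of_isBased_bcMap_field ι I₀, isBased_bcMap_of_isBased ι⟩

end FieldInv

section Spread

variable {k : Type u} {A : Type u} [CommRing k] [CommRing A] [Algebra k A] {g : ℕ}
  {B : Type u} [CommRing B] [Algebra k B]

/-- composition of base change maps. -/
theorem bcMap_comp_apply {B₁ B₂ : Type u} [CommRing B₁] [Algebra k B₁] [CommRing B₂] [Algebra k B₂]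
    (ψ : B →ₐ[k] B₁) (ι : B₁ →ₐ[k] B₂) (r : B ⊗[k] A) :
    bcMap (A := A) (ι.comp ψ) r = bcMap (A := A) ι (bcMap (A := A) ψ r) := by
  induction r using TensorProduct.induction_on with
  | zero => simp
  | tmul b a => simp
  | add x y hx hy => rw [map_add, hx, hy, map_add, map_add]

theorem map_bcMap_comp {B₁ B₂ : Type u} [CommRing B₁] [Algebra k B₁] [CommRing B₂] [Algebra k B₂]
    (ψ : B →ₐ[k] B₁) (ι : B₁ →ₐ[k] B₂) (I : Ideal (B ⊗[k] A)) :
    (I.map (bcMap (A := A) ψ)).map (bcMap (A := A) ι) = I.map (bcMap (A := A) (ι.comp ψ)) := by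
  apply le_antisymm
  · rw [Ideal.map_le_iff_le_comap, Ideal.map_le_iff_le_comap]
    intro r hr
    rw [Ideal.mem_comap, Ideal.mem_comap, ← bcMap_comp_apply]
    exact Ideal.mem_map_of_mem _ hr
  · rw [Ideal.map_le_iff_le_comap]
    intro r hr
    rw [Ideal.mem_comap, bcMap_comp_apply]
    exact Ideal.mem_map_of_mem _ (Ideal.mem_map_of_mem _ hr)

/-- the family `1 ⊗ w` over the local ring `B_𝔭` is a basis if it is one over `κ(𝔭)`. -/
theorem bijective_linearCombination_atPrime {Q : Type*} [AddCommGroup Q] [Module B Q]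
    [Module.Finite B Q] [Module.Flat B Q] (𝔭 : Ideal B) [𝔭.IsPrime] {ι : Type*} (w : ι → Q)
    (h : Function.Bijective (Finsupp.linearCombination 𝔭.ResidueField
      (fun j => (1 : 𝔭.ResidueField) ⊗ₜ[B] w j))) :
    Function.Bijective (Finsupp.linearCombination (Localization.AtPrime 𝔭)
      (fun j => (1 : Localization.AtPrime 𝔭) ⊗ₜ[B] w j)) := by
  apply Module.IsLocalRing.linearCombination_bijective_of_flat
  let e := AlgebraTensorModule.cancelBaseChange B (Localization.AtPrime 𝔭) 𝔭.ResidueField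
    𝔭.ResidueField Q
  have hcomp : (e : _ →ₗ[𝔭.ResidueField] _) ∘ₗ
      Finsupp.linearCombination 𝔭.ResidueField
        ((TensorProduct.mk (Localization.AtPrime 𝔭) 𝔭.ResidueField
          (Localization.AtPrime 𝔭 ⊗[B] Q) 1) ∘ fun j => (1 : Localization.AtPrime 𝔭) ⊗ₜ[B] w j) =
      Finsupp.linearCombination 𝔭.ResidueField (fun j => (1 : 𝔭.ResidueField) ⊗ₜ[B] w j) := by
    apply Finsupp.lhom_ext'
    intro j
    apply LinearMap.ext_ring
    simp only [LinearMap.comp_apply, Finsupp.lsingle_apply, Finsupp.linearCombination_single,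
      one_smul, Function.comp_apply, TensorProduct.mk_apply]
    show e _ = _
    rw [AlgebraTensorModule.cancelBaseChange_tmul, one_smul]
  have h2 : Function.Bijective (e.symm ∘ ((e : _ →ₗ[𝔭.ResidueField] _) ∘ₗ
      Finsupp.linearCombination 𝔭.ResidueField
        ((TensorProduct.mk (Localization.AtPrime 𝔭) 𝔭.ResidueField
          (Localization.AtPrime 𝔭 ⊗[B] Q) 1) ∘ fun j => (1 : Localization.AtPrime 𝔭) ⊗ₜ[B] w j))) := by
    rw [hcomp]
    exact e.symm.bijective.comp h
  convert h2 using 1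
  ext c
  simp

/-- spreading out a basis from the local ring at a prime to a basic open neighbourhood. -/
theorem exists_bijective_linearCombination_away {Q : Type*} [AddCommGroup Q] [Module B Q]
    [Module.FinitePresentation B Q] (𝔭 : Ideal B) [𝔭.IsPrime] {ι : Type*} [Finite ι] (w : ι → Q)
    (h : Function.Bijective (Finsupp.linearCombination (Localization.AtPrime 𝔭)
      (fun j => (1 : Localization.AtPrime 𝔭) ⊗ₜ[B] w j))) :
    ∃ f : B, f ∉ 𝔭 ∧ Function.Bijective (Finsupp.linearCombination (Localization.Away f)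
      (fun j => (1 : Localization.Away f) ⊗ₜ[B] w j)) := by
  classical
  let L : (ι →₀ B) →ₗ[B] Q := Finsupp.linearCombination B w
  let fM : (ι →₀ B) →ₗ[B] (ι →₀ Localization.AtPrime 𝔭) :=
    Finsupp.mapRange.linearMap (Algebra.linearMap B (Localization.AtPrime 𝔭))
  let fN : Q →ₗ[B] Localization.AtPrime 𝔭 ⊗[B] Q := TensorProduct.mk B (Localization.AtPrime 𝔭) Q 1
  have hloc : Function.Bijective (IsLocalizedModule.map 𝔭.primeCompl fM fN L) := by
    have h1 := IsLocalizedModule.map_linearCombination (S := 𝔭.primeCompl)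
      (A := Localization.AtPrime 𝔭) (f := fN) (v := w)
    have h2 : ⇑(IsLocalizedModule.map 𝔭.primeCompl fM fN L) =
        ⇑(Finsupp.linearCombination (Localization.AtPrime 𝔭) (fN ∘ w)) := by
      funext x
      exact LinearMap.congr_fun h1 x
    rw [h2]
    exact h
  obtain ⟨f, hf𝔭, hfbij⟩ := Module.FinitePresentation.exists_notMem_bijective L 𝔭 fM fN hloc
  refine ⟨f, hf𝔭, ?_⟩
  let fM' : (ι →₀ B) →ₗ[B] (ι →₀ Localization.Away f) :=
    Finsupp.mapRange.linearMap (Algebra.linearMap B (Localization.Away f))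
  let fN' : Q →ₗ[B] Localization.Away f ⊗[B] Q := TensorProduct.mk B (Localization.Away f) Q 1
  have h4 := LocalizedModule.restrictScalars_map_eq (Submonoid.powers f) fM' fN' L
  have h5 := IsLocalizedModule.map_linearCombination (S := Submonoid.powers f)
    (A := Localization.Away f) (f := fN') (v := w)
  have h6 : Function.Bijective (IsLocalizedModule.map (Submonoid.powers f) fM' fN' L) := by
    have h7 : IsLocalizedModule.map (Submonoid.powers f) fM' fN' L =
        (IsLocalizedModule.iso (Submonoid.powers f) fN').toLinearMap ∘ₗ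
          ((LocalizedModule.map (Submonoid.powers f) L).restrictScalars B) ∘ₗ
          (IsLocalizedModule.iso (Submonoid.powers f) fM').symm.toLinearMap := by
      rw [h4]
      ext x
      simp
    rw [h7]
    exact (IsLocalizedModule.iso (Submonoid.powers f) fN').bijective.comp
      (hfbij.comp (IsLocalizedModule.iso (Submonoid.powers f) fM').symm.bijective)
  have h8 : ⇑(IsLocalizedModule.map (Submonoid.powers f) fM' fN' L) =
      ⇑(Finsupp.linearCombination (Localization.Away f) (fN' ∘ w)) := by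
    funext x
    exact LinearMap.congr_fun h5 x
  rw [h8] at h6
  exact h6

/-- **(FIB2), spreading form.**  `(B ⊗[k] A) ⧸ I` finite, flat and finitely presented over `B`;
if the extension of `I` to a field-valued point `φ : B → κ` is based, then `I` is based over a
basic open neighbourhood `D(f)` of the point. -/
theorem exists_isBased_away (I : Ideal (B ⊗[k] A)) [Module.Finite B ((B ⊗[k] A) ⧸ I)]
    [Module.Flat B ((B ⊗[k] A) ⧸ I)] [Module.FinitePresentation B ((B ⊗[k] A) ⧸ I)]
    (v : Fin g → A) {κ : Type u} [Field κ] [Algebra k κ] (φ : B →ₐ[k] κ)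
    (hfib : IsBased v (I.map (bcMap (A := A) φ))) :
    ∃ f : B, φ f ≠ 0 ∧ IsBased v (I.map (bcMap (A := A)
      (IsScalarTower.toAlgHom k B (Localization.Away f)))) := by
  -- the prime `𝔭 = ker φ`
  have h𝔭 : (RingHom.ker φ).IsPrime := RingHom.ker_isPrime φ
  set 𝔭 : Ideal B := RingHom.ker φ with h𝔭def
  -- `φ` factors through `κ(𝔭)`
  have hunits : 𝔭.primeCompl ≤ (IsUnit.submonoid κ).comap φ := by
    intro b hb
    show IsUnit (φ b)
    rw [isUnit_iff_ne_zero]
    exact hb
  let ι : 𝔭.ResidueField →ₐ[k] κ := Ideal.ResidueField.liftₐ 𝔭 φ le_rfl hunits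
  have hι : ι.comp (IsScalarTower.toAlgHom k B 𝔭.ResidueField) = φ :=
    Ideal.ResidueField.liftₐ_comp_toAlgHom 𝔭 φ le_rfl hunits
  -- step 1: based over `κ(𝔭)`
  have h1 : IsBased v (I.map (bcMap (A := A) (IsScalarTower.toAlgHom k B 𝔭.ResidueField))) := by
    apply isBased_of_isBased_bcMap_field ι
    rw [map_bcMap_comp, hι]
    exact hfib
  have h1' := (isBased_map_iff_bijective (v := v) I).mp h1
  -- step 2: over the local ring
  have h2 := bijective_linearCombination_atPrime 𝔭 _ h1'
  -- step 3: spread out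
  obtain ⟨f, hf, h3⟩ := exists_bijective_linearCombination_away 𝔭 _ h2
  exact ⟨f, hf, (isBased_map_iff_bijective (v := v) I).mpr h3⟩

end Spread

end

end Fermat.Agent.JAC
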