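/-
PROJECT JAC (S25) — (GI), helper4: geometric integrality in ring form.

For a smooth connected scheme `c : C ⟶ Spec k` over an algebraically closed field and a non-empty
affine open `U ⊆ C`, the coordinate ring `A := Γ(C, U)` is geometrically integral:
`K ⊗[k] A` is a domain for every field extension `K / k`
(`isDomain_tensor_of_smooth_of_connectedSpace`; the hypothesis `hA` of `FIB_helper7_LFC`).

Proof: `Spec (K ⊗[k] A)` is an open subscheme of the integral scheme `C_K`
(`isIntegral_of_isPullback_field`).
-/
import Mathlib
import Fermat.Agent.JAC.GI_helper4_GeomConn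

set_option autoImplicit false
set_option linter.style.haveILetI false
open CategoryTheory CategoryTheory.Limits AlgebraicGeometry TensorProduct
universe u

namespace Fermat.Agent.JAC

noncomputable section

variable {k : Type u} [Field k] [IsAlgClosed k] {C : Scheme.{u}}
  (c : C ⟶ Spec (CommRingCat.of k))

omit [IsAlgClosed k] in
/-- the structure map of an affine open in terms of `appLE`. -/
theorem fromSpec_comp_eq_SpecMap {U : C.Opens} (hU : IsAffineOpen U) :
    hU.fromSpec ≫ c = Spec.map ((Scheme.ΓSpecIso (CommRingCat.of k)).inv ≫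
      c.appLE ⊤ U le_top) := by
  rw [← IsAffineOpen.SpecMap_appLE_fromSpec c (isAffineOpen_top _) hU le_top,
    IsAffineOpen.fromSpec_top, Scheme.isoSpec_Spec_inv, ← Spec.map_comp]

/-- **geometric integrality of the coordinate rings** of a smooth connected scheme over an
algebraically closed field. -/
theorem isDomain_tensor_of_smooth_of_connectedSpace [Smooth c] [ConnectedSpace C]
    {U : C.Opens} (hU : IsAffineOpen U) [Nonempty U] [Algebra k Γ(C, U)]
    (halg : algebraMap k Γ(C, U) =
      (c.appLE ⊤ U le_top).hom.comp (Scheme.ΓSpecIso (CommRingCat.of k)).inv.hom)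
    (K : Type u) [Field K] [Algebra k K] : IsDomain (K ⊗[k] Γ(C, U)) := by
  let y : Spec (CommRingCat.of K) ⟶ Spec (CommRingCat.of k) :=
    Spec.map (CommRingCat.ofHom (algebraMap k K))
  let uA : Spec (CommRingCat.of Γ(C, U)) ⟶ Spec (CommRingCat.of k) :=
    Spec.map (CommRingCat.ofHom (algebraMap k Γ(C, U)))
  have huA : uA = hU.fromSpec ≫ c := by
    rw [fromSpec_comp_eq_SpecMap c hU]
    show Spec.map _ = Spec.map _
    congr 1
    ext x
    rw [halg]
    rfl
  -- the integral scheme `C_K`
  have H : IsPullback (pullback.fst y c) (pullback.snd y c) y c := IsPullback.of_hasPullback y c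
  haveI : IsIntegral (pullback y c) := isIntegral_of_isPullback_field c y _ _ H.flip
  -- the open immersion `Spec (K ⊗ A) ≅ P ⟶ C_K`
  let j : pullback y uA ⟶ pullback y c :=
    pullback.lift (pullback.fst y uA) (pullback.snd y uA ≫ hU.fromSpec) (by
      rw [Category.assoc, ← huA, pullback.condition])
  have hbig : IsPullback (pullback.fst y uA) (pullback.snd y uA) y (hU.fromSpec ≫ c) := by
    rw [← huA]
    exact IsPullback.of_hasPullback y uA
  have hj : IsPullback j (pullback.snd y uA) (pullback.snd y c) hU.fromSpec := by
    refine IsPullback.of_right (t := H) ?_ (pullback.lift_snd _ _ _)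
    rw [pullback.lift_fst]
    exact hbig
  haveI : IsOpenImmersion j := MorphismProperty.of_isPullback hj.flip inferInstance
  haveI : Nontrivial Γ(C, U) := by
    have : Nonempty U.toScheme := ‹Nonempty U›
    exact (Scheme.component_nontrivial C U)
  haveI : Nonempty (Spec (CommRingCat.of (K ⊗[k] Γ(C, U)))) :=
    (inferInstance : Nonempty (PrimeSpectrum (K ⊗[k] Γ(C, U))))
  haveI : Nonempty ↥(pullback y uA) :=
    ⟨(pullbackSpecIso k K Γ(C, U)).inv (Classical.arbitrary _)⟩
  haveI : IsIntegral (pullback y uA) := isIntegral_of_isOpenImmersion j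
  haveI : IsIntegral (Spec (CommRingCat.of (K ⊗[k] Γ(C, U)))) :=
    isIntegral_of_isOpenImmersion (pullbackSpecIso k K Γ(C, U)).inv
  exact (affine_isIntegral_iff (CommRingCat.of (K ⊗[k] Γ(C, U)))).mp inferInstance

end

end Fermat.Agent.JAC
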