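/-
PROJECT JAC (S25) — lead — the representing ring `HilbRing k A g v` is a `k`-algebra of finite type
when `A` is.
-/
import Mathlib
import Fermat.Agent.JAC.HILB_lead_Matrix

set_option autoImplicit false

universe u

namespace Fermat.Agent.JAC

namespace HilbAlg

open MvPolynomial

noncomputable section

variable {k : Type u} {A : Type u} [CommRing k] [CommRing A] [Algebra k A] {g : ℕ}
  (v : Fin g → A)

/-- the elements of `A` all of whose universal matrix entries lie in a given subalgebra. -/
def entrySubalgebra (H : Subalgebra k (HilbRing k A g v)) : Subalgebra k A where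
  carrier := {a | ∀ i j, ux k v a i j ∈ H}
  mul_mem' := fun {a b} ha hb i j => by
    rw [ux_mul]
    exact Subalgebra.sum_mem _ (fun l _ => Subalgebra.mul_mem _ (ha i l) (hb l j))
  add_mem' := fun {a b} ha hb i j => by
    rw [ux_add]
    exact Subalgebra.add_mem _ (ha i j) (hb i j)
  algebraMap_mem' := fun c i j => by
    rw [Algebra.algebraMap_eq_smul_one, ux_smul, ux_one]
    refine Subalgebra.smul_mem _ ?_ c
    split_ifs
    · exact Subalgebra.one_mem _
    · exact Subalgebra.zero_mem _

theorem hilbRing_adjoin_eq_top (S : Set A) (hS : Algebra.adjoin k S = ⊤) :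
    Algebra.adjoin k (((fun p : A × Fin g × Fin g => ux k v p.1 p.2.1 p.2.2) '' (S ×ˢ Set.univ)) ∪
      Set.range (ue k v)) = ⊤ := by
  set H := Algebra.adjoin k (((fun p : A × Fin g × Fin g => ux k v p.1 p.2.1 p.2.2) ''
    (S ×ˢ Set.univ)) ∪ Set.range (ue k v)) with hH
  have h1 : Algebra.adjoin k S ≤ entrySubalgebra v H := by
    apply Algebra.adjoin_le
    intro a ha i j
    exact Algebra.subset_adjoin (Or.inl ⟨(a, i, j), ⟨ha, Set.mem_univ _⟩, rfl⟩)
  rw [hS] at h1
  have h2 : ∀ q : MvPolynomial (Var A g) k, cls k v q ∈ H := by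
    intro q
    induction q using MvPolynomial.induction_on with
    | C c =>
      rw [← MvPolynomial.algebraMap_eq, AlgHom.commutes]
      exact Subalgebra.algebraMap_mem _ c
    | add p q hp hq =>
      rw [map_add]
      exact Subalgebra.add_mem _ hp hq
    | mul_X p x hp =>
      rw [map_mul]
      refine Subalgebra.mul_mem _ hp ?_
      rcases x with ⟨a, i, j⟩ | i
      · exact h1 (Algebra.mem_top (x := a)) i j
      · exact Algebra.subset_adjoin (Or.inr ⟨i, rfl⟩)
  rw [eq_top_iff]
  intro y _
  obtain ⟨q, rfl⟩ := cls_surjective (k := k) (v := v) y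
  exact h2 q

instance hilbRing_finiteType [Algebra.FiniteType k A] :
    Algebra.FiniteType k (HilbRing k A g v) := by
  obtain ⟨S, hS⟩ := (Algebra.FiniteType.out : (⊤ : Subalgebra k A).FG)
  refine ⟨Subalgebra.fg_def.mpr ⟨_, ?_, hilbRing_adjoin_eq_top v (S : Set A) hS⟩⟩
  refine Set.Finite.union (Set.Finite.image _ ?_) (Set.finite_range _)
  exact Set.Finite.prod S.finite_toSet Set.finite_univ

end

end HilbAlg

end Fermat.Agent.JAC
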