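/-
PROJECT JAC (S25) — (CART-BC), corollary (helper7): **every based ideal has Cartier data.**

`A` a domain of finite type over an algebraically closed field `k` all of whose local rings at
maximal ideals are discrete valuation rings (the coordinate ring of a smooth affine curve).  Then
* `exists_isCartierData_univIdeal` : the universal ideal of `HilbRing k A g v ⊗[k] A` has Cartier
  data (the Cartier lemma over the noetherian ring `HilbRing k A g v`);
* `exists_isCartierData_of_isBased` : for EVERY `k`-algebra `B` and every based ideal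
  `I ⊂ B ⊗[k] A`, Cartier data exist — the pull-back of the universal ones along the classifying
  homomorphism `χ : HilbRing k A g v →ₐ[k] B`; the statement also records that they ARE the
  pull-back (`exists_isCartierData_of_isBased'`).
-/
import Mathlib
import Fermat.Agent.JAC.HILB_lead_Ideal
import Fermat.Agent.JAC.HILB_lead_FinType
import Fermat.Agent.JAC.HILB_helper7_CartierBC

set_option autoImplicit false

universe u

namespace Fermat.Agent.JAC

open TensorProduct HilbAlg

noncomputable section

variable {k : Type u} {A : Type u} [Field k] [CommRing A] [Algebra k A] {g : ℕ}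
  {v : Fin g → A} {B : Type u} [CommRing B] [Algebra k B]

/-- a based ideal has finite quotient. -/
theorem IsBased_finite_quotient {I : Ideal (B ⊗[k] A)} (hI : IsBased v I) :
    Module.Finite B ((B ⊗[k] A) ⧸ I) :=
  Module.Finite.of_basis hI.basis

/-- a based ideal has flat quotient. -/
theorem IsBased_flat_quotient {I : Ideal (B ⊗[k] A)} (hI : IsBased v I) :
    Module.Flat B ((B ⊗[k] A) ⧸ I) :=
  have : Module.Free B ((B ⊗[k] A) ⧸ I) := Module.Free.of_basis hI.basis
  inferInstance

/-- the universal ideal is based. -/
theorem isBased_univIdeal : IsBased v (univIdeal k v) := (univPt k v).isBased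

variable [IsAlgClosed k] [IsDomain A] [Algebra.FiniteType k A]

/-- **Cartier data for the universal ideal.** -/
theorem exists_isCartierData_univIdeal
    (hA : ∀ (𝔫 : Ideal A) [𝔫.IsMaximal], IsDiscreteValuationRing (Localization.AtPrime 𝔫))
    (v : Fin g → A) :
    ∃ (n : ℕ) (h f : Fin n → HilbRing k A g v ⊗[k] A), IsCartierData (univIdeal k v) h f := by
  have h1 := IsBased_finite_quotient (isBased_univIdeal (k := k) (v := v))
  have h2 := IsBased_flat_quotient (isBased_univIdeal (k := k) (v := v))
  obtain ⟨n, h, f, p1, p2, p3, p4⟩ :=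
    exists_cover_generators_tensor_of_isAlgClosed (B := HilbRing k A g v) hA (univIdeal k v)
  exact ⟨n, h, f, IsCartierData.of_strong p1 p2 p3 p4⟩

/-- **every based ideal over every `k`-algebra has Cartier data**, namely the pull-back of Cartier
data of the universal ideal along the classifying homomorphism. -/
theorem exists_isCartierData_of_isBased'
    (hA : ∀ (𝔫 : Ideal A) [𝔫.IsMaximal], IsDiscreteValuationRing (Localization.AtPrime 𝔫))
    {I : Ideal (B ⊗[k] A)} (hI : IsBased v I) :
    ∃ (χ : HilbRing k A g v →ₐ[k] B) (n : ℕ) (h f : Fin n → HilbRing k A g v ⊗[k] A),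
      Ideal.map (bcMap (A := A) χ) (univIdeal k v) = I ∧ IsCartierData (univIdeal k v) h f ∧
      IsCartierData I (fun α => bcMap (A := A) χ (h α)) (fun α => bcMap (A := A) χ (f α)) := by
  obtain ⟨χ, hχ, -⟩ := existsUnique_map_univIdeal I hI
  obtain ⟨n, h, f, hc⟩ := exists_isCartierData_univIdeal (k := k) hA v
  have h2 := IsBased_flat_quotient (isBased_univIdeal (k := k) (v := v))
  have h3 := hc.baseChange χ
  rw [show Ideal.map (Algebra.TensorProduct.map χ (AlgHom.id k A)) (univIdeal k v) = I from hχ]
    at h3
  exact ⟨χ, n, h, f, hχ, hc, h3⟩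

/-- **every based ideal over every `k`-algebra has Cartier data.** -/
theorem exists_isCartierData_of_isBased
    (hA : ∀ (𝔫 : Ideal A) [𝔫.IsMaximal], IsDiscreteValuationRing (Localization.AtPrime 𝔫))
    {I : Ideal (B ⊗[k] A)} (hI : IsBased v I) :
    ∃ (n : ℕ) (h f : Fin n → B ⊗[k] A), IsCartierData I h f := by
  obtain ⟨χ, n, h, f, -, -, hc⟩ := exists_isCartierData_of_isBased' hA hI
  exact ⟨n, _, _, hc⟩

end

end Fermat.Agent.JAC
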