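/-
PROJECT JAC (S25) — lead — **(E) the Hilbert chart as a concrete affine `K`-scheme.**
`hilbScheme K A g v := Spec (HilbRing K A g v)` with its structure morphism, the `K`-algebra
isomorphism `hilbΓ : HilbRing K A g v →ₐ[K] Γ(hilbScheme, ⊤)` (bijective), and local finiteness of
type over `K` when `A` is of finite type.  This instantiates the abstract `(Hs, e, he)` of helper5's
`P_helper5_Classify`.
-/
import Mathlib
import Fermat.Agent.JAC.HILB_lead_FinType
import Fermat.Agent.AV.CP_helper8_Kunneth

set_option autoImplicit false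

open AlgebraicGeometry CategoryTheory Opposite TopologicalSpace

universe u

namespace Fermat.Agent.JAC

open Fermat.Agent.AV Fermat.Agent.AV.CP HilbAlg

noncomputable section

variable (K : Type u) [Field K] (A : Type u) [CommRing A] [Algebra K A] (g : ℕ) (v : Fin g → A)

/-- the Hilbert chart `Spec (HilbRing K A g v)`. -/
abbrev hilbScheme : Scheme.{u} := Spec (CommRingCat.of (HilbRing K A g v))

instance hilbSchemeKScheme : KScheme K (hilbScheme K A g v) :=
  ⟨Spec.map (CommRingCat.ofHom (algebraMap K (HilbRing K A g v)))⟩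

theorem hilbScheme_str : (KScheme.str (K := K) (X := hilbScheme K A g v)) =
    Spec.map (CommRingCat.ofHom (algebraMap K (HilbRing K A g v))) := rfl

/-- `HilbRing → Γ(hilbScheme, ⊤)` as a `K`-algebra homomorphism. -/
def hilbΓ : HilbRing K A g v →ₐ[K] Γ(hilbScheme K A g v, ⊤) where
  toRingHom := (Scheme.ΓSpecIso (CommRingCat.of (HilbRing K A g v))).inv.hom
  commutes' c := by
    show (Scheme.ΓSpecIso (CommRingCat.of (HilbRing K A g v))).inv.hom
      (algebraMap K (HilbRing K A g v) c) = kToΓ K (hilbScheme K A g v) ⊤ c
    have h := Scheme.ΓSpecIso_inv_naturality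
      (CommRingCat.ofHom (algebraMap K (HilbRing K A g v)))
    have h2 := congrArg (fun f => f.hom c) h
    beta_reduce at h2
    simp only [kToΓ, RingHom.comp_apply]
    rw [hilbScheme_str]
    have h3 : (Spec.map (CommRingCat.ofHom (algebraMap K (HilbRing K A g v)))).appLE ⊤ ⊤
        (le_preimage_top _ ⊤) =
        (Spec.map (CommRingCat.ofHom (algebraMap K (HilbRing K A g v)))).appTop := by
      rw [Scheme.Hom.appTop, Scheme.Hom.app_eq_appLE]
      rfl
    rw [h3]
    exact h2

theorem hilbΓ_apply (x : HilbRing K A g v) :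
    hilbΓ K A g v x = (Scheme.ΓSpecIso (CommRingCat.of (HilbRing K A g v))).inv.hom x := rfl

theorem hilbΓ_bijective : Function.Bijective (hilbΓ K A g v) := by
  have : IsIso (Scheme.ΓSpecIso (CommRingCat.of (HilbRing K A g v))).inv := inferInstance
  exact ConcreteCategory.bijective_of_isIso
    (Scheme.ΓSpecIso (CommRingCat.of (HilbRing K A g v))).inv

instance locallyOfFiniteType_hilbScheme [Algebra.FiniteType K A] :
    LocallyOfFiniteType (KScheme.str (K := K) (X := hilbScheme K A g v)) := by
  rw [hilbScheme_str, HasRingHomProperty.Spec_iff (P := @LocallyOfFiniteType)]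
  simp only [CommRingCat.hom_ofHom]
  rw [RingHom.finiteType_algebraMap]
  infer_instance

end

end Fermat.Agent.JAC
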