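/-
PROJECT JAC (S25) — (J6), helper6: **separatedness of the Jacobian from its functor of points**.

* `J6.isSeparated_of_difference` (Mathlib-only content): a `k`-scheme `J` with a `k`-point `e` and a
  `k`-morphism `δ : J ×ₖ J ⟶ J` such that, on `T`-points, `δ (a, b) = e ↔ a = b`, is separated
  (the diagonal is the base change of the closed immersion `e` along `δ`);
* `J6.cls`, `J6.cls_postComp`, `J6.rig_iff`, `J6.rig_map`: `PicGroup` bookkeeping;
* **`J6.isSeparated_of_represents`**: if `(D.P, P)` represents the functor of rigidified line bundles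
  cut out by a condition `𝒬` stable under base change and under `M⁻¹ ⊗ N`, then `D.toBase` is
  separated (`δ` := the classifying map of `(p₁^*P)⁻¹ ⊗ p₂^*P`).  Same generic style as helper3's
  `SmoothTop.smooth_of_represents`.
-/
import Mathlib
import Fermat.Agent.JAC.TOP_helper9_Bridge

set_option autoImplicit false
open CategoryTheory CategoryTheory.Limits AlgebraicGeometry AlgebraicGeometry.RelPicard
  NeronModelInfra GoodReductionJacobian
universe u

namespace Fermat.Agent.JAC.J6

open Fermat.Agent.AV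

section Cls

variable {k : Type u} [Field k] {C : Scheme.{u}} (c : C ⟶ Spec (CommRingCat.of k))
  (ε : SchemeHomOver (𝟙 (Spec (CommRingCat.of k))) c)

/-- the class in `Pic (C × T)` of the pull-back of `P` along a `T`-point of `J`. -/
noncomputable def cls {J T : Scheme.{u}} {j : J ⟶ Spec (CommRingCat.of k)}
    {t : T ⟶ Spec (CommRingCat.of k)} (P : LB (pullback c j)) (g : SchemeHomOver t j) :
    PicGroup (pullback c t) :=
  PicGroup.mk (P.pullback (baseChangeSnd c g))

theorem cls_postComp {J T T' : Scheme.{u}} {j : J ⟶ Spec (CommRingCat.of k)}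
    {t : T ⟶ Spec (CommRingCat.of k)} {t' : T' ⟶ Spec (CommRingCat.of k)}
    (P : LB (pullback c j)) (g : SchemeHomOver t j) (ψ : SchemeHomOver t' t) :
    cls c P (postComp g ψ) = PicGroup.map (baseChangeSnd c ψ) (cls c P g) := by
  unfold cls
  rw [PicGroup.map_mk, ← PicGroup.map_mk, ← PicGroup.map_mk, ← PicGroup.map_mk,
    ← PicGroup.map_comp, baseChangeSnd_comp]

theorem rig_iff {T : Scheme.{u}} (t : T ⟶ Spec (CommRingCat.of k)) (M : LB (pullback c t)) :
    LBRigidified c ε t M ↔ PicGroup.map (rigSection c t ε) (PicGroup.mk M) = 0 := by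
  unfold LBRigidified
  rw [PicGroup.map_mk, PicGroup.mk_eq_zero_iff]

theorem rig_map {T T' : Scheme.{u}} {t : T ⟶ Spec (CommRingCat.of k)}
    {t' : T' ⟶ Spec (CommRingCat.of k)} (ψ : SchemeHomOver t' t) (x : PicGroup (pullback c t))
    (hx : PicGroup.map (rigSection c t ε) x = 0) :
    PicGroup.map (rigSection c t' ε) (PicGroup.map (baseChangeSnd c ψ) x) = 0 := by
  rw [← PicGroup.map_comp, rigSection_baseChangeSnd, PicGroup.map_comp, hx, map_zero]

end Cls


section Sep

variable {k : Type u} [Field k] {C : Scheme.{u}} (c : C ⟶ Spec (CommRingCat.of k))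
  (ε : SchemeHomOver (𝟙 (Spec (CommRingCat.of k))) c)

/-- **(S2)** a `K`-scheme with a `K`-point `e` and a "difference map" `δ : J × J ⟶ J`
(`δ (a, b) = e` iff `a = b`, on `T`-points) is separated: the diagonal is the base change of the
closed immersion `e` along `δ`. -/
theorem isSeparated_of_difference {J : Scheme.{u}} (j : J ⟶ Spec (CommRingCat.of k))
    (e : Spec (CommRingCat.of k) ⟶ J) (he : e ≫ j = 𝟙 _) (δ : pullback j j ⟶ J)
    (hδj : δ ≫ j = pullback.fst j j ≫ j)
    (hδ : ∀ {T : Scheme.{u}} (a b : T ⟶ J) (hab : a ≫ j = b ≫ j),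
      pullback.lift a b hab ≫ δ = (a ≫ j) ≫ e ↔ a = b) : IsSeparated j := by
  have hcl : IsClosedImmersion e := isClosedImmersion_of_comp_eq_id j e he
  have hw : pullback.diagonal j ≫ δ = j ≫ e := by
    have h := (hδ (𝟙 J) (𝟙 J) rfl).mpr rfl
    exact h.trans (by rw [Category.id_comp])
  have H : IsPullback (pullback.diagonal j) j δ e := by
    refine ⟨⟨hw⟩, ⟨PullbackCone.IsLimit.mk _ (fun s => s.fst ≫ pullback.fst j j) ?_ ?_ ?_⟩⟩
    · intro s
      have hs := s.condition
      have hsnd : s.snd = (s.fst ≫ pullback.fst j j) ≫ j := by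
        have h1 : s.fst ≫ δ ≫ j = s.snd ≫ e ≫ j := by
          rw [← Category.assoc, hs, Category.assoc]
        rw [he, Category.comp_id, hδj] at h1
        rw [← h1, Category.assoc]
      have hab : (s.fst ≫ pullback.fst j j) ≫ j = (s.fst ≫ pullback.snd j j) ≫ j := by
        rw [Category.assoc, Category.assoc, pullback.condition]
      have hlift : pullback.lift (s.fst ≫ pullback.fst j j) (s.fst ≫ pullback.snd j j) hab =
          s.fst := by
        apply pullback.hom_ext
        · exact pullback.lift_fst _ _ _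
        · exact pullback.lift_snd _ _ _
      have heq : s.fst ≫ pullback.fst j j = s.fst ≫ pullback.snd j j := by
        apply (hδ _ _ hab).mp
        rw [hlift, hs, hsnd]
      apply pullback.hom_ext
      · simp
      · rw [Category.assoc, pullback.diagonal_snd, Category.comp_id, heq]
    · intro s
      have hs := s.condition
      have h1 : s.fst ≫ δ ≫ j = s.snd ≫ e ≫ j := by
        rw [← Category.assoc, hs, Category.assoc]
      rw [he, Category.comp_id, hδj] at h1
      rw [← h1, Category.assoc]
    · intro s m hm _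
      rw [← hm, Category.assoc, pullback.diagonal_fst, Category.comp_id]
  exact ⟨MorphismProperty.of_isPullback H.flip hcl⟩

/-- **(S3)** a scheme representing a functor of rigidified line bundles cut out by a condition `𝒬`
stable under `M⁻¹ ⊗ N` is separated over the field `k`. -/
theorem isSeparated_of_represents (D : RelativePic0Designation k c)
    (𝒬 : ∀ {T : Scheme.{u}} (t : T ⟶ Spec (CommRingCat.of k)), LB (pullback c t) → Prop)
    (h𝒬pb : ∀ {T T' : Scheme.{u}} {t : T ⟶ Spec (CommRingCat.of k)}
      {t' : T' ⟶ Spec (CommRingCat.of k)} (ψ : SchemeHomOver t' t) {M : LB (pullback c t)},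
      𝒬 t M → 𝒬 t' (M.pullback (baseChangeSnd c ψ)))
    (h𝒬div : ∀ {T : Scheme.{u}} {t : T ⟶ Spec (CommRingCat.of k)} {M N : LB (pullback c t)},
      𝒬 t M → 𝒬 t N → 𝒬 t (M.inv.tensor N))
    (P : LB (pullback c D.toBase)) (hrig : LBRigidified c ε D.toBase P) (hP : 𝒬 D.toBase P)
    (huniv : ∀ {T : Scheme.{u}} (t : T ⟶ Spec (CommRingCat.of k)) (M : LB (pullback c t)),
      LBRigidified c ε t M → 𝒬 t M →
      ∃! g : SchemeHomOver t D.toBase, LB.Iso (P.pullback (baseChangeSnd c g)) M)
    (hzero : (P.pullback (baseChangeSnd c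
      (⟨D.zeroSection, D.zeroSection_toBase⟩ : SchemeHomOver (𝟙 _) D.toBase))).IsTrivial) :
    IsSeparated D.toBase := by
  -- every pull-back of `P` is rigidified and satisfies `𝒬`
  have hrigP : ∀ {T : Scheme.{u}} {t : T ⟶ Spec (CommRingCat.of k)} (g : SchemeHomOver t D.toBase),
      PicGroup.map (rigSection c t ε) (cls c P g) = 0 := fun g =>
    rig_map c ε g _ ((rig_iff c ε D.toBase P).mp hrig)
  -- uniqueness of classifying maps
  have huniq : ∀ {T : Scheme.{u}} {t : T ⟶ Spec (CommRingCat.of k)} (g g' : SchemeHomOver t D.toBase),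
      cls c P g = cls c P g' → g = g' := by
    intro T t g g' h
    have hM : LBRigidified c ε t (P.pullback (baseChangeSnd c g')) :=
      (rig_iff c ε t _).mpr (hrigP g')
    obtain ⟨g₀, -, hg₀⟩ := huniv t (P.pullback (baseChangeSnd c g')) hM (h𝒬pb g' hP)
    rw [hg₀ g ((PicGroup.mk_eq_mk_iff _ _).mp h), hg₀ g' (LB.Iso.refl _)]
  -- the difference bundle on `C × J × J`
  let t : pullback D.toBase D.toBase ⟶ Spec (CommRingCat.of k) := pullback.fst D.toBase D.toBase ≫ D.toBase
  let A : SchemeHomOver t D.toBase := ⟨pullback.fst D.toBase D.toBase, rfl⟩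
  let B : SchemeHomOver t D.toBase := ⟨pullback.snd D.toBase D.toBase, pullback.condition.symm⟩
  let N : LB (pullback c t) :=
    (P.pullback (baseChangeSnd c A)).inv.tensor (P.pullback (baseChangeSnd c B))
  have hNcls : PicGroup.mk N = - cls c P A + cls c P B := rfl
  have hNrig : LBRigidified c ε t N := by
    rw [rig_iff, hNcls, map_add, map_neg, hrigP A, hrigP B, neg_zero, add_zero]
  have hN𝒬 : 𝒬 t N := h𝒬div (h𝒬pb A hP) (h𝒬pb B hP)
  obtain ⟨Δ, hΔ, -⟩ := huniv t N hNrig hN𝒬
  have hΔcls : cls c P Δ = - cls c P A + cls c P B :=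
    ((PicGroup.mk_eq_mk_iff _ _).mpr hΔ).trans hNcls
  -- the zero section
  let Z : SchemeHomOver (𝟙 (Spec (CommRingCat.of k))) D.toBase := ⟨D.zeroSection, D.zeroSection_toBase⟩
  have hZ : cls c P Z = 0 := (PicGroup.mk_eq_zero_iff _).mpr hzero
  refine isSeparated_of_difference D.toBase D.zeroSection D.zeroSection_toBase Δ.1 Δ.2 ?_
  intro T' a b hab
  let t' : T' ⟶ Spec (CommRingCat.of k) := a ≫ D.toBase
  let a' : SchemeHomOver t' D.toBase := ⟨a, rfl⟩
  let b' : SchemeHomOver t' D.toBase := ⟨b, hab.symm⟩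
  let ab : SchemeHomOver t' t := ⟨pullback.lift a b hab, by
    show pullback.lift a b hab ≫ pullback.fst D.toBase D.toBase ≫ D.toBase = a ≫ D.toBase
    rw [pullback.lift_fst_assoc]⟩
  let τ : SchemeHomOver t' (𝟙 (Spec (CommRingCat.of k))) := ⟨t', Category.comp_id _⟩
  have hA : postComp A ab = a' := Subtype.ext (pullback.lift_fst _ _ _)
  have hB : postComp B ab = b' := Subtype.ext (pullback.lift_snd _ _ _)
  have h1 : cls c P (postComp Δ ab) = - cls c P a' + cls c P b' := by
    rw [cls_postComp, hΔcls, map_add, map_neg, ← cls_postComp, ← cls_postComp, hA, hB]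
  have h2 : cls c P (postComp Z τ) = 0 := by
    rw [cls_postComp, hZ, map_zero]
  have hiff : pullback.lift a b hab ≫ Δ.1 = (a ≫ D.toBase) ≫ D.zeroSection ↔
      postComp Δ ab = postComp Z τ :=
    ⟨fun h => Subtype.ext h, fun h => congrArg Subtype.val h⟩
  rw [hiff]
  constructor
  · intro h
    have h3 : - cls c P a' + cls c P b' = 0 := by rw [← h1, h, h2]
    have h4 : cls c P a' = cls c P b' := by
      have := neg_add_eq_zero.mp h3
      exact this
    exact congrArg Subtype.val (huniq a' b' h4)
  · intro h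
    have hab' : a' = b' := Subtype.ext h
    apply huniq
    rw [h1, h2, hab', neg_add_cancel]

end Sep

end Fermat.Agent.JAC.J6
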