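/-
PROJECT JAC (S27) — brick (MODEL), helper9: a Dedekind domain of finite type over an algebraically
closed field is locally étale over the affine line, hence standard smooth of relative dimension 1.
-/
import Mathlib

set_option autoImplicit false
set_option linter.style.haveILetI false
set_option linter.unusedSectionVars false
set_option linter.overlappingInstances false

universe u

namespace Fermat.Agent.JAC.MODEL

section A1

variable (R : Type u) [CommRing R] (ι : Type) [Finite ι]

/-- the presentation of the polynomial ring with no relations. -/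
noncomputable def presMvPolynomial : Algebra.Presentation R (MvPolynomial ι R) ι PEmpty.{1} where
  __ := Algebra.Generators.mvPolynomial R ι
  relation := PEmpty.elim
  span_range_relation_eq_ker := by
    simp only [Set.range_eq_empty, Ideal.span_empty]
    exact (Algebra.Generators.ker_mvPolynomial).symm

noncomputable def preSubmMvPolynomial :
    Algebra.PreSubmersivePresentation R (MvPolynomial ι R) ι PEmpty.{1} where
  toPresentation := presMvPolynomial R ι
  map := PEmpty.elim
  map_inj (a b : PEmpty) h := by contradiction

omit [Finite ι] in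
theorem preSubmMvPolynomial_jacobian : (preSubmMvPolynomial R ι).jacobian = 1 := by
  have : (algebraMap (preSubmMvPolynomial R ι).Ring (MvPolynomial ι R)).mapMatrix
      (preSubmMvPolynomial R ι).jacobiMatrix = 1 := by
    ext (i j : PEmpty)
    contradiction
  rw [Algebra.PreSubmersivePresentation.jacobian_eq_jacobiMatrix_det, RingHom.map_det]
  exact (congrArg Matrix.det this).trans Matrix.det_one

noncomputable def submMvPolynomial :
    Algebra.SubmersivePresentation R (MvPolynomial ι R) ι PEmpty.{1} where
  __ := preSubmMvPolynomial R ι
  jacobian_isUnit := by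
    rw [preSubmMvPolynomial_jacobian]
    exact isUnit_one

theorem isStandardSmoothOfRelativeDimension_mvPolynomial :
    Algebra.IsStandardSmoothOfRelativeDimension (Nat.card ι) R (MvPolynomial ι R) :=
  (submMvPolynomial R ι).isStandardSmoothOfRelativeDimension (by
    simp [Algebra.Presentation.dimension])

theorem isStandardSmoothOfRelativeDimension_polynomial :
    Algebra.IsStandardSmoothOfRelativeDimension 1 R (Polynomial R) := by
  have := isStandardSmoothOfRelativeDimension_mvPolynomial R PUnit.{1}
  have h1 : Nat.card PUnit.{1} = 1 := by simp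
  rw [h1] at this
  exact Algebra.IsStandardSmoothOfRelativeDimension.of_algEquiv (n := 1)
    (MvPolynomial.uniqueAlgEquiv R PUnit.{1})

end A1

end Fermat.Agent.JAC.MODEL

open Polynomial IsLocalRing

namespace Fermat.Agent.JAC.MODEL

variable {K B : Type u} [Field K] [IsAlgClosed K] [CommRing B] [IsDomain B] [Algebra K B]
  [Algebra.FiniteType K B] [IsDedekindDomain B]

/-- an element of `B` whose image generates the maximal ideal of the local ring at `m`. -/
theorem exists_uniformizer (hB : ¬ IsField B) (m : Ideal B) [hm : m.IsMaximal] :
    ∃ π : B, π ∈ m ∧ π ≠ 0 ∧ maximalIdeal (Localization.AtPrime m) =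
      Ideal.span {algebraMap B (Localization.AtPrime m) π} := by
  have hm0 : m ≠ ⊥ := Ring.ne_bot_of_isMaximal_of_not_isField hm hB
  haveI : IsDiscreteValuationRing (Localization.AtPrime m) :=
    IsLocalization.AtPrime.isDiscreteValuationRing_of_dedekind_domain B hm0 _
  obtain ⟨ϖ, hϖ⟩ := IsDiscreteValuationRing.exists_irreducible (Localization.AtPrime m)
  obtain ⟨a, s, rfl⟩ := IsLocalization.exists_mk'_eq m.primeCompl ϖ
  have hs : IsUnit (algebraMap B (Localization.AtPrime m) s) :=
    IsLocalization.map_units _ s
  have hassoc : Associated (IsLocalization.mk' (Localization.AtPrime m) a s)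
      (algebraMap B (Localization.AtPrime m) a) := by
    refine ⟨hs.unit, ?_⟩
    rw [IsUnit.unit_spec, IsLocalization.mk'_spec]
  have hirr : Irreducible (algebraMap B (Localization.AtPrime m) a) := hassoc.irreducible hϖ
  refine ⟨a, ?_, ?_, hirr.maximalIdeal_eq⟩
  · have : algebraMap B (Localization.AtPrime m) a ∈ maximalIdeal (Localization.AtPrime m) := by
      rw [hirr.maximalIdeal_eq]; exact Ideal.mem_span_singleton_self _
    exact (IsLocalization.AtPrime.to_map_mem_maximal_iff _ m a).mp this
  · rintro rfl
    exact hirr.ne_zero (map_zero _)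

end Fermat.Agent.JAC.MODEL

namespace Fermat.Agent.JAC.MODEL

variable {K B : Type u} [Field K] [IsAlgClosed K] [CommRing B] [IsDomain B] [Algebra K B]
  [Algebra.FiniteType K B]

/-- the residue field at a maximal ideal of a finitely generated algebra over an algebraically
closed field is the ground field. -/
theorem exists_sub_mem_of_isMaximal (m : Ideal B) [hm : m.IsMaximal] (b : B) :
    ∃ a : K, b - algebraMap K B a ∈ m := by
  letI : Field (B ⧸ m) := Ideal.Quotient.field m
  haveI : Algebra.FiniteType K (B ⧸ m) :=
    Algebra.FiniteType.of_surjective (Ideal.Quotient.mkₐ K m) Ideal.Quotient.mk_surjective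
  haveI : Module.Finite K (B ⧸ m) := finite_of_finite_type_of_isJacobsonRing K (B ⧸ m)
  haveI : Algebra.IsIntegral K (B ⧸ m) := Algebra.IsIntegral.of_finite K (B ⧸ m)
  obtain ⟨a, ha⟩ := (IsAlgClosed.algebraMap_bijective_of_isIntegral (k := K) (K := B ⧸ m)).2
    (Ideal.Quotient.mk m b)
  refine ⟨a, ?_⟩
  rw [← Ideal.Quotient.eq_zero_iff_mem, map_sub, ← ha, sub_eq_zero]
  rfl

end Fermat.Agent.JAC.MODEL

namespace Fermat.Agent.JAC.MODEL

variable {K B : Type u} [Field K] [IsAlgClosed K] [CommRing B] [IsDomain B] [Algebra K B]
  [Algebra.FiniteType K B]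

set_option linter.unusedSectionVars false in
/-- unramifiedness of `K[X] → B` at a maximal ideal where the image of `X` is a uniformizer. -/
theorem isUnramifiedAt_of_uniformizer [Algebra K[X] B] [IsScalarTower K K[X] B]
    (m : Ideal B) [hm : m.IsMaximal]
    (hπ : maximalIdeal (Localization.AtPrime m) =
      Ideal.span {algebraMap B (Localization.AtPrime m) (algebraMap K[X] B X)}) :
    Algebra.IsUnramifiedAt K[X] m := by
  haveI : Algebra.FiniteType K[X] B := Algebra.FiniteType.of_restrictScalars_finiteType K K[X] B
  let p : Ideal K[X] := m.under K[X]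
  letI := Localization.AtPrime.algebraOfLiesOver p m
  rw [Algebra.isUnramifiedAt_iff_map_eq K[X] p m]
  have hXm : algebraMap K[X] B X ∈ m := by
    rw [← IsLocalization.AtPrime.to_map_mem_maximal_iff (Localization.AtPrime m) m, hπ]
    exact Ideal.mem_span_singleton_self _
  constructor
  · refine ⟨fun y => ?_⟩
    obtain ⟨b, rfl⟩ := m.algebraMap_residueField_surjective y
    obtain ⟨a, ha⟩ := exists_sub_mem_of_isMaximal (K := K) m b
    have hb : algebraMap B m.ResidueField b =
        algebraMap p.ResidueField m.ResidueField (algebraMap K[X] p.ResidueField (C a)) := by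
      rw [← IsScalarTower.algebraMap_apply K[X] p.ResidueField m.ResidueField,
        IsScalarTower.algebraMap_apply K[X] B m.ResidueField, ← sub_eq_zero, ← map_sub,
        Ideal.algebraMap_residueField_eq_zero]
      have : algebraMap K[X] B (C a) = algebraMap K B a := by
        rw [← Polynomial.algebraMap_eq, ← IsScalarTower.algebraMap_apply]
      rw [this]
      exact ha
    rw [hb]
    exact isSeparable_algebraMap _
  · apply le_antisymm
    · rw [Ideal.map_le_iff_le_comap]
      intro f hf
      rw [Ideal.mem_comap, IsScalarTower.algebraMap_apply K[X] B (Localization.AtPrime m),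
        IsLocalization.AtPrime.to_map_mem_maximal_iff (Localization.AtPrime m) m]
      exact hf
    · rw [hπ, Ideal.span_le, Set.singleton_subset_iff,
        ← IsScalarTower.algebraMap_apply K[X] B (Localization.AtPrime m)]
      exact Ideal.mem_map_of_mem _ hXm

end Fermat.Agent.JAC.MODEL

namespace Fermat.Agent.JAC.MODEL

variable {K B : Type u} [Field K] [IsAlgClosed K] [CommRing B] [IsDomain B] [Algebra K B]
  [Algebra.FiniteType K B]

/-- a nonzero element of a maximal ideal is transcendental over the algebraically closed ground
field. -/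
theorem aeval_injective_of_mem (m : Ideal B) [hm : m.IsMaximal] (π : B) (hπm : π ∈ m)
    (hπ0 : π ≠ 0) : Function.Injective (aeval (R := K) π) := by
  rw [injective_iff_map_eq_zero]
  intro f hf
  by_contra hf0
  -- `π` is a root of the nonzero polynomial `f`, which splits
  have hroot : ∃ a : K, π = algebraMap K B a := by
    have hint : IsIntegral K π := isAlgebraic_iff_isIntegral.mp ⟨f, hf0, hf⟩
    have hirr := minpoly.irreducible hint
    have hdeg := IsAlgClosed.degree_eq_one_of_irreducible K hirr
    obtain ⟨a, ha⟩ := minpoly.mem_range_of_degree_eq_one K π hdeg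
    exact ⟨a, ha.symm⟩
  obtain ⟨a, rfl⟩ := hroot
  have ha : a ≠ 0 := fun h => hπ0 (by rw [h, map_zero])
  exact hm.ne_top (Ideal.eq_top_of_isUnit_mem _ hπm ((isUnit_iff_ne_zero.mpr ha).map _))

end Fermat.Agent.JAC.MODEL

namespace Fermat.Agent.JAC.MODEL

variable {K B : Type u} [Field K] [IsAlgClosed K] [CommRing B] [IsDomain B] [Algebra K B]
  [Algebra.FiniteType K B] [IsDedekindDomain B]

/-- **(ALG-4)** a Dedekind domain of finite type over an algebraically closed field is, locally
around every maximal ideal, étale over the affine line; in particular standard smooth of relative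
dimension one. -/
theorem exists_isStandardSmoothOfRelativeDimension_away (hB : ¬ IsField B) (m : Ideal B)
    [hm : m.IsMaximal] :
    ∃ h : B, h ∉ m ∧ Algebra.IsStandardSmoothOfRelativeDimension 1 K (Localization.Away h) := by
  obtain ⟨π, hπm, hπ0, hπ⟩ := exists_uniformizer hB m
  letI : Algebra K[X] B := (aeval (R := K) π).toAlgebra
  haveI : IsScalarTower K K[X] B := IsScalarTower.of_algebraMap_eq fun a => by
    show algebraMap K B a = aeval π (algebraMap K K[X] a)
    rw [Polynomial.algebraMap_apply, aeval_C]
    rfl
  have hX : algebraMap K[X] B X = π := aeval_X π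
  have hinj : Function.Injective (algebraMap K[X] B) := aeval_injective_of_mem m π hπm hπ0
  haveI : Module.IsTorsionFree K[X] B := Module.isTorsionFree_iff_algebraMap_injective.mpr hinj
  haveI : Module.Flat K[X] B := inferInstance
  haveI : Algebra.FiniteType K[X] B := Algebra.FiniteType.of_restrictScalars_finiteType K K[X] B
  haveI : Algebra.FinitePresentation K[X] B := Algebra.FinitePresentation.of_finiteType.mp ‹_›
  haveI : Algebra.IsUnramifiedAt K[X] m := isUnramifiedAt_of_uniformizer m (by rw [hX]; exact hπ)
  obtain ⟨h, hhm, hunr⟩ := Algebra.exists_unramified_of_isUnramifiedAt (R := K[X]) m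
  refine ⟨h, hhm, ?_⟩
  haveI : Algebra.FormallyUnramified K[X] (Localization.Away h) := hunr.1
  haveI : Algebra.Etale K[X] (Localization.Away h) := Algebra.Etale.of_formallyUnramified_of_flat
  haveI : Algebra.IsStandardSmoothOfRelativeDimension 0 K[X] (Localization.Away h) :=
    Algebra.Etale.iff_isStandardSmoothOfRelativeDimension_zero.mp ‹_›
  haveI : Algebra.IsStandardSmoothOfRelativeDimension 1 K K[X] :=
    isStandardSmoothOfRelativeDimension_polynomial K
  exact Algebra.IsStandardSmoothOfRelativeDimension.trans K K[X] (Localization.Away h) (n := 1)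
    (m := 0)

end Fermat.Agent.JAC.MODEL

namespace Fermat.Agent.JAC.MODEL

open AlgebraicGeometry CategoryTheory

variable {K B : Type u} [Field K] [IsAlgClosed K] [CommRing B] [IsDomain B] [Algebra K B]
  [Algebra.FiniteType K B] [IsDedekindDomain B]

/-- ring-hom form of (ALG-4). -/
theorem locally_isStandardSmoothOfRelativeDimension_one (hB : ¬ IsField B) :
    RingHom.Locally (RingHom.IsStandardSmoothOfRelativeDimension 1) (algebraMap K B) := by
  rw [RingHom.locally_iff_span_eq_top]
  by_contra hne
  obtain ⟨m, hm, hle⟩ := Ideal.exists_le_maximal _ hne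
  obtain ⟨h, hhm, hsm⟩ := exists_isStandardSmoothOfRelativeDimension_away (K := K) hB m
  apply hhm
  apply hle
  apply Ideal.subset_span
  show RingHom.IsStandardSmoothOfRelativeDimension 1
    ((algebraMap B (Localization.Away h)).comp (algebraMap K B))
  rw [← IsScalarTower.algebraMap_eq K B (Localization.Away h),
    RingHom.isStandardSmoothOfRelativeDimension_algebraMap]
  exact hsm

/-- scheme form of (ALG-4). -/
theorem smoothOfRelativeDimension_one_specMap (hB : ¬ IsField B) :
    SmoothOfRelativeDimension 1 (Spec.map (CommRingCat.ofHom (algebraMap K B))) := by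
  rw [HasRingHomProperty.Spec_iff (P := @SmoothOfRelativeDimension 1)]
  exact locally_isStandardSmoothOfRelativeDimension_one hB

end Fermat.Agent.JAC.MODEL
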