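/-
PROJECT JAC (S25) — helper5 — (P): **Theorem M — the Hilbert chart is a monomorphism on its valid
opens.**

`b, b' : T ⟶ Hs` two `K`-morphisms from an affine `K`-scheme, with base changes `ψb, ψb'`, and an
isomorphism `ψb^*Lu ≅ ψb'^*Lu`.  If both factor through valid opens (`hilb_mono`), or if `T` is the
spectrum of a field and `b` factors through a valid open (`hilb_mono_field`), then `b = b'`.
-/
import Mathlib
import Fermat.Agent.JAC.P_helper5_Valid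

set_option autoImplicit false
set_option linter.style.haveILetI false
set_option linter.unusedSectionVars false

open AlgebraicGeometry CategoryTheory CategoryTheory.Limits Opposite TopologicalSpace TensorProduct

universe u

namespace Fermat.Agent.JAC

open Fermat.Agent.AV Fermat.Agent.AV.CP HilbAlg

noncomputable section

/-- a free generator over a nontrivial ring of functions is nonzero. -/
theorem IsFreeGen.ne_zero {Y T : Scheme.{u}} {q : Y ⟶ T} {L : LB Y} {σ : L.H0}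
    (h : IsFreeGen q L σ) [Nontrivial Γ(T, ⊤)] : σ ≠ 0 := by
  intro h0
  obtain ⟨b, -, hb'⟩ := h 0
  have h1 : ∀ c : Γ(T, ⊤), (0 : L.H0) = q.appTop.hom c • σ := by
    intro c
    rw [h0, smul_zero]
  exact zero_ne_one ((hb' 0 (h1 0)).trans (hb' 1 (h1 1)).symm)

variable {K : Type u} [Field K] {C : Scheme.{u}} [KScheme K C]

section main

variable [IsAlgClosed K] {U₀ : C.Opens} (hU₀ : IsAffineOpen U₀) (U₁ : C.Opens)
  [IsDomain Γ(C, U₀)] [Algebra.FiniteType K Γ(C, U₀)]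
  (hA : ∀ (𝔫 : Ideal Γ(C, U₀)) [𝔫.IsMaximal], IsDiscreteValuationRing (Localization.AtPrime 𝔫))
  {g : ℕ} {v : Fin g → Γ(C, U₀)} {Hs Yv : Scheme.{u}} [KScheme K Hs] [IsAffine Hs]
  {e : HilbRing K Γ(C, U₀) g v →ₐ[K] Γ(Hs, ⊤)} (he : Function.Bijective e)
  {q₁ : Yv ⟶ C} {q₂ : Yv ⟶ Hs}
  (Hv : IsPullback q₁ q₂ (KScheme.str (K := K)) (KScheme.str (K := K)))

include hA he in
/-- **core of Theorem M**: if an isomorphism `ψb^*Lu ≅ ψb'^*Lu` carries `ψb^*σu` to a unit multiple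
of `ψb'^*σu`, then `b = b'`. -/
theorem hilb_mono_core (Lu : LB Yv) (σu : Lu.H0) (hσu : Lu.IsRegSection σu)
    (hZu : Lu.zeroIdeal σu (q₁ ⁻¹ᵁ U₀) = kunIdeal Hv hU₀ (univIdealΓ e))
    {Wu' : Yv.Opens} (hWWu : q₁ ⁻¹ᵁ U₀ ⊔ Wu' = ⊤)
    (huu : ∀ i, IsUnit (res (Lu.U i ⊓ Wu') inf_le_left (σu.1 i)))
    {T Y : Scheme.{u}} [KScheme K T] [IsAffine T] {p₁ : Y ⟶ C} {p₂ : Y ⟶ T}
    (H : IsPullback p₁ p₂ (KScheme.str (K := K)) (KScheme.str (K := K)))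
    (b b' : T ⟶ Hs) (hb : b ≫ KScheme.str (K := K) = KScheme.str)
    (hb' : b' ≫ KScheme.str (K := K) = KScheme.str) (ψb ψb' : Y ⟶ Yv)
    (h1 : ψb ≫ q₁ = p₁) (h2 : ψb ≫ q₂ = p₂ ≫ b) (h1' : ψb' ≫ q₁ = p₁)
    (h2' : ψb' ≫ q₂ = p₂ ≫ b')
    (D : LB.IsoData (Lu.pullback ψb) (Lu.pullback ψb')) (c : Γ(Y, ⊤)) (hc : IsUnit c)
    (hD : D.mapH0 (Lu.pullbackSection ψb σu) = c • Lu.pullbackSection ψb' σu) : b = b' := by
  obtain ⟨hreg, hzero, -, -⟩ := zeroIdeal_pullback_univ hU₀ hA Hv Lu σu hσu hZu hWWu huu b hb p₂ ψb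
    h1 H h2
  obtain ⟨-, hzero', -, -⟩ := zeroIdeal_pullback_univ hU₀ hA Hv Lu σu hσu hZu hWWu huu b' hb' p₂
    ψb' h1' H h2'
  have e1 := D.zeroIdeal_mapH0 _ hreg (p₁ ⁻¹ᵁ U₀)
  rw [hD, LB.zeroIdeal_smul_unit _ _ _ hc] at e1
  have eb := comap_zeroIdeal_of_eq_kunIdeal H hU₀ _ _ hzero
  have eb' := comap_zeroIdeal_of_eq_kunIdeal H hU₀ _ _ hzero'
  have e2 : (univIdealΓ e).map (bcMap (A := Γ(C, U₀)) (appTopAlgHom b' hb')) =
      (univIdealΓ e).map (bcMap (A := Γ(C, U₀)) (appTopAlgHom b hb)) := by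
    rw [← eb, ← eb', e1]
  exact classifying_hom_unique he b b' hb hb' e2.symm

include hA he in
/-- **Theorem M.**  Two `K`-morphisms from an affine `K`-scheme into valid opens of the Hilbert
chart with isomorphic pull-backs of the universal bundle are equal. -/
theorem hilb_mono (Lu : LB Yv) (σu : Lu.H0) (hσu : Lu.IsRegSection σu)
    (hZu : Lu.zeroIdeal σu (q₁ ⁻¹ᵁ U₀) = kunIdeal Hv hU₀ (univIdealΓ e))
    {Wu' : Yv.Opens} (hWWu : q₁ ⁻¹ᵁ U₀ ⊔ Wu' = ⊤)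
    (huu : ∀ i, IsUnit (res (Lu.U i ⊓ Wu') inf_le_left (σu.1 i)))
    {E E' : BaseOpen Hv} (hv : HilbValid Hv U₀ U₁ Lu σu E) (hv' : HilbValid Hv U₀ U₁ Lu σu E')
    {T Y : Scheme.{u}} [KScheme K T] [IsAffine T] {p₁ : Y ⟶ C} {p₂ : Y ⟶ T}
    (H : IsPullback p₁ p₂ (KScheme.str (K := K)) (KScheme.str (K := K)))
    (b b' : T ⟶ Hs) (hb : b ≫ KScheme.str (K := K) = KScheme.str)
    (hb' : b' ≫ KScheme.str (K := K) = KScheme.str) (ψb ψb' : Y ⟶ Yv)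
    (h1 : ψb ≫ q₁ = p₁) (h2 : ψb ≫ q₂ = p₂ ≫ b) (h1' : ψb' ≫ q₁ = p₁)
    (h2' : ψb' ≫ q₂ = p₂ ≫ b') (hl : E.LiftsPoint b p₂ ψb) (hl' : E'.LiftsPoint b' p₂ ψb')
    (D : LB.IsoData (Lu.pullback ψb) (Lu.pullback ψb')) : b = b' := by
  have hu := hv.isUnivGen_pullback U₁ Hv Lu σu b hb p₂ ψb h1 H hl
  have hu' := hv'.isUnivGen_pullback U₁ Hv Lu σu b' hb' p₂ ψb' h1' H hl'
  obtain ⟨w, hw⟩ := hu.exists_unit_of_iso hu' D
  exact hilb_mono_core hU₀ hA he Hv Lu σu hσu hZu hWWu huu H b b' hb hb' ψb ψb' h1 h2 h1' h2' D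
    (p₂.appTop.hom (w : Γ(T, ⊤))) (w.isUnit.map _) hw

include hA he in
/-- **Theorem M at field-valued points**: only one of the two points needs to lie in a valid
open. -/
theorem hilb_mono_field (Lu : LB Yv) (σu : Lu.H0) (hσu : Lu.IsRegSection σu)
    (hZu : Lu.zeroIdeal σu (q₁ ⁻¹ᵁ U₀) = kunIdeal Hv hU₀ (univIdealΓ e))
    {Wu' : Yv.Opens} (hWWu : q₁ ⁻¹ᵁ U₀ ⊔ Wu' = ⊤)
    (huu : ∀ i, IsUnit (res (Lu.U i ⊓ Wu') inf_le_left (σu.1 i)))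
    {E : BaseOpen Hv} (hv : HilbValid Hv U₀ U₁ Lu σu E)
    {T Y : Scheme.{u}} [KScheme K T] [IsAffine T] (hfield : IsField Γ(T, ⊤))
    {p₁ : Y ⟶ C} {p₂ : Y ⟶ T}
    (H : IsPullback p₁ p₂ (KScheme.str (K := K)) (KScheme.str (K := K)))
    (b b' : T ⟶ Hs) (hb : b ≫ KScheme.str (K := K) = KScheme.str)
    (hb' : b' ≫ KScheme.str (K := K) = KScheme.str) (ψb ψb' : Y ⟶ Yv)
    (h1 : ψb ≫ q₁ = p₁) (h2 : ψb ≫ q₂ = p₂ ≫ b) (h1' : ψb' ≫ q₁ = p₁)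
    (h2' : ψb' ≫ q₂ = p₂ ≫ b') (hl : E.LiftsPoint b p₂ ψb)
    (D : LB.IsoData (Lu.pullback ψb) (Lu.pullback ψb')) : b = b' := by
  haveI : Nontrivial Γ(T, ⊤) := hfield.nontrivial
  have hu := hv.isUnivGen_pullback U₁ Hv Lu σu b hb p₂ ψb h1 H hl
  have hgen : IsFreeGen p₂ (Lu.pullback ψb') (D.mapH0 (Lu.pullbackSection ψb σu)) :=
    hu.isFreeGen.of_iso D
  obtain ⟨hreg', -, -, -⟩ := zeroIdeal_pullback_univ hU₀ hA Hv Lu σu hσu hZu hWWu huu b' hb' p₂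
    ψb' h1' H h2'
  have hne : Lu.pullbackSection ψb' σu ≠ 0 := isRegSection_ne_zero hreg' _ hgen.ne_zero
  obtain ⟨c, hc, -⟩ := hgen (Lu.pullbackSection ψb' σu)
  have hc0 : c ≠ 0 := by
    intro h0
    apply hne
    rw [hc, h0, map_zero, zero_smul]
  obtain ⟨d, hd⟩ := hfield.mul_inv_cancel hc0
  have hD : D.mapH0 (Lu.pullbackSection ψb σu) =
      p₂.appTop.hom d • Lu.pullbackSection ψb' σu := by
    conv_rhs => rw [hc]
    rw [← mul_smul, ← map_mul, mul_comm, hd, map_one, one_smul]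
  have hdu : IsUnit d := IsUnit.of_mul_eq_one _ (by rw [mul_comm]; exact hd)
  exact hilb_mono_core hU₀ hA he Hv Lu σu hσu hZu hWWu huu H b b' hb hb' ψb ψb' h1 h2 h1' h2' D
    (p₂.appTop.hom d) (hdu.map _) hD

end main

end

end Fermat.Agent.JAC
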