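/-
PROJECT JAC (S25) — helper5 — (P): **classify and land.**

`SpreadsInto r`: the conclusion of Theorem S, with the classifying morphism landing in the basic open
`D(r)` of the Hilbert chart.

* `exists_spreadsInto_valid` (for the covering property of the charts): if the chart condition
  holds for `L` at a field-valued point `z`, then near `z` the family `L` is classified by a morphism
  into a VALID basic open `D(r)` (inside an open of a prescribed kind containing the image point);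
* `spreadsInto_of_point` (for the openness property of the charts): if at a field-valued point `z`
  the fibre of `L` is the fibre of the universal family at a point of a valid `D(r)`, then near `z`
  the family `L` is classified by a morphism into `D(r)`.
-/
import Mathlib
import Fermat.Agent.JAC.P_helper5_Mono

set_option autoImplicit false
set_option linter.style.haveILetI false
set_option linter.unusedSectionVars false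

open AlgebraicGeometry CategoryTheory CategoryTheory.Limits Opposite TopologicalSpace TensorProduct

universe u

namespace Fermat.Agent.JAC

open Fermat.Agent.AV Fermat.Agent.AV.CP HilbAlg

noncomputable section

variable {K : Type u} [Field K] {C : Scheme.{u}} [KScheme K C]

section main

variable [IsAlgClosed K] {U₀ : C.Opens} (hU₀ : IsAffineOpen U₀) (U₁ : C.Opens)
  [IsDomain Γ(C, U₀)] [Algebra.FiniteType K Γ(C, U₀)]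
  (hA : ∀ (𝔫 : Ideal Γ(C, U₀)) [𝔫.IsMaximal], IsDiscreteValuationRing (Localization.AtPrime 𝔫))
  {g : ℕ} {v : Fin g → Γ(C, U₀)} {Hs Yv : Scheme.{u}} [KScheme K Hs] [IsAffine Hs]
  {e : HilbRing K Γ(C, U₀) g v →ₐ[K] Γ(Hs, ⊤)} (he : Function.Bijective e)
  {q₁ : Yv ⟶ C} {q₂ : Yv ⟶ Hs}
  (Hv : IsPullback q₁ q₂ (KScheme.str (K := K)) (KScheme.str (K := K)))

/-- the conclusion of the spreading theorem, with the classifying morphism landing in `D(r)`. -/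
def SpreadsInto (Lu : LB Yv) {T Y : Scheme.{u}} [KScheme K T] {p₁ : Y ⟶ C} {p₂ : Y ⟶ T}
    (H : IsPullback p₁ p₂ (KScheme.str (K := K)) (KScheme.str (K := K))) (L : LB Y)
    {T' Y' : Scheme.{u}} (z : T' ⟶ T) (p₂' : Y' ⟶ T') (ψ : Y' ⟶ Y) (r : Γ(Hs, ⊤)) : Prop :=
  ∃ E : BaseOpen H, E.LiftsPoint z p₂' ψ ∧
    ∃ (b : E.T₁ ⟶ Hs) (_ : b ≫ KScheme.str (K := K) = KScheme.str) (ψb : E.Y₁ ⟶ Yv),
      ψb ≫ q₁ = E.ψ₁ ≫ p₁ ∧ ψb ≫ q₂ = E.p₂₁ ≫ b ∧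
      (BaseOpen.ofBasicOpen Hv r).LiftsPoint b E.p₂₁ ψb ∧
      Nonempty (LB.IsoData (Lu.pullback ψb) (L.pullback E.ψ₁))

omit [IsAlgClosed K] [IsDomain Γ(C, U₀)] [Algebra.FiniteType K Γ(C, U₀)] in
/-- **landing**: a classifying morphism over `E₀` whose value at the point lies in `D(r)` restricts
to a classifying morphism into `D(r)` over a smaller neighbourhood of the point. -/
theorem spreadsInto_of_appTop_ne_zero (Lu : LB Yv) {T Y : Scheme.{u}} [KScheme K T]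
    {p₁ : Y ⟶ C} {p₂ : Y ⟶ T}
    (H : IsPullback p₁ p₂ (KScheme.str (K := K)) (KScheme.str (K := K))) (L : LB Y)
    {T' Y' : Scheme.{u}} (hfield : IsField Γ(T', ⊤)) (z : T' ⟶ T) (p₂' : Y' ⟶ T') (ψ : Y' ⟶ Y)
    (E₀ : BaseOpen H) (z₁ : T' ⟶ E₀.T₁) (ψ' : Y' ⟶ E₀.Y₁) (hz₁ : z₁ ≫ E₀.j = z)
    (hψ' : ψ' ≫ E₀.ψ₁ = ψ) (hsq : ψ' ≫ E₀.p₂₁ = p₂' ≫ z₁)
    (b₀ : E₀.T₁ ⟶ Hs) (hb₀ : b₀ ≫ KScheme.str (K := K) = KScheme.str) (ψb₀ : E₀.Y₁ ⟶ Yv)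
    (hq₁ : ψb₀ ≫ q₁ = E₀.ψ₁ ≫ p₁) (hq₂ : ψb₀ ≫ q₂ = E₀.p₂₁ ≫ b₀)
    (D₀ : LB.IsoData (Lu.pullback ψb₀) (L.pullback E₀.ψ₁))
    (r : Γ(Hs, ⊤)) (hr : (z₁ ≫ b₀).appTop.hom r ≠ 0) :
    SpreadsInto Hv Lu H L z p₂' ψ r := by
  set f : Γ(E₀.T₁, ⊤) := b₀.appTop.hom r with hf
  have hzf : z₁.appTop.hom f ≠ 0 := by
    intro h0
    apply hr
    rw [Scheme.Hom.comp_appTop]
    exact h0
  have hzf' : ∀ s, z₁.base s ∈ E₀.T₁.basicOpen f :=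
    mem_basicOpen_of_appTop_ne_zero hfield z₁ f hzf
  set E₁ := BaseOpen.ofBasicOpen E₀.H₁ f with hE₁
  have hlift₁ : E₁.LiftsPoint z₁ p₂' ψ' := BaseOpen.liftsPoint_ofBasicOpen f z₁ p₂' ψ' hsq hzf'
  refine ⟨E₀.comp E₁, BaseOpen.LiftsPoint.comp hz₁ hψ' hlift₁, E₁.j ≫ b₀, ?_, E₁.ψ₁ ≫ ψb₀, ?_, ?_,
    ?_, ⟨?_⟩⟩
  · rw [Category.assoc, hb₀]
    exact E₁.hj
  · show (E₁.ψ₁ ≫ ψb₀) ≫ q₁ = (E₁.ψ₁ ≫ E₀.ψ₁) ≫ p₁
    rw [Category.assoc, hq₁, Category.assoc]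
  · show (E₁.ψ₁ ≫ ψb₀) ≫ q₂ = E₁.p₂₁ ≫ E₁.j ≫ b₀
    rw [Category.assoc, hq₂, ← Category.assoc, E₁.hψ₁, Category.assoc]
  · refine BaseOpen.liftsPoint_ofBasicOpen r (E₁.j ≫ b₀) E₁.p₂₁ (E₁.ψ₁ ≫ ψb₀) ?_ ?_
    · rw [Category.assoc, hq₂, ← Category.assoc, E₁.hψ₁, Category.assoc]
    · intro s
      have h1 : (E₀.T₁.basicOpen f).ι.base s ∈ E₀.T₁.basicOpen f := s.2
      have h2 : (E₀.T₁.basicOpen f).ι.base s ∈ b₀ ⁻¹ᵁ Hs.basicOpen r := by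
        rw [Scheme.preimage_basicOpen]
        exact h1
      exact h2
  · show LB.IsoData (Lu.pullback (E₁.ψ₁ ≫ ψb₀)) (L.pullback (E₁.ψ₁ ≫ E₀.ψ₁))
    exact D₀.pullback E₁.ψ₁

include hA he in
/-- **classify and land in a valid open** (for the covering property). -/
theorem exists_spreadsInto_valid (hJ3 : J3UnivGen K U₀ U₁) (hH1 : H1Locus K U₀ U₁)
    (hGeom : GeomLFC K hU₀) (Lu : LB Yv) (σu : Lu.H0) (hσu : Lu.IsRegSection σu)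
    (hZu : Lu.zeroIdeal σu (q₁ ⁻¹ᵁ U₀) = kunIdeal Hv hU₀ (univIdealΓ e))
    {Wu' : Yv.Opens} (hWWu : q₁ ⁻¹ᵁ U₀ ⊔ Wu' = ⊤)
    (huu : ∀ i, IsUnit (res (Lu.U i ⊓ Wu') inf_le_left (σu.1 i)))
    {T Y : Scheme.{u}} [KScheme K T] [IsAffine T] {p₁ : Y ⟶ C} {p₂ : Y ⟶ T} [IsProper p₂]
    (H : IsPullback p₁ p₂ (KScheme.str (K := K)) (KScheme.str (K := K))) (L : LB Y)
    {T' Y' : Scheme.{u}} [KScheme K T'] [IsAffine T'] [Subsingleton T'] [Nonempty T']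
    (hfield : IsField Γ(T', ⊤))
    (z : T' ⟶ T) (hz : z ≫ KScheme.str (K := K) = KScheme.str) (p₂' : Y' ⟶ T') (ψ : Y' ⟶ Y)
    {p₁' : Y' ⟶ C} (hp₁' : ψ ≫ p₁ = p₁')
    (H' : IsPullback p₁' p₂' (KScheme.str (K := K)) (KScheme.str (K := K)))
    (hψ : ψ ≫ p₂ = p₂' ≫ z)
    (hregY' : ∀ (L' : LB Y') (σ : L'.H0), σ ≠ 0 → L'.IsRegSection σ)
    (hcc : ChartCond H' hU₀ U₁ v (L.pullback ψ))
    (Good : Hs.Opens → Prop)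
    (hGood : ∀ (φ : T' ⟶ Hs) (_ : φ ≫ KScheme.str (K := K) = KScheme.str) (ψφ : Y' ⟶ Yv),
      ψφ ≫ q₁ = p₁' → ψφ ≫ q₂ = p₂' ≫ φ →
      Nonempty (LB.IsoData (Lu.pullback ψφ) (L.pullback ψ)) →
      ∃ O : Hs.Opens, Good O ∧ ∀ s : T', φ.base s ∈ O) :
    ∃ (r : Γ(Hs, ⊤)) (O : Hs.Opens), Good O ∧ Hs.basicOpen r ≤ O ∧
      HilbValid Hv U₀ U₁ Lu σu (BaseOpen.ofBasicOpen Hv r) ∧
      SpreadsInto Hv Lu H L z p₂' ψ r := by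
  haveI : Nontrivial Γ(T', ⊤) := hfield.nontrivial
  obtain ⟨E₀, ⟨z₁, ψ', hz₁, hψ', hsq⟩, b₀, hb₀, ψb₀, hq₁, hq₂, ⟨D₀⟩⟩ :=
    exists_classifying_nhds hU₀ U₁ hA he Hv hJ3 hGeom Lu σu hσu hZu hWWu huu H L hfield z hz p₂' ψ
      hp₁' H' hψ hcc
  have hφ : (z₁ ≫ b₀) ≫ KScheme.str (K := K) = KScheme.str := by
    rw [Category.assoc, hb₀, ← E₀.hj, ← Category.assoc, hz₁, hz]
  have h1φ : (ψ' ≫ ψb₀) ≫ q₁ = p₁' := by
    rw [Category.assoc, hq₁, ← Category.assoc, hψ', hp₁']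
  have h2φ : (ψ' ≫ ψb₀) ≫ q₂ = p₂' ≫ (z₁ ≫ b₀) := by
    rw [Category.assoc, hq₂, ← Category.assoc, hsq, Category.assoc]
  have Dφ : LB.IsoData (Lu.pullback (ψ' ≫ ψb₀)) (L.pullback ψ) := by
    subst hψ'
    exact D₀.pullback ψ'
  obtain ⟨O, hGO, hO⟩ := hGood (z₁ ≫ b₀) hφ (ψ' ≫ ψb₀) h1φ h2φ ⟨Dφ⟩
  have hccφ : ChartCond H' hU₀ U₁ v (Lu.pullback (ψ' ≫ ψb₀)) :=
    hcc.of_iso H' hU₀ U₁ v (fun σ hσ => hregY' _ σ (IsFreeGen.ne_zero (q := p₂') hσ.1)) Dφ.symm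
  obtain ⟨r, hr, hrO, hvalid⟩ := exists_hilbValid_nhds hU₀ U₁ hA Hv hJ3 hH1 Lu σu hσu hZu hWWu huu
    hfield (z₁ ≫ b₀) hφ p₂' (ψ' ≫ ψb₀) h1φ H' h2φ hccφ O hO
  exact ⟨r, O, hGO, hrO, hvalid, spreadsInto_of_appTop_ne_zero Hv Lu H L hfield z p₂' ψ E₀ z₁ ψ' hz₁
    hψ' hsq b₀ hb₀ ψb₀ hq₁ hq₂ D₀ r hr⟩

include hA he in
/-- **classify and land in a given valid open** (for the openness property): if the fibre of `L` at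
the field-valued point `z` is the fibre of the universal family at a point `φ₀` of the valid open
`D(r)`, then near `z` the family `L` is classified by a morphism into `D(r)`. -/
theorem spreadsInto_of_point (hJ3 : J3UnivGen K U₀ U₁) (hH1 : H1Locus K U₀ U₁)
    (hGeom : GeomLFC K hU₀) (Lu : LB Yv) (σu : Lu.H0) (hσu : Lu.IsRegSection σu)
    (hZu : Lu.zeroIdeal σu (q₁ ⁻¹ᵁ U₀) = kunIdeal Hv hU₀ (univIdealΓ e))
    {Wu' : Yv.Opens} (hWWu : q₁ ⁻¹ᵁ U₀ ⊔ Wu' = ⊤)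
    (huu : ∀ i, IsUnit (res (Lu.U i ⊓ Wu') inf_le_left (σu.1 i)))
    {r : Γ(Hs, ⊤)} (hvalid : HilbValid Hv U₀ U₁ Lu σu (BaseOpen.ofBasicOpen Hv r))
    {T Y : Scheme.{u}} [KScheme K T] [IsAffine T] {p₁ : Y ⟶ C} {p₂ : Y ⟶ T} [IsProper p₂]
    (H : IsPullback p₁ p₂ (KScheme.str (K := K)) (KScheme.str (K := K))) (L : LB Y)
    {T' Y' : Scheme.{u}} [KScheme K T'] [IsAffine T'] [Subsingleton T']
    (hfield : IsField Γ(T', ⊤))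
    (z : T' ⟶ T) (hz : z ≫ KScheme.str (K := K) = KScheme.str) (p₂' : Y' ⟶ T') (ψ : Y' ⟶ Y)
    {p₁' : Y' ⟶ C} (hp₁' : ψ ≫ p₁ = p₁')
    (H' : IsPullback p₁' p₂' (KScheme.str (K := K)) (KScheme.str (K := K)))
    (hψ : ψ ≫ p₂ = p₂' ≫ z)
    (φ₀ : T' ⟶ Hs) (hφ₀ : φ₀ ≫ KScheme.str (K := K) = KScheme.str) (ψφ₀ : Y' ⟶ Yv)
    (h1 : ψφ₀ ≫ q₁ = p₁') (h2 : ψφ₀ ≫ q₂ = p₂' ≫ φ₀)
    (hl : (BaseOpen.ofBasicOpen Hv r).LiftsPoint φ₀ p₂' ψφ₀)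
    (D : LB.IsoData (Lu.pullback ψφ₀) (L.pullback ψ)) :
    SpreadsInto Hv Lu H L z p₂' ψ r := by
  haveI : Nontrivial Γ(T', ⊤) := hfield.nontrivial
  obtain ⟨hcc₀, hreg₀, hcs₀, -⟩ := hvalid.chartCond hU₀ U₁ hA Hv hH1 Lu σu hσu hZu hWWu huu φ₀ hφ₀
    p₂' ψφ₀ h1 H' h2 hl
  have hcc : ChartCond H' hU₀ U₁ v (L.pullback ψ) :=
    ⟨TW.h1Vanishes_of_iso ⟨D⟩ hcc₀.h1, D.mapH0 _, hcs₀.of_iso H' hU₀ v hreg₀ D⟩
  obtain ⟨E₀, ⟨z₁, ψ', hz₁, hψ', hsq⟩, b₀, hb₀, ψb₀, hq₁, hq₂, ⟨D₀⟩⟩ :=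
    exists_classifying_nhds hU₀ U₁ hA he Hv hJ3 hGeom Lu σu hσu hZu hWWu huu H L hfield z hz p₂' ψ
      hp₁' H' hψ hcc
  have hφ : (z₁ ≫ b₀) ≫ KScheme.str (K := K) = KScheme.str := by
    rw [Category.assoc, hb₀, ← E₀.hj, ← Category.assoc, hz₁, hz]
  have h1φ : (ψ' ≫ ψb₀) ≫ q₁ = p₁' := by
    rw [Category.assoc, hq₁, ← Category.assoc, hψ', hp₁']
  have h2φ : (ψ' ≫ ψb₀) ≫ q₂ = p₂' ≫ (z₁ ≫ b₀) := by
    rw [Category.assoc, hq₂, ← Category.assoc, hsq, Category.assoc]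
  have Dφ : LB.IsoData (Lu.pullback (ψ' ≫ ψb₀)) (L.pullback ψ) := by
    subst hψ'
    exact D₀.pullback ψ'
  have heq : φ₀ = z₁ ≫ b₀ := hilb_mono_field hU₀ U₁ hA he Hv Lu σu hσu hZu hWWu huu hvalid hfield H'
    φ₀ (z₁ ≫ b₀) hφ₀ hφ ψφ₀ (ψ' ≫ ψb₀) h1 h2 h1φ h2φ hl (D.trans Dφ.symm)
  have hr : (z₁ ≫ b₀).appTop.hom r ≠ 0 := by
    rw [← heq]
    obtain ⟨w, -, hw, -, -⟩ := hl
    have hw' : w ≫ (Hs.basicOpen r).ι = φ₀ := hw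
    rw [← hw', Scheme.Hom.comp_appTop]
    have hu : IsUnit (w.appTop.hom ((Hs.basicOpen r).ι.appTop.hom r)) :=
      (isUnit_appTop_ι_basicOpen r).map _
    exact hu.ne_zero
  exact spreadsInto_of_appTop_ne_zero Hv Lu H L hfield z p₂' ψ E₀ z₁ ψ' hz₁ hψ' hsq b₀ hb₀ ψb₀ hq₁
    hq₂ D₀ r hr

end main

end

end Fermat.Agent.JAC
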