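/-
PROJECT JAC (S25) — helper5 — (P), part 2: **the existence half of `ChartData.W_spec` may be checked
locally** (against helper9's `REP_helper9_Iface`).

`exists_hom_of_local`: `F` a Zariski sheaf on `Over S`, `(X, ξ)` a chart which is a monomorphism on
affine test objects; if `T` is affine and `η ∈ F(T)` is, locally on `T`, a pull-back of `ξ`, then it
is globally a pull-back of `ξ`.
-/
import Mathlib
import Fermat.Agent.JAC.REP_helper9_Iface

set_option autoImplicit false
set_option linter.style.haveILetI false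

universe u

open CategoryTheory CategoryTheory.Limits AlgebraicGeometry Opposite

namespace Fermat.Agent.JAC.REP

variable {S : Scheme.{u}} (F : (Over S)ᵒᵖ ⥤ Type u)

theorem lc_map_op_comp {A B C : Over S} (f : A ⟶ B) (g : B ⟶ C) (x : F.obj (op C)) :
    F.map (f ≫ g).op x = F.map f.op (F.map g.op x) := by
  rw [op_comp, Functor.map_comp_apply]

theorem lc_resLE_resHom (T : Over S) {U V : T.left.Opens} (h : U ≤ V) :
    resLE T h ≫ resHom T V = resHom T U := by
  ext
  exact Scheme.homOfLE_ι _ h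

theorem lc_map_resHom_resLE (T : Over S) {U V : T.left.Opens} (h : U ≤ V) (η : F.obj (op T)) :
    F.map (resLE T h).op (F.map (resHom T V).op η) = F.map (resHom T U).op η := by
  rw [← lc_map_op_comp, lc_resLE_resHom]

/-- **local-to-global for charts.** -/
theorem exists_hom_of_local (hF : IsZariskiSheaf F) (X : Over S) (ξ : F.obj (op X))
    (mono : ∀ (T : Over S), IsAffine T.left → ∀ b b' : T ⟶ X,
      F.map b.op ξ = F.map b'.op ξ → b = b')
    (T : Over S) [IsAffine T.left] (η : F.obj (op T))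
    (hloc : ∀ x : T.left, ∃ U : T.left.Opens, x ∈ U ∧
      ∃ b : resOpen T U ⟶ X, F.map b.op ξ = F.map (resHom T U).op η) :
    ∃ b : T ⟶ X, F.map b.op ξ = η := by
  -- refine to affine opens
  have hloc' : ∀ x : T.left, ∃ U : T.left.Opens, x ∈ U ∧ IsAffineOpen U ∧
      ∃ b : resOpen T U ⟶ X, F.map b.op ξ = F.map (resHom T U).op η := by
    intro x
    obtain ⟨U, hxU, b, hb⟩ := hloc x
    obtain ⟨V, hV, hxV, hVU⟩ :=
      TopologicalSpace.Opens.isBasis_iff_nbhd.mp T.left.isBasis_affineOpens hxU
    refine ⟨V, hxV, hV, resLE T hVU ≫ b, ?_⟩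
    rw [lc_map_op_comp, hb, lc_map_resHom_resLE]
  choose U hxU hUaff b hb using hloc'
  let 𝒰 : T.left.OpenCover := {
    I₀ := T.left, X i := (U i), f i := (U i).ι,
    mem₀ := by
      rw [Scheme.presieve₀_mem_precoverage_iff]
      refine ⟨fun x ↦ ⟨x, by simpa using hxU x⟩, inferInstance⟩ }
  -- compatibility on overlaps
  have hcompat : ∀ x y : T.left, pullback.fst (𝒰.f x) (𝒰.f y) ≫ (b x).left =
      pullback.snd (𝒰.f x) (𝒰.f y) ≫ (b y).left := by
    intro x y
    haveI : IsAffine (U x : Scheme) := hUaff x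
    haveI : IsAffine (U y : Scheme) := hUaff y
    let P : Over S := Over.mk (pullback.fst (U x).ι (U y).ι ≫ (U x).ι ≫ T.hom)
    have hPaff : IsAffine P.left := by
      show IsAffine (pullback (U x).ι (U y).ι)
      infer_instance
    let px : P ⟶ resOpen T (U x) := Over.homMk (pullback.fst (U x).ι (U y).ι) rfl
    let py : P ⟶ resOpen T (U y) := Over.homMk (pullback.snd (U x).ι (U y).ι) (by
      show pullback.snd (U x).ι (U y).ι ≫ (U y).ι ≫ T.hom =
        pullback.fst (U x).ι (U y).ι ≫ (U x).ι ≫ T.hom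
      rw [← Category.assoc, ← pullback.condition, Category.assoc])
    have hxy : px ≫ resHom T (U x) = py ≫ resHom T (U y) := by
      ext
      exact pullback.condition
    have h1 : F.map (px ≫ b x).op ξ = F.map (py ≫ b y).op ξ := by
      rw [lc_map_op_comp, lc_map_op_comp, hb, hb, ← lc_map_op_comp, ← lc_map_op_comp, hxy]
    have h2 := mono P hPaff (px ≫ b x) (py ≫ b y) h1
    exact congrArg (fun f => f.left) h2
  let g : T.left ⟶ X.left := 𝒰.glueMorphisms (fun x => (b x).left) hcompat
  have hg : ∀ x, (U x).ι ≫ g = (b x).left := fun x => 𝒰.ι_glueMorphisms _ hcompat x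
  have hgS : g ≫ X.hom = T.hom := by
    refine 𝒰.hom_ext _ _ (fun x => ?_)
    show (U x).ι ≫ g ≫ X.hom = (U x).ι ≫ T.hom
    rw [← Category.assoc, hg x]
    exact Over.w (b x)
  refine ⟨Over.homMk g hgS, ?_⟩
  refine hF.sep T (Set.range U) ?_ _ _ ?_
  · rw [eq_top_iff]
    intro x _
    exact (TopologicalSpace.Opens.mem_sSup).2 ⟨U x, ⟨x, rfl⟩, hxU x⟩
  · rintro _ ⟨x, rfl⟩
    have h3 : resHom T (U x) ≫ Over.homMk g hgS = b x := by
      ext
      exact hg x
    rw [← lc_map_op_comp, h3, hb x]

end Fermat.Agent.JAC.REP
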