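/-
PROJECT JAC (S25) — helper5 — (P): **affine opens of the base with the restricted product family**,
and lifting of (field-valued) points.  Bookkeeping for the nested localisations in the spreading
theorem.

Setting: `H : IsPullback p₁ p₂ str str` (`Y = C ×_K T`).
* `kSchemeOpens V` : an open subscheme of a `K`-scheme is a `K`-scheme (instance);
* `BaseOpen H` : an affine `K`-scheme `T₁` with an open immersion `j : T₁ ⟶ T` over `K` and a
  product square `H₁ : IsPullback (ψ₁ ≫ p₁) p₂₁ str str` over it (`hψ₁ : ψ₁ ≫ p₂ = p₂₁ ≫ j`)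
  — lead's base-change shape;
* `BaseOpen.refl`, `BaseOpen.comp`, `BaseOpen.ofBasicOpen H f` (the canonical restriction to `D(f)`:
  `T₁ = D(f)`, `Y₁ = p₂⁻¹ D(f)`, `ψ₁ = (p₂⁻¹ D(f)).ι`, `p₂₁ = p₂ ∣_ D(f)`);
* `BaseOpen.LiftsPoint` and `BaseOpen.liftsPoint_ofBasicOpen`: a point `z : T' ⟶ T` with a square
  `ψ : Y' ⟶ Y`, `p₂' : Y' ⟶ T'` over it lifts to the restriction as soon as it lands in `D(f)`.
-/
import Mathlib
import Fermat.Agent.AV.CP_helper8_Kunneth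

set_option autoImplicit false

open AlgebraicGeometry CategoryTheory CategoryTheory.Limits Opposite TopologicalSpace

universe u

namespace Fermat.Agent.JAC

open Fermat.Agent.AV Fermat.Agent.AV.CP

noncomputable section

variable {K : Type u} [Field K]

/-- an open subscheme of a `K`-scheme is a `K`-scheme. -/
instance kSchemeOpens {X : Scheme.{u}} [KScheme K X] (V : X.Opens) : KScheme K V.toScheme :=
  ⟨V.ι ≫ KScheme.str (K := K)⟩

theorem kSchemeOpens_str {X : Scheme.{u}} [KScheme K X] (V : X.Opens) :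
    KScheme.str (K := K) (X := V.toScheme) = V.ι ≫ KScheme.str (K := K) := rfl

variable {C T Y : Scheme.{u}} [KScheme K C] [KScheme K T] {p₁ : Y ⟶ C} {p₂ : Y ⟶ T}

/-- an affine `K`-scheme, open in the base `T`, together with the restricted product family. -/
structure BaseOpen (H : IsPullback p₁ p₂ (KScheme.str (K := K)) (KScheme.str (K := K))) where
  T₁ : Scheme.{u}
  Y₁ : Scheme.{u}
  kT₁ : KScheme K T₁
  aff : IsAffine T₁
  j : T₁ ⟶ T
  jopen : IsOpenImmersion j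
  hj : j ≫ KScheme.str (K := K) = KScheme.str (K := K)
  p₂₁ : Y₁ ⟶ T₁
  ψ₁ : Y₁ ⟶ Y
  H₁ : IsPullback (ψ₁ ≫ p₁) p₂₁ (KScheme.str (K := K)) (KScheme.str (K := K))
  hψ₁ : ψ₁ ≫ p₂ = p₂₁ ≫ j

namespace BaseOpen

variable {H : IsPullback p₁ p₂ (KScheme.str (K := K)) (KScheme.str (K := K))}

instance (E : BaseOpen H) : KScheme K E.T₁ := E.kT₁

instance (E : BaseOpen H) : IsAffine E.T₁ := E.aff

instance (E : BaseOpen H) : IsOpenImmersion E.j := E.jopen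

/-- the whole base (when it is affine). -/
def refl (H : IsPullback p₁ p₂ (KScheme.str (K := K)) (KScheme.str (K := K))) [hT : IsAffine T] :
    BaseOpen H where
  T₁ := T
  Y₁ := Y
  kT₁ := inferInstance
  aff := hT
  j := 𝟙 T
  jopen := inferInstance
  hj := Category.id_comp _
  p₂₁ := p₂
  ψ₁ := 𝟙 Y
  H₁ := by rw [Category.id_comp]; exact H
  hψ₁ := by rw [Category.id_comp, Category.comp_id]

/-- composition of restrictions. -/
def comp (E : BaseOpen H) (E' : BaseOpen E.H₁) : BaseOpen H where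
  T₁ := E'.T₁
  Y₁ := E'.Y₁
  kT₁ := E'.kT₁
  aff := E'.aff
  j := E'.j ≫ E.j
  jopen := inferInstance
  hj := by rw [Category.assoc, E.hj, E'.hj]
  p₂₁ := E'.p₂₁
  ψ₁ := E'.ψ₁ ≫ E.ψ₁
  H₁ := by rw [Category.assoc]; exact E'.H₁
  hψ₁ := by rw [Category.assoc, E.hψ₁, ← Category.assoc, E'.hψ₁, Category.assoc]

/-- the canonical restriction to a basic open `D(f)` of the affine base. -/
def ofBasicOpen (H : IsPullback p₁ p₂ (KScheme.str (K := K)) (KScheme.str (K := K)))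
    [IsAffine T] (f : Γ(T, ⊤)) : BaseOpen H where
  T₁ := (T.basicOpen f).toScheme
  Y₁ := (p₂ ⁻¹ᵁ T.basicOpen f).toScheme
  kT₁ := inferInstance
  aff := ((isAffineOpen_top T).basicOpen f)
  j := (T.basicOpen f).ι
  jopen := inferInstance
  hj := rfl
  p₂₁ := p₂ ∣_ T.basicOpen f
  ψ₁ := (p₂ ⁻¹ᵁ T.basicOpen f).ι
  H₁ := (isPullback_morphismRestrict p₂ (T.basicOpen f)).flip.paste_horiz H
  hψ₁ := (isPullback_morphismRestrict p₂ (T.basicOpen f)).w.symm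

/-- a point `z : T' ⟶ T` with a square `(ψ, p₂')` over it lifts to the restriction `E`. -/
def LiftsPoint (E : BaseOpen H) {T' Y' : Scheme.{u}} (z : T' ⟶ T) (p₂' : Y' ⟶ T') (ψ : Y' ⟶ Y) :
    Prop :=
  ∃ (z₁ : T' ⟶ E.T₁) (ψ' : Y' ⟶ E.Y₁), z₁ ≫ E.j = z ∧ ψ' ≫ E.ψ₁ = ψ ∧ ψ' ≫ E.p₂₁ = p₂' ≫ z₁

theorem liftsPoint_refl [IsAffine T] {T' Y' : Scheme.{u}} (z : T' ⟶ T) (p₂' : Y' ⟶ T')
    (ψ : Y' ⟶ Y) (hψ : ψ ≫ p₂ = p₂' ≫ z) : (refl H).LiftsPoint z p₂' ψ :=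
  ⟨z, ψ, Category.comp_id _, Category.comp_id _, hψ⟩

theorem liftsPoint_ofBasicOpen [IsAffine T] (f : Γ(T, ⊤)) {T' Y' : Scheme.{u}} (z : T' ⟶ T)
    (p₂' : Y' ⟶ T') (ψ : Y' ⟶ Y) (hψ : ψ ≫ p₂ = p₂' ≫ z)
    (hz : ∀ s : T', z.base s ∈ T.basicOpen f) : (ofBasicOpen H f).LiftsPoint z p₂' ψ := by
  have h1 : Set.range z.base ⊆ Set.range (T.basicOpen f).ι.base := by
    rw [Scheme.Opens.range_ι]
    rintro _ ⟨s, rfl⟩
    exact hz s
  have h2 : Set.range ψ.base ⊆ Set.range (p₂ ⁻¹ᵁ T.basicOpen f).ι.base := by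
    rw [Scheme.Opens.range_ι]
    rintro _ ⟨y, rfl⟩
    show p₂.base (ψ.base y) ∈ T.basicOpen f
    have h3 : p₂.base (ψ.base y) = z.base (p₂'.base y) := by
      have := congrArg (fun g => g.base y) hψ
      simpa using this
    rw [h3]
    exact hz _
  let z₁ : T' ⟶ (T.basicOpen f).toScheme := IsOpenImmersion.lift (T.basicOpen f).ι z h1
  let ψ' : Y' ⟶ (p₂ ⁻¹ᵁ T.basicOpen f).toScheme :=
    IsOpenImmersion.lift (p₂ ⁻¹ᵁ T.basicOpen f).ι ψ h2
  have hz₁ : z₁ ≫ (T.basicOpen f).ι = z := IsOpenImmersion.lift_fac _ _ _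
  have hψ' : ψ' ≫ (p₂ ⁻¹ᵁ T.basicOpen f).ι = ψ := IsOpenImmersion.lift_fac _ _ _
  have hsq : ψ' ≫ (p₂ ∣_ T.basicOpen f) = p₂' ≫ z₁ := by
    rw [← cancel_mono (T.basicOpen f).ι, Category.assoc, Category.assoc, hz₁,
      morphismRestrict_ι, ← Category.assoc, hψ']
    exact hψ
  exact ⟨z₁, ψ', hz₁, hψ', hsq⟩

theorem LiftsPoint.comp {E : BaseOpen H} {E' : BaseOpen E.H₁} {T' Y' : Scheme.{u}} {z : T' ⟶ T}
    {p₂' : Y' ⟶ T'} {ψ : Y' ⟶ Y} {z₁ : T' ⟶ E.T₁} {ψ' : Y' ⟶ E.Y₁}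
    (h₁ : z₁ ≫ E.j = z) (h₂ : ψ' ≫ E.ψ₁ = ψ) (h' : E'.LiftsPoint z₁ p₂' ψ') :
    (E.comp E').LiftsPoint z p₂' ψ := by
  obtain ⟨z₂, ψ'', hz₂, hψ'', hsq⟩ := h'
  refine ⟨z₂, ψ'', ?_, ?_, hsq⟩
  · show z₂ ≫ E'.j ≫ E.j = z
    rw [← Category.assoc, hz₂, h₁]
  · show ψ'' ≫ E'.ψ₁ ≫ E.ψ₁ = ψ
    rw [← Category.assoc, hψ'', h₂]

end BaseOpen

/-- a commutative square between two product squares over `K` is cartesian. -/
theorem isPullback_of_products {C T T' Y Y' : Scheme.{u}} [KScheme K C] [KScheme K T]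
    [KScheme K T'] {p₁ : Y ⟶ C} {p₂ : Y ⟶ T} {p₂' : Y' ⟶ T'} {ψ : Y' ⟶ Y}
    (H : IsPullback p₁ p₂ (KScheme.str (K := K)) (KScheme.str (K := K)))
    (H' : IsPullback (ψ ≫ p₁) p₂' (KScheme.str (K := K)) (KScheme.str (K := K)))
    (z : T' ⟶ T) (hz : z ≫ KScheme.str (K := K) = KScheme.str) (hψ : ψ ≫ p₂ = p₂' ≫ z) :
    IsPullback ψ p₂' p₂ z := by
  rw [← hz] at H'
  exact IsPullback.of_right H' hψ H

namespace BaseOpen

variable {C T Y : Scheme.{u}} [KScheme K C] [KScheme K T] {p₁ : Y ⟶ C} {p₂ : Y ⟶ T}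
  {H : IsPullback p₁ p₂ (KScheme.str (K := K)) (KScheme.str (K := K))}

/-- the restriction square is cartesian. -/
theorem isPullback (E : BaseOpen H) : IsPullback E.ψ₁ E.p₂₁ p₂ E.j :=
  isPullback_of_products H E.H₁ E.j E.hj E.hψ₁

theorem isProper_p₂₁ (E : BaseOpen H) [IsProper p₂] : IsProper E.p₂₁ :=
  MorphismProperty.of_isPullback (P := @IsProper) E.isPullback inferInstance

end BaseOpen

end

end Fermat.Agent.JAC
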