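/-
PROJECT JAC (S25) — (P), brick (F0) (helper7, for helper5): **the dictionary between the rigidified
Picard functor's squares and lead's (H) setting.**

`c : C ⟶ Spec k`, `T : Over (Spec k)`; (H) is instantiated with the `KScheme` structures `⟨c⟩` on
`C` and `⟨T.hom⟩` on `T.left`, `Y = pullback c T.hom`.
* (a) `isPullback_over c T` : the canonical square in (H) shape;
* (b) for `f : T' ⟶ T` in `Over (Spec k)`, `ψ := baseChangeSnd c (overHom f)`:
  `baseChangeSnd_overHom_fst`, `baseChangeSnd_overHom_snd`, `over_left_comp_str` (`hφ`),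
  `isPullback_over_baseChange` (`H'` of `zeroIdeal_pullback`/`app_kunneth`),
  `isPullback_baseChangeSnd_overHom`;
* (c) for `j : T₁ ⟶ T.left` and a restricted product square `(Y₁, ψ₁, p₂₁)` over it
  (`H₁ : IsPullback (ψ₁ ≫ pullback.fst c T.hom) p₂₁ c (j ≫ T.hom)`,
  `hψ₁ : ψ₁ ≫ pullback.snd c T.hom = p₂₁ ≫ j`): `restrictOver j : Over (Spec k)`,
  `restrictOverHom j : restrictOver j ⟶ T`, **`compareIso H₁ : Y₁ ≅ pullback c (restrictOver j).hom`**
  with `compareIso_hom_fst/snd`, `compareIso_inv_fst/snd`,
  **`compareIso_hom_baseChangeSnd : (compareIso H₁).hom ≫ baseChangeSnd c (overHom (restrictOverHom j))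
  = ψ₁`**, `compareIso_inv_comp`, and for line bundles
  `pullback_baseChangeSnd_pullback_compareIso_hom`, `pullback_pullback_compareIso_inv`;
* `BaseOpen.isPullback_comp_j (E : BaseOpen H)` (general (H) setting): `E.H₁` with the structure
  morphism of `E.T₁` rewritten as `E.j ≫ str` — for the structures `⟨c⟩`, `⟨T.hom⟩` this IS the
  hypothesis `H₁` of (c), by `rfl`.
-/
import Mathlib
import Fermat.Agent.JAC.P_helper5_BaseOpen
import Fermat.Agent.JAC.SH_helper1_Functor

set_option autoImplicit false
set_option linter.style.haveILetI false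

open AlgebraicGeometry CategoryTheory CategoryTheory.Limits Opposite TopologicalSpace
  AlgebraicGeometry.RelPicard NeronModelInfra

universe u

namespace Fermat.Agent.JAC

open Fermat.Agent.AV Fermat.Agent.AV.CP

noncomputable section

variable {k : Type u} [Field k] {C : Scheme.{u}} (c : C ⟶ Spec (CommRingCat.of k))

/-! ### (a) the product square of an object of `Over (Spec k)` -/

/-- **(F0-a)** the canonical product square `C ×ₖ T` of `T : Over (Spec k)` in lead's (H) shape, for
the `KScheme` structures `⟨c⟩` on `C` and `⟨T.hom⟩` on `T.left`. -/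
theorem isPullback_over (T : Over (Spec (CommRingCat.of k))) :
    letI : KScheme k C := ⟨c⟩
    letI : KScheme k T.left := ⟨T.hom⟩
    IsPullback (pullback.fst c T.hom) (pullback.snd c T.hom) (KScheme.str (K := k))
      (KScheme.str (K := k)) :=
  IsPullback.of_hasPullback c T.hom

/-! ### (b) base change along a morphism of `Over (Spec k)` -/

variable {T T' : Over (Spec (CommRingCat.of k))} (f : T' ⟶ T)

@[simp]
theorem baseChangeSnd_overHom_fst :
    baseChangeSnd c (overHom f) ≫ pullback.fst c T.hom = pullback.fst c T'.hom := by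
  simp only [baseChangeSnd, pullback.lift_fst, Category.comp_id]

@[simp]
theorem baseChangeSnd_overHom_snd :
    baseChangeSnd c (overHom f) ≫ pullback.snd c T.hom = pullback.snd c T'.hom ≫ f.left := by
  simp only [baseChangeSnd, pullback.lift_snd]

/-- `f.left` is a morphism of `K`-schemes. -/
theorem over_left_comp_str :
    letI : KScheme k T.left := ⟨T.hom⟩
    letI : KScheme k T'.left := ⟨T'.hom⟩
    f.left ≫ KScheme.str (K := k) = KScheme.str (K := k) :=
  Over.w f

/-- **(F0-b)** the base-change square of lead's (H) (`H'` of `zeroIdeal_pullback`,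
`app_kunneth`, …) for `ψ := baseChangeSnd c (overHom f)`. -/
theorem isPullback_over_baseChange :
    letI : KScheme k C := ⟨c⟩
    letI : KScheme k T'.left := ⟨T'.hom⟩
    IsPullback (baseChangeSnd c (overHom f) ≫ pullback.fst c T.hom) (pullback.snd c T'.hom)
      (KScheme.str (K := k)) (KScheme.str (K := k)) := by
  rw [baseChangeSnd_overHom_fst]
  exact IsPullback.of_hasPullback c T'.hom

/-- the square of `baseChangeSnd c (overHom f)` over `f.left` is cartesian. -/
theorem isPullback_baseChangeSnd_overHom :
    IsPullback (baseChangeSnd c (overHom f)) (pullback.snd c T'.hom) (pullback.snd c T.hom)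
      f.left := by
  refine IsPullback.of_right (t := IsPullback.of_hasPullback c T.hom) ?_
    (baseChangeSnd_overHom_snd c f)
  rw [baseChangeSnd_overHom_fst, Over.w f]
  exact IsPullback.of_hasPullback c T'.hom

/-! ### (c) restricted product squares versus objects of `Over (Spec k)` -/

section Compare

variable {c} {T : Over (Spec (CommRingCat.of k))} {T₁ Y₁ : Scheme.{u}} (j : T₁ ⟶ T.left)
  {p₂₁ : Y₁ ⟶ T₁} {ψ₁ : Y₁ ⟶ pullback c T.hom}

/-- the object of `Over (Spec k)` attached to a morphism `j : T₁ ⟶ T.left`. -/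
def restrictOver : Over (Spec (CommRingCat.of k)) := Over.mk (j ≫ T.hom)

/-- `j` as a morphism of `Over (Spec k)`. -/
def restrictOverHom : restrictOver j ⟶ T := Over.homMk j rfl

@[simp] theorem restrictOver_left : (restrictOver j).left = T₁ := rfl

@[simp] theorem restrictOver_hom : (restrictOver j).hom = j ≫ T.hom := rfl

@[simp] theorem restrictOverHom_left : (restrictOverHom j).left = j := rfl

variable {j}
variable (H₁ : IsPullback (ψ₁ ≫ pullback.fst c T.hom) p₂₁ c (j ≫ T.hom))
  (hψ₁ : ψ₁ ≫ pullback.snd c T.hom = p₂₁ ≫ j)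

/-- **(F0-c)** the comparison isomorphism `Y₁ ≅ C ×ₖ T₁` (the latter formed in the functor's way,
`pullback c (j ≫ T.hom)`) for a restricted product square `(Y₁, ψ₁, p₂₁)` over `j`. -/
def compareIso : Y₁ ≅ pullback c (restrictOver j).hom := H₁.isoPullback

@[reassoc (attr := simp)]
theorem compareIso_hom_fst :
    (compareIso H₁).hom ≫ pullback.fst c (restrictOver j).hom = ψ₁ ≫ pullback.fst c T.hom :=
  H₁.isoPullback_hom_fst

@[reassoc (attr := simp)]
theorem compareIso_hom_snd :
    (compareIso H₁).hom ≫ pullback.snd c (restrictOver j).hom = p₂₁ :=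
  H₁.isoPullback_hom_snd

@[reassoc (attr := simp)]
theorem compareIso_inv_fst :
    (compareIso H₁).inv ≫ ψ₁ ≫ pullback.fst c T.hom = pullback.fst c (restrictOver j).hom :=
  H₁.isoPullback_inv_fst

@[reassoc (attr := simp)]
theorem compareIso_inv_snd :
    (compareIso H₁).inv ≫ p₂₁ = pullback.snd c (restrictOver j).hom :=
  H₁.isoPullback_inv_snd

include hψ₁ in
/-- the comparison isomorphism is compatible with `ψ₁` and `baseChangeSnd`. -/
@[reassoc]
theorem compareIso_hom_baseChangeSnd :
    (compareIso H₁).hom ≫ baseChangeSnd c (overHom (restrictOverHom j)) = ψ₁ := by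
  apply pullback.hom_ext
  · rw [Category.assoc, baseChangeSnd_overHom_fst, compareIso_hom_fst]
  · rw [Category.assoc, baseChangeSnd_overHom_snd, compareIso_hom_snd_assoc, restrictOverHom_left]
    exact hψ₁.symm

include hψ₁ in
@[reassoc]
theorem compareIso_inv_comp :
    (compareIso H₁).inv ≫ ψ₁ = baseChangeSnd c (overHom (restrictOverHom j)) := by
  have h := compareIso_hom_baseChangeSnd H₁ hψ₁
  rw [Iso.inv_comp_eq]
  exact h.symm

include hψ₁ in
/-- line bundles: restricting along `baseChangeSnd` and then transporting by the comparison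
isomorphism is pulling back along `ψ₁`. -/
theorem pullback_baseChangeSnd_pullback_compareIso_hom (M : LB (pullback c T.hom)) :
    (M.pullback (baseChangeSnd c (overHom (restrictOverHom j)))).pullback (compareIso H₁).hom =
      M.pullback ψ₁ := by
  show M.pullback ((compareIso H₁).hom ≫ baseChangeSnd c (overHom (restrictOverHom j))) = _
  rw [compareIso_hom_baseChangeSnd H₁ hψ₁]

include hψ₁ in
theorem pullback_pullback_compareIso_inv (M : LB (pullback c T.hom)) :
    (M.pullback ψ₁).pullback (compareIso H₁).inv =
      M.pullback (baseChangeSnd c (overHom (restrictOverHom j))) := by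
  show M.pullback ((compareIso H₁).inv ≫ ψ₁) = _
  rw [compareIso_inv_comp H₁ hψ₁]

end Compare

/-! ### `BaseOpen` in the general (H) setting: the square over `E.j ≫ str` -/

section BaseOpenStr

variable {K : Type u} [Field K] {C₀ T₀ Y₀ : Scheme.{u}} [KScheme K C₀] [KScheme K T₀]
  {p₁ : Y₀ ⟶ C₀} {p₂ : Y₀ ⟶ T₀}
  {H : IsPullback p₁ p₂ (KScheme.str (K := K)) (KScheme.str (K := K))}

/-- the product square of a `BaseOpen`, with the structure morphism of `E.T₁` written as
`E.j ≫ str` (for `KScheme` structures `⟨c⟩`, `⟨T.hom⟩` this is the hypothesis `H₁` of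
`compareIso`, by `rfl`). -/
theorem BaseOpen.isPullback_comp_j (E : BaseOpen H) :
    IsPullback (E.ψ₁ ≫ p₁) E.p₂₁ (KScheme.str (K := K) (X := C₀))
      (E.j ≫ KScheme.str (K := K) (X := T₀)) := by
  have h := E.H₁
  rw [← E.hj] at h
  exact h

end BaseOpenStr


end

end Fermat.Agent.JAC
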