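/-
PROJECT JAC (S25) — helper5 — (P): **from the (H) setting to `Over (Spec k)`.**

* `HilbPkg hU₀ v` : a Hilbert chart (an affine `k`-scheme `Hs` with `Γ(Hs,⊤) ≅ HilbRing`, of finite
  type) together with a universal pair on `C ×ₖ Hs` (canonical fibre product);
* `HilbPkg.overObj`, `HilbPkg.chart r` : the chart `Hs` and its basic opens as objects of `Over (Spec k)`;
* `HilbPkg.mono_over` : Theorem M in `Over (Spec k)`;
* `HilbPkg.exists_over_of_spreadsInto` : the conclusion `SpreadsInto` of the classify-and-land theorems,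
  translated to `Over (Spec k)`.
-/
import Mathlib
import Fermat.Agent.JAC.P_helper5_Land
import Fermat.Agent.JAC.P_helper7_Dict
import Fermat.Agent.JAC.P_helper5_LocalChart

set_option autoImplicit false
set_option linter.style.haveILetI false
set_option linter.unusedSectionVars false

open AlgebraicGeometry CategoryTheory CategoryTheory.Limits Opposite TopologicalSpace TensorProduct
  AlgebraicGeometry.RelPicard NeronModelInfra

universe u

namespace Fermat.Agent.JAC

open Fermat.Agent.AV Fermat.Agent.AV.CP HilbAlg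

noncomputable section

variable {k : Type u} [Field k]

/-- the `k`-scheme structure of an object of `Over (Spec k)`. -/
@[reducible] def overKScheme (T : Over (Spec (CommRingCat.of k))) : KScheme k T.left := ⟨T.hom⟩

attribute [local instance] overKScheme

variable [IsAlgClosed k] {C : Scheme.{u}} [KScheme k C]

/-- **a Hilbert chart with its universal pair.** -/
structure HilbPkg {U₀ : C.Opens} (hU₀ : IsAffineOpen U₀) {g : ℕ} (v : Fin g → Γ(C, U₀)) where
  Hs : Scheme.{u}
  kHs : KScheme k Hs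
  aff : IsAffine Hs
  lft : LocallyOfFiniteType (KScheme.str (K := k) (X := Hs))
  e : HilbRing k Γ(C, U₀) g v →ₐ[k] Γ(Hs, ⊤)
  he : Function.Bijective e
  Lu : LB (pullback (KScheme.str (K := k) (X := C)) (KScheme.str (K := k) (X := Hs)))
  σu : Lu.H0
  hσu : Lu.IsRegSection σu
  hZu : Lu.zeroIdeal σu
      (pullback.fst (KScheme.str (K := k) (X := C)) (KScheme.str (K := k) (X := Hs)) ⁻¹ᵁ U₀) =
    kunIdeal (IsPullback.of_hasPullback (KScheme.str (K := k) (X := C))
      (KScheme.str (K := k) (X := Hs))) hU₀ (univIdealΓ e)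
  Wu' : (pullback (KScheme.str (K := k) (X := C)) (KScheme.str (K := k) (X := Hs))).Opens
  hWWu : pullback.fst (KScheme.str (K := k) (X := C)) (KScheme.str (K := k) (X := Hs)) ⁻¹ᵁ U₀ ⊔
    Wu' = ⊤
  huu : ∀ i, IsUnit (res (Lu.U i ⊓ Wu') inf_le_left (σu.1 i))

namespace HilbPkg

variable {U₀ : C.Opens} {hU₀ : IsAffineOpen U₀} {g : ℕ} {v : Fin g → Γ(C, U₀)}
  (P : HilbPkg (k := k) hU₀ v)

instance : KScheme k P.Hs := P.kHs

instance : IsAffine P.Hs := P.aff

/-- the chart as an object of `Over (Spec k)`. -/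
abbrev overObj : Over (Spec (CommRingCat.of k)) := Over.mk (KScheme.str (K := k) (X := P.Hs))

instance : IsAffine P.overObj.left := P.aff

/-- the product square of the chart. -/
theorem hv : IsPullback (pullback.fst (KScheme.str (K := k) (X := C)) P.overObj.hom)
    (pullback.snd (KScheme.str (K := k) (X := C)) P.overObj.hom)
    (KScheme.str (K := k) (X := C)) (KScheme.str (K := k) (X := P.Hs)) :=
  IsPullback.of_hasPullback _ _

/-- the basic open `D(r)` of the chart as an object of `Over (Spec k)`. -/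
def chart (r : Γ(P.Hs, ⊤)) : Over (Spec (CommRingCat.of k)) :=
  REP.resOpen P.overObj (P.Hs.basicOpen r)

/-- the inclusion of the basic open `D(r)`. -/
def chartHom (r : Γ(P.Hs, ⊤)) : P.chart r ⟶ P.overObj := REP.resHom P.overObj (P.Hs.basicOpen r)

instance (r : Γ(P.Hs, ⊤)) : IsAffine (P.chart r).left := by
  show IsAffine (P.Hs.basicOpen r).toScheme
  exact (isAffineOpen_top P.Hs).basicOpen r

section main

variable (U₁ : C.Opens) [IsDomain Γ(C, U₀)] [Algebra.FiniteType k Γ(C, U₀)]
  (hA : ∀ (𝔫 : Ideal Γ(C, U₀)) [𝔫.IsMaximal], IsDiscreteValuationRing (Localization.AtPrime 𝔫))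

/-- a morphism into the chart whose image lies in `D(r)` lifts to `D(r)`, together with its base
change. -/
theorem liftsPoint_of_range_subset (r : Γ(P.Hs, ⊤)) {T : Over (Spec (CommRingCat.of k))}
    (b : T ⟶ P.overObj) (hb : Set.range b.left.base ⊆ (P.Hs.basicOpen r : Set P.Hs)) :
    (BaseOpen.ofBasicOpen P.hv r).LiftsPoint b.left
      (pullback.snd (KScheme.str (K := k) (X := C)) T.hom)
      (baseChangeSnd (KScheme.str (K := k) (X := C)) (overHom b)) :=
  BaseOpen.liftsPoint_ofBasicOpen r b.left _ _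
    (baseChangeSnd_overHom_snd (KScheme.str (K := k) (X := C)) b) (fun s => hb ⟨s, rfl⟩)

include hA in
/-- **Theorem M in `Over (Spec k)`.** -/
theorem mono_over {r : Γ(P.Hs, ⊤)}
    (hvalid : HilbValid P.hv U₀ U₁ P.Lu P.σu (BaseOpen.ofBasicOpen P.hv r))
    (T : Over (Spec (CommRingCat.of k))) (hT : IsAffine T.left) (b b' : T ⟶ P.overObj)
    (hb : Set.range b.left.base ⊆ (P.Hs.basicOpen r : Set P.Hs))
    (hb' : Set.range b'.left.base ⊆ (P.Hs.basicOpen r : Set P.Hs))
    (h : LB.Iso (P.Lu.pullback (baseChangeSnd (KScheme.str (K := k) (X := C)) (overHom b)))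
      (P.Lu.pullback (baseChangeSnd (KScheme.str (K := k) (X := C)) (overHom b')))) : b = b' := by
  obtain ⟨D⟩ := h
  apply Over.OverMorphism.ext
  exact hilb_mono hU₀ U₁ hA P.he P.hv P.Lu P.σu P.hσu P.hZu P.hWWu P.huu hvalid hvalid
    (isPullback_over (KScheme.str (K := k) (X := C)) T) b.left b'.left (Over.w b) (Over.w b')
    (baseChangeSnd (KScheme.str (K := k) (X := C)) (overHom b))
    (baseChangeSnd (KScheme.str (K := k) (X := C)) (overHom b'))
    (baseChangeSnd_overHom_fst _ b) (baseChangeSnd_overHom_snd _ b)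
    (baseChangeSnd_overHom_fst _ b') (baseChangeSnd_overHom_snd _ b')
    (P.liftsPoint_of_range_subset r b hb) (P.liftsPoint_of_range_subset r b' hb') D

/-- **translation of `SpreadsInto` to `Over (Spec k)`.** -/
theorem exists_over_of_spreadsInto (r : Γ(P.Hs, ⊤)) (T : Over (Spec (CommRingCat.of k)))
    [IsAffine T.left] (L : LB (pullback (KScheme.str (K := k) (X := C)) T.hom))
    {T' Y' : Scheme.{u}} (z : T' ⟶ T.left) (p₂' : Y' ⟶ T')
    (ψ : Y' ⟶ pullback (KScheme.str (K := k) (X := C)) T.hom)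
    (h : SpreadsInto P.hv P.Lu (isPullback_over (KScheme.str (K := k) (X := C)) T) L z p₂' ψ r) :
    ∃ (T₁ : Over (Spec (CommRingCat.of k))) (j : T₁ ⟶ T), IsOpenImmersion j.left ∧
      IsAffine T₁.left ∧ Set.range z.base ⊆ Set.range j.left.base ∧
      ∃ b₁ : T₁ ⟶ P.chart r,
        LB.Iso (P.Lu.pullback (baseChangeSnd (KScheme.str (K := k) (X := C))
            (overHom (b₁ ≫ P.chartHom r))))
          (L.pullback (baseChangeSnd (KScheme.str (K := k) (X := C)) (overHom j))) := by
  obtain ⟨E, ⟨z₁, ψ', hz₁, hψ', hsq⟩, b, hb, ψb, hq₁, hq₂, ⟨w, ψw, hw, hψw, hsqw⟩, ⟨D⟩⟩ := h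
  have hw' : w ≫ (P.Hs.basicOpen r).ι = b := hw
  have hwS : w ≫ (P.chart r).hom = (restrictOver E.j).hom := by
    show w ≫ (P.Hs.basicOpen r).ι ≫ KScheme.str (K := k) (X := P.Hs) = E.j ≫ T.hom
    rw [← Category.assoc, hw', hb]
    exact E.hj.symm
  refine ⟨restrictOver E.j, restrictOverHom E.j, ?_, ?_, ?_, Over.homMk w hwS, ?_⟩
  · show IsOpenImmersion E.j
    infer_instance
  · show IsAffine E.T₁
    infer_instance
  · rintro _ ⟨s, rfl⟩
    refine ⟨z₁.base s, ?_⟩
    show E.j.base (z₁.base s) = z.base s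
    rw [← hz₁]
    rfl
  · set θ := compareIso (c := KScheme.str (K := k) (X := C)) E.isPullback_comp_j with hθ
    have hθψ : θ.inv ≫ ψb = baseChangeSnd (KScheme.str (K := k) (X := C))
        (overHom ((Over.homMk w hwS : restrictOver E.j ⟶ P.chart r) ≫ P.chartHom r)) := by
      apply pullback.hom_ext
      · rw [Category.assoc, baseChangeSnd_overHom_fst]
        have h1 : ψb ≫ pullback.fst (KScheme.str (K := k) (X := C)) P.overObj.hom =
            E.ψ₁ ≫ pullback.fst (KScheme.str (K := k) (X := C)) T.hom := hq₁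
        rw [h1]
        exact compareIso_inv_fst E.isPullback_comp_j
      · rw [Category.assoc, baseChangeSnd_overHom_snd]
        have h2 : ψb ≫ pullback.snd (KScheme.str (K := k) (X := C)) P.overObj.hom =
            E.p₂₁ ≫ b := hq₂
        rw [h2, ← Category.assoc, compareIso_inv_snd E.isPullback_comp_j]
        congr 1
        exact hw'.symm
    have hIso : LB.Iso (P.Lu.pullback (θ.inv ≫ ψb)) (L.pullback (θ.inv ≫ E.ψ₁)) :=
      ⟨D.pullback θ.inv⟩
    rw [hθψ, compareIso_inv_comp E.isPullback_comp_j E.hψ₁] at hIso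
    exact hIso

end main

end HilbPkg

end

end Fermat.Agent.JAC
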