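/-
PROJECT JAC (S25) — (P), brick (F-mono) (helper7, for helper5): **the functor-level conditions of a
twisted, restricted chart in terms of honest isomorphisms of cocycles.**

`Hs : Over (Spec k)`, `Lu : LB (C ×ₖ Hs)`, `N : LB C`, `Mu := Lu ⊗ pr₁^*N`, `V ⊆ Hs` open,
`X := REP.resOpen Hs V`, `MuV := Mu|_{C × V}`, `ξ := picFunctor.mk MuV hrig hQ`.
* `chart_map_eq_iff` : `F.map b.op ξ = picFunctor.mk M _ _ ↔ (b ≫ resHom)^*Lu ≅ M ⊗ pr₁^*N⁻¹`;
* `chart_map_eq_map_iff` : the same against `F.map a.op (picFunctor.mk M _ _)`;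
* `chart_map_eq_map_self_iff` : `F.map b.op ξ = F.map b'.op ξ ↔ (b ≫ resHom)^*Lu ≅ (b' ≫ resHom)^*Lu`;
* `chart_mono` : the chart is a monomorphism on affine test objects as soon as `Lu` is one on `V`.
-/
import Mathlib
import Fermat.Agent.JAC.SH_helper1_Functor
import Fermat.Agent.JAC.REP_helper9_Iface

set_option autoImplicit false

open AlgebraicGeometry CategoryTheory CategoryTheory.Limits Opposite TopologicalSpace
  AlgebraicGeometry.RelPicard NeronModelInfra

universe u

namespace Fermat.Agent.JAC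

open Fermat.Agent.AV

noncomputable section

variable {k : Type u} [CommRing k] {C : Scheme.{u}} {c : C ⟶ Spec (CommRingCat.of k)}

/-! ### Picard-group bookkeeping -/

/-- `baseChangeSnd` of a composite in `Over (Spec k)`. -/
theorem baseChangeSnd_overHom_comp {T'' T' T : Over (Spec (CommRingCat.of k))} (g : T'' ⟶ T')
    (f : T' ⟶ T) :
    baseChangeSnd c (overHom g) ≫ baseChangeSnd c (overHom f) =
      baseChangeSnd c (overHom (g ≫ f)) :=
  baseChangeSnd_comp c (overHom f) (overHom g)

/-- the class of the base change of a twisted bundle `Lu ⊗ pr₁^*N`. -/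
theorem mk_pullback_tensor_pullback_fst {T' T : Over (Spec (CommRingCat.of k))} (f : T' ⟶ T)
    (Lu : LB (pullback c T.hom)) (N : LB C) :
    PicGroup.mk ((Lu.tensor (N.pullback (pullback.fst c T.hom))).pullback
        (baseChangeSnd c (overHom f))) =
      PicGroup.mk (Lu.pullback (baseChangeSnd c (overHom f))) +
        PicGroup.mk (N.pullback (pullback.fst c T'.hom)) := by
  rw [← PicGroup.map_mk, PicGroup.mk_tensor, map_add, PicGroup.map_mk, PicGroup.map_mk]
  congr 1
  have h : baseChangeSnd c (overHom f) ≫ pullback.fst c T.hom = pullback.fst c T'.hom := by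
    simp only [baseChangeSnd, pullback.lift_fst, Category.comp_id]
  show PicGroup.mk (N.pullback (baseChangeSnd c (overHom f) ≫ pullback.fst c T.hom)) = _
  rw [h]

/-- `A ⊗ pr₁^*N ≅ M ↔ A ≅ M ⊗ pr₁^*N⁻¹`. -/
theorem iso_tensor_pullback_iff {Y : Scheme.{u}} (φ : Y ⟶ C) (A M : LB Y) (N : LB C) :
    LB.Iso (A.tensor (N.pullback φ)) M ↔ LB.Iso A (M.tensor (N.inv.pullback φ)) := by
  rw [← PicGroup.mk_eq_mk_iff, ← PicGroup.mk_eq_mk_iff, PicGroup.mk_tensor, PicGroup.mk_tensor,
    ← PicGroup.map_mk φ N.inv, PicGroup.mk_inv, map_neg, PicGroup.map_mk]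
  constructor
  · intro h
    rw [← h]
    abel
  · intro h
    rw [h]
    abel

/-! ### The chart -/

variable {ε : SchemeHomOver (𝟙 (Spec (CommRingCat.of k))) c} {Q : LBCond c}
  {Hs : Over (Spec (CommRingCat.of k))} (Lu : LB (pullback c Hs.hom)) (N : LB C)
  (V : Hs.left.Opens)

/-- the class in the Picard group of the pull-back of the restricted twisted chart bundle. -/
theorem mk_chart_pullback {T : Over (Spec (CommRingCat.of k))} (b : T ⟶ REP.resOpen Hs V) :
    PicGroup.mk ((((Lu.tensor (N.pullback (pullback.fst c Hs.hom))).pullback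
        (baseChangeSnd c (overHom (REP.resHom Hs V))))).pullback (baseChangeSnd c (overHom b))) =
      PicGroup.mk (Lu.pullback (baseChangeSnd c (overHom (b ≫ REP.resHom Hs V)))) +
        PicGroup.mk (N.pullback (pullback.fst c T.hom)) := by
  rw [← mk_pullback_tensor_pullback_fst]
  show PicGroup.mk ((Lu.tensor (N.pullback (pullback.fst c Hs.hom))).pullback
    (baseChangeSnd c (overHom b) ≫ baseChangeSnd c (overHom (REP.resHom Hs V)))) = _
  rw [baseChangeSnd_overHom_comp]

variable (hrig : LBRigidified c ε (REP.resOpen Hs V).hom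
    ((Lu.tensor (N.pullback (pullback.fst c Hs.hom))).pullback
      (baseChangeSnd c (overHom (REP.resHom Hs V)))))
  (hQ : Q.P (REP.resOpen Hs V).hom
    ((Lu.tensor (N.pullback (pullback.fst c Hs.hom))).pullback
      (baseChangeSnd c (overHom (REP.resHom Hs V)))))

/-- **(F-mono)(1)**: a pull-back of the chart class equals the class of `M` iff
`(b ≫ resHom)^*Lu ≅ M ⊗ pr₁^*N⁻¹`. -/
theorem chart_map_eq_iff {T : Over (Spec (CommRingCat.of k))} (b : T ⟶ REP.resOpen Hs V)
    (M : LB (pullback c T.hom)) (hrigM : LBRigidified c ε T.hom M) (hQM : Q.P T.hom M) :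
    (picFunctor c ε Q).map b.op (picFunctor.mk _ hrig hQ) = picFunctor.mk M hrigM hQM ↔
      LB.Iso (Lu.pullback (baseChangeSnd c (overHom (b ≫ REP.resHom Hs V))))
        (M.tensor (N.inv.pullback (pullback.fst c T.hom))) := by
  rw [picFunctor.map_mk, picFunctor.mk_eq_mk_iff, ← iso_tensor_pullback_iff,
    ← PicGroup.mk_eq_mk_iff, ← PicGroup.mk_eq_mk_iff, mk_chart_pullback, PicGroup.mk_tensor]

/-- **(F-mono)(1')**: a pull-back of the chart class equals a pull-back of the class of `M` iff
`(b ≫ resHom)^*Lu ≅ a^*M ⊗ pr₁^*N⁻¹`. -/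
theorem chart_map_eq_map_iff {T T' : Over (Spec (CommRingCat.of k))} (b : T' ⟶ REP.resOpen Hs V)
    (a : T' ⟶ T) (M : LB (pullback c T.hom)) (hrigM : LBRigidified c ε T.hom M)
    (hQM : Q.P T.hom M) :
    (picFunctor c ε Q).map b.op (picFunctor.mk _ hrig hQ) =
        (picFunctor c ε Q).map a.op (picFunctor.mk M hrigM hQM) ↔
      LB.Iso (Lu.pullback (baseChangeSnd c (overHom (b ≫ REP.resHom Hs V))))
        ((M.pullback (baseChangeSnd c (overHom a))).tensor
          (N.inv.pullback (pullback.fst c T'.hom))) := by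
  rw [picFunctor.map_mk a, chart_map_eq_iff]

/-- **(F-mono)(1'')**: two pull-backs of the chart class agree iff the pull-backs of `Lu` are
isomorphic. -/
theorem chart_map_eq_map_self_iff {T : Over (Spec (CommRingCat.of k))}
    (b b' : T ⟶ REP.resOpen Hs V) :
    (picFunctor c ε Q).map b.op (picFunctor.mk _ hrig hQ) =
        (picFunctor c ε Q).map b'.op (picFunctor.mk _ hrig hQ) ↔
      LB.Iso (Lu.pullback (baseChangeSnd c (overHom (b ≫ REP.resHom Hs V))))
        (Lu.pullback (baseChangeSnd c (overHom (b' ≫ REP.resHom Hs V)))) := by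
  rw [picFunctor.map_mk, picFunctor.map_mk, picFunctor.mk_eq_mk_iff,
    ← PicGroup.mk_eq_mk_iff, ← PicGroup.mk_eq_mk_iff, mk_chart_pullback, mk_chart_pullback,
    add_left_inj]

/-- a morphism into `REP.resOpen Hs V`, composed with the inclusion, lands in `V`. -/
theorem range_comp_resHom_subset {T : Over (Spec (CommRingCat.of k))}
    (b : T ⟶ REP.resOpen Hs V) :
    Set.range (b ≫ REP.resHom Hs V).left.base ⊆ (V : Set Hs.left) := by
  rintro _ ⟨x, rfl⟩
  show (b.left ≫ V.ι).base x ∈ V
  rw [Scheme.Hom.comp_base, TopCat.comp_app]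
  exact (b.left.base x).2

/-- the inclusion `REP.resHom Hs V` is a monomorphism. -/
theorem resHom_cancel {T : Over (Spec (CommRingCat.of k))} {b b' : T ⟶ REP.resOpen Hs V}
    (h : b ≫ REP.resHom Hs V = b' ≫ REP.resHom Hs V) : b = b' := by
  ext
  have h1 : b.left ≫ V.ι = b'.left ≫ V.ι := congrArg (fun f => f.left) h
  exact (cancel_mono V.ι).mp h1

/-- **(F-mono)(2)**: the restricted twisted chart is a monomorphism on affine test objects as soon
as `Lu` is one on `V`. -/
theorem chart_mono
    (hm : ∀ (T : Over (Spec (CommRingCat.of k))), IsAffine T.left → ∀ b b' : T ⟶ Hs,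
      Set.range b.left.base ⊆ (V : Set Hs.left) → Set.range b'.left.base ⊆ (V : Set Hs.left) →
      LB.Iso (Lu.pullback (baseChangeSnd c (overHom b)))
        (Lu.pullback (baseChangeSnd c (overHom b'))) → b = b')
    (T : Over (Spec (CommRingCat.of k))) (hT : IsAffine T.left) (b b' : T ⟶ REP.resOpen Hs V)
    (h : (picFunctor c ε Q).map b.op (picFunctor.mk _ hrig hQ) =
      (picFunctor c ε Q).map b'.op (picFunctor.mk _ hrig hQ)) : b = b' :=
  resHom_cancel V (hm T hT _ _ (range_comp_resHom_subset V b) (range_comp_resHom_subset V b')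
    ((chart_map_eq_map_self_iff Lu N V hrig hQ b b').mp h))

end

end Fermat.Agent.JAC
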