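/-
PROJECT JAC (S25) — helper5 — (P): **the charts of the rigidified Picard functor: definitions.**

* `nonempty_hilbPkg` : the Hilbert chart `hilbScheme` (lead) with a universal pair is a `HilbPkg`;
* `ChartSetup k C` : all the fixed data of the chart construction (two-affine cover `U₀, U₁`, the
  inputs `J3UnivGen`, `H1Locus`, `GeomLFC`, the family of twisting bundles `Nof : J → LB C`, a
  Hilbert package for every `(g, v)`);
* `ChartSetup.muV` : the chart bundle `(Lu ⊗ pr₁^*(Nof j)⁻¹)|_{C × D(r)}`;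
* `ChartIdx S ε Q` : the (small) type of indices `(j, g, v, r)` with `D(r)` valid, the chart bundle
  rigidified along `ε` and in the cut `Q`;
* `ChartIdx.X`, `ChartIdx.ξ` : the charts and their classes; `ChartIdx.mono`.
-/
import Mathlib
import Fermat.Agent.JAC.P_helper5_OverForm
import Fermat.Agent.JAC.P_helper7_ChartMono
import Fermat.Agent.JAC.HILB_lead_Scheme

set_option autoImplicit false
set_option linter.style.haveILetI false
set_option linter.unusedSectionVars false

open AlgebraicGeometry CategoryTheory CategoryTheory.Limits Opposite TopologicalSpace TensorProduct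
  AlgebraicGeometry.RelPicard NeronModelInfra

universe u

namespace Fermat.Agent.JAC

open Fermat.Agent.AV Fermat.Agent.AV.CP HilbAlg

noncomputable section

attribute [local instance] overKScheme

variable {k : Type u} [Field k] [IsAlgClosed k] {C : Scheme.{u}} [KScheme k C]

/-- **(E)** the concrete Hilbert chart with a universal pair. -/
theorem nonempty_hilbPkg [IsSeparated (KScheme.str (K := k) (X := C))] {U₀ : C.Opens}
    (hU₀ : IsAffineOpen U₀) [IsDomain Γ(C, U₀)] [Algebra.FiniteType k Γ(C, U₀)]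
    (hA : ∀ (𝔫 : Ideal Γ(C, U₀)) [𝔫.IsMaximal], IsDiscreteValuationRing (Localization.AtPrime 𝔫))
    {g : ℕ} (v : Fin g → Γ(C, U₀)) : Nonempty (HilbPkg (k := k) hU₀ v) := by
  obtain ⟨Lu, σu, hσu, hZu, Wu', hWWu, huu⟩ := exists_LB_of_isBased
    (IsPullback.of_hasPullback (KScheme.str (K := k) (X := C))
      (KScheme.str (K := k) (X := hilbScheme k Γ(C, U₀) g v))) hU₀ hA
    (isBased_univIdealΓ (hilbΓ k Γ(C, U₀) g v))
  exact ⟨{
    Hs := hilbScheme k Γ(C, U₀) g v
    kHs := inferInstance
    aff := inferInstance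
    lft := inferInstance
    e := hilbΓ k Γ(C, U₀) g v
    he := hilbΓ_bijective k Γ(C, U₀) g v
    Lu := Lu
    σu := σu
    hσu := hσu
    hZu := hZu
    Wu' := Wu'
    hWWu := hWWu
    huu := huu }⟩

variable (k C) in
/-- the fixed data of the chart construction. -/
structure ChartSetup where
  U₀ : C.Opens
  U₁ : C.Opens
  hU₀ : IsAffineOpen U₀
  dom : IsDomain Γ(C, U₀)
  ft : Algebra.FiniteType k Γ(C, U₀)
  hA : ∀ (𝔫 : Ideal Γ(C, U₀)) [𝔫.IsMaximal], IsDiscreteValuationRing (Localization.AtPrime 𝔫)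
  hJ3 : J3UnivGen k U₀ U₁
  hH1 : H1Locus k U₀ U₁
  hGeom : GeomLFC k hU₀
  J : Type u
  Nof : J → LB C
  pkg : ∀ (g : ℕ) (v : Fin g → Γ(C, U₀)), HilbPkg (k := k) hU₀ v

namespace ChartSetup

variable (S : ChartSetup k C)

instance : IsDomain Γ(C, S.U₀) := S.dom

instance : Algebra.FiniteType k Γ(C, S.U₀) := S.ft

/-- the chart bundle `(Lu ⊗ pr₁^*(Nof j)⁻¹)` restricted to `C × D(r)`. -/
def muV (j : S.J) (g : ℕ) (v : Fin g → Γ(C, S.U₀)) (r : Γ((S.pkg g v).Hs, ⊤)) :
    LB (pullback (KScheme.str (K := k) (X := C)) ((S.pkg g v).chart r).hom) :=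
  ((S.pkg g v).Lu.tensor ((S.Nof j).inv.pullback
      (pullback.fst (KScheme.str (K := k) (X := C)) (S.pkg g v).overObj.hom))).pullback
    (baseChangeSnd (KScheme.str (K := k) (X := C))
      (overHom (REP.resHom (S.pkg g v).overObj ((S.pkg g v).Hs.basicOpen r))))

end ChartSetup

/-- **the indices of the charts.** -/
structure ChartIdx (S : ChartSetup k C)
    (ε : SchemeHomOver (𝟙 (Spec (CommRingCat.of k))) (KScheme.str (K := k) (X := C)))
    (Q : LBCond (KScheme.str (K := k) (X := C))) : Type u where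
  j : S.J
  g : ℕ
  v : Fin g → Γ(C, S.U₀)
  r : Γ((S.pkg g v).Hs, ⊤)
  valid : HilbValid (S.pkg g v).hv S.U₀ S.U₁ (S.pkg g v).Lu (S.pkg g v).σu
    (BaseOpen.ofBasicOpen (S.pkg g v).hv r)
  rig : LBRigidified (KScheme.str (K := k) (X := C)) ε ((S.pkg g v).chart r).hom (S.muV j g v r)
  mem : Q.P ((S.pkg g v).chart r).hom (S.muV j g v r)

namespace ChartIdx

variable {S : ChartSetup k C}
  {ε : SchemeHomOver (𝟙 (Spec (CommRingCat.of k))) (KScheme.str (K := k) (X := C))}
  {Q : LBCond (KScheme.str (K := k) (X := C))} (i : ChartIdx S ε Q)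

/-- the Hilbert package of the index. -/
abbrev P : HilbPkg (k := k) S.hU₀ i.v := S.pkg i.g i.v

/-- the chart. -/
def X : Over (Spec (CommRingCat.of k)) := i.P.chart i.r

/-- the class of the chart. -/
def ξ : (picFunctor (KScheme.str (K := k) (X := C)) ε Q).obj (op i.X) :=
  picFunctor.mk (T := i.P.chart i.r) (S.muV i.j i.g i.v i.r) i.rig i.mem

/-- the charts are locally of finite type. -/
theorem locallyOfFiniteType_X : LocallyOfFiniteType i.X.hom := by
  show LocallyOfFiniteType ((i.P.Hs.basicOpen i.r).ι ≫ KScheme.str (K := k) (X := i.P.Hs))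
  haveI := i.P.lft
  infer_instance

/-- **the charts are monomorphisms** on affine test objects. -/
theorem mono (T : Over (Spec (CommRingCat.of k))) (hT : IsAffine T.left) (b b' : T ⟶ i.X)
    (h : (picFunctor (KScheme.str (K := k) (X := C)) ε Q).map b.op i.ξ =
      (picFunctor (KScheme.str (K := k) (X := C)) ε Q).map b'.op i.ξ) : b = b' :=
  chart_mono (c := KScheme.str (K := k) (X := C)) (ε := ε) (Q := Q) (Hs := i.P.overObj) i.P.Lu
    (S.Nof i.j).inv (i.P.Hs.basicOpen i.r) i.rig i.mem
    (fun T hT b b' hb hb' hiso => i.P.mono_over S.U₁ S.hA i.valid T hT b b' hb hb' hiso) T hT b b' h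

end ChartIdx

end

end Fermat.Agent.JAC
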