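/-
PROJECT JAC (S25) — helper5 — (P): **the charts cover** (`hcover` of `REP.ChartData.ofLocal`).

Inputs as hypotheses, in the shapes delivered by the other bricks:
* `hD3` (helper3's covering lemma at a geometric point, (F-D3pt)): every `M` on `C ×ₖ T` satisfies the
  chart condition at a geometric point over any `t : T` after a twist by some `Nof j`;
* `hgood` (helper4, (F-good)): around the image of a geometric point of the Hilbert chart at which
  the twisted universal bundle is in the cut, the twisted universal bundle is rigidified and in the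
  cut over every small open.
-/
import Mathlib
import Fermat.Agent.JAC.P_helper5_ChartDefs
import Fermat.Agent.JAC.FIB_helper7_BasedExists

set_option autoImplicit false
set_option linter.style.haveILetI false
set_option linter.unusedSectionVars false

open AlgebraicGeometry CategoryTheory CategoryTheory.Limits Opposite TopologicalSpace TensorProduct
  AlgebraicGeometry.RelPicard NeronModelInfra

universe u

namespace Fermat.Agent.JAC

open Fermat.Agent.AV Fermat.Agent.AV.CP HilbAlg

noncomputable section

attribute [local instance] overKScheme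

variable {k : Type u} [Field k]

/-- twist bookkeeping: `(M ⊗ pr₁^*N₀)` pulled back along `f` is `f^*M ⊗ pr₁^*(N₀⁻¹)⁻¹`. -/
theorem iso_pullback_tensor_inv_inv {C : Scheme.{u}} (c : C ⟶ Spec (CommRingCat.of k))
    {T' T : Over (Spec (CommRingCat.of k))} (f : T' ⟶ T) (M : LB (pullback c T.hom))
    (N₀ : LB C) :
    LB.Iso ((M.tensor (N₀.pullback (pullback.fst c T.hom))).pullback
        (baseChangeSnd c (overHom f)))
      ((M.pullback (baseChangeSnd c (overHom f))).tensor
        (N₀.inv.inv.pullback (pullback.fst c T'.hom))) := by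
  rw [← PicGroup.mk_eq_mk_iff, mk_pullback_tensor_pullback_fst, PicGroup.mk_tensor]
  congr 1
  rw [← PicGroup.map_mk (pullback.fst c T'.hom) N₀.inv.inv, PicGroup.mk_inv, PicGroup.mk_inv,
    neg_neg, PicGroup.map_mk]

variable [IsAlgClosed k] {C : Scheme.{u}} [KScheme k C]

/-- the spectrum of a field is a one-point scheme. -/
theorem subsingleton_spec_field (κ : Type u) [Field κ] :
    Subsingleton (Spec (CommRingCat.of κ)) := by
  show Subsingleton (PrimeSpectrum κ)
  infer_instance

theorem nonempty_spec_field (κ : Type u) [Field κ] : Nonempty (Spec (CommRingCat.of κ)) := by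
  show Nonempty (PrimeSpectrum κ)
  infer_instance

/-- the source of `Over.mk f` for `f : Spec R ⟶ S` is affine. -/
instance isAffine_overMk_spec {R : CommRingCat.{u}} {S₀ : Scheme.{u}} (f : Spec R ⟶ S₀) :
    IsAffine (Over.mk f).left := by
  show IsAffine (Spec R)
  infer_instance

/-- **the charts cover.** -/
theorem ChartSetup.hcover (S : ChartSetup k C) [IsProper (KScheme.str (K := k) (X := C))]
    (ε : SchemeHomOver (𝟙 (Spec (CommRingCat.of k))) (KScheme.str (K := k) (X := C)))
    (Q : LBCond (KScheme.str (K := k) (X := C)))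
    (hD3 : ∀ (T : Over (Spec (CommRingCat.of k)))
      (M : LB (pullback (KScheme.str (K := k) (X := C)) T.hom)) (t : T.left),
      ∃ (K' : Type u) (_ : Field K') (_ : IsAlgClosed K') (s : Spec (CommRingCat.of K') ⟶ T.left),
        (∀ x, s.base x = t) ∧
        (∀ (L' : LB (pullback (KScheme.str (K := k) (X := C)) (s ≫ T.hom))) (σ : L'.H0), σ ≠ 0 →
          L'.IsRegSection σ) ∧
        ∃ (j : S.J) (g : ℕ) (v : Fin g → Γ(C, S.U₀)),
          ChartCond (isPullback_over (KScheme.str (K := k) (X := C)) (Over.mk (s ≫ T.hom))) S.hU₀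
            S.U₁ v ((M.tensor ((S.Nof j).pullback
              (pullback.fst (KScheme.str (K := k) (X := C)) T.hom))).pullback
              (baseChangeSnd (KScheme.str (K := k) (X := C))
                (overHom (Over.homMk s rfl : Over.mk (s ≫ T.hom) ⟶ T)))))
    (hgood : ∀ (Hs : Over (Spec (CommRingCat.of k)))
      (Lu : LB (pullback (KScheme.str (K := k) (X := C)) Hs.hom)) (N₀ : LB C)
      (T : Over (Spec (CommRingCat.of k)))
      (M : LB (pullback (KScheme.str (K := k) (X := C)) T.hom)), Q.P T.hom M →
      ∀ (K' : Type u) [Field K'] [IsAlgClosed K'] (s : Spec (CommRingCat.of K') ⟶ T.left)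
        (φ : Over.mk (s ≫ T.hom) ⟶ Hs),
        LB.Iso (Lu.pullback (baseChangeSnd (KScheme.str (K := k) (X := C)) (overHom φ)))
          ((M.tensor (N₀.pullback (pullback.fst (KScheme.str (K := k) (X := C)) T.hom))).pullback
            (baseChangeSnd (KScheme.str (K := k) (X := C))
              (overHom (Over.homMk s rfl : Over.mk (s ≫ T.hom) ⟶ T)))) →
        ∃ O : Hs.left.Opens, (∀ x, φ.left.base x ∈ O) ∧ ∀ V : Hs.left.Opens, V ≤ O →
          LBRigidified (KScheme.str (K := k) (X := C)) ε (REP.resOpen Hs V).hom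
            ((Lu.tensor (N₀.inv.pullback
              (pullback.fst (KScheme.str (K := k) (X := C)) Hs.hom))).pullback
              (baseChangeSnd (KScheme.str (K := k) (X := C)) (overHom (REP.resHom Hs V)))) ∧
          Q.P (REP.resOpen Hs V).hom
            ((Lu.tensor (N₀.inv.pullback
              (pullback.fst (KScheme.str (K := k) (X := C)) Hs.hom))).pullback
              (baseChangeSnd (KScheme.str (K := k) (X := C)) (overHom (REP.resHom Hs V)))))
    (T : Over (Spec (CommRingCat.of k))) (hT : IsAffine T.left)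
    (η : (picFunctor (KScheme.str (K := k) (X := C)) ε Q).obj (op T)) (t : T.left) :
    ∃ (i : ChartIdx S ε Q) (T₁ : Over (Spec (CommRingCat.of k))) (j : T₁ ⟶ T),
      IsOpenImmersion j.left ∧ t ∈ Set.range j.left.base ∧
      ∃ b₁ : T₁ ⟶ i.X, (picFunctor (KScheme.str (K := k) (X := C)) ε Q).map b₁.op i.ξ =
        (picFunctor (KScheme.str (K := k) (X := C)) ε Q).map j.op η := by
  obtain ⟨M, hrigM, hQM, rfl⟩ := picFunctor.exists_rep η
  obtain ⟨K', _, _, s, hst, hregY', j, g, v, hcc⟩ := hD3 T M t
  set Pt : Over (Spec (CommRingCat.of k)) := Over.mk (s ≫ T.hom) with hPt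
  set sO : Pt ⟶ T := Over.homMk s rfl with hsO
  set P := S.pkg g v with hP
  set L := M.tensor ((S.Nof j).pullback (pullback.fst (KScheme.str (K := k) (X := C)) T.hom))
    with hL
  haveI : IsAffine Pt.left := by
    show IsAffine (Spec (CommRingCat.of K'))
    infer_instance
  haveI : Subsingleton Pt.left := subsingleton_spec_field K'
  haveI : Nonempty Pt.left := nonempty_spec_field K'
  have hfield : IsField Γ(Pt.left, ⊤) := isField_Γ_Spec_of_field K'
  haveI : IsProper (pullback.snd (KScheme.str (K := k) (X := C)) T.hom) := inferInstance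
  -- the good opens of the chart
  let Good : P.Hs.Opens → Prop := fun O => ∀ V : P.overObj.left.Opens, V ≤ O →
    LBRigidified (KScheme.str (K := k) (X := C)) ε (REP.resOpen P.overObj V).hom
      ((P.Lu.tensor ((S.Nof j).inv.pullback
        (pullback.fst (KScheme.str (K := k) (X := C)) P.overObj.hom))).pullback
        (baseChangeSnd (KScheme.str (K := k) (X := C)) (overHom (REP.resHom P.overObj V)))) ∧
    Q.P (REP.resOpen P.overObj V).hom
      ((P.Lu.tensor ((S.Nof j).inv.pullback
        (pullback.fst (KScheme.str (K := k) (X := C)) P.overObj.hom))).pullback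
        (baseChangeSnd (KScheme.str (K := k) (X := C)) (overHom (REP.resHom P.overObj V))))
  have hGood : ∀ (φ : Pt.left ⟶ P.Hs) (_ : φ ≫ KScheme.str (K := k) = KScheme.str)
      (ψφ : pullback (KScheme.str (K := k) (X := C)) Pt.hom ⟶
        pullback (KScheme.str (K := k) (X := C)) P.overObj.hom),
      ψφ ≫ pullback.fst (KScheme.str (K := k) (X := C)) P.overObj.hom =
        pullback.fst (KScheme.str (K := k) (X := C)) Pt.hom →
      ψφ ≫ pullback.snd (KScheme.str (K := k) (X := C)) P.overObj.hom =
        pullback.snd (KScheme.str (K := k) (X := C)) Pt.hom ≫ φ →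
      Nonempty (LB.IsoData (P.Lu.pullback ψφ)
        (L.pullback (baseChangeSnd (KScheme.str (K := k) (X := C)) (overHom sO)))) →
      ∃ O : P.Hs.Opens, Good O ∧ ∀ x : Pt.left, φ.base x ∈ O := by
    intro φ hφ ψφ h1 h2 hD
    let φO : Pt ⟶ P.overObj := Over.homMk φ hφ
    have hψφ : ψφ = baseChangeSnd (KScheme.str (K := k) (X := C)) (overHom φO) := by
      apply pullback.hom_ext
      · rw [h1, baseChangeSnd_overHom_fst]
      · rw [h2, baseChangeSnd_overHom_snd]
        rfl
    subst hψφ
    obtain ⟨O, hO, hV⟩ := hgood P.overObj P.Lu (S.Nof j) T M hQM K' s φO hD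
    exact ⟨O, hV, hO⟩
  obtain ⟨r, O, hGoodO, hrO, hvalid, hspread⟩ := exists_spreadsInto_valid S.hU₀ S.U₁ S.hA P.he P.hv
    S.hJ3 S.hH1 S.hGeom P.Lu P.σu P.hσu P.hZu P.hWWu P.huu
    (isPullback_over (KScheme.str (K := k) (X := C)) T) L hfield sO.left (Over.w sO)
    (pullback.snd (KScheme.str (K := k) (X := C)) Pt.hom)
    (baseChangeSnd (KScheme.str (K := k) (X := C)) (overHom sO))
    (baseChangeSnd_overHom_fst _ sO) (isPullback_over (KScheme.str (K := k) (X := C)) Pt)
    (baseChangeSnd_overHom_snd _ sO) hregY' hcc Good hGood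
  let i : ChartIdx S ε Q := {
    j := j
    g := g
    v := v
    r := r
    valid := hvalid
    rig := (hGoodO (P.Hs.basicOpen r) hrO).1
    mem := (hGoodO (P.Hs.basicOpen r) hrO).2 }
  obtain ⟨T₁, j₁, hopen, -, hrange, b₁, hiso⟩ := P.exists_over_of_spreadsInto r T L sO.left _ _
    hspread
  refine ⟨i, T₁, j₁, hopen, ?_, b₁, ?_⟩
  · obtain ⟨x⟩ := (inferInstance : Nonempty Pt.left)
    have := hrange ⟨x, rfl⟩
    rw [← hst x]
    exact this
  · refine (chart_map_eq_map_iff (c := KScheme.str (K := k) (X := C)) (ε := ε) (Q := Q)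
      (Hs := P.overObj) P.Lu (S.Nof j).inv (P.Hs.basicOpen r) i.rig i.mem b₁ j₁ M hrigM hQM).mpr ?_
    exact hiso.trans (iso_pullback_tensor_inv_inv _ j₁ M (S.Nof j))

end

end Fermat.Agent.JAC
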