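/-
PROJECT JAC (S25) — helper5 — (P): **the two input properties of Theorem S, discharged.**

* `j3UnivGen_of_cover` : `J3UnivGen K U₀ U₁` from helper8's universal complex
  (`CBC.nonempty_univComplex_of_cover` + `UnivComplex.exists_isUnivGen`), for the two-affine cover
  data of helper2;
* `geomLFC_of_geometricallyIntegral` : `GeomLFC K hU₀` from helper7's geometric local flatness
  criterion (`isRegSection_and_flat_of_fibrewise_ne_zero`).
-/
import Mathlib
import Fermat.Agent.JAC.P_helper5_SpreadMain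
import Fermat.Agent.JAC.CBC_helper8_UnivGen
import Fermat.Agent.JAC.CBC_helper8_Adapter
import Fermat.Agent.JAC.FIB_helper7_Geom

set_option autoImplicit false
set_option linter.style.haveILetI false
set_option linter.unusedSectionVars false

open AlgebraicGeometry CategoryTheory CategoryTheory.Limits Opposite TopologicalSpace TensorProduct

universe u

namespace Fermat.Agent.JAC

open Fermat.Agent.AV Fermat.Agent.AV.CP HilbAlg

noncomputable section

variable {K : Type u} [Field K] {C : Scheme.{u}} [KScheme K C]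

/-- **(J3(4))** for a proper integral curve with the two-affine cover data. -/
theorem j3UnivGen_of_cover [IsIntegral C] [IsProper (KScheme.str (K := K) (X := C))]
    (U₀ U₁ : C.Opens) (x : Γ(C, U₀)) (y : Γ(C, U₁))
    (h₀ : IsAffineOpen U₀) (h₁ : IsAffineOpen U₁) (hcov : U₀ ⊔ U₁ = ⊤)
    (hx : C.basicOpen x = U₀ ⊓ U₁) (hy : C.basicOpen y = U₀ ⊓ U₁)
    (hxy : res (U₀ ⊓ U₁) inf_le_left x * res (U₀ ⊓ U₁) inf_le_right y = 1)
    (hf₀ : (Polynomial.eval₂RingHom
      (sectionsStrMap (KScheme.str (K := K) (X := C)) U₀) x).Finite)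
    (hf₁ : (Polynomial.eval₂RingHom
      (sectionsStrMap (KScheme.str (K := K) (X := C)) U₁) y).Finite)
    (hi₀ : Function.Injective (Polynomial.eval₂RingHom
      (sectionsStrMap (KScheme.str (K := K) (X := C)) U₀) x))
    (hi₁ : Function.Injective (Polynomial.eval₂RingHom
      (sectionsStrMap (KScheme.str (K := K) (X := C)) U₁) y)) :
    J3UnivGen K U₀ U₁ := by
  intro T Y _ _ p₁ p₂ H L T' Y' _ _ z hz p₂' ψ H' hψ hfield h1 hgen
  obtain ⟨τ₀, hτ₀⟩ := hgen
  obtain ⟨UC⟩ := CBC.nonempty_univComplex_of_cover (KScheme.str (K := K) (X := C)) U₀ U₁ x y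
    h₀ h₁ hcov hx hy hxy hf₀ hf₁ hi₀ hi₁ (KScheme.str (K := K) (X := T)) p₁ p₂ H L
  have sq : IsPullback ψ p₂' p₂ z := isPullback_of_products H H' z hz hψ
  exact UC.exists_isUnivGen z p₂' ψ inferInstance sq hfield h1 τ₀ hτ₀

/-- **(J3(2))**, helper8: the vanishing locus of the Čech `H¹` is open in the (affine) base, and
represents the condition `H¹ = 0` on affine test schemes. -/
def H1Locus (K : Type u) [Field K] {C : Scheme.{u}} [KScheme K C] (U₀ U₁ : C.Opens) : Prop :=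
  ∀ {T Y : Scheme.{u}} [KScheme K T] [IsAffine T] {p₁ : Y ⟶ C} {p₂ : Y ⟶ T}
    (_ : IsPullback p₁ p₂ (KScheme.str (K := K)) (KScheme.str (K := K))) (L : LB Y),
    ∃ O : T.Opens, ∀ {T' Y' : Scheme.{u}} [KScheme K T'] [IsAffine T'] (z : T' ⟶ T)
      (_ : z ≫ KScheme.str (K := K) = KScheme.str) (p₂' : Y' ⟶ T') (ψ : Y' ⟶ Y)
      (_ : IsPullback (ψ ≫ p₁) p₂' (KScheme.str (K := K)) (KScheme.str (K := K)))
      (_ : ψ ≫ p₂ = p₂' ≫ z),
      CBC.H1Vanishes (L.pullback ψ) ((ψ ≫ p₁) ⁻¹ᵁ U₀) ((ψ ≫ p₁) ⁻¹ᵁ U₁) ↔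
        Set.range z.base ⊆ (O : Set T)

/-- **(J3(2))** for a proper integral curve with the two-affine cover data. -/
theorem h1Locus_of_cover [IsIntegral C] [IsProper (KScheme.str (K := K) (X := C))]
    (U₀ U₁ : C.Opens) (x : Γ(C, U₀)) (y : Γ(C, U₁))
    (h₀ : IsAffineOpen U₀) (h₁ : IsAffineOpen U₁) (hcov : U₀ ⊔ U₁ = ⊤)
    (hx : C.basicOpen x = U₀ ⊓ U₁) (hy : C.basicOpen y = U₀ ⊓ U₁)
    (hxy : res (U₀ ⊓ U₁) inf_le_left x * res (U₀ ⊓ U₁) inf_le_right y = 1)
    (hf₀ : (Polynomial.eval₂RingHom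
      (sectionsStrMap (KScheme.str (K := K) (X := C)) U₀) x).Finite)
    (hf₁ : (Polynomial.eval₂RingHom
      (sectionsStrMap (KScheme.str (K := K) (X := C)) U₁) y).Finite)
    (hi₀ : Function.Injective (Polynomial.eval₂RingHom
      (sectionsStrMap (KScheme.str (K := K) (X := C)) U₀) x))
    (hi₁ : Function.Injective (Polynomial.eval₂RingHom
      (sectionsStrMap (KScheme.str (K := K) (X := C)) U₁) y)) :
    H1Locus K U₀ U₁ := by
  intro T Y _ _ p₁ p₂ H L
  obtain ⟨UC⟩ := CBC.nonempty_univComplex_of_cover (KScheme.str (K := K) (X := C)) U₀ U₁ x y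
    h₀ h₁ hcov hx hy hxy hf₀ hf₁ hi₀ hi₁ (KScheme.str (K := K) (X := T)) p₁ p₂ H L
  refine ⟨UC.h1Locus, ?_⟩
  intro T' Y' _ _ z hz p₂' ψ H' hψ
  have sq : IsPullback ψ p₂' p₂ z := isPullback_of_products H H' z hz hψ
  exact UC.h1Vanishes_iff_range_subset z p₂' ψ inferInstance sq

/-- **geometric local flatness criterion** for a geometrically integral curve. -/
theorem geomLFC_of_geometricallyIntegral {U₀ : C.Opens} (hU₀ : IsAffineOpen U₀)
    [GeometricallyIntegral (KScheme.str (K := K) (X := C))]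
    (hA : ∀ (κ : Type u) [Field κ] [Algebra K κ], IsDomain (κ ⊗[K] Γ(C, U₀))) :
    GeomLFC K hU₀ := by
  intro T Y _ _ p₁ p₂ H L σ hfib W' hWW' hu
  obtain ⟨hreg, I, hZ, hflat, n, h, f, hc, -⟩ :=
    isRegSection_and_flat_of_fibrewise_ne_zero H hU₀ hA L σ hfib hWW' hu
  exact ⟨hreg, I, hZ, hflat, n, h, f, hc⟩

end

end Fermat.Agent.JAC
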