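/-
PROJECT JAC (S25) — (P) (helper7, for helper5): **the `ChartSetup` of a smooth proper curve with a
two-affine cover.**

`chartSetupOfCover` packages, for a proper smooth integral curve `C` over an algebraically closed
field `k` with two-affine cover data `(U₀, U₁, x, y, …)` (helper2's
`exists_two_affine_cover_of_point`), all the fixed inputs of helper5's chart construction:
`J3UnivGen`, `H1Locus` (helper8), `GeomLFC` (helper7 + helper4's geometric integrality), the
hypotheses on `Γ(C, U₀)` and a Hilbert package for every `(g, v)` (lead).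
-/
import Mathlib
import Fermat.Agent.JAC.P_helper5_ChartDefs
import Fermat.Agent.JAC.P_helper5_Inputs
import Fermat.Agent.JAC.GEOM_helper7_AffineCurve
import Fermat.Agent.JAC.GI_helper4_Tensor

set_option autoImplicit false
set_option linter.style.haveILetI false
set_option linter.unusedSectionVars false

open AlgebraicGeometry CategoryTheory CategoryTheory.Limits Opposite TopologicalSpace TensorProduct
  AlgebraicGeometry.RelPicard NeronModelInfra

universe u

namespace Fermat.Agent.JAC

open Fermat.Agent.AV Fermat.Agent.AV.CP HilbAlg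

noncomputable section

variable {k : Type u} [Field k] [IsAlgClosed k] {C : Scheme.{u}} [KScheme k C]
  [IsIntegral C] [IsProper (KScheme.str (K := k) (X := C))]
  [SmoothOfRelativeDimension 1 (KScheme.str (K := k) (X := C))]

/-- geometric integrality of the coordinate ring of an affine open of the curve, in the form of
the hypothesis `hA` of the geometric local flatness criterion. -/
theorem isDomain_tensor_sections_kScheme {U : C.Opens} (hU : IsAffineOpen U) [Nonempty U]
    (κ : Type u) [Field κ] [Algebra k κ] : IsDomain (κ ⊗[k] Γ(C, U)) := by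
  haveI : Smooth (KScheme.str (K := k) (X := C)) :=
    SmoothOfRelativeDimension.smooth 1 (KScheme.str (K := k) (X := C))
  exact isDomain_tensor_of_smooth_of_connectedSpace (KScheme.str (K := k) (X := C)) hU rfl κ

/-- **the chart setup of a curve with a two-affine cover.** -/
def chartSetupOfCover (U₀ U₁ : C.Opens) [Nonempty U₀] (x : Γ(C, U₀)) (y : Γ(C, U₁))
    (h₀ : IsAffineOpen U₀) (h₁ : IsAffineOpen U₁) (hcov : U₀ ⊔ U₁ = ⊤)
    (hx : C.basicOpen x = U₀ ⊓ U₁) (hy : C.basicOpen y = U₀ ⊓ U₁)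
    (hxy : res (U₀ ⊓ U₁) inf_le_left x * res (U₀ ⊓ U₁) inf_le_right y = 1)
    (hf₀ : (Polynomial.eval₂RingHom
      (sectionsStrMap (KScheme.str (K := k) (X := C)) U₀) x).Finite)
    (hf₁ : (Polynomial.eval₂RingHom
      (sectionsStrMap (KScheme.str (K := k) (X := C)) U₁) y).Finite)
    (hi₀ : Function.Injective (Polynomial.eval₂RingHom
      (sectionsStrMap (KScheme.str (K := k) (X := C)) U₀) x))
    (hi₁ : Function.Injective (Polynomial.eval₂RingHom
      (sectionsStrMap (KScheme.str (K := k) (X := C)) U₁) y))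
    (J : Type u) (Nof : J → LB C) : ChartSetup k C :=
  haveI : Smooth (KScheme.str (K := k) (X := C)) :=
    SmoothOfRelativeDimension.smooth 1 (KScheme.str (K := k) (X := C))
  haveI : GeometricallyIntegral (KScheme.str (K := k) (X := C)) :=
    geometricallyIntegral_of_smooth_of_connectedSpace (KScheme.str (K := k) (X := C))
  haveI : Algebra.FiniteType k Γ(C, U₀) := finiteType_sections_kScheme h₀
  { U₀ := U₀
    U₁ := U₁
    hU₀ := h₀
    dom := inferInstance
    ft := finiteType_sections_kScheme h₀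
    hA := fun 𝔫 _ => isDiscreteValuationRing_localization_sections_kScheme k h₀ 𝔫
    hJ3 := j3UnivGen_of_cover U₀ U₁ x y h₀ h₁ hcov hx hy hxy hf₀ hf₁ hi₀ hi₁
    hH1 := h1Locus_of_cover U₀ U₁ x y h₀ h₁ hcov hx hy hxy hf₀ hf₁ hi₀ hi₁
    hGeom := geomLFC_of_geometricallyIntegral h₀
      (fun κ _ _ => isDomain_tensor_sections_kScheme h₀ κ)
    J := J
    Nof := Nof
    pkg := fun _ v => Classical.choice (nonempty_hilbPkg h₀
      (fun 𝔫 _ => isDiscreteValuationRing_localization_sections_kScheme k h₀ 𝔫) v) }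

section simp_lemmas

variable (U₀ U₁ : C.Opens) [Nonempty U₀] (x : Γ(C, U₀)) (y : Γ(C, U₁))
    (h₀ : IsAffineOpen U₀) (h₁ : IsAffineOpen U₁) (hcov : U₀ ⊔ U₁ = ⊤)
    (hx : C.basicOpen x = U₀ ⊓ U₁) (hy : C.basicOpen y = U₀ ⊓ U₁)
    (hxy : res (U₀ ⊓ U₁) inf_le_left x * res (U₀ ⊓ U₁) inf_le_right y = 1)
    (hf₀ : (Polynomial.eval₂RingHom
      (sectionsStrMap (KScheme.str (K := k) (X := C)) U₀) x).Finite)
    (hf₁ : (Polynomial.eval₂RingHom
      (sectionsStrMap (KScheme.str (K := k) (X := C)) U₁) y).Finite)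
    (hi₀ : Function.Injective (Polynomial.eval₂RingHom
      (sectionsStrMap (KScheme.str (K := k) (X := C)) U₀) x))
    (hi₁ : Function.Injective (Polynomial.eval₂RingHom
      (sectionsStrMap (KScheme.str (K := k) (X := C)) U₁) y))
    (J : Type u) (Nof : J → LB C)

@[simp] theorem chartSetupOfCover_U₀ :
    (chartSetupOfCover U₀ U₁ x y h₀ h₁ hcov hx hy hxy hf₀ hf₁ hi₀ hi₁ J Nof).U₀ = U₀ := rfl

@[simp] theorem chartSetupOfCover_U₁ :
    (chartSetupOfCover U₀ U₁ x y h₀ h₁ hcov hx hy hxy hf₀ hf₁ hi₀ hi₁ J Nof).U₁ = U₁ := rfl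

@[simp] theorem chartSetupOfCover_J :
    (chartSetupOfCover U₀ U₁ x y h₀ h₁ hcov hx hy hxy hf₀ hf₁ hi₀ hi₁ J Nof).J = J := rfl

@[simp] theorem chartSetupOfCover_Nof :
    (chartSetupOfCover U₀ U₁ x y h₀ h₁ hcov hx hy hxy hf₀ hf₁ hi₀ hi₁ J Nof).Nof = Nof := rfl

theorem chartSetupOfCover_hU₀ :
    (chartSetupOfCover U₀ U₁ x y h₀ h₁ hcov hx hy hxy hf₀ hf₁ hi₀ hi₁ J Nof).hU₀ = h₀ := rfl

end simp_lemmas

end

end Fermat.Agent.JAC
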