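/-
PROJECT JAC (S25) — (P), brick (F-D3pt) (helper1, for helper5): **the covering lemma at a geometric
point of an arbitrary base.**

For `T : Over (Spec k)`, `M` a line bundle on `C ×ₖ T` and `t : T.left`: there are an algebraically
closed field `K'` and a `K'`-point `s` of `T.left` over `t` such that, on the integral curve
`C ×ₖ Spec K'`, nonzero sections are regular and the restriction of `M ⊗ pr₁^*(Nof j)` satisfies
helper5's chart condition for one of helper3's twisting bundles `Nof j` (helper3's (D3)).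
-/
import Mathlib
import Fermat.Agent.JAC.D3_helper3_Cover
import Fermat.Agent.JAC.P_helper5_Cover
import Fermat.Agent.JAC.P_helper7_Setup
import Fermat.Agent.JAC.GI_helper4_Fibre

set_option autoImplicit false
set_option linter.style.haveILetI false
set_option linter.unusedSectionVars false

open AlgebraicGeometry CategoryTheory CategoryTheory.Limits Opposite TopologicalSpace TensorProduct
  AlgebraicGeometry.RelPicard NeronModelInfra

universe u

namespace Fermat.Agent.JAC

open Fermat.Agent.AV Fermat.Agent.AV.CP HilbAlg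

noncomputable section

attribute [local instance] overKScheme

/-- on an integral scheme a nonzero global section of a line bundle is regular. -/
theorem isRegSection_of_ne_zero_of_isIntegral {Z : Scheme.{u}} [IsIntegral Z] (M : LB Z)
    (σ : M.H0) (hσ : σ ≠ 0) : M.IsRegSection σ := by
  intro i V hV b hb
  by_cases hVne : (V : Set Z).Nonempty
  · haveI : Nonempty V := hVne.to_subtype
    rcases mul_eq_zero.mp hb with h0 | h0
    · exfalso
      apply hσ
      refine LB_eq_zero_of_res_eq_zero_of_isIntegral M σ V hVne (fun i' => ?_)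
      have h1 := σ.2 i' i
      have h2 := congrArg (res (M.U i' ⊓ V) (le_inf inf_le_left (inf_le_right.trans hV))) h1
      rw [res_res, map_mul, res_res] at h2
      have h3 : res (M.U i' ⊓ V) ((inf_le_right : M.U i' ⊓ V ≤ V).trans hV) (σ.1 i) =
          res (M.U i' ⊓ V) inf_le_right (res V hV (σ.1 i)) := (res_res _ _ _).symm
      rw [h3, h0, map_zero, mul_zero] at h2
      exact h2
    · exact h0
  · have hbot : V = ⊥ := by
      ext x
      simp only [Opens.coe_bot, Set.mem_empty_iff_false, iff_false]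
      intro hx
      exact hVne ⟨x, hx⟩
    have hsub : Subsingleton Γ(Z, V) := by
      rw [hbot]
      infer_instance
    exact Subsingleton.elim _ _


/-- a chart section is nonzero (it generates `H⁰` freely over the nonzero ring `Γ(T', ⊤)`). -/
theorem IsChartSection.ne_zero {K : Type u} [Field K] {C T' Y' : Scheme.{u}} [KScheme K C]
    [KScheme K T'] [IsAffine T'] [Nontrivial Γ(T', ⊤)] {p₁' : Y' ⟶ C} {p₂' : Y' ⟶ T'}
    (H' : IsPullback p₁' p₂' (KScheme.str (K := K)) (KScheme.str (K := K)))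
    {U₀ : C.Opens} (hU₀ : IsAffineOpen U₀) {g : ℕ} (v : Fin g → Γ(C, U₀)) (L' : LB Y')
    (σ : L'.H0) (h : IsChartSection H' hU₀ v L' σ) : σ ≠ 0 := by
  rintro rfl
  obtain ⟨b, -, hb⟩ := h.1 0
  have h0 : (0 : Γ(T', ⊤)) = b := hb 0 (smul_zero _).symm
  have h1 : (1 : Γ(T', ⊤)) = b := hb 1 (smul_zero _).symm
  exact zero_ne_one (h0.trans h1.symm)

variable {k : Type u} [Field k] [IsAlgClosed k] {C : Scheme.{u}} [KScheme k C]
  [IsIntegral C] [IsProper (KScheme.str (K := k) (X := C))]
  [SmoothOfRelativeDimension 1 (KScheme.str (K := k) (X := C))] [IsNoetherian C]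

local notation "cK" => (KScheme.str (K := k) (X := C))

/-- **(F-D3pt)** the covering lemma at a geometric point over an arbitrary point of an arbitrary
base, with the cover data of helper3's `D3.exists_chartCond`. -/
theorem exists_chartCond_point (ε₀ : ClosedPt C) {U₀ U₁ : C.Opens} (hU₀ : IsAffineOpen U₀)
    (hU₁ : IsAffineOpen U₁) (hcov : U₀ ⊔ U₁ = ⊤) (hε : ∀ z : C, z ∈ U₀ ↔ z ≠ ε₀.1)
    (x : Γ(C, U₀)) (yf : Γ(C, U₁)) (hx : C.basicOpen x = U₀ ⊓ U₁)
    (hy : C.basicOpen yf = U₀ ⊓ U₁)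
    (hxy : res (U₀ ⊓ U₁) inf_le_left x * res (U₀ ⊓ U₁) inf_le_right yf = 1)
    (hfin₀ : (Polynomial.eval₂RingHom
      (sectionsStrMap (KScheme.str (K := k) (X := C)) U₀) x).Finite)
    (hnzd : IsNZDOn U₁ yf)
    (T : Over (Spec (CommRingCat.of k)))
    (M : LB (pullback (KScheme.str (K := k) (X := C)) T.hom)) (t : T.left) :
    ∃ (K' : Type u) (_ : Field K') (_ : IsAlgClosed K') (s : Spec (CommRingCat.of K') ⟶ T.left),
      (∀ x, s.base x = t) ∧
      (∀ (L' : LB (pullback (KScheme.str (K := k) (X := C)) (s ≫ T.hom))) (σ : L'.H0), σ ≠ 0 →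
        L'.IsRegSection σ) ∧
      ∃ (j : ℕ × List (ClosedPt C)) (g : ℕ) (v : Fin g → Γ(C, U₀)),
        ChartCond (isPullback_over (KScheme.str (K := k) (X := C)) (Over.mk (s ≫ T.hom))) hU₀
          U₁ v ((M.tensor ((D3.Nof (K := k) ε₀ hcov hnzd hy j).pullback
            (pullback.fst (KScheme.str (K := k) (X := C)) T.hom))).pullback
            (baseChangeSnd (KScheme.str (K := k) (X := C))
              (overHom (Over.homMk s rfl : Over.mk (s ≫ T.hom) ⟶ T)))) := by
  haveI : Smooth cK := SmoothOfRelativeDimension.smooth 1 cK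
  -- the geometric point
  let κ := T.left.residueField t
  let K' := AlgebraicClosure κ
  let s : Spec (CommRingCat.of K') ⟶ T.left :=
    Spec.map (CommRingCat.ofHom (algebraMap κ K')) ≫ T.left.fromSpecResidueField t
  have hst : ∀ x, s.base x = t := by
    intro x
    have h : s.base x ∈ Set.range (T.left.fromSpecResidueField t).base := ⟨_, rfl⟩
    rw [Scheme.range_fromSpecResidueField] at h
    exact h
  refine ⟨K', inferInstance, inferInstance, s, hst, ?_⟩
  -- the geometric fibre
  set y : Spec (CommRingCat.of K') ⟶ Spec (CommRingCat.of k) := s ≫ T.hom with hy0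
  set Pt : Over (Spec (CommRingCat.of k)) := Over.mk y with hPt
  set sO : Pt ⟶ T := Over.homMk s rfl with hsO
  have HY : IsPullback (pullback.fst cK y) (pullback.snd cK y) cK y :=
    IsPullback.of_hasPullback cK y
  haveI hint : IsIntegral (pullback cK y) :=
    isIntegral_of_isPullback_field cK y _ _ HY
  haveI hprop : IsProper (pullback.snd cK y) := inferInstance
  haveI hsm : SmoothOfRelativeDimension 1 (pullback.snd cK y) :=
    smoothOfRelativeDimension_of_isPullback_field cK y _ _ HY 1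
  haveI hnoe : IsNoetherian (pullback cK y) := by
    haveI : IsLocallyNoetherian (pullback cK y) :=
      LocallyOfFiniteType.isLocallyNoetherian (pullback.snd cK y)
    haveI : CompactSpace (pullback cK y : Scheme.{u}) := by
      have h : QuasiCompact (pullback.snd cK y) := inferInstance
      exact (quasiCompact_iff_compactSpace (f := pullback.snd cK y)).mp h
    exact { }
  have hreg : ∀ (L' : LB (pullback cK y)) (σ : L'.H0), σ ≠ 0 → L'.IsRegSection σ :=
    fun L' σ hσ => isRegSection_of_ne_zero_of_isIntegral L' σ hσ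
  refine ⟨hreg, ?_⟩
  -- helper3's covering lemma on the fibre
  letI : KScheme k (Spec (CommRingCat.of K')) := overKScheme Pt
  obtain ⟨j, g, v, hcc⟩ := D3.exists_chartCond (K := k) (K' := K') (C := C)
    (Y := pullback cK y) (p₁ := pullback.fst cK y) (p₂ := pullback.snd cK y)
    (isPullback_over cK Pt) ε₀ hU₀ hU₁ hcov hε x yf hx hy hxy hfin₀ hnzd
    (M.pullback (baseChangeSnd cK (overHom sO)))
  refine ⟨j, g, v, ?_⟩
  -- transport along the twist bookkeeping isomorphism
  have hiso : LB.Iso ((M.pullback (baseChangeSnd cK (overHom sO))).tensor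
      ((D3.Nof (K := k) ε₀ hcov hnzd hy j).pullback (pullback.fst cK Pt.hom)))
      ((M.tensor ((D3.Nof (K := k) ε₀ hcov hnzd hy j).pullback (pullback.fst cK T.hom))).pullback
        (baseChangeSnd cK (overHom sO))) := by
    rw [← PicGroup.mk_eq_mk_iff, mk_pullback_tensor_pullback_fst, PicGroup.mk_tensor]
  obtain ⟨D⟩ := hiso
  haveI : Nontrivial Γ(Pt.left, ⊤) :=
    (isField_Γ_Spec_of_field K').nontrivial
  exact ChartCond.of_iso (isPullback_over cK Pt) hU₀ U₁ v hcc
    (fun σ hσ => hreg _ σ (IsChartSection.ne_zero (isPullback_over cK Pt) hU₀ v _ σ hσ)) D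


/-- **(F-D3pt)** in the literal shape of the hypothesis `hD3` of helper5's `ChartSetup.hcover`, for
helper7's `chartSetupOfCover` with `J := ℕ × List (ClosedPt C)` and helper3's twisting bundles
`Nof := D3.Nof ε₀ hcov hnzd hy`. -/
theorem hD3_chartSetupOfCover (ε₀ : ClosedPt C) (U₀ U₁ : C.Opens) [Nonempty U₀] (x : Γ(C, U₀))
    (yf : Γ(C, U₁)) (h₀ : IsAffineOpen U₀) (h₁ : IsAffineOpen U₁) (hcov : U₀ ⊔ U₁ = ⊤)
    (hx : C.basicOpen x = U₀ ⊓ U₁) (hy : C.basicOpen yf = U₀ ⊓ U₁)
    (hxy : res (U₀ ⊓ U₁) inf_le_left x * res (U₀ ⊓ U₁) inf_le_right yf = 1)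
    (hf₀ : (Polynomial.eval₂RingHom
      (sectionsStrMap (KScheme.str (K := k) (X := C)) U₀) x).Finite)
    (hf₁ : (Polynomial.eval₂RingHom
      (sectionsStrMap (KScheme.str (K := k) (X := C)) U₁) yf).Finite)
    (hi₀ : Function.Injective (Polynomial.eval₂RingHom
      (sectionsStrMap (KScheme.str (K := k) (X := C)) U₀) x))
    (hi₁ : Function.Injective (Polynomial.eval₂RingHom
      (sectionsStrMap (KScheme.str (K := k) (X := C)) U₁) yf))
    (hε : ∀ z : C, z ∈ U₀ ↔ z ≠ ε₀.1) (hnzd : IsNZDOn U₁ yf)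
    (T : Over (Spec (CommRingCat.of k)))
    (M : LB (pullback (KScheme.str (K := k) (X := C)) T.hom)) (t : T.left) :
    ∃ (K' : Type u) (_ : Field K') (_ : IsAlgClosed K') (s : Spec (CommRingCat.of K') ⟶ T.left),
      (∀ x, s.base x = t) ∧
      (∀ (L' : LB (pullback (KScheme.str (K := k) (X := C)) (s ≫ T.hom))) (σ : L'.H0), σ ≠ 0 →
        L'.IsRegSection σ) ∧
      ∃ (j : (chartSetupOfCover U₀ U₁ x yf h₀ h₁ hcov hx hy hxy hf₀ hf₁ hi₀ hi₁
          (ℕ × List (ClosedPt C)) (D3.Nof (K := k) ε₀ hcov hnzd hy)).J) (g : ℕ)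
        (v : Fin g → Γ(C, (chartSetupOfCover U₀ U₁ x yf h₀ h₁ hcov hx hy hxy hf₀ hf₁ hi₀ hi₁
          (ℕ × List (ClosedPt C)) (D3.Nof (K := k) ε₀ hcov hnzd hy)).U₀)),
        ChartCond (isPullback_over (KScheme.str (K := k) (X := C)) (Over.mk (s ≫ T.hom)))
          (chartSetupOfCover U₀ U₁ x yf h₀ h₁ hcov hx hy hxy hf₀ hf₁ hi₀ hi₁
            (ℕ × List (ClosedPt C)) (D3.Nof (K := k) ε₀ hcov hnzd hy)).hU₀
          (chartSetupOfCover U₀ U₁ x yf h₀ h₁ hcov hx hy hxy hf₀ hf₁ hi₀ hi₁
            (ℕ × List (ClosedPt C)) (D3.Nof (K := k) ε₀ hcov hnzd hy)).U₁ v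
          ((M.tensor (((chartSetupOfCover U₀ U₁ x yf h₀ h₁ hcov hx hy hxy hf₀ hf₁ hi₀ hi₁
            (ℕ × List (ClosedPt C)) (D3.Nof (K := k) ε₀ hcov hnzd hy)).Nof j).pullback
            (pullback.fst (KScheme.str (K := k) (X := C)) T.hom))).pullback
            (baseChangeSnd (KScheme.str (K := k) (X := C))
              (overHom (Over.homMk s rfl : Over.mk (s ≫ T.hom) ⟶ T)))) :=
  exists_chartCond_point ε₀ h₀ h₁ hcov hε x yf hx hy hxy hf₀ hnzd T M t

/-- **the charts of helper7's `chartSetupOfCover` cover**: helper5's `ChartSetup.hcover` with its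
hypothesis `hD3` discharged. -/
theorem hcover_chartSetupOfCover (ε₀ : ClosedPt C) (U₀ U₁ : C.Opens) [Nonempty U₀] (x : Γ(C, U₀))
    (yf : Γ(C, U₁)) (h₀ : IsAffineOpen U₀) (h₁ : IsAffineOpen U₁) (hcov : U₀ ⊔ U₁ = ⊤)
    (hx : C.basicOpen x = U₀ ⊓ U₁) (hy : C.basicOpen yf = U₀ ⊓ U₁)
    (hxy : res (U₀ ⊓ U₁) inf_le_left x * res (U₀ ⊓ U₁) inf_le_right yf = 1)
    (hf₀ : (Polynomial.eval₂RingHom
      (sectionsStrMap (KScheme.str (K := k) (X := C)) U₀) x).Finite)
    (hf₁ : (Polynomial.eval₂RingHom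
      (sectionsStrMap (KScheme.str (K := k) (X := C)) U₁) yf).Finite)
    (hi₀ : Function.Injective (Polynomial.eval₂RingHom
      (sectionsStrMap (KScheme.str (K := k) (X := C)) U₀) x))
    (hi₁ : Function.Injective (Polynomial.eval₂RingHom
      (sectionsStrMap (KScheme.str (K := k) (X := C)) U₁) yf))
    (hε : ∀ z : C, z ∈ U₀ ↔ z ≠ ε₀.1) (hnzd : IsNZDOn U₁ yf)
    (ε : SchemeHomOver (𝟙 (Spec (CommRingCat.of k))) (KScheme.str (K := k) (X := C)))
    (Q : LBCond (KScheme.str (K := k) (X := C)))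
    (hgood : ∀ (Hs : Over (Spec (CommRingCat.of k)))
      (Lu : LB (pullback (KScheme.str (K := k) (X := C)) Hs.hom)) (N₀ : LB C)
      (T : Over (Spec (CommRingCat.of k)))
      (M : LB (pullback (KScheme.str (K := k) (X := C)) T.hom)), Q.P T.hom M →
      ∀ (K' : Type u) [Field K'] [IsAlgClosed K'] (s : Spec (CommRingCat.of K') ⟶ T.left)
        (φ : Over.mk (s ≫ T.hom) ⟶ Hs),
        LB.Iso (Lu.pullback (baseChangeSnd (KScheme.str (K := k) (X := C)) (overHom φ)))
          ((M.tensor (N₀.pullback (pullback.fst (KScheme.str (K := k) (X := C)) T.hom))).pullback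
            (baseChangeSnd (KScheme.str (K := k) (X := C))
              (overHom (Over.homMk s rfl : Over.mk (s ≫ T.hom) ⟶ T)))) →
        ∃ O : Hs.left.Opens, (∀ x, φ.left.base x ∈ O) ∧ ∀ V : Hs.left.Opens, V ≤ O →
          LBRigidified (KScheme.str (K := k) (X := C)) ε (REP.resOpen Hs V).hom
            ((Lu.tensor (N₀.inv.pullback
              (pullback.fst (KScheme.str (K := k) (X := C)) Hs.hom))).pullback
              (baseChangeSnd (KScheme.str (K := k) (X := C)) (overHom (REP.resHom Hs V)))) ∧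
          Q.P (REP.resOpen Hs V).hom
            ((Lu.tensor (N₀.inv.pullback
              (pullback.fst (KScheme.str (K := k) (X := C)) Hs.hom))).pullback
              (baseChangeSnd (KScheme.str (K := k) (X := C)) (overHom (REP.resHom Hs V)))))
    (T : Over (Spec (CommRingCat.of k))) (hT : IsAffine T.left)
    (η : (picFunctor (KScheme.str (K := k) (X := C)) ε Q).obj (op T)) (t : T.left) :
    ∃ (i : ChartIdx (chartSetupOfCover U₀ U₁ x yf h₀ h₁ hcov hx hy hxy hf₀ hf₁ hi₀ hi₁
        (ℕ × List (ClosedPt C)) (D3.Nof (K := k) ε₀ hcov hnzd hy)) ε Q)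
      (T₁ : Over (Spec (CommRingCat.of k))) (j : T₁ ⟶ T),
      IsOpenImmersion j.left ∧ t ∈ Set.range j.left.base ∧
      ∃ b₁ : T₁ ⟶ i.X, (picFunctor (KScheme.str (K := k) (X := C)) ε Q).map b₁.op i.ξ =
        (picFunctor (KScheme.str (K := k) (X := C)) ε Q).map j.op η :=
  ChartSetup.hcover _ ε Q
    (hD3_chartSetupOfCover ε₀ U₀ U₁ x yf h₀ h₁ hcov hx hy hxy hf₀ hf₁ hi₀ hi₁ hε hnzd)
    hgood T hT η t

end

end Fermat.Agent.JAC
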