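/-
PROJECT JAC (S25) — (P), brick (F-good), helper4: **near a geometric point at which a family of
line bundles on `C ×ₖ T` has degree zero, the family is rigidifiable and lies in the
fibrewise-degree-zero cut**; and the degree bookkeeping for twists by bundles pulled back from `C`.

Setting: `k` algebraically closed, `c : C ⟶ Spec k` proper smooth of relative dimension one,
`C` integral, `ε` a section; a *fibre square* is `IsPullback p a (pullback.snd c t) s` with
`s : Spec K' ⟶ T` a geometric point and `A` integral noetherian.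

* `isTrivial_pullback_rigSection_restrict` : over an open `V` inside a chart of
  `M.pullback (rigSection c t ε)`, the restriction of `M` to `C ×ₖ V` is rigidified;
* `exists_good_open'` (plain `t : T ⟶ Spec k`), **`exists_good_open`** (`T : Over (Spec k)`,
  helper5's shape): `∃ O ∋ s(pt)`, every open `V ≤ O` has
  `LBRigidified c ε (V.ι ≫ t) (M|V) ∧ (LBCond.degZero c).P (V.ι ≫ t) (M|V)`;
* `deg_pullback_eq_of_iso_of_fibreSquare`, `deg_pullback_tensor_of_fibreSquare`,
  `deg_pullback_tensor_pullback_fst_of_fibreSquare`,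
  **`deg_pullback_tensor_pullback_fst_of_degZero`** (`M` in the cut ⇒ `deg (M ⊗ pr₁^*N)|_A = deg N`),
  **`deg_pullback_tensor_inv_pullback_fst_of_fibreSquare`**
  (`deg (L ⊗ pr₁^*N⁻¹)|_A = deg L|_A − deg N`).
-/
import Mathlib
import Fermat.Agent.JAC.J8_helper4_DegOpen
import Fermat.Agent.JAC.BR_helper1_Invertible
import Fermat.Agent.AV.CUBE_helper1_Main

set_option autoImplicit false
set_option linter.style.haveILetI false
open CategoryTheory CategoryTheory.Limits AlgebraicGeometry AlgebraicGeometry.RelPicard
  NeronModelInfra GoodReductionJacobian TopologicalSpace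
universe u

namespace Fermat.Agent.JAC

open Fermat.Agent.AV

noncomputable section

variable {k : Type u} [Field k] [IsAlgClosed k] {C : Scheme.{u}} [IsIntegral C]
  (c : C ⟶ Spec (CommRingCat.of k)) [IsProper c] [SmoothOfRelativeDimension 1 c]
  (ε : SchemeHomOver (𝟙 (Spec (CommRingCat.of k))) c)

section Rig

omit [IsAlgClosed k] [IsIntegral C] [IsProper c] [SmoothOfRelativeDimension 1 c] in
/-- over an open `V` of `T` contained in a chart of `M.pullback (rigSection c t ε)`, the
restriction of `M` to `C ×ₖ V` is rigidified. -/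
theorem isTrivial_pullback_rigSection_restrict {T : Scheme.{u}} (t : T ⟶ Spec (CommRingCat.of k))
    (M : LB (pullback c t)) (i : (M.pullback (rigSection c t ε)).ι) (V : T.Opens)
    (hV : V ≤ (M.pullback (rigSection c t ε)).U i) :
    LBRigidified c ε (V.ι ≫ t)
      (M.pullback (baseChangeSnd c (⟨V.ι, rfl⟩ : SchemeHomOver (V.ι ≫ t) t))) := by
  show ((M.pullback (baseChangeSnd c (⟨V.ι, rfl⟩ : SchemeHomOver (V.ι ≫ t) t))).pullback
    (rigSection c (V.ι ≫ t) ε)).IsTrivial
  rw [LB.pullback_comp, rigSection_baseChangeSnd c ε (⟨V.ι, rfl⟩ : SchemeHomOver (V.ι ≫ t) t)]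
  have hfac : V.ι = T.homOfLE hV ≫ ((M.pullback (rigSection c t ε)).U i).ι :=
    (Scheme.homOfLE_ι T hV).symm
  show (M.pullback (V.ι ≫ rigSection c t ε)).IsTrivial
  rw [← LB.pullback_comp, hfac, ← LB.pullback_comp]
  exact (LB.isTrivial_pullback_chart _ i).pullback _

end Rig

section Good

/-- **(F-good), plain form**: near a geometric point at which `M` has degree zero, `M` is
rigidifiable and lies in the fibrewise-degree-zero cut. -/
theorem exists_good_open' {T : Scheme.{u}} (t : T ⟶ Spec (CommRingCat.of k))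
    (M : LB (pullback c t)) {K' : Type u} [Field K'] [IsAlgClosed K']
    (s : Spec (CommRingCat.of K') ⟶ T) {A : Scheme.{u}} [IsIntegral A] [IsNoetherian A]
    (p : A ⟶ pullback c t) (a : A ⟶ Spec (CommRingCat.of K'))
    (sq : IsPullback p a (pullback.snd c t) s) (hdeg : (M.pullback p).deg = 0) :
    ∃ O : T.Opens, (∀ x, s.base x ∈ O) ∧ ∀ V : T.Opens, V ≤ O →
      LBRigidified c ε (V.ι ≫ t)
        (M.pullback (baseChangeSnd c (⟨V.ι, rfl⟩ : SchemeHomOver (V.ι ≫ t) t))) ∧
      (LBCond.degZero c).P (V.ι ≫ t)
        (M.pullback (baseChangeSnd c (⟨V.ι, rfl⟩ : SchemeHomOver (V.ι ≫ t) t))) := by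
  have hs : s (ptK K') ∈ degZeroLocus c t M := (mem_degZeroLocus_iff c t M sq).mpr hdeg
  obtain ⟨i, hi⟩ : ∃ i, s (ptK K') ∈ (M.pullback (rigSection c t ε)).U i := by
    have h : s (ptK K') ∈ (⊤ : T.Opens) := trivial
    rw [← (M.pullback (rigSection c t ε)).iSup_U] at h
    exact Opens.mem_iSup.mp h
  refine ⟨degZeroLocus c t M ⊓ (M.pullback (rigSection c t ε)).U i, fun x => ?_, fun V hV => ?_⟩
  · have hx : x = ptK K' := Subsingleton.elim _ _
    rw [hx]
    exact ⟨hs, hi⟩
  · refine ⟨isTrivial_pullback_rigSection_restrict c ε t M i V (hV.trans inf_le_right), ?_⟩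
    rw [LBCond.degZero_P]
    exact lbFibrewiseDegZero_restrict c t M V fun k'' _ _ s'' A'' _ _ p'' a'' H'' hs'' =>
      (mem_degZeroLocus_iff c t M H'').mp ((hV.trans inf_le_left) hs'')

/-- **(F-good)** in the `Over` form. -/
theorem exists_good_open (T : Over (Spec (CommRingCat.of k))) (M : LB (pullback c T.hom))
    {K' : Type u} [Field K'] [IsAlgClosed K']
    (s : Spec (CommRingCat.of K') ⟶ T.left) {A : Scheme.{u}} [IsIntegral A] [IsNoetherian A]
    (p : A ⟶ pullback c T.hom) (a : A ⟶ Spec (CommRingCat.of K'))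
    (sq : IsPullback p a (pullback.snd c T.hom) s) (hdeg : (M.pullback p).deg = 0) :
    ∃ O : T.left.Opens, (∀ x, s.base x ∈ O) ∧ ∀ V : T.left.Opens, V ≤ O →
      LBRigidified c ε (V.ι ≫ T.hom)
        (M.pullback (baseChangeSnd c (⟨V.ι, rfl⟩ : SchemeHomOver (V.ι ≫ T.hom) T.hom))) ∧
      (LBCond.degZero c).P (V.ι ≫ T.hom)
        (M.pullback (baseChangeSnd c (⟨V.ι, rfl⟩ : SchemeHomOver (V.ι ≫ T.hom) T.hom))) :=
  exists_good_open' c ε T.hom M s p a sq hdeg

end Good

section Bookkeeping

variable {T : Scheme.{u}} {t : T ⟶ Spec (CommRingCat.of k)} {k' : Type u} [Field k']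
  [IsAlgClosed k'] {s : Spec (CommRingCat.of k') ⟶ T} {A : Scheme.{u}} [IsIntegral A]
  [IsNoetherian A] {p : A ⟶ pullback c t} {a : A ⟶ Spec (CommRingCat.of k')}

omit [IsAlgClosed k] [IsIntegral C] in
/-- isomorphic bundles on `C ×ₖ T` have the same degree on every fibre square. -/
theorem deg_pullback_eq_of_iso_of_fibreSquare (H : IsPullback p a (pullback.snd c t) s)
    {M M' : LB (pullback c t)} (h : LB.Iso M M') : (M.pullback p).deg = (M'.pullback p).deg := by
  rw [← squareDeg_mk c H, ← squareDeg_mk c H, (PicGroup.mk_eq_mk_iff M M').mpr h]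

omit [IsAlgClosed k] [IsIntegral C] in
/-- isomorphic bundles on the total space `A` of a fibre square have the same degree. -/
theorem deg_eq_of_iso_of_fibreSquare (H : IsPullback p a (pullback.snd c t) s)
    {L L' : LB A} (h : LB.Iso L L') : L.deg = L'.deg :=
  LB.deg_eq_of_iso (principalDegZero_of_fibreSquare c H) h

omit [IsAlgClosed k] [IsIntegral C] in
/-- the degree on a fibre square is additive. -/
theorem deg_pullback_tensor_of_fibreSquare (H : IsPullback p a (pullback.snd c t) s)
    (M M' : LB (pullback c t)) :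
    ((M.tensor M').pullback p).deg = (M.pullback p).deg + (M'.pullback p).deg := by
  rw [← squareDeg_mk c H, ← squareDeg_mk c H, ← squareDeg_mk c H, PicGroup.mk_tensor, map_add]

variable [IsNoetherian C]

/-- twisting by a bundle pulled back from `C` adds its degree, on every fibre square. -/
theorem deg_pullback_tensor_pullback_fst_of_fibreSquare
    (H : IsPullback p a (pullback.snd c t) s) (L : LB (pullback c t)) (N : LB C) :
    ((L.tensor (N.pullback (pullback.fst c t))).pullback p).deg =
      (L.pullback p).deg + N.deg := by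
  rw [deg_pullback_tensor_of_fibreSquare c H, deg_pullback_fst_of_fibreSquare c H N]

/-- **for `M` in the fibrewise-degree-zero cut, `M ⊗ pr₁^*N` has degree `deg N` on every fibre
square.** -/
theorem deg_pullback_tensor_pullback_fst_of_degZero
    (H : IsPullback p a (pullback.snd c t) s) {M : LB (pullback c t)}
    (hM : (LBCond.degZero c).P t M) (N : LB C) :
    ((M.tensor (N.pullback (pullback.fst c t))).pullback p).deg = N.deg := by
  rw [deg_pullback_tensor_pullback_fst_of_fibreSquare c H, hM k' s A p a H, zero_add]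

/-- **twisting by the inverse of a bundle pulled back from `C` subtracts its degree.** -/
theorem deg_pullback_tensor_inv_pullback_fst_of_fibreSquare
    (H : IsPullback p a (pullback.snd c t) s) (L : LB (pullback c t)) (N : LB C) :
    ((L.tensor (N.inv.pullback (pullback.fst c t))).pullback p).deg =
      (L.pullback p).deg - N.deg := by
  rw [deg_pullback_tensor_pullback_fst_of_fibreSquare c H,
    LB.deg_inv (principalDegZero_curve c), sub_eq_add_neg]

end Bookkeeping

end

end Fermat.Agent.JAC
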