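/-
PROJECT JAC (S25) — helper5 — (P), algebra: **finiteness and projectivity of `R ⧸ I` over `B`.**

`B` a commutative ring, `R` a `B`-algebra (think `R = B ⊗[k] A = Γ(U⁰ × T)`), `I` an ideal of `R`
(the zero ideal of a section `σ`), `N` an `R`-module which is finite over `B` and whose annihilator
is contained in `I` (think `N = L(W⁰)/σ ≅ H¹(O) ≅ B^g`).

* `finite_quotient_of_ann_le` : `R ⧸ I` is a finite `B`-module (it embeds in `End_B N`, hence is
  integral over `B`, and it is of finite type);
* `finitePresentation_quotient`, `projective_quotient` : if moreover `I` is finitely generated, `R` is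
  of finite presentation and `R ⧸ I` is `B`-flat, then `R ⧸ I` is a finitely presented projective
  `B`-module.
-/
import Mathlib

set_option autoImplicit false
set_option linter.style.haveILetI false

universe u

namespace Fermat.Agent.JAC

section

variable {B R N : Type*} [CommRing B] [CommRing R] [Algebra B R] [AddCommGroup N] [Module R N]
  [Module B N] [IsScalarTower B R N]

/-- an element of `R` acting on the finite `B`-module `N` satisfies a monic polynomial over `B`
up to the annihilator of `N`. -/
theorem exists_monic_aeval_smul_eq_zero [Module.Finite B N] (r : R) :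
    ∃ p : Polynomial B, p.Monic ∧ ∀ n : N, (Polynomial.aeval r p) • n = 0 := by
  haveI : SMulCommClass R B N := IsScalarTower.to_smulCommClass'
  obtain ⟨p, hp, hpe⟩ := Algebra.IsIntegral.isIntegral (R := B) (Algebra.lsmul B B N r)
  refine ⟨p, hp, fun n => ?_⟩
  have h1 : Polynomial.aeval (Algebra.lsmul B B N r) p = 0 := by
    rw [Polynomial.aeval_def]; exact hpe
  rw [Polynomial.aeval_algHom_apply] at h1
  have h2 := congrArg (fun f : Module.End B N => f n) h1
  simpa using h2

/-- **finiteness**: if the annihilator of the finite `B`-module `N` is contained in `I` and `R` is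
a `B`-algebra of finite type, then `R ⧸ I` is a finite `B`-module. -/
theorem finite_quotient_of_ann_le [Algebra.FiniteType B R] [Module.Finite B N] (I : Ideal R)
    (hI : ∀ x : R, (∀ n : N, x • n = 0) → x ∈ I) : Module.Finite B (R ⧸ I) := by
  haveI : Algebra.FiniteType B (R ⧸ I) :=
    Algebra.FiniteType.of_surjective (Ideal.Quotient.mkₐ B I) (Ideal.Quotient.mkₐ_surjective B I)
  haveI : Algebra.IsIntegral B (R ⧸ I) := ⟨fun q => by
    obtain ⟨r, rfl⟩ := Ideal.Quotient.mk_surjective q
    obtain ⟨p, hp, hpn⟩ := exists_monic_aeval_smul_eq_zero (B := B) (N := N) r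
    refine ⟨p, hp, ?_⟩
    have h1 : Polynomial.aeval r p ∈ I := hI _ hpn
    have h2 : Polynomial.aeval (Ideal.Quotient.mk I r) p = 0 := by
      have h3 := Polynomial.aeval_algHom_apply (Ideal.Quotient.mkₐ B I) r p
      rw [Ideal.Quotient.mkₐ_eq_mk] at h3
      rw [h3]
      exact Ideal.Quotient.eq_zero_iff_mem.mpr h1
    rw [Polynomial.aeval_def] at h2
    exact h2⟩
  exact Algebra.IsIntegral.finite

end

section

variable {B R : Type*} [CommRing B] [CommRing R] [Algebra B R]

/-- `R ⧸ I` is a finitely presented `B`-module if it is finite, `R` is of finite presentation and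
`I` is finitely generated. -/
theorem finitePresentation_quotient [Algebra.FinitePresentation B R] (I : Ideal R) (hI : I.FG)
    [Module.Finite B (R ⧸ I)] : Module.FinitePresentation B (R ⧸ I) := by
  haveI : Algebra.FinitePresentation B (R ⧸ I) := Algebra.FinitePresentation.quotient hI
  exact (Module.FinitePresentation.iff_finitePresentation_of_finite B (R ⧸ I)).mpr inferInstance

/-- **projectivity.** -/
theorem projective_quotient [Algebra.FinitePresentation B R] (I : Ideal R) (hI : I.FG)
    [Module.Finite B (R ⧸ I)] [Module.Flat B (R ⧸ I)] : Module.Projective B (R ⧸ I) := by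
  haveI := finitePresentation_quotient (B := B) I hI
  exact Module.Flat.projective_of_finitePresentation

end

end Fermat.Agent.JAC
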