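/-
PROJECT JAC (S25) — helper5 — (P): **the `hgood` hypothesis of `ChartSetup.hcover`** for the
fibrewise-degree-zero cut, from helper4's `exists_good_open` and degree bookkeeping.
-/
import Mathlib
import Fermat.Agent.JAC.P_helper4_Good
import Fermat.Agent.JAC.P_helper7_Dict
import Fermat.Agent.JAC.REP_helper9_Iface
import Fermat.Agent.JAC.GI_helper4_GeomConn

set_option autoImplicit false
set_option linter.style.haveILetI false
set_option linter.unusedSectionVars false

open AlgebraicGeometry CategoryTheory CategoryTheory.Limits Opposite TopologicalSpace TensorProduct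
  AlgebraicGeometry.RelPicard NeronModelInfra

universe u

namespace Fermat.Agent.JAC

open Fermat.Agent.AV Fermat.Agent.AV.CP

noncomputable section

variable {k : Type u} [Field k] [IsAlgClosed k] {C : Scheme.{u}} [IsIntegral C]
  (c : C ⟶ Spec (CommRingCat.of k)) [IsProper c] [SmoothOfRelativeDimension 1 c]
  (ε : SchemeHomOver (𝟙 (Spec (CommRingCat.of k))) c)

/-- **(F-good), in the shape of `ChartSetup.hcover`**: around the image of a geometric point of
`Hs` at which the twisted bundle `Lu ⊗ pr₁^*N₀⁻¹` comes from a bundle in the cut, it is rigidified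
and in the cut over every small open. -/
theorem hgood_degZero (Hs : Over (Spec (CommRingCat.of k))) (Lu : LB (pullback c Hs.hom))
    (N₀ : LB C) (T : Over (Spec (CommRingCat.of k))) (M : LB (pullback c T.hom))
    (hQM : (LBCond.degZero c).P T.hom M)
    (K' : Type u) [Field K'] [IsAlgClosed K'] (s : Spec (CommRingCat.of K') ⟶ T.left)
    (φ : Over.mk (s ≫ T.hom) ⟶ Hs)
    (hiso : LB.Iso (Lu.pullback (baseChangeSnd c (overHom φ)))
      ((M.tensor (N₀.pullback (pullback.fst c T.hom))).pullback
        (baseChangeSnd c (overHom (Over.homMk s rfl : Over.mk (s ≫ T.hom) ⟶ T))))) :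
    ∃ O : Hs.left.Opens, (∀ x, φ.left.base x ∈ O) ∧ ∀ V : Hs.left.Opens, V ≤ O →
      LBRigidified c ε (REP.resOpen Hs V).hom
        ((Lu.tensor (N₀.inv.pullback (pullback.fst c Hs.hom))).pullback
          (baseChangeSnd c (overHom (REP.resHom Hs V)))) ∧
      (LBCond.degZero c).P (REP.resOpen Hs V).hom
        ((Lu.tensor (N₀.inv.pullback (pullback.fst c Hs.hom))).pullback
          (baseChangeSnd c (overHom (REP.resHom Hs V)))) := by
  haveI : IsNoetherian C := isNoetherian_of_isProper_field c
  haveI : Smooth c := SmoothOfRelativeDimension.smooth 1 c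
  haveI : IsIntegral (pullback c (Over.mk (s ≫ T.hom)).hom) :=
    isIntegral_of_isPullback_field c (Over.mk (s ≫ T.hom)).hom _ _
      (IsPullback.of_hasPullback c (Over.mk (s ≫ T.hom)).hom)
  haveI : IsNoetherian (pullback c (Over.mk (s ≫ T.hom)).hom) :=
    isNoetherian_of_isProper_field (pullback.snd c (Over.mk (s ≫ T.hom)).hom)
  have HH : IsPullback (baseChangeSnd c (overHom φ)) (pullback.snd c (Over.mk (s ≫ T.hom)).hom)
      (pullback.snd c Hs.hom) φ.left := isPullback_baseChangeSnd_overHom c φ
  have HT : IsPullback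
      (baseChangeSnd c (overHom (Over.homMk s rfl : Over.mk (s ≫ T.hom) ⟶ T)))
      (pullback.snd c (Over.mk (s ≫ T.hom)).hom) (pullback.snd c T.hom) s :=
    isPullback_baseChangeSnd_overHom c (Over.homMk s rfl : Over.mk (s ≫ T.hom) ⟶ T)
  have hdeg : ((Lu.tensor (N₀.inv.pullback (pullback.fst c Hs.hom))).pullback
      (baseChangeSnd c (overHom φ))).deg = 0 := by
    rw [deg_pullback_tensor_inv_pullback_fst_of_fibreSquare c HH Lu N₀,
      deg_eq_of_iso_of_fibreSquare c HH hiso,
      deg_pullback_tensor_pullback_fst_of_degZero c HT hQM N₀, sub_self]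
  exact exists_good_open c ε Hs _ φ.left _ _ HH hdeg

end

end Fermat.Agent.JAC
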