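/-
PROJECT JAC (S25) — (P), brick (F-open) (helper7, for helper5): **the openness property of the
charts at functor level** (`hopen` of helper1's `REP.ChartData.ofLocal`).

If, at a field-valued point `s : P ⟶ T` of an affine `T`, the class `η ∈ picFunctor(T)` is a
pull-back of the chart class `ξ_i`, then `η` is a pull-back of `ξ_i` over an open neighbourhood of
the point.
-/
import Mathlib
import Fermat.Agent.JAC.P_helper5_ChartDefs

set_option autoImplicit false
set_option linter.style.haveILetI false
set_option linter.unusedSectionVars false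

open AlgebraicGeometry CategoryTheory CategoryTheory.Limits Opposite TopologicalSpace TensorProduct
  AlgebraicGeometry.RelPicard NeronModelInfra

universe u

namespace Fermat.Agent.JAC

open Fermat.Agent.AV Fermat.Agent.AV.CP HilbAlg

noncomputable section

/-- twist bookkeeping: the base change of `M ⊗ pr₁^*N` is `(base change of M) ⊗ pr₁^*(N⁻¹)⁻¹`. -/
theorem iso_pullback_tensor_pullback_fst_inv_inv {k : Type u} [CommRing k] {C : Scheme.{u}}
    {c : C ⟶ Spec (CommRingCat.of k)} {T' T : Over (Spec (CommRingCat.of k))} (f : T' ⟶ T)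
    (M : LB (pullback c T.hom)) (N : LB C) :
    LB.Iso ((M.tensor (N.pullback (pullback.fst c T.hom))).pullback (baseChangeSnd c (overHom f)))
      ((M.pullback (baseChangeSnd c (overHom f))).tensor
        (N.inv.inv.pullback (pullback.fst c T'.hom))) := by
  rw [← PicGroup.mk_eq_mk_iff, mk_pullback_tensor_pullback_fst, PicGroup.mk_tensor,
    ← PicGroup.map_mk (pullback.fst c T'.hom) N.inv.inv, PicGroup.mk_inv, PicGroup.mk_inv, neg_neg,
    PicGroup.map_mk]

attribute [local instance] overKScheme

variable {k : Type u} [Field k] [IsAlgClosed k] {C : Scheme.{u}} [KScheme k C]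
  {S : ChartSetup k C}
  {ε : SchemeHomOver (𝟙 (Spec (CommRingCat.of k))) (KScheme.str (K := k) (X := C))}
  {Q : LBCond (KScheme.str (K := k) (X := C))}

/-- **(F-open)**: the openness property of the charts (`hopen` of `REP.ChartData.ofLocal`). -/
theorem ChartIdx.hopen [IsProper (KScheme.str (K := k) (X := C))] (i : ChartIdx S ε Q)
    (T : Over (Spec (CommRingCat.of k))) (hT : IsAffine T.left)
    (η : (picFunctor (KScheme.str (K := k) (X := C)) ε Q).obj (op T))
    (P : Over (Spec (CommRingCat.of k))) (s : P ⟶ T) (hP : IsAffine P.left)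
    (hsub : Subsingleton P.left) (hfield : IsField Γ(P.left, ⊤))
    (h : ∃ b : P ⟶ i.X, (picFunctor (KScheme.str (K := k) (X := C)) ε Q).map b.op i.ξ =
      (picFunctor (KScheme.str (K := k) (X := C)) ε Q).map s.op η) :
    ∃ (T₁ : Over (Spec (CommRingCat.of k))) (j : T₁ ⟶ T), IsOpenImmersion j.left ∧
      Set.range s.left.base ⊆ Set.range j.left.base ∧
      ∃ b₁ : T₁ ⟶ i.X, (picFunctor (KScheme.str (K := k) (X := C)) ε Q).map b₁.op i.ξ =
        (picFunctor (KScheme.str (K := k) (X := C)) ε Q).map j.op η := by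
  obtain ⟨M, hrigM, hQM, rfl⟩ := picFunctor.exists_rep η
  obtain ⟨b, hb⟩ := h
  -- the functor-level condition at the point, in terms of cocycles
  have hiso := (chart_map_eq_map_iff (c := KScheme.str (K := k) (X := C)) (ε := ε) (Q := Q)
    (Hs := i.P.overObj) i.P.Lu (S.Nof i.j).inv (i.P.Hs.basicOpen i.r) i.rig i.mem b s M hrigM
    hQM).mp hb
  -- the twisted family
  set L : LB (pullback (KScheme.str (K := k) (X := C)) T.hom) :=
    M.tensor ((S.Nof i.j).pullback (pullback.fst (KScheme.str (K := k) (X := C)) T.hom)) with hL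
  have hisoL : LB.Iso (i.P.Lu.pullback (baseChangeSnd (KScheme.str (K := k) (X := C))
        (overHom (b ≫ i.P.chartHom i.r))))
      (L.pullback (baseChangeSnd (KScheme.str (K := k) (X := C)) (overHom s))) :=
    hiso.trans (iso_pullback_tensor_pullback_fst_inv_inv s M (S.Nof i.j)).symm
  obtain ⟨D⟩ := hisoL
  haveI : IsAffine T.left := hT
  haveI : IsAffine P.left := hP
  haveI : Subsingleton P.left := hsub
  -- classify and land
  have hspread : SpreadsInto i.P.hv i.P.Lu (isPullback_over (KScheme.str (K := k) (X := C)) T) L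
      s.left (pullback.snd (KScheme.str (K := k) (X := C)) P.hom)
      (baseChangeSnd (KScheme.str (K := k) (X := C)) (overHom s)) i.r :=
    spreadsInto_of_point S.hU₀ S.U₁ S.hA i.P.he i.P.hv S.hJ3 S.hH1 S.hGeom i.P.Lu i.P.σu i.P.hσu
      i.P.hZu i.P.hWWu i.P.huu i.valid (isPullback_over (KScheme.str (K := k) (X := C)) T) L hfield
      s.left (Over.w s) (pullback.snd (KScheme.str (K := k) (X := C)) P.hom)
      (baseChangeSnd (KScheme.str (K := k) (X := C)) (overHom s))
      (baseChangeSnd_overHom_fst _ s) (isPullback_over (KScheme.str (K := k) (X := C)) P)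
      (baseChangeSnd_overHom_snd _ s) (b ≫ i.P.chartHom i.r).left (Over.w (b ≫ i.P.chartHom i.r))
      (baseChangeSnd (KScheme.str (K := k) (X := C)) (overHom (b ≫ i.P.chartHom i.r)))
      (baseChangeSnd_overHom_fst _ _) (baseChangeSnd_overHom_snd _ _)
      (i.P.liftsPoint_of_range_subset i.r _ (range_comp_resHom_subset _ b)) D
  obtain ⟨T₁, j, hj, -, hrange, b₁, hb₁⟩ := i.P.exists_over_of_spreadsInto i.r T L s.left
    (pullback.snd (KScheme.str (K := k) (X := C)) P.hom)
    (baseChangeSnd (KScheme.str (K := k) (X := C)) (overHom s)) hspread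
  refine ⟨T₁, j, hj, hrange, b₁, ?_⟩
  exact (chart_map_eq_map_iff (c := KScheme.str (K := k) (X := C)) (ε := ε) (Q := Q)
    (Hs := i.P.overObj) i.P.Lu (S.Nof i.j).inv (i.P.Hs.basicOpen i.r) i.rig i.mem b₁ j M hrigM
    hQM).mpr (hb₁.trans (iso_pullback_tensor_pullback_fst_inv_inv j M (S.Nof i.j)))

end

end Fermat.Agent.JAC
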