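/-
PROJECT JAC — (F-formal) (helper1) — **a constructor of helper9's `REP.ChartData F` from local
data.**

For a Zariski sheaf `F` on `Over S`, objects `X i` with classes `ξ i ∈ F (X i)` which are
monomorphic on affine test objects, such that
* (`hopen`) a field-valued point of an affine `T` at which `η ∈ F T` is a pull-back of `ξ i` has an
  open neighbourhood over which `η` is a pull-back of `ξ i`,
* (`hcover`) every point of an affine `T` has, for some `i`, such a neighbourhood,
the opens `W i T η :=` (the largest open of `T` over which `η` is a pull-back of `ξ i`) satisfy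
`W_spec` and `cover`: `REP.ChartData.ofLocal`.
-/
import Mathlib
import Fermat.Agent.JAC.REP_helper9_Iface

set_option autoImplicit false
set_option linter.style.haveILetI false

universe u

open CategoryTheory CategoryTheory.Limits AlgebraicGeometry Opposite TopologicalSpace

namespace Fermat.Agent.JAC.REP

variable {S : Scheme.{u}} {F : (Over S)ᵒᵖ ⥤ Type u}

section Basic

theorem map_comp_apply' {A B C : Over S} (f : A ⟶ B) (g : B ⟶ C) (x : F.obj (op C)) :
    F.map (f ≫ g).op x = F.map f.op (F.map g.op x) := by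
  rw [op_comp, F.map_comp]
  rfl

/-- over the open `V` of `T`, the class `η` is a pull-back of `ξ`. -/
def Classifies (X : Over S) (ξ : F.obj (op X)) (T : Over S) (V : T.left.Opens)
    (η : F.obj (op T)) : Prop :=
  ∃ b : resOpen T V ⟶ X, F.map b.op ξ = F.map (resHom T V).op η

variable {X : Over S} {ξ : F.obj (op X)}

/-- if `η` is a pull-back of `ξ` along an open immersion `j : T₁ ⟶ T`, then it is classified over
the range of `j`. -/
theorem classifies_of_isOpenImmersion {T T₁ : Over S} (η : F.obj (op T)) (j : T₁ ⟶ T)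
    [IsOpenImmersion j.left] (b : T₁ ⟶ X) (hb : F.map b.op ξ = F.map j.op η) :
    Classifies X ξ T j.left.opensRange η := by
  have hw : j.left.isoOpensRange.inv ≫ T₁.hom = (resOpen T j.left.opensRange).hom := by
    show j.left.isoOpensRange.inv ≫ T₁.hom = j.left.opensRange.ι ≫ T.hom
    rw [← Over.w j, ← Category.assoc, Scheme.Hom.isoOpensRange_inv_comp]
  let m : resOpen T j.left.opensRange ⟶ T₁ := Over.homMk j.left.isoOpensRange.inv hw
  have hm : m ≫ j = resHom T j.left.opensRange := by
    apply Over.OverMorphism.ext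
    exact Scheme.Hom.isoOpensRange_inv_comp j.left
  refine ⟨m ≫ b, ?_⟩
  rw [map_comp_apply', hb, ← map_comp_apply', hm]

/-- restriction of a classification along a morphism. -/
theorem Classifies.comap {T T' : Over S} {V : T.left.Opens} {η : F.obj (op T)}
    (h : Classifies X ξ T V η) (a : T' ⟶ T) :
    Classifies X ξ T' (a.left ⁻¹ᵁ V) (F.map a.op η) := by
  obtain ⟨b, hb⟩ := h
  have hw : (a.left ∣_ V) ≫ (resOpen T V).hom = (resOpen T' (a.left ⁻¹ᵁ V)).hom := by
    show (a.left ∣_ V) ≫ V.ι ≫ T.hom = (a.left ⁻¹ᵁ V).ι ≫ T'.hom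
    rw [← Category.assoc, morphismRestrict_ι, Category.assoc, Over.w a]
  let m : resOpen T' (a.left ⁻¹ᵁ V) ⟶ resOpen T V := Over.homMk (a.left ∣_ V) hw
  have hm : m ≫ resHom T V = resHom T' (a.left ⁻¹ᵁ V) ≫ a := by
    apply Over.OverMorphism.ext
    exact morphismRestrict_ι a.left V
  refine ⟨m ≫ b, ?_⟩
  rw [map_comp_apply', hb, ← map_comp_apply', hm, map_comp_apply']

/-- (mono) on affine test objects implies (mono) on all test objects. -/
theorem mono_of_mono_affine
    (mono : ∀ T : Over S, IsAffine T.left → ∀ b b' : T ⟶ X,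
      F.map b.op ξ = F.map b'.op ξ → b = b')
    (T : Over S) (b b' : T ⟶ X) (h : F.map b.op ξ = F.map b'.op ξ) : b = b' := by
  apply Over.OverMorphism.ext
  apply T.left.affineCover.hom_ext
  intro j
  let Tj : Over S := Over.mk (T.left.affineCover.f j ≫ T.hom)
  let aj : Tj ⟶ T := Over.homMk (T.left.affineCover.f j) rfl
  have haff : IsAffine Tj.left := by
    show IsAffine (T.left.affineCover.X j)
    infer_instance
  have h' : aj ≫ b = aj ≫ b' := by
    apply mono Tj haff
    rw [map_comp_apply', map_comp_apply', h]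
  exact congrArg (fun m => m.left) h'

/-- **gluing of local classifying morphisms.** -/
theorem exists_of_classifies_cover (hF : IsZariskiSheaf F)
    (mono : ∀ T : Over S, IsAffine T.left → ∀ b b' : T ⟶ X,
      F.map b.op ξ = F.map b'.op ξ → b = b')
    (T : Over S) (η : F.obj (op T)) (𝒱 : Set T.left.Opens) (h𝒱 : sSup 𝒱 = ⊤)
    (h : ∀ V : T.left.Opens, V ∈ 𝒱 → Classifies X ξ T V η) :
    ∃ b : T ⟶ X, F.map b.op ξ = η := by
  have hloc : ∀ V : 𝒱, ∃ b : resOpen T V.1 ⟶ X, F.map b.op ξ = F.map (resHom T V.1).op η :=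
    fun V => h V.1 V.2
  choose bV hbV using hloc
  let 𝓥 : Scheme.OpenCover.{u} T.left :=
    T.left.openCoverOfIsOpenCover (fun V : 𝒱 => V.1) (by
      show ⨆ V : 𝒱, V.1 = ⊤
      rw [← sSup_eq_iSup']; exact h𝒱)
  have hcompat : ∀ U V : 𝒱, pullback.fst (𝓥.f U) (𝓥.f V) ≫ (bV U).left =
      pullback.snd (𝓥.f U) (𝓥.f V) ≫ (bV V).left := by
    intro U V
    let P : Over S := Over.mk (pullback.fst (𝓥.f U) (𝓥.f V) ≫ U.1.ι ≫ T.hom)
    let p1 : P ⟶ resOpen T U.1 := Over.homMk (pullback.fst (𝓥.f U) (𝓥.f V)) rfl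
    let p2 : P ⟶ resOpen T V.1 := Over.homMk (pullback.snd (𝓥.f U) (𝓥.f V)) (by
      exact (Category.assoc _ _ _).symm.trans
        ((congrArg (fun m => m ≫ T.hom) pullback.condition.symm).trans (Category.assoc _ _ _)))
    have hp : p1 ≫ resHom T U.1 = p2 ≫ resHom T V.1 := by
      apply Over.OverMorphism.ext
      exact pullback.condition
    have key : p1 ≫ bV U = p2 ≫ bV V := by
      apply mono_of_mono_affine mono P
      rw [map_comp_apply', map_comp_apply', hbV U, hbV V, ← map_comp_apply', ← map_comp_apply', hp]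
    exact congrArg (fun m => m.left) key
  let β : T.left ⟶ X.left := 𝓥.glueMorphisms (fun U => (bV U).left) hcompat
  have hβ : ∀ U : 𝒱, U.1.ι ≫ β = (bV U).left := fun U => 𝓥.ι_glueMorphisms _ hcompat U
  have hβw : β ≫ X.hom = T.hom := by
    apply 𝓥.hom_ext
    intro U
    show U.1.ι ≫ β ≫ X.hom = U.1.ι ≫ T.hom
    rw [← Category.assoc, hβ U]
    exact Over.w (bV U)
  refine ⟨Over.homMk β hβw, ?_⟩
  apply hF.sep T 𝒱 h𝒱
  intro U hU
  have hres : resHom T U ≫ (Over.homMk β hβw : T ⟶ X) = bV ⟨U, hU⟩ := by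
    apply Over.OverMorphism.ext
    exact hβ ⟨U, hU⟩
  rw [← map_comp_apply', hres, hbV ⟨U, hU⟩]

end Basic

section OfLocal

variable (ι : Type u) (X : ι → Over S) (ξ : ∀ i, F.obj (op (X i)))

/-- the largest open of `T` over which `η` is a pull-back of `ξ i`. -/
def classifyingOpen (i : ι) (T : Over S) (η : F.obj (op T)) : T.left.Opens :=
  sSup {V : T.left.Opens | Classifies (X i) (ξ i) T V η}

variable {ι X ξ}

theorem le_classifyingOpen {i : ι} {T : Over S} {η : F.obj (op T)} {V : T.left.Opens}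
    (h : Classifies (X i) (ξ i) T V η) : V ≤ classifyingOpen ι X ξ i T η :=
  le_sSup h

/-- the hard direction of (open): gluing. -/
theorem exists_of_range_subset_classifyingOpen (hF : IsZariskiSheaf F)
    (mono : ∀ (i : ι) (T : Over S), IsAffine T.left → ∀ b b' : T ⟶ X i,
      F.map b.op (ξ i) = F.map b'.op (ξ i) → b = b')
    (i : ι) (T : Over S) (η : F.obj (op T)) (T' : Over S) (a : T' ⟶ T)
    (h : Set.range a.left.base ⊆ (classifyingOpen ι X ξ i T η : Set T.left)) :
    ∃ b : T' ⟶ X i, F.map b.op (ξ i) = F.map a.op η := by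
  refine exists_of_classifies_cover hF (mono i) T' (F.map a.op η)
    {V' : T'.left.Opens | Classifies (X i) (ξ i) T' V' (F.map a.op η)} ?_ (fun V hV => hV)
  rw [eq_top_iff]
  intro t' _
  have ht : a.left.base t' ∈ classifyingOpen ι X ξ i T η := h ⟨t', rfl⟩
  obtain ⟨V, hV, htV⟩ := Opens.mem_sSup.mp ht
  exact Opens.mem_sSup.mpr ⟨a.left ⁻¹ᵁ V, Classifies.comap hV a, htV⟩

/-- a point of `T` with a neighbourhood (an open immersion `j : T₁ ⟶ T_A` into an open `A` of `T`)
over which `η` is a pull-back of `ξ i` lies in the classifying open. -/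
theorem mem_classifyingOpen_of_restrict {i : ι} {T : Over S} {η : F.obj (op T)}
    (A : T.left.Opens) {T₁ : Over S} (j : T₁ ⟶ resOpen T A) [IsOpenImmersion j.left]
    (b₁ : T₁ ⟶ X i) (hb₁ : F.map b₁.op (ξ i) = F.map j.op (F.map (resHom T A).op η))
    (x : (resOpen T A).left) (hx : x ∈ Set.range j.left.base) :
    (resHom T A).left.base x ∈ classifyingOpen ι X ξ i T η := by
  haveI : IsOpenImmersion (resHom T A).left := inferInstanceAs (IsOpenImmersion A.ι)
  haveI : IsOpenImmersion (j ≫ resHom T A).left := by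
    show IsOpenImmersion (j.left ≫ (resHom T A).left)
    infer_instance
  have hcl := classifies_of_isOpenImmersion (ξ := ξ i) η (j ≫ resHom T A) b₁
    (by rw [hb₁, ← map_comp_apply'])
  refine le_classifyingOpen hcl ?_
  obtain ⟨y, rfl⟩ := hx
  exact ⟨y, rfl⟩

/-- the easy direction of (open), from the spreading property at field-valued points. -/
theorem range_subset_classifyingOpen_of_exists
    (hopen : ∀ (i : ι) (T : Over S), IsAffine T.left → ∀ (η : F.obj (op T)) (P : Over S)
      (s : P ⟶ T), IsAffine P.left → Subsingleton P.left → IsField Γ(P.left, ⊤) →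
      (∃ b : P ⟶ X i, F.map b.op (ξ i) = F.map s.op η) →
      ∃ (T₁ : Over S) (j : T₁ ⟶ T), IsOpenImmersion j.left ∧
        Set.range s.left.base ⊆ Set.range j.left.base ∧
        ∃ b₁ : T₁ ⟶ X i, F.map b₁.op (ξ i) = F.map j.op η)
    (i : ι) (T : Over S) (η : F.obj (op T)) (T' : Over S) (a : T' ⟶ T)
    (h : ∃ b : T' ⟶ X i, F.map b.op (ξ i) = F.map a.op η) :
    Set.range a.left.base ⊆ (classifyingOpen ι X ξ i T η : Set T.left) := by
  obtain ⟨b, hb⟩ := h
  rintro _ ⟨t', rfl⟩
  -- an affine open neighbourhood of the image point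
  obtain ⟨A, hA, htA, -⟩ := exists_isAffineOpen_mem_and_subset (x := a.left.base t')
    (U := ⊤) trivial
  -- the residue field point
  let s' : Spec (T'.left.residueField t') ⟶ T'.left := T'.left.fromSpecResidueField t'
  have hrange : Set.range (s' ≫ a.left).base ⊆ Set.range A.ι.base := by
    rintro _ ⟨w, rfl⟩
    rw [Scheme.Opens.range_ι]
    show a.left.base (s'.base w) ∈ A
    have : s'.base w = t' := Scheme.fromSpecResidueField_apply t' w
    rw [this]
    exact htA
  obtain ⟨sA, hsA⟩ : ∃ sA : Spec (T'.left.residueField t') ⟶ (A : Scheme.{u}),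
      sA ≫ A.ι = s' ≫ a.left :=
    ⟨IsOpenImmersion.lift A.ι (s' ≫ a.left) hrange, IsOpenImmersion.lift_fac _ _ _⟩
  let P : Over S := Over.mk (sA ≫ (resOpen T A).hom)
  let s : P ⟶ resOpen T A := Over.homMk sA rfl
  have hw : s' ≫ T'.hom = P.hom := by
    show s' ≫ T'.hom = sA ≫ A.ι ≫ T.hom
    rw [← Category.assoc, hsA, Category.assoc, Over.w a]
  let m : P ⟶ T' := Over.homMk s' hw
  have hm : m ≫ a = s ≫ resHom T A := by
    apply Over.OverMorphism.ext
    exact hsA.symm
  have hP1 : IsAffine P.left := by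
    show IsAffine (Spec (T'.left.residueField t'))
    infer_instance
  have hP2 : Subsingleton P.left := by
    show Subsingleton (Spec (T'.left.residueField t'))
    infer_instance
  have hP3 : IsField Γ(P.left, ⊤) := by
    show IsField Γ(Spec (T'.left.residueField t'), ⊤)
    exact MulEquiv.isField (Field.toIsField (T'.left.residueField t'))
      (Scheme.ΓSpecIso (T'.left.residueField t')).commRingCatIsoToRingEquiv.toMulEquiv
  haveI : IsAffine (resOpen T A).left := hA
  obtain ⟨T₁, j, hj, hsj, b₁, hb₁⟩ := hopen i (resOpen T A) hA (F.map (resHom T A).op η) P s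
    hP1 hP2 hP3 ⟨m ≫ b, by rw [map_comp_apply', hb, ← map_comp_apply', hm, map_comp_apply']⟩
  obtain ⟨w⟩ : Nonempty (Spec (T'.left.residueField t')) := inferInstance
  have hmem := mem_classifyingOpen_of_restrict (ξ := ξ) A j b₁ hb₁ (sA.base w)
    (hsj ⟨w, rfl⟩)
  have heq : (resHom T A).left.base (sA.base w) = a.left.base t' := by
    show (sA ≫ A.ι).base w = a.left.base t'
    rw [hsA]
    show a.left.base (s'.base w) = a.left.base t'
    rw [Scheme.fromSpecResidueField_apply t' w]
  rw [heq] at hmem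
  exact hmem

/-- (cover). -/
theorem iSup_classifyingOpen_eq_top
    (hcover : ∀ (T : Over S), IsAffine T.left → ∀ (η : F.obj (op T)) (t : T.left),
      ∃ (i : ι) (T₁ : Over S) (j : T₁ ⟶ T), IsOpenImmersion j.left ∧
        t ∈ Set.range j.left.base ∧ ∃ b₁ : T₁ ⟶ X i, F.map b₁.op (ξ i) = F.map j.op η)
    (T : Over S) (η : F.obj (op T)) : ⨆ i, classifyingOpen ι X ξ i T η = ⊤ := by
  rw [eq_top_iff]
  intro t _
  obtain ⟨A, hA, htA, -⟩ := exists_isAffineOpen_mem_and_subset (x := t) (U := ⊤) trivial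
  obtain ⟨i, T₁, j, hj, htj, b₁, hb₁⟩ := hcover (resOpen T A) hA (F.map (resHom T A).op η)
    ⟨t, htA⟩
  have hmem := mem_classifyingOpen_of_restrict (ξ := ξ) A j b₁ hb₁ ⟨t, htA⟩ htj
  exact Opens.mem_iSup.mpr ⟨i, hmem⟩

variable (ι X ξ)

/-- **a family of charts from local data.** -/
def ChartData.ofLocal (hF : IsZariskiSheaf F)
    (mono : ∀ (i : ι) (T : Over S), IsAffine T.left → ∀ b b' : T ⟶ X i,
      F.map b.op (ξ i) = F.map b'.op (ξ i) → b = b')
    (hopen : ∀ (i : ι) (T : Over S), IsAffine T.left → ∀ (η : F.obj (op T)) (P : Over S)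
      (s : P ⟶ T), IsAffine P.left → Subsingleton P.left → IsField Γ(P.left, ⊤) →
      (∃ b : P ⟶ X i, F.map b.op (ξ i) = F.map s.op η) →
      ∃ (T₁ : Over S) (j : T₁ ⟶ T), IsOpenImmersion j.left ∧
        Set.range s.left.base ⊆ Set.range j.left.base ∧
        ∃ b₁ : T₁ ⟶ X i, F.map b₁.op (ξ i) = F.map j.op η)
    (hcover : ∀ (T : Over S), IsAffine T.left → ∀ (η : F.obj (op T)) (t : T.left),
      ∃ (i : ι) (T₁ : Over S) (j : T₁ ⟶ T), IsOpenImmersion j.left ∧
        t ∈ Set.range j.left.base ∧ ∃ b₁ : T₁ ⟶ X i, F.map b₁.op (ξ i) = F.map j.op η) :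
    ChartData F where
  ι := ι
  X := X
  ξ := ξ
  mono := mono
  W := classifyingOpen ι X ξ
  W_spec i T η T' _ a :=
    ⟨exists_of_range_subset_classifyingOpen hF mono i T η T' a,
      range_subset_classifyingOpen_of_exists hopen i T η T' a⟩
  cover := iSup_classifyingOpen_eq_top hcover

/-- **a family of charts from the spreading property on affine test objects** (helper5's
shape): `hspread` for all affine `T'` and all `T`, `hcover` for all `T`. -/
def ChartData.ofSpread (hF : IsZariskiSheaf F)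
    (mono : ∀ (i : ι) (T : Over S), IsAffine T.left → ∀ b b' : T ⟶ X i,
      F.map b.op (ξ i) = F.map b'.op (ξ i) → b = b')
    (hspread : ∀ (i : ι) (T : Over S) (η : F.obj (op T)) (T' : Over S), IsAffine T'.left →
      ∀ (a : T' ⟶ T) (b : T' ⟶ X i), F.map b.op (ξ i) = F.map a.op η → ∀ x' : T'.left,
      ∃ (T₁ : Over S) (j : T₁ ⟶ T), IsOpenImmersion j.left ∧
        a.left.base x' ∈ Set.range j.left.base ∧
        ∃ b₁ : T₁ ⟶ X i, F.map b₁.op (ξ i) = F.map j.op η)
    (hcover : ∀ (T : Over S) (η : F.obj (op T)) (t : T.left),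
      ∃ (i : ι) (T₁ : Over S) (j : T₁ ⟶ T), IsOpenImmersion j.left ∧
        t ∈ Set.range j.left.base ∧ ∃ b₁ : T₁ ⟶ X i, F.map b₁.op (ξ i) = F.map j.op η) :
    ChartData F :=
  ChartData.ofLocal ι X ξ hF mono
    (fun i T _ η P s hP1 hP2 hP3 hb => by
      obtain ⟨b, hb⟩ := hb
      have hne : Nonempty P.left := by
        by_contra hcon
        haveI : IsEmpty P.left := not_nonempty_iff.mp hcon
        haveI : Subsingleton Γ(P.left, ⊤) := by
          have h1 : (⊤ : P.left.Opens) = ⊥ := by
            ext x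
            exact (IsEmpty.false x).elim
          rw [h1]
          infer_instance
        exact (hP3.nontrivial).exists_pair_ne.elim fun x hx =>
          hx.elim fun y hxy => hxy (Subsingleton.elim x y)
      obtain ⟨x'⟩ := hne
      obtain ⟨T₁, j, hj, hx'j, b₁, hb₁⟩ := hspread i T η P hP1 s b hb x'
      refine ⟨T₁, j, hj, ?_, b₁, hb₁⟩
      rintro _ ⟨y, rfl⟩
      rw [Subsingleton.elim y x']
      exact hx'j)
    (fun T _ η t => hcover T η t)

end OfLocal

end Fermat.Agent.JAC.REP
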