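/-
PROJECT JAC (S25) — helper5 — (P): **the chart data of the rigidified degree-zero Picard functor**
of a smooth proper curve over an algebraically closed field, from a `ChartSetup` and the covering
lemma at geometric points.

* `ChartSetup.chartData` : the `REP.ChartData` of `picFunctor c ε (LBCond.degZero c)` with charts
  the valid, rigidified, degree-zero basic opens `D(r)` of the Hilbert charts
  (`REP.ChartData.ofLocal` applied to `ChartIdx.mono` (helper5 + helper7), `ChartIdx.hopen`
  (helper7), `ChartSetup.hcover` (helper5) and `hgood_degZero` (helper4));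
* `ChartSetup.locallyOfFiniteType_chartData`.
-/
import Mathlib
import Fermat.Agent.JAC.P_helper5_Cover
import Fermat.Agent.JAC.P_helper5_GoodAdapter
import Fermat.Agent.JAC.P_helper7_Open
import Fermat.Agent.JAC.REP_helper1_OfLocal
import Fermat.Agent.JAC.SH_helper1_Sheaf

set_option autoImplicit false
set_option linter.style.haveILetI false
set_option linter.unusedSectionVars false

open AlgebraicGeometry CategoryTheory CategoryTheory.Limits Opposite TopologicalSpace TensorProduct
  AlgebraicGeometry.RelPicard NeronModelInfra

universe u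

namespace Fermat.Agent.JAC

open Fermat.Agent.AV Fermat.Agent.AV.CP HilbAlg

noncomputable section

attribute [local instance] overKScheme

variable {k : Type u} [Field k] [IsAlgClosed k] {C : Scheme.{u}} [KScheme k C]
  [IsIntegral C] [IsProper (KScheme.str (K := k) (X := C))]
  [SmoothOfRelativeDimension 1 (KScheme.str (K := k) (X := C))]

/-- **the chart data** of the rigidified degree-zero Picard functor, from a chart set-up and the
covering lemma at geometric points. -/
def ChartSetup.chartData (S : ChartSetup k C)
    (ε : SchemeHomOver (𝟙 (Spec (CommRingCat.of k))) (KScheme.str (K := k) (X := C)))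
    (hD3 : ∀ (T : Over (Spec (CommRingCat.of k)))
      (M : LB (pullback (KScheme.str (K := k) (X := C)) T.hom)) (t : T.left),
      ∃ (K' : Type u) (_ : Field K') (_ : IsAlgClosed K') (s : Spec (CommRingCat.of K') ⟶ T.left),
        (∀ x, s.base x = t) ∧
        (∀ (L' : LB (pullback (KScheme.str (K := k) (X := C)) (s ≫ T.hom))) (σ : L'.H0), σ ≠ 0 →
          L'.IsRegSection σ) ∧
        ∃ (j : S.J) (g : ℕ) (v : Fin g → Γ(C, S.U₀)),
          ChartCond (isPullback_over (KScheme.str (K := k) (X := C)) (Over.mk (s ≫ T.hom))) S.hU₀
            S.U₁ v ((M.tensor ((S.Nof j).pullback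
              (pullback.fst (KScheme.str (K := k) (X := C)) T.hom))).pullback
              (baseChangeSnd (KScheme.str (K := k) (X := C))
                (overHom (Over.homMk s rfl : Over.mk (s ≫ T.hom) ⟶ T))))) :
    REP.ChartData (picFunctor (KScheme.str (K := k) (X := C)) ε
      (LBCond.degZero (KScheme.str (K := k) (X := C)))) :=
  REP.ChartData.ofLocal (ChartIdx S ε (LBCond.degZero (KScheme.str (K := k) (X := C))))
    (fun i => i.X) (fun i => i.ξ)
    (isZariskiSheaf_picFunctor (c := KScheme.str (K := k) (X := C)) (ε := ε)
      (LBCond.degZero (KScheme.str (K := k) (X := C))))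
    (fun i => i.mono) (fun i => i.hopen)
    (S.hcover ε (LBCond.degZero (KScheme.str (K := k) (X := C))) hD3
      (fun Hs Lu N₀ T M hQM K' _ _ s φ hiso =>
        hgood_degZero (KScheme.str (K := k) (X := C)) ε Hs Lu N₀ T M hQM K' s φ hiso))

/-- the charts are locally of finite type. -/
theorem ChartSetup.locallyOfFiniteType_chartData (S : ChartSetup k C)
    (ε : SchemeHomOver (𝟙 (Spec (CommRingCat.of k))) (KScheme.str (K := k) (X := C)))
    (hD3 : ∀ (T : Over (Spec (CommRingCat.of k)))
      (M : LB (pullback (KScheme.str (K := k) (X := C)) T.hom)) (t : T.left),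
      ∃ (K' : Type u) (_ : Field K') (_ : IsAlgClosed K') (s : Spec (CommRingCat.of K') ⟶ T.left),
        (∀ x, s.base x = t) ∧
        (∀ (L' : LB (pullback (KScheme.str (K := k) (X := C)) (s ≫ T.hom))) (σ : L'.H0), σ ≠ 0 →
          L'.IsRegSection σ) ∧
        ∃ (j : S.J) (g : ℕ) (v : Fin g → Γ(C, S.U₀)),
          ChartCond (isPullback_over (KScheme.str (K := k) (X := C)) (Over.mk (s ≫ T.hom))) S.hU₀
            S.U₁ v ((M.tensor ((S.Nof j).pullback
              (pullback.fst (KScheme.str (K := k) (X := C)) T.hom))).pullback
              (baseChangeSnd (KScheme.str (K := k) (X := C))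
                (overHom (Over.homMk s rfl : Over.mk (s ≫ T.hom) ⟶ T)))))
    (i : (S.chartData ε hD3).ι) : LocallyOfFiniteType ((S.chartData ε hD3).X i).hom :=
  ChartIdx.locallyOfFiniteType_X (S := S) (ε := ε)
    (Q := LBCond.degZero (KScheme.str (K := k) (X := C))) i

end

end Fermat.Agent.JAC
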