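/-
PROJECT JAC (S25) — helper5 — (P): **the classifying morphism to the Hilbert chart.**

Setting of lead's (H): `K` algebraically closed, `C` a separated `K`-scheme, `U ⊆ C` an affine open,
`A := Γ(C,U)` a smooth affine curve, `v : Fin g → A`.  The Hilbert chart is presented ABSTRACTLY as an
affine `K`-scheme `Hs` with a bijective `K`-algebra map `e : HilbRing K A g v →ₐ[K] Γ(Hs,⊤)`
(e.g. `Hs = Spec (HilbRing K A g v)`), `Yv = C ×_K Hs`.

* `univIdealΓ e` : the universal ideal of `Γ(Hs,⊤) ⊗ A`; `isBased_univIdealΓ`;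
* `exists_hom_appTop_eq` : morphisms into an affine scheme from ring maps on global sections;
* `exists_classifying_hom` : for an affine `K`-scheme `T` and a based ideal `I` of `Γ(T,⊤) ⊗ A`
  there is a `K`-morphism `b : T ⟶ Hs` with `univIdealΓ.map (bcMap b^♯) = I`;
* `classifying_hom_unique` : two `K`-morphisms `T ⟶ Hs` pulling the universal ideal back to the same
  ideal are equal;
* `exists_classifying_iso` : **Theorem B** — a pair `(L, σ)` on `C ×_K T` (regular section, unit off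
  `p₁⁻¹U`, based zero ideal) is the pull-back of the universal pair `(Lu, σu)` along the classifying
  morphism: `∃ b ψ, … ∧ ∃ D : IsoData (Lu.pullback ψ) L, D.mapH0 (ψ^*σu) = σ`.
-/
import Mathlib
import Fermat.Agent.JAC.HILB_lead_Main
import Fermat.Agent.JAC.P_helper5_IsoSec

set_option autoImplicit false

open AlgebraicGeometry CategoryTheory CategoryTheory.Limits Opposite TopologicalSpace TensorProduct

universe u

namespace Fermat.Agent.JAC

open Fermat.Agent.AV Fermat.Agent.AV.CP HilbAlg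

noncomputable section

/-! ### morphisms into affine schemes -/

theorem isoSpec_inv_appTop_eq (Hs : Scheme.{u}) [IsAffine Hs] :
    Hs.isoSpec.inv.appTop = (Scheme.ΓSpecIso Γ(Hs, ⊤)).inv := by
  have h1 : Hs.isoSpec.hom.appTop = (Scheme.ΓSpecIso Γ(Hs, ⊤)).hom := by
    show Hs.toSpecΓ.appTop = _
    exact Scheme.toSpecΓ_appTop Hs
  have h2 : Hs.isoSpec.inv.appTop ≫ Hs.isoSpec.hom.appTop = 𝟙 _ := by
    rw [← Scheme.Hom.comp_appTop, Iso.hom_inv_id]
    rfl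
  rw [h1] at h2
  exact (Iso.comp_hom_eq_id _).mp h2

/-- every ring map `Γ(Hs,⊤) ⟶ Γ(T,⊤)` into the functions of `T` comes from a morphism `T ⟶ Hs`,
for `Hs` affine. -/
theorem exists_hom_appTop_eq {T Hs : Scheme.{u}} [IsAffine Hs] (φ : Γ(Hs, ⊤) ⟶ Γ(T, ⊤)) :
    ∃ b : T ⟶ Hs, b.appTop = φ := by
  refine ⟨T.toSpecΓ ≫ Spec.map φ ≫ Hs.isoSpec.inv, ?_⟩
  rw [Scheme.Hom.comp_appTop, Scheme.Hom.comp_appTop, Scheme.toSpecΓ_appTop,
    isoSpec_inv_appTop_eq, Category.assoc, Scheme.ΓSpecIso_naturality, Iso.inv_hom_id_assoc]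

variable {K : Type u} [Field K]

/-- a morphism of `K`-schemes whose pull-back of global functions is `K`-linear is a `K`-morphism. -/
theorem comp_str_eq_of_appTop {T Hs : Scheme.{u}} [KScheme K T] [KScheme K Hs] (b : T ⟶ Hs)
    (hb : ∀ c : K, b.appTop.hom (algebraMap K Γ(Hs, ⊤) c) = algebraMap K Γ(T, ⊤) c) :
    b ≫ KScheme.str (K := K) = KScheme.str := by
  apply ext_of_isAffine
  rw [Scheme.Hom.comp_appTop]
  have key : ∀ x : Γ(Spec (CommRingCat.of K), ⊤),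
      b.appTop.hom ((KScheme.str (K := K) (X := Hs)).appTop.hom x) =
        (KScheme.str (K := K) (X := T)).appTop.hom x := by
    intro x
    obtain ⟨c, rfl⟩ : ∃ c : K, (Scheme.ΓSpecIso (CommRingCat.of K)).inv.hom c = x :=
      ⟨(Scheme.ΓSpecIso (CommRingCat.of K)).hom.hom x, by
        rw [← CommRingCat.comp_apply, Iso.hom_inv_id]; rfl⟩
    have h1 := hb c
    rw [algebraMap_Γ_eq, algebraMap_Γ_eq] at h1
    simp only [kToΓ, RingHom.comp_apply] at h1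
    have h2 : ∀ (X : Scheme.{u}) [KScheme K X],
        (KScheme.str (K := K) (X := X)).appLE ⊤ ⊤ (le_preimage_top _ ⊤) =
          (KScheme.str (K := K) (X := X)).appTop := by
      intro X _
      rw [Scheme.Hom.appTop, Scheme.Hom.app_eq_appLE]
      rfl
    rw [h2 Hs, h2 T] at h1
    exact h1
  ext x
  exact key x

section hilb

variable [IsAlgClosed K] {C : Scheme.{u}} [KScheme K C] {U : C.Opens}
  {g : ℕ} {v : Fin g → Γ(C, U)} {Hs : Scheme.{u}} [KScheme K Hs]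
  (e : HilbRing K Γ(C, U) g v →ₐ[K] Γ(Hs, ⊤))

/-- the universal ideal, transported to `Γ(Hs,⊤) ⊗ A`. -/
def univIdealΓ : Ideal (Γ(Hs, ⊤) ⊗[K] Γ(C, U)) :=
  (univIdeal K v).map (bcMap (A := Γ(C, U)) e)

omit [IsAlgClosed K] in
theorem isBased_univIdealΓ : IsBased v (univIdealΓ e) := by
  have h1 := (univPt K v).map_ideal e
  show IsBased v (Ideal.map (bcMap (A := Γ(C, U)) e) (univPt K v).ideal)
  rw [← h1]
  exact ((univPt K v).map e).isBased

omit [IsAlgClosed K] in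
theorem bcMap_comp {B B' B'' A : Type u} [CommRing B] [CommRing B'] [CommRing B''] [CommRing A]
    [Algebra K B] [Algebra K B'] [Algebra K B''] [Algebra K A] (f : B →ₐ[K] B') (f' : B' →ₐ[K] B'')
    (I : Ideal (B ⊗[K] A)) :
    (I.map (bcMap (A := A) f)).map (bcMap (A := A) f') = I.map (bcMap (A := A) (f'.comp f)) := by
  have h1 : ((bcMap (A := A) f' : B' ⊗[K] A →ₐ[K] B'' ⊗[K] A) : B' ⊗[K] A →+* B'' ⊗[K] A).comp
      ((bcMap (A := A) f : B ⊗[K] A →ₐ[K] B' ⊗[K] A) : B ⊗[K] A →+* B' ⊗[K] A) =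
      ((bcMap (A := A) (f'.comp f) : B ⊗[K] A →ₐ[K] B'' ⊗[K] A) : B ⊗[K] A →+* B'' ⊗[K] A) := by
    refine RingHom.ext (fun x => ?_)
    show bcMap (A := A) f' (bcMap (A := A) f x) = bcMap (A := A) (f'.comp f) x
    induction x with
    | zero => simp
    | add x y hx hy => simp only [map_add, hx, hy]
    | tmul b a => simp
  show Ideal.map ((bcMap (A := A) f' : B' ⊗[K] A →ₐ[K] B'' ⊗[K] A) : B' ⊗[K] A →+* B'' ⊗[K] A)
    (Ideal.map ((bcMap (A := A) f : B ⊗[K] A →ₐ[K] B' ⊗[K] A) : B ⊗[K] A →+* B' ⊗[K] A) I) =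
    Ideal.map ((bcMap (A := A) (f'.comp f) : B ⊗[K] A →ₐ[K] B'' ⊗[K] A) :
      B ⊗[K] A →+* B'' ⊗[K] A) I
  rw [Ideal.map_map, h1]

variable {e} (he : Function.Bijective e)

include he in
omit [IsAlgClosed K] in
/-- **the classifying morphism of a based ideal.** -/
theorem exists_classifying_hom [IsAffine Hs] {T : Scheme.{u}} [KScheme K T]
    {I : Ideal (Γ(T, ⊤) ⊗[K] Γ(C, U))} (hI : IsBased v I) :
    ∃ (b : T ⟶ Hs) (hb : b ≫ KScheme.str (K := K) = KScheme.str),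
      (univIdealΓ e).map (bcMap (A := Γ(C, U)) (appTopAlgHom b hb)) = I := by
  obtain ⟨χ, hχ, -⟩ := existsUnique_map_univIdeal I hI
  let E : HilbRing K Γ(C, U) g v ≃ₐ[K] Γ(Hs, ⊤) := AlgEquiv.ofBijective e he
  let χ' : Γ(Hs, ⊤) →ₐ[K] Γ(T, ⊤) := χ.comp (E.symm : Γ(Hs, ⊤) →ₐ[K] HilbRing K Γ(C, U) g v)
  obtain ⟨b, hb⟩ := exists_hom_appTop_eq (T := T) (Hs := Hs) (CommRingCat.ofHom χ'.toRingHom)
  have hbapp : ∀ x, b.appTop.hom x = χ' x := fun x => by rw [hb]; rfl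
  have hbK : b ≫ KScheme.str (K := K) = KScheme.str := by
    refine comp_str_eq_of_appTop b (fun c => ?_)
    rw [hbapp]
    exact χ'.commutes c
  refine ⟨b, hbK, ?_⟩
  have h1 : (appTopAlgHom b hbK).comp e = χ := by
    ext x
    show b.appTop.hom (e x) = χ x
    rw [hbapp]
    show χ (E.symm (e x)) = χ x
    have : E.symm (e x) = x := E.symm_apply_apply x
    rw [this]
  unfold univIdealΓ
  rw [bcMap_comp, h1]
  exact hχ

include he in
omit [IsAlgClosed K] in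
/-- **uniqueness of the classifying morphism.** -/
theorem classifying_hom_unique [IsAffine Hs] {T : Scheme.{u}} [KScheme K T]
    (b b' : T ⟶ Hs) (hb : b ≫ KScheme.str (K := K) = KScheme.str)
    (hb' : b' ≫ KScheme.str (K := K) = KScheme.str)
    (h : (univIdealΓ e).map (bcMap (A := Γ(C, U)) (appTopAlgHom b hb)) =
      (univIdealΓ e).map (bcMap (A := Γ(C, U)) (appTopAlgHom b' hb'))) : b = b' := by
  unfold univIdealΓ at h
  rw [bcMap_comp, bcMap_comp] at h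
  -- both composites classify the same based ideal
  have hbased : IsBased v (Ideal.map (bcMap (A := Γ(C, U)) ((appTopAlgHom b' hb').comp e))
      (univIdeal K v)) := by
    have h1 := (univPt K v).map_ideal ((appTopAlgHom b' hb').comp e)
    show IsBased v (Ideal.map (bcMap (A := Γ(C, U)) ((appTopAlgHom b' hb').comp e))
      (univPt K v).ideal)
    rw [← h1]
    exact ((univPt K v).map ((appTopAlgHom b' hb').comp e)).isBased
  have huniq := (existsUnique_map_univIdeal _ hbased).unique h rfl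
  apply ext_of_isAffine
  ext x
  obtain ⟨y, rfl⟩ := he.2 x
  have := congrArg (fun f : HilbRing K Γ(C, U) g v →ₐ[K] Γ(T, ⊤) => f y) huniq
  exact this

end hilb

section thmB

variable [IsAlgClosed K] {C : Scheme.{u}} [KScheme K C] {U : C.Opens} (hU : IsAffineOpen U)
  [IsDomain Γ(C, U)] [Algebra.FiniteType K Γ(C, U)]
  (hA : ∀ (𝔫 : Ideal Γ(C, U)) [𝔫.IsMaximal], IsDiscreteValuationRing (Localization.AtPrime 𝔫))
  {g : ℕ} {v : Fin g → Γ(C, U)} {Hs Yv : Scheme.{u}} [KScheme K Hs] [IsAffine Hs]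
  {e : HilbRing K Γ(C, U) g v →ₐ[K] Γ(Hs, ⊤)} (he : Function.Bijective e)
  {q₁ : Yv ⟶ C} {q₂ : Yv ⟶ Hs}
  (Hv : IsPullback q₁ q₂ (KScheme.str (K := K)) (KScheme.str (K := K)))

include hA he in
/-- **Theorem B (local classification).**  A pair `(L, σ)` on `C ×_K T` (`T` affine) with `σ` regular,
a unit off `p₁⁻¹U`, whose zero ideal on `p₁⁻¹U` is based, is the pull-back of the universal pair
`(Lu, σu)` on `C ×_K Hs` along (the base change `ψ` of) the classifying morphism `b : T ⟶ Hs`. -/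
theorem exists_classifying_iso (Lu : LB Yv) (σu : Lu.H0) (hσu : Lu.IsRegSection σu)
    (hZu : Lu.zeroIdeal σu (q₁ ⁻¹ᵁ U) = kunIdeal Hv hU (univIdealΓ e))
    {Wu' : Yv.Opens} (hWWu : q₁ ⁻¹ᵁ U ⊔ Wu' = ⊤)
    (huu : ∀ i, IsUnit (res (Lu.U i ⊓ Wu') inf_le_left (σu.1 i)))
    {T Y : Scheme.{u}} [KScheme K T] [IsAffine T] {p₁ : Y ⟶ C} {p₂ : Y ⟶ T}
    (H : IsPullback p₁ p₂ (KScheme.str (K := K)) (KScheme.str (K := K)))
    (L : LB Y) (σ : L.H0) (hσ : L.IsRegSection σ)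
    {I : Ideal (Γ(T, ⊤) ⊗[K] Γ(C, U))} (hI : IsBased v I)
    (hZ : L.zeroIdeal σ (p₁ ⁻¹ᵁ U) = kunIdeal H hU I)
    {W' : Y.Opens} (hWW' : p₁ ⁻¹ᵁ U ⊔ W' = ⊤)
    (hu : ∀ i, IsUnit (res (L.U i ⊓ W') inf_le_left (σ.1 i))) :
    ∃ (b : T ⟶ Hs) (hb : b ≫ KScheme.str (K := K) = KScheme.str) (ψ : Y ⟶ Yv),
      ψ ≫ q₁ = p₁ ∧ ψ ≫ q₂ = p₂ ≫ b ∧
      (univIdealΓ e).map (bcMap (A := Γ(C, U)) (appTopAlgHom b hb)) = I ∧
      ∃ D : LB.IsoData (Lu.pullback ψ) L, D.mapH0 (Lu.pullbackSection ψ σu) = σ := by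
  obtain ⟨b, hb, hbI⟩ := exists_classifying_hom (T := T) he hI
  obtain ⟨ψ, hψ₁, hψ₂⟩ : ∃ ψ : Y ⟶ Yv, ψ ≫ q₁ = p₁ ∧ ψ ≫ q₂ = p₂ ≫ b :=
    ⟨Hv.lift p₁ (p₂ ≫ b) (by rw [H.w, Category.assoc, hb]), Hv.lift_fst _ _ _, Hv.lift_snd _ _ _⟩
  subst hψ₁
  refine ⟨b, hb, ψ, rfl, hψ₂, hbI, ?_⟩
  obtain ⟨hreg, hzero, hcov, hunit⟩ := zeroIdeal_pullback_of_isBased Hv hU hA b hb p₂ ψ H hψ₂
    (isBased_univIdealΓ e) Lu σu hσu hZu hWWu huu
  rw [hbI] at hzero
  -- a common open off which both sections are units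
  have hcov' : (ψ ≫ q₁) ⁻¹ᵁ U ⊔ (ψ ⁻¹ᵁ Wu' ⊓ W') = ⊤ := by
    rw [sup_inf_left, hcov, hWW', top_inf_eq]
  have hunit1 : ∀ i, IsUnit (res ((Lu.pullback ψ).U i ⊓ (ψ ⁻¹ᵁ Wu' ⊓ W')) inf_le_left
      ((Lu.pullbackSection ψ σu).1 i)) := by
    intro i
    have h1 := (hunit i).map (res ((Lu.pullback ψ).U i ⊓ (ψ ⁻¹ᵁ Wu' ⊓ W'))
      (inf_le_inf_left _ inf_le_left))
    rw [res_res] at h1
    exact h1
  have hunit2 : ∀ i, IsUnit (res (L.U i ⊓ (ψ ⁻¹ᵁ Wu' ⊓ W')) inf_le_left (σ.1 i)) := by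
    intro i
    have h1 := (hu i).map (res (L.U i ⊓ (ψ ⁻¹ᵁ Wu' ⊓ W')) (inf_le_inf_left _ inf_le_right))
    rw [res_res] at h1
    exact h1
  obtain ⟨D, hD⟩ := exists_isoData_of_kunIdeal H hU (Lu.pullback ψ) L (Lu.pullbackSection ψ σu) σ
    hreg hσ hcov' hunit1 hunit2 (hzero.trans hZ.symm)
  exact ⟨D, D.mapH0_eq_of _ _ hD⟩

end thmB

end

end Fermat.Agent.JAC
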