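/-
PROJECT JAC (S25) — helper5 — (P), **FINAL**: the chart data of the rigidified degree-zero Picard
functor of a smooth proper integral curve over an algebraically closed field.

`exists_chartData c ε : ∃ Dch : REP.ChartData (picFunctor c ε (LBCond.degZero c)),
  ∀ i, LocallyOfFiniteType (Dch.X i).hom`
= the input of helper4's `s25_of_chartData'`.

Ingredients: helper2's two-affine cover `U₀ = C ∖ {ε₀}, U₁` at a closed point `ε₀`
(`exists_two_affine_cover_of_point`), helper7's `chartSetupOfCover`, helper1's (F-D3pt)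
`hD3_chartSetupOfCover` (helper3's covering lemma at geometric points), and
`ChartSetup.chartData` (`P_helper5_Chart`).
-/
import Mathlib
import Fermat.Agent.JAC.P_helper5_Chart
import Fermat.Agent.JAC.P_helper7_Setup
import Fermat.Agent.JAC.P_helper1_D3Point
import Fermat.Agent.JAC.CURVE_helper2_RR
import Fermat.Agent.JAC.J8_helper4_AE0

set_option autoImplicit false
set_option linter.style.haveILetI false
set_option linter.unusedSectionVars false

open AlgebraicGeometry CategoryTheory CategoryTheory.Limits Opposite TopologicalSpace TensorProduct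
  AlgebraicGeometry.RelPicard NeronModelInfra

universe u

namespace Fermat.Agent.JAC

open Fermat.Agent.AV Fermat.Agent.AV.CP HilbAlg

noncomputable section

attribute [local instance] overKScheme

/-- the coordinate function of an injective polynomial parametrisation is non-zero. -/
theorem ne_zero_of_injective_eval₂ {K A : Type u} [Field K] [CommRing A] (f : K →+* A) (y : A)
    (hi : Function.Injective (Polynomial.eval₂RingHom f y)) : y ≠ 0 := by
  intro h0
  have h1 : Polynomial.eval₂RingHom f y Polynomial.X = Polynomial.eval₂RingHom f y 0 := by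
    rw [map_zero, Polynomial.coe_eval₂RingHom, Polynomial.eval₂_X, h0]
  exact Polynomial.X_ne_zero (hi h1)

variable {k : Type u} [Field k] [IsAlgClosed k] {C : Scheme.{u}}
  (c : C ⟶ Spec (CommRingCat.of k)) [IsProper c] [SmoothOfRelativeDimension 1 c] [IsIntegral C]
  (ε : SchemeHomOver (𝟙 (Spec (CommRingCat.of k))) c)

/-- **(P): the charts of the rigidified degree-zero Picard functor of a smooth proper curve.** -/
theorem exists_chartData :
    ∃ Dch : REP.ChartData (picFunctor c ε (LBCond.degZero c)),
      ∀ i, LocallyOfFiniteType (Dch.X i).hom := by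
  letI : KScheme k C := ⟨c⟩
  haveI : IsNoetherian C := isNoetherian_of_isProper_field c
  letI := ffAlgebra c
  obtain ⟨ε₀, -, hε₀⟩ := exists_closedPoint_mem c ⊤ ⟨⟨genericPoint C, trivial⟩⟩
  obtain ⟨U₀, U₁, x, yf, hε, -, h₀, h₁, hcov, hx, hy, hxy, hf₀, hf₁, hi₀, hi₁⟩ :=
    exists_two_affine_cover_of_point c (fun _ => rfl) (isDiscreteValuationRing_stalk_curve c)
      (fun a ha z hz => scheme_ord_const_curve c a ha z hz) ε₀ hε₀
  haveI : Nonempty U₀ := CBC.nonempty_of_injective_polynomial _ hi₀
  have hnzd : IsNZDOn U₁ yf :=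
    D3.isNZDOn_of_isIntegral h₁ yf (ne_zero_of_injective_eval₂ _ yf hi₁)
  have hD3 := hD3_chartSetupOfCover (k := k) ⟨ε₀, hε₀⟩ U₀ U₁ x yf h₀ h₁ hcov hx hy hxy hf₀ hf₁
    hi₀ hi₁ hε hnzd
  exact ⟨(chartSetupOfCover (k := k) U₀ U₁ x yf h₀ h₁ hcov hx hy hxy hf₀ hf₁ hi₀ hi₁
      (ℕ × List (ClosedPt C)) (D3.Nof (K := k) ⟨ε₀, hε₀⟩ hcov hnzd hy)).chartData ε hD3,
    ChartSetup.locallyOfFiniteType_chartData _ ε hD3⟩

end

end Fermat.Agent.JAC
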