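/-
PROJECT JAC (S25) — helper5 — (P): **transport along an isomorphism of line bundles.**

For `D : IsoData M N` and `s : M.H0`: the image section `D.mapH0 s` is regular iff `s` is, has the
same non-vanishing locus and (for `s` regular) the same zero ideals; free generators go to free
generators.  Consequences: `IsChartSection` and `ChartCond` are invariant under isomorphism (for
regular sections).
-/
import Mathlib
import Fermat.Agent.JAC.P_helper5_ChartCond
import Fermat.Agent.JAC.P_helper5_Spread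
import Fermat.Agent.JAC.TW_helper3_Iso

set_option autoImplicit false
set_option linter.style.haveILetI false
set_option linter.unusedSectionVars false

open AlgebraicGeometry CategoryTheory CategoryTheory.Limits Opposite TopologicalSpace TensorProduct

universe u

namespace Fermat.Agent.AV.LB.IsoData

noncomputable section

variable {X : Scheme.{u}} {M N : LB X} (D : IsoData M N)

/-- on `V ≤ N.U j ⊓ W k`, the `j`-th component of the image section is a unit multiple of the
`α k`-th component of the section. -/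
theorem exists_unit_res_mapH0 (s : M.H0) (j : N.ι) (k : D.κ) (V : X.Opens) (hj : V ≤ N.U j)
    (hk : V ≤ D.W k) :
    ∃ c c' : Γ(X, V), c * c' = 1 ∧
      res V hj ((D.mapH0 s).1 j) = c * res V (hk.trans (D.hα k)) (s.1 (D.α k)) := by
  refine ⟨res V (le_inf hj (hk.trans (D.hβ k))) (N.g j (D.β k)) * res V hk (D.f k),
    res V hk (D.fi k) * res V (le_inf (hk.trans (D.hβ k)) hj) (N.g (D.β k) j), ?_,
    D.res_mapH0 s j k V hj hk⟩
  have h1 : res V hk (D.f k) * res V hk (D.fi k) = 1 := by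
    rw [← map_mul, D.f_mul_fi, map_one]
  have h2 : res V (le_inf hj (hk.trans (D.hβ k))) (N.g j (D.β k)) *
      res V (le_inf (hk.trans (D.hβ k)) hj) (N.g (D.β k) j) = 1 := by
    have h3 := N.cocycle' j (D.β k) j V hj (hk.trans (D.hβ k)) hj
    rw [h3, N.g_self, map_one]
  linear_combination (res V (le_inf hj (hk.trans (D.hβ k))) (N.g j (D.β k)) *
    res V (le_inf (hk.trans (D.hβ k)) hj) (N.g (D.β k) j)) * h1 + h2

/-- the image of a regular section is regular. -/
theorem isRegSection_mapH0 (s : M.H0) (hs : M.IsRegSection s) : N.IsRegSection (D.mapH0 s) := by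
  intro j V hV b hb
  refine eq_of_res_eq (fun k => V ⊓ D.W k) (fun k => inf_le_left) ?_ b 0 ?_
  · rw [← inf_iSup_eq, D.iSup_W, inf_top_eq]
  · intro k
    rw [map_zero]
    obtain ⟨c, c', hcc, hc⟩ := D.exists_unit_res_mapH0 s j k (V ⊓ D.W k) (inf_le_left.trans hV)
      inf_le_right
    have h1 := congrArg (res (V ⊓ D.W k) inf_le_left) hb
    rw [map_mul, res_res, map_zero, hc] at h1
    have h2 : res (V ⊓ D.W k) (inf_le_right.trans (D.hα k)) (s.1 (D.α k)) *
        (c * res (V ⊓ D.W k) inf_le_left b) = 0 := by linear_combination h1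
    have h3 := hs (D.α k) (V ⊓ D.W k) (inf_le_right.trans (D.hα k)) _ h2
    calc res (V ⊓ D.W k) inf_le_left b = c' * (c * res (V ⊓ D.W k) inf_le_left b) := by
          linear_combination (-(res (V ⊓ D.W k) inf_le_left b)) * hcc
      _ = 0 := by rw [h3, mul_zero]

/-- the image section has the same non-vanishing locus. -/
theorem nonvanishingLocus_mapH0 (s : M.H0) :
    N.nonvanishingLocus (D.mapH0 s) = M.nonvanishingLocus s := by
  ext y
  have hy : y ∈ (⊤ : X.Opens) := True.intro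
  rw [← D.iSup_W] at hy
  obtain ⟨k, hk⟩ := Opens.mem_iSup.mp hy
  rw [SetLike.mem_coe, SetLike.mem_coe,
    mem_nonvanishingLocus_iff N _ y (D.β k) (D.hβ k hk),
    mem_nonvanishingLocus_iff M s y (D.α k) (D.hα k hk)]
  obtain ⟨c, c', hcc, hc⟩ := D.exists_unit_res_mapH0 s (D.β k) k (D.W k) (D.hβ k) le_rfl
  have hcu : IsUnit c := IsUnit.of_mul_eq_one _ hcc
  have e1 : y ∈ X.basicOpen ((D.mapH0 s).1 (D.β k)) ↔
      y ∈ X.basicOpen (res (D.W k) (D.hβ k) ((D.mapH0 s).1 (D.β k))) := by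
    rw [basicOpen_res']
    exact ⟨fun h => ⟨hk, h⟩, fun h => h.2⟩
  have e2 : y ∈ X.basicOpen (s.1 (D.α k)) ↔
      y ∈ X.basicOpen (res (D.W k) (D.hα k) (s.1 (D.α k))) := by
    rw [basicOpen_res']
    exact ⟨fun h => ⟨hk, h⟩, fun h => h.2⟩
  rw [e1, e2, hc, Scheme.basicOpen_mul, Scheme.basicOpen_of_isUnit _ hcu]
  constructor
  · exact fun h => h.2
  · exact fun h => ⟨hk, h⟩

/-- one inclusion of the zero ideals. -/
theorem zeroIdeal_le_zeroIdeal_mapH0 (s : M.H0) (hs : M.IsRegSection s) (V : X.Opens) :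
    M.zeroIdeal s V ≤ N.zeroIdeal (D.mapH0 s) V := by
  intro r hr j
  have ht := D.isRegSection_mapH0 s hs
  -- local solutions on `N.U j ⊓ V ⊓ W k`
  have hloc : ∀ k, ∃ a : Γ(X, N.U j ⊓ V ⊓ D.W k),
      res (N.U j ⊓ V ⊓ D.W k) (inf_le_left.trans inf_le_right) r =
        a * res (N.U j ⊓ V ⊓ D.W k) (inf_le_left.trans inf_le_left) ((D.mapH0 s).1 j) := by
    intro k
    obtain ⟨a, ha⟩ := hr (D.α k)
    obtain ⟨c, c', hcc, hc⟩ := D.exists_unit_res_mapH0 s j k (N.U j ⊓ V ⊓ D.W k)
      (inf_le_left.trans inf_le_left) inf_le_right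
    have hle : N.U j ⊓ V ⊓ D.W k ≤ M.U (D.α k) ⊓ V :=
      le_inf (inf_le_right.trans (D.hα k)) (inf_le_left.trans inf_le_right)
    have h1 := congrArg (res (N.U j ⊓ V ⊓ D.W k) hle) ha
    rw [map_mul, res_res, res_res] at h1
    refine ⟨res (N.U j ⊓ V ⊓ D.W k) hle a * c', ?_⟩
    rw [hc]
    have h1' : res (N.U j ⊓ V ⊓ D.W k) (inf_le_left.trans inf_le_right) r =
        res (N.U j ⊓ V ⊓ D.W k) hle a *
          res (N.U j ⊓ V ⊓ D.W k) (inf_le_right.trans (D.hα k)) (s.1 (D.α k)) := h1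
    rw [h1']
    linear_combination (-(res (N.U j ⊓ V ⊓ D.W k) hle a *
      res (N.U j ⊓ V ⊓ D.W k) (inf_le_right.trans (D.hα k)) (s.1 (D.α k)))) * hcc
  choose a ha using hloc
  -- they glue, by regularity of the image section
  have hglue : ∀ k l, res ((N.U j ⊓ V ⊓ D.W k) ⊓ (N.U j ⊓ V ⊓ D.W l)) inf_le_left (a k) =
      res ((N.U j ⊓ V ⊓ D.W k) ⊓ (N.U j ⊓ V ⊓ D.W l)) inf_le_right (a l) := by
    intro k l
    set O := (N.U j ⊓ V ⊓ D.W k) ⊓ (N.U j ⊓ V ⊓ D.W l) with hO
    have hk := congrArg (res O inf_le_left) (ha k)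
    have hl := congrArg (res O inf_le_right) (ha l)
    rw [map_mul, res_res, res_res] at hk hl
    have hOj : O ≤ N.U j := inf_le_left.trans (inf_le_left.trans inf_le_left)
    have h3 : res O hOj ((D.mapH0 s).1 j) *
        (res O inf_le_left (a k) - res O inf_le_right (a l)) = 0 := by
      have e1 : res O (inf_le_left.trans (inf_le_left.trans inf_le_right)) r =
          res O inf_le_left (a k) * res O hOj ((D.mapH0 s).1 j) := hk
      have e2 : res O (inf_le_left.trans (inf_le_left.trans inf_le_right)) r =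
          res O inf_le_right (a l) * res O hOj ((D.mapH0 s).1 j) := hl
      linear_combination e2 - e1
    have h4 := ht j O hOj _ h3
    exact sub_eq_zero.mp h4
  obtain ⟨A, hA, -⟩ := exists_glue (fun k => N.U j ⊓ V ⊓ D.W k) (fun k => inf_le_left)
    (by rw [← inf_iSup_eq, D.iSup_W, inf_top_eq]) a hglue
  refine ⟨A, ?_⟩
  refine eq_of_res_eq (fun k => N.U j ⊓ V ⊓ D.W k) (fun k => inf_le_left)
    (by rw [← inf_iSup_eq, D.iSup_W, inf_top_eq]) _ _ ?_
  intro k
  rw [map_mul, res_res, res_res, hA k]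
  exact ha k

/-- **the image of a regular section has the same zero ideals.** -/
theorem zeroIdeal_mapH0 (s : M.H0) (hs : M.IsRegSection s) (V : X.Opens) :
    N.zeroIdeal (D.mapH0 s) V = M.zeroIdeal s V := by
  apply le_antisymm
  · have h := D.symm.zeroIdeal_le_zeroIdeal_mapH0 (D.mapH0 s) (D.isRegSection_mapH0 s hs) V
    rw [D.symm_mapH0_mapH0] at h
    exact h
  · exact D.zeroIdeal_le_zeroIdeal_mapH0 s hs V

end

end Fermat.Agent.AV.LB.IsoData

namespace Fermat.Agent.JAC

open Fermat.Agent.AV Fermat.Agent.AV.CP HilbAlg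

noncomputable section

/-- free generators are carried to free generators by an isomorphism. -/
theorem IsFreeGen.of_iso {Y T : Scheme.{u}} {q : Y ⟶ T} {L L' : LB Y} {σ : L.H0}
    (h : IsFreeGen q L σ) (D : LB.IsoData L L') : IsFreeGen q L' (D.mapH0 σ) := by
  intro τ'
  obtain ⟨b, hb, hb'⟩ := h (D.symm.mapH0 τ')
  refine ⟨b, ?_, ?_⟩
  · have h1 := congrArg D.mapH0 hb
    rw [LB.IsoData.mapH0_symm_mapH0, LB.IsoData.mapH0_smul] at h1
    exact h1
  · intro b₂ hb₂
    apply hb'
    have h1 := congrArg D.symm.mapH0 hb₂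
    rw [LB.IsoData.mapH0_smul, LB.IsoData.symm_mapH0_mapH0] at h1
    exact h1

variable {K : Type u} [Field K] {C T' Y' : Scheme.{u}} [KScheme K C] [KScheme K T'] [IsAffine T']
  {p₁' : Y' ⟶ C} {p₂' : Y' ⟶ T'}
  (H' : IsPullback p₁' p₂' (KScheme.str (K := K)) (KScheme.str (K := K)))
  {U₀ : C.Opens} (hU₀ : IsAffineOpen U₀) (U₁ : C.Opens) {g : ℕ} (v : Fin g → Γ(C, U₀))

/-- chart sections are carried to chart sections by an isomorphism (for regular sections). -/
theorem IsChartSection.of_iso {L' L'' : LB Y'} {σ : L'.H0} (h : IsChartSection H' hU₀ v L' σ)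
    (hreg : L'.IsRegSection σ) (D : LB.IsoData L' L'') :
    IsChartSection H' hU₀ v L'' (D.mapH0 σ) := by
  obtain ⟨hgen, ⟨W', hWW', hu⟩, hbased⟩ := h
  refine ⟨IsFreeGen.of_iso hgen D, ⟨W', hWW', ?_⟩, ?_⟩
  · refine L''.isUnit_res_of_le_nonvanishingLocus _ ?_
    rw [D.nonvanishingLocus_mapH0]
    exact L'.le_nonvanishingLocus_of_isUnit σ hu
  · rw [D.zeroIdeal_mapH0 σ hreg]
    exact hbased

/-- the chart condition is invariant under isomorphism, provided chart sections are regular (e.g.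
on an integral scheme). -/
theorem ChartCond.of_iso {L' L'' : LB Y'} (h : ChartCond H' hU₀ U₁ v L')
    (hreg : ∀ σ : L'.H0, IsChartSection H' hU₀ v L' σ → L'.IsRegSection σ)
    (D : LB.IsoData L' L'') : ChartCond H' hU₀ U₁ v L'' := by
  obtain ⟨h1, σ, hσ⟩ := h
  exact ⟨TW.h1Vanishes_of_iso ⟨D⟩ h1, D.mapH0 σ, hσ.of_iso H' hU₀ v (hreg σ hσ) D⟩

end

end Fermat.Agent.JAC
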