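/-
PROJECT JAC (S25) — helper5 — (P): **spreading out from a field-valued point to a basic open of an
affine base** (steps B, C of the chart theorem).

Setting = lead's (H): `K` alg. closed, `C` a `K`-scheme, `U₀ ⊆ C` affine open (smooth affine curve),
`T` an affine `K`-scheme, `Y = C ×_K T` with `p₂ : Y ⟶ T` proper, `L : LB Y`, `σ : L.H0`.
* `LB.zeroIdeal_smul_unit`, `LB.nonvanishingLocus_smul_unit` : unit multiples have the same zero
  ideal / nonvanishing locus;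
* `IsFreeGen q L σ` : `σ` generates `H⁰` freely over `Γ(T,⊤)`; `IsFreeGen.exists_unit`;
* **Step B** `exists_basicOpen_unit_off` : "unit off `W`" at a point ⇒ on `p₂⁻¹ D(f)`;
* `module_finite_of_zeroIdeal` : `(B ⊗ A) ⧸ I` is a finite `B`-module (from `P_helper5_Finite`);
* `IsCartierData.ideal_fg` : an ideal with Cartier data is finitely generated;
* **Step C** `exists_basicOpen_isBased` : if the zero ideal of `σ` is based at a field-valued point,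
  it is based over a basic open neighbourhood `D(f₀)` (and over every further restriction).
-/
import Mathlib
import Fermat.Agent.JAC.P_helper5_Classify
import Fermat.Agent.JAC.P_helper5_Shrink
import Fermat.Agent.JAC.P_helper5_CartierData
import Fermat.Agent.JAC.P_helper5_UnivGen
import Fermat.Agent.JAC.P_helper5_ChartCond
import Fermat.Agent.JAC.P_helper5_BaseOpen
import Fermat.Agent.JAC.P_helper5_Alg
import Fermat.Agent.JAC.FIB_helper7_Spread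

set_option autoImplicit false
set_option linter.style.haveILetI false
set_option linter.unusedSectionVars false

open AlgebraicGeometry CategoryTheory CategoryTheory.Limits Opposite TopologicalSpace TensorProduct

universe u

namespace Fermat.Agent.AV.LB

open Fermat.Agent.JAC

noncomputable section

variable {Y : Scheme.{u}}

theorem zeroIdeal_smul_unit (L : LB Y) (σ : L.H0) (V : Y.Opens) {c : Γ(Y, ⊤)} (hc : IsUnit c) :
    L.zeroIdeal (c • σ) V = L.zeroIdeal σ V := by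
  obtain ⟨d, hd⟩ := hc.exists_left_inv
  ext r
  constructor
  · intro hr i
    obtain ⟨a, ha⟩ := hr i
    refine ⟨a * res (L.U i ⊓ V) le_top c, ?_⟩
    rw [ha, smul_apply, map_mul, res_res]
    ring
  · intro hr i
    obtain ⟨a, ha⟩ := hr i
    refine ⟨a * res (L.U i ⊓ V) le_top d, ?_⟩
    rw [ha, smul_apply, map_mul, res_res]
    have h1 : res (L.U i ⊓ V) le_top d * res (L.U i ⊓ V) le_top c = 1 := by
      rw [← map_mul, hd, map_one]
    calc a * res (L.U i ⊓ V) inf_le_left (σ.1 i)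
        = a * ((res (L.U i ⊓ V) le_top d * res (L.U i ⊓ V) le_top c) *
            res (L.U i ⊓ V) inf_le_left (σ.1 i)) := by rw [h1, one_mul]
      _ = _ := by ring

theorem nonvanishingLocus_smul_unit (L : LB Y) (σ : L.H0) {c : Γ(Y, ⊤)} (hc : IsUnit c) :
    L.nonvanishingLocus (c • σ) = L.nonvanishingLocus σ := by
  unfold nonvanishingLocus
  congr 1
  funext i
  rw [smul_apply, Scheme.basicOpen_mul, Y.basicOpen_of_isUnit (hc.map _)]
  exact inf_eq_right.mpr (Y.basicOpen_le _)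

end

end Fermat.Agent.AV.LB

namespace Fermat.Agent.JAC

open Fermat.Agent.AV Fermat.Agent.AV.CP HilbAlg

noncomputable section

/-- `σ` generates `H⁰(L)` freely over `Γ(T,⊤)`. -/
def IsFreeGen {Y T : Scheme.{u}} (q : Y ⟶ T) (L : LB Y) (σ : L.H0) : Prop :=
  ∀ τ : L.H0, ∃! b : Γ(T, ⊤), τ = q.appTop.hom b • σ

theorem IsUnivGen.isFreeGen {Y T : Scheme.{u}} {q : Y ⟶ T} {L : LB Y} {σ : L.H0}
    (h : IsUnivGen q L σ) [IsAffine T] : IsFreeGen q L σ := fun τ => h.exists_unique_smul τ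

/-- two free generators differ by a unit. -/
theorem IsFreeGen.exists_unit {Y T : Scheme.{u}} {q : Y ⟶ T} {L : LB Y} {σ σ' : L.H0}
    (h : IsFreeGen q L σ) (h' : IsFreeGen q L σ') :
    ∃ u : (Γ(T, ⊤))ˣ, σ' = q.appTop.hom (u : Γ(T, ⊤)) • σ := by
  obtain ⟨b, hb, -⟩ := h σ'
  obtain ⟨b', hb', -⟩ := h' σ
  have h1 : σ = q.appTop.hom (b' * b) • σ := by
    rw [map_mul, mul_smul, ← hb, ← hb']
  have h2 : σ = q.appTop.hom 1 • σ := by rw [map_one, one_smul]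
  have h3 : b' * b = 1 := (h σ).unique h1.symm.symm h2
  exact ⟨⟨b, b', by rw [mul_comm]; exact h3, h3⟩, hb⟩

/-- **Step B.**  If the pulled-back section is a unit off `ψ⁻¹W` on the fibre over a point `z`,
then `p₂⁻¹ D(f) ≤ W ⊔ nonvanishingLocus σ` for some basic open `D(f)` containing the point. -/
theorem exists_basicOpen_unit_off {Y T : Scheme.{u}} [IsAffine T] (p₂ : Y ⟶ T)
    (hp₂ : IsClosedMap p₂.base) (L : LB Y) (σ : L.H0) (W : Y.Opens) {T' Y' : Scheme.{u}}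
    [Subsingleton T'] (z : T' ⟶ T) (ψ : Y' ⟶ Y) (p₂' : Y' ⟶ T') (sq : IsPullback ψ p₂' p₂ z)
    {W'z : Y'.Opens} (hcov : ψ ⁻¹ᵁ W ⊔ W'z = ⊤)
    (hu : ∀ i, IsUnit (res ((L.pullback ψ).U i ⊓ W'z) inf_le_left
      ((L.pullbackSection ψ σ).1 i))) :
    ∃ f : Γ(T, ⊤), (∀ s : T', z.base s ∈ T.basicOpen f) ∧
      p₂ ⁻¹ᵁ T.basicOpen f ≤ W ⊔ L.nonvanishingLocus σ := by
  obtain ⟨V, hzV, hV⟩ := L.exists_nhds_unit_off p₂ hp₂ σ W z ψ p₂' sq hcov hu
  by_cases hne : Nonempty T'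
  · obtain ⟨s₀⟩ := hne
    obtain ⟨f, hfV, hxf⟩ := (isAffineOpen_top T).exists_basicOpen_le ⟨z.base s₀, hzV s₀⟩ trivial
    refine ⟨f, fun s => ?_, ?_⟩
    · rw [Subsingleton.elim s s₀]
      exact hxf
    · exact le_trans (fun y hy => hfV hy) hV
  · refine ⟨0, fun s => absurd ⟨s⟩ hne, ?_⟩
    rw [Scheme.basicOpen_zero]
    intro y hy
    exact absurd hy (by simp)

/-- an ideal with Cartier data is finitely generated. -/
theorem IsCartierData.ideal_fg {R : Type*} [CommRing R] {I : Ideal R} {n : ℕ} {h f : Fin n → R}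
    (hc : IsCartierData I h f) : I.FG := by
  refine Ideal.fg_of_localizationSpan (Set.range h) hc.span_eq_top ?_
  rintro ⟨_, α, rfl⟩
  rw [hc.map_away_eq_span α]
  exact ⟨{algebraMap R (Localization.Away (h α)) (f α)}, by simp⟩

section finite

variable {K : Type u} [Field K] {C T Y : Scheme.{u}} [KScheme K C] [KScheme K T] [IsAffine T]
  {p₁ : Y ⟶ C} {p₂ : Y ⟶ T}
  (H : IsPullback p₁ p₂ (KScheme.str (K := K)) (KScheme.str (K := K)))
  {U₀ : C.Opens} (hU₀ : IsAffineOpen U₀)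

/-- **finiteness of the zero scheme, in Künneth coordinates.** -/
theorem module_finite_of_zeroIdeal [IsProper p₂] (L : LB Y) (σ : L.H0)
    {I : Ideal (Γ(T, ⊤) ⊗[K] Γ(C, U₀))} (hZ : L.zeroIdeal σ (p₁ ⁻¹ᵁ U₀) = kunIdeal H hU₀ I)
    {W' : Y.Opens} (hWW' : p₁ ⁻¹ᵁ U₀ ⊔ W' = ⊤)
    (hu : ∀ i, IsUnit (res (L.U i ⊓ W') inf_le_left (σ.1 i))) :
    Module.Finite Γ(T, ⊤) ((Γ(T, ⊤) ⊗[K] Γ(C, U₀)) ⧸ I) := by
  have hfin := L.finite_zeroIdeal_of_isProper p₂ σ (isAffineOpen_preimage_fst H hU₀) hWW' hu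
  rw [hZ] at hfin
  let e : ((Γ(T, ⊤) ⊗[K] Γ(C, U₀)) ⧸ I) ≃+* (Γ(Y, p₁ ⁻¹ᵁ U₀) ⧸ kunIdeal H hU₀ I) :=
    Ideal.quotientEquiv I (kunIdeal H hU₀ I) (kunneth H hU₀) rfl
  have h2 : (e.symm : (Γ(Y, p₁ ⁻¹ᵁ U₀) ⧸ kunIdeal H hU₀ I) →+*
      ((Γ(T, ⊤) ⊗[K] Γ(C, U₀)) ⧸ I)).Finite :=
    RingHom.Finite.of_surjective _ e.symm.surjective
  have h3 := h2.comp hfin
  have h4 : (e.symm : (Γ(Y, p₁ ⁻¹ᵁ U₀) ⧸ kunIdeal H hU₀ I) →+*
      ((Γ(T, ⊤) ⊗[K] Γ(C, U₀)) ⧸ I)).comp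
      ((Ideal.Quotient.mk (kunIdeal H hU₀ I)).comp (p₂.appLE ⊤ (p₁ ⁻¹ᵁ U₀) le_top).hom) =
      algebraMap Γ(T, ⊤) ((Γ(T, ⊤) ⊗[K] Γ(C, U₀)) ⧸ I) := by
    refine RingHom.ext (fun b => ?_)
    show e.symm ((Ideal.Quotient.mk (kunIdeal H hU₀ I))
      ((p₂.appLE ⊤ (p₁ ⁻¹ᵁ U₀) le_top).hom b)) = Ideal.Quotient.mk I (b ⊗ₜ[K] 1)
    rw [RingEquiv.symm_apply_eq]
    have h5 : e (Ideal.Quotient.mk I (b ⊗ₜ[K] 1)) =
        Ideal.Quotient.mk (kunIdeal H hU₀ I) (kunneth H hU₀ (b ⊗ₜ[K] 1)) := rfl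
    rw [h5, kunneth_tmul_one]
    rfl
  rw [h4] at h3
  exact RingHom.finite_algebraMap.mp h3

end finite

section stepC

variable {K : Type u} [Field K] [IsAlgClosed K] {C T Y : Scheme.{u}} [KScheme K C] [KScheme K T]
  [IsAffine T] {p₁ : Y ⟶ C} {p₂ : Y ⟶ T}
  (H : IsPullback p₁ p₂ (KScheme.str (K := K)) (KScheme.str (K := K)))
  {U₀ : C.Opens} (hU₀ : IsAffineOpen U₀) [Algebra.FiniteType K Γ(C, U₀)]
  {g : ℕ} {v : Fin g → Γ(C, U₀)}

omit [IsAlgClosed K] in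
/-- base change of a based ideal along a restriction of the base on which `f₀` becomes a unit. -/
theorem isBased_map_of_isUnit {I : Ideal (Γ(T, ⊤) ⊗[K] Γ(C, U₀))} {f₀ : Γ(T, ⊤)}
    (hB : IsBased v (I.map (bcMap (A := Γ(C, U₀))
      (IsScalarTower.toAlgHom K Γ(T, ⊤) (Localization.Away f₀)))))
    {B₁ : Type u} [CommRing B₁] [Algebra K B₁] (φ₁ : Γ(T, ⊤) →ₐ[K] B₁) (hφ₁ : IsUnit (φ₁ f₀)) :
    IsBased v (I.map (bcMap (A := Γ(C, U₀)) φ₁)) := by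
  have hunits : ∀ y : Submonoid.powers f₀, IsUnit (φ₁ y) := by
    rintro ⟨_, m, rfl⟩
    rw [map_pow]
    exact hφ₁.pow m
  let ℓ : Localization.Away f₀ →ₐ[K] B₁ := IsLocalization.liftAlgHom (M := Submonoid.powers f₀)
    (f := φ₁) hunits
  have hℓ : ℓ.comp (IsScalarTower.toAlgHom K Γ(T, ⊤) (Localization.Away f₀)) = φ₁ := by
    ext x
    show IsLocalization.lift hunits (algebraMap Γ(T, ⊤) (Localization.Away f₀) x) = φ₁ x
    exact IsLocalization.lift_eq hunits x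
  have h1 := isBased_bcMap_of_isBased ℓ hB
  rw [bcMap_comp, hℓ] at h1
  exact h1

/-- **Step C.**  `σ` regular, a unit off `p₁⁻¹U₀`, with zero ideal `κ(I)`, `I` with Cartier data and
flat quotient, `p₂` proper.  If the zero ideal of the pulled-back section is `v`-based at a
field-valued point `z`, then there is `f₀ ∈ Γ(T,⊤)` with `z^♯ f₀ ≠ 0` such that `I` becomes
`v`-based after every base change making `f₀` a unit. -/
theorem exists_basicOpen_isBased [IsProper p₂] (L : LB Y) (σ : L.H0) (hσ : L.IsRegSection σ)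
    {I : Ideal (Γ(T, ⊤) ⊗[K] Γ(C, U₀))} (hZ : L.zeroIdeal σ (p₁ ⁻¹ᵁ U₀) = kunIdeal H hU₀ I)
    [Module.Flat Γ(T, ⊤) ((Γ(T, ⊤) ⊗[K] Γ(C, U₀)) ⧸ I)]
    {n : ℕ} {h f : Fin n → Γ(T, ⊤) ⊗[K] Γ(C, U₀)} (hc : IsCartierData I h f)
    {W' : Y.Opens} (hWW' : p₁ ⁻¹ᵁ U₀ ⊔ W' = ⊤)
    (hu : ∀ i, IsUnit (res (L.U i ⊓ W') inf_le_left (σ.1 i)))
    {T' Y' : Scheme.{u}} [KScheme K T'] [IsAffine T'] (hfield : IsField Γ(T', ⊤))
    (z : T' ⟶ T) (hz : z ≫ KScheme.str (K := K) = KScheme.str) (p₂' : Y' ⟶ T') (ψ : Y' ⟶ Y)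
    {p₁' : Y' ⟶ C} (hp₁' : ψ ≫ p₁ = p₁')
    (H' : IsPullback p₁' p₂' (KScheme.str (K := K)) (KScheme.str (K := K)))
    (hψ : ψ ≫ p₂ = p₂' ≫ z)
    (hbased : IsBased v (((L.pullback ψ).zeroIdeal (L.pullbackSection ψ σ)
      (p₁' ⁻¹ᵁ U₀)).comap
      (kunneth H' hU₀ : Γ(T', ⊤) ⊗[K] Γ(C, U₀) →+* Γ(Y', p₁' ⁻¹ᵁ U₀)))) :
    ∃ f₀ : Γ(T, ⊤), z.appTop.hom f₀ ≠ 0 ∧
      ∀ {B₁ : Type u} [CommRing B₁] [Algebra K B₁] (φ₁ : Γ(T, ⊤) →ₐ[K] B₁), IsUnit (φ₁ f₀) →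
        IsBased v (I.map (bcMap (A := Γ(C, U₀)) φ₁)) := by
  subst hp₁'
  -- the fibre ideal
  have hpb := zeroIdeal_pullback H hU₀ z hz p₂' ψ H' hψ I hc L σ hσ hZ hWW' hu
  have hfib : IsBased v (I.map (bcMap (A := Γ(C, U₀)) (appTopAlgHom z hz))) := by
    rw [comap_zeroIdeal_of_eq_kunIdeal H' hU₀ _ _ hpb.2.1] at hbased
    exact hbased
  -- finiteness, finite presentation
  haveI : Module.Finite Γ(T, ⊤) ((Γ(T, ⊤) ⊗[K] Γ(C, U₀)) ⧸ I) :=
    module_finite_of_zeroIdeal H hU₀ L σ hZ hWW' hu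
  haveI : Algebra.FinitePresentation K Γ(C, U₀) :=
    Algebra.FinitePresentation.of_finiteType.mp inferInstance
  haveI : Module.FinitePresentation Γ(T, ⊤) ((Γ(T, ⊤) ⊗[K] Γ(C, U₀)) ⧸ I) :=
    finitePresentation_quotient (B := Γ(T, ⊤)) I hc.ideal_fg
  letI : Field Γ(T', ⊤) := hfield.toField
  obtain ⟨f₀, hf₀, hB⟩ := exists_isBased_away I v (appTopAlgHom z hz) hfib
  exact ⟨f₀, hf₀, fun φ₁ hφ₁ => isBased_map_of_isUnit hB φ₁ hφ₁⟩

end stepC

end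

end Fermat.Agent.JAC
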