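/-
PROJECT JAC (S25) — helper5 — (P): **Theorem S — the chart condition at a field-valued point spreads
to a neighbourhood, with a classifying morphism to the Hilbert chart.**

Inputs taken as HYPOTHESES (delivered by other bricks, in exactly these shapes):
* `J3UnivGen U₀ U₁` (helper8, J3(4)): on an affine base, `H¹ = 0` and `H⁰` free of rank one at a
  field-valued point ⇒ a universal generator over a basic open neighbourhood;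
* `GeomLFC hU₀` (helper7, geometric local flatness criterion): a fibrewise nonzero section which is
  a unit off `p₁⁻¹U₀` is regular, and its zero ideal on `p₁⁻¹U₀` is `κ(I)` with `I` flat with Cartier
  data.
Output: `exists_classifying_nhds`.
-/
import Mathlib
import Fermat.Agent.JAC.P_helper5_Spread

set_option autoImplicit false
set_option linter.style.haveILetI false
set_option linter.unusedSectionVars false

open AlgebraicGeometry CategoryTheory CategoryTheory.Limits Opposite TopologicalSpace TensorProduct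

universe u

namespace Fermat.Agent.JAC

open Fermat.Agent.AV Fermat.Agent.AV.CP HilbAlg

noncomputable section

theorem mem_basicOpen_of_appTop_ne_zero {T T' : Scheme.{u}} (hfield : IsField Γ(T', ⊤))
    (z : T' ⟶ T) (f : Γ(T, ⊤)) (hf : z.appTop.hom f ≠ 0) (s : T') :
    z.base s ∈ T.basicOpen f := by
  obtain ⟨b, hb⟩ := hfield.mul_inv_cancel hf
  have hu : IsUnit (z.appTop.hom f) := IsUnit.of_mul_eq_one _ hb
  have h1 : z ⁻¹ᵁ T.basicOpen f = ⊤ := by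
    rw [Scheme.preimage_basicOpen]
    exact T'.basicOpen_of_isUnit hu
  have : s ∈ z ⁻¹ᵁ T.basicOpen f := by rw [h1]; trivial
  exact this

theorem appTop_ne_zero_of_mem_basicOpen {T T' : Scheme.{u}} [Nonempty T'] (z : T' ⟶ T)
    (f : Γ(T, ⊤)) (h : ∀ s : T', z.base s ∈ T.basicOpen f) : z.appTop.hom f ≠ 0 := by
  intro h0
  obtain ⟨s⟩ := (inferInstance : Nonempty T')
  have h1 : s ∈ z ⁻¹ᵁ T.basicOpen f := h s
  rw [Scheme.preimage_basicOpen] at h1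
  have h2 : T'.basicOpen ((z.app ⊤).hom f) = ⊥ := by
    have : (z.app ⊤).hom f = 0 := h0
    rw [this, Scheme.basicOpen_zero]
  rw [h2] at h1
  exact h1

theorem isUnit_appTop_ι_basicOpen {T : Scheme.{u}} (f : Γ(T, ⊤)) :
    IsUnit ((T.basicOpen f).ι.appTop.hom f) := by
  rw [isUnit_iff_le_basicOpen]
  have h1 : (T.basicOpen f).ι ⁻¹ᵁ T.basicOpen f = ⊤ := Scheme.Opens.ι_preimage_self _
  rw [Scheme.preimage_basicOpen] at h1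
  exact h1.ge

variable {K : Type u} [Field K] {C : Scheme.{u}} [KScheme K C]

/-- **(J3(4))**, helper8: a universal generator near a field-valued point with `H¹ = 0`, `H⁰` free of
rank one. -/
def J3UnivGen (K : Type u) [Field K] {C : Scheme.{u}} [KScheme K C] (U₀ U₁ : C.Opens) : Prop :=
  ∀ {T Y : Scheme.{u}} [KScheme K T] [IsAffine T] {p₁ : Y ⟶ C} {p₂ : Y ⟶ T}
    (_ : IsPullback p₁ p₂ (KScheme.str (K := K)) (KScheme.str (K := K))) (L : LB Y)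
    {T' Y' : Scheme.{u}} [KScheme K T'] [IsAffine T'] (z : T' ⟶ T)
    (_ : z ≫ KScheme.str (K := K) = KScheme.str) (p₂' : Y' ⟶ T') (ψ : Y' ⟶ Y)
    (_ : IsPullback (ψ ≫ p₁) p₂' (KScheme.str (K := K)) (KScheme.str (K := K)))
    (_ : ψ ≫ p₂ = p₂' ≫ z), IsField Γ(T', ⊤) →
    CBC.H1Vanishes (L.pullback ψ) ((ψ ≫ p₁) ⁻¹ᵁ U₀) ((ψ ≫ p₁) ⁻¹ᵁ U₁) →
    (∃ τ₀ : (L.pullback ψ).H0, IsFreeGen p₂' (L.pullback ψ) τ₀) →
    ∃ f : Γ(T, ⊤), z.appTop.hom f ≠ 0 ∧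
      ∃ σ : (L.pullback (p₂ ⁻¹ᵁ T.basicOpen f).ι).H0,
        IsUnivGen (p₂ ∣_ T.basicOpen f) (L.pullback (p₂ ⁻¹ᵁ T.basicOpen f).ι) σ

/-- **geometric local flatness criterion**, helper7. -/
def GeomLFC (K : Type u) [Field K] {C : Scheme.{u}} [KScheme K C] {U₀ : C.Opens}
    (hU₀ : IsAffineOpen U₀) : Prop :=
  ∀ {T Y : Scheme.{u}} [KScheme K T] [IsAffine T] {p₁ : Y ⟶ C} {p₂ : Y ⟶ T}
    (H : IsPullback p₁ p₂ (KScheme.str (K := K)) (KScheme.str (K := K))) (L : LB Y) (σ : L.H0),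
    (∀ (κ : Type u) [Field κ] (z : Spec (CommRingCat.of κ) ⟶ T) {Yz : Scheme.{u}} (ψ : Yz ⟶ Y)
      (qz : Yz ⟶ Spec (CommRingCat.of κ)), IsPullback ψ qz p₂ z → L.pullbackSection ψ σ ≠ 0) →
    ∀ {W' : Y.Opens}, p₁ ⁻¹ᵁ U₀ ⊔ W' = ⊤ →
    (∀ i, IsUnit (res (L.U i ⊓ W') inf_le_left (σ.1 i))) →
    L.IsRegSection σ ∧ ∃ I : Ideal (Γ(T, ⊤) ⊗[K] Γ(C, U₀)),
      L.zeroIdeal σ (p₁ ⁻¹ᵁ U₀) = kunIdeal H hU₀ I ∧
      Module.Flat Γ(T, ⊤) ((Γ(T, ⊤) ⊗[K] Γ(C, U₀)) ⧸ I) ∧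
      ∃ (n : ℕ) (h f : Fin n → Γ(T, ⊤) ⊗[K] Γ(C, U₀)), IsCartierData I h f

section main

variable [IsAlgClosed K] {U₀ : C.Opens} (hU₀ : IsAffineOpen U₀) (U₁ : C.Opens)
  [IsDomain Γ(C, U₀)] [Algebra.FiniteType K Γ(C, U₀)]
  (hA : ∀ (𝔫 : Ideal Γ(C, U₀)) [𝔫.IsMaximal], IsDiscreteValuationRing (Localization.AtPrime 𝔫))
  {g : ℕ} {v : Fin g → Γ(C, U₀)} {Hs Yv : Scheme.{u}} [KScheme K Hs] [IsAffine Hs]
  {e : HilbRing K Γ(C, U₀) g v →ₐ[K] Γ(Hs, ⊤)} (he : Function.Bijective e)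
  {q₁ : Yv ⟶ C} {q₂ : Yv ⟶ Hs}
  (Hv : IsPullback q₁ q₂ (KScheme.str (K := K)) (KScheme.str (K := K)))

/-- the conclusion of the spreading theorem: over an affine open `E` of the base containing the
point, the family is the pull-back of the universal one along a morphism `b : E.T₁ ⟶ Hs`. -/
def SpreadsTo (Lu : LB Yv) {T Y : Scheme.{u}} [KScheme K T] {p₁ : Y ⟶ C} {p₂ : Y ⟶ T}
    (H : IsPullback p₁ p₂ (KScheme.str (K := K)) (KScheme.str (K := K))) (L : LB Y)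
    {T' Y' : Scheme.{u}} (z : T' ⟶ T) (p₂' : Y' ⟶ T') (ψ : Y' ⟶ Y) : Prop :=
  ∃ E : BaseOpen H, E.LiftsPoint z p₂' ψ ∧
    ∃ (b : E.T₁ ⟶ Hs) (_ : b ≫ KScheme.str (K := K) = KScheme.str) (ψb : E.Y₁ ⟶ Yv),
      ψb ≫ q₁ = E.ψ₁ ≫ p₁ ∧ ψb ≫ q₂ = E.p₂₁ ≫ b ∧
      Nonempty (LB.IsoData (Lu.pullback ψb) (L.pullback E.ψ₁))

omit [IsAlgClosed K] [IsDomain Γ(C, U₀)] [Algebra.FiniteType K Γ(C, U₀)] [IsAffine Hs] in
/-- transitivity: spreading over a restriction of the base gives spreading over the base. -/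
theorem SpreadsTo.of_restrict (Lu : LB Yv) {T Y : Scheme.{u}} [KScheme K T] {p₁ : Y ⟶ C}
    {p₂ : Y ⟶ T} {H : IsPullback p₁ p₂ (KScheme.str (K := K)) (KScheme.str (K := K))} (L : LB Y)
    {T' Y' : Scheme.{u}} {z : T' ⟶ T} {p₂' : Y' ⟶ T'} {ψ : Y' ⟶ Y} (E : BaseOpen H)
    {z₁ : T' ⟶ E.T₁} {ψ' : Y' ⟶ E.Y₁} (h₁ : z₁ ≫ E.j = z) (h₂ : ψ' ≫ E.ψ₁ = ψ)
    (h : SpreadsTo (q₁ := q₁) (q₂ := q₂) Lu E.H₁ (L.pullback E.ψ₁) z₁ p₂' ψ') :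
    SpreadsTo (q₁ := q₁) (q₂ := q₂) Lu H L z p₂' ψ := by
  obtain ⟨E', hlift, b, hb, ψb, hq₁, hq₂, ⟨D⟩⟩ := h
  refine ⟨E.comp E', BaseOpen.LiftsPoint.comp h₁ h₂ hlift, b, hb, ψb, ?_, hq₂, ⟨D⟩⟩
  show ψb ≫ q₁ = (E'.ψ₁ ≫ E.ψ₁) ≫ p₁
  rw [hq₁, Category.assoc]

include hA he in
/-- **Piece 1**: based zero ideal over the whole affine base ⇒ classifying morphism (Theorem B). -/
theorem spreadsTo_of_isBased (Lu : LB Yv) (σu : Lu.H0) (hσu : Lu.IsRegSection σu)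
    (hZu : Lu.zeroIdeal σu (q₁ ⁻¹ᵁ U₀) = kunIdeal Hv hU₀ (univIdealΓ e))
    {Wu' : Yv.Opens} (hWWu : q₁ ⁻¹ᵁ U₀ ⊔ Wu' = ⊤)
    (huu : ∀ i, IsUnit (res (Lu.U i ⊓ Wu') inf_le_left (σu.1 i)))
    {T Y : Scheme.{u}} [KScheme K T] [IsAffine T] {p₁ : Y ⟶ C} {p₂ : Y ⟶ T}
    (H : IsPullback p₁ p₂ (KScheme.str (K := K)) (KScheme.str (K := K)))
    (L : LB Y) (σ : L.H0) (hσ : L.IsRegSection σ)
    {I : Ideal (Γ(T, ⊤) ⊗[K] Γ(C, U₀))} (hI : IsBased v I)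
    (hZ : L.zeroIdeal σ (p₁ ⁻¹ᵁ U₀) = kunIdeal H hU₀ I)
    {W' : Y.Opens} (hWW' : p₁ ⁻¹ᵁ U₀ ⊔ W' = ⊤)
    (hu : ∀ i, IsUnit (res (L.U i ⊓ W') inf_le_left (σ.1 i)))
    {T' Y' : Scheme.{u}} (z : T' ⟶ T) (p₂' : Y' ⟶ T') (ψ : Y' ⟶ Y) (hψ : ψ ≫ p₂ = p₂' ≫ z) :
    SpreadsTo (q₁ := q₁) (q₂ := q₂) Lu H L z p₂' ψ := by
  obtain ⟨b, hb, ψb, hq₁, hq₂, -, D, -⟩ := exists_classifying_iso hU₀ hA he Hv Lu σu hσu hZu hWWu huu
    H L σ hσ hI hZ hWW' hu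
  refine ⟨BaseOpen.refl H, BaseOpen.liftsPoint_refl z p₂' ψ hψ, b, hb, ψb, ?_, hq₂, ⟨?_⟩⟩
  · show ψb ≫ q₁ = 𝟙 Y ≫ p₁
    rw [hq₁, Category.id_comp]
  · show LB.IsoData (Lu.pullback ψb) (L.pullback (𝟙 Y))
    exact D

include hA he in
/-- **Piece 2**: a universal generator which is a unit off `p₁⁻¹U₀`, whose zero ideal is based at the
point ⇒ spreading. -/
theorem spreadsTo_of_isUnivGen_unit_off (hGeom : GeomLFC K hU₀)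
    (Lu : LB Yv) (σu : Lu.H0) (hσu : Lu.IsRegSection σu)
    (hZu : Lu.zeroIdeal σu (q₁ ⁻¹ᵁ U₀) = kunIdeal Hv hU₀ (univIdealΓ e))
    {Wu' : Yv.Opens} (hWWu : q₁ ⁻¹ᵁ U₀ ⊔ Wu' = ⊤)
    (huu : ∀ i, IsUnit (res (Lu.U i ⊓ Wu') inf_le_left (σu.1 i)))
    {T Y : Scheme.{u}} [KScheme K T] [IsAffine T] {p₁ : Y ⟶ C} {p₂ : Y ⟶ T} [IsProper p₂]
    (H : IsPullback p₁ p₂ (KScheme.str (K := K)) (KScheme.str (K := K)))
    (L : LB Y) (σ : L.H0) (hσuniv : IsUnivGen p₂ L σ)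
    {W' : Y.Opens} (hWW' : p₁ ⁻¹ᵁ U₀ ⊔ W' = ⊤)
    (hu : ∀ i, IsUnit (res (L.U i ⊓ W') inf_le_left (σ.1 i)))
    {T' Y' : Scheme.{u}} [KScheme K T'] [IsAffine T'] (hfield : IsField Γ(T', ⊤))
    (z : T' ⟶ T) (hz : z ≫ KScheme.str (K := K) = KScheme.str) (p₂' : Y' ⟶ T') (ψ : Y' ⟶ Y)
    {p₁' : Y' ⟶ C} (hp₁' : ψ ≫ p₁ = p₁')
    (H' : IsPullback p₁' p₂' (KScheme.str (K := K)) (KScheme.str (K := K)))
    (hψ : ψ ≫ p₂ = p₂' ≫ z)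
    (hbased : IsBased v (((L.pullback ψ).zeroIdeal (L.pullbackSection ψ σ)
      (p₁' ⁻¹ᵁ U₀)).comap
      (kunneth H' hU₀ : Γ(T', ⊤) ⊗[K] Γ(C, U₀) →+* Γ(Y', p₁' ⁻¹ᵁ U₀)))) :
    SpreadsTo (q₁ := q₁) (q₂ := q₂) Lu H L z p₂' ψ := by
  -- the geometric local flatness criterion
  have hne : ∀ (κ : Type u) [Field κ] (z'' : Spec (CommRingCat.of κ) ⟶ T) {Yz : Scheme.{u}}
      (ψ'' : Yz ⟶ Y) (qz : Yz ⟶ Spec (CommRingCat.of κ)), IsPullback ψ'' qz p₂ z'' →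
      L.pullbackSection ψ'' σ ≠ 0 := by
    intro κ _ z'' Yz ψ'' qz sq
    haveI : Nontrivial Γ(Spec (CommRingCat.of κ), ⊤) :=
      (Scheme.ΓSpecIso (CommRingCat.of κ)).commRingCatIsoToRingEquiv.toEquiv.nontrivial
    exact hσuniv.pullbackSection_ne_zero sq
  obtain ⟨hreg, I, hZ, hflat, n, h, f, hc⟩ := hGeom H L σ hne hWW' hu
  haveI := hflat
  obtain ⟨f₀, hf₀, hB⟩ := exists_basicOpen_isBased H hU₀ L σ hreg hZ hc hWW' hu hfield z hz p₂' ψ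
    hp₁' H' hψ hbased
  -- restrict to `D(f₀)`
  have hzf : ∀ s, z.base s ∈ T.basicOpen f₀ := mem_basicOpen_of_appTop_ne_zero hfield z f₀ hf₀
  obtain ⟨z₁, ψ', hz₁, hψ', hsq⟩ :=
    BaseOpen.liftsPoint_ofBasicOpen (H := H) f₀ z p₂' ψ hψ hzf
  refine SpreadsTo.of_restrict Lu L (BaseOpen.ofBasicOpen H f₀) hz₁ hψ' ?_
  have hI₁ : IsBased v (I.map (bcMap (A := Γ(C, U₀))
      (appTopAlgHom (BaseOpen.ofBasicOpen H f₀).j (BaseOpen.ofBasicOpen H f₀).hj))) :=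
    hB _ (isUnit_appTop_ι_basicOpen f₀)
  obtain ⟨hreg₁, hZ₁, hcov₁, hu₁⟩ := zeroIdeal_pullback H hU₀ (BaseOpen.ofBasicOpen H f₀).j
    (BaseOpen.ofBasicOpen H f₀).hj (BaseOpen.ofBasicOpen H f₀).p₂₁ (BaseOpen.ofBasicOpen H f₀).ψ₁
    (BaseOpen.ofBasicOpen H f₀).H₁ (BaseOpen.ofBasicOpen H f₀).hψ₁ I hc L σ hreg hZ hWW' hu
  exact spreadsTo_of_isBased hU₀ hA he Hv Lu σu hσu hZu hWWu huu (BaseOpen.ofBasicOpen H f₀).H₁
    (L.pullback (BaseOpen.ofBasicOpen H f₀).ψ₁)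
    (L.pullbackSection (BaseOpen.ofBasicOpen H f₀).ψ₁ σ) hreg₁ hI₁ hZ₁ hcov₁ hu₁ z₁ p₂' ψ' hsq

include hA he in
/-- **Piece 3**: a universal generator over the affine base and a chart section at the point ⇒
spreading. -/
theorem spreadsTo_of_isUnivGen (hGeom : GeomLFC K hU₀)
    (Lu : LB Yv) (σu : Lu.H0) (hσu : Lu.IsRegSection σu)
    (hZu : Lu.zeroIdeal σu (q₁ ⁻¹ᵁ U₀) = kunIdeal Hv hU₀ (univIdealΓ e))
    {Wu' : Yv.Opens} (hWWu : q₁ ⁻¹ᵁ U₀ ⊔ Wu' = ⊤)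
    (huu : ∀ i, IsUnit (res (Lu.U i ⊓ Wu') inf_le_left (σu.1 i)))
    {T Y : Scheme.{u}} [KScheme K T] [IsAffine T] {p₁ : Y ⟶ C} {p₂ : Y ⟶ T} [IsProper p₂]
    (H : IsPullback p₁ p₂ (KScheme.str (K := K)) (KScheme.str (K := K)))
    (L : LB Y) (σ : L.H0) (hσuniv : IsUnivGen p₂ L σ)
    {T' Y' : Scheme.{u}} [KScheme K T'] [IsAffine T'] [Subsingleton T']
    (hfield : IsField Γ(T', ⊤))
    (z : T' ⟶ T) (hz : z ≫ KScheme.str (K := K) = KScheme.str) (p₂' : Y' ⟶ T') (ψ : Y' ⟶ Y)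
    {p₁' : Y' ⟶ C} (hp₁' : ψ ≫ p₁ = p₁')
    (H' : IsPullback p₁' p₂' (KScheme.str (K := K)) (KScheme.str (K := K)))
    (hψ : ψ ≫ p₂ = p₂' ≫ z)
    (σ' : (L.pullback ψ).H0) (hσ' : IsChartSection H' hU₀ v (L.pullback ψ) σ') :
    SpreadsTo (q₁ := q₁) (q₂ := q₂) Lu H L z p₂' ψ := by
  obtain ⟨hgen', ⟨W'z, hWWz, huz⟩, hbased'⟩ := hσ'
  subst hp₁'
  have sq : IsPullback ψ p₂' p₂ z := isPullback_of_products H H' z hz hψ
  -- `ψ^*σ` is a free generator, hence a unit multiple of `σ'`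
  have hgen : IsFreeGen p₂' (L.pullback ψ) (L.pullbackSection ψ σ) :=
    fun τ => hσuniv z ψ p₂' sq inferInstance τ
  obtain ⟨w, hw⟩ := IsFreeGen.exists_unit hgen' hgen
  have hunitw : IsUnit (p₂'.appTop.hom (w : Γ(T', ⊤))) := w.isUnit.map _
  have hnvl : (L.pullback ψ).nonvanishingLocus (L.pullbackSection ψ σ) =
      (L.pullback ψ).nonvanishingLocus σ' := by
    rw [hw, LB.nonvanishingLocus_smul_unit _ _ hunitw]
  have hzi : (L.pullback ψ).zeroIdeal (L.pullbackSection ψ σ) ((ψ ≫ p₁) ⁻¹ᵁ U₀) =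
      (L.pullback ψ).zeroIdeal σ' ((ψ ≫ p₁) ⁻¹ᵁ U₀) := by
    rw [hw, LB.zeroIdeal_smul_unit _ _ _ hunitw]
  have huz' : ∀ i, IsUnit (res ((L.pullback ψ).U i ⊓ W'z) inf_le_left
      ((L.pullbackSection ψ σ).1 i)) :=
    (L.pullback ψ).isUnit_res_of_le_nonvanishingLocus _ (by
      rw [hnvl]
      exact (L.pullback ψ).le_nonvanishingLocus_of_isUnit σ' huz)
  -- Step B
  have hcl : IsClosedMap p₂.base := p₂.isClosedMap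
  obtain ⟨f₂, hzf₂, hle⟩ := exists_basicOpen_unit_off p₂ hcl L σ (p₁ ⁻¹ᵁ U₀) z ψ p₂' sq
    (W'z := W'z) hWWz huz'
  obtain ⟨z₁, ψ', hz₁, hψ', hsq⟩ :=
    BaseOpen.liftsPoint_ofBasicOpen (H := H) f₂ z p₂' ψ hψ hzf₂
  subst hψ'
  refine SpreadsTo.of_restrict Lu L (BaseOpen.ofBasicOpen H f₂) hz₁ rfl ?_
  have huniv₂ : IsUnivGen (BaseOpen.ofBasicOpen H f₂).p₂₁
      (L.pullback (BaseOpen.ofBasicOpen H f₂).ψ₁)
      (L.pullbackSection (BaseOpen.ofBasicOpen H f₂).ψ₁ σ) :=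
    hσuniv.baseChange (BaseOpen.ofBasicOpen H f₂).isPullback
  obtain ⟨hcov₂, hu₂⟩ := L.unit_off_pullback_of_range_le σ (p₁ ⁻¹ᵁ U₀)
    (BaseOpen.ofBasicOpen H f₂).ψ₁ (fun y => hle (by
      show ((p₂ ⁻¹ᵁ T.basicOpen f₂).ι.base y) ∈ p₂ ⁻¹ᵁ T.basicOpen f₂
      exact y.2))
  haveI := (BaseOpen.ofBasicOpen H f₂).isProper_p₂₁
  have hz₁' : z₁ ≫ KScheme.str (K := K) = KScheme.str := by
    rw [← (BaseOpen.ofBasicOpen H f₂).hj, ← Category.assoc, hz₁, hz]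
  exact spreadsTo_of_isUnivGen_unit_off hU₀ hA he Hv hGeom Lu σu hσu hZu hWWu huu
    (BaseOpen.ofBasicOpen H f₂).H₁ (L.pullback (BaseOpen.ofBasicOpen H f₂).ψ₁)
    (L.pullbackSection (BaseOpen.ofBasicOpen H f₂).ψ₁ σ) huniv₂ hcov₂ hu₂ hfield z₁ hz₁' p₂' ψ'
    (Category.assoc _ _ _).symm H' hsq (by
      rw [← hzi] at hbased'
      exact hbased')

include hA he in
/-- **Theorem S.**  `T` affine, `p₂ : C ×_K T ⟶ T` proper, `L` a line bundle on `C ×_K T`; if the chart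
condition holds for `L` at a field-valued point `z`, then over an affine open neighbourhood of the
point the family `L` is the pull-back of the universal family of the Hilbert chart `Hs` along a
`K`-morphism to `Hs`. -/
theorem exists_classifying_nhds (hJ3 : J3UnivGen K U₀ U₁) (hGeom : GeomLFC K hU₀)
    (Lu : LB Yv) (σu : Lu.H0) (hσu : Lu.IsRegSection σu)
    (hZu : Lu.zeroIdeal σu (q₁ ⁻¹ᵁ U₀) = kunIdeal Hv hU₀ (univIdealΓ e))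
    {Wu' : Yv.Opens} (hWWu : q₁ ⁻¹ᵁ U₀ ⊔ Wu' = ⊤)
    (huu : ∀ i, IsUnit (res (Lu.U i ⊓ Wu') inf_le_left (σu.1 i)))
    {T Y : Scheme.{u}} [KScheme K T] [IsAffine T] {p₁ : Y ⟶ C} {p₂ : Y ⟶ T} [IsProper p₂]
    (H : IsPullback p₁ p₂ (KScheme.str (K := K)) (KScheme.str (K := K))) (L : LB Y)
    {T' Y' : Scheme.{u}} [KScheme K T'] [IsAffine T'] [Subsingleton T']
    (hfield : IsField Γ(T', ⊤))
    (z : T' ⟶ T) (hz : z ≫ KScheme.str (K := K) = KScheme.str) (p₂' : Y' ⟶ T') (ψ : Y' ⟶ Y)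
    {p₁' : Y' ⟶ C} (hp₁' : ψ ≫ p₁ = p₁')
    (H' : IsPullback p₁' p₂' (KScheme.str (K := K)) (KScheme.str (K := K)))
    (hψ : ψ ≫ p₂ = p₂' ≫ z)
    (hcc : ChartCond H' hU₀ U₁ v (L.pullback ψ)) :
    SpreadsTo (q₁ := q₁) (q₂ := q₂) Lu H L z p₂' ψ := by
  obtain ⟨h1, σ', hσ'⟩ := hcc
  subst hp₁'
  obtain ⟨f₁, hf₁, σ₁, huniv₁⟩ := hJ3 H L z hz p₂' ψ H' hψ hfield h1 ⟨σ', hσ'.1⟩
  have hzf₁ : ∀ s, z.base s ∈ T.basicOpen f₁ := mem_basicOpen_of_appTop_ne_zero hfield z f₁ hf₁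
  obtain ⟨z₁, ψ', hz₁, hψ', hsq⟩ :=
    BaseOpen.liftsPoint_ofBasicOpen (H := H) f₁ z p₂' ψ hψ hzf₁
  subst hψ'
  refine SpreadsTo.of_restrict Lu L (BaseOpen.ofBasicOpen H f₁) hz₁ rfl ?_
  haveI := (BaseOpen.ofBasicOpen H f₁).isProper_p₂₁
  have hz₁' : z₁ ≫ KScheme.str (K := K) = KScheme.str := by
    rw [← (BaseOpen.ofBasicOpen H f₁).hj, ← Category.assoc, hz₁, hz]
  exact spreadsTo_of_isUnivGen hU₀ hA he Hv hGeom Lu σu hσu hZu hWWu huu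
    (BaseOpen.ofBasicOpen H f₁).H₁ (L.pullback (BaseOpen.ofBasicOpen H f₁).ψ₁) σ₁ huniv₁ hfield
    z₁ hz₁' p₂' ψ' (Category.assoc _ _ _).symm H' hsq σ' hσ'

end main

end

end Fermat.Agent.JAC
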