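/-
PROJECT JAC (S25) — helper5 — (P): **valid affine opens of the Hilbert chart.**

An affine open `E` of the Hilbert chart `Hs` is *valid* if, over `E`, the Čech `H¹` of the universal
bundle vanishes and the universal section is a universal generator of `H⁰`.

* `HilbValid.chartCond` : over a valid open, the chart condition holds after every affine base
  change, with the pull-back of the universal section as chart section;
* `exists_hilbValid_nhds` : a field-valued point of `Hs` at which the chart condition holds has a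
  valid basic open neighbourhood (inside any given open neighbourhood).
-/
import Mathlib
import Fermat.Agent.JAC.P_helper5_Inputs
import Fermat.Agent.JAC.P_helper5_IsoTransport

set_option autoImplicit false
set_option linter.style.haveILetI false
set_option linter.unusedSectionVars false

open AlgebraicGeometry CategoryTheory CategoryTheory.Limits Opposite TopologicalSpace TensorProduct

universe u

namespace Fermat.Agent.JAC

open Fermat.Agent.AV Fermat.Agent.AV.CP HilbAlg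

noncomputable section

/-! ### general lemmas -/

/-- a regular section is nonzero as soon as some section is nonzero. -/
theorem isRegSection_ne_zero {Y : Scheme.{u}} {L : LB Y} {σ : L.H0} (hreg : L.IsRegSection σ)
    (τ : L.H0) (hτ : τ ≠ 0) : σ ≠ 0 := by
  intro h0
  apply hτ
  apply Subtype.ext
  funext i
  have h1 : res (L.U i) le_rfl (σ.1 i) * τ.1 i = 0 := by
    rw [h0]
    show res (L.U i) le_rfl (0 : Γ(Y, L.U i)) * τ.1 i = 0
    rw [map_zero, zero_mul]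
  exact hreg i (L.U i) le_rfl (τ.1 i) h1

/-- the restriction squares of a morphism to two nested opens of the target form a cartesian
square. -/
theorem isPullback_homOfLE_morphismRestrict {Y T : Scheme.{u}} (p : Y ⟶ T) {O O' : T.Opens}
    (h : O' ≤ O) :
    IsPullback (Y.homOfLE ((Opens.map p.base).monotone h)) (p ∣_ O') (p ∣_ O) (T.homOfLE h) := by
  have hout : IsPullback (p ⁻¹ᵁ O').ι (p ∣_ O') p O'.ι := (isPullback_morphismRestrict p O').flip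
  have hright : IsPullback (p ⁻¹ᵁ O).ι (p ∣_ O) p O.ι := (isPullback_morphismRestrict p O).flip
  refine IsPullback.of_right ?_ ?_ hright
  · rw [Scheme.homOfLE_ι, Scheme.homOfLE_ι]
    exact hout
  · rw [← cancel_mono O.ι, Category.assoc, Category.assoc, morphismRestrict_ι, Scheme.homOfLE_ι,
      ← Category.assoc, Scheme.homOfLE_ι, morphismRestrict_ι]

/-- a universal generator over an open of the base restricts to a universal generator over a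
smaller open. -/
theorem IsUnivGen.exists_of_le {Y T : Scheme.{u}} {p : Y ⟶ T} {L : LB Y} {O O' : T.Opens}
    (h : O' ≤ O) {σ : (L.pullback (p ⁻¹ᵁ O).ι).H0}
    (hσ : IsUnivGen (p ∣_ O) (L.pullback (p ⁻¹ᵁ O).ι) σ) :
    ∃ σ' : (L.pullback (p ⁻¹ᵁ O').ι).H0,
      IsUnivGen (p ∣_ O') (L.pullback (p ⁻¹ᵁ O').ι) σ' := by
  have sq := isPullback_homOfLE_morphismRestrict p h
  have h1 := hσ.baseChange sq
  have key : ∀ (φ : (p ⁻¹ᵁ O').toScheme ⟶ Y),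
      Y.homOfLE ((Opens.map p.base).monotone h) ≫ (p ⁻¹ᵁ O).ι = φ →
      ∃ σ' : (L.pullback φ).H0, IsUnivGen (p ∣_ O') (L.pullback φ) σ' := by
    intro φ hφ
    subst hφ
    exact ⟨_, h1⟩
  exact key _ (Scheme.homOfLE_ι _ _)

variable {K : Type u} [Field K] {C : Scheme.{u}} [KScheme K C]

section main

variable [IsAlgClosed K] {U₀ : C.Opens} (hU₀ : IsAffineOpen U₀) (U₁ : C.Opens)
  [IsDomain Γ(C, U₀)] [Algebra.FiniteType K Γ(C, U₀)]
  (hA : ∀ (𝔫 : Ideal Γ(C, U₀)) [𝔫.IsMaximal], IsDiscreteValuationRing (Localization.AtPrime 𝔫))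
  {g : ℕ} {v : Fin g → Γ(C, U₀)} {Hs Yv : Scheme.{u}} [KScheme K Hs] [IsAffine Hs]
  {e : HilbRing K Γ(C, U₀) g v →ₐ[K] Γ(Hs, ⊤)}
  {q₁ : Yv ⟶ C} {q₂ : Yv ⟶ Hs}
  (Hv : IsPullback q₁ q₂ (KScheme.str (K := K)) (KScheme.str (K := K)))

include hA in
/-- base change of the universal pair along a `K`-morphism into the Hilbert chart (a variant of
`zeroIdeal_pullback_of_isBased` with a free name for the first projection). -/
theorem zeroIdeal_pullback_univ (Lu : LB Yv) (σu : Lu.H0) (hσu : Lu.IsRegSection σu)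
    (hZu : Lu.zeroIdeal σu (q₁ ⁻¹ᵁ U₀) = kunIdeal Hv hU₀ (univIdealΓ e))
    {Wu' : Yv.Opens} (hWWu : q₁ ⁻¹ᵁ U₀ ⊔ Wu' = ⊤)
    (huu : ∀ i, IsUnit (res (Lu.U i ⊓ Wu') inf_le_left (σu.1 i)))
    {T' Y' : Scheme.{u}} [KScheme K T'] [IsAffine T'] (φ : T' ⟶ Hs)
    (hφ : φ ≫ KScheme.str (K := K) = KScheme.str) (p₂' : Y' ⟶ T') (ψ : Y' ⟶ Yv)
    {p₁' : Y' ⟶ C} (hp₁' : ψ ≫ q₁ = p₁')
    (H' : IsPullback p₁' p₂' (KScheme.str (K := K)) (KScheme.str (K := K)))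
    (hψ : ψ ≫ q₂ = p₂' ≫ φ) :
    (Lu.pullback ψ).IsRegSection (Lu.pullbackSection ψ σu) ∧
    (Lu.pullback ψ).zeroIdeal (Lu.pullbackSection ψ σu) (p₁' ⁻¹ᵁ U₀) =
      kunIdeal H' hU₀ ((univIdealΓ e).map (bcMap (A := Γ(C, U₀)) (appTopAlgHom φ hφ))) ∧
    p₁' ⁻¹ᵁ U₀ ⊔ ψ ⁻¹ᵁ Wu' = ⊤ ∧
    ∀ i, IsUnit (res ((Lu.pullback ψ).U i ⊓ ψ ⁻¹ᵁ Wu') inf_le_left
      ((Lu.pullbackSection ψ σu).1 i)) := by
  subst hp₁'
  exact zeroIdeal_pullback_of_isBased Hv hU₀ hA φ hφ p₂' ψ H' hψ (isBased_univIdealΓ e) Lu σu hσu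
    hZu hWWu huu

/-- **validity** of an affine open `E` of the Hilbert chart: over `E`, `H¹` of the universal bundle
vanishes and the universal section is a universal generator. -/
structure HilbValid (U₀ U₁ : C.Opens) (Lu : LB Yv) (σu : Lu.H0) (E : BaseOpen Hv) : Prop where
  h1 : CBC.H1Vanishes (Lu.pullback E.ψ₁) ((E.ψ₁ ≫ q₁) ⁻¹ᵁ U₀) ((E.ψ₁ ≫ q₁) ⁻¹ᵁ U₁)
  gen : IsUnivGen E.p₂₁ (Lu.pullback E.ψ₁) (Lu.pullbackSection E.ψ₁ σu)

include hA in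
/-- over an affine open of the Hilbert chart over which `H⁰` has a universal generator, the
universal section is a universal generator (it is nonzero on every fibre). -/
theorem isUnivGen_pullbackSection_of_exists (Lu : LB Yv) (σu : Lu.H0) (hσu : Lu.IsRegSection σu)
    (hZu : Lu.zeroIdeal σu (q₁ ⁻¹ᵁ U₀) = kunIdeal Hv hU₀ (univIdealΓ e))
    {Wu' : Yv.Opens} (hWWu : q₁ ⁻¹ᵁ U₀ ⊔ Wu' = ⊤)
    (huu : ∀ i, IsUnit (res (Lu.U i ⊓ Wu') inf_le_left (σu.1 i)))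
    (E : BaseOpen Hv) (σ₁ : (Lu.pullback E.ψ₁).H0)
    (h₁ : IsUnivGen E.p₂₁ (Lu.pullback E.ψ₁) σ₁) :
    IsUnivGen E.p₂₁ (Lu.pullback E.ψ₁) (Lu.pullbackSection E.ψ₁ σu) := by
  refine IsUnivGen.of_fibrewise_ne_zero h₁ _ (fun x => ?_)
  set z := E.T₁.fromSpecResidueField x with hz
  letI : KScheme K (Spec (E.T₁.residueField x)) := ⟨z ≫ KScheme.str (K := K)⟩
  have hzK : z ≫ KScheme.str (K := K) (X := E.T₁) = KScheme.str := rfl
  have hφ : (z ≫ E.j) ≫ KScheme.str (K := K) = KScheme.str := by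
    rw [Category.assoc, E.hj]
    exact hzK
  have H'' : IsPullback ((pullback.fst E.p₂₁ z ≫ E.ψ₁) ≫ q₁) (pullback.snd E.p₂₁ z)
      (KScheme.str (K := K)) (KScheme.str (K := K)) := by
    have h2 := (IsPullback.of_hasPullback E.p₂₁ z).paste_horiz E.H₁
    rw [Category.assoc]
    exact h2
  have hψ : (pullback.fst E.p₂₁ z ≫ E.ψ₁) ≫ q₂ = pullback.snd E.p₂₁ z ≫ (z ≫ E.j) := by
    rw [Category.assoc, E.hψ₁, ← Category.assoc, pullback.condition, Category.assoc]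
  obtain ⟨hreg, -, -, -⟩ := zeroIdeal_pullback_univ hU₀ hA Hv Lu σu hσu hZu hWWu huu (z ≫ E.j) hφ
    (pullback.snd E.p₂₁ z) (pullback.fst E.p₂₁ z ≫ E.ψ₁) rfl H'' hψ
  haveI : Nontrivial Γ(Spec (E.T₁.residueField x), ⊤) :=
    (Scheme.ΓSpecIso (E.T₁.residueField x)).commRingCatIsoToRingEquiv.toEquiv.nontrivial
  have hne : (Lu.pullback E.ψ₁).pullbackSection (pullback.fst E.p₂₁ z) σ₁ ≠ 0 :=
    h₁.pullbackSection_ne_zero (IsPullback.of_hasPullback E.p₂₁ z)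
  exact isRegSection_ne_zero (L := (Lu.pullback E.ψ₁).pullback (pullback.fst E.p₂₁ z)) hreg _ hne

omit [IsAlgClosed K] [IsDomain Γ(C, U₀)] [Algebra.FiniteType K Γ(C, U₀)] [IsAffine Hs] in
/-- over a valid open, the pull-back of the universal section along every affine base change is a
universal generator. -/
theorem HilbValid.isUnivGen_pullback (Lu : LB Yv) (σu : Lu.H0)
    {E : BaseOpen Hv} (hv : HilbValid Hv U₀ U₁ Lu σu E)
    {T' Y' : Scheme.{u}} [KScheme K T'] (φ : T' ⟶ Hs)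
    (hφ : φ ≫ KScheme.str (K := K) = KScheme.str) (p₂' : Y' ⟶ T') (ψ : Y' ⟶ Yv)
    {p₁' : Y' ⟶ C} (hp₁' : ψ ≫ q₁ = p₁')
    (H' : IsPullback p₁' p₂' (KScheme.str (K := K)) (KScheme.str (K := K)))
    (hlift : E.LiftsPoint φ p₂' ψ) :
    IsUnivGen p₂' (Lu.pullback ψ) (Lu.pullbackSection ψ σu) := by
  subst hp₁'
  obtain ⟨b₀, ψ₀, hb₀, hψ₀, hsq⟩ := hlift
  subst hψ₀
  subst hb₀
  have hb₀K : b₀ ≫ KScheme.str (K := K) = KScheme.str := by
    rw [← E.hj, ← Category.assoc]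
    exact hφ
  have H'' : IsPullback (ψ₀ ≫ E.ψ₁ ≫ q₁) p₂' (KScheme.str (K := K)) (KScheme.str (K := K)) := by
    rw [← Category.assoc]
    exact H'
  have sq : IsPullback ψ₀ p₂' E.p₂₁ b₀ := isPullback_of_products E.H₁ H'' b₀ hb₀K hsq
  exact hv.gen.baseChange sq

include hA in
/-- **over a valid open, the chart condition holds after every affine base change**, with the
pull-back of the universal section as (regular) chart section. -/
theorem HilbValid.chartCond (hH1 : H1Locus K U₀ U₁) (Lu : LB Yv) (σu : Lu.H0)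
    (hσu : Lu.IsRegSection σu)
    (hZu : Lu.zeroIdeal σu (q₁ ⁻¹ᵁ U₀) = kunIdeal Hv hU₀ (univIdealΓ e))
    {Wu' : Yv.Opens} (hWWu : q₁ ⁻¹ᵁ U₀ ⊔ Wu' = ⊤)
    (huu : ∀ i, IsUnit (res (Lu.U i ⊓ Wu') inf_le_left (σu.1 i)))
    {E : BaseOpen Hv} (hv : HilbValid Hv U₀ U₁ Lu σu E)
    {T' Y' : Scheme.{u}} [KScheme K T'] [IsAffine T'] (φ : T' ⟶ Hs)
    (hφ : φ ≫ KScheme.str (K := K) = KScheme.str) (p₂' : Y' ⟶ T') (ψ : Y' ⟶ Yv)
    {p₁' : Y' ⟶ C} (hp₁' : ψ ≫ q₁ = p₁')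
    (H' : IsPullback p₁' p₂' (KScheme.str (K := K)) (KScheme.str (K := K)))
    (hψ : ψ ≫ q₂ = p₂' ≫ φ) (hlift : E.LiftsPoint φ p₂' ψ) :
    ChartCond H' hU₀ U₁ v (Lu.pullback ψ) ∧
      (Lu.pullback ψ).IsRegSection (Lu.pullbackSection ψ σu) ∧
      IsChartSection H' hU₀ v (Lu.pullback ψ) (Lu.pullbackSection ψ σu) ∧
      IsUnivGen p₂' (Lu.pullback ψ) (Lu.pullbackSection ψ σu) := by
  obtain ⟨hreg, hzero, hcov, hunit⟩ := zeroIdeal_pullback_univ hU₀ hA Hv Lu σu hσu hZu hWWu huu φ hφ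
    p₂' ψ hp₁' H' hψ
  subst hp₁'
  obtain ⟨b₀, ψ₀, hb₀, hψ₀, hsq⟩ := hlift
  subst hψ₀
  subst hb₀
  have hb₀K : b₀ ≫ KScheme.str (K := K) = KScheme.str := by
    rw [← E.hj, ← Category.assoc]
    exact hφ
  have H'' : IsPullback (ψ₀ ≫ E.ψ₁ ≫ q₁) p₂' (KScheme.str (K := K)) (KScheme.str (K := K)) := by
    rw [← Category.assoc]
    exact H'
  have sq : IsPullback ψ₀ p₂' E.p₂₁ b₀ := isPullback_of_products E.H₁ H'' b₀ hb₀K hsq
  have huniv : IsUnivGen p₂' (Lu.pullback (ψ₀ ≫ E.ψ₁)) (Lu.pullbackSection (ψ₀ ≫ E.ψ₁) σu) :=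
    hv.gen.baseChange sq
  have hgen : ∀ τ : (Lu.pullback (ψ₀ ≫ E.ψ₁)).H0, ∃! b : Γ(T', ⊤),
      τ = p₂'.appTop.hom b • Lu.pullbackSection (ψ₀ ≫ E.ψ₁) σu := fun τ =>
    huniv.exists_unique_smul τ
  have hcs : IsChartSection H' hU₀ v (Lu.pullback (ψ₀ ≫ E.ψ₁))
      (Lu.pullbackSection (ψ₀ ≫ E.ψ₁) σu) := by
    refine ⟨hgen, ⟨_, hcov, hunit⟩, ?_⟩
    rw [comap_zeroIdeal_of_eq_kunIdeal H' hU₀ _ _ hzero]
    exact isBased_map_bcMap (b₀ ≫ E.j) hφ (isBased_univIdealΓ e)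
  refine ⟨⟨?_, _, hcs⟩, hreg, hcs, huniv⟩
  obtain ⟨O, hO⟩ := hH1 Hv Lu
  have h1 : Set.range E.j.base ⊆ (O : Set Hs) := (hO E.j E.hj E.p₂₁ E.ψ₁ E.H₁ E.hψ₁).mp hv.h1
  refine (hO (b₀ ≫ E.j) hφ p₂' (ψ₀ ≫ E.ψ₁) H' hψ).mpr ?_
  rintro _ ⟨s, rfl⟩
  exact h1 ⟨b₀.base s, rfl⟩

include hA in
/-- **a field-valued point of the Hilbert chart at which the chart condition holds has a valid basic
open neighbourhood**, inside any given open neighbourhood `O`. -/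
theorem exists_hilbValid_nhds (hJ3 : J3UnivGen K U₀ U₁) (hH1 : H1Locus K U₀ U₁) (Lu : LB Yv)
    (σu : Lu.H0) (hσu : Lu.IsRegSection σu)
    (hZu : Lu.zeroIdeal σu (q₁ ⁻¹ᵁ U₀) = kunIdeal Hv hU₀ (univIdealΓ e))
    {Wu' : Yv.Opens} (hWWu : q₁ ⁻¹ᵁ U₀ ⊔ Wu' = ⊤)
    (huu : ∀ i, IsUnit (res (Lu.U i ⊓ Wu') inf_le_left (σu.1 i)))
    {T' Y' : Scheme.{u}} [KScheme K T'] [IsAffine T'] [Nonempty T']
    (hfield : IsField Γ(T', ⊤)) (φ : T' ⟶ Hs)
    (hφ : φ ≫ KScheme.str (K := K) = KScheme.str) (p₂' : Y' ⟶ T') (ψ : Y' ⟶ Yv)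
    {p₁' : Y' ⟶ C} (hp₁' : ψ ≫ q₁ = p₁')
    (H' : IsPullback p₁' p₂' (KScheme.str (K := K)) (KScheme.str (K := K)))
    (hψ : ψ ≫ q₂ = p₂' ≫ φ) (hcc : ChartCond H' hU₀ U₁ v (Lu.pullback ψ))
    (O : Hs.Opens) (hO : ∀ s : T', φ.base s ∈ O) :
    ∃ r : Γ(Hs, ⊤), φ.appTop.hom r ≠ 0 ∧ Hs.basicOpen r ≤ O ∧
      HilbValid Hv U₀ U₁ Lu σu (BaseOpen.ofBasicOpen Hv r) := by
  subst hp₁'
  obtain ⟨O₁, hO₁⟩ := hH1 Hv Lu
  have hφO₁ : Set.range φ.base ⊆ (O₁ : Set Hs) := (hO₁ φ hφ p₂' ψ H' hψ).mp hcc.h1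
  obtain ⟨σ', hσ'⟩ := hcc.ex
  obtain ⟨f₁, hf₁, σ₁, huniv₁⟩ := hJ3 Hv Lu φ hφ p₂' ψ H' hψ hfield hcc.h1 ⟨σ', hσ'.1⟩
  obtain ⟨s⟩ := (inferInstance : Nonempty T')
  have hmem : φ.base s ∈ O ⊓ O₁ ⊓ Hs.basicOpen f₁ :=
    ⟨⟨hO s, hφO₁ ⟨s, rfl⟩⟩, mem_basicOpen_of_appTop_ne_zero hfield φ f₁ hf₁ s⟩
  obtain ⟨r, hr1, hr2⟩ := (isAffineOpen_top Hs).exists_basicOpen_le
    (V := O ⊓ O₁ ⊓ Hs.basicOpen f₁) ⟨φ.base s, hmem⟩ trivial
  refine ⟨r, ?_, hr1.trans (inf_le_left.trans inf_le_left), ⟨?_, ?_⟩⟩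
  · intro h0
    have h1 : s ∈ φ ⁻¹ᵁ Hs.basicOpen r := hr2
    rw [Scheme.preimage_basicOpen] at h1
    have h2 : T'.basicOpen ((φ.app ⊤).hom r) = ⊥ := by
      have : (φ.app ⊤).hom r = 0 := h0
      rw [this, Scheme.basicOpen_zero]
    rw [h2] at h1
    exact h1
  · refine (hO₁ (BaseOpen.ofBasicOpen Hv r).j (BaseOpen.ofBasicOpen Hv r).hj
      (BaseOpen.ofBasicOpen Hv r).p₂₁ (BaseOpen.ofBasicOpen Hv r).ψ₁
      (BaseOpen.ofBasicOpen Hv r).H₁ (BaseOpen.ofBasicOpen Hv r).hψ₁).mpr ?_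
    show Set.range (Hs.basicOpen r).ι.base ⊆ (O₁ : Set Hs)
    rw [Scheme.Opens.range_ι]
    exact fun y hy => (hr1 hy).1.2
  · obtain ⟨σ₂, h₂⟩ := huniv₁.exists_of_le (O' := Hs.basicOpen r) (hr1.trans inf_le_right)
    exact isUnivGen_pullbackSection_of_exists hU₀ hA Hv Lu σu hσu hZu hWWu huu
      (BaseOpen.ofBasicOpen Hv r) σ₂ h₂

end main

end

end Fermat.Agent.JAC
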