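/-
PROJECT JAC / S27 — (TAN), helper8.

`TAN_helper8_Points`: points of a `K`-scheme `J` with values in `K`-algebras, through an affine
chart `ι : Spec B ⟶ J`: a `K`-algebra homomorphism `B → R` is an `R`-point of `J`, and every
`R`-point landing in the chart is of this form.  For `R = K ⊕ M` (square zero) a point which
reduces into the chart lands in the chart.
-/
import Mathlib
import Fermat.Prelude.Def_AlgebraicGeometry_RelativeGroupLaw
import Fermat.Agent.JAC.TAN_helper8_Alg

set_option autoImplicit false

open AlgebraicGeometry CategoryTheory NeronModelInfra GoodReductionJacobian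

universe u

namespace Fermat.Agent.JAC.TAN

noncomputable section

section SpecAlg

variable (K : Type u) [CommRing K]

/-- the structure morphism of the spectrum of a `K`-algebra -/
def specStr (R : Type u) [CommRing R] [Algebra K R] :
    Spec (CommRingCat.of R) ⟶ Spec (CommRingCat.of K) :=
  Spec.map (CommRingCat.ofHom (algebraMap K R))

variable {K}
variable {R R' R'' : Type u} [CommRing R] [CommRing R'] [CommRing R''] [Algebra K R]
  [Algebra K R'] [Algebra K R'']

/-- `Spec` of a homomorphism of `K`-algebras -/
def specMap (f : R →ₐ[K] R') : Spec (CommRingCat.of R') ⟶ Spec (CommRingCat.of R) :=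
  Spec.map (CommRingCat.ofHom f.toRingHom)

lemma specMap_specStr (f : R →ₐ[K] R') : specMap f ≫ specStr K R = specStr K R' := by
  unfold specMap specStr
  rw [← Spec.map_comp, ← CommRingCat.ofHom_comp]
  have h : f.toRingHom.comp (algebraMap K R) = algebraMap K R' := RingHom.ext fun c => f.commutes c
  rw [h]

lemma specMap_comp (f : R →ₐ[K] R') (g : R' →ₐ[K] R'') :
    specMap (g.comp f) = specMap g ≫ specMap f := by
  unfold specMap
  rw [← Spec.map_comp, ← CommRingCat.ofHom_comp]
  rfl

lemma specMap_injective : Function.Injective (specMap : (R →ₐ[K] R') → _) := by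
  intro f g h
  have h1 := Spec.map_injective h
  apply AlgHom.coe_ringHom_injective
  exact congrArg CommRingCat.Hom.hom h1

lemma specStr_self : specStr K K = 𝟙 _ := by
  unfold specStr
  rw [Algebra.algebraMap_self]
  exact Spec.map_id _

end SpecAlg

section Chart

variable {K : Type u} [CommRing K] {J : Scheme.{u}} (j : J ⟶ Spec (CommRingCat.of K))
  {B : Type u} [CommRing B] [Algebra K B] (ι : Spec (CommRingCat.of B) ⟶ J)
  (hι : ι ≫ j = specStr K B)
  {R R' : Type u} [CommRing R] [CommRing R'] [Algebra K R] [Algebra K R']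

/-- the point of `J` defined by a `K`-algebra homomorphism out of the coordinate ring of the
chart -/
def algPt (φ : B →ₐ[K] R) : SchemeHomOver (specStr K R) j :=
  ⟨specMap φ ≫ ι, by rw [Category.assoc, hι, specMap_specStr]⟩

lemma algPt_coe (φ : B →ₐ[K] R) : (algPt j ι hι φ).1 = specMap φ ≫ ι := rfl

lemma algPt_comp (φ : B →ₐ[K] R) (f : R →ₐ[K] R') :
    algPt j ι hι (f.comp φ) =
      schemeHomOverComp (specMap f) (specMap_specStr f) (algPt j ι hι φ) := by
  apply Subtype.ext
  show specMap (f.comp φ) ≫ ι = specMap f ≫ specMap φ ≫ ι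
  rw [specMap_comp, Category.assoc]

lemma algPt_injective [Mono ι] : Function.Injective (algPt j ι hι (R := R)) := by
  intro φ ψ h
  have h1 : specMap φ ≫ ι = specMap ψ ≫ ι := congrArg Subtype.val h
  exact specMap_injective ((cancel_mono ι).mp h1)

include hι in
lemma exists_algHom_of_range_subset [IsOpenImmersion ι] (t : Spec (CommRingCat.of R) ⟶ J)
    (ht : t ≫ j = specStr K R) (h : Set.range t ⊆ Set.range ι) :
    ∃ φ : B →ₐ[K] R, specMap φ ≫ ι = t := by
  have hl : IsOpenImmersion.lift ι t h ≫ ι = t := IsOpenImmersion.lift_fac ι t h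
  obtain ⟨φ₀, hφ₀⟩ := Spec.map_surjective (IsOpenImmersion.lift ι t h)
  have hcomm : φ₀.hom.comp (algebraMap K B) = algebraMap K R := by
    have h1 : Spec.map (CommRingCat.ofHom (algebraMap K B) ≫ φ₀) =
        Spec.map (CommRingCat.ofHom (algebraMap K R)) := by
      rw [Spec.map_comp, hφ₀]
      show IsOpenImmersion.lift ι t h ≫ specStr K B = specStr K R
      rw [← hι, ← Category.assoc, hl, ht]
    have h2 := Spec.map_injective h1
    exact congrArg CommRingCat.Hom.hom h2
  refine ⟨{ φ₀.hom with commutes' := fun c => congrArg (fun f => f c) hcomm }, ?_⟩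
  rw [← hl, ← hφ₀]
  rfl

end Chart

section SqZero

variable (K : Type u) [Field K] (M : Type u) [AddCommGroup M] [Module K M] [Module Kᵐᵒᵖ M]
  [IsCentralScalar K M]

/-- the closed point of the spectrum of `K ⊕ M` -/
def redT : Spec (CommRingCat.of K) ⟶ Spec (CommRingCat.of (TrivSqZeroExt K M)) :=
  specMap (TrivSqZeroExt.fstHom K K M)

lemma redT_specStr : redT K M ≫ specStr K (TrivSqZeroExt K M) = 𝟙 _ := by
  unfold redT
  rw [specMap_specStr, specStr_self]

lemma redT_surjective : Function.Surjective (redT K M).base := by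
  have h := PrimeSpectrum.isHomeomorph_comap (TrivSqZeroExt.fstHom K K M).toRingHom
    (fun x => ⟨1, Nat.one_pos, ⟨TrivSqZeroExt.inl x, by simp⟩⟩)
    (by
      intro x hx
      rw [RingHom.mem_ker] at hx
      rw [mem_nilradical]
      refine ⟨2, ?_⟩
      have hx' : x.fst = 0 := hx
      apply TrivSqZeroExt.ext
      · simp [pow_two, hx']
      · simp [pow_two, hx'])
  exact h.surjective

end SqZero

end

end Fermat.Agent.JAC.TAN
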