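/-
PROJECT JAC (S27) — (TRANSPORT), layer 4 (helper7): **transport of `IsCurveOver`,
`Algebra.EssFiniteType`, and the universe wrapper for S27.**
`σ : K ≃+* K'`, `φ : F ≃+* F'`, `hφ : ∀ a, φ (algebraMap K F a) = algebraMap K' F' (σ a)`.
* `kaehler_cyclic_of_square`, `kaehler_subsingleton_of_square` (commutative squares with surjective
  top map), `finrank_kaehler_eq_one_of_equiv`;
* `essFiniteType_of_equiv`, `hasPrincipalDivisors_of_equiv`, **`isCurveOver_of_equiv`**;
* `isAlgClosed_of_ringEquiv'` (two universes);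
* **`result_of_same_universe`** : the frozen S27 statement for `K : Type u₁`, `F : Type u₂` follows
  from the same statement for all pairs of fields in `Type (max u₁ u₂)` (applied to `ULift K`,
  `ULift F`).
-/
import Mathlib
import Fermat.Agent.JAC.TR_helper7_Genus

set_option autoImplicit false
set_option linter.style.haveILetI false

open AlgebraicCurve IsDedekindDomain WithZero IsLocalRing KaehlerDifferential

namespace Fermat.Agent.JAC.TR

noncomputable section

section KaehlerSquare

variable {R S A B : Type*} [CommRing R] [CommRing S] [CommRing A] [CommRing B]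
  [Algebra R S] [Algebra R A] [Algebra A B] [Algebra S B] [Algebra R B] [IsScalarTower R A B]
  [IsScalarTower R S B] [SMulCommClass S A B]

/-- in a commutative square with surjective top map, a cyclic module of differentials stays
cyclic. -/
theorem kaehler_cyclic_of_square (h : Function.Surjective (algebraMap A B))
    (hc : ∃ ω : Ω[A⁄R], ∀ x : Ω[A⁄R], ∃ c : A, x = c • ω) :
    ∃ ω' : Ω[B⁄S], ∀ y : Ω[B⁄S], ∃ c' : B, y = c' • ω' := by
  obtain ⟨ω, hω⟩ := hc
  refine ⟨KaehlerDifferential.map R S A B ω, fun y => ?_⟩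
  obtain ⟨x, rfl⟩ := KaehlerDifferential.map_surjective_of_surjective R S A B h y
  obtain ⟨c, rfl⟩ := hω x
  exact ⟨algebraMap A B c, by rw [map_smul, algebraMap_smul]⟩

/-- in a commutative square with surjective top map, a trivial module of differentials stays
trivial. -/
theorem kaehler_subsingleton_of_square (h : Function.Surjective (algebraMap A B))
    [Subsingleton Ω[A⁄R]] : Subsingleton Ω[B⁄S] :=
  (KaehlerDifferential.map_surjective_of_surjective R S A B h).subsingleton

end KaehlerSquare

variable {K F K' F' : Type*} [Field K] [Field F] [Algebra K F] [Field K'] [Field F']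
  [Algebra K' F'] (σ : K ≃+* K') (φ : F ≃+* F')
  (hφ : ∀ a : K, φ (algebraMap K F a) = algebraMap K' F' (σ a))

include σ φ hφ in
theorem kaehler_cyclic_of_equiv (hc : ∃ ω : Ω[F⁄K], ∀ x : Ω[F⁄K], ∃ c : F, x = c • ω) :
    ∃ ω' : Ω[F'⁄K'], ∀ y : Ω[F'⁄K'], ∃ c' : F', y = c' • ω' := by
  letI : Algebra K K' := σ.toRingHom.toAlgebra
  letI : Algebra F F' := φ.toRingHom.toAlgebra
  letI : Algebra K F' := ((algebraMap F F').comp (algebraMap K F)).toAlgebra
  haveI : IsScalarTower K F F' := IsScalarTower.of_algebraMap_eq fun _ => rfl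
  haveI : IsScalarTower K K' F' := IsScalarTower.of_algebraMap_eq fun a => hφ a
  haveI : SMulCommClass K' F F' := ⟨fun s a b => by
    rw [Algebra.smul_def, Algebra.smul_def, Algebra.smul_def, Algebra.smul_def]
    ring⟩
  exact kaehler_cyclic_of_square (R := K) (S := K') (A := F) (B := F') φ.surjective hc

include σ φ hφ in
theorem kaehler_subsingleton_of_equiv [Subsingleton Ω[F⁄K]] : Subsingleton Ω[F'⁄K'] := by
  letI : Algebra K K' := σ.toRingHom.toAlgebra
  letI : Algebra F F' := φ.toRingHom.toAlgebra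
  letI : Algebra K F' := ((algebraMap F F').comp (algebraMap K F)).toAlgebra
  haveI : IsScalarTower K F F' := IsScalarTower.of_algebraMap_eq fun _ => rfl
  haveI : IsScalarTower K K' F' := IsScalarTower.of_algebraMap_eq fun a => hφ a
  haveI : SMulCommClass K' F F' := ⟨fun s a b => by
    rw [Algebra.smul_def, Algebra.smul_def, Algebra.smul_def, Algebra.smul_def]
    ring⟩
  exact kaehler_subsingleton_of_square (R := K) (S := K') (A := F) (B := F') φ.surjective

include σ φ hφ in
/-- **the rank of the module of differentials is transported** (rank one case). -/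
theorem finrank_kaehler_eq_one_of_equiv (h : Module.finrank F Ω[F⁄K] = 1) :
    Module.finrank F' Ω[F'⁄K'] = 1 := by
  obtain ⟨ω, hω0, hω⟩ := finrank_eq_one_iff'.mp h
  obtain ⟨ω', hω'⟩ := kaehler_cyclic_of_equiv σ φ hφ
    ⟨ω, fun x => by obtain ⟨c, hc⟩ := hω x; exact ⟨c, hc.symm⟩⟩
  have hne : ω' ≠ 0 := by
    intro h0
    haveI : Subsingleton Ω[F'⁄K'] := ⟨fun y z => by
      obtain ⟨c, rfl⟩ := hω' y
      obtain ⟨d, rfl⟩ := hω' z
      rw [h0, smul_zero, smul_zero]⟩
    haveI : Subsingleton Ω[F⁄K] :=
      kaehler_subsingleton_of_equiv σ.symm φ.symm (symm_compat σ φ hφ)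
    exact hω0 (Subsingleton.elim _ _)
  exact finrank_eq_one_iff'.mpr ⟨ω', hne, fun y => by
    obtain ⟨c, hc⟩ := hω' y
    exact ⟨c, hc.symm⟩⟩

include σ φ hφ in
/-- essential finiteness is transported. -/
theorem essFiniteType_of_equiv [Algebra.EssFiniteType K F] : Algebra.EssFiniteType K' F' := by
  letI : Algebra K K' := σ.toRingHom.toAlgebra
  letI : Algebra K F' := ((algebraMap K' F').comp (algebraMap K K')).toAlgebra
  haveI : IsScalarTower K K' F' := IsScalarTower.of_algebraMap_eq fun _ => rfl
  let ψ : F ≃ₐ[K] F' := { φ with commutes' := fun a => hφ a }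
  haveI : Algebra.EssFiniteType K F' := (Algebra.EssFiniteType.iff_of_algEquiv ψ).mp inferInstance
  exact Algebra.EssFiniteType.of_comp K K' F'

include σ φ hφ in
/-- principal divisors are transported. -/
theorem hasPrincipalDivisors_of_equiv [HasPrincipalDivisors K F] : HasPrincipalDivisors K' F' := by
  refine ⟨fun f' hf' => ?_⟩
  have hf : φ.symm f' ≠ 0 := (map_ne_zero φ.symm).mpr hf'
  obtain ⟨D, hD, hdeg⟩ := HasPrincipalDivisors.exists_divisor (K := K) (φ.symm f') hf
  refine ⟨divisorMapEquiv σ φ hφ D, fun w => ?_, ?_⟩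
  · rw [divisorMapEquiv_apply, hD, ← ord_placeMap_symm σ φ hφ, RingEquiv.apply_symm_apply]
  · rw [degree_divisorMapEquiv, hdeg]

include σ φ hφ in
/-- **`IsCurveOver` is transported.** -/
theorem isCurveOver_of_equiv [IsCurveOver K F] : IsCurveOver K' F' := by
  haveI := hasPrincipalDivisors_of_equiv σ φ hφ
  refine { finiteResidue := fun w => ?_, kaehler_free_rank_one := ⟨?_, ?_⟩ }
  · have h1 : placeMap σ φ hφ (placeMap σ.symm φ.symm (symm_compat σ φ hφ) w) = w :=
      (placeMapEquiv σ φ hφ).apply_symm_apply w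
    haveI : Module.Finite K (placeMap σ.symm φ.symm (symm_compat σ φ hφ) w).ResidueField :=
      IsCurveOver.finiteResidue _
    have h2 := finite_residueField_placeMap σ φ hφ
      (placeMap σ.symm φ.symm (symm_compat σ φ hφ) w)
    rw [h1] at h2
    exact h2
  · exact Module.Free.of_divisionRing F' Ω[F'⁄K']
  · exact finrank_kaehler_eq_one_of_equiv σ φ hφ IsCurveOver.finrank_kaehler

end

section Universe

universe u₁ u₂

/-- algebraic closedness is transported along a ring isomorphism (any universes; Mathlib's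
`IsAlgClosed.of_ringEquiv` is restricted to one universe). -/
theorem isAlgClosed_of_ringEquiv' {k : Type u₁} {k' : Type u₂} [Field k] [Field k']
    (e : k ≃+* k') [IsAlgClosed k] : IsAlgClosed k' := by
  apply IsAlgClosed.of_exists_root
  intro p _ hp
  have hpe : Polynomial.degree (p.map e.symm.toRingHom) ≠ 0 := by
    rw [Polynomial.degree_map]
    exact ne_of_gt (Polynomial.degree_pos_of_irreducible hp)
  rcases IsAlgClosed.exists_root (k := k) (p.map e.symm.toRingHom) hpe with ⟨x, hx⟩
  refine ⟨e x, ?_⟩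
  rw [Polynomial.IsRoot, Polynomial.eval_map] at hx
  have h2 := congrArg (e : k →+* k') hx
  rw [map_zero, Polynomial.hom_eval₂] at h2
  have h3 : (e : k →+* k').comp e.symm.toRingHom = RingHom.id k' := by
    ext y
    simp
  rw [h3, Polynomial.eval₂_id] at h2
  exact h2

/-- **(TRANSPORT), final wrapper: the frozen statement S27 for fields in two different universes
follows from the same statement for fields in one universe** (apply it to `ULift K`, `ULift F`). -/
theorem result_of_same_universe
    (h : ∀ (K F : Type (max u₁ u₂)) [Field K] [Field F] [Algebra K F] [IsAlgClosed K] [CharZero K]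
      [IsCurveOver K F] [Algebra.EssFiniteType K F] (ℓ : ℕ) [Fact ℓ.Prime] (k : ℕ),
      Nat.card (Pic0.torsion K F (ℓ ^ k)) = ℓ ^ (2 * genusFF K F * k))
    (K : Type u₁) (F : Type u₂) [Field K] [Field F] [Algebra K F] [IsAlgClosed K] [CharZero K]
    [IsCurveOver K F] [Algebra.EssFiniteType K F] (ℓ : ℕ) [Fact ℓ.Prime] (k : ℕ) :
    Nat.card (Pic0.torsion K F (ℓ ^ k)) = ℓ ^ (2 * genusFF K F * k) := by
  let σ : K ≃+* ULift.{max u₁ u₂} K := ULift.ringEquiv.symm
  let φ : F ≃+* ULift.{max u₁ u₂} F := ULift.ringEquiv.symm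
  letI : Algebra (ULift.{max u₁ u₂} K) (ULift.{max u₁ u₂} F) :=
    (φ.toRingHom.comp ((algebraMap K F).comp σ.symm.toRingHom)).toAlgebra
  have hφ : ∀ a : K, φ (algebraMap K F a) =
      algebraMap (ULift.{max u₁ u₂} K) (ULift.{max u₁ u₂} F) (σ a) := fun a => rfl
  haveI : IsAlgClosed (ULift.{max u₁ u₂} K) := isAlgClosed_of_ringEquiv' σ
  haveI : CharZero (ULift.{max u₁ u₂} K) := charZero_of_injective_ringHom (f := σ.toRingHom)
    σ.injective
  haveI : IsCurveOver (ULift.{max u₁ u₂} K) (ULift.{max u₁ u₂} F) := isCurveOver_of_equiv σ φ hφ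
  haveI : Algebra.EssFiniteType (ULift.{max u₁ u₂} K) (ULift.{max u₁ u₂} F) :=
    essFiniteType_of_equiv σ φ hφ
  rw [natCard_torsion_eq σ φ hφ, genusFF_eq σ φ hφ]
  exact h (ULift.{max u₁ u₂} K) (ULift.{max u₁ u₂} F) ℓ k

end Universe

end Fermat.Agent.JAC.TR
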