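/-
PROJECT JAC (S25) — helper3 — (TW)/(D3) **abstract covering lemma**: on a scheme `X` with a
two-affine cover `U₀ ⊔ U₁ = ⊤`, `D(y) = U₀ ⊓ U₁`, twist data `O(n · V(y))`, enough rational points,
finitely generated `Ȟ¹(M)` and finite-dimensional `H⁰`, every line bundle `M` has a twist
`L' = M ⊗ O(n V(y)) ⊗ O(p₁)⁻¹ ⊗ … ⊗ O(p_r)⁻¹ ⊗ O(ε)` with `Ȟ¹(L') = 0` and `H⁰(L')` a line spanned by
a section not vanishing at `ε`.
-/
import Mathlib
import Fermat.Agent.JAC.TW_helper3_Frame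
import Fermat.Agent.JAC.TW_helper3_Remove

set_option autoImplicit false

open AlgebraicGeometry CategoryTheory Opposite TopologicalSpace

universe u

namespace Fermat.Agent.JAC.TW

open Fermat.Agent.AV Fermat.Agent.AV.LB Fermat.Agent.AV.CP Fermat.Agent.JAC.CBC

noncomputable section

variable {X : Scheme.{u}} {K : Type*} [Field K]

/-- **(D3), abstract form**, from Serre vanishing for one twist. -/
theorem exists_chart_twist {ιK : K →+* Γ(X, ⊤)} {U₀ U₁ : X.Opens} (hcov : U₀ ⊔ U₁ = ⊤)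
    (h₀ : IsAffineOpen U₀) (h₁ : IsAffineOpen U₁) {y : Γ(X, U₁)}
    (T : ∀ n, TwistDatum X U₀ U₁ y n)
    {I : Type*} {pt : I → X} (PD : ∀ i, PointDiv X (pt i)) (hrat : ∀ i, IsRatPt ιK (pt i))
    (hgen : ∀ (E : LB X) (σ : E.SecOn ⊤), σ ≠ 0 → ∃ i, ¬ σ.VanishesAt (pt i))
    {ε : X} (hratε : IsRatPt ιK ε) (Pε : PointDiv X ε)
    (M : LB X) (hS : ∃ n, H1Vanishes (M.tensor (T n).Q) U₀ U₁)
    (hfin : ∀ n, Module.Finite K (GlobSec ιK (M.tensor (T n).Q))) :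
    ∃ (n : ℕ) (ps : List I),
      H1Vanishes ((twistDown PD (M.tensor (T n).Q) ps).tensor Pε.Q) U₀ U₁ ∧
      (∃ σ : ((twistDown PD (M.tensor (T n).Q) ps).tensor Pε.Q).SecOn ⊤, ¬ σ.VanishesAt ε ∧
        ∀ τ : ((twistDown PD (M.tensor (T n).Q) ps).tensor Pε.Q).SecOn ⊤,
          ∃! c : K, τ = ksmul ιK c σ) ∧
      PicGroup.mk ((twistDown PD (M.tensor (T n).Q) ps).tensor Pε.Q) =
        PicGroup.mk M + (PicGroup.mk (T n).Q - (ps.map fun i => PicGroup.mk (PD i).Q).sum +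
          PicGroup.mk Pε.Q) := by
  obtain ⟨n₀, hE⟩ := hS
  have := hfin n₀
  obtain ⟨ps, h1, h2⟩ := exists_twistDown (ιK := ιK) PD hrat hcov hgen (M.tensor (T n₀).Q) hE
  obtain ⟨h3, h4⟩ := exists_generator_tensor hratε Pε hcov h₀ h₁ _ h1 h2
  refine ⟨n₀, ps, h3, h4, ?_⟩
  rw [PicGroup.mk_tensor, mk_twistDown, PicGroup.mk_tensor]
  abel

/-- Serre vanishing from a pole bound. -/
theorem exists_h1Vanishes_of_poleBound {U₀ U₁ : X.Opens} {y : Γ(X, U₁)}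
    (T : ∀ n, TwistDatum X U₀ U₁ y n) (M : LB X) (h : ∃ n, PoleBound M U₀ U₁ y n) :
    ∃ n, H1Vanishes (M.tensor (T n).Q) U₀ U₁ := by
  obtain ⟨n, hn⟩ := h
  exact ⟨n, h1Vanishes_tensor_of_poleBound (T n) hn⟩

end

end Fermat.Agent.JAC.TW
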