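/-
PROJECT JAC (S25) — helper3 — (TW)/(D3) **the covering lemma with the twisting bundle pulled back
from the base curve**: for `φ : Y ⟶ C` (think `Y = C ×_k Spec κ`), two-affine data on `C` and
point divisors on `Y` whose bundles are pulled back from `C`, every line bundle `M` on `Y` has a
twist `M ⊗ φ^*N'`, `N' = O(n V(y)) ⊗ O(p₁)⁻¹ ⊗ … ⊗ O(p_r)⁻¹ ⊗ O(ε)` a line bundle on `C`, with
`Ȟ¹ = 0` and `H⁰` a line spanned by a section not vanishing at `ε`.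
-/
import Mathlib
import Fermat.Agent.JAC.TW_helper3_Assemble
import Fermat.Agent.JAC.TW_helper3_Twist

set_option autoImplicit false

open AlgebraicGeometry CategoryTheory Opposite TopologicalSpace

universe u

namespace Fermat.Agent.JAC.TW

open Fermat.Agent.AV Fermat.Agent.AV.LB Fermat.Agent.AV.CP Fermat.Agent.JAC.CBC

noncomputable section

/-! ### transport of a generator along an isomorphism -/

section iso

variable {X : Scheme.{u}} {K : Type*} [Field K]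

theorem mapSecOn_ksmul {ιK : K →+* Γ(X, ⊤)} {M N : LB X} (D : IsoData M N) {V : X.Opens} (c : K)
    (t : M.SecOn V) : D.mapSecOn (ksmul ιK c t) = ksmul ιK c (D.mapSecOn t) := by
  unfold ksmul
  rw [mapSecOn_smul]

/-- "`H⁰` is the line spanned by a section not vanishing at `ε`" is invariant under
isomorphisms. -/
theorem exists_generator_of_iso {ιK : K →+* Γ(X, ⊤)} {M N : LB X} (D : IsoData M N) {ε : X}
    (h : ∃ σ : M.SecOn ⊤, ¬ σ.VanishesAt ε ∧ ∀ τ : M.SecOn ⊤, ∃! c : K, τ = ksmul ιK c σ) :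
    ∃ σ : N.SecOn ⊤, ¬ σ.VanishesAt ε ∧ ∀ τ : N.SecOn ⊤, ∃! c : K, τ = ksmul ιK c σ := by
  obtain ⟨σ, hσ, hgen⟩ := h
  refine ⟨D.mapSecOn σ, by rwa [vanishesAt_mapSecOn_iff], fun τ => ?_⟩
  obtain ⟨c, hc, hc'⟩ := hgen (D.symm.mapSecOn τ)
  refine ⟨c, ?_, fun c' h' => hc' c' ?_⟩
  · show τ = ksmul ιK c (D.mapSecOn σ)
    rw [← mapSecOn_ksmul, ← hc, mapSecOn_symm_mapSecOn]
  · show D.symm.mapSecOn τ = ksmul ιK c' σ
    have h'' : τ = ksmul ιK c' (D.mapSecOn σ) := h'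
    rw [h'', mapSecOn_ksmul, symm_mapSecOn_mapSecOn]

end iso

/-! ### the twisting bundles on the base -/

variable {C Y : Scheme.{u}}

/-- the line bundle `O(n V(y)) ⊗ O(p₁)⁻¹ ⊗ … ⊗ O(p_r)⁻¹ ⊗ O(ε)` on `C`. -/
def chartBundle {U₀ U₁ : C.Opens} (hcov : U₀ ⊔ U₁ = ⊤) {y : Γ(C, U₁)} (hnzd : IsNZDOn U₁ y)
    (hy : C.basicOpen y = U₀ ⊓ U₁) {I : Type*} {ptC : I → C} (PDC : ∀ i, PointDiv C (ptC i))
    {εC : C} (PεC : PointDiv C εC) (j : ℕ × List I) : LB C :=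
  (twistDown PDC (twistDatum hcov hnzd (isUnit_res_of_basicOpen_eq hy) j.1).Q j.2).tensor PεC.Q

theorem sum_map_mk_pullback (φ : Y ⟶ C) {I : Type*} {ptC : I → C} (PDC : ∀ i, PointDiv C (ptC i))
    {pt : I → Y} (PD : ∀ i, PointDiv Y (pt i)) (hQ : ∀ i, (PD i).Q = (PDC i).Q.pullback φ)
    (ps : List I) :
    PicGroup.map φ (ps.map fun i => PicGroup.mk (PDC i).Q).sum =
      (ps.map fun i => PicGroup.mk (PD i).Q).sum := by
  induction ps with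
  | nil => simp
  | cons i ps ih =>
    rw [List.map_cons, List.sum_cons, map_add, ih, List.map_cons, List.sum_cons, PicGroup.map_mk,
      hQ i]

/-- **(D3), pulled-back form.** -/
theorem exists_chart_twist_pullback (φ : Y ⟶ C) {K : Type*} [Field K] {ιK : K →+* Γ(Y, ⊤)}
    {U₀ U₁ : C.Opens} (hcov : U₀ ⊔ U₁ = ⊤) {y : Γ(C, U₁)} (hnzd : IsNZDOn U₁ y)
    (hy : C.basicOpen y = U₀ ⊓ U₁)
    (h₀ : IsAffineOpen (φ ⁻¹ᵁ U₀)) (h₁ : IsAffineOpen (φ ⁻¹ᵁ U₁))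
    {I : Type*} {ptC : I → C} (PDC : ∀ i, PointDiv C (ptC i))
    {pt : I → Y} (PD : ∀ i, PointDiv Y (pt i)) (hQ : ∀ i, (PD i).Q = (PDC i).Q.pullback φ)
    (hrat : ∀ i, IsRatPt ιK (pt i))
    (hgen : ∀ (E : LB Y) (σ : E.SecOn ⊤), σ ≠ 0 → ∃ i, ¬ σ.VanishesAt (pt i))
    {εC : C} (PεC : PointDiv C εC) {ε : Y} (Pε : PointDiv Y ε) (hQε : Pε.Q = PεC.Q.pullback φ)
    (hratε : IsRatPt ιK ε)
    (M : LB Y)
    (hS : ∃ n, H1Vanishes
      (M.tensor ((twistDatum hcov hnzd (isUnit_res_of_basicOpen_eq hy) n).Q.pullback φ))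
      (φ ⁻¹ᵁ U₀) (φ ⁻¹ᵁ U₁))
    (hfin : ∀ E : LB Y, Module.Finite K (GlobSec ιK E)) :
    ∃ j : ℕ × List I,
      H1Vanishes (M.tensor ((chartBundle hcov hnzd hy PDC PεC j).pullback φ))
        (φ ⁻¹ᵁ U₀) (φ ⁻¹ᵁ U₁) ∧
      ∃ σ : (M.tensor ((chartBundle hcov hnzd hy PDC PεC j).pullback φ)).SecOn ⊤,
        ¬ σ.VanishesAt ε ∧
        ∀ τ : (M.tensor ((chartBundle hcov hnzd hy PDC PεC j).pullback φ)).SecOn ⊤,
          ∃! c : K, τ = ksmul ιK c σ := by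
  have hcov' : φ ⁻¹ᵁ U₀ ⊔ φ ⁻¹ᵁ U₁ = ⊤ := by
    rw [eq_top_iff]
    intro x _
    have hx : φ x ∈ U₀ ⊔ U₁ := by rw [hcov]; trivial
    exact hx
  set TC : ∀ n, TwistDatum C U₀ U₁ y n :=
    fun n => twistDatum hcov hnzd (isUnit_res_of_basicOpen_eq hy) n with hTC
  obtain ⟨n, ps, hA, hB, hmk⟩ := exists_chart_twist (ιK := ιK) hcov' h₀ h₁
    (fun n => (TC n).pullback φ) PD hrat hgen hratε Pε M hS (fun n => hfin _)
  refine ⟨(n, ps), ?_⟩
  have hiso : LB.Iso ((twistDown PD (M.tensor ((TC n).pullback φ).Q) ps).tensor Pε.Q)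
      (M.tensor ((chartBundle hcov hnzd hy PDC PεC (n, ps)).pullback φ)) := by
    rw [← PicGroup.mk_eq_mk_iff, hmk, PicGroup.mk_tensor, ← PicGroup.map_mk]
    congr 1
    unfold chartBundle
    rw [PicGroup.mk_tensor, mk_twistDown, map_add, map_sub, sum_map_mk_pullback φ PDC PD hQ,
      PicGroup.map_mk, PicGroup.map_mk, hQε]
    rfl
  obtain ⟨D⟩ := hiso
  exact ⟨h1Vanishes_of_iso ⟨D⟩ hA, exists_generator_of_iso D hB⟩

end

end Fermat.Agent.JAC.TW
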