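/-
PROJECT JAC (S25) — helper3 — (TW) **Serre vanishing from a pole bound for the structure sheaf**:
if every function on `W₀ ⊓ W₁` is, modulo functions on `W₀`, of the form `y⁻ᵉ s` with `s` a function
on `W₁` (i.e. `Ȟ¹(O)` has bounded poles along `V(y)`), then every line bundle has a pole bound, hence
`Ȟ¹(M ⊗ O(n V(y))) = 0` for `n ≫ 0`.  The pole bound for `O` pulls back along a morphism `φ : Y ⟶ C`
as soon as the functions on `φ⁻¹(U₀ ⊓ U₁)` are generated by pulled-back functions over global ones.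
-/
import Mathlib
import Fermat.Agent.JAC.TW_helper3_Frame

set_option autoImplicit false

open AlgebraicGeometry CategoryTheory Opposite TopologicalSpace

universe u

namespace Fermat.Agent.JAC.TW

open Fermat.Agent.AV Fermat.Agent.AV.LB Fermat.Agent.AV.CP Fermat.Agent.JAC.CBC

noncomputable section

variable {X : Scheme.{u}}

/-- every function on `W₀ ⊓ W₁` is, modulo functions on `W₀`, of the form `y⁻ᵉ s` with `s` a
function on `W₁`. -/
def StructPoleBound (W₀ W₁ : X.Opens) (y : Γ(X, W₁)) (e : ℕ) : Prop :=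
  ∀ r : Γ(X, W₀ ⊓ W₁), ∃ (r₀ : Γ(X, W₀)) (s : Γ(X, W₁)),
    (res (W₀ ⊓ W₁) inf_le_right y) ^ e * (r - res (W₀ ⊓ W₁) inf_le_left r₀) =
      res (W₀ ⊓ W₁) inf_le_right s

/-- **a pole bound for `O` gives a pole bound for every line bundle.** -/
theorem exists_poleBound_of_struct {W₀ W₁ : X.Opens} (hW₀ : IsAffineOpen W₀)
    (hW₁ : IsAffineOpen W₁) {y : Γ(X, W₁)} (hy : X.basicOpen y = W₀ ⊓ W₁) {e : ℕ}
    (h : StructPoleBound W₀ W₁ y e) (M : LB X) : ∃ n, PoleBound M W₀ W₁ y n := by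
  classical
  obtain ⟨N, m, τ, hexp⟩ := exists_expansion hW₀ M
  set y' := res (W₀ ⊓ W₁) inf_le_right y with hy'
  -- the generators extend to `W₁` after multiplication by a power of `y`
  have hext : ∀ k, ∃ (n : ℕ) (b : M.SecOn W₁),
      b.restrict inf_le_right = y' ^ n • (m k).restrict (inf_le_left : W₀ ⊓ W₁ ≤ W₀) := by
    intro k
    have key : ∀ (V : X.Opens) (hV : V = X.basicOpen y) (hle : V ≤ W₁) (v : M.SecOn V),
        ∃ (n : ℕ) (b : M.SecOn W₁), b.restrict hle = (res V hle y) ^ n • v := by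
      intro V hV hle v
      subst hV
      exact exists_pow_smul_eq_restrict hW₁ y M v
    exact key (W₀ ⊓ W₁) hy.symm inf_le_right _
  choose nk b hb using hext
  set e' : ℕ := ∑ k, nk k with he'
  have hle : ∀ k, nk k ≤ e' := fun k =>
    Finset.single_le_sum (fun _ _ => Nat.zero_le _) (Finset.mem_univ k)
  have hb' : ∀ k, ((y ^ (e' - nk k)) • b k).restrict (inf_le_right : W₀ ⊓ W₁ ≤ W₁) =
      y' ^ e' • (m k).restrict (inf_le_left : W₀ ⊓ W₁ ≤ W₀) := by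
    intro k
    rw [restrict_smul', hb k, map_pow, ← mul_smul, ← pow_add, Nat.sub_add_cancel (hle k)]
  refine ⟨e + e', fun u => ?_⟩
  set f : Fin N → Γ(X, W₀ ⊓ W₁) := fun k => pair ((τ k).restrict inf_le_left) u with hf
  have hu : u = ∑ k, f k • (m k).restrict (inf_le_left : W₀ ⊓ W₁ ≤ W₀) := hexp _ inf_le_left u
  choose r₀ s hs using fun k => h (f k)
  refine ⟨∑ k, r₀ k • m k, ∑ k, s k • (y ^ (e' - nk k)) • b k, ?_⟩
  have h1 : (∑ k, r₀ k • m k).restrict (inf_le_left : W₀ ⊓ W₁ ≤ W₀) =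
      ∑ k, res (W₀ ⊓ W₁) inf_le_left (r₀ k) • (m k).restrict inf_le_left := by
    rw [show (∑ k, r₀ k • m k).restrict (inf_le_left : W₀ ⊓ W₁ ≤ W₀) =
      ∑ k, (r₀ k • m k).restrict (inf_le_left : W₀ ⊓ W₁ ≤ W₀) from
        map_sum (restrictHom inf_le_left) _ _]
    exact Finset.sum_congr rfl fun k _ => restrict_smul' _ _ _
  have h2 : (∑ k, s k • (y ^ (e' - nk k)) • b k).restrict (inf_le_right : W₀ ⊓ W₁ ≤ W₁) =
      ∑ k, (y' ^ e * (f k - res (W₀ ⊓ W₁) inf_le_left (r₀ k))) •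
        (y' ^ e' • (m k).restrict (inf_le_left : W₀ ⊓ W₁ ≤ W₀)) := by
    rw [show (∑ k, s k • (y ^ (e' - nk k)) • b k).restrict (inf_le_right : W₀ ⊓ W₁ ≤ W₁) =
      ∑ k, (s k • (y ^ (e' - nk k)) • b k).restrict (inf_le_right : W₀ ⊓ W₁ ≤ W₁) from
        map_sum (restrictHom inf_le_right) _ _]
    refine Finset.sum_congr rfl fun k _ => ?_
    rw [restrict_smul', hb' k, hs k]
  rw [h2]
  conv_lhs => rw [hu, h1, ← Finset.sum_sub_distrib, Finset.smul_sum]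
  refine Finset.sum_congr rfl fun k _ => ?_
  rw [← sub_smul, ← mul_smul, ← mul_smul, pow_add]
  congr 1
  ring

/-- **the pole bound for `O` pulls back** along `φ : Y ⟶ C` as soon as the functions on
`φ⁻¹(U₀ ⊓ U₁)` are combinations of pulled-back functions with global coefficients. -/
theorem structPoleBound_pullback {C Y : Scheme.{u}} (φ : Y ⟶ C) {U₀ U₁ : C.Opens}
    {y : Γ(C, U₁)} {e : ℕ} (h : StructPoleBound U₀ U₁ y e)
    (hgen : ∀ r : Γ(Y, φ ⁻¹ᵁ U₀ ⊓ φ ⁻¹ᵁ U₁), ∃ (n : ℕ) (β : Fin n → Γ(Y, ⊤))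
      (ρ : Fin n → Γ(C, U₀ ⊓ U₁)),
      r = ∑ i, res (φ ⁻¹ᵁ U₀ ⊓ φ ⁻¹ᵁ U₁) le_top (β i) * appInf φ U₀ U₁ (ρ i)) :
    StructPoleBound (φ ⁻¹ᵁ U₀) (φ ⁻¹ᵁ U₁) ((φ.app U₁).hom y) e := by
  classical
  intro r
  obtain ⟨n, β, ρ, hr⟩ := hgen r
  choose r₀ s hs using fun i => h (ρ i)
  refine ⟨∑ i, res (φ ⁻¹ᵁ U₀) le_top (β i) * (φ.app U₀).hom (r₀ i),
    ∑ i, res (φ ⁻¹ᵁ U₁) le_top (β i) * (φ.app U₁).hom (s i), ?_⟩
  have hs' : ∀ i, res (φ ⁻¹ᵁ U₀ ⊓ φ ⁻¹ᵁ U₁) inf_le_right ((φ.app U₁).hom y) ^ e *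
      (appInf φ U₀ U₁ (ρ i) - res (φ ⁻¹ᵁ U₀ ⊓ φ ⁻¹ᵁ U₁) inf_le_left ((φ.app U₀).hom (r₀ i))) =
      res (φ ⁻¹ᵁ U₀ ⊓ φ ⁻¹ᵁ U₁) inf_le_right ((φ.app U₁).hom (s i)) := by
    intro i
    have h1 := congrArg (appInf φ U₀ U₁) (hs i)
    rw [map_mul, map_pow, map_sub, appInf_res_right, appInf_res_left, appInf_res_right] at h1
    exact h1
  rw [hr, map_sum, map_sum, ← Finset.sum_sub_distrib, Finset.mul_sum]
  refine Finset.sum_congr rfl fun i _ => ?_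
  rw [map_mul, map_mul, res_res, res_res, ← hs' i]
  ring

end

end Fermat.Agent.JAC.TW
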