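/-
PROJECT JAC (S25) — helper3 — (TW) **Künneth generation**: on `Y = X ×_K T` (`T` affine) the functions
on `p₁⁻¹U` (`U` affine) are combinations of pulled-back functions from `U` with coefficients global
functions pulled back from `T`; hence the pole bound for `O_X` pulls back to `Y`.
-/
import Mathlib
import Fermat.Agent.JAC.TW_helper3_Pole
import Fermat.Agent.AV.CP_helper8_Kunneth

set_option autoImplicit false

open AlgebraicGeometry CategoryTheory Opposite TopologicalSpace CategoryTheory.Limits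

open scoped TensorProduct

universe u

namespace Fermat.Agent.JAC.TW

open Fermat.Agent.AV Fermat.Agent.AV.LB Fermat.Agent.AV.CP Fermat.Agent.JAC.CBC

noncomputable section

variable {K : Type u} [Field K] {X T Y : Scheme.{u}} [KScheme K X] [KScheme K T]
  {p₁ : Y ⟶ X} {p₂ : Y ⟶ T}

theorem kunβ_eq_res (U : X.Opens) (b : Γ(T, ⊤)) :
    kunβ p₁ p₂ U b = res (p₁ ⁻¹ᵁ U) le_top (p₂.appTop.hom b) := by
  simp only [kunβ, Scheme.Hom.appLE, res, Scheme.Hom.appTop]
  rfl

/-- every function on `p₁⁻¹U` is a combination of pulled-back functions. -/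
theorem exists_list_of_kunneth [IsAffine T]
    (H : IsPullback p₁ p₂ (KScheme.str (K := K)) (KScheme.str (K := K)))
    {U : X.Opens} (hU : IsAffineOpen U) (r : Γ(Y, p₁ ⁻¹ᵁ U)) :
    ∃ l : List (Γ(T, ⊤) × Γ(X, U)),
      r = (l.map fun q => kunβ p₁ p₂ U q.1 * kunα p₁ U q.2).sum := by
  obtain ⟨z, rfl⟩ := (kunneth H hU).surjective r
  induction z using TensorProduct.induction_on with
  | zero => exact ⟨[], by simp⟩
  | tmul b a => exact ⟨[(b, a)], by simp [kunneth_tmul]⟩
  | add z w hz hw =>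
    obtain ⟨l, hl⟩ := hz
    obtain ⟨l', hl'⟩ := hw
    exact ⟨l ++ l', by rw [map_add, hl, hl', List.map_append, List.sum_append]⟩

/-- the same, indexed by `Fin n` and with the coefficients as global functions on `Y`. -/
theorem exists_sum_of_kunneth [IsAffine T]
    (H : IsPullback p₁ p₂ (KScheme.str (K := K)) (KScheme.str (K := K)))
    {U : X.Opens} (hU : IsAffineOpen U) (r : Γ(Y, p₁ ⁻¹ᵁ U)) :
    ∃ (n : ℕ) (β : Fin n → Γ(Y, ⊤)) (ρ : Fin n → Γ(X, U)),
      r = ∑ i, res (p₁ ⁻¹ᵁ U) le_top (β i) * (p₁.app U).hom (ρ i) := by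
  obtain ⟨l, hl⟩ := exists_list_of_kunneth H hU r
  refine ⟨l.length, fun i => p₂.appTop.hom (l.get i).1, fun i => (l.get i).2, ?_⟩
  rw [hl, ← List.sum_ofFn]
  congr 1
  conv_lhs => rw [← List.ofFn_get l]
  rw [List.map_ofFn]
  congr 1

/-- **the pole bound for `O` pulls back to `X ×_K T`.** -/
theorem structPoleBound_of_isPullback [IsAffine T]
    (H : IsPullback p₁ p₂ (KScheme.str (K := K)) (KScheme.str (K := K)))
    {U₀ U₁ : X.Opens} (h₀₁ : IsAffineOpen (U₀ ⊓ U₁)) {y : Γ(X, U₁)} {e : ℕ}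
    (h : StructPoleBound U₀ U₁ y e) :
    StructPoleBound (p₁ ⁻¹ᵁ U₀) (p₁ ⁻¹ᵁ U₁) ((p₁.app U₁).hom y) e :=
  structPoleBound_pullback p₁ h fun r => exists_sum_of_kunneth H h₀₁ r

end

end Fermat.Agent.JAC.TW
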