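/-
PROJECT JAC (S25) — helper3 — (TW) **the pole bound for the structure sheaf of a two-affine cover**
`W₀ = D(x)^c`-type: if `x` on `W₀`, `y` on `W₁` are inverse to each other on `W₀ ⊓ W₁ = D(x) = D(y)`
and `Γ(W₀)` is a finite module over `K[x]`, then `O` has a pole bound (helper8's Laurent splitting).
-/
import Mathlib
import Fermat.Agent.JAC.TW_helper3_Pole
import Fermat.Agent.JAC.CBC_helper8_Laurent

set_option autoImplicit false

open AlgebraicGeometry CategoryTheory Opposite TopologicalSpace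

universe u

namespace Fermat.Agent.JAC.TW

open Fermat.Agent.AV Fermat.Agent.AV.LB Fermat.Agent.AV.CP Fermat.Agent.JAC.CBC

noncomputable section

variable {X : Scheme.{u}}

/-- functions on `D(f) = V ⊆ W` extend to the affine open `W` after multiplication by a power of
`f`. -/
theorem exists_res_eq_pow_mul_of_basicOpen_eq {W V : X.Opens} (hW : IsAffineOpen W)
    (f : Γ(X, W)) (hV : V ≤ W) (hf : X.basicOpen f = V) (r : Γ(X, V)) :
    ∃ (n : ℕ) (g : Γ(X, W)), res V hV g = res V hV f ^ n * r := by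
  subst hf
  obtain ⟨n, g, hg⟩ := exists_res_eq_pow_mul hW (le_refl W) f
    (res (W ⊓ X.basicOpen f) inf_le_right r)
  refine ⟨n, g, ?_⟩
  have h2 := congrArg (res (X.basicOpen f) (le_inf (X.basicOpen_le f) le_rfl)) hg
  rw [map_mul, map_pow, res_res, res_res, res_res, res_self] at h2
  exact h2

/-- **the pole bound for `O`** on a two-affine cover whose first chart is finite over `K[x]`. -/
theorem exists_structPoleBound {K : Type*} [Field K] (ιK : K →+* Γ(X, ⊤)) {W₀ W₁ : X.Opens}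
    (hW₀ : IsAffineOpen W₀) (hW₁ : IsAffineOpen W₁) (x : Γ(X, W₀)) (y : Γ(X, W₁))
    (hx : X.basicOpen x = W₀ ⊓ W₁) (hy : X.basicOpen y = W₀ ⊓ W₁)
    (hxy : res (W₀ ⊓ W₁) inf_le_left x * res (W₀ ⊓ W₁) inf_le_right y = 1)
    {n : ℕ} (ρ : Fin n → Γ(X, W₀))
    (hρ : ∀ r : Γ(X, W₀), ∃ p : Fin n → Polynomial K,
      r = ∑ i, Polynomial.eval₂ ((res W₀ le_top).comp ιK) x (p i) * ρ i) :
    ∃ e, StructPoleBound W₀ W₁ y e := by
  classical
  let _ : Algebra K Γ(X, W₀ ⊓ W₁) := ((res (W₀ ⊓ W₁) le_top).comp ιK).toAlgebra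
  have halg : ∀ c : K, algebraMap K Γ(X, W₀ ⊓ W₁) c = res (W₀ ⊓ W₁) le_top (ιK c) := fun _ => rfl
  set t : Γ(X, W₀ ⊓ W₁) := res (W₀ ⊓ W₁) inf_le_left x with ht
  set s : Γ(X, W₀ ⊓ W₁) := res (W₀ ⊓ W₁) inf_le_right y with hs
  -- the two subalgebras
  let S : Subalgebra K Γ(X, W₀ ⊓ W₁) :=
    { (res (W₀ ⊓ W₁) (inf_le_left : W₀ ⊓ W₁ ≤ W₀)).range with
      algebraMap_mem' := fun c => ⟨res W₀ le_top (ιK c), by rw [res_res]; rfl⟩ }
  let S' : Subalgebra K Γ(X, W₀ ⊓ W₁) :=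
    { (res (W₀ ⊓ W₁) (inf_le_right : W₀ ⊓ W₁ ≤ W₁)).range with
      algebraMap_mem' := fun c => ⟨res W₁ le_top (ιK c), by rw [res_res]; rfl⟩ }
  have hS : ∀ r, r ∈ S ↔ ∃ a : Γ(X, W₀), res (W₀ ⊓ W₁) inf_le_left a = r := fun _ => Iff.rfl
  have hS' : ∀ r, r ∈ S' ↔ ∃ a : Γ(X, W₁), res (W₀ ⊓ W₁) inf_le_right a = r := fun _ => Iff.rfl
  have htS : t ∈ S := ⟨x, rfl⟩
  have hsS' : s ∈ S' := ⟨y, rfl⟩
  -- generators
  set ρ' : Fin n → Γ(X, W₀ ⊓ W₁) := fun i => res (W₀ ⊓ W₁) inf_le_left (ρ i) with hρ'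
  have hρS : ∀ i, ρ' i ∈ S := fun i => ⟨ρ i, rfl⟩
  have hgen : ∀ r ∈ S, ∃ p : Fin n → Polynomial K, r = ∑ i, Polynomial.aeval t (p i) * ρ' i := by
    rintro _ ⟨a, rfl⟩
    obtain ⟨p, hp⟩ := hρ a
    refine ⟨p, ?_⟩
    rw [hp, map_sum]
    refine Finset.sum_congr rfl fun i _ => ?_
    rw [map_mul, Polynomial.hom_eval₂, Polynomial.aeval_def]
    congr 2
    ext c
    show res (W₀ ⊓ W₁) inf_le_left (res W₀ le_top (ιK c)) = res (W₀ ⊓ W₁) le_top (ιK c)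
    rw [res_res]
  -- uniform exponent for the generators
  have hext : ∀ i, ∃ (m : ℕ) (g : Γ(X, W₁)), res (W₀ ⊓ W₁) inf_le_right g = s ^ m * ρ' i :=
    fun i => exists_res_eq_pow_mul_of_basicOpen_eq hW₁ y inf_le_right hy (ρ' i)
  choose mk g hg using hext
  set e : ℕ := ∑ i, mk i with he
  have hle : ∀ i, mk i ≤ e := fun i =>
    Finset.single_le_sum (fun _ _ => Nat.zero_le _) (Finset.mem_univ i)
  let Ψ : Submodule K Γ(X, W₀ ⊓ W₁) :=
    { carrier := {r | s ^ e * r ∈ S'}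
      add_mem' := fun {a b} ha hb => by
        show s ^ e * (a + b) ∈ S'
        rw [mul_add]; exact S'.add_mem ha hb
      zero_mem' := by
        show s ^ e * 0 ∈ S'
        rw [mul_zero]; exact S'.zero_mem
      smul_mem' := fun c a ha => by
        show s ^ e * (c • a) ∈ S'
        rw [mul_smul_comm]; exact S'.smul_mem ha c }
  have hΨ : ∀ r, r ∈ Ψ ↔ s ^ e * r ∈ S' := fun _ => Iff.rfl
  have hΨmul : ∀ a ∈ S', ∀ b ∈ Ψ, a * b ∈ Ψ := by
    intro a ha b hb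
    rw [hΨ, mul_left_comm]
    exact S'.mul_mem ha hb
  have hρΨ : ∀ i, ρ' i ∈ Ψ := by
    intro i
    rw [hΨ]
    refine ⟨y ^ (e - mk i) * g i, ?_⟩
    rw [map_mul, map_pow, hg i, ← mul_assoc, ← pow_add, Nat.sub_add_cancel (hle i)]
  refine ⟨e, fun r => ?_⟩
  obtain ⟨m, a, ha⟩ := exists_res_eq_pow_mul_of_basicOpen_eq hW₀ x inf_le_left hx r
  have hr : t ^ m * r ∈ S := ⟨a, ha⟩
  obtain ⟨r₀, ⟨a₀, rfl⟩, r₁, hr₁, hsum⟩ := mem_sup_of_generators hxy S htS ρ' hgen hρS S' hsS' Ψ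
    hΨmul hρΨ hr
  obtain ⟨b, hb⟩ := (hΨ r₁).1 hr₁
  refine ⟨a₀, b, ?_⟩
  rw [hb, hsum, add_sub_cancel_left]

end

end Fermat.Agent.JAC.TW
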