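/-
PROJECT JAC (S25) — helper3 — (TW)/(D3) **Serre vanishing on `Y = C ×_K T`** (`T` affine) for the
twists pulled back from a two-affine cover of `C` whose first chart is finite over `K[x]`:
for every line bundle `M` on `Y`, `Ȟ¹(M ⊗ p₁^*O(n V(y))) = 0` for some `n`.
-/
import Mathlib
import Fermat.Agent.JAC.TW_helper3_Laurent
import Fermat.Agent.JAC.TW_helper3_Kun
import Fermat.Agent.JAC.TW_helper3_BaseChange

set_option autoImplicit false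

open AlgebraicGeometry CategoryTheory Opposite TopologicalSpace CategoryTheory.Limits

universe u

namespace Fermat.Agent.JAC.TW

open Fermat.Agent.AV Fermat.Agent.AV.LB Fermat.Agent.AV.CP Fermat.Agent.JAC.CBC

noncomputable section

variable {K : Type u} [Field K] {C T Y : Scheme.{u}} [KScheme K C] [KScheme K T]
  {p₁ : Y ⟶ C} {p₂ : Y ⟶ T}

/-- **Serre vanishing on `C ×_K T`.** -/
theorem exists_h1Vanishes_twist_of_isPullback [IsAffine T]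
    (H : IsPullback p₁ p₂ (KScheme.str (K := K)) (KScheme.str (K := K)))
    (ιK : K →+* Γ(C, ⊤)) {U₀ U₁ : C.Opens} (hU₀ : IsAffineOpen U₀) (hU₁ : IsAffineOpen U₁)
    (hcov : U₀ ⊔ U₁ = ⊤) (x : Γ(C, U₀)) (y : Γ(C, U₁))
    (hx : C.basicOpen x = U₀ ⊓ U₁) (hy : C.basicOpen y = U₀ ⊓ U₁)
    (hxy : res (U₀ ⊓ U₁) inf_le_left x * res (U₀ ⊓ U₁) inf_le_right y = 1)
    (hnzd : IsNZDOn U₁ y)
    {n : ℕ} (ρ : Fin n → Γ(C, U₀))
    (hρ : ∀ r : Γ(C, U₀), ∃ p : Fin n → Polynomial K,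
      r = ∑ i, Polynomial.eval₂ ((res U₀ le_top).comp ιK) x (p i) * ρ i)
    (h₀ : IsAffineOpen (p₁ ⁻¹ᵁ U₀)) (h₁ : IsAffineOpen (p₁ ⁻¹ᵁ U₁)) (M : LB Y) :
    ∃ n, H1Vanishes
      (M.tensor ((twistDatum hcov hnzd (isUnit_res_of_basicOpen_eq hy) n).Q.pullback p₁))
      (p₁ ⁻¹ᵁ U₀) (p₁ ⁻¹ᵁ U₁) := by
  obtain ⟨e, he⟩ := exists_structPoleBound ιK hU₀ hU₁ x y hx hy hxy ρ hρ
  have h₀₁ : IsAffineOpen (U₀ ⊓ U₁) := by
    rw [← hy]; exact hU₁.basicOpen y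
  have he' := structPoleBound_of_isPullback H h₀₁ he
  have hy' : Y.basicOpen ((p₁.app U₁).hom y) = p₁ ⁻¹ᵁ U₀ ⊓ p₁ ⁻¹ᵁ U₁ := by
    rw [← Scheme.preimage_basicOpen, hy]
    rfl
  exact exists_h1Vanishes_of_poleBound
    (fun n => (twistDatum hcov hnzd (isUnit_res_of_basicOpen_eq hy) n).pullback p₁) M
    (exists_poleBound_of_struct h₀ h₁ hy' he' M)

end

end Fermat.Agent.JAC.TW
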